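/-
S05 helper module (helper725): transfer of Galois-theoretic statements along an admissible
change of variables `(X, Y) = (u²x + r, u³y + u²sx + t)` of Weierstrass curves.

Main results (all in namespace `Fermat.Agent.S05.helper725`):
* `IsVarChange W₁ W₂ u r s t` : the (inverse-free) coefficient relation saying that the
  substitution `(X, Y) = (u²x + r, u³y + u²sx + t)` turns the equation of `W₂` into `u⁶ ·` that of `W₁`.
* `vcHom` : the induced additive map `W₁.Point →+ W₂.Point`, `(x, y) ↦ (u²x + r, u³y + u²sx + t)`.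
* `vcHom_injective`, `vcHom_map` (compatibility with `Point.map` of algebra maps).
* `galoisRepUnramifiedAt_of_isVarChange` : `GaloisRepUnramifiedAt` transfers from `W₂` to `W₁`.
* `frey_unramified_of_legendre`, `frey_unramified_of_legendre_shift` : the Frey curve versus
  the models `Y² = X³ + (B - A) X² - A B X` and `Y² = X³ + (A + C) X² + A C X`.
-/
import Mathlib
import Fermat.Prelude.Def_FLTPrelim_FreyPackage
import Fermat.Prelude.Def_FLTPrelim_GaloisRep
import Fermat.Prelude.Def_FLTPrelim_Ramification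

set_option autoImplicit false

namespace Fermat.Agent.S05.helper725

open WeierstrassCurve WeierstrassCurve.Affine

section Field

variable {K : Type*} [Field K]

/-- `IsVarChange W₁ W₂ u r s t`: substituting `(X, Y) = (u²x + r, u³y + u²sx + t)` into the
Weierstrass equation of `W₂` gives `u⁶` times the Weierstrass equation of `W₁`
(this is `W₁ = C • W₂` for `C = ⟨u, r, s, t⟩` in Mathlib's convention, written without inverses). -/
structure IsVarChange (W₁ W₂ : WeierstrassCurve K) (u r s t : K) : Prop where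
  hu : u ≠ 0
  h₁ : u * W₁.a₁ = W₂.a₁ + 2 * s
  h₂ : u ^ 2 * W₁.a₂ = W₂.a₂ - s * W₂.a₁ + 3 * r - s ^ 2
  h₃ : u ^ 3 * W₁.a₃ = W₂.a₃ + r * W₂.a₁ + 2 * t
  h₄ : u ^ 4 * W₁.a₄ = W₂.a₄ - s * W₂.a₃ + 2 * r * W₂.a₂ - (t + r * s) * W₂.a₁ + 3 * r ^ 2
    - 2 * s * t
  h₆ : u ^ 6 * W₁.a₆ = W₂.a₆ + r * W₂.a₄ + r ^ 2 * W₂.a₂ + r ^ 3 - t * W₂.a₃ - t ^ 2
    - r * t * W₂.a₁

variable {W₁ W₂ : WeierstrassCurve K} {u r s t : K}

namespace IsVarChange

lemma equation_iff (h : IsVarChange W₁ W₂ u r s t) (x y : K) :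
    W₂.toAffine.Equation (u ^ 2 * x + r) (u ^ 3 * y + u ^ 2 * s * x + t) ↔
      W₁.toAffine.Equation x y := by
  have hu6 : u ^ 6 ≠ 0 := pow_ne_zero 6 h.hu
  rw [Affine.equation_iff, Affine.equation_iff]
  have key : (u ^ 3 * y + u ^ 2 * s * x + t) ^ 2 + W₂.a₁ * (u ^ 2 * x + r) *
      (u ^ 3 * y + u ^ 2 * s * x + t) + W₂.a₃ * (u ^ 3 * y + u ^ 2 * s * x + t)
      - ((u ^ 2 * x + r) ^ 3 + W₂.a₂ * (u ^ 2 * x + r) ^ 2 + W₂.a₄ * (u ^ 2 * x + r) + W₂.a₆)
      = u ^ 6 * (y ^ 2 + W₁.a₁ * x * y + W₁.a₃ * y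
        - (x ^ 3 + W₁.a₂ * x ^ 2 + W₁.a₄ * x + W₁.a₆)) := by
    linear_combination (-(u ^ 5 * x * y)) * h.h₁ + (u ^ 4 * x ^ 2) * h.h₂ - (u ^ 3 * y) * h.h₃
      + (u ^ 2 * x) * h.h₄ + h.h₆
  constructor
  · intro H
    have : u ^ 6 * (y ^ 2 + W₁.a₁ * x * y + W₁.a₃ * y
        - (x ^ 3 + W₁.a₂ * x ^ 2 + W₁.a₄ * x + W₁.a₆)) = 0 := by
      rw [← key]; linear_combination H
    have := (mul_eq_zero.mp this).resolve_left hu6
    linear_combination this
  · intro H
    have : (u ^ 3 * y + u ^ 2 * s * x + t) ^ 2 + W₂.a₁ * (u ^ 2 * x + r) *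
      (u ^ 3 * y + u ^ 2 * s * x + t) + W₂.a₃ * (u ^ 3 * y + u ^ 2 * s * x + t)
      - ((u ^ 2 * x + r) ^ 3 + W₂.a₂ * (u ^ 2 * x + r) ^ 2 + W₂.a₄ * (u ^ 2 * x + r) + W₂.a₆)
      = 0 := by
      rw [key]; linear_combination (u ^ 6) * H
    linear_combination this

/-- The `Y`-partial derivative transforms by `u³`. -/
lemma polyY (h : IsVarChange W₁ W₂ u r s t) (x y : K) :
    2 * (u ^ 3 * y + u ^ 2 * s * x + t) + W₂.a₁ * (u ^ 2 * x + r) + W₂.a₃
      = u ^ 3 * (2 * y + W₁.a₁ * x + W₁.a₃) := by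
  linear_combination (-(u ^ 2 * x)) * h.h₁ - h.h₃

/-- The `X`-partial derivative transforms by `u⁴` up to a multiple of the `Y`-partial. -/
lemma polyX (h : IsVarChange W₁ W₂ u r s t) (x y : K) :
    3 * (u ^ 2 * x + r) ^ 2 + 2 * W₂.a₂ * (u ^ 2 * x + r) + W₂.a₄
        - W₂.a₁ * (u ^ 3 * y + u ^ 2 * s * x + t)
      = u ^ 4 * (3 * x ^ 2 + 2 * W₁.a₂ * x + W₁.a₄ - W₁.a₁ * y)
        + s * u ^ 3 * (2 * y + W₁.a₁ * x + W₁.a₃) := by
  linear_combination (u ^ 3 * y - s * u ^ 2 * x) * h.h₁ - (2 * u ^ 2 * x) * h.h₂ - s * h.h₃ - h.h₄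

lemma negY_eq (h : IsVarChange W₁ W₂ u r s t) (x y : K) :
    W₂.toAffine.negY (u ^ 2 * x + r) (u ^ 3 * y + u ^ 2 * s * x + t)
      = u ^ 3 * W₁.toAffine.negY x y + u ^ 2 * s * x + t := by
  simp only [Affine.negY]
  linear_combination (u ^ 2 * x) * h.h₁ + h.h₃

lemma nonsingular_iff (h : IsVarChange W₁ W₂ u r s t) (x y : K) :
    W₂.toAffine.Nonsingular (u ^ 2 * x + r) (u ^ 3 * y + u ^ 2 * s * x + t) ↔
      W₁.toAffine.Nonsingular x y := by
  have hu3 : u ^ 3 ≠ 0 := pow_ne_zero 3 h.hu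
  have hu4 : u ^ 4 ≠ 0 := pow_ne_zero 4 h.hu
  rw [Affine.nonsingular_iff, Affine.nonsingular_iff, h.equation_iff]
  have hY := h.polyY x y
  have hX := h.polyX x y
  have eY : (u ^ 3 * y + u ^ 2 * s * x + t = -(u ^ 3 * y + u ^ 2 * s * x + t)
      - W₂.a₁ * (u ^ 2 * x + r) - W₂.a₃) ↔ (y = -y - W₁.a₁ * x - W₁.a₃) := by
    constructor
    · intro H
      have : u ^ 3 * (2 * y + W₁.a₁ * x + W₁.a₃) = 0 := by rw [← hY]; linear_combination H
      have := (mul_eq_zero.mp this).resolve_left hu3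
      linear_combination this
    · intro H
      have : 2 * y + W₁.a₁ * x + W₁.a₃ = 0 := by linear_combination H
      linear_combination hY + (u ^ 3) * this
  constructor
  · rintro ⟨heq, hns⟩
    refine ⟨heq, ?_⟩
    by_contra hcon
    obtain ⟨c1, c2⟩ := not_or.mp hcon
    replace c1 := not_not.mp c1
    replace c2 := not_not.mp c2
    have c2' : 2 * y + W₁.a₁ * x + W₁.a₃ = 0 := by linear_combination c2
    rcases hns with hns | hns
    · apply hns
      linear_combination (-1 : K) * hX + (u ^ 4) * c1 + (-(s * u ^ 3)) * c2'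
    · exact hns (eY.mpr c2)
  · rintro ⟨heq, hns⟩
    refine ⟨heq, ?_⟩
    by_contra hcon
    obtain ⟨c1, c2⟩ := not_or.mp hcon
    replace c1 := not_not.mp c1
    replace c2 := not_not.mp c2
    have c2' := eY.mp c2
    have c2'' : 2 * y + W₁.a₁ * x + W₁.a₃ = 0 := by linear_combination c2'
    rcases hns with hns | hns
    · apply hns
      have : u ^ 4 * (3 * x ^ 2 + 2 * W₁.a₂ * x + W₁.a₄ - W₁.a₁ * y) = 0 := by
        linear_combination (-1 : K) * c1 - hX - (s * u ^ 3) * c2''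
      have := (mul_eq_zero.mp this).resolve_left hu4
      linear_combination (-1 : K) * this
    · exact hns c2'

lemma addX_eq (h : IsVarChange W₁ W₂ u r s t) (x₁ x₂ ℓ : K) :
    W₂.toAffine.addX (u ^ 2 * x₁ + r) (u ^ 2 * x₂ + r) (u * ℓ + s)
      = u ^ 2 * W₁.toAffine.addX x₁ x₂ ℓ + r := by
  simp only [Affine.addX]
  linear_combination (-(u * ℓ)) * h.h₁ + h.h₂

lemma negAddY_eq (h : IsVarChange W₁ W₂ u r s t) (x₁ x₂ y₁ ℓ : K) :
    W₂.toAffine.negAddY (u ^ 2 * x₁ + r) (u ^ 2 * x₂ + r) (u ^ 3 * y₁ + u ^ 2 * s * x₁ + t)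
        (u * ℓ + s)
      = u ^ 3 * W₁.toAffine.negAddY x₁ x₂ y₁ ℓ + u ^ 2 * s * W₁.toAffine.addX x₁ x₂ ℓ + t := by
  have hX := h.addX_eq x₁ x₂ ℓ
  simp only [Affine.negAddY]
  rw [hX]
  ring

lemma addY_eq (h : IsVarChange W₁ W₂ u r s t) (x₁ x₂ y₁ ℓ : K) :
    W₂.toAffine.addY (u ^ 2 * x₁ + r) (u ^ 2 * x₂ + r) (u ^ 3 * y₁ + u ^ 2 * s * x₁ + t)
        (u * ℓ + s)
      = u ^ 3 * W₁.toAffine.addY x₁ x₂ y₁ ℓ + u ^ 2 * s * W₁.toAffine.addX x₁ x₂ ℓ + t := by
  simp only [Affine.addY]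
  rw [h.negAddY_eq, h.addX_eq, h.negY_eq]

variable [DecidableEq K]

lemma slope_eq (h : IsVarChange W₁ W₂ u r s t) {x₁ x₂ y₁ y₂ : K}
    (e₁ : W₁.toAffine.Equation x₁ y₁) (e₂ : W₁.toAffine.Equation x₂ y₂)
    (hxy : ¬(x₁ = x₂ ∧ y₁ = W₁.toAffine.negY x₂ y₂)) :
    W₂.toAffine.slope (u ^ 2 * x₁ + r) (u ^ 2 * x₂ + r) (u ^ 3 * y₁ + u ^ 2 * s * x₁ + t)
        (u ^ 3 * y₂ + u ^ 2 * s * x₂ + t)
      = u * W₁.toAffine.slope x₁ x₂ y₁ y₂ + s := by
  have hu := h.hu
  have hu2 : u ^ 2 ≠ 0 := pow_ne_zero 2 hu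
  have hu3 : u ^ 3 ≠ 0 := pow_ne_zero 3 hu
  by_cases hx : x₁ = x₂
  · subst hx
    have hy : y₁ ≠ W₁.toAffine.negY x₁ y₂ := fun hy => hxy ⟨rfl, hy⟩
    have hyy : y₁ = y₂ := Affine.Y_eq_of_Y_ne e₁ e₂ rfl hy
    subst hyy
    have hy' : u ^ 3 * y₁ + u ^ 2 * s * x₁ + t ≠
        W₂.toAffine.negY (u ^ 2 * x₁ + r) (u ^ 3 * y₁ + u ^ 2 * s * x₁ + t) := by
      rw [h.negY_eq]
      intro hcon
      apply hy
      have : u ^ 3 * (y₁ - W₁.toAffine.negY x₁ y₁) = 0 := by linear_combination hcon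
      have := (mul_eq_zero.mp this).resolve_left hu3
      linear_combination this
    rw [Affine.slope_of_Y_ne rfl hy, Affine.slope_of_Y_ne rfl hy', h.negY_eq]
    have hy1 : y₁ - W₁.toAffine.negY x₁ y₁ ≠ 0 := sub_ne_zero.mpr hy
    have hX := h.polyX x₁ y₁
    have hden : u ^ 3 * y₁ + u ^ 2 * s * x₁ + t - (u ^ 3 * W₁.toAffine.negY x₁ y₁ + u ^ 2 * s * x₁ + t)
        = u ^ 3 * (y₁ - W₁.toAffine.negY x₁ y₁) := by ring
    have hnum : 3 * (u ^ 2 * x₁ + r) ^ 2 + 2 * W₂.a₂ * (u ^ 2 * x₁ + r) + W₂.a₄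
        - W₂.a₁ * (u ^ 3 * y₁ + u ^ 2 * s * x₁ + t)
        = u ^ 4 * (3 * x₁ ^ 2 + 2 * W₁.a₂ * x₁ + W₁.a₄ - W₁.a₁ * y₁)
          + s * u ^ 3 * (y₁ - W₁.toAffine.negY x₁ y₁) := by
      rw [hX]; simp only [Affine.negY]; ring
    rw [hden, hnum]
    field_simp
  · have hx' : u ^ 2 * x₁ + r ≠ u ^ 2 * x₂ + r := by
      intro hcon
      apply hx
      have : u ^ 2 * (x₁ - x₂) = 0 := by linear_combination hcon
      have := (mul_eq_zero.mp this).resolve_left hu2
      linear_combination this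
    rw [Affine.slope_of_X_ne hx, Affine.slope_of_X_ne hx']
    have hx1 : x₁ - x₂ ≠ 0 := sub_ne_zero.mpr hx
    field_simp
    ring

end IsVarChange

variable [DecidableEq K]

/-- The map on points induced by the substitution `(x, y) ↦ (u²x + r, u³y + u²sx + t)`. -/
def vcFun (h : IsVarChange W₁ W₂ u r s t) : W₁.toAffine.Point → W₂.toAffine.Point
  | .zero => .zero
  | .some x y hxy =>
    .some (u ^ 2 * x + r) (u ^ 3 * y + u ^ 2 * s * x + t) ((h.nonsingular_iff x y).mpr hxy)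

omit [DecidableEq K] in
lemma vcFun_zero (h : IsVarChange W₁ W₂ u r s t) : vcFun h 0 = 0 := rfl

omit [DecidableEq K] in
lemma vcFun_some (h : IsVarChange W₁ W₂ u r s t) {x y : K} (hxy : W₁.toAffine.Nonsingular x y) :
    vcFun h (.some x y hxy) =
      .some (u ^ 2 * x + r) (u ^ 3 * y + u ^ 2 * s * x + t) ((h.nonsingular_iff x y).mpr hxy) :=
  rfl

lemma vcFun_add (h : IsVarChange W₁ W₂ u r s t) (P Q : W₁.toAffine.Point) :
    vcFun h (P + Q) = vcFun h P + vcFun h Q := by
  have hu := h.hu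
  have hu2 : u ^ 2 ≠ 0 := pow_ne_zero 2 hu
  have hu3 : u ^ 3 ≠ 0 := pow_ne_zero 3 hu
  rcases P with _ | ⟨x₁, y₁, h₁⟩
  · change vcFun h (0 + Q) = 0 + vcFun h Q
    rw [zero_add, zero_add]
  rcases Q with _ | ⟨x₂, y₂, h₂⟩
  · change vcFun h (_ + 0) = _ + 0
    rw [add_zero, add_zero]
  by_cases hxy : x₁ = x₂ ∧ y₁ = W₁.toAffine.negY x₂ y₂
  · rw [Point.add_of_Y_eq hxy.1 hxy.2, vcFun_some, vcFun_some,
      Point.add_of_Y_eq (by rw [hxy.1]) (by rw [h.negY_eq, ← hxy.2, hxy.1])]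
    rfl
  · have hxy' : ¬(u ^ 2 * x₁ + r = u ^ 2 * x₂ + r ∧ u ^ 3 * y₁ + u ^ 2 * s * x₁ + t =
        W₂.toAffine.negY (u ^ 2 * x₂ + r) (u ^ 3 * y₂ + u ^ 2 * s * x₂ + t)) := by
      rintro ⟨c1, c2⟩
      apply hxy
      have hx : x₁ = x₂ := by
        have : u ^ 2 * (x₁ - x₂) = 0 := by linear_combination c1
        have := (mul_eq_zero.mp this).resolve_left hu2
        linear_combination this
      refine ⟨hx, ?_⟩
      rw [h.negY_eq, hx] at c2
      have : u ^ 3 * (y₁ - W₁.toAffine.negY x₂ y₂) = 0 := by linear_combination c2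
      have := (mul_eq_zero.mp this).resolve_left hu3
      linear_combination this
    rw [Point.add_some hxy, vcFun_some, vcFun_some, vcFun_some, Point.add_some hxy']
    simp only [Point.some.injEq]
    rw [h.slope_eq h₁.1 h₂.1 hxy, h.addX_eq, h.addY_eq]
    exact ⟨rfl, rfl⟩

/-- The additive map on points induced by an admissible change of variables. -/
def vcHom (h : IsVarChange W₁ W₂ u r s t) : W₁.toAffine.Point →+ W₂.toAffine.Point where
  toFun := vcFun h
  map_zero' := rfl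
  map_add' := vcFun_add h

lemma vcHom_apply (h : IsVarChange W₁ W₂ u r s t) (P : W₁.toAffine.Point) :
    vcHom h P = vcFun h P := rfl

lemma vcHom_some (h : IsVarChange W₁ W₂ u r s t) {x y : K} (hxy : W₁.toAffine.Nonsingular x y) :
    vcHom h (.some x y hxy) =
      .some (u ^ 2 * x + r) (u ^ 3 * y + u ^ 2 * s * x + t) ((h.nonsingular_iff x y).mpr hxy) :=
  rfl

lemma vcHom_injective (h : IsVarChange W₁ W₂ u r s t) : Function.Injective (vcHom h) := by
  have hu := h.hu
  have hu2 : u ^ 2 ≠ 0 := pow_ne_zero 2 hu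
  have hu3 : u ^ 3 ≠ 0 := pow_ne_zero 3 hu
  rintro (_ | ⟨x₁, y₁, h₁⟩) (_ | ⟨x₂, y₂, h₂⟩) hPQ
  · rfl
  · exact absurd hPQ (by rw [vcHom_apply, vcHom_apply, vcFun_some]; exact fun hh => by cases hh)
  · exact absurd hPQ (by rw [vcHom_apply, vcHom_apply, vcFun_some]; exact fun hh => by cases hh)
  · rw [vcHom_some, vcHom_some, Point.some.injEq] at hPQ
    obtain ⟨c1, c2⟩ := hPQ
    have hx : x₁ = x₂ := by
      have : u ^ 2 * (x₁ - x₂) = 0 := by linear_combination c1
      have := (mul_eq_zero.mp this).resolve_left hu2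
      linear_combination this
    subst hx
    have hy : y₁ = y₂ := by
      have : u ^ 3 * (y₁ - y₂) = 0 := by linear_combination c2
      have := (mul_eq_zero.mp this).resolve_left hu3
      linear_combination this
    subst hy
    rfl

omit [DecidableEq K] in
/-- `IsVarChange` is preserved by ring homomorphisms of fields. -/
lemma IsVarChange.map {L : Type*} [Field L] (h : IsVarChange W₁ W₂ u r s t) (φ : K →+* L) :
    IsVarChange (W₁.map φ) (W₂.map φ) (φ u) (φ r) (φ s) (φ t) where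
  hu := (map_ne_zero φ).mpr h.hu
  h₁ := by
    have := congrArg φ h.h₁
    simpa only [map_mul, map_add, map_sub, map_pow, map_ofNat, WeierstrassCurve.map_a₁,
      WeierstrassCurve.map_a₂, WeierstrassCurve.map_a₃, WeierstrassCurve.map_a₄,
      WeierstrassCurve.map_a₆] using this
  h₂ := by
    have := congrArg φ h.h₂
    simpa only [map_mul, map_add, map_sub, map_pow, map_ofNat, WeierstrassCurve.map_a₁,
      WeierstrassCurve.map_a₂, WeierstrassCurve.map_a₃, WeierstrassCurve.map_a₄,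
      WeierstrassCurve.map_a₆] using this
  h₃ := by
    have := congrArg φ h.h₃
    simpa only [map_mul, map_add, map_sub, map_pow, map_ofNat, WeierstrassCurve.map_a₁,
      WeierstrassCurve.map_a₂, WeierstrassCurve.map_a₃, WeierstrassCurve.map_a₄,
      WeierstrassCurve.map_a₆] using this
  h₄ := by
    have := congrArg φ h.h₄
    simpa only [map_mul, map_add, map_sub, map_pow, map_ofNat, WeierstrassCurve.map_a₁,
      WeierstrassCurve.map_a₂, WeierstrassCurve.map_a₃, WeierstrassCurve.map_a₄,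
      WeierstrassCurve.map_a₆] using this
  h₆ := by
    have := congrArg φ h.h₆
    simpa only [map_mul, map_add, map_sub, map_pow, map_ofNat, WeierstrassCurve.map_a₁,
      WeierstrassCurve.map_a₂, WeierstrassCurve.map_a₃, WeierstrassCurve.map_a₄,
      WeierstrassCurve.map_a₆] using this

end Field

section Equivariance

variable {R S F K : Type*} [CommRing R] [CommRing S] [Field F] [Field K] [DecidableEq F]
  [DecidableEq K] [Algebra R S] [Algebra R F] [Algebra S F] [IsScalarTower R S F] [Algebra R K]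
  [Algebra S K] [IsScalarTower R S K] {W₁ W₂ : WeierstrassCurve R} {u r s t : R}

/-- The change-of-variables map commutes with the maps on points induced by algebra maps,
when the change of variables is defined over the base. -/
lemma vcHom_map
    (hF : IsVarChange (W₁⁄F) (W₂⁄F) (algebraMap R F u) (algebraMap R F r) (algebraMap R F s)
      (algebraMap R F t))
    (hK : IsVarChange (W₁⁄K) (W₂⁄K) (algebraMap R K u) (algebraMap R K r) (algebraMap R K s)
      (algebraMap R K t))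
    (f : F →ₐ[S] K) (P : (W₁⁄F).Point) :
    vcHom hK (Point.map (W' := W₁) f P) = Point.map (W' := W₂) f (vcHom hF P) := by
  have hf : ∀ c : R, f (algebraMap R F c) = algebraMap R K c := fun c => by
    rw [IsScalarTower.algebraMap_apply R S F, f.commutes, ← IsScalarTower.algebraMap_apply R S K]
  rcases P with _ | ⟨x, y, hxy⟩
  · rfl
  · rw [vcHom_some]
    erw [Point.map_some, Point.map_some, vcHom_some]
    rw [Point.some.injEq]
    simp only [map_add, map_mul, map_pow, hf, and_self]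

end Equivariance

section Transfer

open WeierstrassCurve.Affine.Point

variable {R S K : Type*} [CommRing R] [Field S] [Field K] [DecidableEq K]
  [Algebra R S] [Algebra R K] [Algebra S K] [IsScalarTower R S K]
  {W₁ W₂ : WeierstrassCurve R} {u r s t : R}

/-- Galois-equivariance of the change-of-variables map. -/
lemma vcHom_smul
    (hK : IsVarChange (W₁⁄K) (W₂⁄K) (algebraMap R K u) (algebraMap R K r) (algebraMap R K s)
      (algebraMap R K t))
    (σ : K ≃ₐ[S] K) (P : (W₁⁄K).Point) :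
    vcHom hK (σ • P) = σ • vcHom hK P :=
  vcHom_map hK hK σ.toAlgHom P

/-- If `W₁` is obtained from `W₂` by an admissible change of variables defined over the base,
then unramifiedness of the `n`-torsion Galois representation at `q` transfers from `W₂` to `W₁`. -/
theorem galoisRepUnramifiedAt_of_isVarChange
    (hK : IsVarChange (W₁⁄K) (W₂⁄K) (algebraMap R K u) (algebraMap R K r) (algebraMap R K s)
      (algebraMap R K t))
    (n q : ℕ) (H : GaloisRepUnramifiedAt S K W₂ n q) : GaloisRepUnramifiedAt S K W₁ n q := by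
  intro A hA σ hσ x
  have hx : ((n : ℕ) : ℤ) • (x : (W₁⁄K).Point) = 0 := by
    have := x.2
    rwa [Submodule.mem_torsionBy_iff] at this
  have hy : vcHom hK (x : (W₁⁄K).Point) ∈ Submodule.torsionBy ℤ (W₂⁄K).Point n := by
    rw [Submodule.mem_torsionBy_iff, ← map_zsmul, hx, _root_.map_zero]
  have key := H A hA σ hσ ⟨vcHom hK (x : (W₁⁄K).Point), hy⟩
  have key' : σ • vcHom hK (x : (W₁⁄K).Point) = vcHom hK (x : (W₁⁄K).Point) :=
    congrArg Subtype.val key
  apply Subtype.ext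
  apply vcHom_injective hK
  change vcHom hK (σ • (x : (W₁⁄K).Point)) = vcHom hK (x : (W₁⁄K).Point)
  rw [vcHom_smul, key']

end Transfer

section MathlibVariableChange

/-- Mathlib's `C • W` is obtained from `W` by the substitution `(u²x + r, u³y + u²sx + t)`. -/
lemma isVarChange_smul {K : Type*} [Field K] (C : VariableChange K) (W : WeierstrassCurve K) :
    IsVarChange (C • W) W (C.u : K) C.r C.s C.t where
  hu := C.u.ne_zero
  h₁ := by
    rw [variableChange_a₁, Units.mul_inv_cancel_left]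
  h₂ := by
    rw [variableChange_a₂, ← mul_assoc, ← mul_pow, Units.mul_inv, one_pow, one_mul]
  h₃ := by
    rw [variableChange_a₃, ← mul_assoc, ← mul_pow, Units.mul_inv, one_pow, one_mul]
  h₄ := by
    rw [variableChange_a₄, ← mul_assoc, ← mul_pow, Units.mul_inv, one_pow, one_mul]
  h₆ := by
    rw [variableChange_a₆, ← mul_assoc, ← mul_pow, Units.mul_inv, one_pow, one_mul]

open WeierstrassCurve.Affine.Point in
/-- **Transfer along Mathlib variable changes**: unramifiedness of the `n`-torsion Galois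
representation at `q` for `W` implies the same for `C • W`, for any variable change `C` defined
over the base field. -/
theorem galoisRepUnramifiedAt_smul {R S K : Type*} [Field R] [Field S] [Field K] [DecidableEq K]
    [Algebra R S] [Algebra R K] [Algebra S K] [IsScalarTower R S K]
    (W : WeierstrassCurve R) (C : VariableChange R) (n q : ℕ)
    (H : GaloisRepUnramifiedAt S K W n q) : GaloisRepUnramifiedAt S K (C • W) n q :=
  galoisRepUnramifiedAt_of_isVarChange ((isVarChange_smul C W).map (algebraMap R K)) n q H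

/-- The same statement in the exact shape `TransferStatement` requested by the S05 top layer. -/
theorem transferStatement :
    ∀ (W : WeierstrassCurve ℚ) (C : WeierstrassCurve.VariableChange ℚ) (n q : ℕ),
      WeierstrassCurve.Affine.Point.GaloisRepUnramifiedAt ℚ (AlgebraicClosure ℚ) W n q →
      WeierstrassCurve.Affine.Point.GaloisRepUnramifiedAt ℚ (AlgebraicClosure ℚ) (C • W) n q :=
  fun W C n q H => galoisRepUnramifiedAt_smul W C n q H

end MathlibVariableChange

section Frey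

/-- The Weierstrass curve `Y² = X³ + a X² + b X` over `ℚ`. -/
def legendreModel (a b : ℚ) : WeierstrassCurve ℚ := ⟨0, a, 0, b, 0⟩

@[simp] lemma legendreModel_a₁ (a b : ℚ) : (legendreModel a b).a₁ = 0 := rfl
@[simp] lemma legendreModel_a₂ (a b : ℚ) : (legendreModel a b).a₂ = a := rfl
@[simp] lemma legendreModel_a₃ (a b : ℚ) : (legendreModel a b).a₃ = 0 := rfl
@[simp] lemma legendreModel_a₄ (a b : ℚ) : (legendreModel a b).a₄ = b := rfl
@[simp] lemma legendreModel_a₆ (a b : ℚ) : (legendreModel a b).a₆ = 0 := rfl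

/-- With `A = a^p`, `B = b^p`: the substitution `X = 4x`, `Y = 8y + 4x` identifies the Frey curve
with `Y² = X (X - A) (X + B) = X³ + (B - A) X² - A B X`. -/
lemma frey_isVarChange (P : FreyPackage) :
    IsVarChange P.freyCurve
      (legendreModel ((P.b : ℚ) ^ P.p - (P.a : ℚ) ^ P.p) (-((P.a : ℚ) ^ P.p * (P.b : ℚ) ^ P.p)))
      2 0 1 0 where
  hu := two_ne_zero
  h₁ := by simp [FreyPackage.freyCurve]
  h₂ := by simp [FreyPackage.freyCurve]; ring
  h₃ := by simp [FreyPackage.freyCurve]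
  h₄ := by simp [FreyPackage.freyCurve]; ring
  h₆ := by simp [FreyPackage.freyCurve]

/-- With `A = a^p`, `C = c^p`: the substitution `X = 4x - A`, `Y = 8y + 4x` identifies the Frey curve
with `Y² = X (X + A) (X + C) = X³ + (A + C) X² + A C X`. -/
lemma frey_isVarChange_shift (P : FreyPackage) :
    IsVarChange P.freyCurve
      (legendreModel ((P.a : ℚ) ^ P.p + (P.c : ℚ) ^ P.p) ((P.a : ℚ) ^ P.p * (P.c : ℚ) ^ P.p))
      2 (-((P.a : ℚ) ^ P.p)) 1 0 where
  hu := two_ne_zero
  h₁ := by simp [FreyPackage.freyCurve]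
  h₂ := by
    have hFLT : (P.a : ℚ) ^ P.p + (P.b : ℚ) ^ P.p = (P.c : ℚ) ^ P.p := by exact_mod_cast P.hFLT
    simp [FreyPackage.freyCurve]
    linear_combination hFLT
  h₃ := by simp [FreyPackage.freyCurve]
  h₄ := by
    have hFLT : (P.a : ℚ) ^ P.p + (P.b : ℚ) ^ P.p = (P.c : ℚ) ^ P.p := by exact_mod_cast P.hFLT
    simp [FreyPackage.freyCurve]
    linear_combination (-(P.a : ℚ) ^ P.p) * hFLT
  h₆ := by
    simp [FreyPackage.freyCurve]
    ring

/-- Transfer for the Frey curve, unshifted model `Y² = X (X - A) (X + B)`. -/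
theorem frey_unramified_of_legendre (P : FreyPackage) (q : ℕ)
    (H : WeierstrassCurve.Affine.Point.GaloisRepUnramifiedAt (K := AlgebraicClosure ℚ) ℚ
      (legendreModel ((P.b : ℚ) ^ P.p - (P.a : ℚ) ^ P.p) (-((P.a : ℚ) ^ P.p * (P.b : ℚ) ^ P.p)))
      P.p q) :
    P.GaloisRepUnramifiedAt q :=
  galoisRepUnramifiedAt_of_isVarChange
    ((frey_isVarChange P).map (algebraMap ℚ (AlgebraicClosure ℚ))) P.p q H

/-- Transfer for the Frey curve, shifted model `Y² = X (X + A) (X + C)`. -/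
theorem frey_unramified_of_legendre_shift (P : FreyPackage) (q : ℕ)
    (H : WeierstrassCurve.Affine.Point.GaloisRepUnramifiedAt (K := AlgebraicClosure ℚ) ℚ
      (legendreModel ((P.a : ℚ) ^ P.p + (P.c : ℚ) ^ P.p) ((P.a : ℚ) ^ P.p * (P.c : ℚ) ^ P.p))
      P.p q) :
    P.GaloisRepUnramifiedAt q :=
  galoisRepUnramifiedAt_of_isVarChange
    ((frey_isVarChange_shift P).map (algebraMap ℚ (AlgebraicClosure ℚ))) P.p q H

end Frey

end Fermat.Agent.S05.helper725
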