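import Fermat.Prelude.Def_FLTPrelim_Ramification
import Fermat.Agent.S05.helper725_Transfer

/-!
# S05, top layer (helper1445)

`top`: the Frey curve's mod-`p` representation is unramified at every odd prime `q ≠ p`,
assuming two interface statements:

* `TransferStatement`: `GaloisRepUnramifiedAt` is invariant under rational changes of variables
  (now a theorem: `helper725.transferStatement`, landed by helper725);
* `LocalStatement`: the local theorem for Legendre-type models `Y² = X³ + a₂X² + a₄X`.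
-/

set_option autoImplicit false

namespace Fermat.Agent.S05.helper1445

open WeierstrassCurve WeierstrassCurve.Affine WeierstrassCurve.Affine.Point

/-- LAYER 2 interface: the local theorem on Legendre-type models `Y² = X³ + a₂X² + a₄X`
over `ℚ`, at a valuation subring `A` of `Qbar` in which `2` and the odd prime `n` are units. -/
def LocalStatement : Prop :=
  ∀ (A : ValuationSubring (AlgebraicClosure ℚ)) (W : WeierstrassCurve ℚ),
    W.a₁ = 0 → W.a₃ = 0 → W.a₆ = 0 → W.a₄ ≠ 0 →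
    algebraMap ℚ (AlgebraicClosure ℚ) W.a₂ ∈ A → algebraMap ℚ (AlgebraicClosure ℚ) W.a₄ ∈ A →
    A.valuation (2 : AlgebraicClosure ℚ) = 1 →
    A.valuation (algebraMap ℚ (AlgebraicClosure ℚ) (W.a₂ ^ 2 - 4 * W.a₄)) = 1 →
    ∀ (σ : AlgebraicClosure ℚ ≃ₐ[ℚ] AlgebraicClosure ℚ),
    (∀ x, x ∈ A → σ x ∈ A) → (∀ x, x ∈ A → σ x - x ∈ A.nonunits) →
    ∀ (n : ℕ), n.Prime → n ≠ 2 → A.valuation (n : AlgebraicClosure ℚ) = 1 →
    (A.valuation (algebraMap ℚ (AlgebraicClosure ℚ) W.a₄) = 1 ∨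
      ∃ w : ℚ, A.valuation (algebraMap ℚ (AlgebraicClosure ℚ) W.a₄) =
        A.valuation (algebraMap ℚ (AlgebraicClosure ℚ) w) ^ n) →
    ∀ P : (W⁄(AlgebraicClosure ℚ)).Point, n • P = 0 → σ • P = P

/-- LAYER 0 interface: transfer along a rational change of variables. -/
def TransferStatement : Prop :=
  ∀ (W : WeierstrassCurve ℚ) (C : WeierstrassCurve.VariableChange ℚ) (n q : ℕ),
    WeierstrassCurve.Affine.Point.GaloisRepUnramifiedAt ℚ (AlgebraicClosure ℚ) W n q →
    WeierstrassCurve.Affine.Point.GaloisRepUnramifiedAt ℚ (AlgebraicClosure ℚ) (C • W) n q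

section Inertia

variable {F K : Type*} [Field F] [Field K] [Algebra F K]

/-- Pointwise description of inertia elements. -/
theorem inertia_facts {A : ValuationSubring K} {σ : K ≃ₐ[F] K}
    (hσ : σ ∈ A.inertiaSubgroupIn F) :
    (∀ x, x ∈ A → σ x ∈ A) ∧ (∀ x, x ∈ A → σ x - x ∈ A.nonunits) := by
  obtain ⟨τ, hτ, rfl⟩ := hσ
  have hmem : ∀ x, x ∈ A → (τ : K ≃ₐ[F] K) x ∈ A := fun x hx => (τ • (⟨x, hx⟩ : A)).2
  refine ⟨hmem, fun x hx => ?_⟩
  have h1 : MulSemiringAction.toRingAut (A.decompositionSubgroup F)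
      (IsLocalRing.ResidueField A) τ = 1 := hτ
  have h2 : τ • (IsLocalRing.residue A ⟨x, hx⟩) = IsLocalRing.residue A ⟨x, hx⟩ := by
    have := congrArg (fun f => f (IsLocalRing.residue A ⟨x, hx⟩)) h1
    simpa using this
  rw [← IsLocalRing.ResidueField.residue_smul] at h2
  have h3 : (τ • (⟨x, hx⟩ : A)) - ⟨x, hx⟩ ∈ IsLocalRing.maximalIdeal A := by
    rw [← Ideal.Quotient.eq]; exact h2
  rw [ValuationSubring.valuation_lt_one_iff] at h3
  rw [ValuationSubring.mem_nonunits_iff]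
  exact h3

end Inertia

section Val

variable {K : Type*} [Field K] (A : ValuationSubring K)

theorem intCast_mem' (n : ℤ) : (n : K) ∈ A := _root_.intCast_mem A n

/-- An integer prime to `q` is a unit of a valuation subring in which `q` is a nonunit. -/
theorem valuation_intCast_eq_one {q : ℕ} (hq : q.Prime) (hA : (q : K) ∈ A.nonunits)
    {n : ℤ} (hn : ¬ (q : ℤ) ∣ n) : A.valuation (n : K) = 1 := by
  have hle : A.valuation (n : K) ≤ 1 := (A.valuation_le_one_iff _).2 (intCast_mem' A n)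
  rcases lt_or_eq_of_le hle with hlt | heq
  · exfalso
    have hcop : IsCoprime n (q : ℤ) := by
      have hqp : Prime (q : ℤ) := Nat.prime_iff_prime_int.mp hq
      exact (hqp.coprime_iff_not_dvd.2 hn).symm
    obtain ⟨u, w, huw⟩ := hcop
    have h1 : (u : K) * (n : K) + (w : K) * (q : K) = 1 := by
      have := congrArg (fun z : ℤ => (z : K)) huw
      push_cast at this
      exact this
    have hq' : A.valuation (q : K) < 1 := (A.mem_nonunits_iff).1 hA
    have hu : A.valuation (u : K) ≤ 1 := (A.valuation_le_one_iff _).2 (intCast_mem' A u)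
    have hw : A.valuation (w : K) ≤ 1 := (A.valuation_le_one_iff _).2 (intCast_mem' A w)
    have h2 : A.valuation ((u : K) * (n : K) + (w : K) * (q : K)) < 1 := by
      refine lt_of_le_of_lt (A.valuation.map_add _ _) (max_lt ?_ ?_)
      · rw [map_mul]
        exact lt_of_le_of_lt (mul_le_of_le_one_left' hu) hlt
      · rw [map_mul]
        exact lt_of_le_of_lt (mul_le_of_le_one_left' hw) hq'
    rw [h1, map_one] at h2
    exact lt_irrefl _ h2
  · exact heq

end Val

section Frey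

open Fermat.Agent.S05.helper725

local notation "Qbar" => AlgebraicClosure ℚ

theorem not_dvd_of_gcd_eq_one {q : ℕ} (hq : q.Prime) {x y : ℤ} (h : gcd x y = 1)
    (hx : (q : ℤ) ∣ x) : ¬ (q : ℤ) ∣ y := by
  intro hy
  have h1 := dvd_gcd hx hy
  rw [h] at h1
  have h2 : (q : ℤ) = 1 ∨ (q : ℤ) = -1 := Int.isUnit_iff.1 (isUnit_of_dvd_one h1)
  have h3 := hq.one_lt
  omega

theorem valuation_two_eq_one (A : ValuationSubring Qbar) {q : ℕ} (hq : q.Prime)
    (hA : (q : Qbar) ∈ A.nonunits) (hq2 : q ≠ 2) : A.valuation (2 : Qbar) = 1 := by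
  have h : ¬ (q : ℤ) ∣ (2 : ℤ) := by
    intro h
    have h' : q ∣ 2 := by exact_mod_cast h
    exact hq2 ((Nat.prime_dvd_prime_iff_eq hq Nat.prime_two).1 h')
  have := valuation_intCast_eq_one A hq hA h
  simpa using this

theorem valuation_prime_eq_one (A : ValuationSubring Qbar) {q : ℕ} (hq : q.Prime)
    (hA : (q : Qbar) ∈ A.nonunits) {p : ℕ} (hp : p.Prime) (hqp : q ≠ p) :
    A.valuation (p : Qbar) = 1 := by
  have h : ¬ (q : ℤ) ∣ (p : ℤ) := by
    intro h
    have h' : q ∣ p := by exact_mod_cast h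
    exact hqp ((Nat.prime_dvd_prime_iff_eq hq hp).1 h')
  have := valuation_intCast_eq_one A hq hA h
  simpa using this

/-- The core of the top layer: the local statement gives unramifiedness for a Legendre model
`Y² = X³ + (u - v) X² - u v X`... stated for general integer data. -/
theorem legendre_unramified (hL : LocalStatement) {q p : ℕ} (hq : q.Prime) (hq2 : q ≠ 2)
    (hp : p.Prime) (hp2 : p ≠ 2) (hqp : q ≠ p) (a₂ w d : ℤ) (hw : w ≠ 0) (e : ℤ) (he : e = 1 ∨ e = -1)
    (hd : ¬ (q : ℤ) ∣ d) (hdisc : a₂ ^ 2 - 4 * (e * w ^ p) = d ^ 2) :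
    WeierstrassCurve.Affine.Point.GaloisRepUnramifiedAt (K := Qbar) ℚ
      (legendreModel (a₂ : ℚ) ((e : ℚ) * (w : ℚ) ^ p)) p q := by
  intro A hA σ hσ x
  have hA' : (q : Qbar) ∈ A.nonunits := hA
  obtain ⟨hσ1, hσ2⟩ := inertia_facts hσ
  apply Subtype.ext
  have hx : p • (x : ((legendreModel (a₂ : ℚ) ((e : ℚ) * (w : ℚ) ^ p))⁄Qbar).Point) = 0 := by
    have := (Submodule.mem_torsionBy_iff _ _).1 x.2
    rwa [natCast_zsmul] at this
  have he0 : (e : ℚ) ≠ 0 := by
    rcases he with rfl | rfl <;> norm_num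
  have hve : A.valuation ((e : ℤ) : Qbar) = 1 := by
    rcases he with rfl | rfl <;> simp
  refine hL A (legendreModel (a₂ : ℚ) ((e : ℚ) * (w : ℚ) ^ p)) rfl rfl rfl ?_ ?_ ?_
    (valuation_two_eq_one A hq hA' hq2) ?_ σ hσ1 hσ2 p hp hp2
    (valuation_prime_eq_one A hq hA' hp hqp) (Or.inr ⟨(w : ℚ), ?_⟩) _ hx
  · simp only [legendreModel_a₄]
    exact mul_ne_zero he0 (pow_ne_zero _ (by exact_mod_cast hw))
  · simp only [legendreModel_a₂, map_intCast]
    exact intCast_mem' A a₂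
  · simp only [legendreModel_a₄, map_mul, map_pow, map_intCast]
    exact A.mul_mem _ _ (intCast_mem' A e) (A.pow_mem (intCast_mem' A w) _)
  · have h1 : algebraMap ℚ Qbar ((legendreModel (a₂ : ℚ) ((e : ℚ) * (w : ℚ) ^ p)).a₂ ^ 2
        - 4 * (legendreModel (a₂ : ℚ) ((e : ℚ) * (w : ℚ) ^ p)).a₄) = ((d : ℤ) : Qbar) ^ 2 := by
      simp only [legendreModel_a₂, legendreModel_a₄]
      have h2 : ((a₂ : ℚ) ^ 2 - 4 * ((e : ℚ) * (w : ℚ) ^ p)) = ((d ^ 2 : ℤ) : ℚ) := by
        rw [← hdisc]; push_cast; ring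
      rw [h2]
      simp
    rw [h1, map_pow, valuation_intCast_eq_one A hq hA' hd, one_pow]
  · simp only [legendreModel_a₄, map_mul, map_pow, map_intCast]
    rw [hve, one_mul]

/-- **Top layer of S05**: the Frey curve's mod-`p` representation is unramified at every odd
prime `q ≠ p`, assuming the local theorem `LocalStatement` for Legendre-type models. -/
theorem top (hL : LocalStatement) (P : FreyPackage) {q : ℕ} (hq : q.Prime) (hq2 : q ≠ 2)
    (hqp : q ≠ P.p) : P.GaloisRepUnramifiedAt q := by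
  have hp2 : P.p ≠ 2 := by have := P.hp5; omega
  have hFLT := P.hFLT
  by_cases hc : (q : ℤ) ∣ P.c
  · -- `q ∣ c`: shifted model `Y² = X (X + a^p) (X + c^p)`
    have hb : ¬ (q : ℤ) ∣ P.b :=
      not_dvd_of_gcd_eq_one hq (by rw [gcd_comm]; exact P.hgcdbc) hc
    apply frey_unramified_of_legendre_shift
    have key := legendre_unramified hL hq hq2 P.pp hp2 hqp (P.a ^ P.p + P.c ^ P.p) (P.a * P.c)
      (P.b ^ P.p) (mul_ne_zero P.ha0 P.hc0) 1 (Or.inl rfl)
      (fun h => hb ((Nat.prime_iff_prime_int.mp hq).dvd_of_dvd_pow h))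
      (by rw [mul_pow, ← hFLT]; ring)
    have e1 : (((P.a ^ P.p + P.c ^ P.p : ℤ) : ℚ)) = (P.a : ℚ) ^ P.p + (P.c : ℚ) ^ P.p := by
      push_cast; ring
    have e2 : ((1 : ℤ) : ℚ) * ((P.a * P.c : ℤ) : ℚ) ^ P.p
        = (P.a : ℚ) ^ P.p * (P.c : ℚ) ^ P.p := by
      push_cast; ring
    rw [e1, e2] at key
    exact key
  · -- `q ∤ c`: model `Y² = X (X - a^p) (X + b^p)`
    apply frey_unramified_of_legendre
    have key := legendre_unramified hL hq hq2 P.pp hp2 hqp (P.b ^ P.p - P.a ^ P.p) (P.a * P.b)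
      (P.c ^ P.p) (mul_ne_zero P.ha0 P.hb0) (-1) (Or.inr rfl)
      (fun h => hc ((Nat.prime_iff_prime_int.mp hq).dvd_of_dvd_pow h))
      (by rw [mul_pow, ← hFLT]; ring)
    have e1 : (((P.b ^ P.p - P.a ^ P.p : ℤ) : ℚ)) = (P.b : ℚ) ^ P.p - (P.a : ℚ) ^ P.p := by
      push_cast; ring
    have e2 : ((-1 : ℤ) : ℚ) * ((P.a * P.b : ℤ) : ℚ) ^ P.p
        = -((P.a : ℚ) ^ P.p * (P.b : ℚ) ^ P.p) := by
      push_cast; ring
    rw [e1, e2] at key
    exact key

end Frey

end Fermat.Agent.S05.helper1445
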