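import Mathlib

set_option autoImplicit false

/-!
Vieta relations for three collinear points on a Weierstrass curve: the only interface to the
group law of Mathlib used in the S05 development of helper245.
-/

namespace Fermat.Agent.S05.helper245

open WeierstrassCurve WeierstrassCurve.Affine Polynomial

variable {F : Type*} [Field F] [DecidableEq F] {W : WeierstrassCurve.Affine F}

/-- If three affine points of a Weierstrass curve add up to zero, they lie on a line
`y = l * x + m`, and the `x`-coordinates are the roots of the cubic obtained by substituting the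
line in the Weierstrass equation. -/
theorem vieta_of_add_eq_zero {x₁ y₁ x₂ y₂ x₃ y₃ : F}
    (h₁ : W.Nonsingular x₁ y₁) (h₂ : W.Nonsingular x₂ y₂) (h₃ : W.Nonsingular x₃ y₃)
    (hs : Point.some x₁ y₁ h₁ + Point.some x₂ y₂ h₂ + Point.some x₃ y₃ h₃ = 0) :
    ∃ l m : F, y₁ = l * x₁ + m ∧ y₂ = l * x₂ + m ∧ y₃ = l * x₃ + m ∧
      x₁ + x₂ + x₃ = l ^ 2 + W.a₁ * l - W.a₂ ∧
      x₁ * x₂ + x₁ * x₃ + x₂ * x₃ = W.a₄ - 2 * l * m - W.a₁ * m - W.a₃ * l ∧
      x₁ * x₂ * x₃ = m ^ 2 + W.a₃ * m - W.a₆ := by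
  have hneg : Point.some x₁ y₁ h₁ + Point.some x₂ y₂ h₂ = -Point.some x₃ y₃ h₃ :=
    eq_neg_of_add_eq_zero_left hs
  rw [Point.neg_some] at hneg
  have hxy : ¬(x₁ = x₂ ∧ y₁ = W.negY x₂ y₂) := by
    rintro ⟨hx, hy⟩
    rw [Point.add_of_Y_eq hx hy] at hneg
    exact Point.some_ne_zero _ hneg.symm
  rw [Point.add_some hxy] at hneg
  injection hneg with hx3 hy3
  set L := W.slope x₁ x₂ y₁ y₂ with hL
  have hpoly := addPolynomial_slope h₁.1 h₂.1 hxy
  rw [addPolynomial_eq, neg_inj, Cubic.prod_X_sub_C_eq, Cubic.toPoly_injective] at hpoly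
  rw [← hL, hx3] at hpoly
  have hb := congrArg Cubic.b hpoly
  have hc := congrArg Cubic.c hpoly
  have hd := congrArg Cubic.d hpoly
  simp only at hb hc hd
  have hy3' : y₃ = L * (x₃ - x₁) + y₁ := by
    have := congrArg (W.negY x₃) hy3
    rw [addY, ← hx3, negY_negY, negY_negY] at this
    rw [← this, negAddY, ← hx3]
  have hy2 : y₂ = L * (x₂ - x₁) + y₁ := by
    by_cases hx : x₁ = x₂
    · have hy : y₁ ≠ W.negY x₂ y₂ := fun h => hxy ⟨hx, h⟩
      rw [← Y_eq_of_Y_ne h₁.1 h₂.1 hx hy, hx]; ring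
    · rw [hL, slope_of_X_ne hx]
      have : x₁ - x₂ ≠ 0 := sub_ne_zero.mpr hx
      field_simp
      ring
  refine ⟨L, y₁ - L * x₁, by ring, by rw [hy2]; ring, by rw [hy3']; ring, ?_, ?_, ?_⟩
  · linear_combination hb
  · linear_combination -hc
  · linear_combination hd
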