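import Fermat.Agent.S05.helper245_LegE
import Fermat.Agent.S05.helper245_Vieta
import Fermat.Prelude.Def_FLTPrelim_GaloisRep

set_option autoImplicit false

/-!
The local theorem for Mathlib point groups of curves `Y² = X³ + a₂ X² + a₄ X`.
-/

namespace Fermat.Agent.S05.helper245

open WeierstrassCurve WeierstrassCurve.Affine

section Coord

variable {F : Type*} [Field F] [DecidableEq F] {W : Affine F}

/-- The `x`-coordinate of a point (junk value `0` at infinity). -/
def ptX : W.Point → F
  | .zero => 0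
  | .some x _ _ => x

/-- The `y`-coordinate of a point (junk value `0` at infinity). -/
def ptY : W.Point → F
  | .zero => 0
  | .some _ y _ => y

theorem isLegCoord_of_short (h₁ : W.a₁ = 0) (h₃ : W.a₃ = 0) (h₆ : W.a₆ = 0) :
    IsLegCoord W.a₂ W.a₄ (ptX (W := W)) (ptY (W := W)) where
  eqn := by
    intro P hP
    cases P with
    | zero => exact absurd rfl hP
    | some x y h =>
      have := (W.equation_iff x y).mp h.1
      rw [h₁, h₃, h₆] at this
      simp only [ptX, ptY]
      linear_combination this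
  inj := by
    intro P Q hP hQ hX hY
    cases P with
    | zero => exact absurd rfl hP
    | some x y h =>
      cases Q with
      | zero => exact absurd rfl hQ
      | some x' y' h' =>
        simp only [ptX, ptY] at hX hY
        subst hX hY
        rfl
  negX := by
    intro P hP
    cases P with
    | zero => exact absurd rfl hP
    | some x y h => rw [Point.neg_some]; rfl
  negY := by
    intro P hP
    cases P with
    | zero => exact absurd rfl hP
    | some x y h =>
      rw [Point.neg_some]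
      simp only [ptY, negY, h₁, h₃]
      ring
  vieta := by
    intro P₁ P₂ P₃ hP₁ hP₂ hP₃ hs
    cases P₁ with
    | zero => exact absurd rfl hP₁
    | some x₁ y₁ h₁' =>
      cases P₂ with
      | zero => exact absurd rfl hP₂
      | some x₂ y₂ h₂' =>
        cases P₃ with
        | zero => exact absurd rfl hP₃
        | some x₃ y₃ h₃' =>
          obtain ⟨l, m, hy₁, hy₂, hy₃, e₁, e₂, e₃⟩ := vieta_of_add_eq_zero h₁' h₂' h₃' hs
          rw [h₁] at e₁ e₂
          rw [h₃] at e₂ e₃
          rw [h₆] at e₃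
          refine ⟨l, m, hy₁, hy₂, hy₃, ?_, ?_, ?_⟩
          · simp only [ptX]; linear_combination e₁
          · simp only [ptX]; linear_combination e₂
          · simp only [ptX]; linear_combination e₃

end Coord

section LocalQbar

open WeierstrassCurve.Affine.Point

local notation "Kbar" => AlgebraicClosure ℚ

/-- **The local theorem** (in the shape of helper1445's `LocalStatement`): for a curve
`Y² = X³ + a₂ X² + a₄ X` over `ℚ` with coefficients integral at a valuation subring `A` of
`ℚ̄` with `2` a unit and `a₂² - 4 a₄` a unit, and `a₄` either a unit or of valuation an `n`-th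
power of the valuation of a rational, every automorphism acting trivially modulo the maximal ideal
of `A` fixes the `n`-torsion points, `n` an odd prime which is a unit of `A`. -/
theorem local_statement (A : ValuationSubring Kbar) (W : WeierstrassCurve ℚ)
    (h₁ : W.a₁ = 0) (h₃ : W.a₃ = 0) (h₆ : W.a₆ = 0) (h₄ : W.a₄ ≠ 0)
    (ha₂ : algebraMap ℚ Kbar W.a₂ ∈ A) (ha₄ : algebraMap ℚ Kbar W.a₄ ∈ A)
    (h2 : A.valuation (2 : Kbar) = 1)
    (hdisc : A.valuation (algebraMap ℚ Kbar (W.a₂ ^ 2 - 4 * W.a₄)) = 1)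
    (σ : Kbar ≃ₐ[ℚ] Kbar) (_hσA : ∀ x, x ∈ A → σ x ∈ A)
    (hσ : ∀ x, x ∈ A → σ x - x ∈ A.nonunits)
    (n : ℕ) (hn : n.Prime) (hn2 : n ≠ 2) (hnv : A.valuation (n : Kbar) = 1)
    (hcase : A.valuation (algebraMap ℚ Kbar W.a₄) = 1 ∨
      ∃ w : ℚ, A.valuation (algebraMap ℚ Kbar W.a₄) = A.valuation (algebraMap ℚ Kbar w) ^ n)
    (P : (W⁄Kbar).Point) (hP : n • P = 0) : σ • P = P := by
  have e₁ : (W⁄Kbar).a₁ = 0 := by simp [WeierstrassCurve.baseChange, h₁]
  have e₃ : (W⁄Kbar).a₃ = 0 := by simp [WeierstrassCurve.baseChange, h₃]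
  have e₆ : (W⁄Kbar).a₆ = 0 := by simp [WeierstrassCurve.baseChange, h₆]
  have e₂ : (W⁄Kbar).a₂ = algebraMap ℚ Kbar W.a₂ := by simp [WeierstrassCurve.baseChange]
  have e₄ : (W⁄Kbar).a₄ = algebraMap ℚ Kbar W.a₄ := by simp [WeierstrassCurve.baseChange]
  have hL := isLegCoord_of_short (W := (W⁄Kbar)) e₁ e₃ e₆
  rw [e₂, e₄] at hL
  have hva : A.valuation (algebraMap ℚ Kbar W.a₂) ≤ 1 := (A.valuation_le_one_iff _).mpr ha₂
  have hvb : A.valuation (algebraMap ℚ Kbar W.a₄) ≤ 1 := (A.valuation_le_one_iff _).mpr ha₄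
  have hdisc' : A.valuation ((algebraMap ℚ Kbar W.a₂) ^ 2 - 4 * algebraMap ℚ Kbar W.a₄) = 1 := by
    rw [← hdisc]; congr 1; simp
  have hs : ∀ u : Kbar, A.valuation u ≤ 1 → A.valuation (σ u - u) < 1 := fun u hu =>
    (A.mem_nonunits_iff).mp (hσ u ((A.valuation_le_one_iff u).mp hu))
  have hτ0 : ∀ Q : (W⁄Kbar).Point, Q ≠ 0 → Point.map (W' := W) σ.toAlgHom Q ≠ 0 := by
    intro Q hQ
    cases Q with
    | zero => exact absurd rfl hQ
    | some x y h => rw [Point.map_some]; exact Point.some_ne_zero _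
  have hτX : ∀ Q : (W⁄Kbar).Point, Q ≠ 0 →
      ptX (Point.map (W' := W) σ.toAlgHom Q) = (σ : Kbar →+* Kbar) (ptX Q) := by
    intro Q hQ
    cases Q with
    | zero => exact absurd rfl hQ
    | some x y h => rw [Point.map_some]; rfl
  have hτY : ∀ Q : (W⁄Kbar).Point, Q ≠ 0 →
      ptY (Point.map (W' := W) σ.toAlgHom Q) = (σ : Kbar →+* Kbar) (ptY Q) := by
    intro Q hQ
    cases Q with
    | zero => exact absurd rfl hQ
    | some x y h => rw [Point.map_some]; rfl
  have hodd : Odd n := hn.odd_of_ne_two hn2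
  rw [algEquiv_smul_def]
  have good : A.valuation (algebraMap ℚ Kbar W.a₄) = 1 →
      Point.map (W' := W) σ.toAlgHom P = P := fun hb =>
    good_main A.valuation hL hva hb hdisc' h2 hnv hodd (Point.map (W' := W) σ.toAlgHom) hτ0
      (σ : Kbar →+* Kbar) hτX hτY hs hP
  rcases hcase with hb | ⟨w, hw⟩
  · exact good hb
  · rcases hvb.lt_or_eq with hlt | heq
    · have hb0 : algebraMap ℚ Kbar W.a₄ ≠ 0 := by
        rw [Ne, map_eq_zero]; exact h₄
      have hva1 : A.valuation (algebraMap ℚ Kbar W.a₂) = 1 := by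
        apply eq_of_sq_eq_sq'
        have h4b : A.valuation (4 * algebraMap ℚ Kbar W.a₄) <
            A.valuation ((algebraMap ℚ Kbar W.a₂) ^ 2 - 4 * algebraMap ℚ Kbar W.a₄) := by
          rw [hdisc', (A.valuation).map_mul]
          calc A.valuation 4 * A.valuation (algebraMap ℚ Kbar W.a₄)
              ≤ 1 * A.valuation (algebraMap ℚ Kbar W.a₄) := by
                gcongr; exact val_four_le_one _
            _ = A.valuation (algebraMap ℚ Kbar W.a₄) := one_mul _
            _ < 1 := hlt
        have e : (algebraMap ℚ Kbar W.a₂) ^ 2 =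
            ((algebraMap ℚ Kbar W.a₂) ^ 2 - 4 * algebraMap ℚ Kbar W.a₄) +
              4 * algebraMap ℚ Kbar W.a₄ := by ring
        rw [← (A.valuation).map_pow, e, (A.valuation).map_add_eq_of_lt_left h4b, hdisc', one_pow]
      obtain ⟨β, hβ⟩ := IsAlgClosed.exists_pow_nat_eq (algebraMap ℚ Kbar W.a₂) (n := 2)
        (by norm_num)
      have hT : (W⁄Kbar).Nonsingular 0 0 := by
        rw [nonsingular_zero]
        exact ⟨e₆, Or.inr (by rw [e₄]; exact hb0)⟩
      have hT0 : Point.some 0 0 hT ≠ 0 := Point.some_ne_zero _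
      exact node_main A.valuation hL hva1 hlt hb0 h2 hβ hT0 rfl rfl hn hn2 hnv
        (Point.map (W' := W) σ.toAlgHom) hτ0 (σ : Kbar →+* Kbar) hτX hτY hs
        (d := algebraMap ℚ Kbar w) (σ.commutes w) hw hP
    · exact good heq

end LocalQbar

end Fermat.Agent.S05.helper245
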