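/-
x-coordinate-only formulas for the group law on a Weierstrass curve over a field,
in terms of the `b`-invariants (no assumption on the characteristic):

* `x(P+Q) * x(P-Q) * (x₁-x₂)² = x₁²x₂² - b₄x₁x₂ - b₆(x₁+x₂) - b₈`
* `(x(P+Q) + x(P-Q)) * (x₁-x₂)² = 2x₁x₂(x₁+x₂) + b₂x₁x₂ + b₄(x₁+x₂) + b₆`
* `x(2P) * (4x³ + b₂x² + 2b₄x + b₆) = x⁴ - b₄x² - 2b₆x - b₈`

stated on Mathlib's `WeierstrassCurve.Affine.Point`.
-/
import Mathlib.AlgebraicGeometry.EllipticCurve.Affine.Point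

set_option autoImplicit false

namespace Fermat.Agent.S05.helper1745

open WeierstrassCurve WeierstrassCurve.Affine

variable {F : Type*} [Field F] {W : Affine F}

/-- `ψ₂² = (2y + a₁x + a₃)² = 4x³ + b₂x² + 2b₄x + b₆` on the curve. -/
theorem sq_psi_two {x y : F} (h : W.Equation x y) :
    (y - W.negY x y) ^ 2 = 4 * x ^ 3 + W.b₂ * x ^ 2 + 2 * W.b₄ * x + W.b₆ := by
  rw [equation_iff] at h
  simp only [negY, WeierstrassCurve.b₂, WeierstrassCurve.b₄, WeierstrassCurve.b₆]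
  linear_combination 4 * h

/-- `ψ₂(P) = 0` iff `4x³ + b₂x² + 2b₄x + b₆ = 0` (for a point on the curve). -/
theorem y_eq_negY_iff {x y : F} (h : W.Equation x y) :
    y = W.negY x y ↔ 4 * x ^ 3 + W.b₂ * x ^ 2 + 2 * W.b₄ * x + W.b₆ = 0 := by
  rw [← sq_psi_two h, sq_eq_zero_iff, sub_eq_zero]

variable [DecidableEq F]

/-- Product of the `x`-coordinates of `P + Q` and `P - Q` (polynomial form). -/
theorem addX_mul_addX_negY {x₁ y₁ x₂ y₂ : F} (h₁ : W.Equation x₁ y₁) (h₂ : W.Equation x₂ y₂)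
    (hx : x₁ ≠ x₂) :
    W.addX x₁ x₂ (W.slope x₁ x₂ y₁ y₂) * W.addX x₁ x₂ (W.slope x₁ x₂ y₁ (W.negY x₂ y₂)) *
        (x₁ - x₂) ^ 2 =
      x₁ ^ 2 * x₂ ^ 2 - W.b₄ * x₁ * x₂ - W.b₆ * (x₁ + x₂) - W.b₈ := by
  rw [equation_iff] at h₁ h₂
  have hd : x₁ - x₂ ≠ 0 := sub_ne_zero.mpr hx
  rw [slope_of_X_ne hx, slope_of_X_ne hx]
  simp only [addX, negY, WeierstrassCurve.b₄, WeierstrassCurve.b₆, WeierstrassCurve.b₈]
  field_simp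
  linear_combination
    (W.a₁^2 * x₁ * x₂ - W.a₁^2 * x₂^2 + W.a₁ * W.a₃ * x₁ - W.a₁ * W.a₃ * x₂ + W.a₁ * x₁ * y₁
      - 2 * W.a₁ * x₂ * y₂ - W.a₂ * x₁^2 + 4 * W.a₂ * x₁ * x₂ - 2 * W.a₂ * x₂^2 + W.a₃ * y₁
      - 2 * W.a₃ * y₂ + W.a₄ * x₁ + W.a₆ - x₁^3 + 2 * x₁^2 * x₂ + 2 * x₁ * x₂^2 + y₁^2
      - 2 * x₂^3 - 2 * y₂^2) * h₁ +
    (-W.a₁^2 * x₁^2 + W.a₁^2 * x₁ * x₂ - W.a₁ * W.a₃ * x₁ + W.a₁ * W.a₃ * x₂ + W.a₁ * x₂ * y₂
      - 4 * W.a₂ * x₁^2 + 4 * W.a₂ * x₁ * x₂ - W.a₂ * x₂^2 + W.a₃ * y₂ - 2 * W.a₄ * x₁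
      + W.a₄ * x₂ - W.a₆ - 4 * x₁^3 + 2 * x₁^2 * x₂ + 2 * x₁ * x₂^2 - x₂^3 + y₂^2) * h₂

/-- Sum of the `x`-coordinates of `P + Q` and `P - Q` (polynomial form). -/
theorem addX_add_addX_negY {x₁ y₁ x₂ y₂ : F} (h₁ : W.Equation x₁ y₁) (h₂ : W.Equation x₂ y₂)
    (hx : x₁ ≠ x₂) :
    (W.addX x₁ x₂ (W.slope x₁ x₂ y₁ y₂) + W.addX x₁ x₂ (W.slope x₁ x₂ y₁ (W.negY x₂ y₂))) *
        (x₁ - x₂) ^ 2 =
      2 * x₁ * x₂ * (x₁ + x₂) + W.b₂ * x₁ * x₂ + W.b₄ * (x₁ + x₂) + W.b₆ := by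
  rw [equation_iff] at h₁ h₂
  have hd : x₁ - x₂ ≠ 0 := sub_ne_zero.mpr hx
  rw [slope_of_X_ne hx, slope_of_X_ne hx]
  simp only [addX, negY, WeierstrassCurve.b₂, WeierstrassCurve.b₄, WeierstrassCurve.b₆]
  field_simp
  linear_combination 2 * h₁ + 2 * h₂

/-- The `x`-coordinate of `2P` (polynomial form). -/
theorem addX_self_mul {x y : F} (h : W.Equation x y) (hy : y ≠ W.negY x y) :
    W.addX x x (W.slope x x y y) * (4 * x ^ 3 + W.b₂ * x ^ 2 + 2 * W.b₄ * x + W.b₆) =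
      x ^ 4 - W.b₄ * x ^ 2 - 2 * W.b₆ * x - W.b₈ := by
  rw [← sq_psi_two h]
  have hd : y - W.negY x y ≠ 0 := sub_ne_zero.mpr hy
  rw [slope_of_Y_ne rfl hy]
  generalize hψ : y - W.negY x y = ψ at hd ⊢
  generalize hn : 3 * x ^ 2 + 2 * W.a₂ * x + W.a₄ - W.a₁ * y = n
  have key : W.addX x x (n / ψ) * ψ ^ 2 = n ^ 2 + W.a₁ * n * ψ - (W.a₂ + 2 * x) * ψ ^ 2 := by
    simp only [addX]
    field_simp
    ring
  rw [key, ← hψ, ← hn]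
  rw [equation_iff] at h
  simp only [negY, WeierstrassCurve.b₄, WeierstrassCurve.b₆, WeierstrassCurve.b₈]
  linear_combination (-W.a₁^2 - 4 * W.a₂ - 8 * x) * h

/-- **x-only addition/subtraction formulas.** For two affine points `P = (x₁,y₁)`, `Q = (x₂,y₂)`
with `x₁ ≠ x₂`, both `P + Q` and `P - Q` are affine, and their `x`-coordinates `X₊`, `X₋` satisfy
the product and sum formulas in terms of `x₁`, `x₂` and the `b`-invariants only. -/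
theorem exists_add_sub_some {x₁ y₁ x₂ y₂ : F} (h₁ : W.Nonsingular x₁ y₁)
    (h₂ : W.Nonsingular x₂ y₂) (hx : x₁ ≠ x₂) :
    ∃ (Xp Yp Xm Ym : F) (hp : W.Nonsingular Xp Yp) (hm : W.Nonsingular Xm Ym),
      Point.some x₁ y₁ h₁ + Point.some x₂ y₂ h₂ = Point.some Xp Yp hp ∧
      Point.some x₁ y₁ h₁ - Point.some x₂ y₂ h₂ = Point.some Xm Ym hm ∧
      Xp * Xm * (x₁ - x₂) ^ 2 = x₁ ^ 2 * x₂ ^ 2 - W.b₄ * x₁ * x₂ - W.b₆ * (x₁ + x₂) - W.b₈ ∧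
      (Xp + Xm) * (x₁ - x₂) ^ 2 =
        2 * x₁ * x₂ * (x₁ + x₂) + W.b₂ * x₁ * x₂ + W.b₄ * (x₁ + x₂) + W.b₆ := by
  have h₂' : W.Nonsingular x₂ (W.negY x₂ y₂) := (nonsingular_neg ..).mpr h₂
  refine ⟨_, _, _, _, nonsingular_add h₁ h₂ fun hxy => hx hxy.left,
    nonsingular_add h₁ h₂' fun hxy => hx hxy.left, Point.add_of_X_ne hx, ?_,
    addX_mul_addX_negY h₁.left h₂.left hx, addX_add_addX_negY h₁.left h₂.left hx⟩
  rw [sub_eq_add_neg, Point.neg_some, Point.add_of_X_ne hx]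

/-- **x-only duplication formula.** If `P = (x,y)` is affine with `2P ≠ 0` (i.e. `y ≠ negY x y`),
then `2P` is affine and its `x`-coordinate `X` satisfies
`X * (4x³ + b₂x² + 2b₄x + b₆) = x⁴ - b₄x² - 2b₆x - b₈`; moreover the cubic factor is nonzero. -/
theorem exists_add_self_some {x y : F} (h : W.Nonsingular x y) (hy : y ≠ W.negY x y) :
    ∃ (X Y : F) (h' : W.Nonsingular X Y),
      Point.some x y h + Point.some x y h = Point.some X Y h' ∧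
      X * (4 * x ^ 3 + W.b₂ * x ^ 2 + 2 * W.b₄ * x + W.b₆) =
        x ^ 4 - W.b₄ * x ^ 2 - 2 * W.b₆ * x - W.b₈ ∧
      4 * x ^ 3 + W.b₂ * x ^ 2 + 2 * W.b₄ * x + W.b₆ ≠ 0 :=
  ⟨_, _, nonsingular_add h h fun hxy => hy hxy.right, Point.add_self_of_Y_ne hy,
    addX_self_mul h.left hy, fun h0 => hy ((y_eq_negY_iff h.left).mpr h0)⟩

/-- If `4x³ + b₂x² + 2b₄x + b₆ = 0` at an affine point `P`, then `2P = 0`. -/
theorem add_self_eq_zero_of_cubic_eq_zero {x y : F} (h : W.Nonsingular x y)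
    (h0 : 4 * x ^ 3 + W.b₂ * x ^ 2 + 2 * W.b₄ * x + W.b₆ = 0) :
    Point.some x y h + Point.some x y h = 0 :=
  Point.add_self_of_Y_eq ((y_eq_negY_iff h.left).mpr h0)

end Fermat.Agent.S05.helper1745
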