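import Mathlib
import Fermat.Prelude.Def_FLTPrelim_Ramification

set_option autoImplicit false

/-!
Inertia basics for `ValuationSubring.inertiaSubgroupIn` (S05 common API).
For `σ ∈ A.inertiaSubgroupIn K`:
* `σ` stabilises `A` (`apply_mem`, `apply_mem_iff`), its maximal ideal, its units;
* `σ x - x ∈ A.nonunits` for `x ∈ A` (`apply_sub_mem_nonunits`);
* `A.valuation (σ x) = A.valuation x` (`valuation_apply`).
-/

namespace Fermat.Agent.S05.helper4205

open ValuationSubring
open scoped Pointwise

variable {K L : Type*} [Field K] [Field L] [Algebra K L]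

theorem mem_inertiaSubgroupIn_iff (A : ValuationSubring L) (σ : L ≃ₐ[K] L) :
    σ ∈ A.inertiaSubgroupIn K ↔
      ∃ h : σ ∈ A.decompositionSubgroup K,
        (⟨σ, h⟩ : A.decompositionSubgroup K) ∈ A.inertiaSubgroup K := by
  unfold ValuationSubring.inertiaSubgroupIn
  constructor
  · rintro ⟨τ, hτ, rfl⟩
    exact ⟨τ.2, hτ⟩
  · rintro ⟨h, hσ⟩
    exact ⟨⟨σ, h⟩, hσ, rfl⟩

theorem mem_decomposition_of_mem_inertiaSubgroupIn {A : ValuationSubring L} {σ : L ≃ₐ[K] L}
    (hσ : σ ∈ A.inertiaSubgroupIn K) : σ ∈ A.decompositionSubgroup K :=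
  ((mem_inertiaSubgroupIn_iff A σ).1 hσ).1

/-- Elements of the decomposition group map `A` into `A`. -/
theorem apply_mem_of_mem_decomposition {A : ValuationSubring L} {σ : L ≃ₐ[K] L}
    (hσ : σ ∈ A.decompositionSubgroup K) {x : L} (hx : x ∈ A) : σ x ∈ A := by
  have h : σ • A = A := hσ
  have : σ x ∈ σ • A := by
    rw [ValuationSubring.mem_smul_pointwise_iff_exists]
    exact ⟨x, hx, rfl⟩
  rwa [h] at this

theorem apply_mem_iff_of_mem_decomposition {A : ValuationSubring L} {σ : L ≃ₐ[K] L}
    (hσ : σ ∈ A.decompositionSubgroup K) {x : L} : σ x ∈ A ↔ x ∈ A := by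
  refine ⟨fun h => ?_, apply_mem_of_mem_decomposition hσ⟩
  have hinv : σ⁻¹ ∈ A.decompositionSubgroup K := inv_mem hσ
  have := apply_mem_of_mem_decomposition hinv h
  simpa using this

/-- Elements of the inertia group act trivially modulo the maximal ideal: `σ x - x ∈ 𝔪_A`. -/
theorem apply_sub_mem_nonunits {A : ValuationSubring L} {σ : L ≃ₐ[K] L}
    (hσ : σ ∈ A.inertiaSubgroupIn K) {x : L} (hx : x ∈ A) : σ x - x ∈ A.nonunits := by
  obtain ⟨h, hin⟩ := (mem_inertiaSubgroupIn_iff A σ).1 hσ
  have hker : MulSemiringAction.toRingAut (A.decompositionSubgroup K) (IsLocalRing.ResidueField A)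
      ⟨σ, h⟩ = 1 := hin
  have h1 : (⟨σ, h⟩ : A.decompositionSubgroup K) • IsLocalRing.residue A ⟨x, hx⟩
      = IsLocalRing.residue A ⟨x, hx⟩ := by
    have := congrArg (fun f : RingAut (IsLocalRing.ResidueField A) => f (IsLocalRing.residue A ⟨x, hx⟩)) hker
    simpa using this
  rw [← IsLocalRing.ResidueField.residue_smul] at h1
  have h2 : IsLocalRing.residue A ((⟨σ, h⟩ : A.decompositionSubgroup K) • (⟨x, hx⟩ : A) - ⟨x, hx⟩) = 0 := by
    rw [map_sub, h1, sub_self]
  rw [IsLocalRing.residue_eq_zero_iff] at h2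
  have h3 := (ValuationSubring.coe_mem_nonunits_iff (A := A)).2 h2
  exact h3

/-- Decomposition group elements are monotone for the valuation. -/
theorem valuation_apply_le_of_mem_decomposition {A : ValuationSubring L} {σ : L ≃ₐ[K] L}
    (hσ : σ ∈ A.decompositionSubgroup K) {x y : L} (h : A.valuation x ≤ A.valuation y) :
    A.valuation (σ x) ≤ A.valuation (σ y) := by
  rw [ValuationSubring.valuation_le_iff] at h ⊢
  obtain ⟨a, ha⟩ := h
  refine ⟨⟨σ a, apply_mem_of_mem_decomposition hσ a.2⟩, ?_⟩
  rw [← ha, map_mul]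

theorem valuation_apply_le_iff_of_mem_decomposition {A : ValuationSubring L} {σ : L ≃ₐ[K] L}
    (hσ : σ ∈ A.decompositionSubgroup K) {x y : L} :
    A.valuation (σ x) ≤ A.valuation (σ y) ↔ A.valuation x ≤ A.valuation y := by
  refine ⟨fun h => ?_, valuation_apply_le_of_mem_decomposition hσ⟩
  have hinv : σ⁻¹ ∈ A.decompositionSubgroup K := inv_mem hσ
  have := valuation_apply_le_of_mem_decomposition hinv h
  simpa using this

theorem valuation_apply_lt_iff_of_mem_decomposition {A : ValuationSubring L} {σ : L ≃ₐ[K] L}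
    (hσ : σ ∈ A.decompositionSubgroup K) {x y : L} :
    A.valuation (σ x) < A.valuation (σ y) ↔ A.valuation x < A.valuation y := by
  rw [← not_le, ← not_le, valuation_apply_le_iff_of_mem_decomposition hσ]

/-- Every element of an algebraic extension is fixed by some positive power of `σ`. -/
theorem exists_pow_apply_eq_self [Algebra.IsAlgebraic K L] (σ : L ≃ₐ[K] L) (x : L) :
    ∃ n : ℕ, 0 < n ∧ (σ ^ n) x = x := by
  have halg : IsAlgebraic K x := Algebra.IsAlgebraic.isAlgebraic x
  have hfin : ((minpoly K x).rootSet L).Finite := Polynomial.rootSet_finite _ _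
  have hmem : ∀ k : ℕ, (σ ^ k) x ∈ (minpoly K x).rootSet L := by
    intro k
    rw [Polynomial.mem_rootSet]
    refine ⟨minpoly.ne_zero halg.isIntegral, ?_⟩
    have : Polynomial.aeval ((σ ^ k) x) (minpoly K x) = (σ ^ k) (Polynomial.aeval x (minpoly K x)) :=
      Polynomial.aeval_algHom_apply (σ ^ k) x _
    rw [this, minpoly.aeval, map_zero]
  have : Finite ((minpoly K x).rootSet L) := hfin
  obtain ⟨i, j, hij, hEq⟩ := Finite.exists_ne_map_eq_of_infinite
    (fun k : ℕ => (⟨(σ ^ k) x, hmem k⟩ : (minpoly K x).rootSet L))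
  have hEq' : (σ ^ i) x = (σ ^ j) x := congrArg Subtype.val hEq
  rcases lt_or_gt_of_ne hij with hlt | hlt
  · refine ⟨j - i, Nat.sub_pos_of_lt hlt, ?_⟩
    have hj : σ ^ j = σ ^ i * σ ^ (j - i) := by
      rw [← pow_add]; congr 1; omega
    rw [hj, AlgEquiv.mul_apply] at hEq'
    exact ((σ ^ i).injective hEq').symm
  · refine ⟨i - j, Nat.sub_pos_of_lt hlt, ?_⟩
    have hi : σ ^ i = σ ^ j * σ ^ (i - j) := by
      rw [← pow_add]; congr 1; omega
    rw [hi, AlgEquiv.mul_apply] at hEq'
    exact (σ ^ j).injective hEq'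

/-- In an algebraic extension, the decomposition group preserves the valuation of `A`. -/
theorem valuation_apply_of_mem_decomposition [Algebra.IsAlgebraic K L]
    {A : ValuationSubring L} {σ : L ≃ₐ[K] L}
    (hσ : σ ∈ A.decompositionSubgroup K) (x : L) : A.valuation (σ x) = A.valuation x := by
  obtain ⟨n, hn, hx⟩ := exists_pow_apply_eq_self σ x
  have hstep : ∀ k : ℕ, (σ ^ (k + 1)) x = σ ((σ ^ k) x) := by
    intro k
    rw [pow_succ', AlgEquiv.mul_apply]
  rcases lt_trichotomy (A.valuation (σ x)) (A.valuation x) with hlt | heq | hgt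
  · exfalso
    have key : ∀ k : ℕ, A.valuation ((σ ^ (k + 1)) x) < A.valuation x := by
      intro k
      induction k with
      | zero => simpa using hlt
      | succ k ih =>
        have h1 : A.valuation ((σ ^ (k + 1 + 1)) x) < A.valuation (σ x) := by
          rw [hstep (k + 1)]
          exact (valuation_apply_lt_iff_of_mem_decomposition hσ).2 ih
        exact h1.trans hlt
    have := key (n - 1)
    rw [Nat.sub_add_cancel hn, hx] at this
    exact lt_irrefl _ this
  · exact heq
  · exfalso
    have key : ∀ k : ℕ, A.valuation x < A.valuation ((σ ^ (k + 1)) x) := by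
      intro k
      induction k with
      | zero => simpa using hgt
      | succ k ih =>
        have h1 : A.valuation (σ x) < A.valuation ((σ ^ (k + 1 + 1)) x) := by
          rw [hstep (k + 1)]
          exact (valuation_apply_lt_iff_of_mem_decomposition hσ).2 ih
        exact hgt.trans h1
    have := key (n - 1)
    rw [Nat.sub_add_cancel hn, hx] at this
    exact lt_irrefl _ this

theorem apply_mem_nonunits_iff_of_mem_decomposition {A : ValuationSubring L} {σ : L ≃ₐ[K] L}
    (hσ : σ ∈ A.decompositionSubgroup K) {x : L} : σ x ∈ A.nonunits ↔ x ∈ A.nonunits := by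
  rw [ValuationSubring.mem_nonunits_iff, ValuationSubring.mem_nonunits_iff]
  have h1 := valuation_apply_lt_iff_of_mem_decomposition hσ (x := x) (y := 1)
  simpa using h1

/-! ### Integers and the residue characteristic -/

theorem vs_intCast_mem (A : ValuationSubring L) (n : ℤ) : (n : L) ∈ A :=
  _root_.intCast_mem A n

theorem vs_natCast_mem (A : ValuationSubring L) (n : ℕ) : (n : L) ∈ A :=
  _root_.natCast_mem A n

theorem mul_mem_nonunits_left {A : ValuationSubring L} {x y : L} (hx : x ∈ A)
    (hy : y ∈ A.nonunits) : x * y ∈ A.nonunits := by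
  rw [ValuationSubring.mem_nonunits_iff] at hy ⊢
  rw [map_mul]
  have hx1 : A.valuation x ≤ 1 := (ValuationSubring.valuation_le_one_iff A x).2 hx
  calc A.valuation x * A.valuation y ≤ 1 * A.valuation y := mul_le_mul_left hx1 _
    _ = A.valuation y := one_mul _
    _ < 1 := hy

theorem mul_mem_nonunits_right {A : ValuationSubring L} {x y : L} (hx : x ∈ A.nonunits)
    (hy : y ∈ A) : x * y ∈ A.nonunits := by
  rw [mul_comm]; exact mul_mem_nonunits_left hy hx

theorem one_not_mem_nonunits (A : ValuationSubring L) : (1 : L) ∉ A.nonunits := by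
  rw [ValuationSubring.mem_nonunits_iff]; simp

/-- If `A` lies over the prime `q`, an integer is a nonunit of `A` iff `q` divides it. -/
theorem intCast_mem_nonunits_iff {A : ValuationSubring L} {q : ℕ} (hq : q.Prime)
    (hA : A.LiesOverPrime q) (n : ℤ) : (n : L) ∈ A.nonunits ↔ (q : ℤ) ∣ n := by
  constructor
  · intro hn
    by_contra hdvd
    have hqZ : Prime (q : ℤ) := Nat.prime_iff_prime_int.1 hq
    have hcop : IsCoprime (q : ℤ) n := hqZ.coprime_iff_not_dvd.2 hdvd
    obtain ⟨u, v, huv⟩ := hcop
    have h1 : ((u : L) * (q : L) + (v : L) * (n : L)) = 1 := by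
      have := congrArg (fun z : ℤ => (z : L)) huv
      push_cast at this
      exact this
    have h2 : ((u : L) * (q : L) + (v : L) * (n : L)) ∈ A.nonunits := by
      apply A.nonunits.add_mem
      · exact mul_mem_nonunits_left (vs_intCast_mem A u) hA
      · exact mul_mem_nonunits_left (vs_intCast_mem A v) hn
    rw [h1] at h2
    exact one_not_mem_nonunits A h2
  · rintro ⟨k, rfl⟩
    push_cast
    exact mul_mem_nonunits_right hA (vs_intCast_mem A k)

theorem natCast_mem_nonunits_iff {A : ValuationSubring L} {q : ℕ} (hq : q.Prime)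
    (hA : A.LiesOverPrime q) (n : ℕ) : (n : L) ∈ A.nonunits ↔ q ∣ n := by
  have := intCast_mem_nonunits_iff hq hA (n : ℤ)
  rw [Int.natCast_dvd_natCast] at this
  simpa using this

/-- If `A` lies over the prime `q`, an integer prime to `q` has valuation one. -/
theorem valuation_intCast_eq_one {A : ValuationSubring L} {q : ℕ} (hq : q.Prime)
    (hA : A.LiesOverPrime q) {n : ℤ} (hn : ¬ (q : ℤ) ∣ n) : A.valuation (n : L) = 1 := by
  have h1 : A.valuation (n : L) ≤ 1 :=
    (ValuationSubring.valuation_le_one_iff A _).2 (vs_intCast_mem A n)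
  have h2 : ¬ A.valuation (n : L) < 1 := by
    rw [← ValuationSubring.mem_nonunits_iff, intCast_mem_nonunits_iff hq hA]
    exact hn
  exact le_antisymm h1 (not_lt.1 h2)

theorem valuation_natCast_eq_one {A : ValuationSubring L} {q : ℕ} (hq : q.Prime)
    (hA : A.LiesOverPrime q) {n : ℕ} (hn : ¬ q ∣ n) : A.valuation (n : L) = 1 := by
  have := valuation_intCast_eq_one (A := A) hq hA (n := (n : ℤ))
    (by rwa [Int.natCast_dvd_natCast])
  simpa using this

/-! ### Square roots of fixed units are fixed by inertia -/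

/-- If `β ^ 2` is fixed by `σ ∈ I_A`, `β` is a unit of `A` and `2` is a unit of `A`,
then `σ β = β`. -/
theorem apply_eq_self_of_sq_fixed {A : ValuationSubring L} {σ : L ≃ₐ[K] L}
    (hσ : σ ∈ A.inertiaSubgroupIn K) {β : L} (hβ : A.valuation β = 1)
    (h2 : A.valuation (2 : L) = 1) (hfix : σ (β ^ 2) = β ^ 2) : σ β = β := by
  have hβA : β ∈ A := (ValuationSubring.valuation_le_one_iff A β).1 hβ.le
  have hsq : (σ β - β) * (σ β + β) = 0 := by
    have : σ β ^ 2 = β ^ 2 := by rw [← map_pow, hfix]
    linear_combination this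
  rcases mul_eq_zero.1 hsq with h | h
  · exact sub_eq_zero.1 h
  · exfalso
    have hmem := apply_sub_mem_nonunits hσ hβA
    have hσβ : σ β = -β := eq_neg_of_add_eq_zero_left h
    rw [hσβ, ValuationSubring.mem_nonunits_iff] at hmem
    have : A.valuation (-β - β) = 1 := by
      have : -β - β = -(2 * β) := by ring
      rw [this, Valuation.map_neg, map_mul, h2, hβ, one_mul]
    rw [this] at hmem
    exact lt_irrefl _ hmem

/-! ### Units and elements with a fixed valuation representative -/

/-- For a unit `u` of `A` and `σ ∈ I_A`: `σ u / u - 1 ∈ 𝔪_A`. -/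
theorem apply_div_sub_one_mem_nonunits_of_unit {A : ValuationSubring L} {σ : L ≃ₐ[K] L}
    (hσ : σ ∈ A.inertiaSubgroupIn K) {u : L} (hu : A.valuation u = 1) :
    σ u / u - 1 ∈ A.nonunits := by
  have huA : u ∈ A := (ValuationSubring.valuation_le_one_iff A u).1 hu.le
  have hu0 : u ≠ 0 := by
    rintro rfl
    simp at hu
  have hinv : u⁻¹ ∈ A := by
    apply (ValuationSubring.valuation_le_one_iff A _).1
    rw [map_inv₀, hu, inv_one]
  have h1 : σ u / u - 1 = (σ u - u) * u⁻¹ := by
    field_simp
  rw [h1]
  exact mul_mem_nonunits_right (apply_sub_mem_nonunits hσ huA) hinv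

/-- If `x ≠ 0` has the same valuation as a `σ`-fixed element `w`, then `σ x / x - 1 ∈ 𝔪_A`. -/
theorem apply_div_sub_one_mem_nonunits {A : ValuationSubring L} {σ : L ≃ₐ[K] L}
    (hσ : σ ∈ A.inertiaSubgroupIn K) {x w : L} (hw : σ w = w) (hx0 : x ≠ 0)
    (hx : A.valuation x = A.valuation w) : σ x / x - 1 ∈ A.nonunits := by
  have hw0 : w ≠ 0 := by
    rintro rfl
    rw [map_zero] at hx
    exact hx0 ((map_eq_zero _).1 hx)
  have hu : A.valuation (x / w) = 1 := by
    rw [map_div₀, hx, div_self]
    exact (map_ne_zero _).2 hw0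
  have := apply_div_sub_one_mem_nonunits_of_unit hσ hu
  have h1 : σ (x / w) / (x / w) - 1 = σ x / x - 1 := by
    rw [map_div₀, hw]
    field_simp
  rwa [h1] at this

/-! ### Simple roots are fixed by inertia -/

/-- A root `α ∈ A` of a polynomial `f ∈ A[X]` with `σ`-fixed coefficients such that `f'(α)`
is a unit of `A` is fixed by every `σ ∈ I_A`. -/
theorem apply_eq_self_of_simple_root {A : ValuationSubring L} {σ : L ≃ₐ[K] L}
    (hσ : σ ∈ A.inertiaSubgroupIn K) (f : Polynomial A)
    (hf : ∀ i, σ (f.coeff i : L) = (f.coeff i : L)) (a : A)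
    (hroot : f.eval a = 0) (hder : IsUnit (f.derivative.eval a)) : σ (a : L) = a := by
  have hD := mem_decomposition_of_mem_inertiaSubgroupIn hσ
  set b : A := ⟨σ (a : L), apply_mem_of_mem_decomposition hD a.2⟩ with hb
  have hgfix : (f.map A.subtype).map (σ : L →+* L) = f.map A.subtype := by
    ext i
    simp only [Polynomial.coeff_map]
    exact hf i
  have hrootL : (f.map A.subtype).eval (a : L) = 0 := by
    have := Polynomial.eval_map_apply (p := f) A.subtype a
    rw [hroot] at this
    simpa using this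
  have hrootb : f.eval b = 0 := by
    have h1 : (f.map A.subtype).eval (σ (a : L)) = 0 := by
      have := Polynomial.eval_map_apply (p := f.map A.subtype) (σ : L →+* L) (a : L)
      rw [hgfix, hrootL] at this
      simpa using this
    have h2 := Polynomial.eval_map_apply (p := f) A.subtype b
    have h3 : (A.subtype b : L) = σ (a : L) := rfl
    rw [h3, h1] at h2
    exact Subtype.ext (by simpa using h2.symm)
  obtain ⟨k, hk⟩ := Polynomial.binomExpansion f a (b - a)
  rw [add_sub_cancel, hrootb, hroot, zero_add] at hk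
  have hfac : (b - a) * (f.derivative.eval a + k * (b - a)) = 0 := by
    rw [hk]; ring
  have hba : b - a ∈ IsLocalRing.maximalIdeal A := by
    rw [← ValuationSubring.coe_mem_nonunits_iff]
    exact apply_sub_mem_nonunits hσ a.2
  have hunit : IsUnit (f.derivative.eval a + k * (b - a)) := by
    by_contra hnu
    have h1 : f.derivative.eval a + k * (b - a) ∈ IsLocalRing.maximalIdeal A :=
      (IsLocalRing.mem_maximalIdeal _).2 hnu
    have h2 : k * (b - a) ∈ IsLocalRing.maximalIdeal A := Ideal.mul_mem_left _ _ hba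
    have h3 : f.derivative.eval a ∈ IsLocalRing.maximalIdeal A := by
      have := Ideal.sub_mem _ h1 h2
      simpa using this
    exact (IsLocalRing.mem_maximalIdeal _).1 h3 hder
  have hzero : b - a = 0 := by
    rcases mul_eq_zero.1 hfac with h | h
    · exact h
    · exact absurd (h ▸ hunit) not_isUnit_zero
  have : b = a := sub_eq_zero.1 hzero
  exact congrArg Subtype.val this

end Fermat.Agent.S05.helper4205
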