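import Mathlib
import Fermat.Prelude.Def_FLTPrelim_Ramification
import Fermat.Agent.S05.helper4205_Inertia

set_option autoImplicit false

/-!
Board row 59 (S05-I1): inertia basics for a valuation subring `A` of `Qbar`, in the exact
shapes requested by the S05 assembly.  Thin wrappers around `helper4205_Inertia`.
-/

namespace Fermat.Agent.S05.helper2200

open ValuationSubring

/-- The `ℚ`-algebra structure on `AlgebraicClosure ℚ` found by elaboration
(`DivisionRing.toRatAlgebra`) agrees with `AlgebraicClosure.instAlgebra ℚ`. -/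
theorem algebra_rat_eq :
    (AlgebraicClosure.instAlgebra ℚ : Algebra ℚ (AlgebraicClosure ℚ)) = DivisionRing.toRatAlgebra :=
  Subsingleton.elim _ _

/-- `AlgebraicClosure ℚ` is algebraic over `ℚ` for the algebra structure used in the frozen
statements. -/
theorem isAlgebraic_Qbar : Algebra.IsAlgebraic ℚ (AlgebraicClosure ℚ) :=
  algebra_rat_eq ▸ AlgebraicClosure.isAlgebraic ℚ

/-- (a) inertia preserves the valuation of `A`. -/
theorem valuation_apply (A : ValuationSubring (AlgebraicClosure ℚ))
    {σ : AlgebraicClosure ℚ ≃ₐ[ℚ] AlgebraicClosure ℚ} (hσ : σ ∈ A.inertiaSubgroupIn ℚ)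
    (x : AlgebraicClosure ℚ) : A.valuation (σ x) = A.valuation x :=
  haveI := isAlgebraic_Qbar
  Fermat.Agent.S05.helper4205.valuation_apply_of_mem_decomposition
    (Fermat.Agent.S05.helper4205.mem_decomposition_of_mem_inertiaSubgroupIn hσ) x

/-- (b) inertia acts trivially modulo the maximal ideal of `A`. -/
theorem valuation_apply_sub_lt_one (A : ValuationSubring (AlgebraicClosure ℚ))
    {σ : AlgebraicClosure ℚ ≃ₐ[ℚ] AlgebraicClosure ℚ} (hσ : σ ∈ A.inertiaSubgroupIn ℚ)
    (x : AlgebraicClosure ℚ) (hx : A.valuation x ≤ 1) : A.valuation (σ x - x) < 1 := by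
  have hxA : x ∈ A := (ValuationSubring.valuation_le_one_iff A x).1 hx
  have := Fermat.Agent.S05.helper4205.apply_sub_mem_nonunits hσ hxA
  rwa [ValuationSubring.mem_nonunits_iff] at this

/-- (c) rational numbers are fixed. -/
theorem apply_algebraMap_rat (σ : AlgebraicClosure ℚ ≃ₐ[ℚ] AlgebraicClosure ℚ) (x : ℚ) :
    σ (algebraMap ℚ (AlgebraicClosure ℚ) x) = algebraMap ℚ (AlgebraicClosure ℚ) x :=
  σ.commutes x

/-- (c') integers are fixed. -/
theorem apply_intCast (σ : AlgebraicClosure ℚ ≃ₐ[ℚ] AlgebraicClosure ℚ) (n : ℤ) :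
    σ (n : AlgebraicClosure ℚ) = (n : AlgebraicClosure ℚ) :=
  map_intCast σ n

/-- (d1) integers prime to `q` are units of `A` when `A` lies over `q`. -/
theorem valuation_intCast_eq_one (A : ValuationSubring (AlgebraicClosure ℚ)) {q : ℕ}
    (hq : q.Prime) (hA : A.LiesOverPrime q) {n : ℤ} (hn : ¬ (q : ℤ) ∣ n) :
    A.valuation (n : AlgebraicClosure ℚ) = 1 :=
  Fermat.Agent.S05.helper4205.valuation_intCast_eq_one hq hA hn

/-- (d2) `q` itself is a nonunit. -/
theorem valuation_natCast_prime_lt_one (A : ValuationSubring (AlgebraicClosure ℚ)) {q : ℕ}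
    (hA : A.LiesOverPrime q) : A.valuation (q : AlgebraicClosure ℚ) < 1 := by
  have h : (q : AlgebraicClosure ℚ) ∈ A.nonunits := hA
  rwa [ValuationSubring.mem_nonunits_iff] at h

/-- (d3) every integer is integral for `A`. -/
theorem valuation_intCast_le_one (A : ValuationSubring (AlgebraicClosure ℚ)) (n : ℤ) :
    A.valuation (n : AlgebraicClosure ℚ) ≤ 1 :=
  (ValuationSubring.valuation_le_one_iff A _).2 (intCast_mem A n)

/-- (d4) the valuation of an integer divisible by `q` is `< 1`. -/
theorem valuation_intCast_lt_one_iff (A : ValuationSubring (AlgebraicClosure ℚ)) {q : ℕ}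
    (hq : q.Prime) (hA : A.LiesOverPrime q) (n : ℤ) :
    A.valuation (n : AlgebraicClosure ℚ) < 1 ↔ (q : ℤ) ∣ n := by
  rw [← ValuationSubring.mem_nonunits_iff]
  exact Fermat.Agent.S05.helper4205.intCast_mem_nonunits_iff hq hA n

/-- (d5) with `q` odd, `2` is a unit of `A`. -/
theorem valuation_two_eq_one (A : ValuationSubring (AlgebraicClosure ℚ)) {q : ℕ}
    (hq : q.Prime) (hq2 : q ≠ 2) (hA : A.LiesOverPrime q) :
    A.valuation (2 : AlgebraicClosure ℚ) = 1 := by
  have h : ¬ (q : ℤ) ∣ (2 : ℤ) := by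
    intro hd
    have h2 : q ∣ 2 := by exact_mod_cast hd
    exact hq2 ((Nat.prime_dvd_prime_iff_eq hq Nat.prime_two).1 h2)
  have := valuation_intCast_eq_one A hq hA h
  simpa using this

end Fermat.Agent.S05.helper2200
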