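import Mathlib

/-!
# Shape coordinates for Weierstrass curves with a rational 2-torsion point (helper305, S05)

A Weierstrass curve `W` over a field `K` (with `2 ≠ 0`) has *shape* `(e, al, be)` when, in the
coordinates `ξ = x - e`, `η = y + (a₁ x + a₃)/2`, its equation reads `η² = ξ (ξ² + al ξ + be)`.

`AddRel` is the chord–tangent relation in these coordinates; `add_some_rel` transports the
Mathlib group law on `W.Point` to `AddRel`.  The identities `AddRel.F2`, `F3`, `F4` are the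
exact formulas on which all valuation estimates rest.
-/

namespace Fermat.Agent.S05.helper305

open WeierstrassCurve WeierstrassCurve.Affine

variable {K : Type*} [Field K]

/-- `W` has the shape `η² = ξ(ξ² + al ξ + be)` in `ξ = x - e`, `η = y + (a₁x + a₃)/2`. -/
structure Shape (W : WeierstrassCurve K) (e al be : K) : Prop where
  two_ne : (2 : K) ≠ 0
  hb2 : W.b₂ = 4 * al - 12 * e
  hb4 : W.b₄ = 6 * e ^ 2 - 4 * al * e + 2 * be
  hb6 : W.b₆ = -4 * e ^ 3 + 4 * al * e ^ 2 - 4 * be * e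

/-- The coordinate `η = y + (a₁ x + a₃)/2`. -/
def eta (W : WeierstrassCurve K) (x y : K) : K := y + (W.a₁ * x + W.a₃) / 2

/-- The chord–tangent relation in `(ξ, η)` coordinates on `η² = ξ(ξ² + al ξ + be)`:
`(ξ₃, η₃)` is the sum of `(ξ₁, η₁)` and `(ξ₂, η₂)`, the line through them having slope `lam`. -/
structure AddRel (al be ξ₁ η₁ ξ₂ η₂ ξ₃ η₃ lam : K) : Prop where
  c₁ : η₁ ^ 2 = ξ₁ * (ξ₁ ^ 2 + al * ξ₁ + be)
  c₂ : η₂ ^ 2 = ξ₂ * (ξ₂ ^ 2 + al * ξ₂ + be)
  hlam : (ξ₁ ≠ ξ₂ ∧ lam * (ξ₁ - ξ₂) = η₁ - η₂) ∨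
    (ξ₁ = ξ₂ ∧ η₁ = η₂ ∧ η₁ ≠ 0 ∧ lam * (2 * η₁) = 3 * ξ₁ ^ 2 + 2 * al * ξ₁ + be)
  hξ : ξ₃ = lam ^ 2 - al - ξ₁ - ξ₂
  hη : η₃ = -(lam * (ξ₃ - ξ₁) + η₁)

section shape

variable {W : WeierstrassCurve K} {e al be : K}

theorem two_mul_eta (W : WeierstrassCurve K) (h2 : (2 : K) ≠ 0) (x y : K) :
    2 * eta W x y = 2 * y + W.a₁ * x + W.a₃ := by
  simp only [eta]
  field_simp
  ring

theorem Shape.equation_iff (hS : Shape W e al be) (x y : K) :
    W.toAffine.Equation x y ↔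
      eta W x y ^ 2 = (x - e) * ((x - e) ^ 2 + al * (x - e) + be) := by
  have h2 := hS.two_ne
  have h4 : (4 : K) ≠ 0 := by
    have : (4 : K) = 2 * 2 := by norm_num
    rw [this]; exact mul_ne_zero h2 h2
  have hb2 := hS.hb2
  have hb4 := hS.hb4
  have hb6 := hS.hb6
  simp only [WeierstrassCurve.b₂, WeierstrassCurve.b₄, WeierstrassCurve.b₆] at hb2 hb4 hb6
  have he := two_mul_eta W h2 x y
  rw [Affine.equation_iff]
  constructor
  · intro h
    apply mul_left_cancel₀ h4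
    linear_combination 4 * h + (x ^ 2) * hb2 + (2 * x) * hb4 + hb6 + (2 * eta W x y + 2 * y + W.a₁ * x + W.a₃) * he
  · intro h
    apply mul_left_cancel₀ h4
    linear_combination 4 * h - (x ^ 2) * hb2 - (2 * x) * hb4 - hb6 - (2 * eta W x y + 2 * y + W.a₁ * x + W.a₃) * he

theorem eta_negY (W : WeierstrassCurve K) (h2 : (2 : K) ≠ 0) (x y : K) :
    eta W x (W.toAffine.negY x y) = -eta W x y := by
  simp only [eta, Affine.negY]
  field_simp
  ring

theorem eta_sub_eta (W : WeierstrassCurve K) (x₁ y₁ x₂ y₂ : K) :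
    eta W x₁ y₁ - eta W x₂ y₂ = (y₁ - y₂) + W.a₁ / 2 * (x₁ - x₂) := by
  simp only [eta]; ring

variable [DecidableEq K]

/-- Transport of the Mathlib group law to `AddRel` in shape coordinates. -/
theorem Shape.add_some_rel (hS : Shape W e al be) {x₁ y₁ x₂ y₂ : K}
    (h₁ : W.toAffine.Nonsingular x₁ y₁) (h₂ : W.toAffine.Nonsingular x₂ y₂)
    (hne : ¬(x₁ = x₂ ∧ y₁ = W.toAffine.negY x₂ y₂)) :
    ∃ (x₃ y₃ : K) (h₃ : W.toAffine.Nonsingular x₃ y₃) (lam : K),
      Point.some x₁ y₁ h₁ + Point.some x₂ y₂ h₂ = Point.some x₃ y₃ h₃ ∧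
      AddRel al be (x₁ - e) (eta W x₁ y₁) (x₂ - e) (eta W x₂ y₂) (x₃ - e) (eta W x₃ y₃) lam := by
  have h2 := hS.two_ne
  have hb2 := hS.hb2
  have hb4 := hS.hb4
  have hb6 := hS.hb6
  simp only [WeierstrassCurve.b₂, WeierstrassCurve.b₄, WeierstrassCurve.b₆] at hb2 hb4 hb6
  refine ⟨_, _, nonsingular_add h₁ h₂ hne, W.toAffine.slope x₁ x₂ y₁ y₂ + W.a₁ / 2,
    Point.add_some hne, ?_⟩
  have hlamξ : W.toAffine.addX x₁ x₂ (W.toAffine.slope x₁ x₂ y₁ y₂) - e =
      (W.toAffine.slope x₁ x₂ y₁ y₂ + W.a₁ / 2) ^ 2 - al - (x₁ - e) - (x₂ - e) := by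
    simp only [Affine.addX]
    field_simp
    linear_combination (-1 : K) * hb2
  refine ⟨(hS.equation_iff _ _).1 h₁.1, (hS.equation_iff _ _).1 h₂.1, ?_, hlamξ, ?_⟩
  · by_cases hx : x₁ = x₂
    · right
      have hy : y₁ ≠ W.toAffine.negY x₂ y₂ := fun hy => hne ⟨hx, hy⟩
      have hy12 : y₁ = y₂ := by
        rcases Y_eq_of_X_eq h₁.1 h₂.1 hx with h | h
        · exact h
        · exact absurd h hy
      subst hx hy12
      have hη : eta W x₁ y₁ ≠ 0 := by
        intro h0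
        apply hy
        have := two_mul_eta W h2 x₁ y₁
        rw [h0, mul_zero] at this
        simp only [Affine.negY]
        linear_combination (-1 : K) * this
      refine ⟨rfl, rfl, hη, ?_⟩
      rw [slope_of_Y_ne rfl hy]
      have hden : y₁ - W.toAffine.negY x₁ y₁ ≠ 0 := sub_ne_zero.mpr hy
      have hden' : y₁ - W.toAffine.negY x₁ y₁ = 2 * eta W x₁ y₁ := by
        rw [two_mul_eta W h2]; simp only [Affine.negY]; ring
      rw [hden'] at hden ⊢
      field_simp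
      have he := two_mul_eta W h2 x₁ y₁
      apply mul_left_cancel₀ h2
      linear_combination x₁ * hb2 + hb4 + W.a₁ * he
    · left
      refine ⟨fun h => hx (by linear_combination h), ?_⟩
      rw [slope_of_X_ne hx, eta_sub_eta]
      have hx' : x₁ - x₂ ≠ 0 := sub_ne_zero.mpr hx
      field_simp
      ring
  · simp only [eta, Affine.addY, Affine.negAddY, Affine.negY]
    simp only [Affine.addX] at hlamξ ⊢
    field_simp
    ring

end shape

end Fermat.Agent.S05.helper305
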