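import Fermat.Agent.S05.helper305_Formulas

/-!
# Kernel of reduction in shape coordinates: closure and relative additivity of `t = ξ/η`
(helper1205, S05; backup of board row 61)

Setting: `η² = ξ(ξ² + al ξ + be)` over a field `K` with a valuation `v` (multiplicative notation),
`v 2 = 1`, `v al ≤ 1`, `v be ≤ 1`.  The "kernel of reduction" is `E₁ = {O} ∪ {1 < v ξ}`.

Main result `e1_add`: if `(ξ₃, η₃)` is the (affine) sum of two points of `E₁`, then it lies in `E₁`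
and `t₃ = ξ₃/η₃` equals `t₁ + t₂` up to a relative error of valuation `< 1`:
`v (t₃ - (t₁ + t₂)) < v (t₁ + t₂)`.

The proof rests on the two exact identities
* (F2) `ξ₃ N² = ξ₁ξ₂ D²`  (helper305),
* (F5) `ξ₃ G = η₃ N D`,
with `N = η₁ξ₂ + η₂ξ₁`, `D = ξ₁ξ₂ - be`,
`G = η₁η₂(ξ₁ξ₂ + be) + ξ₁ξ₂(al ξ₁ξ₂ + 2 be (ξ₁ + ξ₂) + al be)`.
-/

namespace Fermat.Agent.S05.helper1205

open Fermat.Agent.S05.helper305

variable {K : Type*} [Field K]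

section identities

variable {al be ξ₁ η₁ ξ₂ η₂ ξ₃ η₃ lam : K}

/-- (F5) `ξ₃ · G = η₃ · (η₁ξ₂ + η₂ξ₁) · (ξ₁ξ₂ - β)` with
`G = η₁η₂(ξ₁ξ₂ + β) + ξ₁ξ₂(α ξ₁ξ₂ + 2β(ξ₁ + ξ₂) + αβ)`. -/
theorem F5 (h2 : (2 : K) ≠ 0) (h : AddRel al be ξ₁ η₁ ξ₂ η₂ ξ₃ η₃ lam) :
    ξ₃ * (η₁ * η₂ * (ξ₁ * ξ₂ + be)
        + ξ₁ * ξ₂ * (al * (ξ₁ * ξ₂) + 2 * be * (ξ₁ + ξ₂) + al * be))
      = η₃ * (η₁ * ξ₂ + η₂ * ξ₁) * (ξ₁ * ξ₂ - be) := by
  have c₁ := h.c₁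
  have c₂ := h.c₂
  by_cases hne : ξ₁ = ξ₂
  · obtain ⟨h12, hη, hl⟩ := h.lam_tangent h2 hne
    subst hne h12
    rw [h.hη, h.hξ, hl]
    field_simp
    grind
  · have hl := h.lam_chord hne
    have hd : ξ₁ - ξ₂ ≠ 0 := sub_ne_zero.mpr hne
    rw [h.hη, h.hξ, hl]
    field_simp
    grind

/-- `(η₁ξ₂ + η₂ξ₁)(η₁ξ₂ - η₂ξ₁) = ξ₁ξ₂(ξ₁ - ξ₂)(ξ₁ξ₂ - β)` on the curve. -/
theorem N_mul (c₁ : η₁ ^ 2 = ξ₁ * (ξ₁ ^ 2 + al * ξ₁ + be))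
    (c₂ : η₂ ^ 2 = ξ₂ * (ξ₂ ^ 2 + al * ξ₂ + be)) :
    (η₁ * ξ₂ + η₂ * ξ₁) * (η₁ * ξ₂ - η₂ * ξ₁) = ξ₁ * ξ₂ * (ξ₁ - ξ₂) * (ξ₁ * ξ₂ - be) := by
  linear_combination ξ₂ ^ 2 * c₁ - ξ₁ ^ 2 * c₂

end identities

section valuation

variable {Γ₀ : Type*} [LinearOrderedCommGroupWithZero Γ₀] (v : Valuation K Γ₀)

/-- For `1 < v ξ` the cubic factor `ξ² + al ξ + be` has the valuation of `ξ²`. -/
theorem val_quadratic {al be ξ : K} (hal : v al ≤ 1) (hbe : v be ≤ 1) (hξ : 1 < v ξ) :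
    v (ξ ^ 2 + al * ξ + be) = v ξ ^ 2 := by
  have hξ0 : 0 < v ξ := zero_lt_one.trans hξ
  have h1 : v (al * ξ) < v (ξ ^ 2) := by
    rw [map_mul, map_pow, pow_two]
    calc v al * v ξ ≤ 1 * v ξ := by gcongr
      _ = v ξ := one_mul _
      _ < v ξ * v ξ := lt_mul_of_one_lt_left hξ0 hξ
  have h2 : v be < v (ξ ^ 2) := by
    rw [map_pow]
    exact hbe.trans_lt (one_lt_pow₀ hξ two_ne_zero)
  rw [add_assoc, Valuation.map_add_eq_of_lt_left, map_pow]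
  exact v.map_add_lt h1 h2

/-- On the curve, `1 < v ξ` forces `v η ^ 2 = v ξ ^ 3`. -/
theorem val_eta_sq {al be ξ η : K} (c : η ^ 2 = ξ * (ξ ^ 2 + al * ξ + be))
    (hal : v al ≤ 1) (hbe : v be ≤ 1) (hξ : 1 < v ξ) : v η ^ 2 = v ξ ^ 3 := by
  rw [← map_pow, c, map_mul, val_quadratic v hal hbe hξ]
  exact (pow_succ' (v ξ) 2).symm

/-- On the curve, `1 < v ξ` forces `v ξ < v η`. -/
theorem val_xi_lt_eta {al be ξ η : K} (c : η ^ 2 = ξ * (ξ ^ 2 + al * ξ + be))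
    (hal : v al ≤ 1) (hbe : v be ≤ 1) (hξ : 1 < v ξ) : v ξ < v η := by
  have h := val_eta_sq v c hal hbe hξ
  have hξ0 : 0 < v ξ := zero_lt_one.trans hξ
  apply lt_of_pow_lt_pow_left₀ 2 zero_le
  rw [h]
  calc v ξ ^ 2 = v ξ ^ 2 * 1 := (mul_one _).symm
    _ < v ξ ^ 2 * v ξ := mul_lt_mul_of_pos_left hξ (pow_pos hξ0 2)
    _ = v ξ ^ 3 := (pow_succ (v ξ) 2).symm

/-- Product of an element of valuation `≤ 1` and one of valuation `< 1`. -/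
theorem val_mul_lt_one_of_le_of_lt {x y : K} (hx : v x ≤ 1) (hy : v y < 1) : v (x * y) < 1 := by
  rw [map_mul]
  calc v x * v y ≤ 1 * v y := by gcongr
    _ = v y := one_mul _
    _ < 1 := hy

theorem val_mul_lt_one_of_lt_of_le {x y : K} (hx : v x < 1) (hy : v y ≤ 1) : v (x * y) < 1 := by
  rw [mul_comm]; exact val_mul_lt_one_of_le_of_lt v hy hx

theorem val_inv_lt_one {x : K} (hx : 1 < v x) : v x⁻¹ < 1 := by
  rw [map_inv₀]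
  exact inv_lt_one_of_one_lt₀ hx

theorem val_div_lt_one {x y : K} (hxy : v x < v y) : v (x / y) < 1 := by
  have hy0 : 0 < v y := lt_of_le_of_lt zero_le hxy
  rw [map_div₀]
  exact (div_lt_one₀ hy0).mpr hxy

variable {al be ξ₁ η₁ ξ₂ η₂ ξ₃ η₃ lam : K}

/-- **Kernel of reduction is closed and `t = ξ/η` is additive up to a relative error in `𝔪`.**
(Board row 61 of S05, exact statement.) -/
theorem e1_add (h : AddRel al be ξ₁ η₁ ξ₂ η₂ ξ₃ η₃ lam) (hv2 : v 2 = 1) (hal : v al ≤ 1)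
    (hbe : v be ≤ 1) (h₁ : 1 < v ξ₁) (h₂ : 1 < v ξ₂) :
    1 < v ξ₃ ∧ v (ξ₃ / η₃ - (ξ₁ / η₁ + ξ₂ / η₂)) < v (ξ₁ / η₁ + ξ₂ / η₂) := by
  have h2 : (2 : K) ≠ 0 := by
    intro h0; rw [h0, map_zero] at hv2; exact zero_ne_one hv2
  have c₁ := h.c₁
  have c₂ := h.c₂
  -- nonvanishing of the coordinates
  have hξ₁ : ξ₁ ≠ 0 := by rintro rfl; rw [map_zero] at h₁; exact not_lt.mpr zero_le h₁
  have hξ₂ : ξ₂ ≠ 0 := by rintro rfl; rw [map_zero] at h₂; exact not_lt.mpr zero_le h₂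
  have hlt₁ : v ξ₁ < v η₁ := val_xi_lt_eta v c₁ hal hbe h₁
  have hlt₂ : v ξ₂ < v η₂ := val_xi_lt_eta v c₂ hal hbe h₂
  have hη₁v : 1 < v η₁ := h₁.trans hlt₁
  have hη₂v : 1 < v η₂ := h₂.trans hlt₂
  have hη₁ : η₁ ≠ 0 := by rintro rfl; rw [map_zero] at hη₁v; exact not_lt.mpr zero_le hη₁v
  have hη₂ : η₂ ≠ 0 := by rintro rfl; rw [map_zero] at hη₂v; exact not_lt.mpr zero_le hη₂v
  -- small quantities
  have hu₁ : v ξ₁⁻¹ < 1 := val_inv_lt_one v h₁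
  have hu₂ : v ξ₂⁻¹ < 1 := val_inv_lt_one v h₂
  have hs₁ : v η₁⁻¹ < 1 := val_inv_lt_one v hη₁v
  have hs₂ : v η₂⁻¹ < 1 := val_inv_lt_one v hη₂v
  have ht₁ : v (ξ₁ / η₁) < 1 := val_div_lt_one v hlt₁
  have ht₂ : v (ξ₂ / η₂) < 1 := val_div_lt_one v hlt₂
  have hv2' : v (2 : K) ≤ 1 := hv2.le
  -- the relative error terms
  set b0 : K := be * (ξ₁⁻¹ * ξ₂⁻¹) with hb0
  set g0 : K := al * ((ξ₁ / η₁) * (ξ₂ / η₂)) + 2 * be * ((ξ₁ / η₁) * η₂⁻¹ + (ξ₂ / η₂) * η₁⁻¹)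
      + al * be * (η₁⁻¹ * η₂⁻¹) with hg0
  have hb0v : v b0 < 1 :=
    val_mul_lt_one_of_le_of_lt v hbe (val_mul_lt_one_of_lt_of_le v hu₁ hu₂.le)
  have hg0v : v g0 < 1 := by
    refine v.map_add_lt (v.map_add_lt ?_ ?_) ?_
    · exact val_mul_lt_one_of_le_of_lt v hal (val_mul_lt_one_of_lt_of_le v ht₁ ht₂.le)
    · refine val_mul_lt_one_of_le_of_lt v ?_ (v.map_add_lt ?_ ?_)
      · rw [map_mul]; exact mul_le_one' hv2' hbe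
      · exact val_mul_lt_one_of_lt_of_le v ht₁ hs₂.le
      · exact val_mul_lt_one_of_lt_of_le v ht₂ hs₁.le
    · refine val_mul_lt_one_of_le_of_lt v ?_ (val_mul_lt_one_of_lt_of_le v hs₁ hs₂.le)
      rw [map_mul]; exact mul_le_one' hal hbe
  have hgv : v (b0 + g0) < 1 := v.map_add_lt hb0v hg0v
  have hhv : v (2 * b0 + g0) < 1 :=
    v.map_add_lt (val_mul_lt_one_of_le_of_lt v hv2' hb0v) hg0v
  have h1g : v (1 + (b0 + g0)) = 1 := v.map_one_add_of_lt hgv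
  have h1g0 : 1 + (b0 + g0) ≠ 0 := by
    intro h0; rw [h0, map_zero] at h1g; exact zero_ne_one h1g
  have h1b : v (1 - b0) = 1 := v.map_one_sub_of_lt hb0v
  have h1b0 : 1 - b0 ≠ 0 := by
    intro h0; rw [h0, map_zero] at h1b; exact zero_ne_one h1b
  -- the quantities N, D, G, τ
  set τ : K := ξ₁ / η₁ + ξ₂ / η₂ with hτ
  have hNτ : η₁ * ξ₂ + η₂ * ξ₁ = η₁ * η₂ * τ := by
    rw [hτ]; field_simp; ring
  have hD : ξ₁ * ξ₂ - be = ξ₁ * ξ₂ * (1 - b0) := by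
    rw [hb0]; field_simp
  have hG : η₁ * η₂ * (ξ₁ * ξ₂ + be)
        + ξ₁ * ξ₂ * (al * (ξ₁ * ξ₂) + 2 * be * (ξ₁ + ξ₂) + al * be)
      = η₁ * η₂ * (ξ₁ * ξ₂) * (1 + (b0 + g0)) := by
    rw [hb0, hg0]; field_simp; ring
  have hD0 : ξ₁ * ξ₂ - be ≠ 0 := by
    rw [hD]; exact mul_ne_zero (mul_ne_zero hξ₁ hξ₂) h1b0
  -- `N ≠ 0`
  have hN0 : η₁ * ξ₂ + η₂ * ξ₁ ≠ 0 := by
    rcases h.hlam with ⟨hne, -⟩ | ⟨he, he', -, -⟩
    · intro h0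
      have := N_mul c₁ c₂
      rw [h0, zero_mul] at this
      have hne' : ξ₁ - ξ₂ ≠ 0 := sub_ne_zero.mpr hne
      exact mul_ne_zero (mul_ne_zero (mul_ne_zero hξ₁ hξ₂) hne') hD0 this.symm
    · rw [← he, ← he']
      have : η₁ * ξ₁ + η₁ * ξ₁ = 2 * (η₁ * ξ₁) := by ring
      rw [this]
      exact mul_ne_zero h2 (mul_ne_zero hη₁ hξ₁)
  have hτ0 : τ ≠ 0 := by
    intro h0; rw [h0, mul_zero] at hNτ; exact hN0 hNτ
  have hτv : v τ < 1 := v.map_add_lt ht₁ ht₂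
  have hτpos : 0 < v τ := zero_lt_iff.mpr ((v.ne_zero_iff).mpr hτ0)
  -- the two exact identities
  have hF2 := h.F2 h2
  have hF5 := F5 h2 h
  rw [hG, hNτ, hD] at hF5
  rw [hNτ, hD] at hF2
  -- `ξ₃ ≠ 0`, `η₃ ≠ 0`
  have hξ₃ : ξ₃ ≠ 0 := by
    rintro rfl
    rw [zero_mul] at hF2
    have : ξ₁ * ξ₂ * (ξ₁ * ξ₂ * (1 - b0)) ^ 2 ≠ 0 :=
      mul_ne_zero (mul_ne_zero hξ₁ hξ₂) (pow_ne_zero 2 (mul_ne_zero (mul_ne_zero hξ₁ hξ₂) h1b0))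
    exact this hF2.symm
  have hη₃ : η₃ ≠ 0 := by
    rintro rfl
    rw [zero_mul, zero_mul] at hF5
    exact mul_ne_zero hξ₃ (mul_ne_zero (mul_ne_zero (mul_ne_zero hη₁ hη₂)
      (mul_ne_zero hξ₁ hξ₂)) h1g0) hF5
  -- the key relation `t₃ - τ = -τ (2 b0 + g0) / (1 + b0 + g0)`
  have hkey : ξ₃ / η₃ - τ = -(τ * ((2 * b0 + g0) / (1 + (b0 + g0)))) := by
    have e1 : ξ₃ * (1 + (b0 + g0)) = η₃ * τ * (1 - b0) := by
      have hm : η₁ * η₂ * (ξ₁ * ξ₂) ≠ 0 := mul_ne_zero (mul_ne_zero hη₁ hη₂) (mul_ne_zero hξ₁ hξ₂)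
      apply mul_left_cancel₀ hm
      linear_combination hF5
    field_simp
    linear_combination e1
  refine ⟨?_, ?_⟩
  · -- `1 < v ξ₃`
    have hq₁ := val_quadratic v hal hbe h₁
    have hq₂ := val_quadratic v hal hbe h₂
    have e2 : ξ₃ * τ ^ 2 * ((ξ₁ ^ 2 + al * ξ₁ + be) * (ξ₂ ^ 2 + al * ξ₂ + be))
        = (ξ₁ * ξ₂ * (1 - b0)) ^ 2 := by
      have hm : ξ₁ * ξ₂ ≠ 0 := mul_ne_zero hξ₁ hξ₂
      apply mul_left_cancel₀ hm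
      linear_combination hF2 - ξ₃ * τ ^ 2 * η₂ ^ 2 * c₁ - ξ₃ * τ ^ 2 * ξ₁ * (ξ₁ ^ 2 + al * ξ₁ + be) * c₂
    have e3 := congrArg v e2
    simp only [map_mul, map_pow, hq₁, hq₂, h1b, mul_one] at e3
    have hab : (v ξ₁ * v ξ₂) ^ 2 ≠ 0 :=
      pow_ne_zero 2 (mul_ne_zero ((v.ne_zero_iff).mpr hξ₁) ((v.ne_zero_iff).mpr hξ₂))
    have e4 : v ξ₃ * v τ ^ 2 = 1 := by
      apply mul_right_cancel₀ hab
      rw [one_mul, mul_pow]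
      rw [mul_pow] at e3
      exact e3
    by_contra hcon
    have hle : v ξ₃ ≤ 1 := not_lt.mp hcon
    have : v ξ₃ * v τ ^ 2 < 1 := by
      calc v ξ₃ * v τ ^ 2 ≤ 1 * v τ ^ 2 := by gcongr
        _ = v τ ^ 2 := one_mul _
        _ < 1 := pow_lt_one₀ zero_le hτv two_ne_zero
    rw [e4] at this
    exact lt_irrefl _ this
  · rw [hkey, Valuation.map_neg, map_mul, map_div₀, h1g, div_one]
    calc v τ * v (2 * b0 + g0) < v τ * 1 := mul_lt_mul_of_pos_left hhv hτpos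
      _ = v τ := mul_one _

end valuation

end Fermat.Agent.S05.helper1205
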