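import Mathlib
import Fermat.Agent.S05.helper305_Shape
import Fermat.Prelude.Def_FLTPrelim_Ramification

/-!
# S05 captain spec (helper5): route-agnostic interfaces

Everything is phrased in the *shape coordinates* of `helper305_Shape`:
a Weierstrass curve `W` over a field `K` has `Shape W e al be` when, with
`ξ = x - e` and `η = y + (a₁ x + a₃)/2`, its equation is `η² = ξ (ξ² + al ξ + be)`.
`v` is an arbitrary valuation on `K` (think `A.valuation`; `v x ≤ 1` iff `x ∈ A`,
`v x < 1` iff `x` is a nonunit of `A`).  `σ` is a ring endomorphism of `K` that is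
trivial modulo the maximal ideal (`v x ≤ 1 → v (σ x - x) < 1`), i.e. an inertia element.

The Props below are the agreed interfaces.  Prove them in hypothesis-passing style, e.g.
`theorem good_of_ker (hK : KerStmt) : GoodStmt`.
-/

set_option autoImplicit false

namespace Fermat.Agent.S05.helper5

open WeierstrassCurve WeierstrassCurve.Affine
open Fermat.Agent.S05.helper305 (Shape)

/-- **KER**: the kernel of reduction `{v (x - e) > 1}` contains no point of odd prime
order `p` when `p` is a unit (`v p = 1`).  Coefficients `al`, `be` integral. -/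
def KerStmt : Prop :=
  ∀ (K : Type) [Field K] [DecidableEq K] (Γ₀ : Type) [LinearOrderedCommGroupWithZero Γ₀]
    (v : Valuation K Γ₀) (W : WeierstrassCurve K) (e al be : K),
    Shape W e al be → v 2 = 1 → v al ≤ 1 → v be ≤ 1 →
    ∀ (p : ℕ), p.Prime → p ≠ 2 → v (p : K) = 1 →
    ∀ (x y : K) (h : W.toAffine.Nonsingular x y), 1 < v (x - e) →
      p • (Point.some x y h : W.toAffine.Point) ≠ 0

/-- **GOOD**: good reduction (`be` and `al² - 4 be` units): an inertia element `σ`
fixes the coordinates of every `p`-torsion point. The hypothesis on `(σ x, σ y)` being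
`p`-torsion replaces the Galois action on points. -/
def GoodStmt : Prop :=
  ∀ (K : Type) [Field K] [DecidableEq K] (Γ₀ : Type) [LinearOrderedCommGroupWithZero Γ₀]
    (v : Valuation K Γ₀) (W : WeierstrassCurve K) (e al be : K),
    Shape W e al be → v 2 = 1 → v al ≤ 1 → v be = 1 → v (al ^ 2 - 4 * be) = 1 →
    ∀ (p : ℕ), p.Prime → p ≠ 2 → v (p : K) = 1 →
    ∀ (σ : K →+* K), (∀ x : K, v x ≤ 1 → v (σ x - x) < 1) →
      σ e = e → σ W.a₁ = W.a₁ → σ W.a₃ = W.a₃ →
    ∀ (x y : K) (h : W.toAffine.Nonsingular x y) (h' : W.toAffine.Nonsingular (σ x) (σ y)),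
      p • (Point.some x y h : W.toAffine.Point) = 0 →
      p • (Point.some (σ x) (σ y) h' : W.toAffine.Point) = 0 →
      σ x = x ∧ σ y = y

/-- **NODEVAL**: multiplicative reduction (`al` unit, `0 < v be < 1`): a `p`-torsion point
near the node (`v (x - e) < 1`) satisfies `v be < v (x - e)` and
`v (x - e) ^ p ∈ (v be ^ 2) ^ ℤ`. -/
def NodeValStmt : Prop :=
  ∀ (K : Type) [Field K] [DecidableEq K] (Γ₀ : Type) [LinearOrderedCommGroupWithZero Γ₀]
    (v : Valuation K Γ₀) (W : WeierstrassCurve K) (e al be : K),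
    Shape W e al be → v 2 = 1 → v al = 1 → v be < 1 → be ≠ 0 →
    ∀ (p : ℕ), p.Prime → p ≠ 2 → v (p : K) = 1 →
    ∀ (x y : K) (h : W.toAffine.Nonsingular x y), v (x - e) < 1 →
      p • (Point.some x y h : W.toAffine.Point) = 0 →
      v be < v (x - e) ∧ ∃ j : ℤ, v (x - e) ^ p = v be ^ (2 * j)

/-- **MULT**: multiplicative reduction with `v be = v d ^ p`, `d` fixed by `σ`, `v d < 1`:
an inertia element `σ` fixes the coordinates of every `p`-torsion point. -/
def MultStmt : Prop :=
  ∀ (K : Type) [Field K] [DecidableEq K] (Γ₀ : Type) [LinearOrderedCommGroupWithZero Γ₀]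
    (v : Valuation K Γ₀) (W : WeierstrassCurve K) (e al be : K),
    Shape W e al be → v 2 = 1 → v al = 1 →
    ∀ (p : ℕ), p.Prime → p ≠ 2 → v (p : K) = 1 →
    ∀ (σ : K →+* K), (∀ x : K, v x ≤ 1 → v (σ x - x) < 1) →
      σ e = e → σ W.a₁ = W.a₁ → σ W.a₃ = W.a₃ →
    ∀ (d : K), σ d = d → d ≠ 0 → v d < 1 → v be = v d ^ p →
    ∀ (x y : K) (h : W.toAffine.Nonsingular x y) (h' : W.toAffine.Nonsingular (σ x) (σ y)),
      p • (Point.some x y h : W.toAffine.Point) = 0 →
      p • (Point.some (σ x) (σ y) h' : W.toAffine.Point) = 0 →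
      σ x = x ∧ σ y = y

/-- The frozen statement S05, as a Prop. -/
def TargetStmt : Prop :=
  ∀ (P : FreyPackage) {q : ℕ}, q.Prime → q ≠ 2 → q ≠ P.p → P.GaloisRepUnramifiedAt q

end Fermat.Agent.S05.helper5
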