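import Fermat.Agent.S05.helper1205_E1Add
import Fermat.Agent.S05.helper5_Spec

/-!
# S05-KER: the kernel of reduction has no point of odd prime order `p` with `v p = 1`
(helper1205; board row 129, via `e1_add`)

Point-level corollary of `e1_add`: with `t = (x - e)/η`, the multiples `k • P` of a point
`P` of the kernel of reduction `{1 < v (x - e)}` stay in the kernel as long as they are nonzero,
and `v (t(k • P) - k * t(P)) < v (t(P))`.  Evaluating at `k = p - 1`, where `(p-1) • P = -P`
and `t(-P) = -t(P)`, gives `v (p * t) < v t`, contradicting `v p = 1`.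
-/

set_option autoImplicit false

namespace Fermat.Agent.S05.helper1205

open WeierstrassCurve WeierstrassCurve.Affine
open Fermat.Agent.S05.helper305

variable {K : Type*} [Field K] {Γ₀ : Type*} [LinearOrderedCommGroupWithZero Γ₀]

/-- Natural numbers are integral for every valuation. -/
theorem val_natCast_le_one (v : Valuation K Γ₀) (n : ℕ) : v (n : K) ≤ 1 := by
  induction n with
  | zero => simp
  | succ n ih =>
    rw [Nat.cast_succ]
    exact v.map_add_le ih (by rw [map_one])

variable [DecidableEq K]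

/-- The multiples of a point of the kernel of reduction: as long as `j • P ≠ 0` for
`1 ≤ j ≤ n + 1`, the point `(n + 1) • P` is affine, lies in the kernel of reduction, and its
`t`-coordinate is `(n + 1) * t(P)` up to an error of valuation `< v (t(P))`. -/
theorem ker_aux (v : Valuation K Γ₀) {W : WeierstrassCurve K} {e al be : K}
    (hS : Shape W e al be) (hv2 : v 2 = 1) (hal : v al ≤ 1) (hbe : v be ≤ 1) {x y : K}
    (h : W.toAffine.Nonsingular x y) (hx : 1 < v (x - e)) (n : ℕ)
    (hn : ∀ j : ℕ, 1 ≤ j → j ≤ n + 1 → j • (Point.some x y h : W.toAffine.Point) ≠ 0) :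
    ∃ (x' y' : K) (h' : W.toAffine.Nonsingular x' y'),
      (n + 1) • (Point.some x y h : W.toAffine.Point) = Point.some x' y' h' ∧
      1 < v (x' - e) ∧
      v ((x' - e) / eta W x' y' - ((n + 1 : ℕ) : K) * ((x - e) / eta W x y))
        < v ((x - e) / eta W x y) := by
  have hc : eta W x y ^ 2 = (x - e) * ((x - e) ^ 2 + al * (x - e) + be) :=
    (hS.equation_iff x y).1 h.1
  have hlt : v (x - e) < v (eta W x y) := val_xi_lt_eta v hc hal hbe hx
  have hξ0 : x - e ≠ 0 := by
    intro h0; rw [h0, map_zero] at hx; exact not_lt.mpr zero_le hx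
  have hη0 : eta W x y ≠ 0 := by
    intro h0; rw [h0, map_zero] at hlt; exact not_lt.mpr zero_le hlt
  have ht0 : 0 < v ((x - e) / eta W x y) :=
    zero_lt_iff.mpr ((v.ne_zero_iff).mpr (div_ne_zero hξ0 hη0))
  induction n with
  | zero =>
    refine ⟨x, y, h, by simp, hx, ?_⟩
    have : (x - e) / eta W x y - ((0 + 1 : ℕ) : K) * ((x - e) / eta W x y) = 0 := by
      push_cast; ring
    rw [this, map_zero]
    exact ht0
  | succ n ih =>
    obtain ⟨x', y', h', hP, hx', ht'⟩ := ih (fun j h1 h2 => hn j h1 (by omega))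
    have hsum : (n + 1 + 1) • (Point.some x y h : W.toAffine.Point)
        = Point.some x' y' h' + Point.some x y h := by
      rw [succ_nsmul, hP]
    have hne : ¬(x' = x ∧ y' = W.toAffine.negY x y) := by
      intro hcon
      have h0 : Point.some x' y' h' + Point.some x y h = 0 := Point.add_of_Y_eq hcon.1 hcon.2
      exact hn (n + 1 + 1) (by omega) le_rfl (hsum.trans h0)
    obtain ⟨x₃, y₃, h₃, lam, hadd, hrel⟩ := hS.add_some_rel h' h hne
    obtain ⟨hx₃, ht₃⟩ := e1_add v hrel hv2 hal hbe hx' hx
    refine ⟨x₃, y₃, h₃, hsum.trans hadd, hx₃, ?_⟩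
    set t := (x - e) / eta W x y with ht
    set t' := (x' - e) / eta W x' y' with ht'def
    set t₃ := (x₃ - e) / eta W x₃ y₃ with ht₃def
    have hsplit : t₃ - ((n + 1 + 1 : ℕ) : K) * t
        = (t₃ - (t' + t)) + (t' - ((n + 1 : ℕ) : K) * t) := by
      push_cast; ring
    have hbound : v (t' + t) ≤ v t := by
      have : t' + t = (t' - ((n + 1 : ℕ) : K) * t) + ((n + 1 + 1 : ℕ) : K) * t := by
        push_cast; ring
      rw [this]
      refine v.map_add_le ht'.le ?_
      rw [map_mul]
      calc v ((n + 1 + 1 : ℕ) : K) * v t ≤ 1 * v t := by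
            gcongr
            exact val_natCast_le_one v _
        _ = v t := one_mul _
    rw [hsplit]
    exact v.map_add_lt (lt_of_lt_of_le ht₃ hbound) ht'

/-- **S05-KER** (board row 129): `KerStmt` of `helper5_Spec`. -/
theorem ker : Fermat.Agent.S05.helper5.KerStmt := by
  intro K _ _ Γ₀ _ v W e al be hS hv2 hal hbe p hp hp2 hvp x y h hx hcon
  have h2 : (2 : K) ≠ 0 := by
    intro h0; rw [h0, map_zero] at hv2; exact zero_ne_one hv2
  set P : W.toAffine.Point := Point.some x y h with hPdef
  have hP0 : P ≠ 0 := Point.some_ne_zero h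
  -- the order of `P` is exactly `p`
  have hord : addOrderOf P = p := by
    have hdvd : addOrderOf P ∣ p := addOrderOf_dvd_of_nsmul_eq_zero hcon
    rcases (Nat.dvd_prime hp).1 hdvd with h1 | h1
    · exact absurd (AddMonoid.addOrderOf_eq_one_iff.1 h1) hP0
    · exact h1
  have hmult : ∀ j : ℕ, 1 ≤ j → j ≤ (p - 2) + 1 → j • P ≠ 0 := by
    intro j hj1 hj2 hj0
    have hdvd : addOrderOf P ∣ j := addOrderOf_dvd_of_nsmul_eq_zero hj0
    rw [hord] at hdvd
    have := Nat.le_of_dvd (by omega) hdvd
    have := hp.two_le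
    omega
  obtain ⟨x', y', h', hP', hx', ht'⟩ := ker_aux v hS hv2 hal hbe h hx (p - 2) hmult
  have hp2' : p - 2 + 1 + 1 = p := by have := hp.two_le; omega
  -- `(p - 1) • P = -P`
  have hneg : (p - 2 + 1) • P = -P := by
    have : (p - 2 + 1) • P + P = 0 := by
      rw [← succ_nsmul, hp2']; exact hcon
    exact eq_neg_of_add_eq_zero_left this
  rw [hPdef] at hneg
  rw [hneg, Point.neg_some] at hP'
  have hxy : x = x' ∧ W.toAffine.negY x y = y' := by
    simpa using hP'
  obtain ⟨rfl, rfl⟩ := hxy
  rw [eta_negY W h2] at ht'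
  have hc : eta W x y ^ 2 = (x - e) * ((x - e) ^ 2 + al * (x - e) + be) :=
    (hS.equation_iff x y).1 h.1
  have hlt : v (x - e) < v (eta W x y) := val_xi_lt_eta v hc hal hbe hx
  have hη0 : eta W x y ≠ 0 := by
    intro h0; rw [h0, map_zero] at hlt; exact not_lt.mpr zero_le hlt
  have hcast : ((p - 2 + 1 : ℕ) : K) = (p : K) - 1 := by
    have : ((p - 2 + 1 + 1 : ℕ) : K) = (p : K) := by rw [hp2']
    push_cast at this ⊢
    linear_combination this
  have hval : (x - e) / -eta W x y - ((p - 2 + 1 : ℕ) : K) * ((x - e) / eta W x y)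
      = -((p : K) * ((x - e) / eta W x y)) := by
    rw [hcast]; field_simp; ring
  rw [hval, Valuation.map_neg, map_mul, hvp, one_mul] at ht'
  exact lt_irrefl _ ht'

end Fermat.Agent.S05.helper1205
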