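import Fermat.Agent.S05.helper305_Formulas

/-!
# Point-level glue for the shape-coordinate route to S05 (helper126)

Everything here is hypothesis-passing on two field-level statements:

* `E1AddStmt v` : the exact statement of board row 61 (`e1_add`);
* `MidStmt v W e be n` : the component statement for the middle range of a node.

Main result: `fixed_of_torsion` (abstract local theorem).
-/

set_option autoImplicit false

namespace Fermat.Agent.S05.helper126

open WeierstrassCurve WeierstrassCurve.Affine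
open Fermat.Agent.S05.helper305

variable {K : Type*} [Field K] {Γ₀ : Type*} [LinearOrderedCommGroupWithZero Γ₀]

/-- The exact statement of board row 61 (`e1_add`) for a fixed valuation. -/
def E1AddStmt (v : Valuation K Γ₀) : Prop :=
  ∀ {al be ξ₁ η₁ ξ₂ η₂ ξ₃ η₃ lam : K}, AddRel al be ξ₁ η₁ ξ₂ η₂ ξ₃ η₃ lam →
    v 2 = 1 → v al ≤ 1 → v be ≤ 1 → 1 < v ξ₁ → 1 < v ξ₂ →
    1 < v ξ₃ ∧ v (ξ₃ / η₃ - (ξ₁ / η₁ + ξ₂ / η₂)) < v (ξ₁ / η₁ + ξ₂ / η₂)

section field

variable {v : Valuation K Γ₀} {al be ξ η ξ' η' ξ₃ η₃ lam : K}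

/-- Field-level difference lemma: if `(ξ', η')` is close to `(ξ, η)` relative to the size of
`ξ` and `η`, then the difference `(ξ', η') - (ξ, η)` lies in the kernel of reduction. -/
theorem sub_e1 (h : AddRel al be ξ' η' ξ (-η) ξ₃ η₃ lam) (hv2 : v 2 = 1) (hne : ξ' ≠ ξ)
    (h1 : v (ξ' - ξ) < v ξ) (h2 : v (η' - η) < v η) (h3 : v (ξ' - ξ) < v η) :
    1 < v ξ₃ := by
  have hF3 := h.F3 hne
  have hd : v (ξ' - ξ) ≠ 0 := by
    rw [Valuation.ne_zero_iff]; exact sub_ne_zero.mpr hne
  have hξ' : v ξ' = v ξ := by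
    have : ξ' = (ξ' - ξ) + ξ := by ring
    rw [this]; exact Valuation.map_add_eq_of_lt_right v h1
  have hξ0 : v ξ ≠ 0 := fun h0 => by rw [h0] at h1; exact not_lt_zero h1
  have hη0 : v η ≠ 0 := fun h0 => by rw [h0] at h2; exact not_lt_zero h2
  -- the right-hand side
  have hrhs : v (η' * ξ - -η * ξ') = v η * v ξ := by
    have e1 : η' * ξ - -η * ξ' = ((η' - η) * ξ + η * (ξ' - ξ)) + 2 * η * ξ := by ring
    have a1 : v ((η' - η) * ξ) < v η * v ξ := by
      rw [map_mul]; exact mul_lt_mul_of_pos_right h2 (zero_lt_iff.mpr hξ0)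
    have a2 : v (η * (ξ' - ξ)) < v η * v ξ := by
      rw [map_mul]; exact mul_lt_mul_of_pos_left h1 (zero_lt_iff.mpr hη0)
    have a3 : v (2 * η * ξ) = v η * v ξ := by
      rw [map_mul, map_mul, hv2, one_mul]
    rw [e1, ← a3]
    apply Valuation.map_add_eq_of_lt_right
    rw [a3]
    exact Valuation.map_add_lt v a1 a2
  have hval : v ξ₃ * v ξ * v ξ * v (ξ' - ξ) ^ 2 = (v η * v ξ) ^ 2 := by
    have := congrArg v hF3
    simp only [map_mul, map_pow, hξ'] at this
    rw [this, ← hrhs]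
  have hkey : v ξ₃ * v (ξ' - ξ) ^ 2 = v η ^ 2 := by
    have hξ2 : v ξ * v ξ ≠ 0 := mul_ne_zero hξ0 hξ0
    apply mul_right_cancel₀ hξ2
    calc v ξ₃ * v (ξ' - ξ) ^ 2 * (v ξ * v ξ) = v ξ₃ * v ξ * v ξ * v (ξ' - ξ) ^ 2 := by
          simp only [pow_two]; ac_rfl
      _ = (v η * v ξ) ^ 2 := hval
      _ = v η ^ 2 * (v ξ * v ξ) := by simp only [pow_two]; ac_rfl
  by_contra hcon
  rw [not_lt] at hcon
  have hlt : v (ξ' - ξ) ^ 2 < v η ^ 2 := pow_lt_pow_left₀ h3 zero_le (by norm_num)
  have : v ξ₃ * v (ξ' - ξ) ^ 2 ≤ 1 * v (ξ' - ξ) ^ 2 := mul_le_mul_left hcon _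
  rw [one_mul, hkey] at this
  exact absurd hlt (not_lt.mpr this)

/-- Valuation form of the duplication formula `ξ(2P) (2η)² = (ξ² - be)²`. -/
theorem dbl_val (h : AddRel al be ξ η ξ η ξ₃ η₃ lam) (hv2 : v 2 = 1) (hξ0 : ξ ≠ 0) :
    v ξ₃ * v η ^ 2 = v (ξ ^ 2 - be) ^ 2 := by
  have h2 : (2 : K) ≠ 0 := by
    intro h0; rw [h0, map_zero] at hv2; exact zero_ne_one hv2
  have hF2 := h.F2 h2
  have e1 : η * ξ + η * ξ = 2 * η * ξ := by ring
  have e2 : ξ * ξ - be = ξ ^ 2 - be := by ring
  rw [e1, e2] at hF2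
  have := congrArg v hF2
  simp only [map_mul, map_pow, hv2, one_mul] at this
  have hξ : v ξ ≠ 0 := by rw [Valuation.ne_zero_iff]; exact hξ0
  have hξ2 : v ξ ^ 2 ≠ 0 := pow_ne_zero 2 hξ
  apply mul_right_cancel₀ hξ2
  calc v ξ₃ * v η ^ 2 * v ξ ^ 2 = v ξ₃ * (v η * v ξ) ^ 2 := by simp only [pow_two]; ac_rfl
    _ = v ξ * v ξ * v (ξ ^ 2 - be) ^ 2 := this
    _ = v (ξ ^ 2 - be) ^ 2 * v ξ ^ 2 := by simp only [pow_two]; ac_rfl

end field

section point

variable [DecidableEq K] {W : WeierstrassCurve K} {e al be : K} {v : Valuation K Γ₀}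

omit [DecidableEq K] in
/-- For `1 < v ξ` the cubic factor has the valuation of `ξ²`. -/
theorem val_quad_of_one_lt {ξ : K} (hal : v al ≤ 1) (hbe : v be ≤ 1) (hξ : 1 < v ξ) :
    v (ξ ^ 2 + al * ξ + be) = v ξ ^ 2 := by
  have hpos : 0 < v ξ := lt_trans zero_lt_one hξ
  have h1 : v ξ < v ξ ^ 2 := by
    rw [pow_two]
    calc v ξ = 1 * v ξ := (one_mul _).symm
      _ < v ξ * v ξ := mul_lt_mul_of_pos_right hξ hpos
  have h2 : v (al * ξ) < v (ξ ^ 2) := by
    rw [map_mul, map_pow]
    calc v al * v ξ ≤ 1 * v ξ := mul_le_mul_left hal _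
      _ = v ξ := one_mul _
      _ < v ξ ^ 2 := h1
  have h3 : v be < v (ξ ^ 2) := by
    rw [map_pow]
    exact lt_of_le_of_lt hbe (lt_trans hξ h1)
  have e1 : ξ ^ 2 + al * ξ + be = ξ ^ 2 + (al * ξ + be) := by ring
  rw [e1, Valuation.map_add_eq_of_lt_left v (Valuation.map_add_lt v h2 h3), map_pow]

omit [DecidableEq K] in
/-- Points of the kernel of reduction have `η ≠ 0`. -/
theorem eta_ne_zero_of_one_lt (hS : Shape W e al be) (hal : v al ≤ 1) (hbe : v be ≤ 1)
    {x y : K} (h : W.toAffine.Nonsingular x y) (hx : 1 < v (x - e)) : eta W x y ≠ 0 := by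
  intro h0
  have heq := (hS.equation_iff x y).1 h.1
  rw [h0] at heq
  have hpos : 0 < v (x - e) := lt_trans zero_lt_one hx
  have := congrArg v heq
  rw [map_mul, val_quad_of_one_lt hal hbe hx] at this
  simp only [ne_eq, OfNat.ofNat_ne_zero, not_false_eq_true, zero_pow, map_zero] at this
  have h3 : v (x - e) * v (x - e) ^ 2 ≠ 0 := mul_ne_zero hpos.ne' (pow_ne_zero 2 hpos.ne')
  exact h3 this.symm

/-- Induction behind torsion-freeness of the kernel of reduction. -/
theorem e1_nsmul_aux (hE1 : E1AddStmt v) (hS : Shape W e al be) (hv2 : v 2 = 1)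
    (hal : v al ≤ 1) (hbe : v be ≤ 1) (hnat : ∀ m : ℕ, v (m : K) ≤ 1)
    {x y : K} (h : W.toAffine.Nonsingular x y) (hx : 1 < v (x - e)) (m : ℕ) :
    (m • Point.some x y h = 0 ∧
        v ((m : K) * ((x - e) / eta W x y)) < v ((x - e) / eta W x y)) ∨
    ∃ (xm ym : K) (hm : W.toAffine.Nonsingular xm ym),
      m • Point.some x y h = Point.some xm ym hm ∧ 1 < v (xm - e) ∧
      v ((xm - e) / eta W xm ym - (m : K) * ((x - e) / eta W x y)) <
        v ((x - e) / eta W x y) := by
  have h2 := hS.two_ne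
  have hη := eta_ne_zero_of_one_lt hS hal hbe h hx
  have hξ0 : x - e ≠ 0 := by
    intro h0; rw [h0, map_zero] at hx; exact not_lt_zero hx
  set t : K := (x - e) / eta W x y with ht
  have ht0 : t ≠ 0 := div_ne_zero hξ0 hη
  have hvt : 0 < v t := zero_lt_iff.mpr ((Valuation.ne_zero_iff v).mpr ht0)
  induction m with
  | zero =>
    left
    refine ⟨zero_nsmul _, ?_⟩
    simpa using hvt
  | succ m ih =>
    rcases ih with ⟨hm0, hlt⟩ | ⟨xm, ym, hm, hmP, hxm, hlt⟩
    · right
      refine ⟨x, y, h, ?_, hx, ?_⟩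
      · rw [succ_nsmul, hm0, zero_add]
      · have e1 : t - ((m + 1 : ℕ) : K) * t = -((m : K) * t) := by push_cast; ring
        rw [← ht, e1, Valuation.map_neg]
        exact hlt
    · by_cases hxy : xm = x ∧ ym = W.toAffine.negY x y
      · left
        obtain ⟨rfl, rfl⟩ := hxy
        refine ⟨?_, ?_⟩
        · rw [succ_nsmul, hmP]
          exact Point.add_of_Y_eq rfl rfl
        · rw [eta_negY W h2] at hlt
          have e1 : (xm - e) / -eta W xm y - (m : K) * t = -(((m + 1 : ℕ) : K) * t) := by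
            rw [ht]; push_cast; field_simp; ring
          rw [e1, Valuation.map_neg] at hlt
          exact hlt
      · right
        obtain ⟨x₃, y₃, h₃, lam, hadd, hrel⟩ := hS.add_some_rel hm h hxy
        obtain ⟨hx₃, hlt₃⟩ := hE1 hrel hv2 hal hbe hxm hx
        refine ⟨x₃, y₃, h₃, ?_, hx₃, ?_⟩
        · rw [succ_nsmul, hmP, hadd]
        · set tm : K := (xm - e) / eta W xm ym with htm
          set t₃ : K := (x₃ - e) / eta W x₃ y₃ with ht₃
          have hmt : v ((m : K) * t) ≤ v t := by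
            rw [map_mul]
            calc v (m : K) * v t ≤ 1 * v t := mul_le_mul_left (hnat m) _
              _ = v t := one_mul _
          have htm_le : v tm ≤ v t := by
            have e1 : tm = (tm - (m : K) * t) + (m : K) * t := by ring
            rw [e1]
            exact le_trans (Valuation.map_add v _ _) (max_le hlt.le hmt)
          have hsum_le : v (tm + t) ≤ v t :=
            le_trans (Valuation.map_add v _ _) (max_le htm_le le_rfl)
          have e2 : t₃ - ((m + 1 : ℕ) : K) * t = (t₃ - (tm + t)) + (tm - (m : K) * t) := by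
            push_cast; ring
          rw [e2]
          exact Valuation.map_add_lt v (lt_of_lt_of_le hlt₃ hsum_le) hlt

/-- The kernel of reduction `{1 < v ξ}` has no `m`-torsion for `v m = 1`. -/
theorem e1_torsion (hE1 : E1AddStmt v) (hS : Shape W e al be) (hv2 : v 2 = 1)
    (hal : v al ≤ 1) (hbe : v be ≤ 1) (hnat : ∀ m : ℕ, v (m : K) ≤ 1)
    {x y : K} (h : W.toAffine.Nonsingular x y) (hx : 1 < v (x - e)) (m : ℕ)
    (hm : m • Point.some x y h = 0) : v (m : K) < 1 := by
  have hη := eta_ne_zero_of_one_lt hS hal hbe h hx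
  have hξ0 : x - e ≠ 0 := by
    intro h0; rw [h0, map_zero] at hx; exact not_lt_zero hx
  have ht0 : (x - e) / eta W x y ≠ 0 := div_ne_zero hξ0 hη
  have hvt : 0 < v ((x - e) / eta W x y) :=
    zero_lt_iff.mpr ((Valuation.ne_zero_iff v).mpr ht0)
  rcases e1_nsmul_aux hE1 hS hv2 hal hbe hnat h hx m with ⟨_, hlt⟩ | ⟨xm, ym, hm', hmP, _, _⟩
  · rw [map_mul] at hlt
    by_contra hcon
    rw [not_lt] at hcon
    have : 1 * v ((x - e) / eta W x y) ≤ v (m : K) * v ((x - e) / eta W x y) :=
      mul_le_mul_left hcon _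
    rw [one_mul] at this
    exact absurd hlt (not_lt.mpr this)
  · rw [hmP] at hm
    exact absurd hm (by simp)

/-- `MidStmt`: the component statement for the middle range of a node, as a hypothesis. -/
def MidStmt (v : Valuation K Γ₀) (W : WeierstrassCurve K) (e be : K) (n : ℕ) : Prop :=
  ∀ (x y : K) (h : W.toAffine.Nonsingular x y), n • Point.some x y h = 0 →
    v be < v (x - e) → v (x - e) < 1 → ∃ k : ℤ, v (x - e) ^ n = v be ^ k

/-- Point-level difference lemma. -/
theorem sub_mem_e1 (hS : Shape W e al be) (hv2 : v 2 = 1)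
    {x y x' y' : K} (h : W.toAffine.Nonsingular x y) (h' : W.toAffine.Nonsingular x' y')
    (h1 : v (x' - x) < v (x - e))
    (h2 : v (eta W x' y' - eta W x y) < v (eta W x y))
    (h3 : v (x' - x) < v (eta W x y)) :
    Point.some x' y' h' - Point.some x y h = 0 ∨
    ∃ (x₃ y₃ : K) (h₃ : W.toAffine.Nonsingular x₃ y₃),
      Point.some x' y' h' - Point.some x y h = Point.some x₃ y₃ h₃ ∧ 1 < v (x₃ - e) := by
  have h2ne := hS.two_ne
  rw [sub_eq_add_neg, Point.neg_some]
  by_cases hx : x' = x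
  · left
    subst hx
    rcases Y_eq_of_X_eq h'.1 h.1 rfl with hy | hy
    · subst hy
      exact Point.add_of_Y_eq rfl (negY_negY ..).symm
    · exfalso
      rw [hy, eta_negY W h2ne] at h2
      have e1 : -eta W x' y - eta W x' y = -(2 * eta W x' y) := by ring
      rw [e1, Valuation.map_neg, map_mul, hv2, one_mul] at h2
      exact lt_irrefl _ h2
  · right
    have hne : ¬(x' = x ∧ y' = W.toAffine.negY x (W.toAffine.negY x y)) := fun hh => hx hh.1
    obtain ⟨x₃, y₃, h₃, lam, hadd, hrel⟩ :=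
      hS.add_some_rel h' ((nonsingular_neg ..).mpr h) hne
    refine ⟨x₃, y₃, h₃, hadd, ?_⟩
    rw [eta_negY W h2ne] at hrel
    have hne' : x' - e ≠ x - e := fun hh => hx (by linear_combination hh)
    have e1 : (x' - e) - (x - e) = x' - x := by ring
    exact sub_e1 hrel hv2 hne' (by rw [e1]; exact h1) h2 (by rw [e1]; exact h3)

/-- Point-level doubling. -/
theorem two_nsmul_cases (hS : Shape W e al be) {x y : K} (h : W.toAffine.Nonsingular x y) :
    (eta W x y = 0 ∧ 2 • Point.some x y h = 0) ∨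
    (eta W x y ≠ 0 ∧ ∃ (x₂ y₂ : K) (h₂ : W.toAffine.Nonsingular x₂ y₂) (lam : K),
      2 • Point.some x y h = Point.some x₂ y₂ h₂ ∧
      AddRel al be (x - e) (eta W x y) (x - e) (eta W x y) (x₂ - e) (eta W x₂ y₂) lam) := by
  have h2ne := hS.two_ne
  have he := two_mul_eta W h2ne x y
  by_cases hy : y = W.toAffine.negY x y
  · left
    refine ⟨?_, ?_⟩
    · have h0 : 2 * eta W x y = 0 := by
        rw [he]
        simp only [Affine.negY] at hy
        linear_combination hy
      exact (mul_eq_zero.mp h0).resolve_left h2ne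
    · rw [two_nsmul]
      exact Point.add_self_of_Y_eq hy
  · right
    refine ⟨?_, ?_⟩
    · intro h0
      apply hy
      rw [h0, mul_zero] at he
      simp only [Affine.negY]
      linear_combination (-1 : K) * he
    · have hne : ¬(x = x ∧ y = W.toAffine.negY x y) := fun hh => hy hh.2
      obtain ⟨x₂, y₂, h₂, lam, hadd, hrel⟩ := hS.add_some_rel h h hne
      exact ⟨x₂, y₂, h₂, lam, by rw [two_nsmul, hadd], hrel⟩

omit [DecidableEq K] in
theorem eq_zero_of_odd_nsmul {G : Type*} [AddCommGroup G] {n : ℕ} (hodd : Odd n) {P : G}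
    (hn : n • P = 0) (h2 : 2 • P = 0) : P = 0 := by
  obtain ⟨k, rfl⟩ := hodd
  rw [add_nsmul, one_nsmul, mul_nsmul, h2, nsmul_zero, zero_add] at hn
  exact hn

omit [DecidableEq K] in
/-- If `ξ` is a unit and the quadratic factor is a non-unit, then `ξ² - be` is a unit
(unit discriminant). -/
theorem val_sq_sub_eq_one {ξ : K} (hv2 : v 2 = 1) (hal : v al ≤ 1) (hbe : v be ≤ 1)
    (hdisc : v (al ^ 2 - 4 * be) = 1) (hξ : v ξ = 1) (hA : v (ξ ^ 2 + al * ξ + be) < 1) :
    v (ξ ^ 2 - be) = 1 := by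
  have hle : v (ξ ^ 2 - be) ≤ 1 := by
    refine le_trans (Valuation.map_sub v _ _) (max_le ?_ hbe)
    rw [map_pow, hξ, one_pow]
  rcases lt_or_eq_of_le hle with hlt | heq
  · exfalso
    have hC : v (2 * ξ + al) < 1 := by
      have e1 : (2 * ξ + al) * ξ = (ξ ^ 2 + al * ξ + be) + (ξ ^ 2 - be) := by ring
      have := congrArg v e1
      rw [map_mul, hξ, mul_one] at this
      rw [this]
      exact Valuation.map_add_lt v hA hlt
    have hD : v (al - 2 * ξ) ≤ 1 := by
      refine le_trans (Valuation.map_sub v _ _) (max_le hal ?_)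
      rw [map_mul, hv2, hξ, one_mul]
    have h4 : v (4 : K) = 1 := by
      have : (4 : K) = 2 * 2 := by norm_num
      rw [this, map_mul, hv2, one_mul]
    have e2 : al ^ 2 - 4 * be = (2 * ξ + al) * (al - 2 * ξ) + 4 * (ξ ^ 2 - be) := by ring
    have h1 : v ((2 * ξ + al) * (al - 2 * ξ)) < 1 := by
      rw [map_mul]
      calc v (2 * ξ + al) * v (al - 2 * ξ) ≤ v (2 * ξ + al) * 1 := mul_le_mul_right hD _
        _ = v (2 * ξ + al) := mul_one _
        _ < 1 := hC
    have h2 : v (4 * (ξ ^ 2 - be)) < 1 := by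
      rw [map_mul, h4, one_mul]; exact hlt
    have := Valuation.map_add_lt v h1 h2
    rw [← e2, hdisc] at this
    exact lt_irrefl _ this
  · exact heq

omit [DecidableEq K] in
/-- Scaled closeness: an element of the same size as a `σ`-fixed element is moved by `σ`
by strictly less than its own size. -/
theorem val_apply_sub_lt (σ : K →+* K) (hσ : ∀ x, v x ≤ 1 → v (σ x - x) < 1)
    {c z : K} (hc : σ c = c) (hc0 : c ≠ 0) (hz : v z = v c) : v (σ z - z) < v z := by
  have hvc : v c ≠ 0 := (Valuation.ne_zero_iff v).mpr hc0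
  have hu : v (z / c) ≤ 1 := by
    rw [map_div₀, hz, div_self hvc]
  have := hσ (z / c) hu
  have e1 : σ z - z = c * (σ (z / c) - z / c) := by
    rw [map_div₀, hc]; field_simp
  rw [e1, map_mul, hz]
  calc v c * v (σ (z / c) - z / c) < v c * 1 :=
        mul_lt_mul_of_pos_left this (zero_lt_iff.mpr hvc)
    _ = v c := mul_one _

/-- Torsion points of order prime to the residue characteristic do not lie in the kernel
of reduction. -/
theorem not_e1_of_torsion (hE1 : E1AddStmt v) (hS : Shape W e al be) (hv2 : v 2 = 1)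
    (hal : v al ≤ 1) (hbe : v be ≤ 1) (hnat : ∀ m : ℕ, v (m : K) ≤ 1)
    {n : ℕ} (hvn : v (n : K) = 1)
    {x y : K} (h : W.toAffine.Nonsingular x y) (hn : n • Point.some x y h = 0)
    (hx : 1 < v (x - e)) : False := by
  have := e1_torsion hE1 hS hv2 hal hbe hnat h hx n hn
  rw [hvn] at this
  exact lt_irrefl _ this

/-- If the double of a torsion point would land in the kernel of reduction, contradiction. -/
theorem dbl_contra (hE1 : E1AddStmt v) (hS : Shape W e al be) (hv2 : v 2 = 1)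
    (hal : v al ≤ 1) (hbe : v be ≤ 1) (hnat : ∀ m : ℕ, v (m : K) ≤ 1)
    {n : ℕ} (hodd : Odd n) (hvn : v (n : K) = 1)
    {x y : K} (h : W.toAffine.Nonsingular x y) (hn : n • Point.some x y h = 0)
    (hcase : eta W x y = 0 ∨ v (eta W x y) < v ((x - e) ^ 2 - be)) : False := by
  rcases two_nsmul_cases hS h with ⟨_, h2⟩ | ⟨hη, x₂, y₂, h₂, lam, h2, hrel⟩
  · exact Point.some_ne_zero h (eq_zero_of_odd_nsmul hodd hn h2)
  · have hlt : v (eta W x y) < v ((x - e) ^ 2 - be) := hcase.resolve_left hη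
    have heq := (hS.equation_iff x y).1 h.1
    have hξ0 : x - e ≠ 0 := by
      intro h0
      rw [h0, zero_mul] at heq
      exact hη (pow_eq_zero_iff (two_ne_zero) |>.mp heq)
    have hdbl := dbl_val hrel hv2 hξ0
    have hx₂ : 1 < v (x₂ - e) := by
      by_contra hcon
      rw [not_lt] at hcon
      have h1 : v (x₂ - e) * v (eta W x y) ^ 2 ≤ 1 * v (eta W x y) ^ 2 :=
        mul_le_mul_left hcon _
      rw [one_mul, hdbl] at h1
      have h3 : v (eta W x y) ^ 2 < v ((x - e) ^ 2 - be) ^ 2 :=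
        pow_lt_pow_left₀ hlt zero_le (by norm_num)
      exact absurd h3 (not_lt.mpr h1)
    have hn2 : n • Point.some x₂ y₂ h₂ = 0 := by
      rw [← h2, smul_comm, hn, nsmul_zero]
    exact not_e1_of_torsion hE1 hS hv2 hal hbe hnat hvn h₂ hn2 hx₂

/-- A torsion point moved by `σ` by less than its own size is fixed. -/
theorem fixed_of_close (hE1 : E1AddStmt v) (hS : Shape W e al be) (hv2 : v 2 = 1)
    (hal : v al ≤ 1) (hbe : v be ≤ 1) (hnat : ∀ m : ℕ, v (m : K) ≤ 1)
    {n : ℕ} (hvn : v (n : K) = 1)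
    (σ : K →+* K) (hσ1 : σ W.a₁ = W.a₁) (hσ3 : σ W.a₃ = W.a₃)
    (φ : W.toAffine.Point →+ W.toAffine.Point)
    (hφ : ∀ (x y : K) (h : W.toAffine.Nonsingular x y),
      ∃ h' : W.toAffine.Nonsingular (σ x) (σ y),
        φ (Point.some x y h) = Point.some (σ x) (σ y) h')
    {x y : K} (h : W.toAffine.Nonsingular x y) (hn : n • Point.some x y h = 0)
    (hc1 : v (σ x - x) < v (x - e))
    (hc2 : v (σ (eta W x y) - eta W x y) < v (eta W x y))
    (hc3 : v (σ x - x) < v (eta W x y)) :
    φ (Point.some x y h) = Point.some x y h := by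
  obtain ⟨h', hφP⟩ := hφ x y h
  have hEta : eta W (σ x) (σ y) = σ (eta W x y) := by
    simp only [eta, map_add, map_div₀, map_mul, hσ1, hσ3, map_ofNat]
  rcases sub_mem_e1 hS hv2 h h' hc1 (by rw [hEta]; exact hc2) hc3 with
    h0 | ⟨x₃, y₃, h₃, hD, hx₃⟩
  · rw [hφP]; exact sub_eq_zero.mp h0
  · exfalso
    have hn3 : n • Point.some x₃ y₃ h₃ = 0 := by
      rw [← hD, ← hφP, nsmul_sub, ← map_nsmul, hn, map_zero, sub_zero]
    exact not_e1_of_torsion hE1 hS hv2 hal hbe hnat hvn h₃ hn3 hx₃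

/-- Torsion points with `1 ≤ v ξ` (nonsingular reduction) are fixed. -/
theorem fixed_of_e0 (hE1 : E1AddStmt v) (hS : Shape W e al be) (hv2 : v 2 = 1)
    (hal : v al ≤ 1) (hbe : v be ≤ 1) (hdisc : v (al ^ 2 - 4 * be) = 1)
    (hnat : ∀ m : ℕ, v (m : K) ≤ 1)
    {n : ℕ} (hodd : Odd n) (hvn : v (n : K) = 1)
    (σ : K →+* K) (hσ : ∀ x, v x ≤ 1 → v (σ x - x) < 1)
    (hσe : σ e = e) (hσ1 : σ W.a₁ = W.a₁) (hσ3 : σ W.a₃ = W.a₃)
    (φ : W.toAffine.Point →+ W.toAffine.Point)
    (hφ : ∀ (x y : K) (h : W.toAffine.Nonsingular x y),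
      ∃ h' : W.toAffine.Nonsingular (σ x) (σ y),
        φ (Point.some x y h) = Point.some (σ x) (σ y) h')
    {x y : K} (h : W.toAffine.Nonsingular x y) (hn : n • Point.some x y h = 0)
    (hx : 1 ≤ v (x - e)) :
    φ (Point.some x y h) = Point.some x y h := by
  rcases lt_or_eq_of_le hx with hlt | heq1
  · exact (not_e1_of_torsion hE1 hS hv2 hal hbe hnat hvn h hn hlt).elim
  · have hξ : v (x - e) = 1 := heq1.symm
    have heq := (hS.equation_iff x y).1 h.1
    have hvη2 : v (eta W x y) ^ 2 = v ((x - e) ^ 2 + al * (x - e) + be) := by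
      have := congrArg v heq
      rwa [map_pow, map_mul, hξ, one_mul] at this
    have hA : v ((x - e) ^ 2 + al * (x - e) + be) ≤ 1 := by
      refine le_trans (Valuation.map_add v _ _) (max_le ?_ hbe)
      refine le_trans (Valuation.map_add v _ _) (max_le ?_ ?_)
      · rw [map_pow, hξ, one_pow]
      · rw [map_mul, hξ, mul_one]; exact hal
    have hη : v (eta W x y) ≤ 1 := by
      by_contra hcon
      rw [not_le] at hcon
      have := one_lt_pow₀ hcon (two_ne_zero)
      rw [hvη2] at this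
      exact absurd this (not_lt.mpr hA)
    have hσx : v (σ x - x) < 1 := by
      have := hσ (x - e) hξ.le
      rwa [map_sub σ, hσe, sub_sub_sub_cancel_right] at this
    rcases lt_or_eq_of_le hη with hηlt | hη1
    · exfalso
      have hAlt : v ((x - e) ^ 2 + al * (x - e) + be) < 1 := by
        rw [← hvη2]
        exact pow_lt_one₀ zero_le hηlt (two_ne_zero)
      have hB := val_sq_sub_eq_one hv2 hal hbe hdisc hξ hAlt
      exact dbl_contra hE1 hS hv2 hal hbe hnat hodd hvn h hn (Or.inr (by rw [hB]; exact hηlt))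
    · exact fixed_of_close hE1 hS hv2 hal hbe hnat hvn σ hσ1 hσ3 φ hφ h hn
        (by rw [hξ]; exact hσx) (by rw [hη1]; exact hσ _ hη1.le) (by rw [hη1]; exact hσx)

/-- **Abstract local theorem.** Torsion points of odd order `n` prime to the residue
characteristic on `η² = ξ(ξ² + al ξ + be)` (unit discriminant `al² - 4 be`; `be` a unit or
of valuation an `n`-th power of the valuation of a `σ`-fixed element) are fixed by every
`σ` acting trivially on the residue field. -/
theorem fixed_of_torsion (hE1 : E1AddStmt v) (hS : Shape W e al be) (hv2 : v 2 = 1)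
    (hal : v al ≤ 1) (hbe : v be ≤ 1) (hdisc : v (al ^ 2 - 4 * be) = 1)
    (hnat : ∀ m : ℕ, v (m : K) ≤ 1)
    {n : ℕ} (hodd : Odd n) (hvn : v (n : K) = 1)
    (hMid : v be < 1 → MidStmt v W e be n)
    (σ : K →+* K) (hσ : ∀ x, v x ≤ 1 → v (σ x - x) < 1)
    (hσe : σ e = e) (hσ1 : σ W.a₁ = W.a₁) (hσ3 : σ W.a₃ = W.a₃)
    (hw : v be = 1 ∨ ∃ w : K, σ w = w ∧ v be = v w ^ n)
    (φ : W.toAffine.Point →+ W.toAffine.Point)
    (hφ : ∀ (x y : K) (h : W.toAffine.Nonsingular x y),
      ∃ h' : W.toAffine.Nonsingular (σ x) (σ y),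
        φ (Point.some x y h) = Point.some (σ x) (σ y) h')
    (P : W.toAffine.Point) (hP : n • P = 0) : φ P = P := by
  rcases P with _ | ⟨x, y, h⟩
  · exact map_zero φ
  have hn0 : n ≠ 0 := by
    rintro rfl
    exact (Nat.not_odd_iff_even.mpr (by decide : Even 0)) hodd
  have heq : eta W x y ^ 2 = (x - e) * ((x - e) ^ 2 + al * (x - e) + be) :=
    (hS.equation_iff x y).1 h.1
  have hveq : v (eta W x y) ^ 2 = v (x - e) * v ((x - e) ^ 2 + al * (x - e) + be) := by
    have := congrArg v heq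
    rwa [map_pow, map_mul] at this
  rcases le_or_gt 1 (v (x - e)) with hx | hx
  · exact fixed_of_e0 hE1 hS hv2 hal hbe hdisc hnat hodd hvn σ hσ hσe hσ1 hσ3 φ hφ h hP hx
  -- from now on `v ξ < 1`
  have hsq_le : v ((x - e) ^ 2) ≤ v (x - e) := by
    rw [map_pow, pow_two]
    calc v (x - e) * v (x - e) ≤ v (x - e) * 1 := mul_le_mul_right hx.le _
      _ = v (x - e) := mul_one _
  have hσx : ∀ {c : K}, σ c = c → c ≠ 0 → v (x - e) = v c → v (σ x - x) < v (x - e) := by
    intro c hc hc0 hz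
    have := val_apply_sub_lt σ hσ hc hc0 hz
    rwa [map_sub σ, hσe, sub_sub_sub_cancel_right] at this
  rcases lt_or_eq_of_le hbe with hbe1 | hbe1
  swap
  · -- good reduction, `ξ` a non-unit: the double lies in the kernel of reduction
    exfalso
    have hB : v ((x - e) ^ 2 - be) = 1 := by
      rw [Valuation.map_sub_eq_of_lt_right v (by rw [hbe1]; exact lt_of_le_of_lt hsq_le hx), hbe1]
    have hA : v ((x - e) ^ 2 + al * (x - e) + be) ≤ 1 := by
      refine le_trans (Valuation.map_add v _ _) (max_le ?_ hbe)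
      refine le_trans (Valuation.map_add v _ _) (max_le (hsq_le.trans hx.le) ?_)
      rw [map_mul]
      calc v al * v (x - e) ≤ 1 * 1 := mul_le_mul' hal hx.le
        _ = 1 := one_mul 1
    have hη : v (eta W x y) < 1 := by
      by_contra hcon
      rw [not_lt] at hcon
      have h1 : 1 ≤ v (eta W x y) ^ 2 := one_le_pow₀ hcon
      rw [hveq] at h1
      have h2 : v (x - e) * v ((x - e) ^ 2 + al * (x - e) + be) ≤ v (x - e) * 1 :=
        mul_le_mul_right hA _
      rw [mul_one] at h2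
      exact absurd (lt_of_le_of_lt (h1.trans h2) hx) (lt_irrefl _)
    exact dbl_contra hE1 hS hv2 hal hbe hnat hodd hvn h hP (Or.inr (by rw [hB]; exact hη))
  -- node: `v be < 1`, hence `v al = 1`
  have h4 : v (4 : K) = 1 := by
    have : (4 : K) = 2 * 2 := by norm_num
    rw [this, map_mul, hv2, one_mul]
  have hal1 : v al = 1 := by
    have e1 : al ^ 2 = (al ^ 2 - 4 * be) + 4 * be := by ring
    have h1 : v (4 * be) < v (al ^ 2 - 4 * be) := by
      rw [hdisc, map_mul, h4, one_mul]; exact hbe1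
    have h2 : v (al ^ 2) = 1 := by
      rw [e1, Valuation.map_add_eq_of_lt_left v h1, hdisc]
    rw [map_pow] at h2
    exact (pow_eq_one_iff_of_nonneg zero_le (two_ne_zero)).mp h2
  have halξ : v (al * (x - e)) = v (x - e) := by rw [map_mul, hal1, one_mul]
  by_cases hξ0 : x - e = 0
  · exfalso
    rw [hξ0, zero_mul] at heq
    exact dbl_contra hE1 hS hv2 hal hbe hnat hodd hvn h hP
      (Or.inl ((pow_eq_zero_iff (two_ne_zero)).mp heq))
  have hvξ0 : v (x - e) ≠ 0 := (Valuation.ne_zero_iff v).mpr hξ0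
  have hsq_lt : v ((x - e) ^ 2) < v (x - e) := by
    rw [map_pow, pow_two]
    calc v (x - e) * v (x - e) < v (x - e) * 1 :=
          mul_lt_mul_of_pos_left hx (zero_lt_iff.mpr hvξ0)
      _ = v (x - e) := mul_one _
  rcases lt_trichotomy (v (x - e)) (v be) with hlt | heqv | hgt
  · -- `v ξ < v be`: the double lies in the kernel of reduction
    exfalso
    have hB : v ((x - e) ^ 2 - be) = v be :=
      Valuation.map_sub_eq_of_lt_right v (lt_of_le_of_lt hsq_le hlt)
    have hA : v ((x - e) ^ 2 + al * (x - e) + be) = v be := by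
      apply Valuation.map_add_eq_of_lt_right
      exact Valuation.map_add_lt v (lt_of_le_of_lt hsq_le hlt) (by rw [halξ]; exact hlt)
    have hη : v (eta W x y) < v be := by
      by_contra hcon
      rw [not_lt] at hcon
      have h1 : v be ^ 2 ≤ v (eta W x y) ^ 2 := pow_le_pow_left₀ zero_le hcon 2
      rw [hveq, hA, pow_two] at h1
      have h2 : v (x - e) * v be < v be * v be :=
        mul_lt_mul_of_pos_right hlt (lt_of_le_of_lt zero_le hlt)
      exact absurd h2 (not_lt.mpr h1)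
    exact dbl_contra hE1 hS hv2 hal hbe hnat hodd hvn h hP (Or.inr (by rw [hB]; exact hη))
  · -- `v ξ = v be`: the double has nonsingular reduction
    rcases two_nsmul_cases hS h with ⟨hη0, _⟩ | ⟨hη, x₂, y₂, h₂, lam, h2, hrel⟩
    · exact (dbl_contra hE1 hS hv2 hal hbe hnat hodd hvn h hP (Or.inl hη0)).elim
    · have hdbl := dbl_val hrel hv2 hξ0
      have hB : v ((x - e) ^ 2 - be) = v be :=
        Valuation.map_sub_eq_of_lt_right v (by rw [← heqv]; exact hsq_lt)
      have hA : v ((x - e) ^ 2 + al * (x - e) + be) ≤ v be := by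
        refine le_trans (Valuation.map_add v _ _) (max_le ?_ le_rfl)
        refine le_trans (Valuation.map_add v _ _) (max_le ?_ ?_)
        · rw [← heqv]; exact hsq_le
        · rw [halξ, heqv]
      have hvη0 : v (eta W x y) ≠ 0 := (Valuation.ne_zero_iff v).mpr hη
      have hη2 : v (eta W x y) ^ 2 ≤ v be ^ 2 := by
        rw [hveq, heqv]
        calc v be * v ((x - e) ^ 2 + al * (x - e) + be) ≤ v be * v be := mul_le_mul_right hA _
          _ = v be ^ 2 := (pow_two _).symm
      have hx₂ : 1 ≤ v (x₂ - e) := by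
        by_contra hcon
        rw [not_le] at hcon
        have h1 : v (x₂ - e) * v (eta W x y) ^ 2 < 1 * v (eta W x y) ^ 2 :=
          mul_lt_mul_of_pos_right hcon (zero_lt_iff.mpr (pow_ne_zero 2 hvη0))
        rw [one_mul, hdbl, hB] at h1
        exact absurd h1 (not_lt.mpr hη2)
      have hn2 : n • Point.some x₂ y₂ h₂ = 0 := by
        rw [← h2, smul_comm, hP, nsmul_zero]
      have hfix2 := fixed_of_e0 hE1 hS hv2 hal hbe hdisc hnat hodd hvn σ hσ hσe hσ1 hσ3 φ hφ
        h₂ hn2 hx₂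
      have hD2 : 2 • (φ (Point.some x y h) - Point.some x y h) = 0 := by
        rw [nsmul_sub, ← map_nsmul, h2, hfix2, sub_self]
      have hDn : n • (φ (Point.some x y h) - Point.some x y h) = 0 := by
        rw [nsmul_sub, ← map_nsmul, hP, map_zero, sub_zero]
      exact sub_eq_zero.mp (eq_zero_of_odd_nsmul hodd hDn hD2)
  · -- middle range `v be < v ξ < 1`
    obtain ⟨k, hk⟩ := hMid hbe1 x y h hP hgt hx
    rcases hw with h1 | ⟨w, hσw, hvw⟩
    · exact absurd hbe1 (by rw [h1]; exact lt_irrefl _)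
    have hk' : v (x - e) ^ n = (v w ^ k) ^ n := by
      rw [hk, hvw, ← zpow_natCast (v w) n, ← zpow_mul, mul_comm, zpow_mul, zpow_natCast]
    have hξc : v (x - e) = v w ^ k := (pow_left_inj₀ zero_le zero_le hn0).mp hk'
    have hw0 : w ≠ 0 := by
      rintro rfl
      rw [map_zero] at hξc
      rcases eq_or_ne k 0 with rfl | hk0
      · rw [zpow_zero] at hξc
        exact absurd hx (by rw [hξc]; exact lt_irrefl _)
      · rw [zero_zpow k hk0] at hξc
        exact hvξ0 hξc
    have hc : σ (w ^ k) = w ^ k := by rw [map_zpow₀, hσw]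
    have hc0 : w ^ k ≠ 0 := zpow_ne_zero k hw0
    have hξc' : v (x - e) = v (w ^ k) := by rw [map_zpow₀]; exact hξc
    have hA : v ((x - e) ^ 2 + al * (x - e) + be) = v (x - e) := by
      have e1 : (x - e) ^ 2 + al * (x - e) + be = al * (x - e) + ((x - e) ^ 2 + be) := by ring
      rw [e1, Valuation.map_add_eq_of_lt_left v, halξ]
      rw [halξ]
      exact Valuation.map_add_lt v hsq_lt hgt
    have hηξ : v (eta W x y) = v (x - e) := by
      rw [hA, ← pow_two] at hveq
      exact (pow_left_inj₀ zero_le zero_le (two_ne_zero)).mp hveq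
    have hc1 := hσx hc hc0 hξc'
    exact fixed_of_close hE1 hS hv2 hal hbe hnat hvn σ hσ1 hσ3 φ hφ h hP hc1
      (val_apply_sub_lt σ hσ hc hc0 (hηξ.trans hξc')) (by rw [hηξ]; exact hc1)

end point

end Fermat.Agent.S05.helper126
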