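import Fermat.Agent.S05.helper126_Glue
import Fermat.Agent.S05.helper4205_Inertia
import Fermat.Prelude.Def_FLTPrelim_Ramification

/-!
# Wiring the abstract local theorem to `GaloisRepUnramifiedAt` (helper126, S05)
-/

set_option autoImplicit false

namespace Fermat.Agent.S05.helper126

open WeierstrassCurve WeierstrassCurve.Affine
open Fermat.Agent.S05.helper305

variable {R S K : Type*} [CommRing R] [Field S] [Field K] [DecidableEq K]
  [Algebra R S] [Algebra R K] [Algebra S K] [IsScalarTower R S K]

/-- Local data at a valuation subring `A`: shape `(e, al, be)` defined over the base field,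
with the valuation-theoretic properties needed for `fixed_of_torsion`. -/
def LocalData (W' : WeierstrassCurve R) (n : ℕ) (A : ValuationSubring K) : Prop :=
  A.valuation (2 : K) = 1 ∧ A.valuation (n : K) = 1 ∧ E1AddStmt A.valuation ∧
  ∃ e al be : S,
    Shape (W'⁄K) (algebraMap S K e) (algebraMap S K al) (algebraMap S K be) ∧
    A.valuation (algebraMap S K al) ≤ 1 ∧ A.valuation (algebraMap S K be) ≤ 1 ∧
    A.valuation ((algebraMap S K al) ^ 2 - 4 * algebraMap S K be) = 1 ∧
    (A.valuation (algebraMap S K be) < 1 →
      MidStmt A.valuation (W'⁄K) (algebraMap S K e) (algebraMap S K be) n) ∧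
    (A.valuation (algebraMap S K be) = 1 ∨
      ∃ w : S, A.valuation (algebraMap S K be) = A.valuation (algebraMap S K w) ^ n)

/-- The mod-`n` representation is unramified at `q` as soon as every valuation subring over
`q` carries local data. -/
theorem unramifiedAt_of_localData (W' : WeierstrassCurve R) (n q : ℕ) (hodd : Odd n)
    (hloc : ∀ A : ValuationSubring K, A.LiesOverPrime q → LocalData (S := S) W' n A) :
    WeierstrassCurve.Affine.Point.GaloisRepUnramifiedAt S K W' n q := by
  intro A hA σ hσ x
  obtain ⟨hv2, hvn, hE1, e, al, be, hS, hal, hbe, hdisc, hMid, hw⟩ := hloc A hA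
  apply Subtype.ext
  have hx : n • (x : (W'⁄K).Point) = 0 := by
    have := x.2
    rw [Submodule.mem_torsionBy_iff] at this
    rw [← natCast_zsmul]
    exact this
  have hσv : ∀ z : K, A.valuation z ≤ 1 → A.valuation ((σ : K →+* K) z - z) < 1 := by
    intro z hz
    rw [ValuationSubring.valuation_le_one_iff] at hz
    have := helper4205.apply_sub_mem_nonunits hσ hz
    rw [ValuationSubring.mem_nonunits_iff] at this
    exact this
  have hnat : ∀ m : ℕ, A.valuation (m : K) ≤ 1 := by
    intro m
    rw [ValuationSubring.valuation_le_one_iff]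
    exact natCast_mem A m
  have hfix : ∀ r : R, (σ : K →+* K) (algebraMap R K r) = algebraMap R K r := by
    intro r
    rw [IsScalarTower.algebraMap_apply R S K]
    exact σ.commutes _
  have hfixS : ∀ s : S, (σ : K →+* K) (algebraMap S K s) = algebraMap S K s :=
    fun s => σ.commutes s
  have hw' : A.valuation (algebraMap S K be) = 1 ∨
      ∃ w : K, (σ : K →+* K) w = w ∧ A.valuation (algebraMap S K be) = A.valuation w ^ n := by
    rcases hw with h | ⟨w, hw⟩
    · exact Or.inl h
    · exact Or.inr ⟨algebraMap S K w, hfixS w, hw⟩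
  exact fixed_of_torsion hE1 hS hv2 hal hbe hdisc hnat hodd hvn hMid (σ : K →+* K) hσv
    (hfixS e) (hfix W'.a₁) (hfix W'.a₃) hw' (Point.map σ.toAlgHom)
    (fun x y h => ⟨_, Point.map_some σ.toAlgHom h⟩) x hx

end Fermat.Agent.S05.helper126
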