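import Fermat.Agent.S05.helper305_Shape

/-!
# Exact identities for the chord–tangent relation in shape coordinates (helper305, S05)
-/

namespace Fermat.Agent.S05.helper305

variable {K : Type*} [Field K]

namespace AddRel

variable {al be ξ₁ η₁ ξ₂ η₂ ξ₃ η₃ lam : K}

theorem lam_chord (h : AddRel al be ξ₁ η₁ ξ₂ η₂ ξ₃ η₃ lam) (hne : ξ₁ ≠ ξ₂) :
    lam = (η₁ - η₂) / (ξ₁ - ξ₂) := by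
  rcases h.hlam with ⟨_, hl⟩ | ⟨he, _⟩
  · rw [eq_div_iff (sub_ne_zero.mpr hne)]; exact hl
  · exact absurd he hne

theorem lam_tangent (h2 : (2 : K) ≠ 0) (h : AddRel al be ξ₁ η₁ ξ₂ η₂ ξ₃ η₃ lam) (he : ξ₁ = ξ₂) :
    η₁ = η₂ ∧ η₁ ≠ 0 ∧ lam = (3 * ξ₁ ^ 2 + 2 * al * ξ₁ + be) / (2 * η₁) := by
  rcases h.hlam with ⟨hne, _⟩ | ⟨_, h12, hη, hl⟩
  · exact absurd he hne
  · exact ⟨h12, hη, by rw [eq_div_iff (mul_ne_zero h2 hη)]; exact hl⟩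

/-- (F2) `ξ₃ (η₁ξ₂ + η₂ξ₁)² = ξ₁ξ₂ (ξ₁ξ₂ - β)²`. -/
theorem F2 (h2 : (2 : K) ≠ 0) (h : AddRel al be ξ₁ η₁ ξ₂ η₂ ξ₃ η₃ lam) :
    ξ₃ * (η₁ * ξ₂ + η₂ * ξ₁) ^ 2 = ξ₁ * ξ₂ * (ξ₁ * ξ₂ - be) ^ 2 := by
  have c₁ := h.c₁
  have c₂ := h.c₂
  by_cases hne : ξ₁ = ξ₂
  · obtain ⟨h12, hη, hl⟩ := h.lam_tangent h2 hne
    subst hne h12
    rw [h.hξ, hl]
    field_simp
    grind
  · have hl := h.lam_chord hne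
    have hd : ξ₁ - ξ₂ ≠ 0 := sub_ne_zero.mpr hne
    rw [h.hξ, hl]
    field_simp
    grind

/-- (F3) `ξ₃ ξ₁ ξ₂ (ξ₁ - ξ₂)² = (η₁ξ₂ - η₂ξ₁)²` in the chord case. -/
theorem F3 (h : AddRel al be ξ₁ η₁ ξ₂ η₂ ξ₃ η₃ lam) (hne : ξ₁ ≠ ξ₂) :
    ξ₃ * ξ₁ * ξ₂ * (ξ₁ - ξ₂) ^ 2 = (η₁ * ξ₂ - η₂ * ξ₁) ^ 2 := by
  have c₁ := h.c₁
  have c₂ := h.c₂
  have hl := h.lam_chord hne
  have hd : ξ₁ - ξ₂ ≠ 0 := sub_ne_zero.mpr hne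
  rw [h.hξ, hl]
  field_simp
  grind

/-- (F4) `η₃ (ξ₁ξ₂ - β) = ξ₃ (-λ (ξ₁ξ₂ - β) + η₁ξ₂ + η₂ξ₁)`. -/
theorem F4 (h2 : (2 : K) ≠ 0) (h : AddRel al be ξ₁ η₁ ξ₂ η₂ ξ₃ η₃ lam) :
    η₃ * (ξ₁ * ξ₂ - be) = ξ₃ * (-lam * (ξ₁ * ξ₂ - be) + η₁ * ξ₂ + η₂ * ξ₁) := by
  have c₁ := h.c₁
  have c₂ := h.c₂
  by_cases hne : ξ₁ = ξ₂
  · obtain ⟨h12, hη, hl⟩ := h.lam_tangent h2 hne
    subst hne h12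
    rw [h.hη, h.hξ, hl]
    field_simp
    grind
  · have hl := h.lam_chord hne
    have hd : ξ₁ - ξ₂ ≠ 0 := sub_ne_zero.mpr hne
    rw [h.hη, h.hξ, hl]
    field_simp
    grind

/-- The sum lies on the curve. -/
theorem c₃ (h2 : (2 : K) ≠ 0) (h : AddRel al be ξ₁ η₁ ξ₂ η₂ ξ₃ η₃ lam) :
    η₃ ^ 2 = ξ₃ * (ξ₃ ^ 2 + al * ξ₃ + be) := by
  have c₁ := h.c₁
  have c₂ := h.c₂
  by_cases hne : ξ₁ = ξ₂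
  · obtain ⟨h12, hη, hl⟩ := h.lam_tangent h2 hne
    subst hne h12
    rw [h.hη, h.hξ, hl]
    field_simp
    grind
  · have hl := h.lam_chord hne
    have hd : ξ₁ - ξ₂ ≠ 0 := sub_ne_zero.mpr hne
    rw [h.hη, h.hξ, hl]
    field_simp
    grind

end AddRel

end Fermat.Agent.S05.helper305
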