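import Mathlib
import Fermat.Agent.S05.helper305_Formulas
import Fermat.Agent.S05.helper5_Spec

/-!
# S05-KER (helper1297): the kernel of reduction has no torsion of unit order

Shape coordinates of `helper305_Shape`: `η² = ξ (ξ² + al ξ + be)`.  For a valuation `v` with
`v al ≤ 1`, `v be ≤ 1`, the kernel of reduction is `{1 < v ξ}`; there `t = ξ/η` and `w = 1/η`
have `v w < v t < 1`.

* `vieta`: the Vieta relations for the chord–tangent relation `AddRel`.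
* `key_identity`: `ξ₃η₁η₂ - ξ₁η₂η₃ - ξ₂η₁η₃ = be² - be (ξ₁ξ₂ + ξ₁ξ₃ + ξ₂ξ₃) - al ξ₁ξ₂ξ₃`, i.e.
  `t₃ - t₁ - t₂ = be² w₁w₂w₃ - be (t₁t₂w₃ + t₁t₃w₂ + t₂t₃w₁) - al t₁t₂t₃`.
* `e1_add`: the kernel of reduction is closed under addition and `t` is additive up to
  strictly smaller terms.
* `ker_induction`, `ker`: `t (k • P) = k t(P)` up to smaller terms; hence `p • P ≠ 0` when
  `v p = 1`.  This is `helper5.KerStmt`.
-/

set_option autoImplicit false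

namespace Fermat.Agent.S05.helper1297

open WeierstrassCurve WeierstrassCurve.Affine
open Fermat.Agent.S05.helper305

section field

variable {K : Type*} [Field K]

/-- Vieta relations for the chord–tangent relation: the line `η = lam ξ + mu` meets the cubic
in `ξ₁, ξ₂, ξ₃`. -/
theorem vieta {al be ξ₁ η₁ ξ₂ η₂ ξ₃ η₃ lam : K} (h : AddRel al be ξ₁ η₁ ξ₂ η₂ ξ₃ η₃ lam) :
    ∃ mu : K, η₁ = lam * ξ₁ + mu ∧ η₂ = lam * ξ₂ + mu ∧ η₃ = -(lam * ξ₃ + mu) ∧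
      ξ₁ + ξ₂ + ξ₃ = lam ^ 2 - al ∧
      ξ₁ * ξ₂ + ξ₁ * ξ₃ + ξ₂ * ξ₃ = be - 2 * lam * mu ∧ ξ₁ * ξ₂ * ξ₃ = mu ^ 2 := by
  have c₁ := h.c₁
  have c₂ := h.c₂
  have hξ := h.hξ
  have hη := h.hη
  have key : η₂ = lam * ξ₂ + (η₁ - lam * ξ₁) ∧
      ξ₁ * ξ₂ + ξ₁ * ξ₃ + ξ₂ * ξ₃ = be - 2 * lam * (η₁ - lam * ξ₁) := by
    rcases h.hlam with ⟨hne, hl⟩ | ⟨he, h12, hη0, hl⟩
    · have hd : ξ₁ - ξ₂ ≠ 0 := sub_ne_zero.mpr hne
      have hη₂ : η₂ = lam * ξ₂ + (η₁ - lam * ξ₁) := by linear_combination hl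
      refine ⟨hη₂, ?_⟩
      apply mul_left_cancel₀ hd
      rw [hη₂] at c₂
      rw [hξ]
      linear_combination c₁ - c₂
    · subst he h12
      refine ⟨by ring, ?_⟩
      rw [hξ]
      linear_combination hl
  obtain ⟨hη₂, he2⟩ := key
  refine ⟨η₁ - lam * ξ₁, by ring, hη₂, by rw [hη]; ring, by rw [hξ]; ring, he2, ?_⟩
  have he1 : ξ₁ + ξ₂ + ξ₃ = lam ^ 2 - al := by rw [hξ]; ring
  linear_combination (-1 : K) * c₁ + ξ₁ * he2 - ξ₁ ^ 2 * he1

/-- The exact identity behind the additivity of `t = ξ/η` on the kernel of reduction. -/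
theorem key_identity {al be ξ₁ η₁ ξ₂ η₂ ξ₃ η₃ lam : K}
    (h : AddRel al be ξ₁ η₁ ξ₂ η₂ ξ₃ η₃ lam) :
    ξ₃ * η₁ * η₂ - ξ₁ * η₂ * η₃ - ξ₂ * η₁ * η₃ =
      be ^ 2 - be * (ξ₁ * ξ₂ + ξ₁ * ξ₃ + ξ₂ * ξ₃) - al * (ξ₁ * ξ₂ * ξ₃) := by
  obtain ⟨mu, h1, h2, h3, e1, e2, e3⟩ := vieta h
  rw [h1, h2, h3]
  linear_combination (3 * lam ^ 2 + al) * e3 + (2 * lam * mu + be) * e2 + mu ^ 2 * e1

variable {Γ₀ : Type*} [LinearOrderedCommGroupWithZero Γ₀] (v : Valuation K Γ₀)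

theorem le_one_mul {a b : K} (ha : v a ≤ 1) (hb : v b ≤ 1) : v (a * b) ≤ 1 := by
  rw [map_mul]; exact mul_le_one' ha hb

theorem lt_one_mul_right {a b : K} (ha : v a ≤ 1) (hb : v b < 1) : v (a * b) < 1 := by
  rw [map_mul]
  calc v a * v b ≤ 1 * v b := mul_le_mul' ha le_rfl
    _ = v b := one_mul _
    _ < 1 := hb

theorem lt_one_mul_left {a b : K} (ha : v a < 1) (hb : v b ≤ 1) : v (a * b) < 1 := by
  rw [mul_comm]; exact lt_one_mul_right v hb ha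

theorem mul_lt_of_le_of_lt_one {M : Γ₀} {x r : K} (hM : 0 < M) (hx : v x ≤ M) (hr : v r < 1) :
    v (x * r) < M := by
  rw [map_mul]
  calc v x * v r ≤ M * v r := mul_le_mul' hx le_rfl
    _ < M * 1 := by
        exact mul_lt_mul_of_pos_left hr hM
    _ = M := mul_one M

/-- Basic valuation facts for a point of the kernel of reduction. -/
theorem e1_point {al be ξ η : K} (hal : v al ≤ 1) (hbe : v be ≤ 1)
    (c : η ^ 2 = ξ * (ξ ^ 2 + al * ξ + be)) (hξ : 1 < v ξ) :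
    ξ ≠ 0 ∧ η ≠ 0 ∧ v η ^ 2 = v ξ ^ 3 ∧ v (ξ / η) < 1 ∧ v (1 / η) < v (ξ / η) := by
  have hpos : 0 < v ξ := lt_trans zero_lt_one hξ
  have hξ0 : ξ ≠ 0 := by
    rintro rfl
    simp at hpos
  have hlt : v ξ < v ξ ^ 2 := by
    rw [pow_two]
    calc v ξ = v ξ * 1 := (mul_one _).symm
      _ < v ξ * v ξ := mul_lt_mul_of_pos_left hξ hpos
  have h1 : v (al * ξ + be) < v (ξ ^ 2) := by
    rw [map_pow]
    refine lt_of_le_of_lt (v.map_add _ _) (max_lt ?_ ?_)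
    · rw [map_mul]
      calc v al * v ξ ≤ 1 * v ξ := mul_le_mul' hal le_rfl
        _ = v ξ := one_mul _
        _ < v ξ ^ 2 := hlt
    · exact lt_of_le_of_lt hbe (lt_trans hξ hlt)
  have h2 : v (ξ ^ 2 + al * ξ + be) = v ξ ^ 2 := by
    rw [add_assoc, v.map_add_eq_of_lt_left h1, map_pow]
  have h3 : v η ^ 2 = v ξ ^ 3 := by
    rw [← map_pow, c, map_mul, h2, ← pow_succ']
  have hη0 : η ≠ 0 := by
    rintro rfl
    rw [map_zero, zero_pow two_ne_zero] at h3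
    exact pow_ne_zero 3 hpos.ne' h3.symm
  have hvη : v η ≠ 0 := (v.ne_zero_iff).mpr hη0
  have ht2 : v (ξ / η) ^ 2 * v ξ = 1 := by
    rw [map_div₀, div_pow, h3]
    field_simp
  have ht : v (ξ / η) < 1 := by
    by_contra hge
    rw [not_lt] at hge
    have h4 : 1 ≤ v (ξ / η) ^ 2 := one_le_pow₀ hge
    have h5 : v ξ ≤ v (ξ / η) ^ 2 * v ξ := by
      calc v ξ = 1 * v ξ := (one_mul _).symm
        _ ≤ v (ξ / η) ^ 2 * v ξ := mul_le_mul' h4 le_rfl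
    rw [ht2] at h5
    exact absurd hξ (not_lt.mpr h5)
  refine ⟨hξ0, hη0, h3, ht, ?_⟩
  have hw : v (ξ / η) = v (1 / η) * v ξ := by
    rw [← map_mul]; congr 1; field_simp
  rw [hw]
  have hw0 : 0 < v (1 / η) := by
    rw [v.pos_iff]; exact one_div_ne_zero hη0
  calc v (1 / η) = v (1 / η) * 1 := (mul_one _).symm
    _ < v (1 / η) * v ξ := mul_lt_mul_of_pos_left hξ hw0

/-- The kernel of reduction is closed under addition, and `t = ξ/η` is additive up to terms of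
strictly smaller valuation. -/
theorem e1_add {al be ξ₁ η₁ ξ₂ η₂ ξ₃ η₃ lam : K} (h2 : (2 : K) ≠ 0)
    (h : AddRel al be ξ₁ η₁ ξ₂ η₂ ξ₃ η₃ lam) (hal : v al ≤ 1) (hbe : v be ≤ 1)
    (h₁ : 1 < v ξ₁) (h₂ : 1 < v ξ₂) :
    1 < v ξ₃ ∧ v (ξ₃ / η₃ - ξ₁ / η₁ - ξ₂ / η₂) < max (v (ξ₁ / η₁)) (v (ξ₂ / η₂)) := by
  obtain ⟨hξ₁0, hη₁0, hv₁, ht₁, hw₁⟩ := e1_point v hal hbe h.c₁ h₁
  obtain ⟨hξ₂0, hη₂0, hv₂, ht₂, hw₂⟩ := e1_point v hal hbe h.c₂ h₂
  have hF2 := h.F2 h2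
  have h12 : 1 < v (ξ₁ * ξ₂) := by
    rw [map_mul]
    calc (1 : Γ₀) < v ξ₁ := h₁
      _ = v ξ₁ * 1 := (mul_one _).symm
      _ ≤ v ξ₁ * v ξ₂ := mul_le_mul' le_rfl h₂.le
  have hsub : v (ξ₁ * ξ₂ - be) = v (ξ₁ * ξ₂) :=
    v.map_sub_eq_of_lt_left (lt_of_le_of_lt hbe h12)
  have hsum : η₁ * ξ₂ + η₂ * ξ₁ = η₁ * η₂ * (ξ₁ / η₁ + ξ₂ / η₂) := by
    field_simp; ring
  have hts : v (ξ₁ / η₁ + ξ₂ / η₂) < 1 := v.map_add_lt ht₁ ht₂
  have h120 : v (ξ₁ * ξ₂) ≠ 0 := (lt_trans zero_lt_one h12).ne'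
  have hprod : v ξ₃ * v (ξ₁ / η₁ + ξ₂ / η₂) ^ 2 = 1 := by
    have h3 := congrArg v hF2
    rw [hsum] at h3
    simp only [map_mul, map_pow] at h3 hsub
    rw [hsub] at h3
    have h4 : (v η₁ * v η₂ * v (ξ₁ / η₁ + ξ₂ / η₂)) ^ 2 =
        (v ξ₁ * v ξ₂) ^ 3 * v (ξ₁ / η₁ + ξ₂ / η₂) ^ 2 := by
      rw [mul_pow, mul_pow, hv₁, hv₂, mul_pow]
    rw [h4] at h3
    have h5 : (v ξ₁ * v ξ₂) ^ 3 * (v ξ₃ * v (ξ₁ / η₁ + ξ₂ / η₂) ^ 2) = (v ξ₁ * v ξ₂) ^ 3 * 1 := by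
      rw [mul_one]
      calc (v ξ₁ * v ξ₂) ^ 3 * (v ξ₃ * v (ξ₁ / η₁ + ξ₂ / η₂) ^ 2)
          = v ξ₃ * ((v ξ₁ * v ξ₂) ^ 3 * v (ξ₁ / η₁ + ξ₂ / η₂) ^ 2) := mul_left_comm _ _ _
        _ = v ξ₁ * v ξ₂ * (v ξ₁ * v ξ₂) ^ 2 := h3
        _ = (v ξ₁ * v ξ₂) ^ 3 := (pow_succ' _ _).symm
    simp only [map_mul] at h120
    exact mul_left_cancel₀ (pow_ne_zero 3 h120) h5
  have h₃ : 1 < v ξ₃ := by
    by_contra hle
    rw [not_lt] at hle
    have h6 : v ξ₃ * v (ξ₁ / η₁ + ξ₂ / η₂) ^ 2 < 1 := by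
      calc v ξ₃ * v (ξ₁ / η₁ + ξ₂ / η₂) ^ 2 ≤ 1 * v (ξ₁ / η₁ + ξ₂ / η₂) ^ 2 :=
            mul_le_mul' hle le_rfl
        _ = v (ξ₁ / η₁ + ξ₂ / η₂) ^ 2 := one_mul _
        _ < 1 := pow_lt_one₀ zero_le hts two_ne_zero
    exact absurd hprod (ne_of_lt h6)
  obtain ⟨hξ₃0, hη₃0, hv₃, ht₃, hw₃⟩ := e1_point v hal hbe (h.c₃ h2) h₃
  refine ⟨h₃, ?_⟩
  have hid := key_identity h
  have hdiv : ξ₃ / η₃ - ξ₁ / η₁ - ξ₂ / η₂ =
      (1 / η₁) * (be ^ 2 * (1 / η₂) * (1 / η₃)) - (ξ₁ / η₁) * (be * ((ξ₂ / η₂) * (1 / η₃)))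
        - (ξ₁ / η₁) * (be * ((ξ₃ / η₃) * (1 / η₂))) - (ξ₂ / η₂) * (be * ((ξ₃ / η₃) * (1 / η₁)))
        - (ξ₁ / η₁) * (al * ((ξ₂ / η₂) * (ξ₃ / η₃))) := by
    field_simp
    linear_combination hid
  have hM : 0 < max (v (ξ₁ / η₁)) (v (ξ₂ / η₂)) := by
    refine lt_of_lt_of_le ?_ (le_max_left _ _)
    rw [v.pos_iff]; exact div_ne_zero hξ₁0 hη₁0
  have hw₁' : v (1 / η₁) < 1 := lt_trans hw₁ ht₁
  have hw₂' : v (1 / η₂) < 1 := lt_trans hw₂ ht₂
  have hw₃' : v (1 / η₃) < 1 := lt_trans hw₃ ht₃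
  have hbe2 : v (be ^ 2) ≤ 1 := by rw [map_pow]; exact pow_le_one₀ zero_le hbe
  rw [hdiv]
  refine v.map_sub_lt (v.map_sub_lt (v.map_sub_lt (v.map_sub_lt ?_ ?_) ?_) ?_) ?_
  · exact mul_lt_of_le_of_lt_one v hM (le_trans hw₁.le (le_max_left _ _))
      (lt_one_mul_right v (le_one_mul v hbe2 hw₂'.le) hw₃')
  · exact mul_lt_of_le_of_lt_one v hM (le_max_left _ _)
      (lt_one_mul_right v hbe (lt_one_mul_right v ht₂.le hw₃'))
  · exact mul_lt_of_le_of_lt_one v hM (le_max_left _ _)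
      (lt_one_mul_right v hbe (lt_one_mul_right v ht₃.le hw₂'))
  · exact mul_lt_of_le_of_lt_one v hM (le_max_right _ _)
      (lt_one_mul_right v hbe (lt_one_mul_right v ht₃.le hw₁'))
  · exact mul_lt_of_le_of_lt_one v hM (le_max_left _ _)
      (lt_one_mul_right v hal (lt_one_mul_right v ht₂.le ht₃))

theorem natCast_le_one (n : ℕ) : v (n : K) ≤ 1 := by
  induction n with
  | zero => simp
  | succ n ih =>
    rw [Nat.cast_succ]
    exact le_trans (v.map_add _ _) (max_le ih (le_of_eq v.map_one))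

end field

section point

variable {K : Type*} [Field K] [DecidableEq K] {Γ₀ : Type*} [LinearOrderedCommGroupWithZero Γ₀]
  (v : Valuation K Γ₀) {W : WeierstrassCurve K} {e al be : K}

/-- On the kernel of reduction, `t (k • P) = k * t P` up to terms of smaller valuation, as long
as no multiple `j • P`, `1 ≤ j ≤ k`, vanishes. -/
theorem ker_induction (hS : Shape W e al be) (hal : v al ≤ 1) (hbe : v be ≤ 1)
    {x y : K} (h : W.toAffine.Nonsingular x y) (hx : 1 < v (x - e)) :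
    ∀ k : ℕ, 1 ≤ k →
      (∀ j : ℕ, 1 ≤ j → j ≤ k → j • (Point.some x y h : W.toAffine.Point) ≠ 0) →
      ∃ (xk yk : K) (hk : W.toAffine.Nonsingular xk yk),
        k • (Point.some x y h : W.toAffine.Point) = Point.some xk yk hk ∧ 1 < v (xk - e) ∧
        v ((xk - e) / eta W xk yk - (k : K) * ((x - e) / eta W x y)) <
          v ((x - e) / eta W x y) := by
  obtain ⟨hξ0, hη0, -, ht, -⟩ :=
    e1_point v hal hbe ((hS.equation_iff x y).1 h.1) hx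
  have ht0 : 0 < v ((x - e) / eta W x y) := by
    rw [v.pos_iff]; exact div_ne_zero hξ0 hη0
  intro k hk
  induction k, hk using Nat.le_induction with
  | base =>
    intro _
    refine ⟨x, y, h, one_nsmul _, hx, ?_⟩
    simpa using ht0
  | succ k hk ih =>
    intro hj
    obtain ⟨xk, yk, hkns, hkP, hxk, hvk⟩ := ih (fun j h1 h2 => hj j h1 (Nat.le_succ_of_le h2))
    have hne : ¬(xk = x ∧ yk = W.toAffine.negY x y) := by
      rintro ⟨hx', hy'⟩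
      apply hj (k + 1) (by omega) le_rfl
      rw [succ_nsmul, hkP]
      exact Point.add_of_Y_eq hx' hy'
    obtain ⟨x₃, y₃, h₃, lam, hsum, hrel⟩ := hS.add_some_rel hkns h hne
    obtain ⟨h3, hlt⟩ := e1_add v hS.two_ne hrel hal hbe hxk hx
    refine ⟨x₃, y₃, h₃, by rw [succ_nsmul, hkP, hsum], h3, ?_⟩
    have hk_le : v ((xk - e) / eta W xk yk) ≤ v ((x - e) / eta W x y) := by
      have : (xk - e) / eta W xk yk =
          ((xk - e) / eta W xk yk - (k : K) * ((x - e) / eta W x y)) +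
            (k : K) * ((x - e) / eta W x y) := by ring
      rw [this]
      refine le_trans (v.map_add _ _) (max_le hvk.le ?_)
      rw [map_mul]
      calc v (k : K) * v ((x - e) / eta W x y) ≤ 1 * v ((x - e) / eta W x y) :=
            mul_le_mul' (natCast_le_one v k) le_rfl
        _ = v ((x - e) / eta W x y) := one_mul _
    have hsplit : (x₃ - e) / eta W x₃ y₃ - ((k + 1 : ℕ) : K) * ((x - e) / eta W x y) =
        ((x₃ - e) / eta W x₃ y₃ - (xk - e) / eta W xk yk - (x - e) / eta W x y) +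
          ((xk - e) / eta W xk yk - (k : K) * ((x - e) / eta W x y)) := by
      push_cast; ring
    rw [hsplit]
    exact v.map_add_lt (lt_of_lt_of_le hlt (max_le hk_le le_rfl)) hvk

end point

/-- **KER** (`helper5.KerStmt`): the kernel of reduction has no point of prime order `p` when
`v p = 1`. -/
theorem ker : Fermat.Agent.S05.helper5.KerStmt := by
  intro K _ _ Γ₀ _ v W e al be hS _ hal hbe p hp _ hvp x y h hx hpP
  have hP0 : (Point.some x y h : W.toAffine.Point) ≠ 0 := Point.some_ne_zero h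
  have hj : ∀ j : ℕ, 1 ≤ j → j ≤ p - 1 → j • (Point.some x y h : W.toAffine.Point) ≠ 0 := by
    intro j h1 h2 hjP
    have hcop : Nat.Coprime j p := by
      rw [Nat.coprime_comm, Nat.Prime.coprime_iff_not_dvd hp]
      intro hdvd
      have := Nat.le_of_dvd (by omega) hdvd
      have := hp.one_le
      omega
    have h1' := addOrderOf_dvd_of_nsmul_eq_zero hjP
    have h2' := addOrderOf_dvd_of_nsmul_eq_zero hpP
    have h3 := Nat.dvd_gcd h1' h2'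
    rw [Nat.Coprime] at hcop
    rw [hcop] at h3
    exact hP0 (AddMonoid.addOrderOf_eq_one_iff.mp (Nat.dvd_one.mp h3))
  obtain ⟨xk, yk, hkns, hkP, hxk, hvk⟩ :=
    ker_induction v hS hal hbe h hx (p - 1) (by have := hp.two_le; omega) hj
  have hsum : (p - 1) • (Point.some x y h : W.toAffine.Point) + Point.some x y h = 0 := by
    rw [← succ_nsmul, Nat.sub_add_cancel hp.one_le]; exact hpP
  rw [hkP] at hsum
  have hneg : (Point.some xk yk hkns : W.toAffine.Point) = -Point.some x y h :=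
    eq_neg_of_add_eq_zero_left hsum
  rw [Point.neg_some] at hneg
  have hxeq : xk = x := by injection hneg
  have hyeq : yk = W.toAffine.negY x y := by injection hneg
  subst hxeq
  subst hyeq
  rw [eta_negY W hS.two_ne] at hvk
  obtain ⟨hξ0, hη0, -, -, -⟩ :=
    e1_point v hal hbe ((hS.equation_iff xk y).1 h.1) hx
  have hcalc : (xk - e) / -eta W xk y - ((p - 1 : ℕ) : K) * ((xk - e) / eta W xk y) =
      -(p : K) * ((xk - e) / eta W xk y) := by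
    rw [Nat.cast_sub hp.one_le]
    push_cast
    field_simp
    ring
  rw [hcalc, map_mul, Valuation.map_neg, hvp, one_mul] at hvk
  exact lt_irrefl _ hvk

end Fermat.Agent.S05.helper1297
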