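import Fermat.Agent.S05.helper305_Formulas

/-!
# Kernel of reduction in shape coordinates (helper1385, S05)

Field-level statements on `AddRel` (chord-tangent relation on `η² = ξ(ξ² + al ξ + be)`):
Vieta relations `line₂`, `line₃`, `vieta₂`, `vieta₃`, `sym_rel`, `t_identity`, and for a
valuation `v` with `v 2 = 1`, `v al ≤ 1`, `v be ≤ 1`: if `1 < v ξ₁` and `1 < v ξ₂` then
`1 < v ξ₃` (`e1_closed`) and `t = ξ/η` is additive up to higher order (`e1_add`).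
-/

namespace Fermat.Agent.S05.helper1385

open Fermat.Agent.S05.helper305

variable {K : Type*} [Field K]

section vieta

variable {al be ξ₁ η₁ ξ₂ η₂ ξ₃ η₃ lam : K}

/-- second line equation -/
theorem line₂ (h : AddRel al be ξ₁ η₁ ξ₂ η₂ ξ₃ η₃ lam) :
    η₂ = lam * ξ₂ + (η₁ - lam * ξ₁) := by
  rcases h.hlam with ⟨_, hl⟩ | ⟨he, h12, _, _⟩
  · linear_combination hl
  · subst he h12; ring

theorem line₃ (h : AddRel al be ξ₁ η₁ ξ₂ η₂ ξ₃ η₃ lam) :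
    -η₃ = lam * ξ₃ + (η₁ - lam * ξ₁) := by
  linear_combination (-1 : K) * h.hη

theorem vieta₂ (h : AddRel al be ξ₁ η₁ ξ₂ η₂ ξ₃ η₃ lam) :
    ξ₁ * ξ₂ + ξ₁ * ξ₃ + ξ₂ * ξ₃ = be - 2 * lam * (η₁ - lam * ξ₁) := by
  have c₁ := h.c₁
  have c₂ := h.c₂
  have hξ := h.hξ
  rcases h.hlam with ⟨hne, hl⟩ | ⟨he, h12, _, hl⟩
  · have hD : ξ₁ - ξ₂ ≠ 0 := sub_ne_zero.mpr hne
    have key : (ξ₁ - ξ₂) * (ξ₁ * ξ₂ + ξ₁ * ξ₃ + ξ₂ * ξ₃ - (be - 2 * lam * (η₁ - lam * ξ₁))) = 0 := by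
      linear_combination c₁ - c₂ + (η₁ + η₂ - lam * (ξ₁ - ξ₂)) * hl + (ξ₁ - ξ₂) * (ξ₁ + ξ₂) * hξ
    exact sub_eq_zero.mp ((mul_eq_zero.mp key).resolve_left hD)
  · subst he h12
    linear_combination hl + 2 * ξ₁ * hξ

theorem vieta₃ (h : AddRel al be ξ₁ η₁ ξ₂ η₂ ξ₃ η₃ lam) :
    ξ₁ * ξ₂ * ξ₃ = (η₁ - lam * ξ₁) ^ 2 := by
  have he2 := vieta₂ h
  linear_combination ξ₁ * he2 - ξ₁ ^ 2 * h.hξ - h.c₁

/-- the symmetric relation between the three abscissae -/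
theorem sym_rel (h : AddRel al be ξ₁ η₁ ξ₂ η₂ ξ₃ η₃ lam) :
    (ξ₁ * ξ₂ + ξ₃ * (ξ₁ + ξ₂) - be) ^ 2 = 4 * (ξ₁ * ξ₂ * ξ₃) * (ξ₁ + ξ₂ + ξ₃ + al) := by
  have he2 := vieta₂ h
  have he3 := vieta₃ h
  have hξ := h.hξ
  have e1 : ξ₁ + ξ₂ + ξ₃ + al = lam ^ 2 := by linear_combination hξ
  rw [e1, he3]
  have : ξ₁ * ξ₂ + ξ₃ * (ξ₁ + ξ₂) - be = - 2 * lam * (η₁ - lam * ξ₁) := by linear_combination he2
  rw [this]; ring

/-- the key identity for the `t = ξ/η` coordinate -/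
theorem t_identity (h : AddRel al be ξ₁ η₁ ξ₂ η₂ ξ₃ η₃ lam) :
    ξ₃ * η₁ * η₂ - ξ₁ * η₂ * η₃ - ξ₂ * η₁ * η₃ =
      (η₁ - lam * ξ₁) * (2 * be * lam - al * (η₁ - lam * ξ₁)) := by
  have he2 := vieta₂ h
  have he3 := vieta₃ h
  have hξ := h.hξ
  have l2 := line₂ h
  have l3 := line₃ h
  have e1 : ξ₁ + ξ₂ + ξ₃ = lam ^ 2 - al := by linear_combination hξ
  have hη3 : η₃ = -(lam * ξ₃ + (η₁ - lam * ξ₁)) := by linear_combination (-1 : K) * l3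
  have hη1 : η₁ = lam * ξ₁ + (η₁ - lam * ξ₁) := by ring
  generalize η₁ - lam * ξ₁ = M at *
  rw [hη3, l2, hη1]
  linear_combination (3 * lam ^ 2) * he3 + (2 * lam * M) * he2 + M ^ 2 * e1

end vieta

section val

variable {Γ₀ : Type*} [LinearOrderedCommGroupWithZero Γ₀] (v : Valuation K Γ₀)
variable {al be ξ₁ η₁ ξ₂ η₂ ξ₃ η₃ lam : K}

/-- For `1 < v ξ`: `v (ξ² + al ξ + be) = v ξ ^ 2`. -/
theorem val_quad (hal : v al ≤ 1) (hbe : v be ≤ 1) {ξ : K} (hξ : 1 < v ξ) :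
    v (ξ ^ 2 + al * ξ + be) = v ξ ^ 2 := by
  have hpos : 0 < v ξ := lt_trans zero_lt_one hξ
  have hsq : v ξ < v ξ ^ 2 := by
    rw [sq]; exact (lt_mul_iff_one_lt_right hpos).mpr hξ
  have h1 : v (al * ξ) < v (ξ ^ 2) := by
    rw [map_mul, map_pow]
    calc v al * v ξ ≤ 1 * v ξ := mul_le_mul_left hal _
      _ = v ξ := one_mul _
      _ < v ξ ^ 2 := hsq
  have h2 : v be < v (ξ ^ 2 + al * ξ) := by
    rw [Valuation.map_add_eq_of_lt_left v h1, map_pow]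
    exact lt_of_le_of_lt hbe (lt_trans hξ hsq)
  rw [Valuation.map_add_eq_of_lt_left v h2, Valuation.map_add_eq_of_lt_left v h1, map_pow]

/-- For a point with `1 < v ξ`: `v η ^ 2 = v ξ ^ 3`. -/
theorem val_eta_sq (hal : v al ≤ 1) (hbe : v be ≤ 1) {ξ η : K}
    (hc : η ^ 2 = ξ * (ξ ^ 2 + al * ξ + be)) (hξ : 1 < v ξ) :
    v η ^ 2 = v ξ ^ 3 := by
  rw [← map_pow, hc, map_mul, val_quad v hal hbe hξ]; exact (pow_succ' (v ξ) 2).symm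

/-- `E1` is closed under addition. -/
theorem e1_closed (h : AddRel al be ξ₁ η₁ ξ₂ η₂ ξ₃ η₃ lam) (hv2 : v 2 = 1) (hal : v al ≤ 1)
    (hbe : v be ≤ 1) (h₁ : 1 < v ξ₁) (h₂ : 1 < v ξ₂) : 1 < v ξ₃ := by
  by_contra hcon
  have h3 : v ξ₃ ≤ 1 := not_lt.mp hcon
  have hp1 : 0 < v ξ₁ := lt_trans zero_lt_one h₁
  have hp2 : 0 < v ξ₂ := lt_trans zero_lt_one h₂
  have hsym := sym_rel h
  have hv4 : v (4 : K) = 1 := by
    have : (4 : K) = 2 * 2 := by norm_num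
    rw [this, map_mul, hv2, one_mul]
  -- the product dominates
  have hprod : 1 < v ξ₁ * v ξ₂ := Right.one_lt_mul' h₁ h₂
  have hmax1 : v ξ₁ < v ξ₁ * v ξ₂ := (lt_mul_iff_one_lt_right hp1).mpr h₂
  have hmax2 : v ξ₂ < v ξ₁ * v ξ₂ := (lt_mul_iff_one_lt_left hp2).mpr h₁
  have hsum : v (ξ₁ + ξ₂) < v ξ₁ * v ξ₂ := Valuation.map_add_lt v hmax1 hmax2
  have hA : v (ξ₃ * (ξ₁ + ξ₂)) < v (ξ₁ * ξ₂) := by
    rw [map_mul, map_mul]
    calc v ξ₃ * v (ξ₁ + ξ₂) ≤ 1 * v (ξ₁ + ξ₂) := mul_le_mul_left h3 _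
      _ = v (ξ₁ + ξ₂) := one_mul _
      _ < v ξ₁ * v ξ₂ := hsum
  have hB : v be < v (ξ₁ * ξ₂ + ξ₃ * (ξ₁ + ξ₂)) := by
    rw [Valuation.map_add_eq_of_lt_left v hA, map_mul]
    exact lt_of_le_of_lt hbe hprod
  have hL : v ((ξ₁ * ξ₂ + ξ₃ * (ξ₁ + ξ₂) - be) ^ 2) = (v ξ₁ * v ξ₂) ^ 2 := by
    rw [map_pow, Valuation.map_sub_eq_of_lt_left v hB, Valuation.map_add_eq_of_lt_left v hA,
      map_mul]
  have hR : v (4 * (ξ₁ * ξ₂ * ξ₃) * (ξ₁ + ξ₂ + ξ₃ + al)) < (v ξ₁ * v ξ₂) ^ 2 := by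
    rw [map_mul, map_mul, hv4, one_mul, map_mul, map_mul]
    have hS : v (ξ₁ + ξ₂ + ξ₃ + al) < v ξ₁ * v ξ₂ := by
      apply Valuation.map_add_lt v
      · apply Valuation.map_add_lt v hsum
        exact lt_of_le_of_lt h3 hprod
      · exact lt_of_le_of_lt hal hprod
    have hpp : 0 < v ξ₁ * v ξ₂ := mul_pos hp1 hp2
    calc v ξ₁ * v ξ₂ * v ξ₃ * v (ξ₁ + ξ₂ + ξ₃ + al)
        ≤ v ξ₁ * v ξ₂ * 1 * v (ξ₁ + ξ₂ + ξ₃ + al) :=
          mul_le_mul_left (mul_le_mul_right h3 _) _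
      _ = v ξ₁ * v ξ₂ * v (ξ₁ + ξ₂ + ξ₃ + al) := by rw [mul_one]
      _ < v ξ₁ * v ξ₂ * (v ξ₁ * v ξ₂) := (mul_lt_mul_iff_of_pos_left hpp).mpr hS
      _ = (v ξ₁ * v ξ₂) ^ 2 := by rw [sq]
  rw [hsym] at hL
  exact absurd hL (ne_of_lt hR)


/-- **Kernel of reduction, additivity of `t = ξ/η` up to higher order.** -/
theorem e1_add (h : AddRel al be ξ₁ η₁ ξ₂ η₂ ξ₃ η₃ lam) (hv2 : v 2 = 1) (hal : v al ≤ 1)
    (hbe : v be ≤ 1) (h₁ : 1 < v ξ₁) (h₂ : 1 < v ξ₂) :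
    1 < v ξ₃ ∧ v (ξ₃ / η₃ - (ξ₁ / η₁ + ξ₂ / η₂)) < v (ξ₁ / η₁ + ξ₂ / η₂) := by
  have h₃ := e1_closed v h hv2 hal hbe h₁ h₂
  refine ⟨h₃, ?_⟩
  have h2ne : (2 : K) ≠ 0 := by
    intro h0; rw [h0, map_zero] at hv2; exact zero_ne_one hv2
  have c₃ := h.c₃ h2ne
  have e₁ := val_eta_sq v hal hbe h.c₁ h₁
  have e₂ := val_eta_sq v hal hbe h.c₂ h₂
  have e₃ := val_eta_sq v hal hbe c₃ h₃
  have hp1 : 0 < v ξ₁ := lt_trans zero_lt_one h₁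
  have hp2 : 0 < v ξ₂ := lt_trans zero_lt_one h₂
  have hp3 : 0 < v ξ₃ := lt_trans zero_lt_one h₃
  have hη_ne : ∀ {ξ η : K}, v η ^ 2 = v ξ ^ 3 → 0 < v ξ → η ≠ 0 := by
    intro ξ η he hp h0
    rw [h0, map_zero, zero_pow two_ne_zero] at he
    exact absurd he.symm (ne_of_gt (pow_pos hp 3))
  have hη1 : η₁ ≠ 0 := hη_ne e₁ hp1
  have hη2 : η₂ ≠ 0 := hη_ne e₂ hp2
  have hη3 : η₃ ≠ 0 := hη_ne e₃ hp3
  -- notation
  set M := η₁ - lam * ξ₁ with hM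
  set Pi := v ξ₁ * v ξ₂ * v ξ₃ with hPi
  have hPipos : 0 < Pi := mul_pos (mul_pos hp1 hp2) hp3
  have h12 : 1 < v ξ₁ * v ξ₂ := Right.one_lt_mul' h₁ h₂
  have hle1 : v ξ₁ ≤ Pi := by
    rw [hPi, mul_assoc]
    exact le_mul_of_one_le_right' (le_of_lt (Right.one_lt_mul' h₂ h₃))
  have hle2 : v ξ₂ ≤ Pi := by
    rw [hPi, mul_comm (v ξ₁), mul_assoc]
    exact le_mul_of_one_le_right' (le_of_lt (Right.one_lt_mul' h₁ h₃))
  have hle3 : v ξ₃ ≤ Pi := by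
    rw [hPi]
    exact le_mul_of_one_le_left' (le_of_lt h12)
  have hle0 : (1 : Γ₀) ≤ Pi := le_trans (le_of_lt h₃) hle3
  have hMsq : v M ^ 2 = Pi := by
    rw [← map_pow, hM, ← vieta₃ h, map_mul, map_mul]
  have hlamsq : v lam ^ 2 ≤ Pi := by
    have hl : lam ^ 2 = ξ₁ + ξ₂ + ξ₃ + al := by linear_combination (-1 : K) * h.hξ
    rw [← map_pow, hl]
    refine Valuation.map_add_le v (Valuation.map_add_le v (Valuation.map_add_le v hle1 hle2) hle3)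
      (le_trans hal hle0)
  have hv2' : v (2 : K) ≤ 1 := le_of_eq hv2
  have hN : v (M * (2 * be * lam - al * M)) ^ 2 ≤ Pi ^ 2 := by
    rw [map_mul, mul_pow, hMsq, sq Pi]
    refine mul_le_mul_right ?_ _
    rw [← hMsq]
    have hmax : v (2 * be * lam - al * M) ≤ max (v lam) (v M) := by
      refine Valuation.map_sub_le v ?_ ?_
      · rw [map_mul, map_mul, hv2, one_mul]
        calc v be * v lam ≤ 1 * v lam := mul_le_mul_left hbe _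
          _ = v lam := one_mul _
          _ ≤ max (v lam) (v M) := le_max_left _ _
      · rw [map_mul]
        calc v al * v M ≤ 1 * v M := mul_le_mul_left hal _
          _ = v M := one_mul _
          _ ≤ max (v lam) (v M) := le_max_right _ _
    rcases le_total (v lam) (v M) with hlm | hlm
    · rw [max_eq_right hlm] at hmax
      exact pow_le_pow_left₀ zero_le hmax 2
    · rw [max_eq_left hlm] at hmax
      calc v (2 * be * lam - al * M) ^ 2 ≤ v lam ^ 2 := pow_le_pow_left₀ zero_le hmax 2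
        _ ≤ Pi := hlamsq
        _ = v M ^ 2 := hMsq.symm
  set δ := ξ₃ / η₃ - (ξ₁ / η₁ + ξ₂ / η₂) with hδ
  have hδeq : δ * (η₁ * η₂ * η₃) = M * (2 * be * lam - al * M) := by
    rw [hM, ← t_identity h, hδ]
    field_simp
    ring
  have hηprod : v (η₁ * η₂ * η₃) ^ 2 = Pi ^ 3 := by
    rw [map_mul, map_mul, mul_pow, mul_pow, e₁, e₂, e₃, ← mul_pow, ← mul_pow]
  have k1 : v δ ^ 2 * Pi ^ 3 ≤ Pi ^ 2 := by
    rw [← hηprod, ← mul_pow, ← map_mul, hδeq]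
    exact hN
  have k2 : v δ ^ 2 * Pi ≤ 1 := by
    have : v δ ^ 2 * Pi * Pi ^ 2 ≤ 1 * Pi ^ 2 := by
      rw [one_mul, mul_assoc, ← pow_succ']
      exact k1
    exact le_of_mul_le_mul_right this (pow_pos hPipos 2)
  have k3 : v (ξ₃ / η₃) ^ 2 * v ξ₃ = 1 := by
    have hne3 : v ξ₃ ≠ 0 := ne_of_gt hp3
    rw [map_div₀, div_pow, e₃, div_mul_eq_mul_div, ← pow_succ]
    exact div_self (pow_ne_zero 3 hne3)
  have k4 : v δ ^ 2 < v (ξ₃ / η₃) ^ 2 := by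
    have hle : v δ ^ 2 * (v ξ₁ * v ξ₂) * v ξ₃ ≤ v (ξ₃ / η₃) ^ 2 * v ξ₃ := by
      rw [k3, mul_assoc, ← hPi]
      exact k2
    have hle' : v δ ^ 2 * (v ξ₁ * v ξ₂) ≤ v (ξ₃ / η₃) ^ 2 := le_of_mul_le_mul_right hle hp3
    rcases eq_or_ne (v δ) 0 with h0 | h0
    · rw [h0, zero_pow two_ne_zero]
      have : v (ξ₃ / η₃) ≠ 0 := by
        rw [Valuation.ne_zero_iff]
        exact div_ne_zero (fun h0 => by rw [h0, map_zero] at hp3; exact lt_irrefl _ hp3) hη3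
      exact pow_pos (zero_lt_iff.mpr this) 2
    · have hpos : 0 < v δ ^ 2 := pow_pos (zero_lt_iff.mpr h0) 2
      exact lt_of_lt_of_le ((lt_mul_iff_one_lt_right hpos).mpr h12) hle'
  have k5 : v δ < v (ξ₃ / η₃) := lt_of_pow_lt_pow_left' 2 k4
  have k6 : v (ξ₁ / η₁ + ξ₂ / η₂) = v (ξ₃ / η₃) := by
    have : ξ₁ / η₁ + ξ₂ / η₂ = ξ₃ / η₃ - δ := by rw [hδ]; ring
    rw [this]
    exact Valuation.map_sub_eq_of_lt_left v k5
  rw [k6]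
  exact k5

end val

end Fermat.Agent.S05.helper1385
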