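import Fermat.Agent.S05.helper5_Spec
import Fermat.Agent.S05.helper1445_Top

/-!
# S05: adapter from the captain's spec (`helper5_Spec`) to the frozen statement (helper1445)

* `localStatement_of : GoodStmt → MultStmt → LocalStatement`
* `target_of : GoodStmt → MultStmt → TargetStmt` (board row 133, S05-TOP)

So `Fermat/Agent/S05.lean` is `target_of good mult P hq hq2 hqp` once `GoodStmt` and `MultStmt`
are proved.
-/

set_option autoImplicit false

namespace Fermat.Agent.S05.helper1445

open WeierstrassCurve WeierstrassCurve.Affine WeierstrassCurve.Affine.Point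
open Fermat.Agent.S05.helper305 (Shape)
open Fermat.Agent.S05.helper5

local notation "Qbar" => AlgebraicClosure ℚ

/-- A Legendre-type curve over `ℚ`, base changed to `Qbar`, has shape `(0, a₂, a₄)`. -/
theorem shape_legendre (W : WeierstrassCurve ℚ) (h1 : W.a₁ = 0) (h3 : W.a₃ = 0) (h6 : W.a₆ = 0) :
    Shape (W.map (algebraMap ℚ Qbar)) 0 (algebraMap ℚ Qbar W.a₂) (algebraMap ℚ Qbar W.a₄) where
  two_ne := two_ne_zero
  hb2 := by simp [WeierstrassCurve.b₂, h1]
  hb4 := by simp [WeierstrassCurve.b₄, h1, h3]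
  hb6 := by simp [WeierstrassCurve.b₆, h3, h6]

/-- The captain's `GoodStmt` and `MultStmt` imply the local statement used by `top`. -/
theorem localStatement_of (hG : GoodStmt) (hM : MultStmt) : LocalStatement := by
  intro A W h1 h3 h6 h4 ha2 ha4 hv2 hdisc σ hσ1 hσ2 n hn hn2 hvn hw P hP
  rcases P with _ | ⟨x, y, h⟩
  · rfl
  have hS := shape_legendre W h1 h3 h6
  -- the inertia element as a ring endomorphism
  have hσ' : ∀ z : Qbar, A.valuation z ≤ 1 →
      A.valuation (σ.toAlgHom.toRingHom z - z) < 1 := fun z hz =>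
    (A.mem_nonunits_iff).1 (hσ2 z ((A.valuation_le_one_iff z).1 hz))
  have hσe : σ.toAlgHom.toRingHom (0 : Qbar) = 0 := _root_.map_zero _
  have hσa1 : σ.toAlgHom.toRingHom (W.map (algebraMap ℚ Qbar)).a₁
      = (W.map (algebraMap ℚ Qbar)).a₁ := σ.commutes _
  have hσa3 : σ.toAlgHom.toRingHom (W.map (algebraMap ℚ Qbar)).a₃
      = (W.map (algebraMap ℚ Qbar)).a₃ := σ.commutes _
  -- the conjugate point
  have hmap : σ • (Point.some x y h : (W⁄Qbar).Point)
      = Point.some (σ x) (σ y) ((Affine.baseChange_nonsingular W σ.toAlgHom.injective x y).mpr h) := rfl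
  have hP' : n • (Point.some (σ x) (σ y)
      ((Affine.baseChange_nonsingular W σ.toAlgHom.injective x y).mpr h) : (W⁄Qbar).Point) = 0 := by
    rw [← hmap, algEquiv_smul_def, ← map_nsmul, hP, _root_.map_zero]
  have hval_a2 : A.valuation (algebraMap ℚ Qbar W.a₂) ≤ 1 := (A.valuation_le_one_iff _).2 ha2
  have hval_a4 : A.valuation (algebraMap ℚ Qbar W.a₄) ≤ 1 := (A.valuation_le_one_iff _).2 ha4
  have hdisc' : A.valuation ((algebraMap ℚ Qbar W.a₂) ^ 2 - 4 * (algebraMap ℚ Qbar W.a₄)) = 1 := by
    have : (algebraMap ℚ Qbar) (W.a₂ ^ 2 - 4 * W.a₄)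
        = (algebraMap ℚ Qbar W.a₂) ^ 2 - 4 * (algebraMap ℚ Qbar W.a₄) := by
      simp
    rw [← this]; exact hdisc
  have key : σ x = x ∧ σ y = y := by
    rcases eq_or_lt_of_le hval_a4 with hb1 | hblt
    · -- good reduction
      exact hG Qbar A.ValueGroup A.valuation (W.map (algebraMap ℚ Qbar)) 0 _ _ hS hv2 hval_a2 hb1
        hdisc' n hn hn2 hvn σ.toAlgHom.toRingHom hσ' hσe hσa1 hσa3 x y h _ hP hP'
    · -- multiplicative reduction
      rcases hw with hb1 | ⟨w, hw⟩
      · exact absurd hb1 (ne_of_lt hblt)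
      · have hwne : algebraMap ℚ Qbar w ≠ 0 := by
          intro h0
          rw [h0, _root_.map_zero, zero_pow hn.ne_zero] at hw
          have : algebraMap ℚ Qbar W.a₄ = 0 := (map_eq_zero _).1 hw
          exact h4 ((map_eq_zero _).1 this)
        have hwlt : A.valuation (algebraMap ℚ Qbar w) < 1 := by
          by_contra hcon
          rw [not_lt] at hcon
          have : (1 : A.ValueGroup) ≤ A.valuation (algebraMap ℚ Qbar w) ^ n := one_le_pow₀ hcon
          rw [← hw] at this
          exact absurd hblt (not_lt.2 this)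
        have hal : A.valuation (algebraMap ℚ Qbar W.a₂) = 1 := by
          have h4be : A.valuation (4 * algebraMap ℚ Qbar W.a₄) < 1 := by
            have h4 : A.valuation (4 : Qbar) ≤ 1 := by
              have : (4 : Qbar) = 2 * 2 := by norm_num
              rw [this, map_mul, hv2, one_mul]
            rw [map_mul]
            exact lt_of_le_of_lt (mul_le_of_le_one_left' h4) hblt
          have hsq : A.valuation ((algebraMap ℚ Qbar W.a₂) ^ 2) = 1 := by
            have e : (algebraMap ℚ Qbar W.a₂) ^ 2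
                = ((algebraMap ℚ Qbar W.a₂) ^ 2 - 4 * (algebraMap ℚ Qbar W.a₄))
                  + 4 * (algebraMap ℚ Qbar W.a₄) := by ring
            rw [e, Valuation.map_add_eq_of_lt_left _ (by rw [hdisc']; exact h4be), hdisc']
          rw [map_pow] at hsq
          exact (pow_eq_one_iff_of_nonneg zero_le two_ne_zero).1 hsq
        exact hM Qbar A.ValueGroup A.valuation (W.map (algebraMap ℚ Qbar)) 0 _ _ hS hv2 hal
          n hn hn2 hvn σ.toAlgHom.toRingHom hσ' hσe hσa1 hσa3 (algebraMap ℚ Qbar w)
          (σ.commutes w) hwne hwlt hw x y h _ hP hP'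
  rw [hmap]
  congr 1
  · exact key.1
  · exact key.2

/-- Board row 133 (S05-TOP): the frozen statement from `GoodStmt` and `MultStmt`. -/
theorem target_of (hG : GoodStmt) (hM : MultStmt) : TargetStmt :=
  fun P _ hq hq2 hqp => top (localStatement_of hG hM) P hq hq2 hqp

/-- The frozen statement S05 in its literal shape, from `GoodStmt` and `MultStmt`:
`Fermat/Agent/S05.lean` is `result_of good mult P hq hq2 hqp`. -/
theorem result_of (hG : GoodStmt) (hM : MultStmt) (P : FreyPackage) {q : ℕ} (hq : q.Prime)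
    (hq2 : q ≠ 2) (hqp : q ≠ P.p) : P.GaloisRepUnramifiedAt q :=
  target_of hG hM P hq hq2 hqp

end Fermat.Agent.S05.helper1445
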