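import Fermat.Agent.S05.helper305_Shape
import Fermat.Agent.S05.helper1745_XOnly

/-!
# Point-level x-only (Kummer) identities in shape coordinates (helper872, S05-KUM)

For a Weierstrass curve `W` over a field `K` with `Shape W e al be`
(so that in `ξ = x - e`, `η = y + (a₁ x + a₃)/2` the equation is `η² = ξ (ξ² + al ξ + be)`),
we restate the x-only addition, subtraction and duplication formulas of `helper1745_XOnly`
in the coordinate `ξ = x - e`:

* `ξ(P+Q) ξ(P-Q) (ξ₁-ξ₂)² = (ξ₁ξ₂ - be)²`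
* `(ξ(P+Q) + ξ(P-Q)) (ξ₁-ξ₂)² = 2 (ξ₁+ξ₂)(ξ₁ξ₂ + be) + 4 al ξ₁ξ₂`
* `ξ(2P) · 4 ξ (ξ² + al ξ + be) = (ξ² - be)²`

together with the small point-level facts needed to run inductions on `k • P`
(points with the same `x` are equal or opposite, characterisation of `2 • P = 0`, ...).
-/

set_option autoImplicit false

namespace Fermat.Agent.S05.helper872

open WeierstrassCurve WeierstrassCurve.Affine
open Fermat.Agent.S05.helper305 (Shape eta)

variable {K : Type*} [Field K] {W : WeierstrassCurve K} {e al be : K}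

/-! ### The `b`-invariants in shape coordinates -/

/-- `b₈` in shape coordinates. -/
theorem shape_b8 (hS : Shape W e al be) :
    W.b₈ = 3 * e ^ 4 - 4 * al * e ^ 3 + 6 * be * e ^ 2 - be ^ 2 := by
  have h2 := hS.two_ne
  have h4 : (4 : K) ≠ 0 := by
    have : (4 : K) = 2 * 2 := by norm_num
    rw [this]; exact mul_ne_zero h2 h2
  have hrel := W.b_relation
  rw [hS.hb2, hS.hb4, hS.hb6] at hrel
  apply mul_left_cancel₀ h4
  linear_combination hrel

/-- The 2-division cubic `4x³ + b₂x² + 2b₄x + b₆` in shape coordinates. -/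
theorem shape_cubic (hS : Shape W e al be) (x : K) :
    4 * x ^ 3 + W.b₂ * x ^ 2 + 2 * W.b₄ * x + W.b₆ =
      4 * (x - e) * ((x - e) ^ 2 + al * (x - e) + be) := by
  rw [hS.hb2, hS.hb4, hS.hb6]; ring

/-- The numerator `x⁴ - b₄x² - 2b₆x - b₈` of the duplication formula in shape coordinates,
after the shift by `e`. -/
theorem shape_dup_num (hS : Shape W e al be) (x : K) :
    x ^ 4 - W.b₄ * x ^ 2 - 2 * W.b₆ * x - W.b₈ -
        e * (4 * x ^ 3 + W.b₂ * x ^ 2 + 2 * W.b₄ * x + W.b₆) =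
      ((x - e) ^ 2 - be) ^ 2 := by
  rw [shape_b8 hS, hS.hb2, hS.hb4, hS.hb6]; ring

/-! ### Points with the same `x`-coordinate, negation, 2-torsion -/

/-- On the curve, `y - negY x y = 2 η`. -/
theorem sub_negY_eq_two_eta (hS : Shape W e al be) (x y : K) :
    y - W.toAffine.negY x y = 2 * eta W x y := by
  rw [helper305.two_mul_eta W hS.two_ne]; simp only [Affine.negY]; ring

/-- `y = negY x y` iff `η = 0`. -/
theorem eq_negY_iff_eta_eq_zero (hS : Shape W e al be) (x y : K) :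
    y = W.toAffine.negY x y ↔ eta W x y = 0 := by
  rw [← sub_eq_zero, sub_negY_eq_two_eta hS]
  constructor
  · intro h
    rcases mul_eq_zero.mp h with h | h
    · exact absurd h hS.two_ne
    · exact h
  · intro h; rw [h, mul_zero]

/-- `y = negY x y` iff `ξ (ξ² + al ξ + be) = 0` (for a point on the curve). -/
theorem eq_negY_iff_cubic_eq_zero (hS : Shape W e al be) {x y : K}
    (h : W.toAffine.Equation x y) :
    y = W.toAffine.negY x y ↔ (x - e) * ((x - e) ^ 2 + al * (x - e) + be) = 0 := by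
  rw [eq_negY_iff_eta_eq_zero hS, ← (hS.equation_iff x y).1 h]
  exact (sq_eq_zero_iff).symm

/-- The shape equation `η² = ξ (ξ² + al ξ + be)` at a nonsingular point. -/
theorem eta_sq (hS : Shape W e al be) {x y : K} (h : W.toAffine.Nonsingular x y) :
    eta W x y ^ 2 = (x - e) * ((x - e) ^ 2 + al * (x - e) + be) :=
  (hS.equation_iff x y).1 h.1

/-- Negation keeps the `x`-coordinate. -/
theorem neg_some_eq {x y : K} (h : W.toAffine.Nonsingular x y) :
    -(Point.some x y h : W.toAffine.Point) =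
      Point.some x (W.toAffine.negY x y) ((nonsingular_neg ..).mpr h) :=
  Point.neg_some h

/-- Two affine points with the same `x`-coordinate are equal or opposite. -/
theorem eq_or_eq_neg_of_X_eq {x₁ y₁ x₂ y₂ : K} (h₁ : W.toAffine.Nonsingular x₁ y₁)
    (h₂ : W.toAffine.Nonsingular x₂ y₂) (hx : x₁ = x₂) :
    (Point.some x₁ y₁ h₁ : W.toAffine.Point) = Point.some x₂ y₂ h₂ ∨
      (Point.some x₁ y₁ h₁ : W.toAffine.Point) = -Point.some x₂ y₂ h₂ := by
  subst hx
  rcases Y_eq_of_X_eq h₁.1 h₂.1 rfl with hy | hy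
  · left; subst hy; rfl
  · right; subst hy; rw [Point.neg_some]

variable [DecidableEq K]

/-- `P + Q = 0` for affine points iff they have the same `x` and opposite `y`. -/
theorem some_add_some_eq_zero_iff {x₁ y₁ x₂ y₂ : K} (h₁ : W.toAffine.Nonsingular x₁ y₁)
    (h₂ : W.toAffine.Nonsingular x₂ y₂) :
    (Point.some x₁ y₁ h₁ : W.toAffine.Point) + Point.some x₂ y₂ h₂ = 0 ↔
      x₁ = x₂ ∧ y₁ = W.toAffine.negY x₂ y₂ := by
  rw [add_eq_zero_iff_eq_neg, Point.neg_some, Point.some.injEq]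

/-- If the sum of two affine points is `0`, they have the same `x`-coordinate. -/
theorem X_eq_of_add_eq_zero {x₁ y₁ x₂ y₂ : K} (h₁ : W.toAffine.Nonsingular x₁ y₁)
    (h₂ : W.toAffine.Nonsingular x₂ y₂)
    (h0 : (Point.some x₁ y₁ h₁ : W.toAffine.Point) + Point.some x₂ y₂ h₂ = 0) : x₁ = x₂ :=
  ((some_add_some_eq_zero_iff h₁ h₂).1 h0).1

/-- If the difference of two affine points is `0`, they have the same `x`-coordinate. -/
theorem X_eq_of_sub_eq_zero {x₁ y₁ x₂ y₂ : K} (h₁ : W.toAffine.Nonsingular x₁ y₁)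
    (h₂ : W.toAffine.Nonsingular x₂ y₂)
    (h0 : (Point.some x₁ y₁ h₁ : W.toAffine.Point) - Point.some x₂ y₂ h₂ = 0) : x₁ = x₂ := by
  rw [sub_eq_zero] at h0
  exact (Point.some.inj h0).1

/-- `2 • P = 0` for an affine point iff `y = negY x y`. -/
theorem two_nsmul_eq_zero_iff {x y : K} (h : W.toAffine.Nonsingular x y) :
    2 • (Point.some x y h : W.toAffine.Point) = 0 ↔ y = W.toAffine.negY x y := by
  rw [two_nsmul, some_add_some_eq_zero_iff]
  exact ⟨fun h => h.2, fun h => ⟨rfl, h⟩⟩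

/-- `2 • P = 0` for an affine point iff `ξ (ξ² + al ξ + be) = 0`. -/
theorem two_nsmul_eq_zero_iff_shape (hS : Shape W e al be) {x y : K}
    (h : W.toAffine.Nonsingular x y) :
    2 • (Point.some x y h : W.toAffine.Point) = 0 ↔
      (x - e) * ((x - e) ^ 2 + al * (x - e) + be) = 0 := by
  rw [two_nsmul_eq_zero_iff, eq_negY_iff_cubic_eq_zero hS h.1]

/-! ### The x-only formulas in shape coordinates -/

/-- **x-only addition/subtraction formulas in shape coordinates.** For affine points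
`P = (x₁,y₁)`, `Q = (x₂,y₂)` with `x₁ ≠ x₂`, both `P + Q` and `P - Q` are affine and
their coordinates `ξ± = X± - e` satisfy the product and the sum formula. -/
theorem exists_add_sub_shape (hS : Shape W e al be) {x₁ y₁ x₂ y₂ : K}
    (h₁ : W.toAffine.Nonsingular x₁ y₁) (h₂ : W.toAffine.Nonsingular x₂ y₂) (hx : x₁ ≠ x₂) :
    ∃ (Xp Yp Xm Ym : K) (hp : W.toAffine.Nonsingular Xp Yp)
      (hm : W.toAffine.Nonsingular Xm Ym),
      (Point.some x₁ y₁ h₁ : W.toAffine.Point) + Point.some x₂ y₂ h₂ = Point.some Xp Yp hp ∧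
      (Point.some x₁ y₁ h₁ : W.toAffine.Point) - Point.some x₂ y₂ h₂ = Point.some Xm Ym hm ∧
      (Xp - e) * (Xm - e) * (x₁ - x₂) ^ 2 = ((x₁ - e) * (x₂ - e) - be) ^ 2 ∧
      ((Xp - e) + (Xm - e)) * (x₁ - x₂) ^ 2 =
        2 * ((x₁ - e) + (x₂ - e)) * ((x₁ - e) * (x₂ - e) + be) +
          4 * al * (x₁ - e) * (x₂ - e) := by
  obtain ⟨Xp, Yp, Xm, Ym, hp, hm, hadd, hsub, hprod, hsum⟩ :=
    helper1745.exists_add_sub_some h₁ h₂ hx
  refine ⟨Xp, Yp, Xm, Ym, hp, hm, hadd, hsub, ?_, ?_⟩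
  · rw [shape_b8 hS, hS.hb2, hS.hb4, hS.hb6] at *
    linear_combination hprod - e * hsum
  · rw [hS.hb2, hS.hb4, hS.hb6] at hsum
    linear_combination hsum

/-- **x-only duplication formula in shape coordinates** (`P + P` form). If `y ≠ negY x y`
(i.e. `2P ≠ 0`) then `2P` is affine and `ξ(2P) · 4 ξ (ξ² + al ξ + be) = (ξ² - be)²`;
moreover `ξ (ξ² + al ξ + be) ≠ 0`. -/
theorem exists_add_self_shape (hS : Shape W e al be) {x y : K}
    (h : W.toAffine.Nonsingular x y) (hy : y ≠ W.toAffine.negY x y) :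
    ∃ (X Y : K) (h' : W.toAffine.Nonsingular X Y),
      (Point.some x y h : W.toAffine.Point) + Point.some x y h = Point.some X Y h' ∧
      (X - e) * 4 * (x - e) * ((x - e) ^ 2 + al * (x - e) + be) = ((x - e) ^ 2 - be) ^ 2 ∧
      (x - e) * ((x - e) ^ 2 + al * (x - e) + be) ≠ 0 := by
  obtain ⟨X, Y, h', hadd, hdup, hne⟩ := helper1745.exists_add_self_some h hy
  refine ⟨X, Y, h', hadd, ?_, ?_⟩
  · have hnum := shape_dup_num hS x
    have hcub := shape_cubic hS x
    linear_combination hdup + hnum - (X - e) * hcub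
  · intro h0
    apply hne
    rw [shape_cubic hS, mul_assoc, h0, mul_zero]

/-- **x-only duplication formula in shape coordinates** (`2 • P` form). -/
theorem exists_two_nsmul_shape (hS : Shape W e al be) {x y : K}
    (h : W.toAffine.Nonsingular x y) (hy : y ≠ W.toAffine.negY x y) :
    ∃ (X Y : K) (h' : W.toAffine.Nonsingular X Y),
      2 • (Point.some x y h : W.toAffine.Point) = Point.some X Y h' ∧
      (X - e) * 4 * (x - e) * ((x - e) ^ 2 + al * (x - e) + be) = ((x - e) ^ 2 - be) ^ 2 ∧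
      (x - e) * ((x - e) ^ 2 + al * (x - e) + be) ≠ 0 := by
  obtain ⟨X, Y, h', hadd, hdup, hne⟩ := exists_add_self_shape hS h hy
  exact ⟨X, Y, h', by rw [two_nsmul]; exact hadd, hdup, hne⟩

/-- Duplication in terms of `η`: `ξ(2P) · 4 η² = (ξ² - be)²`. -/
theorem exists_two_nsmul_shape_eta (hS : Shape W e al be) {x y : K}
    (h : W.toAffine.Nonsingular x y) (hy : y ≠ W.toAffine.negY x y) :
    ∃ (X Y : K) (h' : W.toAffine.Nonsingular X Y),
      2 • (Point.some x y h : W.toAffine.Point) = Point.some X Y h' ∧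
      (X - e) * 4 * eta W x y ^ 2 = ((x - e) ^ 2 - be) ^ 2 ∧ eta W x y ≠ 0 := by
  obtain ⟨X, Y, h', hadd, hdup, -⟩ := exists_two_nsmul_shape hS h hy
  refine ⟨X, Y, h', hadd, ?_, fun h0 => hy ((eq_negY_iff_eta_eq_zero hS x y).2 h0)⟩
  rw [eta_sq hS h]
  linear_combination hdup

end Fermat.Agent.S05.helper872
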