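import Mathlib
import Fermat.Agent.S05.helper305_Shape
import Fermat.Agent.S05.helper872_Kummer

/-!
# Generalised NodeVal (helper1458): the unsigned tropical Kummer law

Setting: a Weierstrass curve `W` over a field `K` with `Shape W e al be`
(`η² = ξ (ξ² + al ξ + be)`, `ξ = x - e`), a valuation `v` on `K` with `v (4 * al) = 1`
and `0 < v be < 1` (a node at `ξ = 0`).  **No hypothesis `v 2 = 1` and no hypothesis on `v p`**:
the results can be used in residue characteristic `2` (for the model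
`y² + a₁xy = x³ + a₂x² + a₄x` take `e = 0`, `al = (a₁² + 4a₂)/4`, `be = a₄`) and at the
prime `p` itself.

Main results (`ξ(P) = x(P) - e`):

* `nodeVal_gen` : if `n` is odd, `n • T = 0` and `v ξ(T) < 1`, then `v be < v ξ(T)` and
  `v ξ(T) ^ n = v be ^ (2 j)` for some `j : ℤ`.
* `nodeVal` : the S05 interface `helper5.NodeValStmt` (not imported here; see
  `helper1458_NodeVal.lean`).

The proof only uses the x-only product/sum/duplication identities (`helper872_Kummer`).
Valuations are turned into an additive "log-valuation" `o : K → Γ` (junk value at `0`) so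
that all the tropical case analysis is linear arithmetic in an ordered abelian group.
-/

set_option autoImplicit false

namespace Fermat.Agent.S05.helper1458

/-! ## Part 1: pure tropical lemmas in an ordered abelian group -/

section tropical

variable {Γ : Type*} [AddCommGroup Γ] [LinearOrder Γ] [IsOrderedAddMonoid Γ]

/-- Clamp to the interval `[B, 0]` (additive notation; `B < 0` is the log-valuation of `be`). -/
def cl (x B : Γ) : Γ := min 0 (max x B)

omit [IsOrderedAddMonoid Γ] in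
theorem cl_of_nonneg {x B : Γ} (hB : B < 0) (hx : 0 ≤ x) : cl x B = 0 := by
  unfold cl; grind

omit [IsOrderedAddMonoid Γ] in
theorem cl_of_le {x B : Γ} (hB : B < 0) (hx : x ≤ B) : cl x B = B := by
  unfold cl; grind

omit [IsOrderedAddMonoid Γ] in
theorem cl_of_mid {x B : Γ} (h1 : B ≤ x) (h2 : x ≤ 0) : cl x B = x := by
  unfold cl; grind

/-- The conclusion of the tropical pair law: the two values `cp`, `cm` are, in some order,
`± (g - t)` and one of `g + t`, `2 B - g - t`. -/
def PairConcl (g t cp cm B : Γ) : Prop :=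
  ((cp + t = g ∨ cp + g = t) ∧ (cm = g + t ∨ cm + g + t = 2 • B)) ∨
  ((cm + t = g ∨ cm + g = t) ∧ (cp = g + t ∨ cp + g + t = 2 • B))

theorem trop_pair_nonneg (a b B d nP xp xm : Γ) (hB : B < 0) (hb : b < 0) (ha : 0 ≤ a)
    (hd2 : a ≠ b → d = max a b)
    (hn1 : nP ≤ max (a + b) B) (hn2 : a + b ≠ B → nP = max (a + b) B)
    (h1 : xp + xm + 2 • d = 2 • nP)
    (h2' : (xp = xm ∧ ¬ (max a b + max (a + b) B < a + b)) ∨
      ((xp ≠ xm → max xp xm + 2 • d ≤ max (a + b) (max a b + max (a + b) B)) ∧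
        (max a b + max (a + b) B < a + b → a + b ≤ max xp xm + 2 • d ∧
          (xp ≠ xm → max xp xm + 2 • d = a + b)))) :
    PairConcl (cl a B) (cl b B) (cl xp B) (cl xm B) B := by
  have hM : max a b = a := max_eq_left (by grind)
  have hd : d = a := by rw [← hM]; exact hd2 (by grind)
  rw [hM] at h2'
  rcases le_or_gt b B with hbB | hbB
  · -- `T` deep
    have hm2 : max (a + b) B ≤ a + B := by grind
    have hx : xp ≤ B ∧ xm ≤ B := by
      rcases h2' with ⟨h, -⟩ | ⟨h, -⟩
      · grind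
      · have : max (a + b) (a + max (a + b) B) ≤ a + (a + B) := by grind
        by_cases hxx : xp = xm
        · grind
        · have := h hxx
          grind
    rw [cl_of_nonneg hB ha, cl_of_le hB hbB, cl_of_le hB hx.1, cl_of_le hB hx.2]
    unfold PairConcl; grind
  · -- `T` in the middle
    have hm2 : max (a + b) B = a + b := by grind
    have hnP : nP = a + b := by rw [← hm2]; exact hn2 (by grind)
    rw [hm2] at h2'
    have hx : xp = b ∧ xm = b := by
      rcases h2' with ⟨h, -⟩ | ⟨h, -⟩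
      · grind
      · have : max (a + b) (a + (a + b)) = a + (a + b) := by grind
        rw [this] at h
        by_cases hxx : xp = xm
        · grind
        · have := h hxx
          grind
    rw [cl_of_nonneg hB ha, cl_of_mid hbB.le hb.le, hx.1, hx.2, cl_of_mid hbB.le hb.le]
    unfold PairConcl; grind

theorem trop_pair_neg (a b B d nP xp xm : Γ) (hB : B < 0) (hb : b < 0) (ha : a < 0)
    (hd1 : d ≤ max a b) (hd2 : a ≠ b → d = max a b)
    (hn1 : nP ≤ max (a + b) B) (hn2 : a + b ≠ B → nP = max (a + b) B)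
    (h1 : xp + xm + 2 • d = 2 • nP)
    (h2' : (xp = xm ∧ ¬ (max a b + max (a + b) B < a + b)) ∨
      ((xp ≠ xm → max xp xm + 2 • d ≤ max (a + b) (max a b + max (a + b) B)) ∧
        (max a b + max (a + b) B < a + b → a + b ≤ max xp xm + 2 • d ∧
          (xp ≠ xm → max xp xm + 2 • d = a + b)))) :
    PairConcl (cl a B) (cl b B) (cl xp B) (cl xm B) B := by
  rcases le_or_gt a B with haB | haB
  · -- a deep
    have hab : a + b < B := by grind
    have hm2 : max (a + b) B = B := max_eq_right hab.le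
    have hnP : nP = B := by rw [← hm2]; exact hn2 hab.ne
    rw [hm2] at h2'
    rcases le_or_gt b B with hbB | hbB
    · -- deep-deep
      have hM : max a b ≤ B := max_le haB hbB
      have hx : 0 ≤ xp ∧ 0 ≤ xm := by
        rcases h2' with ⟨h, -⟩ | ⟨h, -⟩
        · grind
        · have h3 : max (a + b) (max a b + B) ≤ B + B := by grind
          by_cases hxx : xp = xm
          · grind
          · have h4 := h hxx
            rcases le_total xp xm with hle | hle
            · rw [max_eq_right hle] at h4; grind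
            · rw [max_eq_left hle] at h4; grind
      rw [cl_of_le hB haB, cl_of_le hB hbB, cl_of_nonneg hB hx.1, cl_of_nonneg hB hx.2]
      unfold PairConcl; grind
    · -- deep-mid
      have hM : max a b = b := max_eq_right (by grind)
      have hd : d = b := by rw [← hM]; exact hd2 (by grind)
      rw [hM] at h2'
      have hx : xp = B - b ∧ xm = B - b := by
        rcases h2' with ⟨h, -⟩ | ⟨h, -⟩
        · grind
        · have h3 : max (a + b) (b + B) = b + B := by grind
          rw [h3] at h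
          by_cases hxx : xp = xm
          · grind
          · have h4 := h hxx
            rcases le_total xp xm with hle | hle
            · rw [max_eq_right hle] at h4; grind
            · rw [max_eq_left hle] at h4; grind
      have hmid : B ≤ B - b ∧ B - b ≤ 0 := by grind
      rw [cl_of_le hB haB, cl_of_mid hbB.le hb.le, hx.1, hx.2, cl_of_mid hmid.1 hmid.2]
      unfold PairConcl; grind
  · -- a mid
    rcases le_or_gt b B with hbB | hbB
    · -- mid-deep
      have hab : a + b < B := by grind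
      have hm2 : max (a + b) B = B := max_eq_right hab.le
      have hnP : nP = B := by rw [← hm2]; exact hn2 hab.ne
      rw [hm2] at h2'
      have hM : max a b = a := max_eq_left (by grind)
      have hd : d = a := by rw [← hM]; exact hd2 (by grind)
      rw [hM] at h2'
      have hx : xp = B - a ∧ xm = B - a := by
        rcases h2' with ⟨h, -⟩ | ⟨h, -⟩
        · grind
        · have h3 : max (a + b) (a + B) = a + B := by grind
          rw [h3] at h
          by_cases hxx : xp = xm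
          · grind
          · have h4 := h hxx
            rcases le_total xp xm with hle | hle
            · rw [max_eq_right hle] at h4; grind
            · rw [max_eq_left hle] at h4; grind
      have hmid : B ≤ B - a ∧ B - a ≤ 0 := by grind
      rw [cl_of_mid haB.le ha.le, cl_of_le hB hbB, hx.1, hx.2, cl_of_mid hmid.1 hmid.2]
      unfold PairConcl; grind
    · -- mid-mid
      have hstrict : max a b + max (a + b) B < a + b := by
        rcases le_total a b with hle | hle
        · rw [max_eq_right hle]; grind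
        · rw [max_eq_left hle]; grind
      have h2 : a + b ≤ max xp xm + 2 • d ∧ (xp ≠ xm → max xp xm + 2 • d = a + b) := by
        rcases h2' with ⟨-, h⟩ | ⟨-, h⟩
        · exact absurd hstrict h
        · exact h hstrict
      clear h2'
      have hnPlt : nP < a ∧ nP < b := by grind
      have hne : xp ≠ xm := by
        intro hxx
        subst hxx
        rw [max_self] at h2
        have := h2.1
        rcases le_total a b with hle | hle
        · rw [max_eq_right hle] at hd1; grind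
        · rw [max_eq_left hle] at hd1; grind
      have h3 := h2.2 hne
      -- the two roots: `a + b - 2 d` and `2 nP - a - b`
      have hroots : (xp = a + b - 2 • d ∧ xm = 2 • nP - a - b) ∨
          (xm = a + b - 2 • d ∧ xp = 2 • nP - a - b) := by
        rcases le_total xp xm with hle | hle
        · rw [max_eq_right hle] at h3; right; grind
        · rw [max_eq_left hle] at h3; left; grind
      -- clamp of the first root
      have hR : (cl (a + b - 2 • d) B + b = a ∨ cl (a + b - 2 • d) B + a = b) := by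
        rcases lt_trichotomy a b with hlt | heq | hgt
        · have hd : d = b := by rw [hd2 hlt.ne]; exact max_eq_right hlt.le
          subst hd
          rw [cl_of_mid (by grind) (by grind)]; grind
        · subst heq
          rw [max_self] at hd1
          rw [cl_of_nonneg hB (by grind)]; grind
        · have hd : d = a := by rw [hd2 hgt.ne']; exact max_eq_left hgt.le
          subst hd
          rw [cl_of_mid (by grind) (by grind)]; grind
      -- clamp of the second root
      have hS : (cl (2 • nP - a - b) B = a + b ∨ cl (2 • nP - a - b) B + a + b = 2 • B) := by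
        rcases lt_trichotomy (a + b) B with hlt | heq | hgt
        · have hnP : nP = B := by rw [hn2 hlt.ne]; exact max_eq_right hlt.le
          subst hnP
          rw [cl_of_mid (by grind) (by grind)]; grind
        · rw [heq, max_self] at hn1
          rw [cl_of_le hB (by grind)]; grind
        · have hnP : nP = a + b := by rw [hn2 hgt.ne']; exact max_eq_left hgt.le
          subst hnP
          rw [cl_of_mid (by grind) (by grind)]; grind
      rw [cl_of_mid haB.le ha.le, cl_of_mid hbB.le hb.le]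
      rcases hroots with ⟨h4, h5⟩ | ⟨h4, h5⟩
      · rw [h4, h5]; exact Or.inl ⟨hR, hS⟩
      · rw [h4, h5]; exact Or.inr ⟨hR, hS⟩

/-- **Tropical pair law**, pure ordered-group form.  `a, b, B, d, nP, xp, xm` are the
log-valuations of `ξ₁, ξ₂, be, ξ₁ - ξ₂, ξ₁ξ₂ - be, ξ(P+T), ξ(P-T)`. -/
theorem trop_pair (a b B d nP xp xm : Γ) (hB : B < 0) (hb : b < 0)
    (hd1 : d ≤ max a b) (hd2 : a ≠ b → d = max a b)
    (hn1 : nP ≤ max (a + b) B) (hn2 : a + b ≠ B → nP = max (a + b) B)
    (h1 : xp + xm + 2 • d = 2 • nP)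
    (h2 : (xp = xm ∧ ¬ (max a b + max (a + b) B < a + b)) ∨
      ∃ s nS, s ≤ max xp xm ∧ (xp ≠ xm → s = max xp xm) ∧ s + 2 • d = nS ∧
        nS ≤ max (a + b) (max a b + max (a + b) B) ∧
        (max a b + max (a + b) B < a + b → nS = a + b)) :
    PairConcl (cl a B) (cl b B) (cl xp B) (cl xm B) B := by
  -- a weaker, existential-free form of `h2`
  have h2' : (xp = xm ∧ ¬ (max a b + max (a + b) B < a + b)) ∨
      ((xp ≠ xm → max xp xm + 2 • d ≤ max (a + b) (max a b + max (a + b) B)) ∧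
        (max a b + max (a + b) B < a + b → a + b ≤ max xp xm + 2 • d ∧
          (xp ≠ xm → max xp xm + 2 • d = a + b))) := by
    rcases h2 with h | ⟨s, nS, hs1, hs2, hs3, hs4, hs5⟩
    · exact Or.inl h
    · right
      subst hs3
      refine ⟨fun h => ?_, fun h => ⟨?_, fun h' => ?_⟩⟩
      · rw [← hs2 h]; exact hs4
      · rw [← hs5 h]; exact add_le_add_left hs1 _
      · rw [← hs2 h']; exact hs5 h
  rcases le_or_gt 0 a with ha | ha
  · exact trop_pair_nonneg a b B d nP xp xm hB hb ha hd2 hn1 hn2 h1 h2'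
  · exact trop_pair_neg a b B d nP xp xm hB hb ha hd1 hd2 hn1 hn2 h1 h2'

/-- **Tropical duplication law.**  `b, B, nQ, n2, x` are the log-valuations of
`ξ, be, 4 (ξ² + al ξ + be), ξ² - be, ξ(2T)`. -/
theorem trop_dup (b B nQ n2 x : Γ) (hB : B < 0) (hb : b < 0)
    (hQ1 : B < b → nQ = b) (hQ2 : b ≤ B → nQ ≤ B)
    (hn1 : n2 ≤ max (2 • b) B) (hn2 : 2 • b ≠ B → n2 = max (2 • b) B)
    (h1 : x + b + nQ = 2 • n2) :
    cl x B = 2 • cl b B ∨ cl x B + 2 • cl b B = 2 • B := by
  unfold cl
  grind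


/-- `x` and `y` agree up to sign modulo `2 B ℤ`. -/
def Rel (B x y : Γ) : Prop :=
  x - y ∈ AddSubgroup.zmultiples (2 • B) ∨ x + y ∈ AddSubgroup.zmultiples (2 • B)

omit [LinearOrder Γ] [IsOrderedAddMonoid Γ] in
theorem Rel.symm {B x y : Γ} (h : Rel B x y) : Rel B y x := by
  rcases h with h | h
  · left
    have e : y - x = -(x - y) := by abel
    rw [e]; exact neg_mem h
  · right; rwa [add_comm]

omit [LinearOrder Γ] [IsOrderedAddMonoid Γ] in
theorem Rel.trans {B x y z : Γ} (h1 : Rel B x y) (h2 : Rel B y z) : Rel B x z := by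
  rcases h1 with h1 | h1 <;> rcases h2 with h2 | h2
  · left
    have e : x - z = (x - y) + (y - z) := by abel
    rw [e]; exact add_mem h1 h2
  · right
    have e : x + z = (x - y) + (y + z) := by abel
    rw [e]; exact add_mem h1 h2
  · right
    have e : x + z = (x + y) - (y - z) := by abel
    rw [e]; exact sub_mem h1 h2
  · left
    have e : x - z = (x + y) - (y + z) := by abel
    rw [e]; exact sub_mem h1 h2

omit [LinearOrder Γ] [IsOrderedAddMonoid Γ] in
theorem step_aux {B t g L r s : Γ} (hg : Rel B g (L + t)) (hr : r + t = g ∨ r + g = t)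
    (hs : s = g + t ∨ s + g + t = 2 • B) :
    (Rel B r L ∧ Rel B s (L + t + t)) ∨ (Rel B r (L + t + t) ∧ Rel B s L) := by
  have h2B : (2 • B) ∈ AddSubgroup.zmultiples (2 • B) := AddSubgroup.mem_zmultiples _
  rcases hg with hg | hg
  · left
    constructor
    · rcases hr with hr | hr
      · left
        have e : r - L = g - (L + t) := by rw [← hr]; abel
        rw [e]; exact hg
      · right
        have e : r + L = -(g - (L + t)) := by rw [← hr]; abel
        rw [e]; exact neg_mem hg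
    · rcases hs with hs | hs
      · left
        have e : s - (L + t + t) = g - (L + t) := by rw [hs]; abel
        rw [e]; exact hg
      · right
        have e : s + (L + t + t) = 2 • B - (g - (L + t)) := by rw [← hs]; abel
        rw [e]; exact sub_mem h2B hg
  · right
    constructor
    · rcases hr with hr | hr
      · right
        have e : r + (L + t + t) = g + (L + t) := by rw [← hr]; abel
        rw [e]; exact hg
      · left
        have e : r - (L + t + t) = -(g + (L + t)) := by rw [← hr]; abel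
        rw [e]; exact neg_mem hg
    · rcases hs with hs | hs
      · right
        have e : s + L = g + (L + t) := by rw [hs]; abel
        rw [e]; exact hg
      · left
        have e : s - L = 2 • B - (g + (L + t)) := by rw [← hs]; abel
        rw [e]; exact sub_mem h2B hg

omit [LinearOrder Γ] [IsOrderedAddMonoid Γ] in
/-- **Abstract induction.**  If a sequence `u` satisfies the tropical pair law against
`t = u 1`, then `u k ≈ k • t` up to sign modulo `2 B ℤ`. -/
theorem trop_induction (B t : Γ) (u : ℕ → Γ) (h0 : u 0 = 0) (h1 : u 1 = t)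
    (hstep : ∀ m : ℕ, PairConcl (u (m + 1)) t (u (m + 2)) (u m) B) :
    ∀ k : ℕ, Rel B (u k) (k • t) := by
  have key : ∀ k : ℕ, Rel B (u k) (k • t) ∧ Rel B (u (k + 1)) ((k + 1) • t) := by
    intro k
    induction k with
    | zero =>
      refine ⟨?_, ?_⟩
      · left; rw [h0, zero_nsmul, sub_zero]; exact zero_mem _
      · left; rw [h1, zero_add, one_nsmul, sub_self]; exact zero_mem _
    | succ m ih =>
      obtain ⟨ihm, ihm1⟩ := ih
      refine ⟨ihm1, ?_⟩
      have e1 : (m + 1) • t = m • t + t := succ_nsmul t m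
      have e2 : (m + 1 + 1) • t = m • t + t + t := by rw [succ_nsmul, succ_nsmul]
      rw [e1] at ihm1
      rw [e2]
      rcases hstep m with ⟨hr, hs⟩ | ⟨hr, hs⟩
      · -- `u (m+2)` is the `r`-value, `u m` the `s`-value
        rcases step_aux ihm1 hr hs with ⟨h3, h4⟩ | ⟨h3, -⟩
        · exact h3.trans (ihm.symm.trans h4)
        · exact h3
      · -- `u m` is the `r`-value, `u (m+2)` the `s`-value
        rcases step_aux ihm1 hr hs with ⟨-, h4⟩ | ⟨h3, h4⟩
        · exact h4
        · exact h4.trans (ihm.symm.trans h3)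
  exact fun k => (key k).1

end tropical

/-! ## Part 2: log-valuations and the field-level laws -/

section logval

variable {K : Type*} [Field K] {Γ : Type*} [AddCommGroup Γ] [LinearOrder Γ]

/-- An additive "log-valuation" on a field (`o x = log (v x)`), with an arbitrary (junk) value
at `0`; all axioms are restricted to nonzero arguments. -/
structure IsLogVal (o : K → Γ) : Prop where
  mul : ∀ x y : K, x ≠ 0 → y ≠ 0 → o (x * y) = o x + o y
  neg : ∀ x : K, o (-x) = o x
  add : ∀ x y : K, x ≠ 0 → y ≠ 0 → x + y ≠ 0 → o (x + y) ≤ max (o x) (o y)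

namespace IsLogVal

variable {o : K → Γ} (ho : IsLogVal o)
include ho

theorem one : o 1 = 0 := by
  have h := ho.mul 1 1 one_ne_zero one_ne_zero
  rw [mul_one] at h
  have h' : o 1 + 0 = o 1 + o 1 := by rw [add_zero]; exact h
  exact (add_left_cancel h').symm

theorem sq {x : K} (hx : x ≠ 0) : o (x ^ 2) = 2 • o x := by
  rw [pow_two, ho.mul x x hx hx, two_nsmul]

theorem sub_le {x y : K} (hx : x ≠ 0) (hy : y ≠ 0) (hxy : x - y ≠ 0) :
    o (x - y) ≤ max (o x) (o y) := by
  have h := ho.add x (-y) hx (neg_ne_zero.mpr hy) (by rwa [← sub_eq_add_neg])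
  rwa [← sub_eq_add_neg, ho.neg] at h

theorem add_eq_of_lt {x y : K} (hx : x ≠ 0) (hy : y ≠ 0) (h : o x < o y) :
    x + y ≠ 0 ∧ o (x + y) = o y := by
  have hne : x + y ≠ 0 := by
    intro h0
    have hy' : y = -x := by
      rw [eq_neg_iff_add_eq_zero, add_comm]; exact h0
    rw [hy', ho.neg] at h
    exact lt_irrefl _ h
  refine ⟨hne, le_antisymm ?_ ?_⟩
  · have h1 := ho.add x y hx hy hne
    rwa [max_eq_right h.le] at h1
  · have h1 := ho.add (x + y) (-x) hne (neg_ne_zero.mpr hx) (by simpa using hy)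
    have h2 : x + y + -x = y := by ring
    rw [h2, ho.neg] at h1
    rcases le_max_iff.mp h1 with h3 | h3
    · exact h3
    · exact absurd h3 (not_le.mpr h)

theorem add_eq_of_gt {x y : K} (hx : x ≠ 0) (hy : y ≠ 0) (h : o y < o x) :
    x + y ≠ 0 ∧ o (x + y) = o x := by
  have h1 := ho.add_eq_of_lt hy hx h
  rwa [add_comm] at h1

theorem sub_eq_of_lt {x y : K} (hx : x ≠ 0) (hy : y ≠ 0) (h : o x < o y) :
    x - y ≠ 0 ∧ o (x - y) = o y := by
  have h1 := ho.add_eq_of_lt hx (neg_ne_zero.mpr hy) (by rwa [ho.neg])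
  rwa [← sub_eq_add_neg, ho.neg] at h1

theorem sub_eq_of_gt {x y : K} (hx : x ≠ 0) (hy : y ≠ 0) (h : o y < o x) :
    x - y ≠ 0 ∧ o (x - y) = o x := by
  have h1 := ho.add_eq_of_gt hx (neg_ne_zero.mpr hy) (by rwa [ho.neg])
  rwa [← sub_eq_add_neg] at h1

theorem add_facts {x y : K} (hx : x ≠ 0) (hy : y ≠ 0) (hxy : x + y ≠ 0) :
    o (x + y) ≤ max (o x) (o y) ∧ (o x ≠ o y → o (x + y) = max (o x) (o y)) := by
  refine ⟨ho.add x y hx hy hxy, fun hne => ?_⟩
  rcases lt_or_gt_of_ne hne with h | h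
  · rw [max_eq_right h.le]; exact (ho.add_eq_of_lt hx hy h).2
  · rw [max_eq_left h.le]; exact (ho.add_eq_of_gt hx hy h).2

theorem sub_facts {x y : K} (hx : x ≠ 0) (hy : y ≠ 0) (hxy : x - y ≠ 0) :
    o (x - y) ≤ max (o x) (o y) ∧ (o x ≠ o y → o (x - y) = max (o x) (o y)) := by
  refine ⟨ho.sub_le hx hy hxy, fun hne => ?_⟩
  rcases lt_or_gt_of_ne hne with h | h
  · rw [max_eq_right h.le]; exact (ho.sub_eq_of_lt hx hy h).2
  · rw [max_eq_left h.le]; exact (ho.sub_eq_of_gt hx hy h).2

theorem two_le (h2 : (2 : K) ≠ 0) : o 2 ≤ 0 := by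
  have h := ho.add 1 1 one_ne_zero one_ne_zero (by rwa [one_add_one_eq_two])
  rwa [one_add_one_eq_two, ho.one, max_self] at h

theorem add3_le {x y z : K} (hx : x ≠ 0) (hy : y ≠ 0) (hz : z ≠ 0) (h : x + y + z ≠ 0) :
    o (x + y + z) ≤ max (max (o x) (o y)) (o z) := by
  by_cases hxy : x + y = 0
  · rw [hxy, zero_add]; exact le_max_right _ _
  · exact (ho.add (x + y) z hxy hz h).trans (max_le_max (ho.add x y hx hy hxy) le_rfl)

end IsLogVal

variable [IsOrderedAddMonoid Γ]

theorem IsLogVal.four_le {o : K → Γ} (ho : IsLogVal o) (h2 : (2 : K) ≠ 0) : o 4 ≤ 0 := by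
  have h4 : (4 : K) = 2 * 2 := by norm_num
  rw [h4, ho.mul 2 2 h2 h2]
  have h := ho.two_le h2
  grind

/-- **Field-level tropical pair law.**  `Xp`, `Xm` are the `ξ`-coordinates of `P + T`, `P - T`
(`ξ₁ = ξ(P)`, `ξ₂ = ξ(T)`), related by the product and the sum formula. -/
theorem pair_field {o : K → Γ} (ho : IsLogVal o) {al be ξ₁ ξ₂ Xp Xm : K} (h2 : (2 : K) ≠ 0)
    (hal0 : al ≠ 0) (hal : o (4 * al) = 0) (hbe0 : be ≠ 0) (hB : o be < 0)
    (hξ₁ : ξ₁ ≠ 0) (hξ₂ : ξ₂ ≠ 0) (hb : o ξ₂ < 0) (hne : ξ₁ ≠ ξ₂) (hXp : Xp ≠ 0) (hXm : Xm ≠ 0)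
    (hP : Xp * Xm * (ξ₁ - ξ₂) ^ 2 = (ξ₁ * ξ₂ - be) ^ 2)
    (hS : (Xp + Xm) * (ξ₁ - ξ₂) ^ 2 = 2 * (ξ₁ + ξ₂) * (ξ₁ * ξ₂ + be) + 4 * al * ξ₁ * ξ₂) :
    PairConcl (cl (o ξ₁) (o be)) (cl (o ξ₂) (o be)) (cl (o Xp) (o be)) (cl (o Xm) (o be))
      (o be) := by
  have h4 : (4 : K) ≠ 0 := by
    have e : (4 : K) = 2 * 2 := by norm_num
    rw [e]; exact mul_ne_zero h2 h2
  have h4al : 4 * al ≠ 0 := mul_ne_zero h4 hal0
  have hD : ξ₁ - ξ₂ ≠ 0 := sub_ne_zero.mpr hne
  have hD2 : (ξ₁ - ξ₂) ^ 2 ≠ 0 := pow_ne_zero 2 hD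
  have h12 : ξ₁ * ξ₂ ≠ 0 := mul_ne_zero hξ₁ hξ₂
  have hNP : ξ₁ * ξ₂ - be ≠ 0 := by
    intro h0
    have h3 : Xp * Xm * (ξ₁ - ξ₂) ^ 2 ≠ 0 := mul_ne_zero (mul_ne_zero hXp hXm) hD2
    apply h3
    rw [hP, h0]; ring
  have ho12 : o (ξ₁ * ξ₂) = o ξ₁ + o ξ₂ := ho.mul _ _ hξ₁ hξ₂
  -- the product formula
  have h1 : o Xp + o Xm + 2 • o (ξ₁ - ξ₂) = 2 • o (ξ₁ * ξ₂ - be) := by
    have h3 := congrArg o hP
    rwa [ho.mul _ _ (mul_ne_zero hXp hXm) hD2, ho.mul _ _ hXp hXm, ho.sq hD, ho.sq hNP] at h3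
  have hd := ho.sub_facts hξ₁ hξ₂ hD
  have hn := ho.sub_facts h12 hbe0 hNP
  rw [ho12] at hn
  -- the sum formula: `NS = T1 + T2`
  have hT2ne : 4 * al * ξ₁ * ξ₂ ≠ 0 := mul_ne_zero (mul_ne_zero h4al hξ₁) hξ₂
  have hoT2 : o (4 * al * ξ₁ * ξ₂) = o ξ₁ + o ξ₂ := by
    rw [mul_assoc, ho.mul _ _ h4al h12, hal, zero_add, ho12]
  have hT1le : 2 * (ξ₁ + ξ₂) * (ξ₁ * ξ₂ + be) ≠ 0 →
      o (2 * (ξ₁ + ξ₂) * (ξ₁ * ξ₂ + be)) ≤ max (o ξ₁) (o ξ₂) + max (o ξ₁ + o ξ₂) (o be) := by
    intro hT1ne
    have hs : ξ₁ + ξ₂ ≠ 0 := fun h => hT1ne (by rw [h]; ring)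
    have hq : ξ₁ * ξ₂ + be ≠ 0 := fun h => hT1ne (by rw [h]; ring)
    rw [ho.mul _ _ (mul_ne_zero h2 hs) hq, ho.mul _ _ h2 hs]
    have e1 := ho.two_le h2
    have e2 := ho.add _ _ hξ₁ hξ₂ hs
    have e3 := ho.add _ _ h12 hbe0 hq
    rw [ho12] at e3
    calc o 2 + o (ξ₁ + ξ₂) + o (ξ₁ * ξ₂ + be)
        ≤ 0 + max (o ξ₁) (o ξ₂) + max (o ξ₁ + o ξ₂) (o be) :=
          add_le_add (add_le_add e1 e2) e3
      _ = max (o ξ₁) (o ξ₂) + max (o ξ₁ + o ξ₂) (o be) := by rw [zero_add]
  have hNSle : 2 * (ξ₁ + ξ₂) * (ξ₁ * ξ₂ + be) + 4 * al * ξ₁ * ξ₂ ≠ 0 →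
      o (2 * (ξ₁ + ξ₂) * (ξ₁ * ξ₂ + be) + 4 * al * ξ₁ * ξ₂) ≤
        max (o ξ₁ + o ξ₂) (max (o ξ₁) (o ξ₂) + max (o ξ₁ + o ξ₂) (o be)) := by
    intro hne'
    by_cases hT1z : 2 * (ξ₁ + ξ₂) * (ξ₁ * ξ₂ + be) = 0
    · rw [hT1z, zero_add, hoT2]; exact le_max_left _ _
    · have h3 := ho.add _ _ hT1z hT2ne hne'
      rw [hoT2] at h3
      exact h3.trans (max_le (le_max_of_le_right (hT1le hT1z)) (le_max_left _ _))
  have hNSeq : max (o ξ₁) (o ξ₂) + max (o ξ₁ + o ξ₂) (o be) < o ξ₁ + o ξ₂ →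
      2 * (ξ₁ + ξ₂) * (ξ₁ * ξ₂ + be) + 4 * al * ξ₁ * ξ₂ ≠ 0 ∧
        o (2 * (ξ₁ + ξ₂) * (ξ₁ * ξ₂ + be) + 4 * al * ξ₁ * ξ₂) = o ξ₁ + o ξ₂ := by
    intro hlt
    by_cases hT1z : 2 * (ξ₁ + ξ₂) * (ξ₁ * ξ₂ + be) = 0
    · rw [hT1z, zero_add, hoT2]; exact ⟨hT2ne, rfl⟩
    · have h3 := ho.add_eq_of_lt hT1z hT2ne (by rw [hoT2]; exact (hT1le hT1z).trans_lt hlt)
      rwa [hoT2] at h3
  have h2' : (o Xp = o Xm ∧ ¬ (max (o ξ₁) (o ξ₂) + max (o ξ₁ + o ξ₂) (o be) < o ξ₁ + o ξ₂)) ∨
      ∃ s nS, s ≤ max (o Xp) (o Xm) ∧ (o Xp ≠ o Xm → s = max (o Xp) (o Xm)) ∧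
        s + 2 • o (ξ₁ - ξ₂) = nS ∧
        nS ≤ max (o ξ₁ + o ξ₂) (max (o ξ₁) (o ξ₂) + max (o ξ₁ + o ξ₂) (o be)) ∧
        (max (o ξ₁) (o ξ₂) + max (o ξ₁ + o ξ₂) (o be) < o ξ₁ + o ξ₂ → nS = o ξ₁ + o ξ₂) := by
    by_cases hS0 : Xp + Xm = 0
    · left
      refine ⟨?_, fun hlt => ?_⟩
      · have h3 : Xp = -Xm := eq_neg_of_add_eq_zero_left hS0
        rw [h3, ho.neg]
      · apply (hNSeq hlt).1
        rw [← hS, hS0, zero_mul]
    · right
      have hNSne : 2 * (ξ₁ + ξ₂) * (ξ₁ * ξ₂ + be) + 4 * al * ξ₁ * ξ₂ ≠ 0 := by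
        rw [← hS]; exact mul_ne_zero hS0 hD2
      have hf := ho.add_facts hXp hXm hS0
      refine ⟨o (Xp + Xm), o (2 * (ξ₁ + ξ₂) * (ξ₁ * ξ₂ + be) + 4 * al * ξ₁ * ξ₂), hf.1, hf.2, ?_,
        hNSle hNSne, fun hlt => (hNSeq hlt).2⟩
      have h3 := congrArg o hS
      rwa [ho.mul _ _ hS0 hD2, ho.sq hD] at h3
  exact trop_pair _ _ _ _ _ _ _ hB hb hd.1 hd.2 hn.1 hn.2 h1 h2'

/-- **Field-level tropical duplication law.**  `X` is the `ξ`-coordinate of `2 T`. -/
theorem dup_field {o : K → Γ} (ho : IsLogVal o) {al be ξ X : K} (h2 : (2 : K) ≠ 0)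
    (hal0 : al ≠ 0) (hal : o (4 * al) = 0) (hbe0 : be ≠ 0) (hB : o be < 0)
    (hξ : ξ ≠ 0) (hb : o ξ < 0) (hX : X ≠ 0) (hq : ξ ^ 2 + al * ξ + be ≠ 0)
    (hdup : X * 4 * ξ * (ξ ^ 2 + al * ξ + be) = (ξ ^ 2 - be) ^ 2) :
    cl (o X) (o be) = 2 • cl (o ξ) (o be) ∨
      cl (o X) (o be) + 2 • cl (o ξ) (o be) = 2 • o be := by
  have h4 : (4 : K) ≠ 0 := by
    have e : (4 : K) = 2 * 2 := by norm_num
    rw [e]; exact mul_ne_zero h2 h2
  have h4al : 4 * al ≠ 0 := mul_ne_zero h4 hal0
  have hξ2 : ξ ^ 2 ≠ 0 := pow_ne_zero 2 hξ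
  have hN : ξ ^ 2 - be ≠ 0 := by
    intro h0
    have h3 : X * 4 * ξ * (ξ ^ 2 + al * ξ + be) ≠ 0 :=
      mul_ne_zero (mul_ne_zero (mul_ne_zero hX h4) hξ) hq
    apply h3
    rw [hdup, h0]; ring
  have hQne : 4 * (ξ ^ 2 + al * ξ + be) ≠ 0 := mul_ne_zero h4 hq
  have h1 : o X + o ξ + o (4 * (ξ ^ 2 + al * ξ + be)) = 2 • o (ξ ^ 2 - be) := by
    have e : X * 4 * ξ * (ξ ^ 2 + al * ξ + be) = X * ξ * (4 * (ξ ^ 2 + al * ξ + be)) := by ring
    rw [e] at hdup
    have h3 := congrArg o hdup
    rwa [ho.mul _ _ (mul_ne_zero hX hξ) hQne, ho.mul _ _ hX hξ, ho.sq hN] at h3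
  have hn := ho.sub_facts hξ2 hbe0 hN
  rw [ho.sq hξ] at hn
  have ho4 := ho.four_le h2
  have ht1 : o (4 * ξ ^ 2) ≤ 2 • o ξ := by
    rw [ho.mul _ _ h4 hξ2, ho.sq hξ]; grind
  have ht2 : o (4 * al * ξ) = o ξ := by rw [ho.mul _ _ h4al hξ, hal, zero_add]
  have ht3 : o (4 * be) ≤ o be := by
    rw [ho.mul _ _ h4 hbe0]; grind
  have hQ1 : o be < o ξ → o (4 * (ξ ^ 2 + al * ξ + be)) = o ξ := by
    intro hlt
    have hQ'' : 4 * (ξ ^ 2 + al * ξ + be) = (4 * ξ ^ 2 + 4 * be) + 4 * al * ξ := by ring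
    by_cases hz : 4 * ξ ^ 2 + 4 * be = 0
    · rw [hQ'', hz, zero_add, ht2]
    · have hle := ho.add _ _ (mul_ne_zero h4 hξ2) (mul_ne_zero h4 hbe0) hz
      have hlt' : o (4 * ξ ^ 2 + 4 * be) < o (4 * al * ξ) := by
        rw [ht2]; grind
      rw [hQ'', (ho.add_eq_of_lt hz (mul_ne_zero h4al hξ) hlt').2, ht2]
  have hQ2 : o ξ ≤ o be → o (4 * (ξ ^ 2 + al * ξ + be)) ≤ o be := by
    intro hle
    have hQ' : 4 * (ξ ^ 2 + al * ξ + be) = 4 * ξ ^ 2 + 4 * al * ξ + 4 * be := by ring
    have h3 := ho.add3_le (mul_ne_zero h4 hξ2) (mul_ne_zero h4al hξ) (mul_ne_zero h4 hbe0)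
      (by rw [← hQ']; exact hQne)
    rw [← hQ', ht2] at h3
    grind
  exact trop_dup (o ξ) (o be) (o (4 * (ξ ^ 2 + al * ξ + be))) (o (ξ ^ 2 - be)) (o X) hB hb
    hQ1 hQ2 hn.1 hn.2 h1

end logval

/-! ## Part 3: points -/

section points

open WeierstrassCurve WeierstrassCurve.Affine
open Fermat.Agent.S05.helper305 (Shape)

variable {K : Type*} [Field K] {Γ : Type*} [AddCommGroup Γ] [LinearOrder Γ]
  {W : WeierstrassCurve K} {e al be : K}

/-- The `ξ`-coordinate `x - e` of a point (junk value `1` at infinity). -/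
def xi (W : WeierstrassCurve K) (e : K) : W.toAffine.Point → K
  | .zero => 1
  | .some x _ _ => x - e

/-- The clamped log-depth of a point: `0` at infinity, `cl (o (x - e)) (o be)` at `(x, y)`. -/
def depth (W : WeierstrassCurve K) (o : K → Γ) (e be : K) : W.toAffine.Point → Γ
  | .zero => 0
  | .some x _ _ => cl (o (x - e)) (o be)

@[simp] theorem xi_zero : xi W e (0 : W.toAffine.Point) = 1 := rfl

@[simp] theorem xi_some {x y : K} (h : W.toAffine.Nonsingular x y) :
    xi W e (Point.some x y h) = x - e := rfl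

@[simp] theorem depth_zero (o : K → Γ) : depth W o e be (0 : W.toAffine.Point) = 0 := rfl

@[simp] theorem depth_some (o : K → Γ) {x y : K} (h : W.toAffine.Nonsingular x y) :
    depth W o e be (Point.some x y h) = cl (o (x - e)) (o be) := rfl

variable [DecidableEq K]

omit [DecidableEq K] in
theorem xi_neg (P : W.toAffine.Point) : xi W e (-P) = xi W e P := by
  cases P with
  | zero => rfl
  | some x y h => rw [Point.neg_some]; rfl

omit [DecidableEq K] in
theorem depth_neg (o : K → Γ) (P : W.toAffine.Point) :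
    depth W o e be (-P) = depth W o e be P := by
  cases P with
  | zero => rfl
  | some x y h => rw [Point.neg_some]; rfl

/-- A point killed by `2` and by an odd number is `0`. -/
theorem eq_zero_of_odd_of_two {n : ℕ} (hn : Odd n) (Q : W.toAffine.Point) (hQ : n • Q = 0)
    (h2 : 2 • Q = 0) : Q = 0 := by
  obtain ⟨m, rfl⟩ := hn
  rwa [add_nsmul, mul_nsmul, h2, nsmul_zero, zero_add, one_nsmul] at hQ

/-- A point of odd order is not the 2-torsion point `ξ = 0`. -/
theorem xi_ne_zero_of_odd (hS : Shape W e al be) {n : ℕ} (hn : Odd n) (Q : W.toAffine.Point)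
    (hQ : n • Q = 0) : xi W e Q ≠ 0 := by
  cases Q with
  | zero => exact one_ne_zero
  | some x y h =>
    intro h0
    have h0' : x - e = 0 := h0
    have h2 : 2 • (Point.some x y h : W.toAffine.Point) = 0 := by
      rw [helper872.two_nsmul_eq_zero_iff_shape hS h, h0', zero_mul]
    exact Point.some_ne_zero h (eq_zero_of_odd_of_two hn _ hQ h2)

variable [IsOrderedAddMonoid Γ]

/-- **The unsigned tropical pair law at point level.**  `T = (x₂, y₂)` is a point near the
node (`o ξ(T) < 0`) with `2 T ≠ 0`; `P` is any point such that none of `P`, `P + T`, `P - T`,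
`2 T` is the 2-torsion point `ξ = 0`. -/
theorem pair_point {o : K → Γ} (ho : IsLogVal o) (hS : Shape W e al be) (hal0 : al ≠ 0)
    (hal : o (4 * al) = 0) (hbe0 : be ≠ 0) (hB : o be < 0) {x₂ y₂ : K}
    (h₂ : W.toAffine.Nonsingular x₂ y₂) (hξ₂ : x₂ - e ≠ 0) (hb : o (x₂ - e) < 0)
    (hy₂ : y₂ ≠ W.toAffine.negY x₂ y₂) (P : W.toAffine.Point) (hP : xi W e P ≠ 0)
    (hPp : xi W e (P + Point.some x₂ y₂ h₂) ≠ 0) (hPm : xi W e (P - Point.some x₂ y₂ h₂) ≠ 0)
    (h2T : xi W e (2 • (Point.some x₂ y₂ h₂ : W.toAffine.Point)) ≠ 0) :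
    PairConcl (depth W o e be P) (depth W o e be (Point.some x₂ y₂ h₂))
      (depth W o e be (P + Point.some x₂ y₂ h₂)) (depth W o e be (P - Point.some x₂ y₂ h₂))
      (o be) := by
  -- the duplication law for `T`
  have hdupT : depth W o e be (2 • (Point.some x₂ y₂ h₂ : W.toAffine.Point)) =
        2 • cl (o (x₂ - e)) (o be) ∨
      depth W o e be (2 • (Point.some x₂ y₂ h₂ : W.toAffine.Point)) +
        2 • cl (o (x₂ - e)) (o be) = 2 • o be := by
    obtain ⟨X, Y, h', h2eq, hdup, hne⟩ := helper872.exists_two_nsmul_shape hS h₂ hy₂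
    rw [h2eq] at h2T ⊢
    exact dup_field ho hS.two_ne hal0 hal hbe0 hB hξ₂ hb h2T (right_ne_zero_of_mul hne) hdup
  cases P with
  | zero =>
    have e1 : (Point.zero : W.toAffine.Point) = 0 := rfl
    rw [e1, zero_add, zero_sub, depth_neg]
    left
    exact ⟨Or.inr (by rw [depth_zero, add_zero]), Or.inl (by rw [depth_zero, zero_add])⟩
  | some x₁ y₁ h₁ =>
    by_cases hx : x₁ = x₂
    · rcases helper872.eq_or_eq_neg_of_X_eq h₁ h₂ hx with hPT | hPT
      · -- `P = T`
        rw [hPT, sub_self, ← two_nsmul, depth_zero, depth_some]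
        right
        refine ⟨Or.inl (zero_add _), ?_⟩
        rcases hdupT with h3 | h3
        · left; rw [h3, two_nsmul]
        · right; rw [← h3, two_nsmul]; abel
      · -- `P = -T`
        have e2 : -(Point.some x₂ y₂ h₂ : W.toAffine.Point) - Point.some x₂ y₂ h₂ =
            -(2 • (Point.some x₂ y₂ h₂ : W.toAffine.Point)) := by
          rw [two_nsmul]; abel
        rw [hPT, neg_add_cancel, e2, depth_neg, depth_neg, depth_zero, depth_some]
        left
        refine ⟨Or.inl (zero_add _), ?_⟩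
        rcases hdupT with h3 | h3
        · left; rw [h3, two_nsmul]
        · right; rw [← h3, two_nsmul]; abel
    · obtain ⟨Xp, Yp, Xm, Ym, hp, hm, hadd, hsub, hprod, hsum⟩ :=
        helper872.exists_add_sub_shape hS h₁ h₂ hx
      rw [hadd] at hPp ⊢
      rw [hsub] at hPm ⊢
      have hprod' : (Xp - e) * (Xm - e) * ((x₁ - e) - (x₂ - e)) ^ 2 =
          ((x₁ - e) * (x₂ - e) - be) ^ 2 := by rw [← hprod]; ring
      have hsum' : ((Xp - e) + (Xm - e)) * ((x₁ - e) - (x₂ - e)) ^ 2 =
          2 * ((x₁ - e) + (x₂ - e)) * ((x₁ - e) * (x₂ - e) + be) +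
            4 * al * (x₁ - e) * (x₂ - e) := by rw [← hsum]; ring
      exact pair_field ho hS.two_ne hal0 hal hbe0 hB hP hξ₂ hb
        (fun h => hx (by linear_combination h)) hPp hPm hprod' hsum'

/-- **Depths of all multiples.**  If `T = (x, y)` has odd order dividing `n` and lies near the
node, then the clamped depth of `k • T` is `± k • t` modulo `2 B ℤ` (`t` the depth of `T`). -/
theorem depth_multiples {o : K → Γ} (ho : IsLogVal o) (hS : Shape W e al be) (hal0 : al ≠ 0)
    (hal : o (4 * al) = 0) (hbe0 : be ≠ 0) (hB : o be < 0) {n : ℕ} (hn : Odd n) {x y : K}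
    (h : W.toAffine.Nonsingular x y) (hT : n • (Point.some x y h : W.toAffine.Point) = 0)
    (hb : o (x - e) < 0) (k : ℕ) :
    Rel (o be) (depth W o e be (k • (Point.some x y h : W.toAffine.Point)))
      (k • cl (o (x - e)) (o be)) := by
  have good : ∀ k : ℕ, xi W e (k • (Point.some x y h : W.toAffine.Point)) ≠ 0 := by
    intro k
    apply xi_ne_zero_of_odd hS hn
    rw [← mul_nsmul, mul_comm, mul_nsmul, hT, nsmul_zero]
  have hξ : x - e ≠ 0 := by
    have h1 := good 1
    rwa [one_nsmul] at h1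
  have hy : y ≠ W.toAffine.negY x y := by
    intro hy
    exact Point.some_ne_zero h (eq_zero_of_odd_of_two hn _ hT
      ((helper872.two_nsmul_eq_zero_iff h).mpr hy))
  refine trop_induction (o be) (cl (o (x - e)) (o be))
    (fun k => depth W o e be (k • (Point.some x y h : W.toAffine.Point))) ?_ ?_ ?_ k
  · show depth W o e be (0 • (Point.some x y h : W.toAffine.Point)) = 0
    rw [zero_nsmul]; rfl
  · show depth W o e be (1 • (Point.some x y h : W.toAffine.Point)) = _
    rw [one_nsmul]; rfl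
  · intro m
    show PairConcl (depth W o e be ((m + 1) • (Point.some x y h : W.toAffine.Point)))
      (cl (o (x - e)) (o be)) (depth W o e be ((m + 2) • (Point.some x y h : W.toAffine.Point)))
      (depth W o e be (m • (Point.some x y h : W.toAffine.Point))) (o be)
    have e1 : (m + 1) • (Point.some x y h : W.toAffine.Point) + Point.some x y h =
        (m + 2) • (Point.some x y h : W.toAffine.Point) := (succ_nsmul _ (m + 1)).symm
    have e2 : (m + 1) • (Point.some x y h : W.toAffine.Point) - Point.some x y h =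
        m • (Point.some x y h : W.toAffine.Point) := by
      rw [succ_nsmul, add_sub_cancel_right]
    have h3 := pair_point ho hS hal0 hal hbe0 hB h hξ hb hy
      ((m + 1) • (Point.some x y h : W.toAffine.Point)) (good (m + 1))
      (by rw [e1]; exact good (m + 2)) (by rw [e2]; exact good m) (good 2)
    rw [e1, e2] at h3
    exact h3

/-- **Generalised NodeVal, additive form.** -/
theorem nodeVal_add {o : K → Γ} (ho : IsLogVal o) (hS : Shape W e al be) (hal0 : al ≠ 0)
    (hal : o (4 * al) = 0) (hbe0 : be ≠ 0) (hB : o be < 0) {n : ℕ} (hn : Odd n) {x y : K}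
    (h : W.toAffine.Nonsingular x y) (hT : n • (Point.some x y h : W.toAffine.Point) = 0)
    (hb : o (x - e) < 0) :
    o be < o (x - e) ∧ ∃ j : ℤ, n • o (x - e) = j • (2 • o be) := by
  have hk := depth_multiples ho hS hal0 hal hbe0 hB hn h hT hb n
  rw [hT, depth_zero] at hk
  have hmem : n • cl (o (x - e)) (o be) ∈ AddSubgroup.zmultiples (2 • o be) := by
    rcases hk with h1 | h1
    · rw [zero_sub] at h1
      have h2 := neg_mem h1
      rwa [neg_neg] at h2
    · rwa [zero_add] at h1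
  obtain ⟨j, hj⟩ := AddSubgroup.mem_zmultiples_iff.mp hmem
  rcases le_or_gt (o (x - e)) (o be) with hle | hlt
  · exfalso
    rw [cl_of_le hB hle] at hj
    -- `j • (2 • B) = n • B` with `n` odd and `B < 0`
    have h3 : (2 * j - (n : ℤ)) • o be = 0 := by
      rw [sub_smul, mul_comm, mul_smul, natCast_zsmul, ← hj, ofNat_zsmul, sub_self]
    rcases smul_eq_zero.mp h3 with h4 | h4
    · obtain ⟨m, rfl⟩ := hn
      push_cast at h4
      omega
    · exact hB.ne h4
  · refine ⟨hlt, j, ?_⟩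
    rw [cl_of_mid hlt.le hb.le] at hj
    exact hj.symm

end points

/-! ## Part 4: valuations -/

section valuation

open WeierstrassCurve WeierstrassCurve.Affine
open Fermat.Agent.S05.helper305 (Shape)

variable {K : Type*} [Field K] {Γ₀ : Type*} [LinearOrderedCommGroupWithZero Γ₀]

/-- The log-valuation attached to a valuation `v`: `logOf v x` is `v x` viewed in
`Additive Γ₀ˣ` (junk value `0` at `x = 0`). -/
noncomputable def logOf (v : Valuation K Γ₀) (x : K) : Additive Γ₀ˣ :=
  haveI := Classical.propDecidable (x = 0)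
  if hx : x = 0 then 0
  else Additive.ofMul (Units.mk0 (v x) ((Valuation.ne_zero_iff v).mpr hx))

theorem logOf_of_ne (v : Valuation K Γ₀) {x : K} (hx : x ≠ 0) :
    logOf v x = Additive.ofMul (Units.mk0 (v x) ((Valuation.ne_zero_iff v).mpr hx)) := by
  unfold logOf
  exact dif_neg hx

theorem logOf_le_iff (v : Valuation K Γ₀) {x y : K} (hx : x ≠ 0) (hy : y ≠ 0) :
    logOf v x ≤ logOf v y ↔ v x ≤ v y := by
  rw [logOf_of_ne v hx, logOf_of_ne v hy, Additive.ofMul_le, ← Units.val_le_val]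
  rfl

theorem logOf_lt_iff (v : Valuation K Γ₀) {x y : K} (hx : x ≠ 0) (hy : y ≠ 0) :
    logOf v x < logOf v y ↔ v x < v y := by
  rw [← not_le, ← not_le, logOf_le_iff v hy hx]

theorem isLogVal_logOf (v : Valuation K Γ₀) : IsLogVal (logOf v) where
  mul x y hx hy := by
    rw [logOf_of_ne v hx, logOf_of_ne v hy, logOf_of_ne v (mul_ne_zero hx hy), ← ofMul_mul]
    congr 1
    ext
    simp
  neg x := by
    by_cases hx : x = 0
    · rw [hx, neg_zero]
    · rw [logOf_of_ne v hx, logOf_of_ne v (neg_ne_zero.mpr hx)]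
      congr 1
      ext
      simp
  add x y hx hy hxy := by
    rw [le_max_iff, logOf_le_iff v hxy hx, logOf_le_iff v hxy hy, ← le_max_iff]
    exact v.map_add x y

theorem logOf_eq_zero (v : Valuation K Γ₀) {x : K} (hx : v x = 1) : logOf v x = 0 := by
  have hx0 : x ≠ 0 := by
    intro h0
    rw [h0, map_zero] at hx
    exact zero_ne_one hx
  rw [logOf_of_ne v hx0]
  have h1 : Units.mk0 (v x) ((Valuation.ne_zero_iff v).mpr hx0) = 1 := by
    ext
    simpa using hx
  rw [h1]
  rfl

theorem logOf_neg_of_lt (v : Valuation K Γ₀) {x : K} (hx0 : x ≠ 0) (hx : v x < 1) :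
    logOf v x < 0 := by
  have h1 : logOf v x < logOf v 1 := (logOf_lt_iff v hx0 one_ne_zero).mpr (by rwa [map_one])
  rwa [logOf_eq_zero v (map_one v)] at h1

variable [DecidableEq K]

/-- **Generalised NodeVal.**  `W` has shape `η² = ξ (ξ² + al ξ + be)` with `v (4 al) = 1`
(no hypothesis on `v 2`) and `0 < v be < 1`.  If `T = (x, y)` is a point of odd order dividing
`n` (no hypothesis on `v n`) near the node, `v (x - e) < 1`, then `v be < v (x - e)` and
`v (x - e) ^ n = v be ^ (2 j)` for some `j : ℤ`. -/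
theorem nodeVal_gen (v : Valuation K Γ₀) (W : WeierstrassCurve K) (e al be : K)
    (hS : Shape W e al be) (hal : v (4 * al) = 1) (hbe : v be < 1) (hbe0 : be ≠ 0)
    (n : ℕ) (hn : Odd n) (x y : K) (h : W.toAffine.Nonsingular x y) (hx : v (x - e) < 1)
    (hT : n • (Point.some x y h : W.toAffine.Point) = 0) :
    v be < v (x - e) ∧ ∃ j : ℤ, v (x - e) ^ n = v be ^ (2 * j) := by
  have ho := isLogVal_logOf v
  have h4al : 4 * al ≠ 0 := by
    intro h0
    rw [h0, map_zero] at hal
    exact zero_ne_one hal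
  have hal0 : al ≠ 0 := right_ne_zero_of_mul h4al
  have hξ : x - e ≠ 0 := by
    have h1 := xi_ne_zero_of_odd hS hn (Point.some x y h) hT
    rwa [xi_some] at h1
  obtain ⟨h1, j, hj⟩ := nodeVal_add ho hS hal0 (logOf_eq_zero v hal) hbe0
    (logOf_neg_of_lt v hbe0 hbe) hn h hT (logOf_neg_of_lt v hξ hx)
  refine ⟨(logOf_lt_iff v hbe0 hξ).mp h1, j, ?_⟩
  rw [logOf_of_ne v hξ, logOf_of_ne v hbe0] at hj
  have hj' := congrArg (fun g : Additive Γ₀ˣ => ((Additive.toMul g : Γ₀ˣ) : Γ₀)) hj
  simp only [toMul_nsmul, toMul_zsmul, toMul_ofMul, Units.val_pow_eq_pow_val,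
    Units.val_zpow_eq_zpow_val, Units.val_mk0] at hj'
  rw [hj', ← zpow_natCast (v be) 2, ← zpow_mul]
  rfl

end valuation

end Fermat.Agent.S05.helper1458
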