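import Mathlib
import Fermat.Agent.S05.helper5_Spec
import Fermat.Agent.S05.helper1458_NodeValGen

/-!
# S05-NODEVAL (helper1458): `helper5.NodeValStmt` from the generalised NodeVal

`nodeVal : helper5.NodeValStmt` is an immediate corollary of
`helper1458.nodeVal_gen` (which needs neither `v 2 = 1` nor `v p = 1`, only `v (4 * al) = 1`
and `p` odd).
-/

set_option autoImplicit false

namespace Fermat.Agent.S05.helper1458

open WeierstrassCurve WeierstrassCurve.Affine
open Fermat.Agent.S05.helper305 (Shape)

/-- **S05-NODEVAL**: the captain's `NodeValStmt`, unconditionally. -/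
theorem nodeVal : helper5.NodeValStmt := by
  intro K _ _ Γ₀ _ v W e al be hS hv2 hal hbe hbe0 p hp hp2 _ x y h hx hT
  have h4 : v (4 * al) = 1 := by
    have e4 : (4 : K) = 2 * 2 := by norm_num
    rw [e4, map_mul, map_mul, hv2, hal, mul_one, mul_one]
  exact nodeVal_gen v W e al be hS h4 hbe hbe0 p (hp.odd_of_ne_two hp2) x y h hx hT

/-- Board row 131 shape (`KerStmt` is not needed). -/
theorem nodeVal_of_ker (_hK : helper5.KerStmt) : helper5.NodeValStmt := nodeVal

end Fermat.Agent.S05.helper1458
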