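import Mathlib

set_option autoImplicit false

/-!
# Abstract x-line argument for S05 (helper160)

`IsKData X Y al be` packages the x-only group law identities of a curve
`Y² = X (X² + al X + be)` on an abstract abelian group `G` (the origin being the only point
at infinity).  For a valuation `v` on the field `K` we prove:

* `E1_no_torsion`: a nonzero `p`-torsion point (`p` an odd prime with `v p = 1`) has `v (X T) ≤ 1`;
* `fixed_of_unit`, `fixed_of_mid`: the two endgames;
* `main`: every `p`-torsion point is fixed by a compatible automorphism acting trivially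
  modulo the maximal ideal.
-/

namespace Fermat.Agent.S05.helper160

/-- Abstract x-line data of a curve `Y² = X (X² + al X + be)` on an abelian group `G`. -/
structure IsKData {G : Type*} [AddCommGroup G] {K : Type*} [Field K] (X Y : G → K) (al be : K) :
    Prop where
  X_neg : ∀ P, X (-P) = X P
  Y_neg : ∀ P, Y (-P) = -Y P
  curve : ∀ P, P ≠ 0 → Y P ^ 2 = X P * (X P ^ 2 + al * X P + be)
  inj : ∀ P Q, P ≠ 0 → Q ≠ 0 → X P = X Q → P = Q ∨ P = -Q
  add_prod : ∀ P Q, P ≠ 0 → Q ≠ 0 → X P ≠ X Q →
    X (P + Q) * X (P - Q) * (X P - X Q) ^ 2 = (X P * X Q - be) ^ 2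
  add_sum : ∀ P Q, P ≠ 0 → Q ≠ 0 → X P ≠ X Q →
    (X (P + Q) + X (P - Q)) * (X P - X Q) ^ 2 =
      2 * X P * X Q * (X P + X Q) + 4 * al * X P * X Q + 2 * be * (X P + X Q)
  dbl : ∀ P, P ≠ 0 → P + P ≠ 0 →
    X (P + P) * (4 * X P * (X P ^ 2 + al * X P + be)) = (X P ^ 2 - be) ^ 2

section grp

variable {G : Type*} [AddCommGroup G]

theorem nsmul_ne_zero_of_not_dvd {p : ℕ} (hp : p.Prime) {T : G} (hT : T ≠ 0) (hpT : p • T = 0)
    {m : ℕ} (hm : ¬ p ∣ m) : m • T ≠ 0 := by
  have := Fact.mk hp
  have h := addOrderOf_eq_prime hpT hT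
  intro h0
  exact hm (h ▸ addOrderOf_dvd_of_nsmul_eq_zero h0)

theorem nsmul_ne_zero_of_lt {p : ℕ} (hp : p.Prime) {T : G} (hT : T ≠ 0) (hpT : p • T = 0)
    {m : ℕ} (hm1 : 1 ≤ m) (hmp : m < p) : m • T ≠ 0 :=
  nsmul_ne_zero_of_not_dvd hp hT hpT (Nat.not_dvd_of_pos_of_lt hm1 hmp)

end grp

section val

variable {K : Type*} [Field K] {Γ₀ : Type*} [LinearOrderedCommGroupWithZero Γ₀]
variable (v : Valuation K Γ₀)

theorem vle1_nat (n : ℕ) : v (n : K) ≤ 1 :=
  (Valuation.mem_integer_iff v _).1 (natCast_mem v.integer n)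

theorem vle1_ofNat (n : ℕ) [n.AtLeastTwo] : v (OfNat.ofNat n : K) ≤ 1 := by
  rw [← Nat.cast_ofNat]; exact vle1_nat v n

theorem vle1_one : v (1 : K) ≤ 1 := v.map_one.le

variable {v}

theorem vle1_mul {x y : K} (hx : v x ≤ 1) (hy : v y ≤ 1) : v (x * y) ≤ 1 := by
  rw [map_mul]; exact mul_le_one' hx hy

theorem vle1_add {x y : K} (hx : v x ≤ 1) (hy : v y ≤ 1) : v (x + y) ≤ 1 := v.map_add_le hx hy

theorem vle1_sub {x y : K} (hx : v x ≤ 1) (hy : v y ≤ 1) : v (x - y) ≤ 1 := v.map_sub_le hx hy

theorem vle1_neg {x : K} (hx : v x ≤ 1) : v (-x) ≤ 1 := by rwa [Valuation.map_neg]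

theorem vle1_pow {x : K} (hx : v x ≤ 1) (n : ℕ) : v (x ^ n) ≤ 1 := by
  rw [map_pow]; exact pow_le_one' hx n

theorem vle_mul_left {x y : K} {g : Γ₀} (hx : v x ≤ 1) (hy : v y ≤ g) : v (x * y) ≤ g := by
  rw [map_mul]
  calc v x * v y ≤ 1 * g := mul_le_mul' hx hy
    _ = g := one_mul g

theorem vle_mul_right {x y : K} {g : Γ₀} (hx : v x ≤ g) (hy : v y ≤ 1) : v (x * y) ≤ g := by
  rw [mul_comm]; exact vle_mul_left hy hx

theorem vlt_mul_left {x y : K} {g : Γ₀} (hx : v x ≤ 1) (hy : v y < g) : v (x * y) < g := by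
  rw [map_mul]
  calc v x * v y ≤ 1 * v y := mul_le_mul' hx le_rfl
    _ = v y := one_mul _
    _ < g := hy

theorem vlt_mul_right {x y : K} {g : Γ₀} (hx : v x < g) (hy : v y ≤ 1) : v (x * y) < g := by
  rw [mul_comm]; exact vlt_mul_left hy hx

/-- One step of the `ζ`-recursion in the kernel of reduction. -/
theorem zeta_step {al be z w₁ wm wp a c : K} (hz : v z < 1) (hal : v al ≤ 1) (hbe : v be ≤ 1)
    (ha : v a ≤ 1) (h1 : v (w₁ - a) ≤ v z) (hm : v (wm - c) ≤ v z)
    (hrel : (wp + wm) * (1 - be * w₁ * z ^ 2) ^ 2 =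
      2 * (w₁ + 1) + 4 * al * w₁ * z + 2 * be * w₁ * z ^ 2 * (w₁ + 1)) :
    v (wp - (2 * a + 2 - c)) ≤ v z := by
  have hw1 : v w₁ ≤ 1 := by
    have : w₁ = (w₁ - a) + a := by ring
    rw [this]; exact v.map_add_le (h1.trans hz.le) ha
  have hz1 : v z ≤ 1 := hz.le
  have h2 : v (2 : K) ≤ 1 := vle1_ofNat v 2
  have h4 : v (4 : K) ≤ 1 := vle1_ofNat v 4
  have hu : v (be * w₁ * z ^ 2) < 1 := by
    have : be * w₁ * z ^ 2 = (be * w₁ * z) * z := by ring
    rw [this]
    exact vlt_mul_left (vle1_mul (vle1_mul hbe hw1) hz1) hz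
  have hD : v (1 - be * w₁ * z ^ 2) = 1 := v.map_one_sub_of_lt hu
  have key : (wp + wm - 2 * (w₁ + 1)) * (1 - be * w₁ * z ^ 2) ^ 2 =
      z * (4 * al * w₁ + 2 * be * w₁ * z * (w₁ + 1) +
        2 * (w₁ + 1) * (2 * be * w₁ * z - be ^ 2 * w₁ ^ 2 * z ^ 3)) := by
    linear_combination hrel
  have hE : v (4 * al * w₁ + 2 * be * w₁ * z * (w₁ + 1) +
        2 * (w₁ + 1) * (2 * be * w₁ * z - be ^ 2 * w₁ ^ 2 * z ^ 3)) ≤ 1 := by
    repeat' first
      | assumption
      | exact vle1_one v
      | apply vle1_add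
      | apply vle1_sub
      | apply vle1_mul
      | apply vle1_pow
  have h3 : v (wp + wm - 2 * (w₁ + 1)) ≤ v z := by
    have := congrArg v key
    rw [map_mul, map_pow, hD, one_pow, mul_one, map_mul] at this
    rw [this]
    calc v z * _ ≤ v z * 1 := mul_le_mul' le_rfl hE
      _ = v z := mul_one _
  have : wp - (2 * a + 2 - c) = (wp + wm - 2 * (w₁ + 1)) - (wm - c) + 2 * (w₁ - a) := by ring
  rw [this]
  exact v.map_add_le (v.map_sub_le h3 hm) (vle_mul_left h2 h1)

/-- Conversion of the sum/product formulas to the `ζ`-form. -/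
theorem zeta_rel {al be x X₁ xp xm : K} (hx : x ≠ 0) (hX₁ : X₁ ≠ 0) (hxm : xm ≠ 0) (hne : X₁ ≠ x)
    (hden : X₁ * x - be ≠ 0)
    (hPi : xp * xm * (X₁ - x) ^ 2 = (X₁ * x - be) ^ 2)
    (hS : (xp + xm) * (X₁ - x) ^ 2 =
      2 * X₁ * x * (X₁ + x) + 4 * al * X₁ * x + 2 * be * (X₁ + x)) :
    xp ≠ 0 ∧ (x / xp + x / xm) * (1 - be * (x / X₁) * x⁻¹ ^ 2) ^ 2 =
      2 * (x / X₁ + 1) + 4 * al * (x / X₁) * x⁻¹ +
        2 * be * (x / X₁) * x⁻¹ ^ 2 * (x / X₁ + 1) := by
  have hd : X₁ - x ≠ 0 := sub_ne_zero.mpr hne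
  have hxp : xp ≠ 0 := by
    rintro rfl
    rw [zero_mul, zero_mul] at hPi
    exact pow_ne_zero 2 hden hPi.symm
  refine ⟨hxp, ?_⟩
  have e1 : x / xp + x / xm = x * ((xp + xm) * (X₁ - x) ^ 2) / (xp * xm * (X₁ - x) ^ 2) := by
    field_simp
    ring
  have e2 : 1 - be * (x / X₁) * x⁻¹ ^ 2 = (X₁ * x - be) / (X₁ * x) := by
    field_simp
  rw [e1, hPi, hS, e2]
  generalize X₁ * x - be = N at hden
  field_simp
  ring

/-- The doubling relation in `ζ`-form. -/
theorem zeta_dbl {al be x x₂ : K} (hx : 1 < v x) (hal : v al ≤ 1) (hbe : v be ≤ 1)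
    (hdbl : x₂ * (4 * x * (x ^ 2 + al * x + be)) = (x ^ 2 - be) ^ 2) :
    x₂ ≠ 0 ∧ v (x / x₂ - 4) ≤ v x⁻¹ := by
  have hx0 : x ≠ 0 := by
    intro h; rw [h, map_zero] at hx; exact not_lt_zero hx
  have hvz : v x⁻¹ < 1 := by
    rw [map_inv₀]; exact inv_lt_one_of_one_lt₀ hx
  have hu : v (be * x⁻¹ ^ 2) < 1 := by
    have : be * x⁻¹ ^ 2 = (be * x⁻¹) * x⁻¹ := by ring
    rw [this]
    exact vlt_mul_left (vle1_mul hbe hvz.le) hvz
  have hD : v (1 - be * x⁻¹ ^ 2) = 1 := v.map_one_sub_of_lt hu
  have hD0 : 1 - be * x⁻¹ ^ 2 ≠ 0 := (v.ne_zero_iff).1 (by rw [hD]; exact one_ne_zero)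
  have e : x ^ 2 - be = x ^ 2 * (1 - be * x⁻¹ ^ 2) := by field_simp
  have hnum : x ^ 2 - be ≠ 0 := by rw [e]; exact mul_ne_zero (pow_ne_zero 2 hx0) hD0
  have hx2 : x₂ ≠ 0 := by
    rintro rfl; rw [zero_mul] at hdbl; exact pow_ne_zero 2 hnum hdbl.symm
  refine ⟨hx2, ?_⟩
  have e3 : x / x₂ * (x ^ 2 - be) ^ 2 = x * (4 * x * (x ^ 2 + al * x + be)) := by
    rw [← hdbl]; field_simp
  generalize x / x₂ = w at e3 ⊢
  have key : (w - 4) * (1 - be * x⁻¹ ^ 2) ^ 2 =
      x⁻¹ * (4 * (al + 3 * be * x⁻¹ - be ^ 2 * x⁻¹ ^ 3)) := by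
    field_simp
    linear_combination e3
  have hE : v (4 * (al + 3 * be * x⁻¹ - be ^ 2 * x⁻¹ ^ 3)) ≤ 1 := by
    have h3 : v (3 : K) ≤ 1 := vle1_ofNat v 3
    have h4 : v (4 : K) ≤ 1 := vle1_ofNat v 4
    have hz1 := hvz.le
    repeat' first
      | assumption
      | apply vle1_add
      | apply vle1_sub
      | apply vle1_mul
      | apply vle1_pow
  have := congrArg v key
  rw [map_mul, map_pow, hD, one_pow, mul_one, map_mul] at this
  rw [this]
  calc v x⁻¹ * _ ≤ v x⁻¹ * 1 := mul_le_mul' le_rfl hE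
    _ = v x⁻¹ := mul_one _

end val

section main

variable {G : Type*} [AddCommGroup G] {K : Type*} [Field K] {Γ₀ : Type*}
  [LinearOrderedCommGroupWithZero Γ₀] {v : Valuation K Γ₀} {al be : K} {X Y : G → K}

/-- **No torsion in the kernel of reduction**: a nonzero `p`-torsion point has integral `X`. -/
theorem E1_no_torsion (D : IsKData X Y al be) (hal : v al ≤ 1) (hbe : v be ≤ 1) {p : ℕ}
    (hp : p.Prime) (hp2 : p ≠ 2) (hvp : v (p : K) = 1) {T : G} (hT : T ≠ 0) (hpT : p • T = 0) :
    v (X T) ≤ 1 := by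
  by_contra hlt
  rw [not_le] at hlt
  have hx0 : X T ≠ 0 := by
    intro h; rw [h, map_zero] at hlt; exact not_lt_zero hlt
  have hvz : v (X T)⁻¹ < 1 := by
    rw [map_inv₀]; exact inv_lt_one_of_one_lt₀ hlt
  have hne := fun (m : ℕ) (h1 : 1 ≤ m) (h2 : m < p) => nsmul_ne_zero_of_lt hp hT hpT h1 h2
  have claim : ∀ m : ℕ, 1 ≤ m → m < p →
      (X (m • T) ≠ 0 ∧ v (X T / X (m • T) - (m : K) ^ 2) ≤ v (X T)⁻¹) := by
    intro m
    induction m using Nat.strong_induction_on with
    | _ m ih =>
      intro hm1 hmp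
      rcases Nat.lt_or_ge m 2 with h | h
      · have : m = 1 := by omega
        subst this
        refine ⟨by rwa [one_smul], ?_⟩
        rw [one_smul, div_self hx0]
        simp
      rcases Nat.lt_or_ge m 3 with h3 | h3
      · have : m = 2 := by omega
        subst this
        have h2T : T + T ≠ 0 := by rw [← two_nsmul]; exact hne 2 hm1 hmp
        have := zeta_dbl hlt hal hbe (D.dbl T hT h2T)
        rw [two_nsmul]
        refine ⟨this.1, ?_⟩
        have e : ((2 : ℕ) : K) ^ 2 = 4 := by norm_num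
        rw [e]; exact this.2
      · obtain ⟨k, rfl⟩ : ∃ k, m = k + 3 := ⟨m - 3, by omega⟩
        obtain ⟨hA0, hA⟩ := ih (k + 2) (by omega) (by omega) (by omega)
        obtain ⟨hB0, hB⟩ := ih (k + 1) (by omega) (by omega) (by omega)
        have hP : (k + 2) • T ≠ 0 := hne _ (by omega) (by omega)
        have hadd : (k + 2) • T + T = (k + 3) • T := by rw [← succ_nsmul]
        have hsub : (k + 2) • T - T = (k + 1) • T := by
          rw [sub_eq_iff_eq_add, ← succ_nsmul]
        have hXne : X ((k + 2) • T) ≠ X T := by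
          intro h
          rcases D.inj _ _ hP hT h with h | h
          · apply hne (k + 1) (by omega) (by omega)
            rw [← hsub, h, sub_self]
          · apply hne (k + 3) (by omega) hmp
            rw [← hadd, h, neg_add_cancel]
        have hPi := D.add_prod _ _ hP hT hXne
        have hS := D.add_sum _ _ hP hT hXne
        rw [hadd, hsub] at hPi hS
        have hk2 : v (((k + 2 : ℕ) : K) ^ 2) ≤ 1 := vle1_pow (vle1_nat v _) 2
        have hw1 : v (X T / X ((k + 2) • T)) ≤ 1 := by
          have : X T / X ((k + 2) • T) =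
              (X T / X ((k + 2) • T) - ((k + 2 : ℕ) : K) ^ 2) + ((k + 2 : ℕ) : K) ^ 2 := by ring
          rw [this]; exact v.map_add_le (hA.trans hvz.le) hk2
        have hden : X ((k + 2) • T) * X T - be ≠ 0 := by
          have e : X ((k + 2) • T) * X T - be = X ((k + 2) • T) * X T *
              (1 - be * (X T / X ((k + 2) • T)) * (X T)⁻¹ ^ 2) := by field_simp
          rw [e]
          have hu : v (be * (X T / X ((k + 2) • T)) * (X T)⁻¹ ^ 2) < 1 :=
            vlt_mul_left (vle1_mul hbe hw1) (by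
              rw [pow_two]; exact vlt_mul_left hvz.le hvz)
          have hD : v (1 - be * (X T / X ((k + 2) • T)) * (X T)⁻¹ ^ 2) = 1 :=
            v.map_one_sub_of_lt hu
          exact mul_ne_zero (mul_ne_zero hA0 hx0)
            ((v.ne_zero_iff).1 (by rw [hD]; exact one_ne_zero))
        obtain ⟨hC0, hrel⟩ := zeta_rel hx0 hA0 hB0 hXne hden hPi hS
        refine ⟨hC0, ?_⟩
        have := zeta_step hvz hal hbe hk2 hA hB hrel
        have e : (2 * ((k + 2 : ℕ) : K) ^ 2 + 2 - ((k + 1 : ℕ) : K) ^ 2) =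
            ((k + 3 : ℕ) : K) ^ 2 := by
          push_cast; ring
        rwa [e] at this
  obtain ⟨k, hk⟩ : ∃ k, p = 2 * k + 1 := hp.eq_two_or_odd'.resolve_left hp2
  have hk1 : 1 ≤ k := by have := hp.two_le; omega
  obtain ⟨h10, h1⟩ := claim k hk1 (by omega)
  obtain ⟨h20, h2⟩ := claim (k + 1) (by omega) (by omega)
  have hXeq : X ((k + 1) • T) = X (k • T) := by
    have : (k + 1) • T = -(k • T) := by
      rw [eq_neg_iff_add_eq_zero, ← add_nsmul]
      have : k + 1 + k = p := by omega
      rw [this, hpT]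
    rw [this, D.X_neg]
  rw [hXeq] at h2
  have : v ((p : K)) ≤ v (X T)⁻¹ := by
    have e : (p : K) = (X T / X (k • T) - (k : K) ^ 2) -
        (X T / X (k • T) - ((k + 1 : ℕ) : K) ^ 2) := by
      rw [hk]; push_cast; ring
    rw [e]; exact v.map_sub_le h1 h2
  rw [hvp] at this
  exact absurd hvz (not_lt.2 this)

theorem vlt1_of_sq {a : K} (h : v (a ^ 2) < 1) : v a < 1 := by
  by_contra hcon
  rw [not_lt] at hcon
  rw [map_pow] at h
  exact absurd (one_le_pow_of_one_le' hcon 2) (not_le.2 h)

theorem vle1_of_sq {a : K} (h : v (a ^ 2) ≤ 1) : v a ≤ 1 := by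
  by_contra hcon
  rw [not_le] at hcon
  rw [map_pow] at h
  exact absurd (one_lt_pow' hcon two_ne_zero) (not_lt.2 h)

/-- **Unit endgame**: a nonzero `p`-torsion point whose `X` is a unit is fixed. -/
theorem fixed_of_unit (D : IsKData X Y al be) (hal : v al ≤ 1) (hbe : v be ≤ 1)
    (hdisc : v (al ^ 2 - 4 * be) = 1) (h2 : v (2 : K) = 1)
    {p : ℕ} (hp : p.Prime) (hp2 : p ≠ 2) (hvp : v (p : K) = 1)
    (σK : K →+* K) (σG : G →+ G) (hinj : ∀ P, σG P = 0 → P = 0)
    (hX : ∀ P, P ≠ 0 → X (σG P) = σK (X P)) (hY : ∀ P, P ≠ 0 → Y (σG P) = σK (Y P))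
    (hσm : ∀ x, v x ≤ 1 → v (σK x - x) < 1)
    {T : G} (hT : T ≠ 0) (hpT : p • T = 0) (hu : v (X T) = 1) : σG T = T := by
  have hσT : σG T ≠ 0 := fun h => hT (hinj T h)
  have hpσT : p • σG T = 0 := by rw [← map_nsmul, hpT, map_zero]
  have hXσ := hX T hT
  have hδ : v (σK (X T) - X T) < 1 := hσm _ hu.le
  have h4 : v (4 : K) = 1 := by
    have : (4 : K) = 2 * 2 := by norm_num
    rw [this, map_mul, h2, one_mul]
  have hx1 : v (X T) ≤ 1 := hu.le
  have h21 : v (2 : K) ≤ 1 := h2.le
  have h41 : v (4 : K) ≤ 1 := h4.le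
  have h61 : v (6 : K) ≤ 1 := vle1_ofNat v 6
  -- the key algebraic identity
  have hid : (al ^ 2 - 4 * be) * X T ^ 2 = (X T ^ 2 - be) ^ 2 -
      (X T ^ 2 + al * X T + be) * (X T ^ 2 - al * X T + be) := by ring
  have hvid : v ((al ^ 2 - 4 * be) * X T ^ 2) = 1 := by
    rw [map_mul, map_pow, hdisc, hu, one_pow, one_mul]
  have hf2 : v (X T ^ 2 - al * X T + be) ≤ 1 := by
    repeat' first
      | assumption
      | apply vle1_add
      | apply vle1_sub
      | apply vle1_mul
      | apply vle1_pow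
  -- Step 1: X(σT) = X(T)
  have step1 : X (σG T) = X T := by
    by_contra hne
    have hne' : X T ≠ X (σG T) := fun h => hne h.symm
    have hPi := D.add_prod T (σG T) hT hσT hne'
    have hS := D.add_sum T (σG T) hT hσT hne'
    have hplus : T + σG T ≠ 0 := by
      intro h
      apply hne'
      have : T = -(σG T) := eq_neg_of_add_eq_zero_left h
      exact (congrArg X this).trans (D.X_neg _)
    have hminus : T - σG T ≠ 0 := by
      intro h
      apply hne'
      rw [sub_eq_zero] at h
      exact congrArg X h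
    have hp1 : p • (T + σG T) = 0 := by rw [nsmul_add, hpT, hpσT, add_zero]
    have hp2' : p • (T - σG T) = 0 := by rw [nsmul_sub, hpT, hpσT, sub_zero]
    have hv1 := E1_no_torsion D hal hbe hp hp2 hvp hplus hp1
    have hv2 := E1_no_torsion D hal hbe hp hp2 hvp hminus hp2'
    rw [hXσ] at hPi hS
    generalize X (T + σG T) = Xp at hPi hS hv1
    generalize X (T - σG T) = Xm at hPi hS hv2
    generalize hδdef : σK (X T) - X T = δ at hδ
    have hx' : σK (X T) = X T + δ := by rw [← hδdef]; ring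
    rw [hx'] at hPi hS
    generalize X T = x at *
    have hδ1 : v δ ≤ 1 := hδ.le
    have hd : v (x - (x + δ)) < 1 := by
      have : x - (x + δ) = -δ := by ring
      rw [this, Valuation.map_neg]; exact hδ
    have hd2 : v ((x - (x + δ)) ^ 2) < 1 := by
      rw [pow_two]; exact vlt_mul_left hd.le hd
    have hPi_v : v (x * (x + δ) - be) < 1 := by
      apply vlt1_of_sq
      rw [← hPi]
      exact vlt_mul_left (vle1_mul hv1 hv2) hd2
    have hA : v (x ^ 2 - be) < 1 := by
      have : x ^ 2 - be = (x * (x + δ) - be) - x * δ := by ring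
      rw [this]
      exact v.map_sub_lt hPi_v (vlt_mul_left hx1 hδ)
    have hS_v : v (2 * x * (x + δ) * (x + (x + δ)) + 4 * al * x * (x + δ) +
        2 * be * (x + (x + δ))) < 1 := by
      rw [← hS]
      exact vlt_mul_left (vle1_add hv1 hv2) hd2
    have hB : v (x ^ 2 + al * x + be) < 1 := by
      have e : 4 * x * (x ^ 2 + al * x + be) = (2 * x * (x + δ) * (x + (x + δ)) +
          4 * al * x * (x + δ) + 2 * be * (x + (x + δ))) -
          δ * (6 * x ^ 2 + 2 * x * δ + 4 * al * x + 2 * be) := by ring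
      have h6 : v (6 * x ^ 2 + 2 * x * δ + 4 * al * x + 2 * be) ≤ 1 := by
        repeat' first
          | assumption
          | apply vle1_add
          | apply vle1_sub
          | apply vle1_mul
          | apply vle1_pow
      have : v (4 * x * (x ^ 2 + al * x + be)) < 1 := by
        rw [e]
        exact v.map_sub_lt hS_v (vlt_mul_right hδ h6)
      rwa [map_mul, map_mul, h4, hu, one_mul, one_mul] at this
    have : v ((al ^ 2 - 4 * be) * x ^ 2) < 1 := by
      rw [hid]
      exact v.map_sub_lt (by rw [pow_two]; exact vlt_mul_left hA.le hA) (vlt_mul_right hB hf2)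
    rw [hvid] at this
    exact lt_irrefl _ this
  -- Step 2: exclude σT = -T
  rcases D.inj _ _ hσT hT step1 with h | h
  · exact h
  · exfalso
    have hYσ : σK (Y T) = -Y T := by rw [← hY T hT, h, D.Y_neg]
    have hcurve := D.curve T hT
    have h2T : T + T ≠ 0 := by
      rw [← two_nsmul]
      exact nsmul_ne_zero_of_lt hp hT hpT (by norm_num)
        (lt_of_le_of_ne hp.two_le (Ne.symm hp2))
    have hp2T : p • (T + T) = 0 := by rw [nsmul_add, hpT, add_zero]
    have hv2T := E1_no_torsion D hal hbe hp hp2 hvp h2T hp2T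
    have hdbl := D.dbl T hT h2T
    generalize X (T + T) = X2 at hdbl hv2T
    generalize X T = x at *
    generalize Y T = y at *
    have hf1 : v (x ^ 2 + al * x + be) ≤ 1 := by
      repeat' first
        | assumption
        | apply vle1_add
        | apply vle1_sub
        | apply vle1_mul
        | apply vle1_pow
    have hy1 : v y ≤ 1 := by
      apply vle1_of_sq
      rw [hcurve]
      exact vle1_mul hx1 hf1
    have hy : v y < 1 := by
      have := hσm y hy1
      rw [hYσ] at this
      have e : -y - y = -(2 * y) := by ring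
      rwa [e, Valuation.map_neg, map_mul, h2, one_mul] at this
    have hf : v (x ^ 2 + al * x + be) < 1 := by
      have : v (y ^ 2) < 1 := by rw [pow_two]; exact vlt_mul_left hy1 hy
      rwa [hcurve, map_mul, hu, one_mul] at this
    have hnum : v ((x ^ 2 - be) ^ 2) = 1 := by
      have e : (x ^ 2 - be) ^ 2 = (al ^ 2 - 4 * be) * x ^ 2 +
          (x ^ 2 + al * x + be) * (x ^ 2 - al * x + be) := by ring
      rw [e, v.map_add_eq_of_lt_left, hvid]
      rw [hvid]
      exact vlt_mul_right hf hf2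
    have := congrArg v hdbl
    rw [hnum, map_mul, map_mul, map_mul, h4, hu, one_mul, one_mul] at this
    have hlt : v X2 * v (x ^ 2 + al * x + be) < 1 := by
      calc v X2 * v (x ^ 2 + al * x + be) ≤ 1 * v (x ^ 2 + al * x + be) :=
            mul_le_mul' hv2T le_rfl
        _ = v (x ^ 2 + al * x + be) := one_mul _
        _ < 1 := hf
    rw [this] at hlt
    exact lt_irrefl _ hlt

/-- **Middle endgame**: a nonzero `p`-torsion point with `v be < v X < 1` whose `X` is moved by
less than its own size is fixed. -/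
theorem fixed_of_mid (D : IsKData X Y al be) (hal : v al = 1) (hbe : v be ≤ 1)
    (h2 : v (2 : K) = 1)
    {p : ℕ} (hp : p.Prime) (hp2 : p ≠ 2) (hvp : v (p : K) = 1)
    (σK : K →+* K) (σG : G →+ G) (hinj : ∀ P, σG P = 0 → P = 0)
    (hX : ∀ P, P ≠ 0 → X (σG P) = σK (X P)) (hY : ∀ P, P ≠ 0 → Y (σG P) = σK (Y P))
    (hσm : ∀ x, v x ≤ 1 → v (σK x - x) < 1)
    {T : G} (hT : T ≠ 0) (hpT : p • T = 0) (hlo : v be < v (X T)) (hhi : v (X T) < 1)
    (hclose : v (σK (X T) - X T) < v (X T)) : σG T = T := by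
  have hσT : σG T ≠ 0 := fun h => hT (hinj T h)
  have hpσT : p • σG T = 0 := by rw [← map_nsmul, hpT, map_zero]
  have hXσ := hX T hT
  have h4 : v (4 : K) = 1 := by
    have : (4 : K) = 2 * 2 := by norm_num
    rw [this, map_mul, h2, one_mul]
  have ht0 : v (X T) ≠ 0 := fun h => by rw [h] at hlo; exact not_lt_zero hlo
  have htpos : 0 < v (X T) := zero_lt_iff.2 ht0
  have hx0 : X T ≠ 0 := (v.ne_zero_iff).1 ht0
  -- Step 1: X(σT) = X(T)
  have step1 : X (σG T) = X T := by
    by_contra hne
    have hne' : X T ≠ X (σG T) := fun h => hne h.symm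
    have hS := D.add_sum T (σG T) hT hσT hne'
    have hplus : T + σG T ≠ 0 := by
      intro h
      apply hne'
      have : T = -(σG T) := eq_neg_of_add_eq_zero_left h
      exact (congrArg X this).trans (D.X_neg _)
    have hminus : T - σG T ≠ 0 := by
      intro h
      apply hne'
      rw [sub_eq_zero] at h
      exact congrArg X h
    have hp1 : p • (T + σG T) = 0 := by rw [nsmul_add, hpT, hpσT, add_zero]
    have hp2' : p • (T - σG T) = 0 := by rw [nsmul_sub, hpT, hpσT, sub_zero]
    have hv1 := E1_no_torsion D hal.le hbe hp hp2 hvp hplus hp1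
    have hv2 := E1_no_torsion D hal.le hbe hp hp2 hvp hminus hp2'
    rw [hXσ] at hS
    generalize X (T + σG T) = Xp at hS hv1
    generalize X (T - σG T) = Xm at hS hv2
    generalize hδdef : σK (X T) - X T = δ at hclose
    have hx' : σK (X T) = X T + δ := by rw [← hδdef]; ring
    rw [hx'] at hS
    generalize X T = x at *
    have hvx' : v (x + δ) = v x := v.map_add_eq_of_lt_left hclose
    have hsum : v (x + (x + δ)) ≤ v x := v.map_add_le le_rfl hvx'.le
    -- the right-hand side has valuation exactly `v x ^ 2`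
    have hmain : v (4 * al * x * (x + δ)) = v x * v x := by
      rw [map_mul, map_mul, map_mul, h4, hal, hvx', one_mul, one_mul]
    have hsmall1 : v (2 * x * (x + δ) * (x + (x + δ))) < v x * v x := by
      rw [map_mul, map_mul, map_mul, h2, hvx', one_mul]
      calc v x * v x * v (x + (x + δ)) ≤ v x * v x * v x := mul_le_mul' le_rfl hsum
        _ < v x * v x * 1 := mul_lt_mul_of_pos_left hhi (mul_pos htpos htpos)
        _ = v x * v x := mul_one _
    have hsmall2 : v (2 * be * (x + (x + δ))) < v x * v x := by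
      rw [map_mul, map_mul, h2, one_mul]
      calc v be * v (x + (x + δ)) ≤ v be * v x := mul_le_mul' le_rfl hsum
        _ < v x * v x := mul_lt_mul_of_pos_right hlo htpos
    have hrhs : v (2 * x * (x + δ) * (x + (x + δ)) + 4 * al * x * (x + δ) +
        2 * be * (x + (x + δ))) = v x * v x := by
      rw [v.map_add_eq_of_lt_left, v.map_add_eq_of_lt_right, hmain]
      · rw [hmain]; exact hsmall1
      · rw [v.map_add_eq_of_lt_right, hmain]
        · exact hsmall2
        · rw [hmain]; exact hsmall1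
    have hlhs : v ((Xp + Xm) * (x - (x + δ)) ^ 2) < v x * v x := by
      have e : x - (x + δ) = -δ := by ring
      rw [e, map_mul, map_pow, Valuation.map_neg]
      calc v (Xp + Xm) * v δ ^ 2 ≤ 1 * v δ ^ 2 := mul_le_mul' (vle1_add hv1 hv2) le_rfl
        _ = v δ ^ 2 := one_mul _
        _ < v x ^ 2 := pow_lt_pow_left₀ hclose zero_le two_ne_zero
        _ = v x * v x := pow_two _
    rw [hS, hrhs] at hlhs
    exact lt_irrefl _ hlhs
  -- Step 2: exclude σT = -T
  rcases D.inj _ _ hσT hT step1 with h | h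
  · exact h
  · exfalso
    have hYσ : σK (Y T) = -Y T := by rw [← hY T hT, h, D.Y_neg]
    have hXσ' : σK (X T) = X T := by rw [← hXσ, step1]
    have hcurve := D.curve T hT
    generalize X T = x at *
    generalize Y T = y at *
    have hs2 : (y / x) ^ 2 = x + al + be / x := by
      rw [div_pow, hcurve]
      field_simp
    have hbx : v (be / x) < 1 := by
      rw [map_div₀]
      exact (div_lt_one₀ htpos).2 hlo
    have hs2v : v ((y / x) ^ 2) = 1 := by
      rw [hs2, v.map_add_eq_of_lt_left, v.map_add_eq_of_lt_right, hal]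
      · rw [hal]; exact hhi
      · rw [v.map_add_eq_of_lt_right, hal]
        · exact hbx
        · rw [hal]; exact hhi
    have hs1 : v (y / x) = 1 := by
      rw [map_pow] at hs2v
      exact (pow_eq_one_iff.1 hs2v).resolve_right two_ne_zero
    have := hσm (y / x) hs1.le
    rw [map_div₀, hYσ, hXσ'] at this
    have e : -y / x - y / x = -(2 * (y / x)) := by ring
    rw [e, Valuation.map_neg, map_mul, h2, one_mul, hs1] at this
    exact lt_irrefl _ this

/-- **Good reduction**: every nonzero `p`-torsion point has unit `X`. -/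
theorem unit_of_good (D : IsKData X Y al be) (hal : v al ≤ 1) (hbe : v be = 1)
    {p : ℕ} (hp : p.Prime) (hp2 : p ≠ 2) (hvp : v (p : K) = 1)
    {T : G} (hT : T ≠ 0) (hpT : p • T = 0) : v (X T) = 1 := by
  have hle := E1_no_torsion D hal hbe.le hp hp2 hvp hT hpT
  by_contra hne
  have hlt : v (X T) < 1 := lt_of_le_of_ne hle hne
  have h2T : T + T ≠ 0 := by
    rw [← two_nsmul]
    exact nsmul_ne_zero_of_lt hp hT hpT (by norm_num)
      (lt_of_le_of_ne hp.two_le (Ne.symm hp2))
  have hp2T : p • (T + T) = 0 := by rw [nsmul_add, hpT, add_zero]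
  have hv2T := E1_no_torsion D hal hbe.le hp hp2 hvp h2T hp2T
  have hdbl := D.dbl T hT h2T
  generalize X (T + T) = X2 at hdbl hv2T
  generalize X T = x at *
  have hx2 : v (x ^ 2) < 1 := by rw [pow_two]; exact vlt_mul_left hle hlt
  have hnum : v ((x ^ 2 - be) ^ 2) = 1 := by
    rw [map_pow, v.map_sub_eq_of_lt_right (by rw [hbe]; exact hx2), hbe, one_pow]
  have h41 : v (4 : K) ≤ 1 := vle1_ofNat v 4
  have hf : v (x ^ 2 + al * x + be) ≤ 1 := by
    have hb1 := hbe.le
    repeat' first
      | assumption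
      | apply vle1_add
      | apply vle1_sub
      | apply vle1_mul
      | apply vle1_pow
  have := congrArg v hdbl
  rw [hnum, map_mul, map_mul, map_mul] at this
  have hlt' : v X2 * (v 4 * v x * v (x ^ 2 + al * x + be)) < 1 := by
    calc v X2 * (v 4 * v x * v (x ^ 2 + al * x + be)) ≤ 1 * (1 * v x * 1) := by gcongr
      _ = v x := by rw [one_mul, one_mul, mul_one]
      _ < 1 := hlt
  rw [this] at hlt'
  exact lt_irrefl _ hlt'

theorem pc {Γ : Type*} [LinearOrderedCommGroupWithZero Γ] {a t : Γ} (ht : t ≠ 0) {m l : ℕ}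
    (n : ℕ) (h : a * t ^ m = t ^ l) (hl : l = m + n) : a = t ^ n := by
  apply mul_right_cancel₀ (pow_ne_zero m ht)
  rw [h, hl, pow_add, mul_comm]

theorem pow_inj_of_ne_zero {Γ : Type*} [LinearOrderedCommGroupWithZero Γ] {a b : Γ} {n : ℕ}
    (hn : n ≠ 0) (h : a ^ n = b ^ n) : a = b := by
  rcases lt_trichotomy a b with h1 | h1 | h1
  · exact absurd h (pow_lt_pow_left₀ h1 zero_le hn).ne
  · exact h1
  · exact absurd h (pow_lt_pow_left₀ h1 zero_le hn).ne'

theorem f_val {x : K} (hal : v al = 1) (hlo : v be < v x) (hhi : v x < 1) :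
    v (x ^ 2 + al * x + be) = v x := by
  have hx0 : v x ≠ 0 := fun h => by rw [h] at hlo; exact not_lt_zero hlo
  have h1 : v (al * x) = v x := by rw [map_mul, hal, one_mul]
  have h2 : v (x ^ 2) < v x := by
    rw [map_pow, pow_two]
    calc v x * v x < v x * 1 := mul_lt_mul_of_pos_left hhi (zero_lt_iff.2 hx0)
      _ = v x := mul_one _
  rw [v.map_add_eq_of_lt_left, v.map_add_eq_of_lt_right, h1]
  · rw [h1]; exact h2
  · rw [v.map_add_eq_of_lt_right, h1]
    · exact hlo
    · rw [h1]; exact h2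

theorem dbl_ge_one (D : IsKData X Y al be) (hal : v al ≤ 1) (hb0 : be ≠ 0) (hb1 : v be < 1)
    {S : G} (hS : S ≠ 0) (h2S : S + S ≠ 0) (hx : v (X S) ≤ v be) : 1 ≤ v (X (S + S)) := by
  have hdbl := D.dbl S hS h2S
  generalize X (S + S) = X2 at hdbl ⊢
  generalize X S = x at *
  have hb0' : v be ≠ 0 := (v.ne_zero_iff).2 hb0
  have hbpos : 0 < v be := zero_lt_iff.2 hb0'
  have hx2 : v (x ^ 2) < v be := by
    rw [map_pow, pow_two]
    calc v x * v x ≤ v be * v be := mul_le_mul' hx hx
      _ < v be * 1 := mul_lt_mul_of_pos_left hb1 hbpos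
      _ = v be := mul_one _
  have hnum : v ((x ^ 2 - be) ^ 2) = v be * v be := by
    rw [map_pow, v.map_sub_eq_of_lt_right hx2, pow_two]
  have hf : v (x ^ 2 + al * x + be) ≤ v be :=
    v.map_add_le (v.map_add_le hx2.le (vle_mul_left hal hx)) le_rfl
  have h41 : v (4 : K) ≤ 1 := vle1_ofNat v 4
  by_contra hcon
  rw [not_le] at hcon
  have := congrArg v hdbl
  rw [hnum, map_mul, map_mul, map_mul] at this
  have hlt : v X2 * (v 4 * v x * v (x ^ 2 + al * x + be)) < v be * v be := by
    calc v X2 * (v 4 * v x * v (x ^ 2 + al * x + be)) ≤ v X2 * (1 * v be * v be) := by gcongr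
      _ = v X2 * (v be * v be) := by rw [one_mul]
      _ < 1 * (v be * v be) := mul_lt_mul_of_pos_right hcon (mul_pos hbpos hbpos)
      _ = v be * v be := one_mul _
  rw [this] at hlt
  exact lt_irrefl _ hlt

theorem prod_at_multiple (D : IsKData X Y al be) {p : ℕ} (hp : p.Prime) {T : G} (hT : T ≠ 0)
    (hpT : p • T = 0) (k : ℕ) (hk : k + 3 < p) :
    X ((k + 3) • T) * X ((k + 1) • T) * (X ((k + 2) • T) - X T) ^ 2 =
      (X ((k + 2) • T) * X T - be) ^ 2 := by
  have hne := fun (m : ℕ) (h1 : 1 ≤ m) (h2 : m < p) => nsmul_ne_zero_of_lt hp hT hpT h1 h2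
  have hP : (k + 2) • T ≠ 0 := hne _ (by omega) (by omega)
  have hadd : (k + 2) • T + T = (k + 3) • T := by rw [← succ_nsmul]
  have hsub : (k + 2) • T - T = (k + 1) • T := by rw [sub_eq_iff_eq_add, ← succ_nsmul]
  have hXne : X ((k + 2) • T) ≠ X T := by
    intro h
    rcases D.inj _ _ hP hT h with h | h
    · apply hne (k + 1) (by omega) (by omega)
      rw [← hsub, h, sub_self]
    · apply hne (k + 3) (by omega) hk
      rw [← hadd, h, neg_add_cancel]
  have hPi := D.add_prod _ _ hP hT hXne
  rwa [hadd, hsub] at hPi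

/-- **Multiplicative reduction, key computation**: if `T` is a nonzero `p`-torsion point all of
whose nonzero multiples have `v X < 1`, and `v (X T)` is maximal among them, then
`v be < v (X T)` and `v (X T) ^ p = v be ^ 2`. -/
theorem mult_key (D : IsKData X Y al be) (hal : v al = 1) (hb0 : be ≠ 0) (hb1 : v be < 1)
    (h2 : v (2 : K) = 1) {p : ℕ} (hp : p.Prime) (hp2 : p ≠ 2)
    {T : G} (hT : T ≠ 0) (hpT : p • T = 0) (ht1 : v (X T) < 1)
    (hmax : ∀ m : ℕ, ¬ p ∣ m → v (X (m • T)) ≤ v (X T)) :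
    v be < v (X T) ∧ v (X T) ^ p = v be ^ 2 := by
  have hne := fun (m : ℕ) (h1 : 1 ≤ m) (h2 : m < p) => nsmul_ne_zero_of_lt hp hT hpT h1 h2
  have hndvd : ∀ m : ℕ, 1 ≤ m → m < p → ¬ p ∣ m :=
    fun m h1 h2 => Nat.not_dvd_of_pos_of_lt h1 h2
  have hp3 : 3 ≤ p := by have := hp.two_le; omega
  have hb0' : v be ≠ 0 := (v.ne_zero_iff).2 hb0
  have h4 : v (4 : K) = 1 := by
    have : (4 : K) = 2 * 2 := by norm_num
    rw [this, map_mul, h2, one_mul]
  have h2T : T + T ≠ 0 := by rw [← two_nsmul]; exact hne 2 (by norm_num) (by omega)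
  have hdbl := D.dbl T hT h2T
  rw [← two_nsmul] at hdbl
  have hA : v be < v (X T) := by
    by_contra hcon
    rw [not_lt] at hcon
    have := dbl_ge_one D hal.le hb0 hb1 hT h2T hcon
    have h' := hmax 2 (hndvd 2 (by norm_num) (by omega))
    rw [two_nsmul] at h'
    exact absurd (this.trans h') (not_le.2 ht1)
  refine ⟨hA, ?_⟩
  have hf : v (X T ^ 2 + al * X T + be) = v (X T) := f_val hal hA ht1
  have hlast : X ((p - 1) • T) = X T := by
    have : (p - 1) • T = -T := by
      rw [eq_neg_iff_add_eq_zero, ← succ_nsmul]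
      have : p - 1 + 1 = p := by omega
      rw [this, hpT]
    rw [this, D.X_neg]
  obtain ⟨t, ht⟩ : ∃ t, v (X T) = t := ⟨_, rfl⟩
  obtain ⟨b, hb⟩ : ∃ b, v be = b := ⟨_, rfl⟩
  rw [ht] at ht1 hmax hA hf ⊢
  rw [hb] at hb1 hA hb0' ⊢
  have ht0 : t ≠ 0 := fun h => by rw [h] at hA; exact not_lt_zero hA
  have htpos : 0 < t := zero_lt_iff.2 ht0
  have hbpos : 0 < b := zero_lt_iff.2 hb0'
  have hpow_lt : ∀ {m n : ℕ}, m < n → t ^ n < t ^ m :=
    fun h => pow_lt_pow_right_of_lt_one₀ htpos ht1 h
  -- doubling valuation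
  have hdblv : v (X (2 • T)) * (t * t) = v (X T ^ 2 - be) ^ 2 := by
    have := congrArg v hdbl
    rwa [map_mul, map_mul, map_mul, h4, hf, ht, one_mul, map_pow] at this
  -- product formula valuation
  have hPiv : ∀ k : ℕ, k + 3 < p → v (X ((k + 3) • T)) * v (X ((k + 1) • T)) *
      v (X ((k + 2) • T) - X T) ^ 2 = v (X ((k + 2) • T) * X T - be) ^ 2 := by
    intro k hk
    have := congrArg v (prod_at_multiple D hp hT hpT k hk)
    rwa [map_mul, map_mul, map_pow, map_pow] at this
  -- B
  have hB : ∀ m : ℕ, 1 ≤ m → m < p → b < t ^ m → v (X (m • T)) = t ^ m := by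
    intro m
    induction m using Nat.strong_induction_on with
    | _ m ih =>
      intro hm1 hmp hbm
      rcases Nat.lt_or_ge m 2 with h | h
      · have : m = 1 := by omega
        subst this
        rw [one_smul, pow_one, ht]
      rcases Nat.lt_or_ge m 3 with h3 | h3
      · have : m = 2 := by omega
        subst this
        have hnum : v (X T ^ 2 - be) = t ^ 2 := by
          rw [v.map_sub_eq_of_lt_left, map_pow, ht]
          rw [map_pow, ht, hb]; exact hbm
        rw [hnum, ← pow_two, ← pow_mul] at hdblv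
        exact pc ht0 2 hdblv rfl
      · obtain ⟨k, rfl⟩ : ∃ k, m = k + 3 := ⟨m - 3, by omega⟩
        have h1 := ih (k + 2) (by omega) (by omega) (by omega)
          (hbm.trans (hpow_lt (by omega)))
        have h0 := ih (k + 1) (by omega) (by omega) (by omega)
          (hbm.trans (hpow_lt (by omega)))
        have hd : v (X ((k + 2) • T) - X T) = t := by
          rw [v.map_sub_eq_of_lt_right, ht]
          rw [h1, ht]
          calc t ^ (k + 2) < t ^ 1 := hpow_lt (by omega)
            _ = t := pow_one t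
        have hn : v (X ((k + 2) • T) * X T - be) = t ^ (k + 3) := by
          have e : v (X ((k + 2) • T) * X T) = t ^ (k + 3) := by
            rw [map_mul, h1, ht, ← pow_succ]
          rw [v.map_sub_eq_of_lt_left, e]
          rw [e, hb]; exact hbm
        have := hPiv k hmp
        rw [h0, hd, hn, mul_assoc, ← pow_add, ← pow_mul] at this
        exact pc ht0 (k + 3) this (by ring)
  -- C
  have hnotlast : ¬ b < t ^ (p - 1) := by
    intro h
    have := hB (p - 1) (by omega) (by omega) h
    rw [hlast, ht] at this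
    have h' : t ^ (p - 1) < t ^ 1 := hpow_lt (by omega)
    rw [pow_one, ← this] at h'
    exact lt_irrefl _ h'
  have hex : ∃ m : ℕ, t ^ (m + 1) ≤ b := ⟨p - 2, by
    have : p - 2 + 1 = p - 1 := by omega
    rw [this]; exact not_lt.1 hnotlast⟩
  classical
  obtain ⟨M, hM1, hMmin⟩ : ∃ M, t ^ (M + 1) ≤ b ∧ ∀ m < M, ¬ t ^ (m + 1) ≤ b :=
    ⟨Nat.find hex, Nat.find_spec hex, fun m hm => Nat.find_min hex hm⟩
  have hMle : M ≤ p - 2 := by
    by_contra hcon
    rw [not_le] at hcon
    apply hMmin (p - 2) hcon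
    have : p - 2 + 1 = p - 1 := by omega
    rw [this]; exact not_lt.1 hnotlast
  have hM0 : 1 ≤ M := by
    by_contra h
    have : M = 0 := by omega
    rw [this, zero_add, pow_one] at hM1
    exact absurd hA (not_lt.2 hM1)
  have hMb : b < t ^ M := by
    have := hMmin (M - 1) (by omega)
    rw [not_le] at this
    have e : M - 1 + 1 = M := by omega
    rwa [e] at this
  have hBM : v (X (M • T)) = t ^ M := hB M hM0 (by omega) hMb
  -- D
  have hD : t ^ (M + 1) < b := by
    refine lt_of_le_of_ne hM1 (fun heq => ?_)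
    have hclaim : v (X ((M + 1) • T)) ≤ b := by
      rcases Nat.lt_or_ge M 2 with h | h
      · have hM' : M = 1 := by omega
        rw [hM'] at heq ⊢
        have e : t * t = b := by rw [← pow_two]; exact heq
        have hnum : v (X T ^ 2 - be) ≤ b := by
          apply v.map_sub_le
          · rw [map_pow, ht]; exact heq.le
          · rw [hb]
        have h1 : v (X (2 • T)) * b ≤ b * b := by
          rw [← e, hdblv, pow_two, e]; exact mul_le_mul' hnum hnum
        exact le_of_mul_le_mul_right h1 hbpos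
      · obtain ⟨k, hk⟩ : ∃ k, M = k + 2 := ⟨M - 2, by omega⟩
        rw [hk] at heq hBM hMb ⊢
        have h0 : v (X ((k + 1) • T)) = t ^ (k + 1) :=
          hB (k + 1) (by omega) (by omega) (hMb.trans (hpow_lt (by omega)))
        have hd : v (X ((k + 2) • T) - X T) = t := by
          rw [v.map_sub_eq_of_lt_right, ht]
          rw [hBM, ht]
          calc t ^ (k + 2) < t ^ 1 := hpow_lt (by omega)
            _ = t := pow_one t
        have hn : v (X ((k + 2) • T) * X T - be) ≤ b := by
          apply v.map_sub_le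
          · rw [map_mul, hBM, ht, ← pow_succ]; exact heq.le
          · rw [hb]
        have := hPiv k (by omega)
        rw [h0, hd, mul_assoc, ← pow_add] at this
        have e : t ^ (k + 1 + 2) = b := heq
        rw [e] at this
        have h1 : v (X ((k + 2 + 1) • T)) * b ≤ b * b := by
          rw [this, pow_two]; exact mul_le_mul' hn hn
        exact le_of_mul_le_mul_right h1 hbpos
    have hS : (M + 1) • T ≠ 0 := hne _ (by omega) (by omega)
    have hnd : ¬ p ∣ 2 * (M + 1) := by
      intro hdvd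
      rcases (Nat.Prime.dvd_mul hp).1 hdvd with h | h
      · have := Nat.le_of_dvd (by norm_num) h
        omega
      · have := Nat.le_of_dvd (by omega) h
        omega
    have e2 : (M + 1) • T + (M + 1) • T = (2 * (M + 1)) • T := by
      rw [← two_nsmul, mul_nsmul']
    have h2S : (M + 1) • T + (M + 1) • T ≠ 0 := by
      rw [e2]; exact nsmul_ne_zero_of_not_dvd hp hT hpT hnd
    have hge := dbl_ge_one D hal.le hb0 (by rw [hb]; exact hb1) hS h2S (by rw [hb]; exact hclaim)
    rw [e2] at hge
    exact absurd (hge.trans (hmax _ hnd)) (not_le.2 ht1)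
  -- E
  have hE : ∀ m : ℕ, M + 1 ≤ m → m < p → v (X (m • T)) * t ^ m = b ^ 2 := by
    intro m
    induction m using Nat.strong_induction_on with
    | _ m ih =>
      intro hMm hmp
      rcases Nat.lt_or_ge m 3 with h3 | h3
      · have hm : m = 2 := by omega
        have hM' : M = 1 := by omega
        rw [hM'] at hD
        rw [hm]
        have hnum : v (X T ^ 2 - be) = b := by
          rw [v.map_sub_eq_of_lt_right, hb]
          rw [map_pow, ht, hb]; exact hD
        rw [hnum, ← pow_two] at hdblv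
        exact hdblv
      · obtain ⟨k, rfl⟩ : ∃ k, m = k + 3 := ⟨m - 3, by omega⟩
        have hPi := hPiv k hmp
        have hstar : v (X ((k + 3) • T)) * t ^ (k + 1) * v (X ((k + 2) • T) - X T) ^ 2 =
            b ^ 2 := by
          rcases Nat.lt_or_ge (k + 2) (M + 1) with hlt | hge
          · have hkM : M = k + 2 := by omega
            rw [hkM] at hBM hMb hD
            have h0 : v (X ((k + 1) • T)) = t ^ (k + 1) :=
              hB (k + 1) (by omega) (by omega) (hMb.trans (hpow_lt (by omega)))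
            have hn : v (X ((k + 2) • T) * X T - be) = b := by
              rw [v.map_sub_eq_of_lt_right, hb]
              rw [map_mul, hBM, ht, ← pow_succ, hb]; exact hD
            rw [h0, hn] at hPi
            exact hPi
          · have ih2 := ih (k + 2) (by omega) hge (by omega)
            have hprod : v (X ((k + 2) • T) * X T) * t ^ (k + 1) = b ^ 2 := by
              rw [map_mul, ht, mul_assoc, ← pow_succ']; exact ih2
            rcases Nat.lt_or_ge (k + 1) (M + 1) with hlt1 | hge1
            · have hkM : M = k + 1 := by omega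
              rw [hkM] at hBM hMb
              have hlt : v (X ((k + 2) • T) * X T) < b := by
                by_contra hcon
                rw [not_lt] at hcon
                have : b * b < v (X ((k + 2) • T) * X T) * t ^ (k + 1) := by
                  calc b * b < b * t ^ (k + 1) := mul_lt_mul_of_pos_left hMb hbpos
                    _ ≤ v (X ((k + 2) • T) * X T) * t ^ (k + 1) := mul_le_mul' hcon le_rfl
                rw [hprod, pow_two] at this
                exact lt_irrefl _ this
              have hn : v (X ((k + 2) • T) * X T - be) = b := by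
                rw [v.map_sub_eq_of_lt_right, hb]
                rw [hb]; exact hlt
              rw [hBM, hn] at hPi
              exact hPi
            · have ih1 := ih (k + 1) (by omega) hge1 (by omega)
              have hc : v (X ((k + 2) • T) * X T) = v (X ((k + 1) • T)) :=
                mul_right_cancel₀ (pow_ne_zero (k + 1) ht0) (hprod.trans ih1.symm)
              have hcb : b < v (X ((k + 1) • T)) := by
                by_contra hcon
                rw [not_lt] at hcon
                have : v (X ((k + 1) • T)) * t ^ (k + 1) < b * b := by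
                  calc v (X ((k + 1) • T)) * t ^ (k + 1) ≤ b * t ^ (k + 1) :=
                        mul_le_mul' hcon le_rfl
                    _ < b * b := mul_lt_mul_of_pos_left
                        (lt_of_le_of_lt (pow_le_pow_of_le_one zero_le ht1.le hge1) hD) hbpos
                rw [ih1, pow_two] at this
                exact lt_irrefl _ this
              have hn : v (X ((k + 2) • T) * X T - be) = v (X ((k + 1) • T)) := by
                rw [v.map_sub_eq_of_lt_left, hc]
                rw [hc, hb]; exact hcb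
              rw [hn] at hPi
              have hc0 : v (X ((k + 1) • T)) ≠ 0 := fun h => by
                rw [h] at hcb; exact not_lt_zero hcb
              have h' : v (X ((k + 3) • T)) * v (X ((k + 2) • T) - X T) ^ 2 =
                  v (X ((k + 1) • T)) := by
                apply mul_right_cancel₀ hc0
                rw [← pow_two, ← hPi]; ac_rfl
              calc v (X ((k + 3) • T)) * t ^ (k + 1) * v (X ((k + 2) • T) - X T) ^ 2
                  = (v (X ((k + 3) • T)) * v (X ((k + 2) • T) - X T) ^ 2) * t ^ (k + 1) := by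
                    ac_rfl
                _ = v (X ((k + 1) • T)) * t ^ (k + 1) := by rw [h']
                _ = b ^ 2 := ih1
        have hxle : v (X ((k + 2) • T)) ≤ t := hmax (k + 2) (hndvd _ (by omega) (by omega))
        rcases lt_or_eq_of_le hxle with hlt | heq
        · have hd : v (X ((k + 2) • T) - X T) = t := by
            rw [v.map_sub_eq_of_lt_right, ht]
            rw [ht]; exact hlt
          rw [hd, mul_assoc, ← pow_add] at hstar
          exact hstar
        · exfalso
          have hd : v (X ((k + 2) • T) - X T) ≤ t := v.map_sub_le heq.le ht.le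
          rcases Nat.lt_or_ge (k + 2) (M + 1) with hlt | hge
          · have hkM : M = k + 2 := by omega
            rw [hkM, heq] at hBM
            have h' : t ^ (k + 2) < t ^ 1 := hpow_lt (by omega)
            rw [pow_one, ← hBM] at h'
            exact lt_irrefl _ h'
          · have ih2 := ih (k + 2) (by omega) hge (by omega)
            rw [heq, ← pow_succ'] at ih2
            have hx3 : v (X ((k + 3) • T)) < 1 :=
              lt_of_le_of_lt (hmax (k + 3) (hndvd _ (by omega) hmp)) ht1
            have : b ^ 2 < b ^ 2 := by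
              calc b ^ 2 = v (X ((k + 3) • T)) * t ^ (k + 1) *
                    v (X ((k + 2) • T) - X T) ^ 2 := hstar.symm
                _ ≤ v (X ((k + 3) • T)) * t ^ (k + 1) * t ^ 2 := by gcongr
                _ = v (X ((k + 3) • T)) * b ^ 2 := by rw [mul_assoc, ← pow_add, ← ih2]
                _ < 1 * b ^ 2 := mul_lt_mul_of_pos_right hx3 (pow_pos hbpos 2)
                _ = b ^ 2 := one_mul _
            exact lt_irrefl _ this
  -- F
  have := hE (p - 1) (by omega) (by omega)
  rw [hlast, ht, ← pow_succ'] at this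
  have e : p - 1 + 1 = p := by omega
  rwa [e] at this

/-- If a multiple `m • T` (`p ∤ m`) of a `p`-torsion point is fixed by an additive map,
so is `T`. -/
theorem fixed_of_multiple_fixed {p : ℕ} (hp : p.Prime) (σG : G →+ G) {T : G} (hpT : p • T = 0)
    {m : ℕ} (hm : ¬ p ∣ m) (hfix : σG (m • T) = m • T) : σG T = T := by
  have hcop : Nat.Coprime m p := ((Nat.Prime.coprime_iff_not_dvd hp).2 hm).symm
  obtain ⟨k, -, hk⟩ := Nat.exists_mul_mod_eq_one_of_coprime hcop hp.one_lt
  have hT' : k • (m • T) = T := by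
    rw [← mul_nsmul]
    have h := Nat.div_add_mod (m * k) p
    rw [hk] at h
    rw [← h, add_nsmul, mul_nsmul, hpT, nsmul_zero, zero_add, one_nsmul]
  rw [← hT', map_nsmul, hfix]

/-- **Main abstract theorem**: under good or multiplicative reduction hypotheses, every
`p`-torsion point is fixed by a compatible automorphism which is trivial modulo the maximal
ideal. -/
theorem main_fixed (D : IsKData X Y al be) (hal : v al ≤ 1) (hbe : v be ≤ 1)
    (hdisc : v (al ^ 2 - 4 * be) = 1) (h2 : v (2 : K) = 1)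
    {p : ℕ} (hp : p.Prime) (hp2 : p ≠ 2) (hvp : v (p : K) = 1)
    (σK : K →+* K) (σG : G →+ G) (hinj : ∀ P, σG P = 0 → P = 0)
    (hX : ∀ P, P ≠ 0 → X (σG P) = σK (X P)) (hY : ∀ P, P ≠ 0 → Y (σG P) = σK (Y P))
    (hσm : ∀ x, v x ≤ 1 → v (σK x - x) < 1)
    (hcase : v be = 1 ∨
      (v al = 1 ∧ be ≠ 0 ∧ v be < 1 ∧ ∃ w : K, σK w = w ∧ v be = v w ^ p))
    {T : G} (hpT : p • T = 0) : σG T = T := by
  by_cases hT : T = 0
  · rw [hT, map_zero]
  rcases hcase with hgood | ⟨hal1, hb0, hb1, w, hw, hbw⟩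
  · exact fixed_of_unit D hal hbe hdisc h2 hp hp2 hvp σK σG hinj hX hY hσm hT hpT
      (unit_of_good D hal hgood hp hp2 hvp hT hpT)
  · by_cases hex : ∃ m : ℕ, ¬ p ∣ m ∧ v (X (m • T)) = 1
    · obtain ⟨m, hm, hu⟩ := hex
      have hS : m • T ≠ 0 := nsmul_ne_zero_of_not_dvd hp hT hpT hm
      have hpS : p • (m • T) = 0 := by rw [smul_comm, hpT, smul_zero]
      exact fixed_of_multiple_fixed hp σG hpT hm
        (fixed_of_unit D hal hbe hdisc h2 hp hp2 hvp σK σG hinj hX hY hσm hS hpS hu)
    · have hex' : ∀ m : ℕ, ¬ p ∣ m → v (X (m • T)) ≠ 1 := fun m hm h => hex ⟨m, hm, h⟩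
      have hlt : ∀ m : ℕ, ¬ p ∣ m → v (X (m • T)) < 1 := by
        intro m hm
        have hS : m • T ≠ 0 := nsmul_ne_zero_of_not_dvd hp hT hpT hm
        have hpS : p • (m • T) = 0 := by rw [smul_comm, hpT, smul_zero]
        exact lt_of_le_of_ne (E1_no_torsion D hal hbe hp hp2 hvp hS hpS) (hex' m hm)
      have hp1 : 1 ≤ p - 1 := by have := hp.two_le; omega
      obtain ⟨m₀, hm₀mem, hm₀max⟩ := Finset.exists_max_image (Finset.Icc 1 (p - 1))
        (fun m => v (X (m • T))) ⟨1, Finset.mem_Icc.2 ⟨le_rfl, hp1⟩⟩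
      rw [Finset.mem_Icc] at hm₀mem
      have hm₀ : ¬ p ∣ m₀ := Nat.not_dvd_of_pos_of_lt (by omega) (by omega)
      have hT'0 : m₀ • T ≠ 0 := nsmul_ne_zero_of_not_dvd hp hT hpT hm₀
      have hpT' : p • (m₀ • T) = 0 := by rw [smul_comm, hpT, smul_zero]
      have hmax : ∀ m : ℕ, ¬ p ∣ m → v (X (m • (m₀ • T))) ≤ v (X (m₀ • T)) := by
        intro m hm
        have e : m • (m₀ • T) = ((m₀ * m) % p) • T := by
          rw [← mul_nsmul]
          conv_lhs => rw [← Nat.div_add_mod (m₀ * m) p]
          rw [add_nsmul, mul_nsmul, hpT, nsmul_zero, zero_add]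
        rw [e]
        apply hm₀max
        rw [Finset.mem_Icc]
        have hnd : ¬ p ∣ m₀ * m := fun h =>
          ((Nat.Prime.dvd_mul hp).1 h).elim hm₀ hm
        have h1 : (m₀ * m) % p ≠ 0 := fun h => hnd (Nat.dvd_of_mod_eq_zero h)
        have h2' := Nat.mod_lt (m₀ * m) hp.pos
        omega
      obtain ⟨hlo, hpow⟩ := mult_key D hal1 hb0 hb1 h2 hp hp2 hT'0 hpT' (hlt m₀ hm₀) hmax
      have ht : v (X (m₀ • T)) = v (w ^ 2) := by
        rw [map_pow]
        have : v (X (m₀ • T)) ^ p = (v w ^ 2) ^ p := by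
          rw [hpow, hbw, ← pow_mul, ← pow_mul, mul_comm]
        exact pow_inj_of_ne_zero hp.ne_zero this
      have hw0 : w ≠ 0 := by
        rintro rfl
        rw [map_zero, zero_pow hp.ne_zero] at hbw
        exact hb0 ((v.zero_iff).1 hbw)
      have hw2 : w ^ 2 ≠ 0 := pow_ne_zero 2 hw0
      have hclose : v (σK (X (m₀ • T)) - X (m₀ • T)) < v (X (m₀ • T)) := by
        have hu : v (X (m₀ • T) / w ^ 2) = 1 := by
          rw [map_div₀, ht, div_self ((v.ne_zero_iff).2 hw2)]
        have := hσm _ hu.le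
        rw [map_div₀, map_pow, hw, ← sub_div, map_div₀, div_lt_one₀ (zero_lt_iff.2
          ((v.ne_zero_iff).2 hw2))] at this
        rw [ht]; exact this
      exact fixed_of_multiple_fixed hp σG hpT hm₀
        (fixed_of_mid D hal1 hbe h2 hp hp2 hvp σK σG hinj hX hY hσm hT'0 hpT' hlo
          (hlt m₀ hm₀) hclose)

end main

end Fermat.Agent.S05.helper160
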