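import Fermat.Agent.S05.helper160_Abstract
import Fermat.Agent.S05.helper1745_XOnly
import Fermat.Agent.S05.helper305_Shape
import Fermat.Agent.S05.helper4205_Inertia

set_option autoImplicit false

/-!
# S05: instantiation of the abstract x-line argument on Mathlib points (helper160)
-/

namespace Fermat.Agent.S05.helper160

open WeierstrassCurve WeierstrassCurve.Affine

section concrete

variable {K : Type*} [Field K]

/-- Shifted `x`-coordinate of a point (junk value `0` at the origin). -/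
noncomputable def ptX (W : Affine K) (e : K) : W.Point → K
  | .zero => 0
  | .some x _ _ => x - e

/-- The coordinate `η = y + (a₁ x + a₃)/2` of a point (junk value `0` at the origin). -/
noncomputable def ptY (W : Affine K) : W.Point → K
  | .zero => 0
  | .some x y _ => helper305.eta W x y

theorem ptX_some (W : Affine K) (e : K) {x y : K} (h : W.Nonsingular x y) :
    ptX W e (Point.some x y h) = x - e := rfl

theorem ptY_some (W : Affine K) {x y : K} (h : W.Nonsingular x y) :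
    ptY W (Point.some x y h) = helper305.eta W x y := rfl

theorem ptX_zero (W : Affine K) (e : K) : ptX W e (0 : W.Point) = 0 := rfl

theorem ptY_zero (W : Affine K) : ptY W (0 : W.Point) = 0 := rfl

theorem isKData_of_shape [DecidableEq K] {W : Affine K} {e al be : K}
    (hS : helper305.Shape W e al be) :
    IsKData (ptX W e) (ptY W) al be := by
  have h2 := hS.two_ne
  have h4 : (4 : K) ≠ 0 := by
    have : (4 : K) = 2 * 2 := by norm_num
    rw [this]; exact mul_ne_zero h2 h2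
  have hb2 := hS.hb2
  have hb4 := hS.hb4
  have hb6 := hS.hb6
  have hb8 := W.b_relation
  rw [hb2, hb4, hb6] at hb8
  refine ⟨?_, ?_, ?_, ?_, ?_, ?_, ?_⟩
  · rintro (_ | ⟨x, y, h⟩)
    · rfl
    · rfl
  · rintro (_ | ⟨x, y, h⟩)
    · show ptY W (-0) = -ptY W 0
      rw [neg_zero, ptY_zero, neg_zero]
    · show ptY W (-Point.some x y h) = -ptY W (Point.some x y h)
      rw [Point.neg_some, ptY_some, ptY_some]
      exact helper305.eta_negY W h2 x y
  · rintro (_ | ⟨x, y, h⟩) hP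
    · exact absurd rfl hP
    · exact (hS.equation_iff x y).1 h.1
  · rintro (_ | ⟨x₁, y₁, h₁⟩) (_ | ⟨x₂, y₂, h₂⟩) hP hQ hX
    · exact absurd rfl hP
    · exact absurd rfl hP
    · exact absurd rfl hQ
    · have hx : x₁ = x₂ := by
        have : x₁ - e = x₂ - e := hX
        linear_combination this
      subst hx
      rcases Y_eq_of_X_eq h₁.1 h₂.1 rfl with hy | hy
      · left; subst hy; rfl
      · right
        rw [Point.neg_some]
        subst hy; rfl
  · rintro (_ | ⟨x₁, y₁, h₁⟩) (_ | ⟨x₂, y₂, h₂⟩) hP hQ hX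
    · exact absurd rfl hP
    · exact absurd rfl hP
    · exact absurd rfl hQ
    · have hx : x₁ ≠ x₂ := by
        intro h; apply hX; show x₁ - e = x₂ - e; rw [h]
      obtain ⟨Xp, Yp, Xm, Ym, hp, hm, hadd, hsub, hPi, hSum⟩ :=
        helper1745.exists_add_sub_some h₁ h₂ hx
      rw [hb4, hb6] at hPi
      rw [hb2, hb4, hb6] at hSum
      show ptX W e (Point.some x₁ y₁ h₁ + Point.some x₂ y₂ h₂) *
        ptX W e (Point.some x₁ y₁ h₁ - Point.some x₂ y₂ h₂) * ((x₁ - e) - (x₂ - e)) ^ 2 =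
        ((x₁ - e) * (x₂ - e) - be) ^ 2
      rw [hadd, hsub, ptX_some, ptX_some]
      apply mul_left_cancel₀ h4
      linear_combination 4 * hPi - 4 * e * hSum - hb8
  · rintro (_ | ⟨x₁, y₁, h₁⟩) (_ | ⟨x₂, y₂, h₂⟩) hP hQ hX
    · exact absurd rfl hP
    · exact absurd rfl hP
    · exact absurd rfl hQ
    · have hx : x₁ ≠ x₂ := by
        intro h; apply hX; show x₁ - e = x₂ - e; rw [h]
      obtain ⟨Xp, Yp, Xm, Ym, hp, hm, hadd, hsub, hPi, hSum⟩ :=
        helper1745.exists_add_sub_some h₁ h₂ hx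
      rw [hb2, hb4, hb6] at hSum
      show (ptX W e (Point.some x₁ y₁ h₁ + Point.some x₂ y₂ h₂) +
        ptX W e (Point.some x₁ y₁ h₁ - Point.some x₂ y₂ h₂)) * ((x₁ - e) - (x₂ - e)) ^ 2 =
        2 * (x₁ - e) * (x₂ - e) * ((x₁ - e) + (x₂ - e)) + 4 * al * (x₁ - e) * (x₂ - e) +
          2 * be * ((x₁ - e) + (x₂ - e))
      rw [hadd, hsub, ptX_some, ptX_some]
      linear_combination hSum
  · rintro (_ | ⟨x, y, h⟩) hP h2P
    · exact absurd rfl hP
    · have hy : y ≠ W.negY x y := by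
        intro hy
        exact h2P (Point.add_self_of_Y_eq hy)
      obtain ⟨X2, Y2, h', hadd, hX, -⟩ := helper1745.exists_add_self_some h hy
      rw [hb2, hb4, hb6] at hX
      show ptX W e (Point.some x y h + Point.some x y h) *
        (4 * (x - e) * ((x - e) ^ 2 + al * (x - e) + be)) = ((x - e) ^ 2 - be) ^ 2
      rw [hadd, ptX_some]
      apply mul_left_cancel₀ h4
      linear_combination 4 * hX - hb8

end concrete

section galois

variable {S : Type*} [Field S] {K : Type*} [Field K] [DecidableEq K] [Algebra S K]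

theorem ptX_map (W' : Affine S) (σ : K ≃ₐ[S] K) {e : K} (he : σ e = e) (P : (W'⁄K).Point) :
    ptX (W'⁄K) e (Point.map (W' := W') σ.toAlgHom P) = σ (ptX (W'⁄K) e P) := by
  rcases P with _ | ⟨x, y, h⟩
  · show (0 : K) = σ 0
    rw [map_zero]
  · show σ x - e = σ (x - e)
    rw [map_sub, he]

theorem ptY_map (W' : Affine S) (σ : K ≃ₐ[S] K) (P : (W'⁄K).Point) :
    ptY (W'⁄K) (Point.map (W' := W') σ.toAlgHom P) = σ (ptY (W'⁄K) P) := by
  rcases P with _ | ⟨x, y, h⟩
  · show (0 : K) = σ 0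
    rw [map_zero]
  · show helper305.eta (W'⁄K) (σ x) (σ y) = σ (helper305.eta (W'⁄K) x y)
    have h1 : σ (W'⁄K).a₁ = (W'⁄K).a₁ := σ.commutes W'.a₁
    have h3 : σ (W'⁄K).a₃ = (W'⁄K).a₃ := σ.commutes W'.a₃
    have h2 : σ (2 : K) = 2 := map_ofNat σ 2
    simp only [helper305.eta, map_add, map_div₀, map_mul, h1, h3, h2]

end galois

section frey

local notation "Kbar" => AlgebraicClosure ℚ

theorem frey_b₂ (P : FreyPackage) :
    (P.freyCurve⁄Kbar).b₂ = (P.b : Kbar) ^ P.p - (P.a : Kbar) ^ P.p := by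
  simp only [WeierstrassCurve.b₂, FreyPackage.freyCurve, WeierstrassCurve.Affine.baseChange,
    WeierstrassCurve.baseChange, WeierstrassCurve.map]
  simp
  ring

theorem frey_b₄ (P : FreyPackage) :
    (P.freyCurve⁄Kbar).b₄ = -((P.a : Kbar) ^ P.p * (P.b : Kbar) ^ P.p) / 8 := by
  simp only [WeierstrassCurve.b₄, FreyPackage.freyCurve, WeierstrassCurve.Affine.baseChange,
    WeierstrassCurve.baseChange, WeierstrassCurve.map]
  simp
  ring

theorem frey_b₆ (P : FreyPackage) : (P.freyCurve⁄Kbar).b₆ = 0 := by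
  simp only [WeierstrassCurve.b₆, FreyPackage.freyCurve, WeierstrassCurve.Affine.baseChange,
    WeierstrassCurve.baseChange, WeierstrassCurve.map]
  simp

/-- Shape data of the Frey curve at an odd prime `q`, with the valuation facts. -/
theorem frey_shape (P : FreyPackage) {q : ℕ} (hq : q.Prime) (hq2 : q ≠ 2)
    {A : ValuationSubring Kbar} (hA : A.LiesOverPrime q) (σ : Kbar ≃ₐ[ℚ] Kbar) :
    ∃ e al be : Kbar, helper305.Shape (P.freyCurve⁄Kbar) e al be ∧ σ e = e ∧
      A.valuation (2 : Kbar) = 1 ∧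
      A.valuation al ≤ 1 ∧ A.valuation be ≤ 1 ∧ A.valuation (al ^ 2 - 4 * be) = 1 ∧
      (A.valuation be = 1 ∨ (A.valuation al = 1 ∧ be ≠ 0 ∧ A.valuation be < 1 ∧
        ∃ w : Kbar, σ w = w ∧ A.valuation be = A.valuation w ^ P.p)) := by
  have hB2 := frey_b₂ P
  have hB4 := frey_b₄ P
  have hB6 := frey_b₆ P
  have hFLT : (P.a : Kbar) ^ P.p + (P.b : Kbar) ^ P.p = (P.c : Kbar) ^ P.p := by
    exact_mod_cast congrArg (fun z : ℤ => (z : Kbar)) P.hFLT
  have hqZ : Prime (q : ℤ) := Nat.prime_iff_prime_int.1 hq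
  have vle : ∀ n : ℤ, A.valuation (n : Kbar) ≤ 1 := fun n =>
    (ValuationSubring.valuation_le_one_iff A _).2 (helper4205.vs_intCast_mem A n)
  have v1 : ∀ n : ℤ, ¬ (q : ℤ) ∣ n → A.valuation (n : Kbar) = 1 := fun n hn =>
    helper4205.valuation_intCast_eq_one hq hA hn
  have vlt : ∀ n : ℤ, (q : ℤ) ∣ n → A.valuation (n : Kbar) < 1 := fun n hn =>
    (ValuationSubring.mem_nonunits_iff (A := A)).1
      ((helper4205.intCast_mem_nonunits_iff hq hA n).2 hn)
  have h2 : A.valuation (2 : Kbar) = 1 := by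
    have := helper4205.valuation_natCast_eq_one hq hA (n := 2)
      (fun h => hq2 ((Nat.prime_dvd_prime_iff_eq hq Nat.prime_two).1 h))
    exact_mod_cast this
  have h4 : A.valuation (4 : Kbar) = 1 := by
    have : (4 : Kbar) = 2 * 2 := by norm_num
    rw [this, map_mul, h2, one_mul]
  have h16 : A.valuation (16 : Kbar) = 1 := by
    have : (16 : Kbar) = 4 * 4 := by norm_num
    rw [this, map_mul, h4, one_mul]
  have hab : ¬ ((q : ℤ) ∣ P.a ∧ (q : ℤ) ∣ P.b) := by
    rintro ⟨h1, h2⟩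
    have := dvd_gcd h1 h2
    rw [P.hgcdab] at this
    exact hqZ.not_dvd_one this
  have hac : ¬ ((q : ℤ) ∣ P.a ∧ (q : ℤ) ∣ P.c) := by
    rintro ⟨h1, h2⟩
    have := dvd_gcd h1 h2
    rw [P.hgcdac] at this
    exact hqZ.not_dvd_one this
  have hbc : ¬ ((q : ℤ) ∣ P.b ∧ (q : ℤ) ∣ P.c) := by
    rintro ⟨h1, h2⟩
    have := dvd_gcd h1 h2
    rw [P.hgcdbc] at this
    exact hqZ.not_dvd_one this
  have ha0 : (P.a : Kbar) ≠ 0 := Int.cast_ne_zero.2 P.ha0
  have hb0 : (P.b : Kbar) ≠ 0 := Int.cast_ne_zero.2 P.hb0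
  have hc0 : (P.c : Kbar) ≠ 0 := Int.cast_ne_zero.2 P.hc0
  have hσint : ∀ n : ℤ, σ (n : Kbar) = n := fun n => map_intCast σ n
  have hσa := hσint P.a
  have hσb := hσint P.b
  have hσc := hσint P.c
  have vle_a := vle P.a
  have vle_b := vle P.b
  have vle_c := vle P.c
  have h16' : (16 : Kbar) ≠ 0 := by norm_num
  have hp0 : P.p ≠ 0 := P.hp0
  by_cases hqc : (q : ℤ) ∣ P.c
  · have hqa : ¬ (q : ℤ) ∣ P.a := fun h => hac ⟨h, hqc⟩
    have hqb : ¬ (q : ℤ) ∣ P.b := fun h => hbc ⟨h, hqc⟩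
    have va : A.valuation (P.a : Kbar) = 1 := v1 _ hqa
    have vb : A.valuation (P.b : Kbar) = 1 := v1 _ hqb
    have vc : A.valuation (P.c : Kbar) < 1 := vlt _ hqc
    generalize (P.a : Kbar) = a at *
    generalize (P.b : Kbar) = b at *
    generalize (P.c : Kbar) = c at *
    generalize P.p = p at *
    have vcp : A.valuation (c ^ p) < 1 := by rw [map_pow]; exact pow_lt_one' vc hp0
    have vap : A.valuation (a ^ p) = 1 := by rw [map_pow, va, one_pow]
    have vbp : A.valuation (b ^ p) = 1 := by rw [map_pow, vb, one_pow]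
    refine ⟨a ^ p / 4, (a ^ p + c ^ p) / 4, a ^ p * c ^ p / 16, ⟨two_ne_zero, ?_, ?_, ?_⟩, ?_,
      h2, ?_, ?_, ?_, Or.inr ⟨?_, ?_, ?_, c, hσc, ?_⟩⟩
    · rw [hB2]; linear_combination hFLT
    · rw [hB4]; linear_combination (-(a ^ p) / 8) * hFLT
    · rw [hB6]; ring
    · rw [map_div₀, map_pow, hσa, map_ofNat]
    · rw [map_div₀, h4, div_one]; exact A.valuation.map_add_le vap.le vcp.le
    · rw [map_div₀, h16, div_one, map_mul, vap, one_mul]; exact vcp.le
    · have : ((a ^ p + c ^ p) / 4) ^ 2 - 4 * (a ^ p * c ^ p / 16) = (b ^ p) ^ 2 / 16 := by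
        rw [← hFLT]; ring
      rw [this, map_div₀, h16, div_one, map_pow, vbp, one_pow]
    · rw [map_div₀, h4, div_one, A.valuation.map_add_eq_of_lt_left (by rw [vap]; exact vcp), vap]
    · exact div_ne_zero (mul_ne_zero (pow_ne_zero _ ha0) (pow_ne_zero _ hc0)) h16'
    · rw [map_div₀, h16, div_one, map_mul, vap, one_mul]; exact vcp
    · rw [map_div₀, h16, div_one, map_mul, vap, one_mul, map_pow]
  · have vc : A.valuation (P.c : Kbar) = 1 := v1 _ hqc
    have hcases : ((q : ℤ) ∣ P.a ∧ A.valuation (P.a : Kbar) < 1 ∧ A.valuation (P.b : Kbar) = 1) ∨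
        ((q : ℤ) ∣ P.b ∧ A.valuation (P.b : Kbar) < 1 ∧ A.valuation (P.a : Kbar) = 1) ∨
        (A.valuation (P.a : Kbar) = 1 ∧ A.valuation (P.b : Kbar) = 1) := by
      by_cases hqa : (q : ℤ) ∣ P.a
      · exact Or.inl ⟨hqa, vlt _ hqa, v1 _ (fun h => hab ⟨hqa, h⟩)⟩
      · by_cases hqb : (q : ℤ) ∣ P.b
        · exact Or.inr (Or.inl ⟨hqb, vlt _ hqb, v1 _ hqa⟩)
        · exact Or.inr (Or.inr ⟨v1 _ hqa, v1 _ hqb⟩)
    generalize (P.a : Kbar) = a at *
    generalize (P.b : Kbar) = b at *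
    generalize (P.c : Kbar) = c at *
    generalize P.p = p at *
    have vcp : A.valuation (c ^ p) = 1 := by rw [map_pow, vc, one_pow]
    have vle_ap : A.valuation (a ^ p) ≤ 1 := by rw [map_pow]; exact pow_le_one' vle_a _
    have vle_bp : A.valuation (b ^ p) ≤ 1 := by rw [map_pow]; exact pow_le_one' vle_b _
    have hdisc : ((b ^ p - a ^ p) / 4) ^ 2 - 4 * (-(a ^ p * b ^ p) / 16) = (c ^ p) ^ 2 / 16 := by
      rw [← hFLT]; ring
    refine ⟨0, (b ^ p - a ^ p) / 4, -(a ^ p * b ^ p) / 16, ⟨two_ne_zero, ?_, ?_, ?_⟩,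
      map_zero σ, h2, ?_, ?_, ?_, ?_⟩
    · rw [hB2]; ring
    · rw [hB4]; ring
    · rw [hB6]; ring
    · rw [map_div₀, h4, div_one]; exact A.valuation.map_sub_le vle_bp vle_ap
    · rw [map_div₀, h16, div_one, Valuation.map_neg, map_mul]; exact mul_le_one' vle_ap vle_bp
    · rw [hdisc, map_div₀, h16, div_one, map_pow, vcp, one_pow]
    · rcases hcases with ⟨-, va, vb⟩ | ⟨-, vb, va⟩ | ⟨va, vb⟩
      · have vap : A.valuation (a ^ p) < 1 := by rw [map_pow]; exact pow_lt_one' va hp0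
        have vbp : A.valuation (b ^ p) = 1 := by rw [map_pow, vb, one_pow]
        refine Or.inr ⟨?_, ?_, ?_, a, hσa, ?_⟩
        · rw [map_div₀, h4, div_one,
            A.valuation.map_sub_eq_of_lt_left (by rw [vbp]; exact vap), vbp]
        · exact div_ne_zero (neg_ne_zero.2 (mul_ne_zero (pow_ne_zero _ ha0) (pow_ne_zero _ hb0)))
            h16'
        · rw [map_div₀, h16, div_one, Valuation.map_neg, map_mul, vbp, mul_one]; exact vap
        · rw [map_div₀, h16, div_one, Valuation.map_neg, map_mul, vbp, mul_one, map_pow]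
      · have vbp : A.valuation (b ^ p) < 1 := by rw [map_pow]; exact pow_lt_one' vb hp0
        have vap : A.valuation (a ^ p) = 1 := by rw [map_pow, va, one_pow]
        refine Or.inr ⟨?_, ?_, ?_, b, hσb, ?_⟩
        · rw [map_div₀, h4, div_one,
            A.valuation.map_sub_eq_of_lt_right (by rw [vap]; exact vbp), vap]
        · exact div_ne_zero (neg_ne_zero.2 (mul_ne_zero (pow_ne_zero _ ha0) (pow_ne_zero _ hb0)))
            h16'
        · rw [map_div₀, h16, div_one, Valuation.map_neg, map_mul, vap, one_mul]; exact vbp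
        · rw [map_div₀, h16, div_one, Valuation.map_neg, map_mul, vap, one_mul, map_pow]
      · left
        rw [map_div₀, h16, div_one, Valuation.map_neg, map_mul, map_pow, map_pow, va, vb,
          one_pow, one_mul]

/-- **S05**: the mod `p` Galois representation of the Frey curve is unramified at every
prime `q ≠ 2, p`. -/
theorem frey_unramified (P : FreyPackage) {q : ℕ} (hq : q.Prime) (hq2 : q ≠ 2) (hqp : q ≠ P.p) :
    P.GaloisRepUnramifiedAt q := by
  unfold FreyPackage.GaloisRepUnramifiedAt WeierstrassCurve.Affine.Point.GaloisRepUnramifiedAt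
  intro A hA σ hσ x
  obtain ⟨T, hT⟩ := x
  apply Subtype.ext
  show σ • T = T
  rw [WeierstrassCurve.Affine.Point.algEquiv_smul_def]
  rw [Submodule.mem_torsionBy_iff] at hT
  have hpT : P.p • T = 0 := by rw [← hT, natCast_zsmul]
  obtain ⟨e, al, be, hS, he, h2, hal, hbe, hdisc, hcase⟩ := frey_shape P hq hq2 hA σ
  have hvp : A.valuation (P.p : Kbar) = 1 :=
    helper4205.valuation_natCast_eq_one hq hA
      (fun h => hqp ((Nat.prime_dvd_prime_iff_eq hq P.pp).1 h))
  have hp2 : P.p ≠ 2 := by have := P.hp5; omega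
  have hσm : ∀ x : Kbar, A.valuation x ≤ 1 → A.valuation ((σ : Kbar →+* Kbar) x - x) < 1 := by
    intro x hx
    have := helper4205.apply_sub_mem_nonunits hσ
      ((ValuationSubring.valuation_le_one_iff A x).1 hx)
    exact (ValuationSubring.mem_nonunits_iff (A := A)).1 this
  exact main_fixed (isKData_of_shape hS) hal hbe hdisc h2 P.pp hp2 hvp (σ : Kbar →+* Kbar)
    (Point.map σ.toAlgHom)
    (fun Q hQ => Point.map_injective (f := σ.toAlgHom) (hQ.trans (map_zero _).symm))
    (fun Q _ => ptX_map _ σ he Q) (fun Q _ => ptY_map _ σ Q) hσm hcase hpT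

end frey

end Fermat.Agent.S05.helper160
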