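/-
x-only ("Kummer line") identities in shape coordinates `ξ = x - e` for a Weierstrass curve with
`η² = ξ(ξ² + al ξ + be)` (`Shape W e al be` of helper305), on Mathlib's `Affine.Point`:

* `ξ(P+Q) ξ(P-Q) (ξ₁-ξ₂)² = (ξ₁ξ₂ - be)²`
* `(ξ(P+Q) + ξ(P-Q)) (ξ₁-ξ₂)² = 2(ξ₁+ξ₂)(ξ₁ξ₂+be) + 4 al ξ₁ξ₂`
* `ξ(2P) · 4ξ(ξ²+al ξ+be) = (ξ²-be)²`
-/
import Fermat.Agent.S05.helper1745_XOnly
import Fermat.Agent.S05.helper305_Shape

set_option autoImplicit false

namespace Fermat.Agent.S05.helper1745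

open WeierstrassCurve WeierstrassCurve.Affine
open Fermat.Agent.S05.helper305

variable {K : Type*} [Field K] {W : WeierstrassCurve K} {e al be : K}

/-- `b₈` in shape coordinates. -/
theorem shape_b₈ (hS : Shape W e al be) :
    W.b₈ = -be ^ 2 + 6 * be * e ^ 2 - 4 * al * e ^ 3 + 3 * e ^ 4 := by
  have h4 : (4 : K) ≠ 0 := by
    have : (4 : K) = 2 * 2 := by norm_num
    rw [this]; exact mul_ne_zero hS.two_ne hS.two_ne
  have hrel := W.b_relation
  rw [hS.hb2, hS.hb4, hS.hb6] at hrel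
  apply mul_left_cancel₀ h4
  linear_combination hrel

/-- In shape coordinates, `(2η)² = 4ξ(ξ²+al ξ+be)` is the 2-division cubic. -/
theorem shape_cubic (hS : Shape W e al be) (x : K) :
    4 * x ^ 3 + W.b₂ * x ^ 2 + 2 * W.b₄ * x + W.b₆ =
      4 * ((x - e) * ((x - e) ^ 2 + al * (x - e) + be)) := by
  rw [hS.hb2, hS.hb4, hS.hb6]; ring

/-- `y = negY x y` (i.e. `2P = 0`) iff `ξ(ξ²+al ξ+be) = 0`, iff `η = 0`. -/
theorem shape_y_eq_negY_iff (hS : Shape W e al be) {x y : K} (h : W.toAffine.Equation x y) :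
    y = W.toAffine.negY x y ↔ (x - e) * ((x - e) ^ 2 + al * (x - e) + be) = 0 := by
  have h4 : (4 : K) ≠ 0 := by
    have : (4 : K) = 2 * 2 := by norm_num
    rw [this]; exact mul_ne_zero hS.two_ne hS.two_ne
  rw [y_eq_negY_iff (W := W.toAffine) h, shape_cubic hS x]
  simp [h4]

variable [DecidableEq K]

/-- **Kummer-line addition/subtraction formulas in shape coordinates.** -/
theorem shape_exists_add_sub_some (hS : Shape W e al be) {x₁ y₁ x₂ y₂ : K}
    (h₁ : W.toAffine.Nonsingular x₁ y₁) (h₂ : W.toAffine.Nonsingular x₂ y₂) (hx : x₁ ≠ x₂) :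
    ∃ (Xp Yp Xm Ym : K) (hp : W.toAffine.Nonsingular Xp Yp) (hm : W.toAffine.Nonsingular Xm Ym),
      Point.some x₁ y₁ h₁ + Point.some x₂ y₂ h₂ = Point.some Xp Yp hp ∧
      Point.some x₁ y₁ h₁ - Point.some x₂ y₂ h₂ = Point.some Xm Ym hm ∧
      (Xp - e) * (Xm - e) * ((x₁ - e) - (x₂ - e)) ^ 2 = ((x₁ - e) * (x₂ - e) - be) ^ 2 ∧
      ((Xp - e) + (Xm - e)) * ((x₁ - e) - (x₂ - e)) ^ 2 =
        2 * ((x₁ - e) + (x₂ - e)) * ((x₁ - e) * (x₂ - e) + be) + 4 * al * (x₁ - e) * (x₂ - e) := by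
  obtain ⟨Xp, Yp, Xm, Ym, hp, hm, hadd, hsub, hprod, hsum⟩ :=
    exists_add_sub_some (W := W.toAffine) h₁ h₂ hx
  refine ⟨Xp, Yp, Xm, Ym, hp, hm, hadd, hsub, ?_, ?_⟩
  · have hb8 := shape_b₈ hS
    have hb2 := hS.hb2
    have hb4 := hS.hb4
    have hb6 := hS.hb6
    rw [hb8, hb4, hb6] at hprod
    rw [hb2, hb4, hb6] at hsum
    linear_combination hprod - e * hsum
  · have hb2 := hS.hb2
    have hb4 := hS.hb4
    have hb6 := hS.hb6
    rw [hb2, hb4, hb6] at hsum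
    linear_combination hsum

/-- **Kummer-line duplication formula in shape coordinates.** If `η(P) ≠ 0` (i.e. `2P ≠ 0`), then
`2P` is affine and `ξ(2P) · 4ξ(ξ²+al ξ+be) = (ξ²-be)²`. -/
theorem shape_exists_add_self_some (hS : Shape W e al be) {x y : K}
    (h : W.toAffine.Nonsingular x y) (hy : y ≠ W.toAffine.negY x y) :
    ∃ (X Y : K) (h' : W.toAffine.Nonsingular X Y),
      Point.some x y h + Point.some x y h = Point.some X Y h' ∧
      (X - e) * (4 * ((x - e) * ((x - e) ^ 2 + al * (x - e) + be))) = ((x - e) ^ 2 - be) ^ 2 ∧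
      (x - e) * ((x - e) ^ 2 + al * (x - e) + be) ≠ 0 := by
  obtain ⟨X, Y, h', hadd, hdup, hne⟩ := exists_add_self_some (W := W.toAffine) h hy
  have hcub := shape_cubic hS x
  refine ⟨X, Y, h', hadd, ?_, ?_⟩
  · have hb8 := shape_b₈ hS
    have hb4 := hS.hb4
    have hb6 := hS.hb6
    rw [hcub] at hdup
    rw [hb8, hb4, hb6] at hdup
    linear_combination hdup
  · intro h0
    apply hne
    rw [hcub, h0, mul_zero]

end Fermat.Agent.S05.helper1745
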