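import Fermat.Agent.S05.helper1629_Tropical
import Fermat.Agent.S05.helper1745_XOnlyShape
import Fermat.Agent.S05.helper5_Spec

/-!
# S05/S13 (helper1629): node-case torsion depth, valid in every residue characteristic

`nodeVal_gen`: on a Weierstrass curve of shape `η² = ξ (ξ² + al ξ + be)` (`ξ = x - e`) over a
valued field, with `v (4 * al) = 1` and `0 < v be < 1`, a point `T = (x, y)` of odd prime order
`p` with `v (x - e) < 1` satisfies `v be < v (x - e)` and `v (x - e) ^ p ∈ (v be ^ 2) ^ ℤ`.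

There is **no** hypothesis on `v 2` or on `v p`.  Only the x-only identities of
`helper1745_XOnlyShape` are used (product + duplication; the sum formula only to see that the
points with `1 ≤ v ξ` are stable under addition), through the tropical core `Trop.nodeval`.

Corollary `nodeVal`: the statement `NodeValStmt` of `helper5_Spec`.
-/

set_option autoImplicit false

namespace Fermat.Agent.S05.helper1629

open WeierstrassCurve WeierstrassCurve.Affine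
open Fermat.Agent.S05.helper305 (Shape)

/-! ### An additive order function attached to a valuation -/

section ordv

variable {K : Type*} [Field K] {Γ₀ : Type*} [LinearOrderedCommGroupWithZero Γ₀]
  (v : Valuation K Γ₀)

/-- `-log v x` as an element of the ordered additive group `Additive Γ₀ˣ` (junk value at `0`). -/
noncomputable def ordv (x : K) : Additive Γ₀ˣ :=
  if h : v x = 0 then 0 else Additive.ofMul (Units.mk0 (v x) h)⁻¹

variable {v}
variable {x y z : K}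

theorem ordv_of_ne (hx : x ≠ 0) :
    ordv v x = Additive.ofMul (Units.mk0 (v x) (v.ne_zero_iff.2 hx))⁻¹ := by
  unfold ordv
  rw [dif_neg (v.ne_zero_iff.2 hx)]

theorem ordv_le_iff (hx : x ≠ 0) (hy : y ≠ 0) : ordv v x ≤ ordv v y ↔ v y ≤ v x := by
  rw [ordv_of_ne hx, ordv_of_ne hy, Additive.ofMul_le, inv_le_inv_iff, ← Units.val_le_val]
  rfl

theorem ordv_lt_iff (hx : x ≠ 0) (hy : y ≠ 0) : ordv v x < ordv v y ↔ v y < v x := by
  rw [← not_le, ← not_le, ordv_le_iff hy hx]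

theorem ordv_eq_iff (hx : x ≠ 0) (hy : y ≠ 0) : ordv v x = ordv v y ↔ v x = v y := by
  rw [le_antisymm_iff, le_antisymm_iff, ordv_le_iff hx hy, ordv_le_iff hy hx, and_comm]

theorem ordv_one : ordv v (1 : K) = 0 := by
  rw [ordv_of_ne one_ne_zero]
  have : Units.mk0 (v (1 : K)) (v.ne_zero_iff.2 one_ne_zero) = 1 := by
    ext; simp
  rw [this, inv_one]; rfl

theorem ordv_mul (hx : x ≠ 0) (hy : y ≠ 0) : ordv v (x * y) = ordv v x + ordv v y := by
  rw [ordv_of_ne hx, ordv_of_ne hy, ordv_of_ne (mul_ne_zero hx hy), ← ofMul_mul, ← mul_inv]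
  congr 2
  ext; simp

theorem ordv_pow (hx : x ≠ 0) (n : ℕ) : ordv v (x ^ n) = n • ordv v x := by
  induction n with
  | zero => simp [ordv_one]
  | succ n ih => rw [pow_succ, ordv_mul (pow_ne_zero n hx) hx, ih, succ_nsmul]

theorem ordv_neg : ordv v (-x) = ordv v x := by
  unfold ordv
  simp only [Valuation.map_neg]

theorem ordv_nonneg_iff (hx : x ≠ 0) : 0 ≤ ordv v x ↔ v x ≤ 1 := by
  rw [← ordv_one (v := v), ordv_le_iff one_ne_zero hx, Valuation.map_one]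

theorem ordv_pos_iff (hx : x ≠ 0) : 0 < ordv v x ↔ v x < 1 := by
  rw [← ordv_one (v := v), ordv_lt_iff one_ne_zero hx, Valuation.map_one]

theorem ordv_nonpos_iff (hx : x ≠ 0) : ordv v x ≤ 0 ↔ 1 ≤ v x := by
  rw [← ordv_one (v := v), ordv_le_iff hx one_ne_zero, Valuation.map_one]

theorem ordv_eq_zero_of (h : v x = 1) : ordv v x = 0 := by
  have hx : x ≠ 0 := by
    rintro rfl; simp at h
  rw [← ordv_one (v := v), ordv_eq_iff hx one_ne_zero, h, Valuation.map_one]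

theorem ordv_add_ge (hx : x ≠ 0) (hy : y ≠ 0) (hxy : x + y ≠ 0) :
    min (ordv v x) (ordv v y) ≤ ordv v (x + y) := by
  rcases le_max_iff.1 (v.map_add x y) with h | h
  · exact min_le_iff.2 (Or.inl ((ordv_le_iff hx hxy).2 h))
  · exact min_le_iff.2 (Or.inr ((ordv_le_iff hy hxy).2 h))

theorem ordv_add_eq_of_lt (hx : x ≠ 0) (hy : y ≠ 0) (h : ordv v x < ordv v y) :
    x + y ≠ 0 ∧ ordv v (x + y) = ordv v x := by
  have h1 : v y < v x := (ordv_lt_iff hx hy).1 h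
  have h2 : v (x + y) = v x := v.map_add_eq_of_lt_left h1
  have h3 : x + y ≠ 0 := by
    intro h0
    rw [h0, Valuation.map_zero] at h2
    exact (v.ne_zero_iff.2 hx) h2.symm
  exact ⟨h3, (ordv_eq_iff h3 hx).2 h2⟩

theorem ordv_sub_ge (hx : x ≠ 0) (hy : y ≠ 0) (hxy : x - y ≠ 0) :
    min (ordv v x) (ordv v y) ≤ ordv v (x - y) := by
  have := ordv_add_ge (v := v) hx (neg_ne_zero.2 hy) (by rwa [← sub_eq_add_neg])
  rwa [ordv_neg, ← sub_eq_add_neg] at this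

theorem ordv_sub_eq_of_ne (hx : x ≠ 0) (hy : y ≠ 0) (h : ordv v x ≠ ordv v y) :
    x - y ≠ 0 ∧ ordv v (x - y) = min (ordv v x) (ordv v y) := by
  rcases lt_or_gt_of_ne h with h' | h'
  · have := ordv_add_eq_of_lt (v := v) hx (neg_ne_zero.2 hy) (by rwa [ordv_neg])
    rw [← sub_eq_add_neg] at this
    exact ⟨this.1, by rw [this.2, min_eq_left h'.le]⟩
  · have := ordv_add_eq_of_lt (v := v) (neg_ne_zero.2 hy) hx (by rwa [ordv_neg])
    rw [ordv_neg, neg_add_eq_sub] at this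
    exact ⟨this.1, by rw [this.2, min_eq_right h'.le]⟩

theorem val_two_le_one : v (2 : K) ≤ 1 := by
  have : (2 : K) = 1 + 1 := by norm_num
  rw [this]
  exact (v.map_add 1 1).trans (by simp)

theorem val_four_le_one : v (4 : K) ≤ 1 := by
  have : (4 : K) = 2 + 2 := by norm_num
  rw [this]
  exact (v.map_add 2 2).trans (by simp [val_two_le_one])

end ordv

/-! ### Field level: from the x-only identities to the tropical data -/

section field

variable {K : Type*} [Field K] {Γ₀ : Type*} [LinearOrderedCommGroupWithZero Γ₀]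
  {v : Valuation K Γ₀} {al be : K}

theorem e0_dbl_aux (hal : v (4 * al) = 1) (hbe : v be < 1) (hbe0 : be ≠ 0) (h4 : (4 : K) ≠ 0)
    {ξ X2 : K} (hξ : ξ ≠ 0) (hX2 : X2 ≠ 0)
    (hid : X2 * (4 * (ξ * (ξ ^ 2 + al * ξ + be))) = (ξ ^ 2 - be) ^ 2)
    (hcub : ξ * (ξ ^ 2 + al * ξ + be) ≠ 0) (hc : ordv v ξ ≤ 0) : ordv v X2 ≤ 0 := by
  have hQ0 : 4 * (ξ ^ 2 + al * ξ + be) ≠ 0 := mul_ne_zero h4 (right_ne_zero_of_mul hcub)
  have hid' : X2 * (ξ * (4 * (ξ ^ 2 + al * ξ + be))) = (ξ ^ 2 - be) ^ 2 := by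
    rw [← hid]; ring
  have hvξ : 1 ≤ v ξ := (ordv_nonpos_iff hξ).1 hc
  have hξ2 : v ξ ≤ v (ξ ^ 2) := by
    rw [map_pow, pow_two]; exact le_mul_of_one_le_left' hvξ
  have hvQ : v (4 * (ξ ^ 2 + al * ξ + be)) ≤ v (ξ ^ 2) := by
    have e : 4 * (ξ ^ 2 + al * ξ + be) = 4 * ξ ^ 2 + (4 * al) * ξ + 4 * be := by ring
    rw [e]
    have t1 : v (4 * ξ ^ 2) ≤ v (ξ ^ 2) := by
      rw [map_mul]; exact mul_le_of_le_one_left' val_four_le_one
    have t2 : v ((4 * al) * ξ) ≤ v (ξ ^ 2) := by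
      rw [map_mul, hal, one_mul]; exact hξ2
    have t3 : v (4 * be) ≤ v (ξ ^ 2) := by
      rw [map_mul]
      exact (mul_le_of_le_one_left' val_four_le_one).trans (hbe.le.trans (hvξ.trans hξ2))
    exact (v.map_add _ _).trans (max_le ((v.map_add _ _).trans (max_le t1 t2)) t3)
  have hq : ordv v (ξ ^ 2) ≤ ordv v (4 * (ξ ^ 2 + al * ξ + be)) :=
    (ordv_le_iff (pow_ne_zero 2 hξ) hQ0).2 hvQ
  have hN : 0 < ordv v be := (ordv_pos_iff hbe0).2 hbe
  have hξ2o : ordv v (ξ ^ 2) = 2 • ordv v ξ := ordv_pow hξ 2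
  obtain ⟨hR0, hR⟩ := ordv_sub_eq_of_ne (v := v) (pow_ne_zero 2 hξ) hbe0
    (by rw [hξ2o]; intro h; grind)
  have heq := congrArg (ordv v) hid'
  rw [ordv_mul hX2 (mul_ne_zero hξ hQ0), ordv_mul hξ hQ0, ordv_pow hR0, hR, hξ2o] at heq
  rw [hξ2o] at hq
  grind

theorem dbl_aux (hal : v (4 * al) = 1) (hbe0 : be ≠ 0) (h4 : (4 : K) ≠ 0)
    {ξ X2 : K} (hξ : ξ ≠ 0) (hX2 : X2 ≠ 0)
    (hid : X2 * (4 * (ξ * (ξ ^ 2 + al * ξ + be))) = (ξ ^ 2 - be) ^ 2)
    (hcub : ξ * (ξ ^ 2 + al * ξ + be) ≠ 0) (hc : 0 < ordv v ξ) :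
    ∃ q r : Additive Γ₀ˣ, ordv v X2 + ordv v ξ + q = 2 • r ∧
      min (ordv v ξ) (ordv v be) ≤ q ∧ (ordv v ξ < ordv v be → q = ordv v ξ) ∧
      min (2 • ordv v ξ) (ordv v be) ≤ r ∧
      (2 • ordv v ξ ≠ ordv v be → r = min (2 • ordv v ξ) (ordv v be)) := by
  have hQ0 : 4 * (ξ ^ 2 + al * ξ + be) ≠ 0 := mul_ne_zero h4 (right_ne_zero_of_mul hcub)
  have hid' : X2 * (ξ * (4 * (ξ ^ 2 + al * ξ + be))) = (ξ ^ 2 - be) ^ 2 := by
    rw [← hid]; ring
  have hR2 : (ξ ^ 2 - be) ^ 2 ≠ 0 := by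
    rw [← hid']; exact mul_ne_zero hX2 (mul_ne_zero hξ hQ0)
  have hR0 : ξ ^ 2 - be ≠ 0 := fun h => hR2 (by rw [h]; ring)
  have hvξ : v ξ < 1 := (ordv_pos_iff hξ).1 hc
  have hvξ0 : 0 < v ξ := lt_of_le_of_ne zero_le (Ne.symm (v.ne_zero_iff.2 hξ))
  have t1 : v (4 * ξ ^ 2) ≤ v ξ * v ξ := by
    rw [map_mul, map_pow, pow_two]; exact mul_le_of_le_one_left' val_four_le_one
  have t1' : v ξ * v ξ < v ξ := mul_lt_of_lt_one_right hvξ0 hvξ
  have t2 : v ((4 * al) * ξ) = v ξ := by rw [map_mul, hal, one_mul]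
  have t3 : v (4 * be) ≤ v be := by
    rw [map_mul]; exact mul_le_of_le_one_left' val_four_le_one
  have hξ2o : ordv v (ξ ^ 2) = 2 • ordv v ξ := ordv_pow hξ 2
  refine ⟨ordv v (4 * (ξ ^ 2 + al * ξ + be)), ordv v (ξ ^ 2 - be), ?_, ?_, ?_, ?_, ?_⟩
  · have heq := congrArg (ordv v) hid'
    rw [ordv_mul hX2 (mul_ne_zero hξ hQ0), ordv_mul hξ hQ0, ordv_pow hR0, ← add_assoc] at heq
    exact heq
  · have e : 4 * (ξ ^ 2 + al * ξ + be) = 4 * ξ ^ 2 + (4 * al) * ξ + 4 * be := by ring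
    have hle : v (4 * (ξ ^ 2 + al * ξ + be)) ≤ max (v ξ) (v be) := by
      rw [e]
      refine (v.map_add _ _).trans (max_le ((v.map_add _ _).trans (max_le ?_ ?_)) ?_)
      · exact (t1.trans t1'.le).trans (le_max_left _ _)
      · exact t2.le.trans (le_max_left _ _)
      · exact t3.trans (le_max_right _ _)
    rcases le_max_iff.1 hle with h | h
    · exact min_le_iff.2 (Or.inl ((ordv_le_iff hξ hQ0).2 h))
    · exact min_le_iff.2 (Or.inr ((ordv_le_iff hbe0 hQ0).2 h))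
  · intro hlt
    have hv : v be < v ξ := (ordv_lt_iff hξ hbe0).1 hlt
    have e : 4 * (ξ ^ 2 + al * ξ + be) = (4 * al) * ξ + (4 * ξ ^ 2 + 4 * be) := by ring
    have hsmall : v (4 * ξ ^ 2 + 4 * be) < v ((4 * al) * ξ) := by
      rw [t2]
      exact lt_of_le_of_lt (v.map_add _ _) (max_lt (lt_of_le_of_lt t1 t1') (lt_of_le_of_lt t3 hv))
    have hQ : v (4 * (ξ ^ 2 + al * ξ + be)) = v ((4 * al) * ξ) := by
      rw [e]; exact v.map_add_eq_of_lt_left hsmall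
    exact (ordv_eq_iff hQ0 hξ).2 (hQ.trans t2)
  · have := ordv_sub_ge (v := v) (pow_ne_zero 2 hξ) hbe0 hR0
    rwa [hξ2o] at this
  · intro hne
    have := (ordv_sub_eq_of_ne (v := v) (pow_ne_zero 2 hξ) hbe0 (by rwa [hξ2o])).2
    rwa [hξ2o] at this

theorem prod_aux (hbe0 : be ≠ 0) {ξ₁ ξ₂ ξp ξm : K} (h1 : ξ₁ ≠ 0) (h2 : ξ₂ ≠ 0)
    (hp0 : ξp ≠ 0) (hm0 : ξm ≠ 0) (hne : ξ₁ ≠ ξ₂)
    (hPi : ξp * ξm * (ξ₁ - ξ₂) ^ 2 = (ξ₁ * ξ₂ - be) ^ 2) :
    ∃ d g : Additive Γ₀ˣ, ordv v ξp + ordv v ξm + 2 • d = 2 • g ∧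
      min (ordv v ξ₁) (ordv v ξ₂) ≤ d ∧
      (ordv v ξ₁ ≠ ordv v ξ₂ → d = min (ordv v ξ₁) (ordv v ξ₂)) ∧
      min (ordv v ξ₁ + ordv v ξ₂) (ordv v be) ≤ g ∧
      (ordv v ξ₁ + ordv v ξ₂ ≠ ordv v be → g = min (ordv v ξ₁ + ordv v ξ₂) (ordv v be)) := by
  have hd0 : ξ₁ - ξ₂ ≠ 0 := sub_ne_zero.2 hne
  have h12 : ξ₁ * ξ₂ ≠ 0 := mul_ne_zero h1 h2
  have o12 : ordv v (ξ₁ * ξ₂) = ordv v ξ₁ + ordv v ξ₂ := ordv_mul h1 h2
  have hg2 : (ξ₁ * ξ₂ - be) ^ 2 ≠ 0 := by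
    rw [← hPi]; exact mul_ne_zero (mul_ne_zero hp0 hm0) (pow_ne_zero 2 hd0)
  have hg0 : ξ₁ * ξ₂ - be ≠ 0 := fun h => hg2 (by rw [h]; ring)
  refine ⟨ordv v (ξ₁ - ξ₂), ordv v (ξ₁ * ξ₂ - be), ?_, ?_, ?_, ?_, ?_⟩
  · have heq := congrArg (ordv v) hPi
    rw [ordv_mul (mul_ne_zero hp0 hm0) (pow_ne_zero 2 hd0), ordv_mul hp0 hm0, ordv_pow hd0,
      ordv_pow hg0] at heq
    exact heq
  · exact ordv_sub_ge h1 h2 hd0
  · intro h; exact (ordv_sub_eq_of_ne h1 h2 h).2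
  · have := ordv_sub_ge (v := v) h12 hbe0 hg0
    rwa [o12] at this
  · intro h
    have := (ordv_sub_eq_of_ne (v := v) h12 hbe0 (by rwa [o12])).2
    rwa [o12] at this

theorem e0_add_aux (hal : v (4 * al) = 1) (hbe : v be < 1) (hbe0 : be ≠ 0)
    {ξ₁ ξ₂ ξp ξm : K} (h1 : ξ₁ ≠ 0) (h2 : ξ₂ ≠ 0)
    (hp0 : ξp ≠ 0) (hm0 : ξm ≠ 0) (hne : ξ₁ ≠ ξ₂)
    (hPi : ξp * ξm * (ξ₁ - ξ₂) ^ 2 = (ξ₁ * ξ₂ - be) ^ 2)
    (hSig : (ξp + ξm) * (ξ₁ - ξ₂) ^ 2 =
      2 * (ξ₁ + ξ₂) * (ξ₁ * ξ₂ + be) + 4 * al * ξ₁ * ξ₂)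
    (hc1 : ordv v ξ₁ ≤ 0) (hc2 : ordv v ξ₂ ≤ 0) : ordv v ξp ≤ 0 := by
  by_contra hcon
  have hpos : 0 < ordv v ξp := not_le.1 hcon
  have hN : 0 < ordv v be := (ordv_pos_iff hbe0).2 hbe
  have h4al : 4 * al ≠ 0 := by
    intro h; rw [h] at hal; simp at hal
  have hd0 : ξ₁ - ξ₂ ≠ 0 := sub_ne_zero.2 hne
  have h12 : ξ₁ * ξ₂ ≠ 0 := mul_ne_zero h1 h2
  have o12 : ordv v (ξ₁ * ξ₂) = ordv v ξ₁ + ordv v ξ₂ := ordv_mul h1 h2
  have hlt : ordv v (ξ₁ * ξ₂) < ordv v be := by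
    rw [o12]; grind
  obtain ⟨hg0, hg⟩ := ordv_sub_eq_of_ne (v := v) h12 hbe0 hlt.ne
  have hd := ordv_sub_ge (v := v) h1 h2 hd0
  have ePi := congrArg (ordv v) hPi
  rw [ordv_mul (mul_ne_zero hp0 hm0) (pow_ne_zero 2 hd0), ordv_mul hp0 hm0, ordv_pow hd0,
    ordv_pow hg0, hg, o12] at ePi
  have hmp : ordv v ξm < ordv v ξp := by grind
  obtain ⟨hs0, hs⟩ := ordv_add_eq_of_lt (v := v) hm0 hp0 hmp
  have hSig' : (ξm + ξp) * (ξ₁ - ξ₂) ^ 2 =
      2 * (ξ₁ + ξ₂) * (ξ₁ * ξ₂ + be) + (4 * al) * (ξ₁ * ξ₂) := by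
    rw [add_comm ξm ξp, hSig]; ring
  have hB0 : (4 * al) * (ξ₁ * ξ₂) ≠ 0 := mul_ne_zero h4al h12
  have oB : ordv v ((4 * al) * (ξ₁ * ξ₂)) = ordv v ξ₁ + ordv v ξ₂ := by
    rw [ordv_mul h4al h12, ordv_eq_zero_of hal, zero_add, o12]
  have hL0 : (ξm + ξp) * (ξ₁ - ξ₂) ^ 2 ≠ 0 := mul_ne_zero hs0 (pow_ne_zero 2 hd0)
  have oL : ordv v ((ξm + ξp) * (ξ₁ - ξ₂) ^ 2) = ordv v ξm + 2 • ordv v (ξ₁ - ξ₂) := by
    rw [ordv_mul hs0 (pow_ne_zero 2 hd0), hs, ordv_pow hd0]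
  by_cases hA : 2 * (ξ₁ + ξ₂) * (ξ₁ * ξ₂ + be) = 0
  · rw [hA, zero_add] at hSig'
    rw [hSig', oB] at oL
    grind
  · have hs12 : ξ₁ + ξ₂ ≠ 0 := by
      intro h; apply hA; rw [h]; ring
    have hu0 : ξ₁ * ξ₂ + be ≠ 0 := by
      intro h; apply hA; rw [h]; ring
    have h20 : (2 : K) ≠ 0 := by
      intro h; apply hA; rw [h]; ring
    have ou : ordv v (ξ₁ * ξ₂ + be) = ordv v ξ₁ + ordv v ξ₂ := by
      rw [(ordv_add_eq_of_lt h12 hbe0 hlt).2, o12]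
    have os := ordv_add_ge (v := v) h1 h2 hs12
    have o2 : 0 ≤ ordv v (2 : K) := (ordv_nonneg_iff h20).2 val_two_le_one
    have oA : ordv v (2 * (ξ₁ + ξ₂) * (ξ₁ * ξ₂ + be)) =
        ordv v 2 + ordv v (ξ₁ + ξ₂) + (ordv v ξ₁ + ordv v ξ₂) := by
      rw [ordv_mul (mul_ne_zero h20 hs12) hu0, ordv_mul h20 hs12, ou]
    have hR0 : 2 * (ξ₁ + ξ₂) * (ξ₁ * ξ₂ + be) + (4 * al) * (ξ₁ * ξ₂) ≠ 0 := by
      rw [← hSig']; exact hL0
    have oR := ordv_add_ge (v := v) hA hB0 hR0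
    rw [← hSig', oL, oA, oB] at oR
    grind

/-- The x-only "Kummer package" of the multiples of a point of prime order `p`, in the
coordinate `X m = ξ (m • T)` (junk value when `p ∣ m`). -/
structure Kum (al be : K) (p : ℕ) (X : ℕ → K) : Prop where
  ne : ∀ m, ¬ p ∣ m → X m ≠ 0
  per : ∀ m n, p ∣ m + n → X m = X n
  dbl : ∀ m, ¬ p ∣ m →
    X (2 * m) * (4 * (X m * (X m ^ 2 + al * X m + be))) = (X m ^ 2 - be) ^ 2 ∧
      X m * (X m ^ 2 + al * X m + be) ≠ 0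
  add : ∀ m n, ¬ p ∣ m → ¬ p ∣ n → ¬ p ∣ (m + n) → n ≤ m → ¬ p ∣ (m - n) →
    X m ≠ X n ∧ X (m + n) * X (m - n) * (X m - X n) ^ 2 = (X m * X n - be) ^ 2 ∧
      (X (m + n) + X (m - n)) * (X m - X n) ^ 2 =
        2 * (X m + X n) * (X m * X n + be) + 4 * al * X m * X n

/-- The Kummer package gives tropical data (no hypothesis on `v 2` or `v p`). -/
theorem Kum.trop {p : ℕ} {X : ℕ → K} (hK : Kum al be p X) (hp : p.Prime) (hp2 : p ≠ 2)
    (h4 : (4 : K) ≠ 0) (hal : v (4 * al) = 1) (hbe : v be < 1) (hbe0 : be ≠ 0) :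
    Trop p (ordv v be) (fun m => ordv v (X m)) := by
  refine ⟨?_, ?_, ?_, ?_, ?_⟩
  · intro m n hmn
    show ordv v (X m) = ordv v (X n)
    rw [hK.per m n hmn]
  · intro m hm hc
    obtain ⟨hid, hcub⟩ := hK.dbl m hm
    exact e0_dbl_aux hal hbe hbe0 h4 (hK.ne m hm) (hK.ne _ (Trop.not_dvd_two_mul hp hp2 hm))
      hid hcub hc
  · intro m n hm hn hmn hle hsub hc1 hc2
    obtain ⟨hne, hPi, hSig⟩ := hK.add m n hm hn hmn hle hsub
    exact e0_add_aux hal hbe hbe0 (hK.ne m hm) (hK.ne n hn) (hK.ne _ hmn) (hK.ne _ hsub)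
      hne hPi hSig hc1 hc2
  · intro m hm hc
    obtain ⟨hid, hcub⟩ := hK.dbl m hm
    exact dbl_aux hal hbe0 h4 (hK.ne m hm) (hK.ne _ (Trop.not_dvd_two_mul hp hp2 hm))
      hid hcub hc
  · intro m n hm hn hmn hle hsub _ _
    obtain ⟨hne, hPi, -⟩ := hK.add m n hm hn hmn hle hsub
    exact prod_aux hbe0 (hK.ne m hm) (hK.ne n hn) (hK.ne _ hmn) (hK.ne _ hsub) hne hPi

end field

/-! ### Point level -/

section point

variable {K : Type*} [Field K] {W : WeierstrassCurve K} {e al be : K}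

/-- The shifted x-coordinate `ξ = x - e` of a point (junk value `0` at the origin). -/
def xiP (e : K) : W.toAffine.Point → K
  | .zero => 0
  | .some x _ _ => x - e

theorem xiP_some {x y : K} (h : W.toAffine.Nonsingular x y) :
    xiP e (Point.some x y h : W.toAffine.Point) = x - e := rfl

theorem xiP_neg (P : W.toAffine.Point) : xiP e (-P) = xiP e P := by
  cases P with
  | zero => rfl
  | some x y h => rw [Point.neg_some]; rfl

variable [DecidableEq K]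

/-- The multiples of a point of odd prime order satisfy the x-only Kummer package. -/
theorem kum_of_point (hS : Shape W e al be) {p : ℕ} (hp : p.Prime) (hp2 : p ≠ 2)
    (T : W.toAffine.Point) (hT0 : T ≠ 0) (hpT : p • T = 0) :
    Kum al be p (fun m => xiP e (m • T)) := by
  have : Fact p.Prime := ⟨hp⟩
  have hord : ∀ m : ℕ, m • T = 0 → p ∣ m := by
    intro m hm
    have h1 : addOrderOf T = p := addOrderOf_eq_prime hpT hT0
    rw [← h1]; exact addOrderOf_dvd_of_nsmul_eq_zero hm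
  have hex : ∀ m : ℕ, ¬ p ∣ m → ∃ (x y : K) (h : W.toAffine.Nonsingular x y),
      m • T = Point.some x y h ∧ y ≠ W.toAffine.negY x y := by
    intro m hm
    rcases hP : m • T with _ | ⟨x, y, h⟩
    · exact absurd (hord m hP) hm
    · refine ⟨x, y, h, rfl, ?_⟩
      intro hy
      have h2 : (2 * m) • T = 0 := by
        rw [two_mul, add_nsmul, hP]; exact Point.add_self_of_Y_eq hy
      exact Trop.not_dvd_two_mul hp hp2 hm (hord _ h2)
  refine ⟨?_, ?_, ?_, ?_⟩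
  · intro m hm
    obtain ⟨x, y, h, hP, hy⟩ := hex m hm
    have hcub : ¬ ((x - e) * ((x - e) ^ 2 + al * (x - e) + be) = 0) :=
      fun h0 => hy ((Fermat.Agent.S05.helper1745.shape_y_eq_negY_iff hS h.1).2 h0)
    show xiP e (m • T) ≠ 0
    rw [hP, xiP_some]
    exact left_ne_zero_of_mul hcub
  · intro m n hmn
    have h0 : m • T + n • T = 0 := by
      obtain ⟨k, hk⟩ := hmn
      rw [← add_nsmul, hk, mul_nsmul, hpT, nsmul_zero]
    show xiP e (m • T) = xiP e (n • T)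
    rw [eq_neg_of_add_eq_zero_left h0, xiP_neg]
  · intro m hm
    obtain ⟨x, y, h, hP, hy⟩ := hex m hm
    obtain ⟨X2, Y2, h2, hadd, hid, hne⟩ :=
      Fermat.Agent.S05.helper1745.shape_exists_add_self_some hS h hy
    have h2m : (2 * m) • T = Point.some X2 Y2 h2 := by
      rw [two_mul, add_nsmul, hP, hadd]
    show xiP e ((2 * m) • T) * (4 * (xiP e (m • T) * (xiP e (m • T) ^ 2 + al * xiP e (m • T) + be)))
        = (xiP e (m • T) ^ 2 - be) ^ 2 ∧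
      xiP e (m • T) * (xiP e (m • T) ^ 2 + al * xiP e (m • T) + be) ≠ 0
    rw [hP, h2m, xiP_some, xiP_some]
    exact ⟨hid, hne⟩
  · intro m n hm hn hmn hle hsub
    obtain ⟨x₁, y₁, h₁, hP₁, -⟩ := hex m hm
    obtain ⟨x₂, y₂, h₂, hP₂, -⟩ := hex n hn
    have h3 : (m - n) • T + n • T = m • T := by
      rw [← add_nsmul, Nat.sub_add_cancel hle]
    have hx : x₁ ≠ x₂ := by
      intro hx
      rcases Y_eq_of_X_eq h₁.1 h₂.1 hx with hy | hy
      · have hmn' : m • T = n • T := by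
          rw [hP₁, hP₂]; subst hx; subst hy; rfl
        apply hsub; apply hord
        rw [hmn'] at h3
        exact add_eq_right.1 h3
      · have h0 : m • T + n • T = 0 := by
          rw [hP₁, hP₂]; exact Point.add_of_Y_eq hx hy
        apply hmn; apply hord
        rw [add_nsmul]; exact h0
    obtain ⟨Xp, Yp, Xm, Ym, hp', hm', hadd, hsubp, hPi, hSig⟩ :=
      Fermat.Agent.S05.helper1745.shape_exists_add_sub_some hS h₁ h₂ hx
    have e1 : (m + n) • T = Point.some Xp Yp hp' := by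
      rw [add_nsmul, hP₁, hP₂, hadd]
    have e2 : (m - n) • T = Point.some Xm Ym hm' := by
      rw [← hsubp, ← hP₁, ← hP₂, ← h3, add_sub_cancel_right]
    show xiP e (m • T) ≠ xiP e (n • T) ∧
      xiP e ((m + n) • T) * xiP e ((m - n) • T) * (xiP e (m • T) - xiP e (n • T)) ^ 2 =
        (xiP e (m • T) * xiP e (n • T) - be) ^ 2 ∧
      (xiP e ((m + n) • T) + xiP e ((m - n) • T)) * (xiP e (m • T) - xiP e (n • T)) ^ 2 =
        2 * (xiP e (m • T) + xiP e (n • T)) * (xiP e (m • T) * xiP e (n • T) + be) +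
          4 * al * xiP e (m • T) * xiP e (n • T)
    rw [e1, e2, hP₁, hP₂, xiP_some, xiP_some, xiP_some, xiP_some]
    exact ⟨fun h => hx (sub_left_inj.1 h), hPi, hSig⟩

/-- **Node-case torsion depth, in every residue characteristic.**  On a curve of shape
`η² = ξ (ξ² + al ξ + be)` with `v (4 al) = 1` and `0 < v be < 1`, a point of odd prime order `p`
near the node (`v ξ < 1`) satisfies `v be < v ξ` and `v ξ ^ p ∈ (v be ^ 2) ^ ℤ`.
No hypothesis on `v 2` or `v p`. -/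
theorem nodeVal_gen {Γ₀ : Type*} [LinearOrderedCommGroupWithZero Γ₀] (v : Valuation K Γ₀)
    (hS : Shape W e al be) (hal : v (4 * al) = 1) (hbe : v be < 1) (hbe0 : be ≠ 0)
    {p : ℕ} (hp : p.Prime) (hp2 : p ≠ 2) {x y : K} (h : W.toAffine.Nonsingular x y)
    (hx : v (x - e) < 1) (hT : p • (Point.some x y h : W.toAffine.Point) = 0) :
    v be < v (x - e) ∧ ∃ j : ℤ, v (x - e) ^ p = v be ^ (2 * j) := by
  have h4 : (4 : K) ≠ 0 := by
    have : (4 : K) = 2 * 2 := by norm_num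
    rw [this]; exact mul_ne_zero hS.two_ne hS.two_ne
  have hK := kum_of_point hS hp hp2 (Point.some x y h) (Point.some_ne_zero h) hT
  have hTr := hK.trop (v := v) hp hp2 h4 hal hbe hbe0
  have h1p : ¬ p ∣ 1 := Nat.not_dvd_of_pos_of_lt one_pos hp.one_lt
  have hξ0 : x - e ≠ 0 := by
    have := hK.ne 1 h1p
    simpa [one_nsmul, xiP_some] using this
  have hN : 0 < ordv v be := (ordv_pos_iff hbe0).2 hbe
  have h1 : 0 < ordv v (xiP e ((1 : ℕ) • (Point.some x y h : W.toAffine.Point))) := by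
    rw [one_nsmul, xiP_some]; exact (ordv_pos_iff hξ0).2 hx
  obtain ⟨hlt, j, hj⟩ := hTr.nodeval hp hp2 hN h1
  simp only [one_nsmul, xiP_some] at hlt hj
  refine ⟨(ordv_lt_iff hξ0 hbe0).1 hlt, j, ?_⟩
  rw [ordv_of_ne hξ0, ordv_of_ne hbe0, ← ofMul_pow, ← ofMul_zpow] at hj
  have hj' := Additive.ofMul.injective hj
  rw [inv_pow, inv_zpow, inv_inj] at hj'
  have := congrArg Units.val hj'
  simpa using this

end point

/-- `NodeValStmt` of `helper5_Spec` (the hypotheses `v 2 = 1`, `v al = 1` are only used through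
`v (4 * al) = 1`; `v p = 1` is not used). -/
theorem nodeValStmt : Fermat.Agent.S05.helper5.NodeValStmt := by
  intro K _ _ Γ₀ _ v W e al be hS h2 hal hbe hbe0 p hp hp2 _ x y h hx hT
  refine nodeVal_gen v hS ?_ hbe hbe0 hp hp2 h hx hT
  have : (4 : K) = 2 * 2 := by norm_num
  rw [this, map_mul, map_mul, h2, hal]; simp

/-- Board row S05-NODEVAL, in the requested hypothesis-passing shape. -/
theorem nodeVal (_hK : Fermat.Agent.S05.helper5.KerStmt) : Fermat.Agent.S05.helper5.NodeValStmt :=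
  nodeValStmt

end Fermat.Agent.S05.helper1629
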