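import Mathlib

/-!
# S05/S13 (helper1629): tropical core of the node-case torsion-depth statement

Pure ordered-abelian-group combinatorics, no fields and no elliptic curves.

`Trop p N c` packages what the product formula and the duplication formula of the
Kummer line say about the "orders" `c m = ord (ξ (m • T))` of the multiples of a point
`T` of odd prime order `p` on `η² = ξ (ξ² + α ξ + β)` with `ord (4 α) = 0`, `ord β = N > 0`:

* `per`: `c` is even and `p`-periodic;
* `e0_dbl`, `e0_add`: the points with `c ≤ 0` (the "identity component") are stable under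
  doubling and addition;
* `dbl`, `prod`: the duplication and product formulas for points near the node (`0 < c`).

No hypothesis on the residue characteristic is encoded (nothing about `ord 2`, `ord p`).

Main result `Trop.nodeval`: if `0 < c 1` then `c 1 < N` and `p • c 1 ∈ 2 N ℤ`.
The proof is the "minimal generator" argument: all nonzero multiples have positive order;
among them pick one with minimal order `θ`; its multiples have orders `θ, 2θ, …` while
below `N`, then `2N - mθ`, and periodicity (`c (p-1) = c 1`) forces `p θ = 2 N`.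
-/

set_option autoImplicit false
set_option linter.unusedSectionVars false

namespace Fermat.Agent.S05.helper1629

variable {Γ : Type*} [AddCommGroup Γ] [LinearOrder Γ]

/-- Tropical Kummer-line data for the multiples of a point of prime order `p`. -/
structure Trop (p : ℕ) (N : Γ) (c : ℕ → Γ) : Prop where
  per : ∀ m n : ℕ, p ∣ m + n → c m = c n
  e0_dbl : ∀ m : ℕ, ¬ p ∣ m → c m ≤ 0 → c (2 * m) ≤ 0
  e0_add : ∀ m n : ℕ, ¬ p ∣ m → ¬ p ∣ n → ¬ p ∣ (m + n) → n ≤ m → ¬ p ∣ (m - n) →
      c m ≤ 0 → c n ≤ 0 → c (m + n) ≤ 0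
  dbl : ∀ m : ℕ, ¬ p ∣ m → 0 < c m → ∃ q r : Γ, c (2 * m) + c m + q = 2 • r ∧
      min (c m) N ≤ q ∧ (c m < N → q = c m) ∧
      min (2 • c m) N ≤ r ∧ (2 • c m ≠ N → r = min (2 • c m) N)
  prod : ∀ m n : ℕ, ¬ p ∣ m → ¬ p ∣ n → ¬ p ∣ (m + n) → n ≤ m → ¬ p ∣ (m - n) →
      0 < c m → 0 < c n →
      ∃ d g : Γ, c (m + n) + c (m - n) + 2 • d = 2 • g ∧
      min (c m) (c n) ≤ d ∧ (c m ≠ c n → d = min (c m) (c n)) ∧
      min (c m + c n) N ≤ g ∧ (c m + c n ≠ N → g = min (c m + c n) N)

namespace Trop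

variable {p : ℕ} {N : Γ} {c : ℕ → Γ}

/-- The data of the multiples of `k • T` (for `p ∤ k`). -/
theorem scale (h : Trop p N c) (hp : p.Prime) {k : ℕ} (hk : ¬ p ∣ k) :
    Trop p N (fun m => c (k * m)) := by
  have hmul : ∀ m : ℕ, ¬ p ∣ m → ¬ p ∣ k * m := fun m hm hd =>
    (hp.dvd_mul.1 hd).elim hk hm
  refine ⟨?_, ?_, ?_, ?_, ?_⟩
  · intro m n hmn
    refine h.per _ _ ?_
    rw [← Nat.mul_add]
    exact Dvd.dvd.mul_left hmn k
  · intro m hm hc
    have := h.e0_dbl _ (hmul m hm) hc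
    rw [show 2 * (k * m) = k * (2 * m) by ring] at this
    exact this
  · intro m n hm hn hmn hle hsub hcm hcn
    have := h.e0_add (k * m) (k * n) (hmul m hm) (hmul n hn)
      (by rw [← Nat.mul_add]; exact hmul _ hmn) (Nat.mul_le_mul_left k hle)
      (by rw [← Nat.mul_sub]; exact hmul _ hsub) hcm hcn
    rw [← Nat.mul_add] at this
    exact this
  · intro m hm hc
    have := h.dbl _ (hmul m hm) hc
    rw [show 2 * (k * m) = k * (2 * m) by ring] at this
    exact this
  · intro m n hm hn hmn hle hsub hcm hcn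
    have := h.prod (k * m) (k * n) (hmul m hm) (hmul n hn)
      (by rw [← Nat.mul_add]; exact hmul _ hmn) (Nat.mul_le_mul_left k hle)
      (by rw [← Nat.mul_sub]; exact hmul _ hsub) hcm hcn
    rw [← Nat.mul_add, ← Nat.mul_sub] at this
    exact this

/-- `c` only depends on the index modulo `p`. -/
theorem congr_mod (h : Trop p N c) (hp : p.Prime) {m n : ℕ} (hmn : m ≡ n [MOD p]) :
    c m = c n := by
  have h1 : p ∣ m + (p - 1) * m := by
    have : m + (p - 1) * m = p * m := by
      have hp1 : 1 ≤ p := hp.one_lt.le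
      calc m + (p - 1) * m = (1 + (p - 1)) * m := by ring
        _ = p * m := by rw [Nat.add_sub_cancel' hp1]
    rw [this]; exact Dvd.intro _ rfl
  have h2 : p ∣ n + (p - 1) * m := by
    have h3 : n + (p - 1) * m ≡ m + (p - 1) * m [MOD p] := Nat.ModEq.add_right _ hmn.symm
    exact (Nat.modEq_zero_iff_dvd.1 (h3.trans (Nat.modEq_zero_iff_dvd.2 h1)))
  rw [h.per _ _ h1, h.per _ _ h2]

theorem not_dvd_of_mem {p m : ℕ} (h1 : 1 ≤ m) (h2 : m ≤ p - 1) : ¬ p ∣ m :=
  Nat.not_dvd_of_pos_of_lt (by omega) (by omega)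

theorem not_dvd_two_mul (hp : p.Prime) (hp2 : p ≠ 2) {m : ℕ} (hm : ¬ p ∣ m) : ¬ p ∣ 2 * m := by
  intro hd
  rcases hp.dvd_mul.1 hd with h' | h'
  · exact hp2 ((Nat.prime_dvd_prime_iff_eq hp Nat.prime_two).1 h')
  · exact hm h'

variable [IsOrderedAddMonoid Γ]

/-- If `T` itself has order `≤ 0`, so do all its nonzero multiples. -/
theorem nonpos_prop (h : Trop p N c) (hp : p.Prime) (hp2 : p ≠ 2) (h1 : c 1 ≤ 0) :
    ∀ j : ℕ, 1 ≤ j → j ≤ p - 1 → c j ≤ 0 := by
  have hp3 : 3 ≤ p := by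
    have := hp.two_le
    omega
  intro j
  induction j using Nat.strong_induction_on with
  | _ j ih =>
    intro hj1 hjp
    rcases j with _ | _ | _ | k
    · omega
    · exact h1
    · have := h.e0_dbl 1 (not_dvd_of_mem le_rfl (by omega)) h1
      simpa using this
    · have i2 := ih (k + 2) (by omega) (by omega) (by omega)
      exact h.e0_add (k + 2) 1 (not_dvd_of_mem (by omega) (by omega))
        (not_dvd_of_mem le_rfl (by omega)) (not_dvd_of_mem (by omega) (by omega)) (by omega)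
        (not_dvd_of_mem (by omega) (by omega)) i2 h1

/-- There is `j ∈ [1, p-1]` with `k * j ≡ 1 mod p`. -/
theorem exists_inv (hp : p.Prime) {k : ℕ} (hk : ¬ p ∣ k) :
    ∃ j : ℕ, 1 ≤ j ∧ j ≤ p - 1 ∧ k * j ≡ 1 [MOD p] := by
  have hcop : Nat.Coprime k p := ((Nat.Prime.coprime_iff_not_dvd hp).2 hk).symm
  obtain ⟨m, hmlt, hm⟩ := Nat.exists_mul_mod_eq_one_of_coprime hcop hp.one_lt
  refine ⟨m, ?_, by omega, ?_⟩
  · by_contra hcon
    have h0 : m = 0 := by omega
    rw [h0, Nat.mul_zero, Nat.zero_mod] at hm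
    omega
  · show k * m % p = 1 % p
    rw [hm, Nat.mod_eq_of_lt hp.one_lt]

/-- If `T` has positive order, so do all its nonzero multiples. -/
theorem all_pos (h : Trop p N c) (hp : p.Prime) (hp2 : p ≠ 2) (h1 : 0 < c 1) :
    ∀ k : ℕ, ¬ p ∣ k → 0 < c k := by
  intro k hk
  by_contra hcon
  have h0 : c k ≤ 0 := not_lt.1 hcon
  have hs := h.scale hp hk
  have hu := nonpos_prop hs hp hp2 (by simpa using h0)
  obtain ⟨j, hj1, hj2, hj⟩ := exists_inv hp hk
  have := hu j hj1 hj2
  have e : c (k * j) = c 1 := h.congr_mod hp hj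
  simp only [e] at this
  exact absurd h1 (not_lt.2 this)

/-- No nonzero multiple has order `≥ N` (else its double would have order `≤ 0`). -/
theorem lt_N (h : Trop p N c) (hp : p.Prime) (hp2 : p ≠ 2) (hN : 0 < N)
    (hpos : ∀ m, ¬ p ∣ m → 0 < c m) (m : ℕ) (hm : ¬ p ∣ m) : c m < N := by
  have hm0 := hpos m hm
  obtain ⟨q, r, e1, e2, e3, e5, e6⟩ := h.dbl m hm hm0
  have h2m : 0 < c (2 * m) := hpos _ (not_dvd_two_mul hp hp2 hm)
  by_contra hcon
  grind

/-- **Minimal generator analysis.** If all nonzero multiples have positive order and `T`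
has minimal order `θ = c 1` among them, then `p θ = 2 N` and `c m ∈ {m θ, 2 N - m θ}`. -/
theorem main (h : Trop p N c) (hp : p.Prime) (hp2 : p ≠ 2) (hN : 0 < N)
    (hpos : ∀ m, ¬ p ∣ m → 0 < c m) (hmin : ∀ m, ¬ p ∣ m → c 1 ≤ c m) :
    p • c 1 = 2 • N ∧
      ∀ m, 1 ≤ m → m ≤ p - 1 → (c m = m • c 1 ∨ c m = 2 • N - m • c 1) := by
  have hp3 : 3 ≤ p := by
    have := hp.two_le
    omega
  have hlt := h.lt_N hp hp2 hN hpos
  obtain ⟨f, hf⟩ : ∃ f : ℕ → Γ, f = fun m => m • c 1 := ⟨_, rfl⟩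
  have hf0 : f 0 = 0 := by rw [hf]; simp
  have hfs : ∀ m, f (m + 1) = f m + c 1 := by
    intro m; rw [hf]; simp [succ_nsmul]
  have hθ : 0 < c 1 := hpos 1 (not_dvd_of_mem le_rfl (by omega))
  have hθN : c 1 < N := hlt 1 (not_dvd_of_mem le_rfl (by omega))
  have hc2N : c 2 < N := hlt 2 (not_dvd_of_mem (by omega) (by omega))
  have hc2 : 0 < c 2 := hpos 2 (not_dvd_of_mem (by omega) (by omega))
  have hf1 : f 1 = c 1 := by rw [hfs 0, hf0, zero_add]
  have hf2 : f 2 = c 1 + c 1 := by rw [hfs 1, hf1]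
  -- the step at `2`, and `2 θ ≠ N`
  obtain ⟨q, r, e1, e2, e3, e5, e6⟩ := h.dbl 1 (not_dvd_of_mem le_rfl (by omega)) hθ
  simp only [mul_one] at e1
  have h2θ : 2 • c 1 ≠ N := by
    intro hcon
    grind
  have key : ∀ m, 1 ≤ m → m ≤ p - 1 →
      (f m < N ∧ c m = f m) ∨ (N < f m ∧ c m = 2 • N - f m) := by
    intro m
    induction m using Nat.strong_induction_on with
    | _ m ih =>
      intro hm1 hmp
      rcases m with _ | _ | _ | k
      · omega
      · left; exact ⟨by rw [hf1]; exact hθN, hf1.symm⟩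
      · show (f 2 < N ∧ c 2 = f 2) ∨ (N < f 2 ∧ c 2 = 2 • N - f 2)
        grind
      · have i1 := ih (k + 1) (by omega) (by omega) (by omega)
        have i2 := ih (k + 2) (by omega) (by omega) (by omega)
        have a1 := hpos (k + 1) (not_dvd_of_mem (by omega) (by omega))
        have a2 := hpos (k + 2) (not_dvd_of_mem (by omega) (by omega))
        obtain ⟨d, g, p1, p2, p3, p4, p5⟩ := h.prod (k + 2) 1
          (not_dvd_of_mem (by omega) (by omega))
          (not_dvd_of_mem le_rfl (by omega)) (not_dvd_of_mem (by omega) (by omega)) (by omega)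
          (not_dvd_of_mem (by omega) (by omega)) a2 hθ
        have p1' : c (k + 3) + c (k + 1) + 2 • d = 2 • g := p1
        have a3 := hpos (k + 3) (not_dvd_of_mem (by omega) (by omega))
        have b2 := hmin (k + 2) (not_dvd_of_mem (by omega) (by omega))
        have l3 := hlt (k + 3) (not_dvd_of_mem (by omega) (by omega))
        have s2 : f (k + 2) = f (k + 1) + c 1 := hfs (k + 1)
        have s3 : f (k + 3) = f (k + 2) + c 1 := hfs (k + 2)
        show (f (k + 3) < N ∧ c (k + 3) = f (k + 3)) ∨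
          (N < f (k + 3) ∧ c (k + 3) = 2 • N - f (k + 3))
        grind
  -- periodicity: `c (p - 1) = c 1`
  have hper : c (p - 1) = c 1 := h.per _ _ (by
    rw [Nat.sub_add_cancel hp.one_lt.le])
  have kp := key (p - 1) (by omega) le_rfl
  have kp2 := key (p - 2) (by omega) (by omega)
  have sp : f (p - 1) = f (p - 2) + c 1 := by
    have := hfs (p - 2)
    rwa [show p - 2 + 1 = p - 1 by omega] at this
  have sp' : f p = f (p - 1) + c 1 := by
    have := hfs (p - 1)
    rwa [show p - 1 + 1 = p by omega] at this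
  have a2 := hpos (p - 2) (not_dvd_of_mem (by omega) (by omega))
  have hfp : f p = 2 • N := by
    grind
  refine ⟨?_, ?_⟩
  · rw [← hfp, hf]
  · intro m hm1 hmp
    rcases key m hm1 hmp with ⟨-, e⟩ | ⟨-, e⟩
    · left; rw [e, hf]
    · right; rw [e, hf]

/-- **Tropical node-case statement.** If `T` has positive order then this order is `< N`
and `p` times it is an even multiple of `N`. -/
theorem nodeval (h : Trop p N c) (hp : p.Prime) (hp2 : p ≠ 2) (hN : 0 < N) (h1 : 0 < c 1) :
    c 1 < N ∧ ∃ j : ℤ, p • c 1 = (2 * j) • N := by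
  have hp3 : 3 ≤ p := by
    have := hp.two_le
    omega
  have hpos := h.all_pos hp hp2 h1
  refine ⟨h.lt_N hp hp2 hN hpos 1 (not_dvd_of_mem le_rfl (by omega)), ?_⟩
  -- a multiple of minimal order
  obtain ⟨k, hk, hkmin⟩ := Finset.exists_min_image (Finset.Icc 1 (p - 1)) c
    ⟨1, Finset.mem_Icc.2 ⟨le_rfl, by omega⟩⟩
  rw [Finset.mem_Icc] at hk
  have hkd : ¬ p ∣ k := not_dvd_of_mem hk.1 hk.2
  have hs := h.scale hp hkd
  have hpos' : ∀ m, ¬ p ∣ m → 0 < c (k * m) := fun m hm =>
    hpos _ (fun hd => (hp.dvd_mul.1 hd).elim hkd hm)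
  have hmin' : ∀ m, ¬ p ∣ m → c (k * 1) ≤ c (k * m) := by
    intro m hm
    have hd : ¬ p ∣ k * m := fun hd => (hp.dvd_mul.1 hd).elim hkd hm
    have hmod : c (k * m) = c (k * m % p) := h.congr_mod hp (Nat.mod_modEq _ _).symm
    have hlt : k * m % p < p := Nat.mod_lt _ hp.pos
    have hne : k * m % p ≠ 0 := fun h0 => hd (Nat.dvd_of_mod_eq_zero h0)
    rw [mul_one, hmod]
    exact hkmin _ (Finset.mem_Icc.2 ⟨by omega, by omega⟩)
  obtain ⟨hpθ, hall⟩ := main hs hp hp2 hN hpos' hmin'
  obtain ⟨j, hj1, hj2, hj⟩ := exists_inv hp hkd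
  have e : c (k * j) = c 1 := h.congr_mod hp hj
  have hj' := hall j hj1 hj2
  simp only [e] at hj'
  rcases hj' with hj' | hj'
  · refine ⟨(j : ℤ), ?_⟩
    rw [hj', smul_comm, hpθ, mul_comm, mul_zsmul, natCast_zsmul, two_zsmul, two_nsmul]
  · refine ⟨(p : ℤ) - (j : ℤ), ?_⟩
    rw [hj', smul_sub, smul_comm p j, hpθ, mul_comm, mul_zsmul, sub_zsmul, natCast_zsmul,
      natCast_zsmul, two_zsmul, two_nsmul, smul_add, smul_add]
    exact sub_eq_add_neg _ _

end Trop

end Fermat.Agent.S05.helper1629
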