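import Mathlib
import Fermat.Prelude.Def_FLTPrelim_FreyPackage
import Fermat.Agent.S05.helper305_Shape

/-!
# Frey arithmetic: shape data at an odd prime (helper172, S05, backup of board row 60)

For a Frey package `P`, a field `K ⊇ ℚ` and a valuation `v` on `K` with `v 2 = 1` and
`v q < 1` (`q` a prime), the base change of the Frey curve to `K` has a shape
`η² = ξ (ξ² + al ξ + be)` (in the sense of `helper305.Shape`) with rational `e, al, be`,
`v`-integral, `al² - 4 be` a `v`-unit, and either `be` a `v`-unit (good reduction) or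
`al` a `v`-unit and `v be = v w ^ p` for a nonzero integer `w` (multiplicative reduction).
-/

namespace Fermat.Agent.S05.helper172

open WeierstrassCurve Fermat.Agent.S05.helper305

section valuation

variable {K : Type*} [Field K] {Γ₀ : Type*} [LinearOrderedCommGroupWithZero Γ₀]
  (v : Valuation K Γ₀)

theorem val_natCast_le_one (n : ℕ) : v (n : K) ≤ 1 := by
  induction n with
  | zero => simp
  | succ n ih =>
    rw [Nat.cast_succ]
    exact (v.map_add _ _).trans (max_le ih (by simp))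

theorem val_intCast_le_one (n : ℤ) : v (n : K) ≤ 1 := by
  rcases Int.natAbs_eq n with h | h
  · rw [h, Int.cast_natCast]; exact val_natCast_le_one v _
  · rw [h, Int.cast_neg, Int.cast_natCast, Valuation.map_neg]; exact val_natCast_le_one v _

theorem val_intCast_eq_one {q : ℕ} (hq : q.Prime) (hvq : v (q : K) < 1) {n : ℤ}
    (hn : ¬ (q : ℤ) ∣ n) : v (n : K) = 1 := by
  have hcop : IsCoprime n (q : ℤ) := by
    have hp : Prime (q : ℤ) := Nat.prime_iff_prime_int.mp hq
    exact (hp.coprime_iff_not_dvd.mpr hn).symm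
  obtain ⟨x, y, hxy⟩ := hcop
  by_contra hne
  have hlt : v (n : K) < 1 := lt_of_le_of_ne (val_intCast_le_one v n) hne
  have h1 : v ((x : K) * (n : K) + (y : K) * (q : K)) < 1 := by
    refine lt_of_le_of_lt (v.map_add _ _) (max_lt ?_ ?_)
    · rw [map_mul]
      calc v (x : K) * v (n : K) ≤ 1 * v (n : K) :=
            mul_le_mul' (val_intCast_le_one v x) le_rfl
        _ = v (n : K) := one_mul _
        _ < 1 := hlt
    · rw [map_mul]
      calc v (y : K) * v (q : K) ≤ 1 * v (q : K) :=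
            mul_le_mul' (val_intCast_le_one v y) le_rfl
        _ = v (q : K) := one_mul _
        _ < 1 := hvq
  have h2 : (x : K) * (n : K) + (y : K) * (q : K) = 1 := by
    have := congrArg (Int.cast : ℤ → K) hxy
    push_cast at this
    exact this
  rw [h2, map_one] at h1
  exact lt_irrefl _ h1

theorem val_intCast_lt_one {q : ℕ} (hvq : v (q : K) < 1) {n : ℤ}
    (hn : (q : ℤ) ∣ n) : v (n : K) < 1 := by
  obtain ⟨m, rfl⟩ := hn
  push_cast
  rw [map_mul]
  calc v (q : K) * v (m : K) ≤ v (q : K) * 1 :=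
        mul_le_mul' le_rfl (val_intCast_le_one v m)
    _ = v (q : K) := mul_one _
    _ < 1 := hvq

theorem val_four (hv2 : v (2 : K) = 1) : v (4 : K) = 1 := by
  have : (4 : K) = 2 * 2 := by norm_num
  rw [this, map_mul, hv2, one_mul]

theorem val_sixteen (hv2 : v (2 : K) = 1) : v (16 : K) = 1 := by
  have : (16 : K) = 4 * 4 := by norm_num
  rw [this, map_mul, val_four v hv2, one_mul]

end valuation

section frey

variable (P : FreyPackage)

theorem frey_b₂ : P.freyCurve.b₂ = (P.b : ℚ) ^ P.p - (P.a : ℚ) ^ P.p := by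
  simp only [FreyPackage.freyCurve, WeierstrassCurve.b₂]
  ring

theorem frey_b₄ : P.freyCurve.b₄ = -((P.a : ℚ) ^ P.p * (P.b : ℚ) ^ P.p) / 8 := by
  simp only [FreyPackage.freyCurve, WeierstrassCurve.b₄]
  ring

theorem frey_b₆ : P.freyCurve.b₆ = 0 := by
  simp only [FreyPackage.freyCurve, WeierstrassCurve.b₆]
  ring

theorem not_dvd_of_dvd_of_gcd {q : ℕ} (hq : q.Prime) {x y : ℤ} (hg : gcd x y = 1)
    (hx : (q : ℤ) ∣ x) : ¬ (q : ℤ) ∣ y := by
  intro hy
  have h1 : (q : ℤ) ∣ 1 := hg ▸ dvd_gcd hx hy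
  have h2 : (q : ℤ) = 1 := Int.eq_one_of_dvd_one (by positivity) h1
  have h3 : q = 1 := by exact_mod_cast h2
  exact hq.one_lt.ne' h3

variable {K : Type*} [Field K] [Algebra ℚ K]

theorem shape_map {W : WeierstrassCurve ℚ} {e al be : ℚ} (h2 : (2 : K) ≠ 0)
    (hb2 : W.b₂ = 4 * al - 12 * e) (hb4 : W.b₄ = 6 * e ^ 2 - 4 * al * e + 2 * be)
    (hb6 : W.b₆ = -4 * e ^ 3 + 4 * al * e ^ 2 - 4 * be * e) :
    Shape (W.map (algebraMap ℚ K)) (algebraMap ℚ K e) (algebraMap ℚ K al)
      (algebraMap ℚ K be) := by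
  refine ⟨h2, ?_, ?_, ?_⟩
  · rw [WeierstrassCurve.map_b₂, hb2]
    simp only [map_sub, map_mul, map_ofNat]
  · rw [WeierstrassCurve.map_b₄, hb4]
    simp only [map_sub, map_mul, map_add, map_pow, map_ofNat]
  · rw [WeierstrassCurve.map_b₆, hb6]
    simp only [map_sub, map_mul, map_add, map_pow, map_neg, map_ofNat]

variable {Γ₀ : Type*} [LinearOrderedCommGroupWithZero Γ₀] (v : Valuation K Γ₀)

/-- **Frey shape data** (board row 60). -/
theorem exists_shape {q : ℕ} (hq : q.Prime) (hv2 : v (2 : K) = 1) (hvq : v (q : K) < 1) :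
    ∃ e al be : ℚ,
      Shape (P.freyCurve.map (algebraMap ℚ K)) (algebraMap ℚ K e) (algebraMap ℚ K al)
        (algebraMap ℚ K be) ∧
      v (algebraMap ℚ K e) ≤ 1 ∧ v (algebraMap ℚ K al) ≤ 1 ∧ v (algebraMap ℚ K be) ≤ 1 ∧
      be ≠ 0 ∧ v (algebraMap ℚ K (al ^ 2 - 4 * be)) = 1 ∧
      (v (algebraMap ℚ K be) = 1 ∨
        (v (algebraMap ℚ K al) = 1 ∧
          ∃ w : ℤ, w ≠ 0 ∧ v (algebraMap ℚ K be) = v (w : K) ^ P.p)) := by
  have h2 : (2 : K) ≠ 0 := by
    intro h; rw [h, map_zero] at hv2; exact zero_ne_one hv2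
  have h4 := val_four v hv2
  have h16 := val_sixteen v hv2
  have hFLT : (P.a : ℚ) ^ P.p + (P.b : ℚ) ^ P.p = (P.c : ℚ) ^ P.p := by
    exact_mod_cast congrArg (Int.cast : ℤ → ℚ) P.hFLT
  have hp0 : P.p ≠ 0 := P.hp0
  -- valuations of the integer powers
  have hva : v ((P.a : K) ^ P.p) ≤ 1 := by
    rw [map_pow]; exact pow_le_one' (val_intCast_le_one v _) _
  have hvb : v ((P.b : K) ^ P.p) ≤ 1 := by
    rw [map_pow]; exact pow_le_one' (val_intCast_le_one v _) _
  have hvc : v ((P.c : K) ^ P.p) ≤ 1 := by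
    rw [map_pow]; exact pow_le_one' (val_intCast_le_one v _) _
  have unit_pow : ∀ n : ℤ, ¬ (q : ℤ) ∣ n → v ((n : K) ^ P.p) = 1 := by
    intro n hn
    rw [map_pow, val_intCast_eq_one v hq hvq hn, one_pow]
  have nonunit_pow : ∀ n : ℤ, (q : ℤ) ∣ n → v ((n : K) ^ P.p) < 1 := by
    intro n hn
    rw [map_pow]
    exact pow_lt_one' (val_intCast_lt_one v hvq hn) hp0
  have ha0 : (P.a : ℚ) ≠ 0 := by exact_mod_cast P.ha0
  have hb0 : (P.b : ℚ) ≠ 0 := by exact_mod_cast P.hb0
  have hc0 : (P.c : ℚ) ≠ 0 := by exact_mod_cast P.hc0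
  by_cases hqc : (q : ℤ) ∣ P.c
  · -- `q ∣ c`: shift by `a^p/4`
    have hqa : ¬ (q : ℤ) ∣ P.a := fun h => not_dvd_of_dvd_of_gcd hq P.hgcdac h hqc
    have hqb : ¬ (q : ℤ) ∣ P.b := fun h => not_dvd_of_dvd_of_gcd hq P.hgcdbc h hqc
    refine ⟨(P.a : ℚ) ^ P.p / 4, ((P.a : ℚ) ^ P.p + (P.c : ℚ) ^ P.p) / 4,
      (P.a : ℚ) ^ P.p * (P.c : ℚ) ^ P.p / 16, ?_, ?_, ?_, ?_, ?_, ?_, ?_⟩
    · refine shape_map h2 ?_ ?_ ?_
      · rw [frey_b₂]; linear_combination hFLT
      · rw [frey_b₄]; linear_combination (-(P.a : ℚ) ^ P.p / 8) * hFLT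
      · rw [frey_b₆]; ring
    · simp only [map_div₀, map_pow, map_intCast, map_ofNat, h4, div_one]
      have := (unit_pow _ hqa).le
      simpa only [map_pow] using this
    · simp only [map_div₀, map_add, map_pow, map_intCast, map_ofNat, h4, div_one]
      have := (v.map_add _ _).trans (max_le hva hvc)
      simpa only [map_pow] using this
    · simp only [map_div₀, map_mul, map_pow, map_intCast, map_ofNat, h16, div_one]
      have := mul_le_one' hva hvc
      simpa only [map_pow] using this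
    · positivity
    · have hrw : (((P.a : ℚ) ^ P.p + (P.c : ℚ) ^ P.p) / 4) ^ 2
          - 4 * ((P.a : ℚ) ^ P.p * (P.c : ℚ) ^ P.p / 16) = ((P.b : ℚ) ^ P.p) ^ 2 / 16 := by
        have : (P.b : ℚ) ^ P.p = (P.c : ℚ) ^ P.p - (P.a : ℚ) ^ P.p := by
          linear_combination hFLT
        rw [this]; ring
      rw [hrw]
      simp only [map_div₀, map_pow, map_intCast, map_ofNat, h16, div_one]
      have := unit_pow _ hqb
      rw [map_pow] at this
      rw [this, one_pow]
    · right
      refine ⟨?_, P.a * P.c, mul_ne_zero P.ha0 P.hc0, ?_⟩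
      · simp only [map_div₀, map_add, map_pow, map_intCast, map_ofNat, h4, div_one]
        have h1 := unit_pow _ hqa
        have h3 := nonunit_pow _ hqc
        rw [v.map_add_eq_of_lt_left (by rw [h1]; exact h3)]
        exact h1
      · simp only [map_div₀, map_mul, map_pow, map_intCast, map_ofNat, h16, div_one]
        push_cast
        rw [map_mul, mul_pow]
  · -- `q ∤ c`: no shift
    refine ⟨0, ((P.b : ℚ) ^ P.p - (P.a : ℚ) ^ P.p) / 4,
      -((P.a : ℚ) ^ P.p * (P.b : ℚ) ^ P.p) / 16, ?_, ?_, ?_, ?_, ?_, ?_, ?_⟩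
    · refine shape_map h2 ?_ ?_ ?_
      · rw [frey_b₂]; ring
      · rw [frey_b₄]; ring
      · rw [frey_b₆]; ring
    · simp
    · simp only [map_div₀, map_sub, map_pow, map_intCast, map_ofNat, h4, div_one]
      exact (v.map_sub _ _).trans (max_le hvb hva)
    · simp only [map_div₀, map_neg, map_mul, map_pow, map_intCast, map_ofNat, h16, div_one,
        Valuation.map_neg]
      have := mul_le_one' hva hvb
      simpa only [map_pow] using this
    · have : (P.a : ℚ) ^ P.p * (P.b : ℚ) ^ P.p ≠ 0 :=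
        mul_ne_zero (pow_ne_zero _ ha0) (pow_ne_zero _ hb0)
      intro h
      apply this
      linear_combination (-16 : ℚ) * h
    · have hrw : (((P.b : ℚ) ^ P.p - (P.a : ℚ) ^ P.p) / 4) ^ 2
          - 4 * (-((P.a : ℚ) ^ P.p * (P.b : ℚ) ^ P.p) / 16) = ((P.c : ℚ) ^ P.p) ^ 2 / 16 := by
        rw [← hFLT]; ring
      rw [hrw]
      simp only [map_div₀, map_pow, map_intCast, map_ofNat, h16, div_one]
      have := unit_pow _ hqc
      rw [map_pow] at this
      rw [this, one_pow]
    · by_cases hqab : (q : ℤ) ∣ P.a * P.b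
      · right
        refine ⟨?_, P.a * P.b, mul_ne_zero P.ha0 P.hb0, ?_⟩
        · simp only [map_div₀, map_sub, map_pow, map_intCast, map_ofNat, h4, div_one]
          have hp : Prime (q : ℤ) := Nat.prime_iff_prime_int.mp hq
          rcases hp.dvd_or_dvd hqab with hqa | hqb
          · have hqb : ¬ (q : ℤ) ∣ P.b := not_dvd_of_dvd_of_gcd hq P.hgcdab hqa
            have h1 := unit_pow _ hqb
            have h3 := nonunit_pow _ hqa
            rw [v.map_sub_eq_of_lt_left (by rw [h1]; exact h3)]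
            exact h1
          · have hqa : ¬ (q : ℤ) ∣ P.a := by
              have hg : gcd P.b P.a = 1 := by rw [gcd_comm]; exact P.hgcdab
              exact not_dvd_of_dvd_of_gcd hq hg hqb
            have h1 := unit_pow _ hqa
            have h3 := nonunit_pow _ hqb
            rw [v.map_sub_eq_of_lt_right (by rw [h1]; exact h3)]
            exact h1
        · simp only [map_div₀, map_neg, map_mul, map_pow, map_intCast, map_ofNat, h16, div_one,
            Valuation.map_neg]
          push_cast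
          rw [map_mul, mul_pow]
      · left
        simp only [map_div₀, map_neg, map_mul, map_pow, map_intCast, map_ofNat, h16, div_one,
          Valuation.map_neg]
        have hqa : ¬ (q : ℤ) ∣ P.a := fun h => hqab (Dvd.dvd.mul_right h _)
        have hqb : ¬ (q : ℤ) ∣ P.b := fun h => hqab (Dvd.dvd.mul_left h _)
        have h1 := unit_pow _ hqa
        have h3 := unit_pow _ hqb
        rw [map_pow] at h1 h3
        rw [h1, h3, one_mul]

/-- **Frey shape data, spec-shaped**: the output matches the hypotheses of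
`helper5.GoodStmt` (left alternative) and `helper5.MultStmt` (right alternative, with
`d = (w : K)` an integer, hence fixed by every ring endomorphism). The shift `e` is the
image of a rational number (hence fixed by every `ℚ`-algebra endomorphism). -/
theorem exists_shape_spec {q : ℕ} (hq : q.Prime) (hv2 : v (2 : K) = 1) (hvq : v (q : K) < 1) :
    ∃ e al be : K,
      Shape (P.freyCurve.map (algebraMap ℚ K)) e al be ∧
      (∃ e' : ℚ, algebraMap ℚ K e' = e) ∧ v al ≤ 1 ∧ v be ≤ 1 ∧ be ≠ 0 ∧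
      v (al ^ 2 - 4 * be) = 1 ∧
      (v be = 1 ∨
        (v al = 1 ∧ ∃ w : ℤ, (w : K) ≠ 0 ∧ v (w : K) < 1 ∧ v be = v (w : K) ^ P.p)) := by
  obtain ⟨e, al, be, hS, -, hal, hbe, hbe0, hdisc, hcase⟩ := exists_shape P v hq hv2 hvq
  have : CharZero K := charZero_of_injective_algebraMap (algebraMap ℚ K).injective
  refine ⟨algebraMap ℚ K e, algebraMap ℚ K al, algebraMap ℚ K be, hS, ⟨e, rfl⟩, hal, hbe, ?_,
    ?_, ?_⟩
  · exact (map_ne_zero (algebraMap ℚ K)).mpr hbe0
  · have : algebraMap ℚ K (al ^ 2 - 4 * be)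
        = algebraMap ℚ K al ^ 2 - 4 * algebraMap ℚ K be := by
      simp only [map_sub, map_mul, map_pow, map_ofNat]
    rw [← this]; exact hdisc
  · by_cases h1 : v (algebraMap ℚ K be) = 1
    · exact Or.inl h1
    · rcases hcase with h | ⟨hal1, w, hw0, hw⟩
      · exact absurd h h1
      · refine Or.inr ⟨hal1, w, Int.cast_ne_zero.mpr hw0, ?_, hw⟩
        refine lt_of_le_of_ne (val_intCast_le_one v w) ?_
        intro hw1
        apply h1
        rw [hw, hw1, one_pow]

end frey

end Fermat.Agent.S05.helper172
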