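/-
S05 rows GOOD and MULT of `helper5_Spec` (independent x-only attempt by helper1745):

* `good_of_ker : KerStmt → GoodStmt`
* `mult_of : KerStmt → NodeValStmt → MultStmt`

Route: only the x-only (Kummer-line) identities of `helper1745_XOnlyShape` are used:
for the two `p`-torsion points `T = (x, y)` and `T' = (σ x, σ y)` with `σ x ≠ x`, the points
`T' ± T` are `p`-torsion, hence integral by `KerStmt`; the product/sum identities then contradict
`v (σ x - x) < 1` (resp. `< v (x - e)` in the node case).  The sign `σ y = negY x y` is excluded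
by the duplication identity (resp. by `η / c` being a unit in the node case).
-/
import Fermat.Agent.S05.helper5_Spec
import Fermat.Agent.S05.helper1745_XOnlyShape

set_option autoImplicit false

namespace Fermat.Agent.S05.helper1745

open WeierstrassCurve WeierstrassCurve.Affine
open Fermat.Agent.S05.helper305 (Shape eta)
open Fermat.Agent.S05.helper5

section field

variable {K : Type*} [Field K] {Γ₀ : Type*} [LinearOrderedCommGroupWithZero Γ₀]
  (v : Valuation K Γ₀) {al be : K}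

theorem val_mul_le_one {a b : K} (ha : v a ≤ 1) (hb : v b ≤ 1) : v (a * b) ≤ 1 := by
  rw [map_mul]; exact Left.mul_le_one ha hb

theorem val_mul_lt_one_left {a b : K} (ha : v a < 1) (hb : v b ≤ 1) : v (a * b) < 1 := by
  rw [map_mul]; exact mul_lt_one_of_lt_of_le ha hb

theorem val_mul_lt_one_right {a b : K} (ha : v a ≤ 1) (hb : v b < 1) : v (a * b) < 1 := by
  rw [map_mul]; exact Right.mul_lt_one_of_le_of_lt ha hb

theorem val_pow_le_one {a : K} (ha : v a ≤ 1) (n : ℕ) : v (a ^ n) ≤ 1 := by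
  rw [map_pow]; exact pow_le_one' ha n

theorem val_four_eq_one (hv2 : v 2 = 1) : v 4 = 1 := by
  have : (4 : K) = 2 * 2 := by norm_num
  rw [this, map_mul, hv2, one_mul]

theorem val_two_le_one (hv2 : v 2 = 1) : v 2 ≤ 1 := hv2.le

theorem val_lt_one_of_sq_lt_one {a : K} (h : v (a ^ 2) < 1) : v a < 1 := by
  rw [map_pow] at h
  exact (pow_lt_one_iff two_ne_zero).mp h

/-- Key incompatibility in the good-reduction case: `ξ² - be` and `ξ(ξ² + al ξ + be)` cannot
both be non-units when `be` and `al² - 4 be` are units. -/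
theorem good_claim (hv2 : v 2 = 1) (hal : v al ≤ 1) (hbe : v be = 1)
    (hdisc : v (al ^ 2 - 4 * be) = 1) {ξ : K} (hξ : v ξ ≤ 1)
    (h1 : v (ξ ^ 2 - be) < 1) (h2 : v (ξ * (ξ ^ 2 + al * ξ + be)) < 1) : False := by
  -- `v ξ = 1`
  have hξ2 : v (ξ ^ 2) = 1 := by
    have e1 : ξ ^ 2 = (ξ ^ 2 - be) + be := by ring
    rw [e1, v.map_add_eq_of_lt_right (by rw [hbe]; exact h1), hbe]
  have hξ1 : v ξ = 1 := by
    rw [map_pow] at hξ2
    exact (pow_left_inj (two_ne_zero)).mp (by rw [hξ2, one_pow])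
  have h3 : v (ξ ^ 2 + al * ξ + be) < 1 := by
    rw [map_mul, hξ1, one_mul] at h2; exact h2
  have h4 : v (al * ξ + 2 * be) < 1 := by
    have e1 : al * ξ + 2 * be = (ξ ^ 2 + al * ξ + be) - (ξ ^ 2 - be) := by ring
    rw [e1]; exact v.map_sub_lt h3 h1
  have h5 : v (al * ξ - 2 * be) ≤ 1 :=
    v.map_sub_le (val_mul_le_one v hal hξ) (val_mul_le_one v hv2.le hbe.le)
  have h6 : v (be * (al ^ 2 - 4 * be)) < 1 := by
    have e1 : be * (al ^ 2 - 4 * be) =
        (al * ξ + 2 * be) * (al * ξ - 2 * be) - al ^ 2 * (ξ ^ 2 - be) := by ring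
    rw [e1]
    exact v.map_sub_lt (val_mul_lt_one_left v h4 h5)
      (val_mul_lt_one_right v (val_pow_le_one v hal 2) h1)
  rw [map_mul, hbe, hdisc, one_mul] at h6
  exact lt_irrefl _ h6

/-- Field-level core of GOOD, step 1 (`σ x ≠ x` is impossible): `ξ = x - e`, `δ = σ x - x`,
`P = ξ(T'+T) ξ(T'-T)`, `S = ξ(T'+T) + ξ(T'-T)`. -/
theorem good_core (hv2 : v 2 = 1) (hal : v al ≤ 1) (hbe : v be = 1)
    (hdisc : v (al ^ 2 - 4 * be) = 1) {ξ δ P S : K} (hξ : v ξ ≤ 1) (hδ : v δ < 1)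
    (hP : v P ≤ 1) (hS : v S ≤ 1)
    (hprod : P * δ ^ 2 = ((ξ + δ) * ξ - be) ^ 2)
    (hsum : S * δ ^ 2 = 2 * ((ξ + δ) + ξ) * ((ξ + δ) * ξ + be) + 4 * al * (ξ + δ) * ξ) :
    False := by
  have hδ2 : v (δ ^ 2) < 1 := by rw [map_pow]; exact (pow_lt_one_iff two_ne_zero).mpr hδ
  have hA : v ((ξ + δ) * ξ - be) < 1 := by
    apply val_lt_one_of_sq_lt_one
    rw [← hprod]; exact val_mul_lt_one_right v hP hδ2
  have h1 : v (ξ ^ 2 - be) < 1 := by
    have e1 : ξ ^ 2 - be = ((ξ + δ) * ξ - be) - ξ * δ := by ring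
    rw [e1]; exact v.map_sub_lt hA (val_mul_lt_one_right v hξ hδ)
  have hB : v (2 * ((ξ + δ) + ξ) * ((ξ + δ) * ξ + be) + 4 * al * (ξ + δ) * ξ) < 1 := by
    rw [← hsum]; exact val_mul_lt_one_right v hS hδ2
  have h4 := val_four_eq_one v hv2
  have hR : v (2 * (ξ ^ 2 + be + ξ * δ) + 4 * ξ * (ξ + al)) ≤ 1 := by
    refine v.map_add_le (val_mul_le_one v hv2.le (v.map_add_le (v.map_add_le
      (val_pow_le_one v hξ 2) hbe.le) (val_mul_le_one v hξ hδ.le)))
      (val_mul_le_one v (val_mul_le_one v h4.le hξ) (v.map_add_le hξ hal))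
  have h2 : v (ξ * (ξ ^ 2 + al * ξ + be)) < 1 := by
    have e1 : 4 * (ξ * (ξ ^ 2 + al * ξ + be)) =
        (2 * ((ξ + δ) + ξ) * ((ξ + δ) * ξ + be) + 4 * al * (ξ + δ) * ξ) -
          δ * (2 * (ξ ^ 2 + be + ξ * δ) + 4 * ξ * (ξ + al)) := by ring
    have h5 : v (4 * (ξ * (ξ ^ 2 + al * ξ + be))) < 1 := by
      rw [e1]; exact v.map_sub_lt hB (val_mul_lt_one_left v hδ hR)
    rwa [map_mul, h4, one_mul] at h5
  exact good_claim v hv2 hal hbe hdisc hξ h1 h2

/-- Field-level core of GOOD, step 2 (`σ y = negY x y ≠ y` is impossible): duplication. -/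
theorem good_core_dbl (hv2 : v 2 = 1) (hal : v al ≤ 1) (hbe : v be = 1)
    (hdisc : v (al ^ 2 - 4 * be) = 1) {ξ η X : K} (hξ : v ξ ≤ 1) (hη : v η < 1)
    (hηsq : η ^ 2 = ξ * (ξ ^ 2 + al * ξ + be)) (hX : v X ≤ 1)
    (hdup : X * (4 * (ξ * (ξ ^ 2 + al * ξ + be))) = (ξ ^ 2 - be) ^ 2) : False := by
  have h2 : v (ξ * (ξ ^ 2 + al * ξ + be)) < 1 := by
    rw [← hηsq, map_pow]; exact (pow_lt_one_iff two_ne_zero).mpr hη
  have h1 : v (ξ ^ 2 - be) < 1 := by
    apply val_lt_one_of_sq_lt_one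
    rw [← hdup]
    exact val_mul_lt_one_right v hX (val_mul_lt_one_right v (val_four_eq_one v hv2).le h2)
  exact good_claim v hv2 hal hbe hdisc hξ h1 h2

/-- Field-level core of MULT, unit case, step 1: if `v ξ = 1` and `v be < 1`, the product
identity is incompatible with `v δ < 1`. -/
theorem mult_unit_core (hbe : v be < 1) {ξ δ P : K} (hξ : v ξ = 1) (hδ : v δ < 1)
    (hP : v P ≤ 1) (hprod : P * δ ^ 2 = ((ξ + δ) * ξ - be) ^ 2) : False := by
  have hδ2 : v (δ ^ 2) < 1 := by rw [map_pow]; exact (pow_lt_one_iff two_ne_zero).mpr hδ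
  have hA : v ((ξ + δ) * ξ - be) = 1 := by
    have e1 : (ξ + δ) * ξ - be = ξ ^ 2 + (δ * ξ - be) := by ring
    have h3 : v (δ * ξ - be) < 1 := v.map_sub_lt (val_mul_lt_one_left v hδ hξ.le) hbe
    have h4 : v (ξ ^ 2) = 1 := by rw [map_pow, hξ, one_pow]
    rw [e1, v.map_add_eq_of_lt_left (by rw [h4]; exact h3), h4]
  have h5 : v (P * δ ^ 2) < 1 := val_mul_lt_one_right v hP hδ2
  rw [hprod, map_pow, hA, one_pow] at h5
  exact lt_irrefl _ h5

/-- Field-level core of MULT, unit case, step 2: duplication. -/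
theorem mult_unit_core_dbl (hv2 : v 2 = 1) (hbe : v be < 1) {ξ η X : K} (hξ : v ξ = 1)
    (hη : v η < 1) (hηsq : η ^ 2 = ξ * (ξ ^ 2 + al * ξ + be)) (hX : v X ≤ 1)
    (hdup : X * (4 * (ξ * (ξ ^ 2 + al * ξ + be))) = (ξ ^ 2 - be) ^ 2) : False := by
  have h2 : v (ξ * (ξ ^ 2 + al * ξ + be)) < 1 := by
    rw [← hηsq, map_pow]; exact (pow_lt_one_iff two_ne_zero).mpr hη
  have h1 : v (ξ ^ 2 - be) = 1 := by
    have h4 : v (ξ ^ 2) = 1 := by rw [map_pow, hξ, one_pow]
    rw [v.map_sub_eq_of_lt_left (by rw [h4]; exact hbe), h4]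
  have h5 : v (X * (4 * (ξ * (ξ ^ 2 + al * ξ + be)))) < 1 :=
    val_mul_lt_one_right v hX (val_mul_lt_one_right v (val_four_eq_one v hv2).le h2)
  rw [hdup, map_pow, h1, one_pow] at h5
  exact lt_irrefl _ h5

/-- Field-level core of MULT, node case, step 1: if `v be < v ξ < 1`, `v al = 1` and
`v δ < v ξ`, the sum identity is incompatible with `v S ≤ 1`. -/
theorem mult_node_core (hv2 : v 2 = 1) (hal : v al = 1) {ξ δ S : K} (hbe : v be < v ξ)
    (hξ : v ξ < 1) (hδ : v δ < v ξ) (hS : v S ≤ 1)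
    (hsum : S * δ ^ 2 = 2 * ((ξ + δ) + ξ) * ((ξ + δ) * ξ + be) + 4 * al * (ξ + δ) * ξ) :
    False := by
  have hξ0 : 0 < v ξ := lt_of_le_of_lt zero_le hbe
  have h4 := val_four_eq_one v hv2
  have hξδ : v (ξ + δ) = v ξ := v.map_add_eq_of_lt_left hδ
  -- the main term
  have hmain : v (4 * al * (ξ + δ) * ξ) = v ξ * v ξ := by
    rw [map_mul, map_mul, map_mul, h4, hal, hξδ, one_mul, one_mul]
  -- the small term
  have h2ξδ : v ((ξ + δ) + ξ) ≤ v ξ := v.map_add_le hξδ.le le_rfl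
  have hsmall1 : v ((ξ + δ) * ξ + be) < v ξ := by
    apply v.map_add_lt _ hbe
    rw [map_mul, hξδ]
    calc v ξ * v ξ < 1 * v ξ := mul_lt_mul_of_pos_right hξ hξ0
      _ = v ξ := one_mul _
  have hsmall : v (2 * ((ξ + δ) + ξ) * ((ξ + δ) * ξ + be)) < v ξ * v ξ := by
    rw [map_mul, map_mul, hv2, one_mul]
    calc v ((ξ + δ) + ξ) * v ((ξ + δ) * ξ + be) ≤ v ξ * v ((ξ + δ) * ξ + be) :=
          mul_le_mul_left h2ξδ _
      _ < v ξ * v ξ := mul_lt_mul_of_pos_left hsmall1 hξ0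
  have hR : v (2 * ((ξ + δ) + ξ) * ((ξ + δ) * ξ + be) + 4 * al * (ξ + δ) * ξ) = v ξ * v ξ := by
    rw [v.map_add_eq_of_lt_right (by rw [hmain]; exact hsmall), hmain]
  have hL : v (S * δ ^ 2) < v ξ * v ξ := by
    rw [map_mul, map_pow, pow_two]
    calc v S * (v δ * v δ) ≤ 1 * (v δ * v δ) := mul_le_mul_left hS _
      _ = v δ * v δ := one_mul _
      _ ≤ v δ * v ξ := mul_le_mul_right hδ.le _
      _ < v ξ * v ξ := mul_lt_mul_of_pos_right hδ hξ0
  rw [hsum, hR] at hL
  exact lt_irrefl _ hL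

end field

section point

variable {K : Type} [Field K] [DecidableEq K] {Γ₀ : Type} [LinearOrderedCommGroupWithZero Γ₀]
  (v : Valuation K Γ₀) {W : WeierstrassCurve K} {e al be : K}

/-- Consequence of `KerStmt`: a `p`-torsion affine point has `v (x - e) ≤ 1`. -/
theorem val_le_one_of_torsion (hK : KerStmt) (hS : Shape W e al be) (hv2 : v 2 = 1)
    (hal : v al ≤ 1) (hbe : v be ≤ 1) {p : ℕ} (hp : p.Prime) (hp2 : p ≠ 2)
    (hvp : v (p : K) = 1) {x y : K} (h : W.toAffine.Nonsingular x y)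
    (hT : p • (Point.some x y h : W.toAffine.Point) = 0) : v (x - e) ≤ 1 := by
  by_contra hcon
  exact hK K Γ₀ v W e al be hS hv2 hal hbe p hp hp2 hvp x y h (not_le.mp hcon) hT

omit [DecidableEq K] in
theorem map_eta (σ : K →+* K) (hσa₁ : σ W.a₁ = W.a₁) (hσa₃ : σ W.a₃ = W.a₃) (x y : K) :
    σ (eta W x y) = eta W (σ x) (σ y) := by
  simp only [eta, map_add, map_div₀, map_mul, hσa₁, hσa₃, map_ofNat]

omit [DecidableEq K] in
theorem eta_sq_eq (hS : Shape W e al be) {x y : K} (h : W.toAffine.Nonsingular x y) :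
    eta W x y ^ 2 = (x - e) * ((x - e) ^ 2 + al * (x - e) + be) :=
  (hS.equation_iff x y).mp h.1

/-- **GOOD** from **KER**. -/
theorem good_of_ker (hK : KerStmt) : GoodStmt := by
  intro K _ _ Γ₀ _ v W e al be hS hv2 hal hbe hdisc p hp hp2 hvp σ hσ hσe hσa₁ hσa₃ x y h h' hT hT'
  have hbe' : v be ≤ 1 := hbe.le
  have hξ : v (x - e) ≤ 1 := val_le_one_of_torsion v hK hS hv2 hal hbe' hp hp2 hvp h hT
  have hδ : v (σ x - x) < 1 := by
    have h1 := hσ (x - e) hξ
    have e0 : σ (x - e) - (x - e) = σ x - x := by rw [map_sub, hσe]; ring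
    rwa [e0] at h1
  -- Step 1: `σ x = x`
  have hx : σ x = x := by
    by_contra hne
    obtain ⟨Xp, Yp, Xm, Ym, hp', hm', hadd, hsub, hprod, hsum⟩ :=
      shape_exists_add_sub_some hS h' h hne
    have hTp : p • (Point.some Xp Yp hp' : W.toAffine.Point) = 0 := by
      rw [← hadd, smul_add, hT', hT, add_zero]
    have hTm : p • (Point.some Xm Ym hm' : W.toAffine.Point) = 0 := by
      rw [← hsub, smul_sub, hT', hT, sub_zero]
    have hXp := val_le_one_of_torsion v hK hS hv2 hal hbe' hp hp2 hvp hp' hTp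
    have hXm := val_le_one_of_torsion v hK hS hv2 hal hbe' hp hp2 hvp hm' hTm
    have e1 : σ x - e = (x - e) + (σ x - x) := by ring
    rw [e1, add_sub_cancel_left] at hprod hsum
    exact good_core v hv2 hal hbe hdisc hξ hδ (val_mul_le_one v hXp hXm)
      (v.map_add_le hXp hXm) hprod hsum
  refine ⟨hx, ?_⟩
  -- Step 2: `σ y = y`
  by_contra hy
  have h'' : W.toAffine.Nonsingular x (σ y) := hx ▸ h'
  rcases Y_eq_of_X_eq h''.1 h.1 rfl with h1 | h1
  · exact hy h1
  · have hyne : y ≠ W.toAffine.negY x y := fun h2 => hy (h1.trans h2.symm)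
    have hση : σ (eta W x y) = -eta W x y := by
      rw [map_eta σ hσa₁ hσa₃, hx, h1, helper305.eta_negY W hS.two_ne]
    have hηsq := eta_sq_eq hS h
    have hη : v (eta W x y) ≤ 1 := by
      have h2 : v (eta W x y ^ 2) ≤ 1 := by
        rw [hηsq]
        exact val_mul_le_one v hξ (v.map_add_le (v.map_add_le (val_pow_le_one v hξ 2)
          (val_mul_le_one v hal hξ)) hbe')
      rw [map_pow] at h2
      exact (pow_le_one_iff two_ne_zero).mp h2
    have hη1 : v (eta W x y) < 1 := by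
      have h2 := hσ _ hη
      have e2 : σ (eta W x y) - eta W x y = -(2 * eta W x y) := by rw [hση]; ring
      rwa [e2, v.map_neg, map_mul, hv2, one_mul] at h2
    obtain ⟨X, Y, h2, hadd, hdup, -⟩ := shape_exists_add_self_some hS h hyne
    have hT2 : p • (Point.some X Y h2 : W.toAffine.Point) = 0 := by
      rw [← hadd, smul_add, hT, add_zero]
    have hX := val_le_one_of_torsion v hK hS hv2 hal hbe' hp hp2 hvp h2 hT2
    exact good_core_dbl v hv2 hal hbe hdisc hξ hη1 hηsq hX hdup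

/-- **MULT** from **KER** and **NODEVAL**. -/
theorem mult_of (hK : KerStmt) (hN : NodeValStmt) : MultStmt := by
  intro K _ _ Γ₀ _ v W e al be hS hv2 hal p hp hp2 hvp σ hσ hσe hσa₁ hσa₃ d hσd hd0 hvd hbed
    x y h h' hT hT'
  have hp0 : p ≠ 0 := hp.ne_zero
  have hvd0 : v d ≠ 0 := (v.ne_zero_iff).mpr hd0
  have hbe1 : v be < 1 := by rw [hbed]; exact (pow_lt_one_iff hp0).mpr hvd
  have hbe0 : be ≠ 0 := by
    intro h0
    rw [h0, map_zero] at hbed
    exact pow_ne_zero p hvd0 hbed.symm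
  have hξ : v (x - e) ≤ 1 := val_le_one_of_torsion v hK hS hv2 hal.le hbe1.le hp hp2 hvp h hT
  have e0 : σ (x - e) - (x - e) = σ x - x := by rw [map_sub, hσe]; ring
  have hδ : v (σ x - x) < 1 := by
    have h1 := hσ (x - e) hξ
    rwa [e0] at h1
  have hηsq := eta_sq_eq hS h
  -- the Kummer identities for `(σ x, σ y)` and `(x, y)` when `σ x ≠ x`
  have key : σ x ≠ x → ∃ P S : K, v P ≤ 1 ∧ v S ≤ 1 ∧
      P * (σ x - x) ^ 2 = (((x - e) + (σ x - x)) * (x - e) - be) ^ 2 ∧
      S * (σ x - x) ^ 2 = 2 * (((x - e) + (σ x - x)) + (x - e)) *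
        (((x - e) + (σ x - x)) * (x - e) + be) + 4 * al * ((x - e) + (σ x - x)) * (x - e) := by
    intro hne
    obtain ⟨Xp, Yp, Xm, Ym, hp', hm', hadd, hsub, hprod, hsum⟩ :=
      shape_exists_add_sub_some hS h' h hne
    have hTp : p • (Point.some Xp Yp hp' : W.toAffine.Point) = 0 := by
      rw [← hadd, smul_add, hT', hT, add_zero]
    have hTm : p • (Point.some Xm Ym hm' : W.toAffine.Point) = 0 := by
      rw [← hsub, smul_sub, hT', hT, sub_zero]
    have hXp := val_le_one_of_torsion v hK hS hv2 hal.le hbe1.le hp hp2 hvp hp' hTp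
    have hXm := val_le_one_of_torsion v hK hS hv2 hal.le hbe1.le hp hp2 hvp hm' hTm
    have e1 : σ x - e = (x - e) + (σ x - x) := by ring
    rw [e1, add_sub_cancel_left] at hprod hsum
    exact ⟨_, _, val_mul_le_one v hXp hXm, v.map_add_le hXp hXm, hprod, hsum⟩
  -- the sign alternative
  have sign : σ x = x → σ y ≠ y →
      y ≠ W.toAffine.negY x y ∧ σ (eta W x y) = -eta W x y := by
    intro hx hy
    have h'' : W.toAffine.Nonsingular x (σ y) := hx ▸ h'
    rcases Y_eq_of_X_eq h''.1 h.1 rfl with h1 | h1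
    · exact absurd h1 hy
    · refine ⟨fun h2 => hy (h1.trans h2.symm), ?_⟩
      rw [map_eta σ hσa₁ hσa₃, hx, h1, helper305.eta_negY W hS.two_ne]
  rcases hξ.lt_or_eq with hlt | heq
  · -- node case: `v (x - e) < 1`
    obtain ⟨hbelt, j, hj⟩ := hN K Γ₀ v W e al be hS hv2 hal hbe1 hbe0 p hp hp2 hvp x y h hlt hT
    have hξ0 : 0 < v (x - e) := lt_of_le_of_lt zero_le hbelt
    -- `v (x - e) = v c` with `c = d ^ (2 * j)` fixed by `σ`
    have hvc : v (x - e) = v (d ^ (2 * j)) := by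
      rw [map_zpow₀]
      apply (pow_left_inj hp0).mp
      rw [hj, hbed, ← zpow_natCast, ← zpow_natCast, ← zpow_mul, ← zpow_mul, mul_comm]
    have hσc : σ (d ^ (2 * j)) = d ^ (2 * j) := by rw [map_zpow₀, hσd]
    have hc0 : d ^ (2 * j) ≠ 0 := zpow_ne_zero _ hd0
    have hvc0 : v (d ^ (2 * j)) ≠ 0 := (v.ne_zero_iff).mpr hc0
    -- `v (σ x - x) < v (x - e)`
    have hδ' : v (σ x - x) < v (x - e) := by
      have hu : v ((x - e) / d ^ (2 * j)) ≤ 1 := by
        rw [map_div₀, ← hvc, div_self hξ0.ne']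
      have h1 := hσ _ hu
      have e1 : σ ((x - e) / d ^ (2 * j)) - (x - e) / d ^ (2 * j) = (σ x - x) / d ^ (2 * j) := by
        rw [map_div₀, hσc, ← e0]; ring
      rw [e1, map_div₀, ← hvc] at h1
      exact (div_lt_one₀ hξ0).mp h1
    -- step 1
    have hx : σ x = x := by
      by_contra hne
      obtain ⟨P, S, -, hS', -, hsum⟩ := key hne
      exact mult_node_core v hv2 hal hbelt hlt hδ' hS' hsum
    refine ⟨hx, ?_⟩
    by_contra hy
    obtain ⟨-, hση⟩ := sign hx hy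
    -- `v η = v ξ = v c`
    have hvη : v (eta W x y) = v (x - e) := by
      have h1 : v ((x - e) ^ 2) < v (x - e) := by
        rw [map_pow, pow_two]
        calc v (x - e) * v (x - e) < 1 * v (x - e) := mul_lt_mul_of_pos_right hlt hξ0
          _ = v (x - e) := one_mul _
      have h2 : v (al * (x - e)) = v (x - e) := by rw [map_mul, hal, one_mul]
      have h3 : v ((x - e) ^ 2 + al * (x - e)) = v (x - e) := by
        rw [v.map_add_eq_of_lt_right (by rw [h2]; exact h1), h2]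
      have h4 : v ((x - e) ^ 2 + al * (x - e) + be) = v (x - e) := by
        rw [v.map_add_eq_of_lt_left (by rw [h3]; exact hbelt), h3]
      apply (pow_left_inj two_ne_zero).mp
      rw [← map_pow, hηsq, map_mul, h4, pow_two]
    have hr : v (eta W x y / d ^ (2 * j)) = 1 := by
      rw [map_div₀, hvη, hvc, div_self hvc0]
    have h1 := hσ _ hr.le
    have e1 : σ (eta W x y / d ^ (2 * j)) - eta W x y / d ^ (2 * j) =
        -(2 * (eta W x y / d ^ (2 * j))) := by
      rw [map_div₀, hσc, hση]; ring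
    rw [e1, v.map_neg, map_mul, hv2, hr, one_mul] at h1
    exact lt_irrefl _ h1
  · -- unit case: `v (x - e) = 1`
    have hx : σ x = x := by
      by_contra hne
      obtain ⟨P, S, hP, -, hprod, -⟩ := key hne
      exact mult_unit_core v hbe1 heq hδ hP hprod
    refine ⟨hx, ?_⟩
    by_contra hy
    obtain ⟨hyne, hση⟩ := sign hx hy
    have hη : v (eta W x y) ≤ 1 := by
      have h2 : v (eta W x y ^ 2) ≤ 1 := by
        rw [hηsq]
        exact val_mul_le_one v hξ (v.map_add_le (v.map_add_le (val_pow_le_one v hξ 2)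
          (val_mul_le_one v hal.le hξ)) hbe1.le)
      rw [map_pow] at h2
      exact (pow_le_one_iff two_ne_zero).mp h2
    have hη1 : v (eta W x y) < 1 := by
      have h2 := hσ _ hη
      have e2 : σ (eta W x y) - eta W x y = -(2 * eta W x y) := by rw [hση]; ring
      rwa [e2, v.map_neg, map_mul, hv2, one_mul] at h2
    obtain ⟨X, Y, h2, hadd, hdup, -⟩ := shape_exists_add_self_some hS h hyne
    have hT2 : p • (Point.some X Y h2 : W.toAffine.Point) = 0 := by
      rw [← hadd, smul_add, hT, add_zero]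
    have hX := val_le_one_of_torsion v hK hS hv2 hal.le hbe1.le hp hp2 hvp h2 hT2
    exact mult_unit_core_dbl v hv2 hbe1 heq hη1 hηsq hX hdup

end point

end Fermat.Agent.S05.helper1745
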