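import Mathlib

/-!
# Additive valuations for `grind` (helper185, S05)

For a valuation `v : Valuation K Γ₀` with values in an arbitrary
`LinearOrderedCommGroupWithZero`, `ord v x : Additive Γ₀ˣ` is the *additive* valuation of `x`
(junk value `0` at `x = 0`), normalised so that `0 ≤ ord v x ↔ v x ≤ 1`.

The point: `Additive Γ₀ˣ` is a linearly ordered additive commutative group, and the `grind`
tactic decides linear arithmetic (with `min`/`max`, numeral multiples, case splits) in such
groups.  So after rewriting valuations of products/quotients/powers with the lemmas below,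
all "tropical" bookkeeping is closed by `grind`.
-/

set_option autoImplicit false

namespace Fermat.Agent.S05.helper185

variable {K : Type*} [Field K] {Γ₀ : Type*} [LinearOrderedCommGroupWithZero Γ₀]

open Classical in
/-- Additive valuation of `x` with values in `Additive Γ₀ˣ` (junk value `0` at `0`).
Convention: `0 ≤ ord v x ↔ v x ≤ 1`, i.e. `ord v x = -log (v x)`. -/
noncomputable def ord (v : Valuation K Γ₀) (x : K) : Additive Γ₀ˣ :=
  if h : x = 0 then 0 else Additive.ofMul (Units.mk0 (v x) ((Valuation.ne_zero_iff v).2 h))⁻¹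

variable (v : Valuation K Γ₀)

@[simp] theorem ord_zero : ord v 0 = 0 := by simp [ord]

theorem ord_of_ne {x : K} (hx : x ≠ 0) :
    ord v x = Additive.ofMul (Units.mk0 (v x) ((Valuation.ne_zero_iff v).2 hx))⁻¹ := by
  simp [ord, hx]

@[simp] theorem ord_one : ord v 1 = 0 := by
  rw [ord_of_ne v one_ne_zero]
  simp

theorem ord_mul {x y : K} (hx : x ≠ 0) (hy : y ≠ 0) : ord v (x * y) = ord v x + ord v y := by
  rw [ord_of_ne v hx, ord_of_ne v hy, ord_of_ne v (mul_ne_zero hx hy), ← ofMul_mul]
  congr 1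
  ext
  simp [mul_comm]

@[simp] theorem ord_neg (x : K) : ord v (-x) = ord v x := by
  by_cases hx : x = 0
  · simp [hx]
  · rw [ord_of_ne v hx, ord_of_ne v (neg_ne_zero.2 hx)]
    congr 2
    ext
    simp

theorem ord_inv (x : K) : ord v x⁻¹ = -ord v x := by
  by_cases hx : x = 0
  · simp [hx]
  · have h := ord_mul v hx (inv_ne_zero hx)
    rw [mul_inv_cancel₀ hx, ord_one] at h
    exact eq_neg_of_add_eq_zero_right h.symm

theorem ord_div {x y : K} (hx : x ≠ 0) (hy : y ≠ 0) : ord v (x / y) = ord v x - ord v y := by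
  rw [div_eq_mul_inv, ord_mul v hx (inv_ne_zero hy), ord_inv, sub_eq_add_neg]

theorem ord_pow (x : K) (n : ℕ) : ord v (x ^ n) = n • ord v x := by
  by_cases hx : x = 0
  · subst hx
    rcases Nat.eq_zero_or_pos n with rfl | hn
    · simp
    · simp [zero_pow hn.ne']
  · induction n with
    | zero => simp
    | succ n ih => rw [pow_succ, ord_mul v (pow_ne_zero n hx) hx, ih, succ_nsmul]

theorem ord_sq (x : K) : ord v (x ^ 2) = ord v x + ord v x := by
  rw [ord_pow, two_nsmul]

theorem ord_zpow (x : K) (n : ℤ) : ord v (x ^ n) = n • ord v x := by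
  cases n with
  | ofNat n => simp [ord_pow]
  | negSucc n =>
    rw [zpow_negSucc, ord_inv, ord_pow, negSucc_zsmul]

/-- Order comparison: larger `ord` means smaller valuation. -/
theorem ord_le_ord_iff {x y : K} (hx : x ≠ 0) (hy : y ≠ 0) : ord v x ≤ ord v y ↔ v y ≤ v x := by
  rw [ord_of_ne v hx, ord_of_ne v hy, Additive.ofMul_le, inv_le_inv_iff, ← Units.val_le_val]
  simp

theorem ord_lt_ord_iff {x y : K} (hx : x ≠ 0) (hy : y ≠ 0) : ord v x < ord v y ↔ v y < v x := by
  rw [← not_le, ← not_le, ord_le_ord_iff v hy hx]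

theorem ord_eq_ord_iff {x y : K} (hx : x ≠ 0) (hy : y ≠ 0) : ord v x = ord v y ↔ v x = v y := by
  rw [le_antisymm_iff, le_antisymm_iff, ord_le_ord_iff v hx hy, ord_le_ord_iff v hy hx, and_comm]

theorem ord_nonneg_iff {x : K} (hx : x ≠ 0) : 0 ≤ ord v x ↔ v x ≤ 1 := by
  have := ord_le_ord_iff v (one_ne_zero (α := K)) hx
  simpa using this

theorem ord_pos_iff {x : K} (hx : x ≠ 0) : 0 < ord v x ↔ v x < 1 := by
  have := ord_lt_ord_iff v (one_ne_zero (α := K)) hx
  simpa using this

theorem ord_nonpos_iff {x : K} (hx : x ≠ 0) : ord v x ≤ 0 ↔ 1 ≤ v x := by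
  have := ord_le_ord_iff v hx (one_ne_zero (α := K))
  simpa using this

theorem ord_neg_iff {x : K} (hx : x ≠ 0) : ord v x < 0 ↔ 1 < v x := by
  have := ord_lt_ord_iff v hx (one_ne_zero (α := K))
  simpa using this

theorem ord_eq_zero_iff {x : K} (hx : x ≠ 0) : ord v x = 0 ↔ v x = 1 := by
  have := ord_eq_ord_iff v hx (one_ne_zero (α := K))
  simpa using this

theorem ord_eq_zero_of_val_eq_one {x : K} (h : v x = 1) : ord v x = 0 := by
  have hx : x ≠ 0 := by
    rintro rfl
    simp at h
  exact (ord_eq_zero_iff v hx).2 h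

/-- Ultrametric inequality. -/
theorem min_le_ord_add {x y : K} (hx : x ≠ 0) (hy : y ≠ 0) (hxy : x + y ≠ 0) :
    min (ord v x) (ord v y) ≤ ord v (x + y) := by
  rcases le_total (v x) (v y) with h | h
  · have h1 : v (x + y) ≤ v y := (v.map_add x y).trans (max_le h le_rfl)
    exact (min_le_right _ _).trans ((ord_le_ord_iff v hy hxy).2 h1)
  · have h1 : v (x + y) ≤ v x := (v.map_add x y).trans (max_le le_rfl h)
    exact (min_le_left _ _).trans ((ord_le_ord_iff v hx hxy).2 h1)

theorem min_le_ord_sub {x y : K} (hx : x ≠ 0) (hy : y ≠ 0) (hxy : x - y ≠ 0) :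
    min (ord v x) (ord v y) ≤ ord v (x - y) := by
  have := min_le_ord_add v hx (neg_ne_zero.2 hy) (by rwa [← sub_eq_add_neg])
  rwa [ord_neg, ← sub_eq_add_neg] at this

/-- Strict ultrametric equality: the term of smaller `ord` dominates. -/
theorem ord_add_eq_left {x y : K} (hx : x ≠ 0) (hy : y ≠ 0) (h : ord v x < ord v y) :
    ord v (x + y) = ord v x := by
  have hlt : v y < v x := (ord_lt_ord_iff v hx hy).1 h
  have hv : v (x + y) = v x := Valuation.map_add_eq_of_lt_left v hlt
  have hxy : x + y ≠ 0 := by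
    intro h0
    rw [h0, map_zero] at hv
    exact hx ((map_eq_zero v).1 hv.symm)
  exact (ord_eq_ord_iff v hxy hx).2 hv

theorem ord_add_eq_right {x y : K} (hx : x ≠ 0) (hy : y ≠ 0) (h : ord v y < ord v x) :
    ord v (x + y) = ord v y := by
  rw [add_comm]; exact ord_add_eq_left v hy hx h

theorem ord_sub_eq_left {x y : K} (hx : x ≠ 0) (hy : y ≠ 0) (h : ord v x < ord v y) :
    ord v (x - y) = ord v x := by
  rw [sub_eq_add_neg]
  exact ord_add_eq_left v hx (neg_ne_zero.2 hy) (by rwa [ord_neg])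

theorem ord_sub_eq_right {x y : K} (hx : x ≠ 0) (hy : y ≠ 0) (h : ord v y < ord v x) :
    ord v (x - y) = ord v y := by
  rw [sub_eq_add_neg, ord_add_eq_right v hx (neg_ne_zero.2 hy) (by rwa [ord_neg]), ord_neg]

theorem add_ne_zero_of_ord_ne {x y : K} (h : ord v x ≠ ord v y) :
    x + y ≠ 0 := by
  intro h0
  apply h
  have : x = -y := eq_neg_of_add_eq_zero_left h0
  rw [this, ord_neg]

theorem sub_ne_zero_of_ord_ne {x y : K} (h : ord v x ≠ ord v y) : x - y ≠ 0 := by
  intro h0
  exact h (by rw [sub_eq_zero.1 h0])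

/-- Back-translation of an exponent relation. -/
theorem val_pow_eq_zpow_of_ord {x b : K} (hx : x ≠ 0) (hb : b ≠ 0) (p : ℕ) (j : ℤ)
    (h : p • ord v x = j • ord v b) : v x ^ p = v b ^ j := by
  rw [← ord_pow, ← ord_zpow] at h
  have h1 := (ord_eq_ord_iff v (pow_ne_zero p hx) (zpow_ne_zero j hb)).1 h
  simpa using h1

end Fermat.Agent.S05.helper185
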