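import Mathlib

/-!
# Tropical Kummer law in a linearly ordered additive group (helper1915)

Abstract (field-free) part of the node-valuation theorem `nodeVal_gen`.
`Γ` is a linearly ordered additive commutative group (think: `log` of the value group of a
valuation), `N < 0` is the "depth of the node" (`log v(be)`), `clamp N u` is the
truncation of `u` to `[N, 0]` and `fold N t` reflects `t` at `N` when `t < N`.

* `trop_kummer`: the unordered pair `{c(P+Q), c(P-Q)}` equals
  `{fold (c P + c Q), min (c P - c Q) (c Q - c P)}`, from the valuation-theoretic content of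
  the x-only sum/product formulas.
* `trop_dup`: `c(2P) = fold (c P + c P)` from the duplication formula.
* `Rel N x y`: `x ≡ ± y` modulo `2 N ℤ`, an equivalence relation; `rel_step` and `rel_final`
  run the induction `c(kP) ≡ ± k c(P)`.
-/

set_option autoImplicit false
set_option linter.unusedSectionVars false

namespace Fermat.Agent.S05.helper1915

variable {Γ : Type*} [AddCommGroup Γ] [LinearOrder Γ] [IsOrderedAddMonoid Γ]

/-- Truncation of `u` to the interval `[N, 0]`. -/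
def clamp (N u : Γ) : Γ := max N (min u 0)

/-- Reflection at `N` of the values below `N`. -/
def fold (N t : Γ) : Γ := if N ≤ t then t else N + N - t

theorem clamp_of_mem {N u : Γ} (h1 : N ≤ u) (h2 : u ≤ 0) : clamp N u = u := by
  unfold clamp; rw [min_eq_left h2, max_eq_right h1]

theorem clamp_of_nonneg {N u : Γ} (hN : N ≤ 0) (h : 0 ≤ u) : clamp N u = 0 := by
  unfold clamp; rw [min_eq_right h, max_eq_right hN]

theorem clamp_of_le {N u : Γ} (hN : N ≤ 0) (h : u ≤ N) : clamp N u = N := by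
  unfold clamp; rw [min_eq_left (h.trans hN), max_eq_left h]

theorem le_clamp (N u : Γ) : N ≤ clamp N u := le_max_left _ _

theorem clamp_le {N u : Γ} (hN : N ≤ 0) : clamp N u ≤ 0 :=
  max_le hN (min_le_right _ _)

theorem clamp_lt {N u : Γ} (hN : N < 0) (hu : u < 0) : clamp N u < 0 := by
  unfold clamp; rw [min_eq_left hu.le]; exact max_lt hN hu

/-! ### Region lemmas for the Kummer law -/

section regions

variable (N u1 u2 vp vm d nP : Γ) (hN : N < 0)
    (H1 : vp ≠ vm → max vp vm + (d + d) ≤ max (max u1 u2 + max (u1 + u2) N) (u1 + u2))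
    (H2 : max u1 u2 + max (u1 + u2) N < u1 + u2 → u1 + u2 ≤ max vp vm + (d + d))
    (H3a : vp + vm + (d + d) = nP + nP) (H3b : nP ≤ max (u1 + u2) N)
    (H3c : u1 + u2 ≠ N → nP = max (u1 + u2) N)
    (H4a : d ≤ max u1 u2) (H4b : u1 ≠ u2 → d = max u1 u2)
include hN H1 H2 H3a H3b H3c H4a H4b

set_option linter.unusedSectionVars false
set_option linter.unusedVariables false

theorem kum_A (h1 : 0 ≤ u1) (h2 : 0 ≤ u2) : 0 ≤ vp ∧ 0 ≤ vm := by
  grind

theorem kum_B (h1 : 0 ≤ u1) (h2 : N < u2) (h2' : u2 < 0) : vp = u2 ∧ vm = u2 := by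
  grind

theorem kum_C (h1 : 0 ≤ u1) (h2 : u2 ≤ N) : vp ≤ N ∧ vm ≤ N := by
  grind

theorem kum_E (h1 : N < u1) (h1' : u1 < 0) (h2 : u2 ≤ N) : vp = N - u1 ∧ vm = N - u1 := by
  grind

theorem kum_F (h1 : u1 ≤ N) (h2 : u2 ≤ N) : 0 ≤ vp ∧ 0 ≤ vm := by
  grind

theorem kum_D1a (h1 : u1 < 0) (h2 : N < u2) (h12 : u2 < u1) (hs : N < u1 + u2) :
    (vp = u1 + u2 ∧ vm = u2 - u1) ∨ (vm = u1 + u2 ∧ vp = u2 - u1) := by
  grind

theorem kum_D1b (h1 : u1 < 0) (h2 : N < u2) (h12 : u2 < u1) (hs : u1 + u2 < N) :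
    (vp = N + N - (u1 + u2) ∧ vm = u2 - u1) ∨ (vm = N + N - (u1 + u2) ∧ vp = u2 - u1) := by
  grind

theorem kum_D1c (h1 : u1 < 0) (h2 : N < u2) (h12 : u2 < u1) (hs : u1 + u2 = N) :
    (vp ≤ N ∧ vm = u2 - u1) ∨ (vm ≤ N ∧ vp = u2 - u1) := by
  grind

theorem kum_D2a (h1 : u1 < 0) (h2 : N < u2) (h12 : u2 = u1) (hs : N < u1 + u2) :
    (vp = u1 + u2 ∧ 0 ≤ vm) ∨ (vm = u1 + u2 ∧ 0 ≤ vp) := by
  grind

theorem kum_D2b (h1 : u1 < 0) (h2 : N < u2) (h12 : u2 = u1) (hs : u1 + u2 < N) :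
    (vp = N + N - (u1 + u2) ∧ 0 ≤ vm) ∨ (vm = N + N - (u1 + u2) ∧ 0 ≤ vp) := by
  grind

theorem kum_D2c (h1 : u1 < 0) (h2 : N < u2) (h12 : u2 = u1) (hs : u1 + u2 = N) :
    (vp ≤ N ∧ 0 ≤ vm) ∨ (vm ≤ N ∧ 0 ≤ vp) := by
  subst h12
  simp only [max_self] at H1 H2 H4a
  have hd : d + d ≤ N := by rw [← hs]; exact add_le_add H4a H4a
  have h3 : nP ≤ N := by simpa [hs] using H3b
  have hH2 : N ≤ max vp vm + (d + d) := by
    rw [← hs]; apply H2; rw [hs, max_self]; grind
  rw [hs, max_self] at H1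
  have hH1 : vp ≠ vm → max vp vm + (d + d) ≤ N := by
    intro h; have := H1 h; grind
  clear H1 H2 H3b H3c H4a H4b
  rcases le_total vp vm with h | h
  · rw [max_eq_right h] at hH1 hH2
    left
    grind
  · rw [max_eq_left h] at hH1 hH2
    right
    grind

end regions

/-! ### The Kummer law -/

/-- Tropical Kummer law, assuming `u2 ≤ u1`. -/
theorem trop_kummer_aux (N u1 u2 vp vm d nP : Γ) (hN : N < 0)
    (H1 : vp ≠ vm → max vp vm + (d + d) ≤ max (max u1 u2 + max (u1 + u2) N) (u1 + u2))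
    (H2 : max u1 u2 + max (u1 + u2) N < u1 + u2 → u1 + u2 ≤ max vp vm + (d + d))
    (H3a : vp + vm + (d + d) = nP + nP) (H3b : nP ≤ max (u1 + u2) N)
    (H3c : u1 + u2 ≠ N → nP = max (u1 + u2) N)
    (H4a : d ≤ max u1 u2) (H4b : u1 ≠ u2 → d = max u1 u2) (h21 : u2 ≤ u1) :
    (clamp N vp = fold N (clamp N u1 + clamp N u2) ∧
        clamp N vm = min (clamp N u1 - clamp N u2) (clamp N u2 - clamp N u1)) ∨
      (clamp N vm = fold N (clamp N u1 + clamp N u2) ∧
        clamp N vp = min (clamp N u1 - clamp N u2) (clamp N u2 - clamp N u1)) := by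
  rcases le_or_gt 0 u2 with h2 | h2
  · -- A
    have h1 : 0 ≤ u1 := h2.trans h21
    obtain ⟨hp, hm⟩ := kum_A N u1 u2 vp vm d nP hN H1 H2 H3a H3b H3c H4a H4b h1 h2
    rw [clamp_of_nonneg hN.le hp, clamp_of_nonneg hN.le hm, clamp_of_nonneg hN.le h1,
      clamp_of_nonneg hN.le h2]
    left
    simp [fold, hN.le]
  rcases lt_or_ge N u2 with h2' | h2'
  · rcases le_or_gt 0 u1 with h1 | h1
    · -- B
      obtain ⟨hp, hm⟩ := kum_B N u1 u2 vp vm d nP hN H1 H2 H3a H3b H3c H4a H4b h1 h2' h2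
      rw [hp, hm, clamp_of_nonneg hN.le h1, clamp_of_mem h2'.le h2.le]
      left
      simp only [zero_add, zero_sub, sub_zero, fold, if_pos h2'.le, true_and]
      rw [min_eq_right]
      have : u2 ≤ -u2 := h2.le.trans (neg_nonneg.mpr h2.le)
      exact this
    · -- D
      have c1 : clamp N u1 = u1 := clamp_of_mem (h2'.le.trans h21) h1.le
      have c2 : clamp N u2 = u2 := clamp_of_mem h2'.le h2.le
      rw [c1, c2]
      have hmin : min (u1 - u2) (u2 - u1) = u2 - u1 := by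
        apply min_eq_right
        have : u2 - u1 ≤ 0 := sub_nonpos.mpr h21
        have : 0 ≤ u1 - u2 := sub_nonneg.mpr h21
        grind
      rw [hmin]
      rcases lt_or_eq_of_le h21 with h12 | h12
      · rcases lt_trichotomy N (u1 + u2) with hs | hs | hs
        · have hf : fold N (u1 + u2) = u1 + u2 := by simp [fold, hs.le]
          rw [hf]
          have hb1 : N ≤ u1 + u2 := hs.le
          have hb2 : u1 + u2 ≤ 0 := by grind
          have hb3 : N ≤ u2 - u1 := by grind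
          have hb4 : u2 - u1 ≤ 0 := by grind
          rcases kum_D1a N u1 u2 vp vm d nP hN H1 H2 H3a H3b H3c H4a H4b h1 h2' h12 hs with
            ⟨hp, hm⟩ | ⟨hm, hp⟩
          · left; rw [hp, hm, clamp_of_mem hb1 hb2, clamp_of_mem hb3 hb4]; exact ⟨rfl, rfl⟩
          · right; rw [hp, hm, clamp_of_mem hb1 hb2, clamp_of_mem hb3 hb4]; exact ⟨rfl, rfl⟩
        · have hf : fold N (u1 + u2) = N := by simp [fold, hs]
          rw [hf]
          have hb3 : N ≤ u2 - u1 := by grind
          have hb4 : u2 - u1 ≤ 0 := by grind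
          rcases kum_D1c N u1 u2 vp vm d nP hN H1 H2 H3a H3b H3c H4a H4b h1 h2' h12 hs.symm with
            ⟨hp, hm⟩ | ⟨hm, hp⟩
          · left; rw [hm, clamp_of_le hN.le hp, clamp_of_mem hb3 hb4]; exact ⟨rfl, rfl⟩
          · right; rw [hp, clamp_of_le hN.le hm, clamp_of_mem hb3 hb4]; exact ⟨rfl, rfl⟩
        · have hf : fold N (u1 + u2) = N + N - (u1 + u2) := by simp [fold, not_le.mpr hs]
          rw [hf]
          have hb1 : N ≤ N + N - (u1 + u2) := by grind
          have hb2 : N + N - (u1 + u2) ≤ 0 := by grind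
          have hb3 : N ≤ u2 - u1 := by grind
          have hb4 : u2 - u1 ≤ 0 := by grind
          rcases kum_D1b N u1 u2 vp vm d nP hN H1 H2 H3a H3b H3c H4a H4b h1 h2' h12 hs with
            ⟨hp, hm⟩ | ⟨hm, hp⟩
          · left; rw [hp, hm, clamp_of_mem hb1 hb2, clamp_of_mem hb3 hb4]; exact ⟨rfl, rfl⟩
          · right; rw [hp, hm, clamp_of_mem hb1 hb2, clamp_of_mem hb3 hb4]; exact ⟨rfl, rfl⟩
      · have hz : u2 - u1 = 0 := by rw [h12]; exact sub_self _
        rw [hz]
        rcases lt_trichotomy N (u1 + u2) with hs | hs | hs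
        · have hf : fold N (u1 + u2) = u1 + u2 := by simp [fold, hs.le]
          rw [hf]
          have hb1 : N ≤ u1 + u2 := hs.le
          have hb2 : u1 + u2 ≤ 0 := by grind
          rcases kum_D2a N u1 u2 vp vm d nP hN H1 H2 H3a H3b H3c H4a H4b h1 h2' h12 hs with
            ⟨hp, hm⟩ | ⟨hm, hp⟩
          · left; rw [hp, clamp_of_mem hb1 hb2, clamp_of_nonneg hN.le hm]; exact ⟨rfl, rfl⟩
          · right; rw [hm, clamp_of_mem hb1 hb2, clamp_of_nonneg hN.le hp]; exact ⟨rfl, rfl⟩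
        · have hf : fold N (u1 + u2) = N := by simp [fold, hs]
          rw [hf]
          rcases kum_D2c N u1 u2 vp vm d nP hN H1 H2 H3a H3b H3c H4a H4b h1 h2' h12 hs.symm with
            ⟨hp, hm⟩ | ⟨hm, hp⟩
          · left; rw [clamp_of_le hN.le hp, clamp_of_nonneg hN.le hm]; exact ⟨rfl, rfl⟩
          · right; rw [clamp_of_le hN.le hm, clamp_of_nonneg hN.le hp]; exact ⟨rfl, rfl⟩
        · have hf : fold N (u1 + u2) = N + N - (u1 + u2) := by simp [fold, not_le.mpr hs]
          rw [hf]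
          have hb1 : N ≤ N + N - (u1 + u2) := by grind
          have hb2 : N + N - (u1 + u2) ≤ 0 := by grind
          rcases kum_D2b N u1 u2 vp vm d nP hN H1 H2 H3a H3b H3c H4a H4b h1 h2' h12 hs with
            ⟨hp, hm⟩ | ⟨hm, hp⟩
          · left; rw [hp, clamp_of_mem hb1 hb2, clamp_of_nonneg hN.le hm]; exact ⟨rfl, rfl⟩
          · right; rw [hm, clamp_of_mem hb1 hb2, clamp_of_nonneg hN.le hp]; exact ⟨rfl, rfl⟩
  · rw [clamp_of_le hN.le h2']
    rcases le_or_gt 0 u1 with h1 | h1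
    · -- C
      obtain ⟨hp, hm⟩ := kum_C N u1 u2 vp vm d nP hN H1 H2 H3a H3b H3c H4a H4b h1 h2'
      rw [clamp_of_le hN.le hp, clamp_of_le hN.le hm, clamp_of_nonneg hN.le h1]
      left
      simp only [zero_add, zero_sub, sub_zero, fold, le_refl, if_true, true_and]
      rw [min_eq_right]
      have : N ≤ -N := hN.le.trans (neg_nonneg.mpr hN.le)
      exact this
    rcases lt_or_ge N u1 with h1' | h1'
    · -- E
      obtain ⟨hp, hm⟩ := kum_E N u1 u2 vp vm d nP hN H1 H2 H3a H3b H3c H4a H4b h1' h1 h2'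
      have c1 : clamp N u1 = u1 := clamp_of_mem h1'.le h1.le
      have hb1 : N ≤ N - u1 := by grind
      have hb2 : N - u1 ≤ 0 := by grind
      rw [hp, hm, c1, clamp_of_mem hb1 hb2]
      left
      have hf : fold N (u1 + N) = N - u1 := by
        have : ¬ N ≤ u1 + N := by grind
        simp only [fold, if_neg this]; abel
      rw [hf, min_eq_right]
      · exact ⟨rfl, rfl⟩
      · grind
    · -- F
      obtain ⟨hp, hm⟩ := kum_F N u1 u2 vp vm d nP hN H1 H2 H3a H3b H3c H4a H4b h1' h2'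
      rw [clamp_of_nonneg hN.le hp, clamp_of_nonneg hN.le hm, clamp_of_le hN.le h1']
      left
      have hf : fold N (N + N) = 0 := by
        have : ¬ N ≤ N + N := by grind
        simp only [fold, if_neg this]; abel
      rw [hf, sub_self, min_self]
      exact ⟨rfl, rfl⟩

/-- **Tropical Kummer law.** -/
theorem trop_kummer (N u1 u2 vp vm d nP : Γ) (hN : N < 0)
    (H1 : vp ≠ vm → max vp vm + (d + d) ≤ max (max u1 u2 + max (u1 + u2) N) (u1 + u2))
    (H2 : max u1 u2 + max (u1 + u2) N < u1 + u2 → u1 + u2 ≤ max vp vm + (d + d))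
    (H3a : vp + vm + (d + d) = nP + nP) (H3b : nP ≤ max (u1 + u2) N)
    (H3c : u1 + u2 ≠ N → nP = max (u1 + u2) N)
    (H4a : d ≤ max u1 u2) (H4b : u1 ≠ u2 → d = max u1 u2) :
    (clamp N vp = fold N (clamp N u1 + clamp N u2) ∧
        clamp N vm = min (clamp N u1 - clamp N u2) (clamp N u2 - clamp N u1)) ∨
      (clamp N vm = fold N (clamp N u1 + clamp N u2) ∧
        clamp N vp = min (clamp N u1 - clamp N u2) (clamp N u2 - clamp N u1)) := by
  rcases le_total u2 u1 with h | h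
  · exact trop_kummer_aux N u1 u2 vp vm d nP hN H1 H2 H3a H3b H3c H4a H4b h
  · have := trop_kummer_aux N u2 u1 vp vm d nP hN
      (by rw [max_comm u2 u1, add_comm u2 u1]; exact H1)
      (by rw [max_comm u2 u1, add_comm u2 u1]; exact H2)
      H3a (by rw [add_comm u2 u1]; exact H3b) (by rw [add_comm u2 u1]; exact H3c)
      (by rw [max_comm u2 u1]; exact H4a) (by rw [max_comm u2 u1]; exact fun h' => H4b (Ne.symm h'))
      h
    rw [add_comm (clamp N u2) (clamp N u1), min_comm] at this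
    exact this

/-- **Tropical duplication law.** -/
theorem trop_dup (N u w dd nP : Γ) (hN : N < 0)
    (D1 : w + u + dd = nP + nP) (D2 : nP ≤ max (u + u) N) (D3 : u + u ≠ N → nP = max (u + u) N)
    (D4 : dd ≤ max (max (u + u) u) N) (D5 : max (u + u) N < u → dd = u) :
    clamp N w = fold N (clamp N u + clamp N u) := by
  unfold clamp fold
  grind

/-! ### The relation `x ≡ ± y mod 2 N ℤ` and the induction step -/

/-- `x ≡ ± y` modulo `2 N ℤ`. -/
def Rel (N x y : Γ) : Prop := ∃ j : ℤ, x = y + (2 * j) • N ∨ x + y = (2 * j) • N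

theorem Rel.refl (N x : Γ) : Rel N x x := ⟨0, Or.inl (by simp)⟩

theorem Rel.symm {N x y : Γ} (h : Rel N x y) : Rel N y x := by
  obtain ⟨j, h | h⟩ := h
  · refine ⟨-j, Or.inl ?_⟩
    rw [h, mul_neg, neg_smul]; abel
  · exact ⟨j, Or.inr (by rw [add_comm]; exact h)⟩

theorem Rel.trans {N x y z : Γ} (h1 : Rel N x y) (h2 : Rel N y z) : Rel N x z := by
  obtain ⟨j, h1 | h1⟩ := h1 <;> obtain ⟨j', h2 | h2⟩ := h2
  · refine ⟨j + j', Or.inl ?_⟩
    rw [h1, h2, mul_add, add_smul]; abel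
  · refine ⟨j + j', Or.inr ?_⟩
    rw [h1, mul_add, add_smul, ← h2]; abel
  · refine ⟨j - j', Or.inr ?_⟩
    rw [mul_sub, sub_smul, ← h1, h2]; abel
  · refine ⟨j - j', Or.inl ?_⟩
    rw [mul_sub, sub_smul, ← h1, ← h2]; abel

theorem rel_fold (N t : Γ) : Rel N (fold N t) t := by
  unfold fold
  split_ifs
  · exact Rel.refl N t
  · refine ⟨1, Or.inr ?_⟩
    rw [mul_one, two_smul]; abel

theorem rel_min_sub (N a b : Γ) : Rel N (min (a - b) (b - a)) (a - b) := by
  rcases min_choice (a - b) (b - a) with h | h <;> rw [h]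
  · exact Rel.refl N _
  · exact ⟨0, Or.inr (by simp)⟩

theorem rel_step (N c : Γ) (k : ℤ) (a am ap : Γ) (ha : Rel N a (k • c))
    (ham : Rel N am ((k - 1) • c))
    (h : (ap = fold N (a + c) ∧ am = min (a - c) (c - a)) ∨
      (am = fold N (a + c) ∧ ap = min (a - c) (c - a))) :
    Rel N ap ((k + 1) • c) := by
  have hF : Rel N (fold N (a + c)) (a + c) := rel_fold N _
  have hM : Rel N (min (a - c) (c - a)) (a - c) := rel_min_sub N a c
  obtain ⟨j, ha | ha⟩ := ha
  · have h1 : Rel N (a + c) ((k + 1) • c) := ⟨j, Or.inl (by rw [ha, add_smul, one_smul]; abel)⟩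
    have h2 : Rel N (a - c) ((k - 1) • c) := ⟨j, Or.inl (by rw [ha, sub_smul, one_smul]; abel)⟩
    rcases h with ⟨hp, hm⟩ | ⟨hm, hp⟩
    · rw [hp]; exact hF.trans h1
    · have e1 : Rel N am ((k + 1) • c) := by rw [hm]; exact hF.trans h1
      have e2 : Rel N ap ((k - 1) • c) := by rw [hp]; exact hM.trans h2
      exact e2.trans (ham.symm.trans e1)
  · have h1 : Rel N (a + c) ((k - 1) • c) :=
      ⟨j, Or.inr (by rw [← ha, sub_smul, one_smul]; abel)⟩
    have h2 : Rel N (a - c) ((k + 1) • c) :=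
      ⟨j, Or.inr (by rw [← ha, add_smul, one_smul]; abel)⟩
    rcases h with ⟨hp, hm⟩ | ⟨hm, hp⟩
    · have e1 : Rel N ap ((k - 1) • c) := by rw [hp]; exact hF.trans h1
      have e2 : Rel N am ((k + 1) • c) := by rw [hm]; exact hM.trans h2
      exact e1.trans (ham.symm.trans e2)
    · rw [hp]; exact hM.trans h2

theorem two_mul_zsmul_not_mem (N c : Γ) (hN : N < 0) (hc1 : N ≤ c) (hc2 : c < 0) (j : ℤ) :
    c ≠ (2 * j) • N := by
  intro h
  rcases le_or_gt j 0 with hj | hj
  · have : 0 ≤ (2 * j) • N := by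
      have h' : (2 * j) • N = (-(2 * j)) • (-N) := by simp
      rw [h']
      exact zsmul_nonneg (neg_nonneg.mpr hN.le) (by omega)
    exact absurd (h ▸ this) (not_le.mpr hc2)
  · have h1 : (2 * j) • N ≤ (2 : ℤ) • N := by
      have h' : (2 * j) • N = (2 : ℤ) • N + (2 * j - 2) • N := by
        rw [← add_smul]; congr 1; ring
      rw [h']
      have : (2 * j - 2) • N ≤ 0 := by
        have h'' : (2 * j - 2) • N = -((2 * j - 2) • (-N)) := by simp
        rw [h'', neg_nonpos]
        exact zsmul_nonneg (neg_nonneg.mpr hN.le) (by omega)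
      exact add_le_of_nonpos_right this
    have h2 : (2 : ℤ) • N < N := by
      rw [two_smul]; exact add_lt_of_neg_left N hN
    exact absurd (h ▸ hc1) (not_le.mpr (lt_of_le_of_lt h1 h2))

theorem rel_final (N c : Γ) (hN : N < 0) (hc1 : N ≤ c) (hc2 : c < 0) (m : ℤ)
    (h : Rel N ((m + 1) • c) (m • c)) : ∃ j : ℤ, (2 * m + 1) • c = (2 * j) • N := by
  obtain ⟨j, h | h⟩ := h
  · exfalso
    apply two_mul_zsmul_not_mem N c hN hc1 hc2 j
    have : (m + 1) • c = m • c + c := by rw [add_smul, one_smul]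
    rw [this] at h
    exact add_left_cancel h
  · refine ⟨j, ?_⟩
    rw [← h, ← add_smul]; congr 1; ring

theorem odd_zsmul_ne (N : Γ) (hN : N < 0) (p : ℤ) (hp : Odd p) (j : ℤ) :
    p • N ≠ (2 * j) • N := by
  intro h
  have h0 : (p - 2 * j) • N = 0 := by rw [sub_smul, h, sub_self]
  rcases smul_eq_zero.mp h0 with h1 | h1
  · obtain ⟨t, ht⟩ := hp; omega
  · exact hN.ne h1

end Fermat.Agent.S05.helper1915
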