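import Mathlib
import Fermat.Agent.S05.helper5_Spec
import Fermat.Agent.S05.helper872_Kummer
import Fermat.Agent.S05.helper1915_Trop

/-!
# Node valuation of torsion points, general form (helper1915)

`nodeVal_gen`: for a Weierstrass curve of shape `η² = ξ (ξ² + al ξ + be)` over a valued field
with `v (4 * al) = 1`, `0 < v be < 1` (multiplicative reduction, node at `ξ = 0`), a point of
odd prime order `p` with `v ξ < 1` satisfies `v be < v ξ` and `v ξ ^ p ∈ (v be ^ 2) ^ ℤ`.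

No hypothesis `v 2 = 1` and no hypothesis `v p = 1`: the statement also holds at the
prime `2` (Frey model `y² + xy = x³ + a₂x² + a₄x`: `e = 0`, `al = b₂/4`, `be = a₄`).
Corollary: `nodeVal : helper5.NodeValStmt`.

Route: unsigned tropical Kummer law (`helper1915_Trop`) applied to the x-only identities of
`helper872_Kummer`.
-/

set_option autoImplicit false
set_option linter.unusedSectionVars false

namespace Fermat.Agent.S05.helper1915

open WeierstrassCurve WeierstrassCurve.Affine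
open Fermat.Agent.S05.helper305 (Shape)

/-! ### Logarithmic valuation with values in an ordered additive group -/

section lg

variable {K : Type*} [Field K] {Γ₀ : Type*} [LinearOrderedCommGroupWithZero Γ₀]
  (v : Valuation K Γ₀)

open Classical in
/-- `lg v x = log (v x)` as an element of the additive group `Additive Γ₀ˣ`
(junk value `0` at `x = 0`). -/
noncomputable def lg (x : K) : Additive Γ₀ˣ :=
  if h : x = 0 then 0 else Additive.ofMul (Units.mk0 (v x) ((Valuation.ne_zero_iff v).mpr h))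

variable {v}
variable {x y : K}

theorem lg_of_ne (hx : x ≠ 0) :
    lg v x = Additive.ofMul (Units.mk0 (v x) ((Valuation.ne_zero_iff v).mpr hx)) := by
  unfold lg; rw [dif_neg hx]

theorem lg_le_lg (hx : x ≠ 0) (hy : y ≠ 0) : lg v x ≤ lg v y ↔ v x ≤ v y := by
  rw [lg_of_ne hx, lg_of_ne hy, Additive.ofMul_le, ← Units.val_le_val]
  simp

theorem lg_lt_lg (hx : x ≠ 0) (hy : y ≠ 0) : lg v x < lg v y ↔ v x < v y := by
  rw [lt_iff_not_ge, lt_iff_not_ge, lg_le_lg hy hx]

theorem lg_eq_lg (hx : x ≠ 0) (hy : y ≠ 0) : lg v x = lg v y ↔ v x = v y := by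
  rw [le_antisymm_iff, le_antisymm_iff, lg_le_lg hx hy, lg_le_lg hy hx]

theorem lg_mul (hx : x ≠ 0) (hy : y ≠ 0) : lg v (x * y) = lg v x + lg v y := by
  rw [lg_of_ne hx, lg_of_ne hy, lg_of_ne (mul_ne_zero hx hy), ← ofMul_mul]
  congr 1
  ext
  simp

theorem lg_sq (hx : x ≠ 0) : lg v (x ^ 2) = lg v x + lg v x := by
  rw [pow_two, lg_mul hx hx]

theorem lg_eq_zero (hx : v x = 1) : lg v x = 0 := by
  have hx0 : x ≠ 0 := by
    intro h; rw [h, map_zero] at hx; exact zero_ne_one hx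
  rw [lg_of_ne hx0]
  show Additive.ofMul _ = Additive.ofMul 1
  congr 1
  ext
  simp [hx]

theorem lg_neg_iff (hx : x ≠ 0) : lg v x < 0 ↔ v x < 1 := by
  have h1 : lg v (1 : K) = 0 := lg_eq_zero (map_one v)
  rw [← h1, lg_lt_lg hx one_ne_zero, map_one]

/-- `v x ^ p = v y ^ n` from the additive relation. -/
theorem pow_eq_zpow_of_lg (hx : x ≠ 0) (hy : y ≠ 0) (p : ℕ) (n : ℤ)
    (h : (p : ℤ) • lg v x = n • lg v y) : v x ^ p = v y ^ n := by
  rw [lg_of_ne hx, lg_of_ne hy, ← ofMul_zpow, ← ofMul_zpow] at h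
  have h' := congrArg (fun u : Γ₀ˣ => (u : Γ₀)) (Additive.ofMul.injective h)
  simpa using h'

end lg


/-! ### Field-level lemmas -/

section field

variable {K : Type*} [Field K] {Γ₀ : Type*} [LinearOrderedCommGroupWithZero Γ₀]
  {v : Valuation K Γ₀}

theorem v_two_le : v (2 : K) ≤ 1 := by
  have h := v.map_add (1 : K) 1
  rw [map_one, max_self, one_add_one_eq_two] at h
  exact h

theorem v_four_le : v (4 : K) ≤ 1 := by
  have h : (4 : K) = 2 * 2 := by norm_num
  rw [h, map_mul]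
  exact mul_le_one' v_two_le v_two_le

theorem lg_add_le {x y : K} (hx : x ≠ 0) (hy : y ≠ 0) (hxy : x + y ≠ 0) :
    lg v (x + y) ≤ max (lg v x) (lg v y) := by
  rcases le_max_iff.mp (v.map_add x y) with h | h
  · exact le_max_of_le_left ((lg_le_lg hxy hx).mpr h)
  · exact le_max_of_le_right ((lg_le_lg hxy hy).mpr h)

theorem lg_sub_le {x y : K} (hx : x ≠ 0) (hy : y ≠ 0) (hxy : x - y ≠ 0) :
    lg v (x - y) ≤ max (lg v x) (lg v y) := by
  rcases le_max_iff.mp (v.map_sub x y) with h | h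
  · exact le_max_of_le_left ((lg_le_lg hxy hx).mpr h)
  · exact le_max_of_le_right ((lg_le_lg hxy hy).mpr h)

theorem lg_add_eq_max {x y : K} (hx : x ≠ 0) (hy : y ≠ 0) (hne : lg v x ≠ lg v y) :
    x + y ≠ 0 ∧ lg v (x + y) = max (lg v x) (lg v y) := by
  rcases lt_or_gt_of_ne hne with h | h
  · have h' := (lg_lt_lg hx hy).mp h
    have hv : v (x + y) = v y := v.map_add_eq_of_lt_right h'
    have h0 : x + y ≠ 0 := by
      intro h0; rw [h0, map_zero] at hv
      exact hy ((Valuation.zero_iff v).mp hv.symm)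
    exact ⟨h0, by rw [max_eq_right h.le]; exact (lg_eq_lg h0 hy).mpr hv⟩
  · have h' := (lg_lt_lg hy hx).mp h
    have hv : v (x + y) = v x := v.map_add_eq_of_lt_left h'
    have h0 : x + y ≠ 0 := by
      intro h0; rw [h0, map_zero] at hv
      exact hx ((Valuation.zero_iff v).mp hv.symm)
    exact ⟨h0, by rw [max_eq_left h.le]; exact (lg_eq_lg h0 hx).mpr hv⟩

theorem lg_sub_eq_max {x y : K} (hx : x ≠ 0) (hy : y ≠ 0) (hxy : x - y ≠ 0)
    (hne : lg v x ≠ lg v y) : lg v (x - y) = max (lg v x) (lg v y) := by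
  rcases lt_or_gt_of_ne hne with h | h
  · have h' := (lg_lt_lg hx hy).mp h
    have hv : v (x - y) = v y := v.map_sub_eq_of_lt_right h'
    rw [max_eq_right h.le]; exact (lg_eq_lg hxy hy).mpr hv
  · have h' := (lg_lt_lg hy hx).mp h
    have hv : v (x - y) = v x := v.map_sub_eq_of_lt_left h'
    rw [max_eq_left h.le]; exact (lg_eq_lg hxy hx).mpr hv

theorem exists_max_add {x y : K} (hx : x ≠ 0) (hy : y ≠ 0) :
    ∃ m : K, m ≠ 0 ∧ lg v m = max (lg v x) (lg v y) ∧ v (x + y) ≤ v m := by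
  rcases le_total (v x) (v y) with h | h
  · refine ⟨y, hy, ?_, ?_⟩
    · have hle : lg v x ≤ lg v y := (lg_le_lg hx hy).mpr h
      exact (max_eq_right hle).symm
    · exact (v.map_add x y).trans (max_le h le_rfl)
  · refine ⟨x, hx, ?_, ?_⟩
    · have hle : lg v y ≤ lg v x := (lg_le_lg hy hx).mpr h
      exact (max_eq_left hle).symm
    · exact (v.map_add x y).trans (max_le le_rfl h)

/-- **Field-level tropical Kummer law.** -/
theorem field_kummer {al be ξ1 ξ2 ξp ξm : K} (hal : v (4 * al) = 1) (hbe0 : be ≠ 0)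
    (hN : lg v be < 0) (h1 : ξ1 ≠ 0) (h2 : ξ2 ≠ 0) (hp : ξp ≠ 0) (hm : ξm ≠ 0) (hne : ξ1 ≠ ξ2)
    (hP : ξp * ξm * (ξ1 - ξ2) ^ 2 = (ξ1 * ξ2 - be) ^ 2)
    (hS : (ξp + ξm) * (ξ1 - ξ2) ^ 2 = 2 * (ξ1 + ξ2) * (ξ1 * ξ2 + be) + 4 * al * ξ1 * ξ2) :
    (clamp (lg v be) (lg v ξp) =
          fold (lg v be) (clamp (lg v be) (lg v ξ1) + clamp (lg v be) (lg v ξ2)) ∧
        clamp (lg v be) (lg v ξm) =
          min (clamp (lg v be) (lg v ξ1) - clamp (lg v be) (lg v ξ2))
            (clamp (lg v be) (lg v ξ2) - clamp (lg v be) (lg v ξ1))) ∨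
      (clamp (lg v be) (lg v ξm) =
          fold (lg v be) (clamp (lg v be) (lg v ξ1) + clamp (lg v be) (lg v ξ2)) ∧
        clamp (lg v be) (lg v ξp) =
          min (clamp (lg v be) (lg v ξ1) - clamp (lg v be) (lg v ξ2))
            (clamp (lg v be) (lg v ξ2) - clamp (lg v be) (lg v ξ1))) := by
  have hD : ξ1 - ξ2 ≠ 0 := sub_ne_zero.mpr hne
  have hD2 : (ξ1 - ξ2) ^ 2 ≠ 0 := pow_ne_zero 2 hD
  have h12 : ξ1 * ξ2 ≠ 0 := mul_ne_zero h1 h2
  have hnP : ξ1 * ξ2 - be ≠ 0 := by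
    intro h0
    rw [h0] at hP
    have : ξp * ξm * (ξ1 - ξ2) ^ 2 ≠ 0 := mul_ne_zero (mul_ne_zero hp hm) hD2
    exact this (by rw [hP]; ring)
  have hB : 4 * al ≠ 0 := by
    intro h; rw [h, map_zero] at hal; exact zero_ne_one hal
  have hBt : 4 * al * ξ1 * ξ2 ≠ 0 := mul_ne_zero (mul_ne_zero hB h1) h2
  have lgBt : lg v (4 * al * ξ1 * ξ2) = lg v ξ1 + lg v ξ2 := by
    rw [lg_mul (mul_ne_zero hB h1) h2, lg_mul hB h1, lg_eq_zero hal, zero_add]
  have H3a : lg v ξp + lg v ξm + (lg v (ξ1 - ξ2) + lg v (ξ1 - ξ2)) =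
      lg v (ξ1 * ξ2 - be) + lg v (ξ1 * ξ2 - be) := by
    have := congrArg (lg v) hP
    rw [lg_mul (mul_ne_zero hp hm) hD2, lg_mul hp hm, lg_sq hD, lg_sq hnP] at this
    exact this
  have H3b : lg v (ξ1 * ξ2 - be) ≤ max (lg v ξ1 + lg v ξ2) (lg v be) := by
    have := lg_sub_le (v := v) h12 hbe0 hnP
    rwa [lg_mul h1 h2] at this
  have H3c : lg v ξ1 + lg v ξ2 ≠ lg v be →
      lg v (ξ1 * ξ2 - be) = max (lg v ξ1 + lg v ξ2) (lg v be) := by
    intro h
    have := lg_sub_eq_max (v := v) h12 hbe0 hnP (by rwa [lg_mul h1 h2])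
    rwa [lg_mul h1 h2] at this
  have H4a : lg v (ξ1 - ξ2) ≤ max (lg v ξ1) (lg v ξ2) := lg_sub_le h1 h2 hD
  have H4b : lg v ξ1 ≠ lg v ξ2 → lg v (ξ1 - ξ2) = max (lg v ξ1) (lg v ξ2) :=
    lg_sub_eq_max h1 h2 hD
  obtain ⟨m, hm0, hmlg, hmv⟩ := exists_max_add (v := v) h1 h2
  obtain ⟨n, hn0, hnlg, hnv⟩ : ∃ n : K, n ≠ 0 ∧
      lg v n = max (lg v ξ1 + lg v ξ2) (lg v be) ∧ v (ξ1 * ξ2 + be) ≤ v n := by
    have := exists_max_add (v := v) h12 hbe0
    rwa [lg_mul h1 h2] at this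
  have hmn0 : m * n ≠ 0 := mul_ne_zero hm0 hn0
  have hA : v (2 * (ξ1 + ξ2) * (ξ1 * ξ2 + be)) ≤ v (m * n) := by
    rw [map_mul, map_mul, map_mul]
    calc v 2 * v (ξ1 + ξ2) * v (ξ1 * ξ2 + be) ≤ 1 * v m * v n :=
          mul_le_mul' (mul_le_mul' v_two_le hmv) hnv
      _ = v m * v n := by rw [one_mul]
  have lgMn : lg v (m * n) =
      max (lg v ξ1) (lg v ξ2) + max (lg v ξ1 + lg v ξ2) (lg v be) := by
    rw [lg_mul hm0 hn0, hmlg, hnlg]
  have H1 : lg v ξp ≠ lg v ξm → max (lg v ξp) (lg v ξm) + (lg v (ξ1 - ξ2) + lg v (ξ1 - ξ2)) ≤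
      max (max (lg v ξ1) (lg v ξ2) + max (lg v ξ1 + lg v ξ2) (lg v be))
        (lg v ξ1 + lg v ξ2) := by
    intro hne'
    obtain ⟨hpm0, hpmlg⟩ := lg_add_eq_max hp hm hne'
    have hs0 : 2 * (ξ1 + ξ2) * (ξ1 * ξ2 + be) + 4 * al * ξ1 * ξ2 ≠ 0 := by
      rw [← hS]; exact mul_ne_zero hpm0 hD2
    have hslg : lg v (2 * (ξ1 + ξ2) * (ξ1 * ξ2 + be) + 4 * al * ξ1 * ξ2) =
        max (lg v ξp) (lg v ξm) + (lg v (ξ1 - ξ2) + lg v (ξ1 - ξ2)) := by
      rw [← hS, lg_mul hpm0 hD2, hpmlg, lg_sq hD]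
    rw [← hslg, ← lgMn, ← lgBt]
    rcases le_max_iff.mp (v.map_add (2 * (ξ1 + ξ2) * (ξ1 * ξ2 + be)) (4 * al * ξ1 * ξ2)) with
      h | h
    · exact le_max_of_le_left ((lg_le_lg hs0 hmn0).mpr (h.trans hA))
    · exact le_max_of_le_right ((lg_le_lg hs0 hBt).mpr h)
  have H2 : max (lg v ξ1) (lg v ξ2) + max (lg v ξ1 + lg v ξ2) (lg v be) < lg v ξ1 + lg v ξ2 →
      lg v ξ1 + lg v ξ2 ≤ max (lg v ξp) (lg v ξm) + (lg v (ξ1 - ξ2) + lg v (ξ1 - ξ2)) := by
    intro hlt
    rw [← lgMn, ← lgBt] at hlt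
    have hlt' : v (m * n) < v (4 * al * ξ1 * ξ2) := (lg_lt_lg hmn0 hBt).mp hlt
    have hsv : v (2 * (ξ1 + ξ2) * (ξ1 * ξ2 + be) + 4 * al * ξ1 * ξ2) = v (4 * al * ξ1 * ξ2) :=
      v.map_add_eq_of_lt_right (lt_of_le_of_lt hA hlt')
    have hs0 : 2 * (ξ1 + ξ2) * (ξ1 * ξ2 + be) + 4 * al * ξ1 * ξ2 ≠ 0 := by
      intro h0; rw [h0, map_zero] at hsv
      exact hBt ((Valuation.zero_iff v).mp hsv.symm)
    have hpm0 : ξp + ξm ≠ 0 := by
      intro h0; apply hs0; rw [← hS, h0, zero_mul]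
    have hslg : lg v (2 * (ξ1 + ξ2) * (ξ1 * ξ2 + be) + 4 * al * ξ1 * ξ2) =
        lg v ξ1 + lg v ξ2 := by
      rw [← lgBt]; exact (lg_eq_lg hs0 hBt).mpr hsv
    have hfin : lg v (ξp + ξm) + (lg v (ξ1 - ξ2) + lg v (ξ1 - ξ2)) = lg v ξ1 + lg v ξ2 := by
      rw [← hslg, ← hS, lg_mul hpm0 hD2, lg_sq hD]
    rw [← hfin]
    exact add_le_add (lg_add_le hp hm hpm0) le_rfl
  exact trop_kummer (lg v be) (lg v ξ1) (lg v ξ2) (lg v ξp) (lg v ξm) (lg v (ξ1 - ξ2))
    (lg v (ξ1 * ξ2 - be)) hN H1 H2 H3a H3b H3c H4a H4b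

/-- **Field-level tropical duplication law.** -/
theorem field_dup {al be ξ X : K} (hal : v (4 * al) = 1) (hbe0 : be ≠ 0)
    (hN : lg v be < 0) (hξ : ξ ≠ 0) (hX : X ≠ 0)
    (hden : ξ * (ξ ^ 2 + al * ξ + be) ≠ 0)
    (hdup : X * 4 * ξ * (ξ ^ 2 + al * ξ + be) = (ξ ^ 2 - be) ^ 2) :
    clamp (lg v be) (lg v X) =
      fold (lg v be) (clamp (lg v be) (lg v ξ) + clamp (lg v be) (lg v ξ)) := by
  have hB : 4 * al ≠ 0 := by
    intro h; rw [h, map_zero] at hal; exact zero_ne_one hal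
  have h4 : (4 : K) ≠ 0 := left_ne_zero_of_mul hB
  have hq : ξ ^ 2 + al * ξ + be ≠ 0 := right_ne_zero_of_mul hden
  have hξ2 : ξ ^ 2 ≠ 0 := pow_ne_zero 2 hξ
  have hden0 : 4 * ξ ^ 2 + 4 * al * ξ + 4 * be ≠ 0 := by
    have : 4 * ξ ^ 2 + 4 * al * ξ + 4 * be = 4 * (ξ ^ 2 + al * ξ + be) := by ring
    rw [this]; exact mul_ne_zero h4 hq
  have hdup' : X * ξ * (4 * ξ ^ 2 + 4 * al * ξ + 4 * be) = (ξ ^ 2 - be) ^ 2 := by
    rw [← hdup]; ring
  have hnP : ξ ^ 2 - be ≠ 0 := by
    intro h0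
    have : X * ξ * (4 * ξ ^ 2 + 4 * al * ξ + 4 * be) ≠ 0 :=
      mul_ne_zero (mul_ne_zero hX hξ) hden0
    exact this (by rw [hdup', h0]; ring)
  have D1 : lg v X + lg v ξ + lg v (4 * ξ ^ 2 + 4 * al * ξ + 4 * be) =
      lg v (ξ ^ 2 - be) + lg v (ξ ^ 2 - be) := by
    have := congrArg (lg v) hdup'
    rw [lg_mul (mul_ne_zero hX hξ) hden0, lg_mul hX hξ, lg_sq hnP] at this
    exact this
  have D2 : lg v (ξ ^ 2 - be) ≤ max (lg v ξ + lg v ξ) (lg v be) := by
    have := lg_sub_le (v := v) hξ2 hbe0 hnP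
    rwa [lg_sq hξ] at this
  have D3 : lg v ξ + lg v ξ ≠ lg v be →
      lg v (ξ ^ 2 - be) = max (lg v ξ + lg v ξ) (lg v be) := by
    intro h
    have := lg_sub_eq_max (v := v) hξ2 hbe0 hnP (by rwa [lg_sq hξ])
    rwa [lg_sq hξ] at this
  have hT1 : v (4 * ξ ^ 2) ≤ v (ξ ^ 2) := by
    rw [map_mul]; exact mul_le_of_le_one_left' v_four_le
  have hT2 : v (4 * al * ξ) = v ξ := by rw [map_mul, hal, one_mul]
  have hT3 : v (4 * be) ≤ v be := by
    rw [map_mul]; exact mul_le_of_le_one_left' v_four_le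
  have D4 : lg v (4 * ξ ^ 2 + 4 * al * ξ + 4 * be) ≤
      max (max (lg v ξ + lg v ξ) (lg v ξ)) (lg v be) := by
    rcases le_max_iff.mp (v.map_add (4 * ξ ^ 2 + 4 * al * ξ) (4 * be)) with h | h
    · rcases le_max_iff.mp (h.trans (v.map_add (4 * ξ ^ 2) (4 * al * ξ))) with h' | h'
      · apply le_max_of_le_left; apply le_max_of_le_left
        rw [← lg_sq hξ]
        exact (lg_le_lg hden0 hξ2).mpr (h'.trans hT1)
      · apply le_max_of_le_left; apply le_max_of_le_right
        exact (lg_le_lg hden0 hξ).mpr (h'.trans hT2.le)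
    · apply le_max_of_le_right
      exact (lg_le_lg hden0 hbe0).mpr (h.trans hT3)
  have D5 : max (lg v ξ + lg v ξ) (lg v be) < lg v ξ →
      lg v (4 * ξ ^ 2 + 4 * al * ξ + 4 * be) = lg v ξ := by
    intro hlt
    have h1 : v (ξ ^ 2) < v ξ := by
      have := lt_of_le_of_lt (le_max_left _ _) hlt
      rw [← lg_sq hξ] at this
      exact (lg_lt_lg hξ2 hξ).mp this
    have h2 : v be < v ξ := (lg_lt_lg hbe0 hξ).mp (lt_of_le_of_lt (le_max_right _ _) hlt)
    have h3 : v (4 * ξ ^ 2 + 4 * be) < v (4 * al * ξ) := by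
      rw [hT2]
      exact lt_of_le_of_lt (v.map_add _ _)
        (max_lt (lt_of_le_of_lt hT1 h1) (lt_of_le_of_lt hT3 h2))
    have h4' : 4 * ξ ^ 2 + 4 * al * ξ + 4 * be = 4 * al * ξ + (4 * ξ ^ 2 + 4 * be) := by ring
    have h5 : v (4 * ξ ^ 2 + 4 * al * ξ + 4 * be) = v ξ := by
      rw [h4', v.map_add_eq_of_lt_left h3, hT2]
    exact (lg_eq_lg hden0 hξ).mpr h5
  exact trop_dup (lg v be) (lg v ξ) (lg v X) (lg v (4 * ξ ^ 2 + 4 * al * ξ + 4 * be))
    (lg v (ξ ^ 2 - be)) hN D1 D2 D3 D4 D5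

end field


/-! ### Point-level lemmas -/

section points

variable {K : Type*} [Field K] [DecidableEq K]

/-- The coordinate `ξ = x - e` of a point (junk value `0` at the zero point). -/
def xiP (W : WeierstrassCurve K) (e : K) : W.toAffine.Point → K
  | .zero => 0
  | .some x _ _ => x - e

variable {W : WeierstrassCurve K} {e al be : K}

theorem xiP_some {x y : K} (h : W.toAffine.Nonsingular x y) :
    xiP W e (Point.some x y h) = x - e := rfl

theorem xiP_neg (Q : W.toAffine.Point) : xiP W e (-Q) = xiP W e Q := by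
  cases Q with
  | zero => rfl
  | some x y h => rw [Point.neg_some]; rfl

theorem exists_some_of_ne_zero (Q : W.toAffine.Point) (hQ : Q ≠ 0) :
    ∃ (x y : K) (h : W.toAffine.Nonsingular x y), Q = Point.some x y h := by
  cases Q with
  | zero => exact absurd rfl hQ
  | some x y h => exact ⟨x, y, h, rfl⟩

section torsion

variable {p : ℕ} (hp : p.Prime) {x y : K} {h : W.toAffine.Nonsingular x y}
  (hT : p • (Point.some x y h : W.toAffine.Point) = 0)
include hp hT

theorem nsmul_ne_zero_of_lt {k : ℕ} (hk0 : 0 < k) (hkp : k < p) :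
    k • (Point.some x y h : W.toAffine.Point) ≠ 0 := by
  intro h0
  have : Fact p.Prime := ⟨hp⟩
  have hord : addOrderOf (Point.some x y h : W.toAffine.Point) = p :=
    addOrderOf_eq_prime hT (Point.some_ne_zero h)
  have hdvd : p ∣ k := by
    rw [← hord]; exact addOrderOf_dvd_of_nsmul_eq_zero h0
  exact absurd (Nat.le_of_dvd hk0 hdvd) (not_le.mpr hkp)

theorem xiP_nsmul_ne_zero (hS : Shape W e al be) (hp2 : p ≠ 2) {k : ℕ} (hk0 : 0 < k)
    (hkp : k < p) : xiP W e (k • (Point.some x y h : W.toAffine.Point)) ≠ 0 := by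
  obtain ⟨xk, yk, hk, hkP⟩ := exists_some_of_ne_zero _ (nsmul_ne_zero_of_lt hp hT hk0 hkp)
  rw [hkP, xiP_some]
  intro h0
  have h2 : 2 • (Point.some xk yk hk : W.toAffine.Point) = 0 := by
    rw [helper872.two_nsmul_eq_zero_iff_shape hS hk, h0, zero_mul]
  rw [← hkP, ← mul_nsmul'] at h2
  have : Fact p.Prime := ⟨hp⟩
  have hord : addOrderOf (Point.some x y h : W.toAffine.Point) = p :=
    addOrderOf_eq_prime hT (Point.some_ne_zero h)
  have hdvd : p ∣ 2 * k := by
    rw [← hord]; exact addOrderOf_dvd_of_nsmul_eq_zero h2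
  rcases (Nat.Prime.dvd_mul hp).mp hdvd with h' | h'
  · exact hp2 ((Nat.prime_dvd_prime_iff_eq hp Nat.prime_two).mp h')
  · exact absurd (Nat.le_of_dvd hk0 h') (not_le.mpr hkp)

end torsion

end points


/-! ### The main theorem -/

section main

variable {K : Type*} [Field K] [DecidableEq K] {Γ₀ : Type*} [LinearOrderedCommGroupWithZero Γ₀]
  (v : Valuation K Γ₀) {W : WeierstrassCurve K} {e al be : K}

/-- The clamped logarithmic depth of `k • P`. -/
noncomputable def cdepth (v : Valuation K Γ₀) (W : WeierstrassCurve K) (e be : K)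
    (P : W.toAffine.Point) (k : ℕ) : Additive Γ₀ˣ :=
  clamp (lg v be) (lg v (xiP W e (k • P)))

variable {p : ℕ} {x y : K} {h : W.toAffine.Nonsingular x y}

theorem cdepth_kummer (hS : Shape W e al be) (hal : v (4 * al) = 1) (hbe0 : be ≠ 0)
    (hN : lg v be < 0) (hp : p.Prime) (hp2 : p ≠ 2)
    (hT : p • (Point.some x y h : W.toAffine.Point) = 0) {k : ℕ} (hk1 : 2 ≤ k)
    (hk2 : k + 1 < p) :
    (cdepth v W e be (Point.some x y h) (k + 1) =
          fold (lg v be) (cdepth v W e be (Point.some x y h) k +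
            cdepth v W e be (Point.some x y h) 1) ∧
        cdepth v W e be (Point.some x y h) (k - 1) =
          min (cdepth v W e be (Point.some x y h) k - cdepth v W e be (Point.some x y h) 1)
            (cdepth v W e be (Point.some x y h) 1 - cdepth v W e be (Point.some x y h) k)) ∨
      (cdepth v W e be (Point.some x y h) (k - 1) =
          fold (lg v be) (cdepth v W e be (Point.some x y h) k +
            cdepth v W e be (Point.some x y h) 1) ∧
        cdepth v W e be (Point.some x y h) (k + 1) =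
          min (cdepth v W e be (Point.some x y h) k - cdepth v W e be (Point.some x y h) 1)
            (cdepth v W e be (Point.some x y h) 1 - cdepth v W e be (Point.some x y h) k)) := by
  have hk0 : 0 < k := by omega
  have hkp : k < p := by omega
  obtain ⟨xk, yk, hk, hkP⟩ := exists_some_of_ne_zero _ (nsmul_ne_zero_of_lt hp hT hk0 hkp)
  have hxne : xk ≠ x := by
    intro hx
    rcases helper872.eq_or_eq_neg_of_X_eq hk h hx with h' | h'
    · -- k • P = P
      have h0 : (k - 1) • (Point.some x y h : W.toAffine.Point) = 0 := by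
        have e1 : k • (Point.some x y h : W.toAffine.Point) =
            (k - 1) • (Point.some x y h : W.toAffine.Point) + Point.some x y h := by
          rw [← succ_nsmul]; congr 1; omega
        rw [hkP, h'] at e1
        exact (add_eq_right.mp e1.symm)
      exact nsmul_ne_zero_of_lt hp hT (by omega) (by omega) h0
    · -- k • P = - P
      have h0 : (k + 1) • (Point.some x y h : W.toAffine.Point) = 0 := by
        rw [succ_nsmul, hkP, h', neg_add_cancel]
      exact nsmul_ne_zero_of_lt hp hT (by omega) hk2 h0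
  obtain ⟨Xp, Yp, Xm, Ym, hp', hm', hadd, hsub, hprod, hsum⟩ :=
    helper872.exists_add_sub_shape hS hk h hxne
  have hkp1 : (k + 1) • (Point.some x y h : W.toAffine.Point) = Point.some Xp Yp hp' := by
    rw [succ_nsmul, hkP, hadd]
  have hkm1 : (k - 1) • (Point.some x y h : W.toAffine.Point) = Point.some Xm Ym hm' := by
    rw [← hsub, ← hkP]
    have e1 : k • (Point.some x y h : W.toAffine.Point) =
        (k - 1) • (Point.some x y h : W.toAffine.Point) + Point.some x y h := by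
      rw [← succ_nsmul]; congr 1; omega
    rw [e1, add_sub_cancel_right]
  have n1 : x - e ≠ 0 := by
    have := xiP_nsmul_ne_zero (e := e) hp hT hS hp2 (k := 1) one_pos hp.one_lt
    rwa [one_nsmul, xiP_some] at this
  have nk : xk - e ≠ 0 := by
    have := xiP_nsmul_ne_zero (e := e) hp hT hS hp2 hk0 hkp
    rwa [hkP, xiP_some] at this
  have np : Xp - e ≠ 0 := by
    have := xiP_nsmul_ne_zero (e := e) hp hT hS hp2 (k := k + 1) (by omega) hk2
    rwa [hkp1, xiP_some] at this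
  have nm : Xm - e ≠ 0 := by
    have := xiP_nsmul_ne_zero (e := e) hp hT hS hp2 (k := k - 1) (by omega) (by omega)
    rwa [hkm1, xiP_some] at this
  have hD : xk - x = (xk - e) - (x - e) := by ring
  rw [hD] at hprod hsum
  have key := field_kummer (v := v) hal hbe0 hN nk n1 np nm
    (fun h' => hxne (by linear_combination h')) hprod hsum
  unfold cdepth
  rw [hkp1, hkm1, hkP, one_nsmul]
  simp only [xiP_some]
  exact key

theorem cdepth_two (hS : Shape W e al be) (hal : v (4 * al) = 1) (hbe0 : be ≠ 0)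
    (hN : lg v be < 0) (hp : p.Prime) (hp2 : p ≠ 2)
    (hT : p • (Point.some x y h : W.toAffine.Point) = 0) :
    cdepth v W e be (Point.some x y h) 2 =
      fold (lg v be) (cdepth v W e be (Point.some x y h) 1 +
        cdepth v W e be (Point.some x y h) 1) := by
  have hp3 : 2 < p := lt_of_le_of_ne hp.two_le (Ne.symm hp2)
  have h2ne := nsmul_ne_zero_of_lt hp hT (k := 2) two_pos hp3
  have hy : y ≠ W.toAffine.negY x y := fun hy =>
    h2ne ((helper872.two_nsmul_eq_zero_iff h).mpr hy)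
  obtain ⟨X, Y, h', h2P, hdup, hden⟩ := helper872.exists_two_nsmul_shape hS h hy
  have n1 : x - e ≠ 0 := by
    have := xiP_nsmul_ne_zero (e := e) hp hT hS hp2 (k := 1) one_pos hp.one_lt
    rwa [one_nsmul, xiP_some] at this
  have n2 : X - e ≠ 0 := by
    have := xiP_nsmul_ne_zero (e := e) hp hT hS hp2 (k := 2) two_pos hp3
    rwa [h2P, xiP_some] at this
  have key := field_dup (v := v) hal hbe0 hN n1 n2 hden hdup
  unfold cdepth
  rw [h2P, one_nsmul]
  simp only [xiP_some]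
  exact key

theorem cdepth_rel (hS : Shape W e al be) (hal : v (4 * al) = 1) (hbe0 : be ≠ 0)
    (hN : lg v be < 0) (hp : p.Prime) (hp2 : p ≠ 2)
    (hT : p • (Point.some x y h : W.toAffine.Point) = 0) (k : ℕ) (hk1 : 1 ≤ k)
    (hk2 : k + 1 < p) :
    Rel (lg v be) (cdepth v W e be (Point.some x y h) k)
        ((k : ℤ) • cdepth v W e be (Point.some x y h) 1) ∧
      Rel (lg v be) (cdepth v W e be (Point.some x y h) (k + 1))
        (((k : ℤ) + 1) • cdepth v W e be (Point.some x y h) 1) := by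
  induction k, hk1 using Nat.le_induction with
  | base =>
    refine ⟨?_, ?_⟩
    · rw [Nat.cast_one, one_smul]; exact Rel.refl _ _
    · rw [cdepth_two v hS hal hbe0 hN hp hp2 hT, Nat.cast_one, add_smul, one_smul]
      exact rel_fold _ _
  | succ k hk ih =>
    obtain ⟨ih1, ih2⟩ := ih (by omega)
    refine ⟨by rw [Nat.cast_add, Nat.cast_one]; exact ih2, ?_⟩
    have hK := cdepth_kummer v hS hal hbe0 hN hp hp2 hT (k := k + 1) (by omega) hk2
    rw [Nat.add_sub_cancel] at hK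
    have := rel_step (lg v be) (cdepth v W e be (Point.some x y h) 1) ((k : ℤ) + 1)
      (cdepth v W e be (Point.some x y h) (k + 1)) (cdepth v W e be (Point.some x y h) k)
      (cdepth v W e be (Point.some x y h) (k + 1 + 1)) ih2
      (by rw [add_sub_cancel_right]; exact ih1) hK
    rw [Nat.cast_add, Nat.cast_one]
    exact this

/-- **Node valuation theorem, general form** (no hypothesis on `v 2` or `v p`). -/
theorem nodeVal_gen (W : WeierstrassCurve K) (e al be : K) (hS : Shape W e al be)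
    (hal : v (4 * al) = 1) (hbe : v be < 1) (hbe0 : be ≠ 0) (p : ℕ) (hp : p.Prime)
    (hp2 : p ≠ 2) (x y : K) (h : W.toAffine.Nonsingular x y) (hx : v (x - e) < 1)
    (hT : p • (Point.some x y h : W.toAffine.Point) = 0) :
    v be < v (x - e) ∧ ∃ j : ℤ, v (x - e) ^ p = v be ^ (2 * j) := by
  have hN : lg v be < 0 := (lg_neg_iff hbe0).mpr hbe
  have hp3 : 2 < p := lt_of_le_of_ne hp.two_le (Ne.symm hp2)
  have n1 : x - e ≠ 0 := by
    have := xiP_nsmul_ne_zero (e := e) hp hT hS hp2 (k := 1) one_pos hp.one_lt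
    rwa [one_nsmul, xiP_some] at this
  have hu : lg v (x - e) < 0 := (lg_neg_iff n1).mpr hx
  -- `p = 2 m + 1`
  obtain ⟨m, hm⟩ : ∃ m : ℕ, p = 2 * m + 1 := by
    rcases hp.eq_two_or_odd with h2 | h2
    · exact absurd h2 hp2
    · exact ⟨p / 2, by omega⟩
  have hm1 : 1 ≤ m := by omega
  obtain ⟨r1, r2⟩ := cdepth_rel v hS hal hbe0 hN hp hp2 hT m hm1 (by omega)
  -- `(m+1) • P = -(m • P)`
  have hneg : (m + 1) • (Point.some x y h : W.toAffine.Point) =
      -(m • (Point.some x y h : W.toAffine.Point)) := by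
    apply eq_neg_of_add_eq_zero_left
    rw [← add_nsmul]
    have : m + 1 + m = p := by omega
    rw [this, hT]
  have hceq : cdepth v W e be (Point.some x y h) (m + 1) =
      cdepth v W e be (Point.some x y h) m := by
    unfold cdepth; rw [hneg, xiP_neg]
  rw [hceq] at r2
  have hrel : Rel (lg v be) (((m : ℤ) + 1) • cdepth v W e be (Point.some x y h) 1)
      ((m : ℤ) • cdepth v W e be (Point.some x y h) 1) := r2.symm.trans r1
  have hc1 : cdepth v W e be (Point.some x y h) 1 = clamp (lg v be) (lg v (x - e)) := by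
    unfold cdepth; rw [one_nsmul, xiP_some]
  rw [hc1] at hrel
  obtain ⟨j, hj⟩ := rel_final (lg v be) (clamp (lg v be) (lg v (x - e))) hN (le_clamp _ _)
    (clamp_lt hN hu) (m : ℤ) hrel
  have hlt : lg v be < lg v (x - e) := by
    by_contra hle
    rw [not_lt] at hle
    rw [clamp_of_le hN.le hle] at hj
    exact odd_zsmul_ne (lg v be) hN (2 * (m : ℤ) + 1) ⟨m, rfl⟩ j hj
  refine ⟨(lg_lt_lg hbe0 n1).mp hlt, j, ?_⟩
  rw [clamp_of_mem hlt.le hu.le] at hj
  apply pow_eq_zpow_of_lg n1 hbe0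
  rw [← hj, hm]
  push_cast
  rfl

end main

/-- The captain's `NodeValStmt` (with `v 2 = 1`, `v al = 1`) is a special case. -/
theorem nodeVal : Fermat.Agent.S05.helper5.NodeValStmt := by
  intro K _ _ Γ₀ _ v W e al be hS hv2 hal hbe hbe0 p hp hp2 _ x y h hx hT
  have hal4 : v (4 * al) = 1 := by
    have h4 : (4 : K) = 2 * 2 := by norm_num
    rw [map_mul, h4, map_mul, hv2, hal, one_mul, one_mul]
  exact nodeVal_gen v W e al be hS hal4 hbe hbe0 p hp hp2 x y h hx hT

end Fermat.Agent.S05.helper1915
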