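import Mathlib
import Fermat.Agent.S05.helper5_Spec
import Fermat.Agent.S05.helper872_Kummer
import Fermat.Agent.S05.helper185_AddVal

/-!
# S05-NODEVAL (helper2195): `nodeVal (hK : KerStmt) : NodeValStmt`

Route: x-only (Kummer) identities of `helper872_Kummer` in the shape coordinate `ξ = x - e`,
the kernel statement `KerStmt` to keep every multiple of the torsion point integral, and the
"maximal generator" trick.

* `unit_closure`: if a `p`-torsion point `S` has `v ξ(S) = 1` then so has every nonzero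
  multiple of `S` (duplication + product formula + `KerStmt`).
* `deep_double`: if `v ξ(P) ≤ v be` then `1 ≤ v ξ(2P)` (duplication).
* `mid_range`: hence every nonzero multiple of the given point `T` (with `v ξ(T) < 1`)
  satisfies `v be < v ξ < 1`.
* `seq_core` (abstract, ordered additive group): for the generator `T'` of `⟨T⟩` with maximal
  `v ξ`, the additive valuations `a m = ord ξ(m T')` satisfy `a m = m c` while `m c < N` and
  `a m = 2 N - m c` afterwards (`c = a 1`, `N = ord be`).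
* `field_core`: translation of the valuation bookkeeping; `a (p - 1) = c` gives `p c = 2 N`.
-/

set_option autoImplicit false

namespace Fermat.Agent.S05.helper2195

open WeierstrassCurve WeierstrassCurve.Affine
open Fermat.Agent.S05.helper305 (Shape)
open Fermat.Agent.S05.helper185
open Fermat.Agent.S05.helper5 (KerStmt NodeValStmt)

/-! ### The abstract sequence lemma -/

/-- Abstract core: `a m` is the additive valuation of `ξ(m T')`, `c = a 1` is minimal,
`N` is the additive valuation of `be`, `D m`, `M m` are the additive valuations of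
`ξ_m - ξ_1` and `ξ_m ξ_1 - be`. -/
theorem seq_core {A : Type*} [AddCommGroup A] [LinearOrder A] [IsOrderedAddMonoid A]
    (p : ℕ) (hp : 3 ≤ p) (N c : A) (a D M : ℕ → A)
    (hc : 0 < c) (hcN : c < N)
    (ha1 : a 1 = c)
    (hlt : ∀ m, 1 ≤ m → m ≤ p - 1 → a m < N)
    (hmin : ∀ m, 1 ≤ m → m ≤ p - 1 → c ≤ a m)
    (hdup : a 2 + (c + c) = M 1 + M 1)
    (hM1 : min (c + c) N ≤ M 1) (hM1' : c + c ≠ N → M 1 = min (c + c) N)
    (hprod : ∀ m, 2 ≤ m → m + 1 ≤ p - 1 → a (m + 1) + a (m - 1) + (D m + D m) = M m + M m)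
    (hD : ∀ m, 2 ≤ m → m + 1 ≤ p - 1 → c ≤ D m)
    (hD' : ∀ m, 2 ≤ m → m + 1 ≤ p - 1 → c < a m → D m = c)
    (hM : ∀ m, 2 ≤ m → m + 1 ≤ p - 1 → min (a m + c) N ≤ M m)
    (hM' : ∀ m, 2 ≤ m → m + 1 ≤ p - 1 → a m + c ≠ N → M m = min (a m + c) N) :
    ∀ m, 1 ≤ m → m ≤ p - 1 →
      (m • c < N ∧ a m = m • c) ∨ (N < m • c ∧ a m + m • c = N + N) := by
  have key : ∀ m : ℕ,
      (1 ≤ m → m ≤ p - 1 → (m • c < N ∧ a m = m • c) ∨ (N < m • c ∧ a m + m • c = N + N)) ∧
      (m + 1 ≤ p - 1 →
        ((m + 1) • c < N ∧ a (m + 1) = (m + 1) • c) ∨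
          (N < (m + 1) • c ∧ a (m + 1) + (m + 1) • c = N + N)) := by
    intro m
    induction m with
    | zero =>
      refine ⟨fun h => absurd h (by norm_num), fun _ => Or.inl ?_⟩
      rw [zero_add, one_nsmul]
      exact ⟨hcN, ha1⟩
    | succ m ih =>
      refine ⟨fun _ h => ih.2 h, fun h => ?_⟩
      rcases Nat.eq_zero_or_pos m with rfl | hm
      · -- duplication
        have h2l := hlt 2 (by norm_num) (by omega)
        have e2 : (0 + 1 + 1) • c = c + c := by
          rw [succ_nsmul, succ_nsmul, zero_nsmul, zero_add]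
        rw [e2]
        show (c + c < N ∧ a 2 = c + c) ∨ (N < c + c ∧ a 2 + (c + c) = N + N)
        grind
      · have st0 := ih.1 hm (by omega)
        have st1 := ih.2 (by omega)
        have hpr := hprod (m + 1) (by omega) h
        have hD1 := hD (m + 1) (by omega) h
        have hD2 := hD' (m + 1) (by omega) h
        have hM1 := hM (m + 1) (by omega) h
        have hM2 := hM' (m + 1) (by omega) h
        have h0l := hlt m hm (by omega)
        have h0m := hmin m hm (by omega)
        have h1l := hlt (m + 1) (by omega) (by omega)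
        have h1m := hmin (m + 1) (by omega) (by omega)
        have h2l := hlt (m + 1 + 1) (by omega) h
        have h2m := hmin (m + 1 + 1) (by omega) h
        have e1 : (m + 1) • c = m • c + c := succ_nsmul c m
        have e2 : (m + 1 + 1) • c = m • c + c + c := by rw [succ_nsmul, succ_nsmul]
        have e3 : m + 1 - 1 = m := by omega
        rw [e3] at hpr
        rw [e1] at st1
        rw [e2]
        have hs : 0 < m • c := nsmul_pos hc (by omega)
        generalize m • c = s at *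
        generalize a m = a0 at *
        generalize a (m + 1) = a1 at *
        generalize a (m + 1 + 1) = a2 at *
        generalize D (m + 1) = d at *
        generalize M (m + 1) = n at *
        grind
  exact fun m h1 h2 => (key m).1 h1 h2

/-! ### Torsion bookkeeping in a commutative group -/

section Group

variable {G : Type*} [AddCommGroup G]

theorem mod_nsmul {T : G} {p : ℕ} (hpT : p • T = 0) (n : ℕ) : (n % p) • T = n • T := by
  conv_rhs => rw [← Nat.div_add_mod n p]
  rw [add_nsmul, mul_nsmul, hpT, nsmul_zero, zero_add]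

theorem nsmul_ne_zero_of_pos_of_lt {T : G} {p : ℕ} (hp : p.Prime) (hT : T ≠ 0)
    (hpT : p • T = 0) {k : ℕ} (hk0 : 0 < k) (hkp : k < p) : k • T ≠ 0 := by
  intro hk
  have h1 : addOrderOf T ∣ p := addOrderOf_dvd_of_nsmul_eq_zero hpT
  have h2 : addOrderOf T ∣ k := addOrderOf_dvd_of_nsmul_eq_zero hk
  rcases (Nat.dvd_prime hp).1 h1 with h | h
  · exact hT (AddMonoid.addOrderOf_eq_one_iff.1 h)
  · rw [h] at h2
    exact absurd (Nat.le_of_dvd hk0 h2) (not_le.2 hkp)

theorem exists_nsmul_inv {T : G} {p : ℕ} (hp : p.Prime) (hpT : p • T = 0) {k : ℕ}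
    (hk : k • T ≠ 0) : ∃ m, 1 ≤ m ∧ m ≤ p - 1 ∧ m • (k • T) = T := by
  have hT : T ≠ 0 := by
    rintro rfl
    exact hk (nsmul_zero k)
  have hndvd : ¬ p ∣ k := by
    rintro ⟨q, rfl⟩
    exact hk (by rw [mul_nsmul, hpT, nsmul_zero])
  have hcop : Nat.Coprime k p := ((Nat.Prime.coprime_iff_not_dvd hp).2 hndvd).symm
  obtain ⟨m, hmp, hm⟩ := Nat.exists_mul_mod_eq_one_of_coprime hcop hp.one_lt
  have hmk : m • (k • T) = T := by
    rw [← mul_nsmul, ← mod_nsmul hpT, hm, one_nsmul]
  refine ⟨m, ?_, by omega, hmk⟩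
  rcases Nat.eq_zero_or_pos m with h0 | h0
  · rw [h0, zero_nsmul] at hmk
    exact absurd hmk.symm hT
  · exact h0

end Group

/-! ### The `x`-coordinate of a point and the Kummer identities -/

section Points

variable {K : Type*} [Field K] {W : WeierstrassCurve K}

/-- `x`-coordinate of a point (junk value `0` at infinity). -/
def px : W.toAffine.Point → K
  | .zero => 0
  | .some x _ _ => x

theorem exists_some_of_ne_zero {P : W.toAffine.Point} (hP : P ≠ 0) :
    ∃ (x y : K) (h : W.toAffine.Nonsingular x y), P = Point.some x y h := by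
  cases P with
  | zero => exact absurd rfl hP
  | some x y h => exact ⟨x, y, h, rfl⟩

theorem px_neg (P : W.toAffine.Point) : px (-P) = px P := by
  cases P with
  | zero => rfl
  | some x y h => rw [Point.neg_some]; rfl

theorem eq_or_eq_neg_of_px_eq {P Q : W.toAffine.Point} (hP : P ≠ 0) (hQ : Q ≠ 0)
    (hx : px P = px Q) : P = Q ∨ P = -Q := by
  obtain ⟨x₁, y₁, h₁, rfl⟩ := exists_some_of_ne_zero hP
  obtain ⟨x₂, y₂, h₂, rfl⟩ := exists_some_of_ne_zero hQ
  exact helper872.eq_or_eq_neg_of_X_eq h₁ h₂ hx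

variable [DecidableEq K] {e al be : K}

theorem xi_add_sub (hS : Shape W e al be) {P Q : W.toAffine.Point} (hP : P ≠ 0) (hQ : Q ≠ 0)
    (hx : px P ≠ px Q) :
    P + Q ≠ 0 ∧ P - Q ≠ 0 ∧
      (px (P + Q) - e) * (px (P - Q) - e) * (px P - px Q) ^ 2 =
        ((px P - e) * (px Q - e) - be) ^ 2 := by
  obtain ⟨x₁, y₁, h₁, rfl⟩ := exists_some_of_ne_zero hP
  obtain ⟨x₂, y₂, h₂, rfl⟩ := exists_some_of_ne_zero hQ
  obtain ⟨Xp, Yp, Xm, Ym, hp, hm, hadd, hsub, hprod, -⟩ :=
    helper872.exists_add_sub_shape hS h₁ h₂ hx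
  rw [hadd, hsub]
  exact ⟨Point.some_ne_zero _, Point.some_ne_zero _, hprod⟩

theorem xi_two (hS : Shape W e al be) {P : W.toAffine.Point} (hP : P ≠ 0)
    (h2 : 2 • P ≠ 0) :
    (px (2 • P) - e) * 4 * (px P - e) * ((px P - e) ^ 2 + al * (px P - e) + be) =
        ((px P - e) ^ 2 - be) ^ 2 ∧
      (px P - e) * ((px P - e) ^ 2 + al * (px P - e) + be) ≠ 0 := by
  obtain ⟨x, y, h, rfl⟩ := exists_some_of_ne_zero hP
  have hy : y ≠ W.toAffine.negY x y := fun hy =>
    h2 ((helper872.two_nsmul_eq_zero_iff h).2 hy)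
  obtain ⟨X, Y, h', hadd, hdup, hne⟩ := helper872.exists_two_nsmul_shape hS h hy
  rw [hadd]
  exact ⟨hdup, hne⟩

end Points

/-! ### Valuation lemmas -/

section Val

variable {Γ₀ : Type*} [LinearOrderedCommGroupWithZero Γ₀]

theorem one_le_of_mul_eq {a b c : Γ₀} (h : a * b = c) (hb : b ≤ c) (hc : c ≠ 0) : 1 ≤ a := by
  by_contra hlt
  rw [not_le] at hlt
  have h1 : a * b ≤ a * c := mul_le_mul_right hb a
  have h2 : a * c < 1 * c := mul_lt_mul_of_pos_right hlt (zero_lt_iff.2 hc)
  rw [one_mul] at h2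
  exact absurd h (ne_of_lt (lt_of_le_of_lt h1 h2))

variable {K : Type*} [Field K] (v : Valuation K Γ₀)

theorem ord_sub_min {x y : K} (hx : x ≠ 0) (hy : y ≠ 0) (hxy : x - y ≠ 0) :
    min (ord v x) (ord v y) ≤ ord v (x - y) ∧
      (ord v x ≠ ord v y → ord v (x - y) = min (ord v x) (ord v y)) := by
  refine ⟨min_le_ord_sub v hx hy hxy, fun hne => ?_⟩
  rcases lt_or_gt_of_ne hne with h | h
  · rw [ord_sub_eq_left v hx hy h, min_eq_left h.le]
  · rw [ord_sub_eq_right v hx hy h, min_eq_right h.le]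

theorem val_four (h2 : v 2 = 1) : v (4 : K) = 1 := by
  have h4 : (4 : K) = 2 * 2 := by norm_num
  rw [h4, map_mul, h2, one_mul]

end Val

/-! ### Unit closure and the deep range -/

section Main

variable {K : Type*} [Field K] [DecidableEq K] {Γ₀ : Type*} [LinearOrderedCommGroupWithZero Γ₀]
  (v : Valuation K Γ₀) {W : WeierstrassCurve K} {e al be : K}

/-- If a `p`-torsion point `S` has `v ξ(S) = 1`, so has every nonzero multiple of `S`. -/
theorem unit_closure (hS : Shape W e al be) (h2 : v 2 = 1) (hal : v al = 1) (hbe : v be < 1)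
    {p : ℕ} (hker : ∀ P : W.toAffine.Point, P ≠ 0 → p • P = 0 → v (px P - e) ≤ 1)
    {S : W.toAffine.Point} (hpS : p • S = 0) (hu : v (px S - e) = 1) :
    ∀ k : ℕ, k • S ≠ 0 → v (px (k • S) - e) = 1 := by
  intro k
  induction k using Nat.strong_induction_on with
  | _ k ih =>
    intro hk
    have hS0 : S ≠ 0 := by
      rintro rfl
      exact hk (nsmul_zero k)
    have hpk : p • (k • S) = 0 := by rw [nsmul_left_comm, hpS, nsmul_zero]
    have hle := hker (k • S) hk hpk
    obtain _ | _ | _ | k := k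
    · exact absurd (zero_nsmul S) hk
    · rw [zero_add, one_nsmul]
      exact hu
    · -- duplication
      have hk' : 2 • S ≠ 0 := hk
      change v (px (2 • S) - e) ≤ 1 at hle
      show v (px (2 • S) - e) = 1
      obtain ⟨hdup, -⟩ := xi_two hS hS0 hk'
      have hv := congrArg v hdup
      simp only [map_mul, map_pow] at hv
      have hN : v ((px S - e) ^ 2 - be) = 1 := by
        have hlt : v be < v ((px S - e) ^ 2) := by
          rw [map_pow, hu, one_pow]
          exact hbe
        rw [Valuation.map_sub_eq_of_lt_left v hlt, map_pow, hu, one_pow]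
      have hcub : v ((px S - e) ^ 2 + al * (px S - e) + be) ≤ 1 := by
        refine Valuation.map_add_le v (Valuation.map_add_le v ?_ ?_) hbe.le
        · rw [map_pow, hu, one_pow]
        · rw [map_mul, hal, hu, one_mul]
      rw [val_four v h2, mul_one, hu, mul_one, hN, one_pow] at hv
      exact le_antisymm hle (one_le_of_mul_eq hv hcub one_ne_zero)
    · -- product formula at `n = k + 2`
      by_cases h1 : (k + 2) • S = 0
      · have e1 : (k + 1 + 1 + 1) • S = S := by
          rw [succ_nsmul, h1, zero_add]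
        rw [e1]
        exact hu
      by_cases h0 : (k + 1) • S = 0
      · have e1 : (k + 1 + 1 + 1) • S = 2 • S := by
          rw [show k + 1 + 1 + 1 = (k + 1) + 2 by ring, add_nsmul, h0, zero_add]
        rw [e1] at hk ⊢
        exact ih 2 (by omega) hk
      have ih1 := ih (k + 2) (by omega) h1
      have ih0 := ih (k + 1) (by omega) h0
      have hx : px ((k + 2) • S) ≠ px S := by
        intro heq
        rcases eq_or_eq_neg_of_px_eq h1 hS0 heq with h | h
        · apply h0
          have : (k + 1) • S + S = S := by rw [← succ_nsmul]; exact h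
          exact add_eq_right.1 this
        · apply hk
          rw [succ_nsmul, h, neg_add_cancel]
      obtain ⟨-, -, hprod⟩ := xi_add_sub hS h1 hS0 hx
      have ea : (k + 2) • S + S = (k + 1 + 1 + 1) • S := (succ_nsmul S (k + 2)).symm
      have es : (k + 2) • S - S = (k + 1) • S := by
        rw [succ_nsmul S (k + 1), add_sub_cancel_right]
      rw [ea, es] at hprod
      have hv := congrArg v hprod
      simp only [map_mul, map_pow] at hv
      have hN : v ((px ((k + 2) • S) - e) * (px S - e) - be) = 1 := by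
        have hlt : v be < v ((px ((k + 2) • S) - e) * (px S - e)) := by
          rw [map_mul, ih1, hu, one_mul]
          exact hbe
        rw [Valuation.map_sub_eq_of_lt_left v hlt, map_mul, ih1, hu, one_mul]
      have hD : v (px ((k + 2) • S) - px S) ≤ 1 := by
        have : px ((k + 2) • S) - px S = (px ((k + 2) • S) - e) - (px S - e) := by ring
        rw [this]
        exact Valuation.map_sub_le v ih1.le hu.le
      rw [ih0, mul_one, hN, one_pow] at hv
      exact le_antisymm hle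
        (one_le_of_mul_eq hv (pow_le_one₀ zero_le hD) one_ne_zero)

/-- If `v ξ(P) ≤ v be` then `1 ≤ v ξ(2P)`. -/
theorem deep_double (hS : Shape W e al be) (h2 : v 2 = 1) (hal : v al = 1) (hbe : v be < 1)
    (hbe0 : be ≠ 0) {P : W.toAffine.Point} (hP : P ≠ 0) (h2P : 2 • P ≠ 0)
    (hdeep : v (px P - e) ≤ v be) : 1 ≤ v (px (2 • P) - e) := by
  obtain ⟨hdup, -⟩ := xi_two hS hP h2P
  have hv := congrArg v hdup
  simp only [map_mul, map_pow] at hv
  have hB0 : v be ≠ 0 := (Valuation.ne_zero_iff v).2 hbe0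
  have hξ2 : v ((px P - e) ^ 2) < v be := by
    rw [map_pow, sq]
    calc v (px P - e) * v (px P - e) ≤ v be * v be := mul_le_mul' hdeep hdeep
      _ < 1 * v be := mul_lt_mul_of_pos_right hbe (zero_lt_iff.2 hB0)
      _ = v be := one_mul _
  have hN : v ((px P - e) ^ 2 - be) = v be := Valuation.map_sub_eq_of_lt_right v hξ2
  have hcub : v ((px P - e) ^ 2 + al * (px P - e) + be) ≤ v be := by
    refine Valuation.map_add_le v (Valuation.map_add_le v hξ2.le ?_) le_rfl
    rw [map_mul, hal, one_mul]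
    exact hdeep
  rw [val_four v h2, mul_one, hN, mul_assoc] at hv
  refine one_le_of_mul_eq hv ?_ (pow_ne_zero 2 hB0)
  calc v (px P - e) * v ((px P - e) ^ 2 + al * (px P - e) + be) ≤ v be * v be :=
        mul_le_mul' hdeep hcub
    _ = v be ^ 2 := (sq _).symm

/-- Every nonzero multiple of `T` lies in the middle range `v be < v ξ < 1`. -/
theorem mid_range (hS : Shape W e al be) (h2 : v 2 = 1) (hal : v al = 1) (hbe : v be < 1)
    (hbe0 : be ≠ 0) {p : ℕ} (hp : p.Prime) (hp2 : p ≠ 2)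
    (hker : ∀ P : W.toAffine.Point, P ≠ 0 → p • P = 0 → v (px P - e) ≤ 1)
    {T : W.toAffine.Point} (hpT : p • T = 0) (hT : v (px T - e) < 1) :
    ∀ k : ℕ, k • T ≠ 0 → v be < v (px (k • T) - e) ∧ v (px (k • T) - e) < 1 := by
  have hp3 : 3 ≤ p := by
    have := hp.two_le
    omega
  have hlt1 : ∀ k : ℕ, k • T ≠ 0 → v (px (k • T) - e) < 1 := by
    intro k hk
    have hpk : p • (k • T) = 0 := by rw [nsmul_left_comm, hpT, nsmul_zero]
    rcases lt_or_eq_of_le (hker (k • T) hk hpk) with h | h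
    · exact h
    · exfalso
      have hT0 : T ≠ 0 := by
        rintro rfl
        exact hk (nsmul_zero k)
      obtain ⟨m, -, -, hm⟩ := exists_nsmul_inv hp hpT hk
      have h1 := unit_closure v hS h2 hal hbe hker hpk h m (by rw [hm]; exact hT0)
      rw [hm] at h1
      exact absurd h1 (ne_of_lt hT)
  intro k hk
  refine ⟨?_, hlt1 k hk⟩
  by_contra hdeep
  rw [not_lt] at hdeep
  have hpk : p • (k • T) = 0 := by rw [nsmul_left_comm, hpT, nsmul_zero]
  have h2k : 2 • (k • T) ≠ 0 :=
    nsmul_ne_zero_of_pos_of_lt hp hk hpk (by norm_num) (by omega)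
  have h1 := deep_double v hS h2 hal hbe hbe0 hk h2k hdeep
  have e1 : 2 • (k • T) = (k * 2) • T := (mul_nsmul T k 2).symm
  rw [e1] at h1 h2k
  exact absurd (hlt1 (k * 2) h2k) (not_lt.2 h1)

/-! ### The field-level core -/

omit [DecidableEq K] in
/-- Field-level core: a sequence `x m` (`= ξ(m T')`) in the middle range, with `v (x 1)`
maximal, satisfying the duplication and product identities and `x (p - 1) = x 1`. -/
theorem field_core {al be : K} (h2 : v 2 = 1) (hal : v al = 1) (hbe0 : be ≠ 0)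
    (p : ℕ) (hp : 3 ≤ p) (x : ℕ → K)
    (hmid : ∀ m, 1 ≤ m → m ≤ p - 1 → v be < v (x m) ∧ v (x m) < 1 ∧ v (x m) ≤ v (x 1))
    (hdup : x 2 * 4 * x 1 * (x 1 ^ 2 + al * x 1 + be) = (x 1 ^ 2 - be) ^ 2)
    (hprod : ∀ m, 2 ≤ m → m + 1 ≤ p - 1 →
      x m ≠ x 1 ∧ x (m + 1) * x (m - 1) * (x m - x 1) ^ 2 = (x m * x 1 - be) ^ 2)
    (hsymm : x (p - 1) = x 1) :
    ∀ m, 1 ≤ m → m ≤ p - 1 → ∃ j : ℤ, v (x m) ^ p = v be ^ (2 * j) := by
  have hx0 : ∀ m, 1 ≤ m → m ≤ p - 1 → x m ≠ 0 := by
    intro m h1 h2 h0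
    have h := (hmid m h1 h2).1
    rw [h0, map_zero] at h
    exact not_lt_zero h
  have hm1 := hmid 1 le_rfl (by omega)
  have hx1 : x 1 ≠ 0 := hx0 1 le_rfl (by omega)
  have hx2 : x 2 ≠ 0 := hx0 2 (by norm_num) (by omega)
  have hal0 : al ≠ 0 := by
    rintro rfl
    rw [map_zero] at hal
    exact zero_ne_one hal
  have h40 : (4 : K) ≠ 0 := by
    intro h0
    have h4 := val_four v h2
    rw [h0, map_zero] at h4
    exact zero_ne_one h4
  have ho4 : ord v (4 : K) = 0 := ord_eq_zero_of_val_eq_one v (val_four v h2)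
  have hoal : ord v al = 0 := ord_eq_zero_of_val_eq_one v hal
  have hcpos : 0 < ord v (x 1) := (ord_pos_iff v hx1).2 hm1.2.1
  have hcN : ord v (x 1) < ord v be := (ord_lt_ord_iff v hx1 hbe0).2 hm1.1
  have hlt : ∀ m, 1 ≤ m → m ≤ p - 1 → ord v (x m) < ord v be := fun m h1 h2 =>
    (ord_lt_ord_iff v (hx0 m h1 h2) hbe0).2 (hmid m h1 h2).1
  have hmin : ∀ m, 1 ≤ m → m ≤ p - 1 → ord v (x 1) ≤ ord v (x m) := fun m h1 h2 =>
    (ord_le_ord_iff v hx1 (hx0 m h1 h2)).2 (hmid m h1 h2).2.2
  -- the cubic factor at `x 1`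
  have e1 : ord v (x 1 ^ 2) = ord v (x 1) + ord v (x 1) := ord_sq v _
  have e2 : ord v (al * x 1) = ord v (x 1) := by rw [ord_mul v hal0 hx1, hoal, zero_add]
  have hx12 : x 1 ^ 2 ≠ 0 := pow_ne_zero 2 hx1
  have halx : al * x 1 ≠ 0 := mul_ne_zero hal0 hx1
  have hlt12 : ord v (al * x 1) < ord v (x 1 ^ 2) := by
    rw [e1, e2]
    exact lt_add_of_pos_left _ hcpos
  have e3 : ord v (x 1 ^ 2 + al * x 1) = ord v (x 1) := by
    rw [ord_add_eq_right v hx12 halx hlt12, e2]
  have hsum0 : x 1 ^ 2 + al * x 1 ≠ 0 := add_ne_zero_of_ord_ne v (ne_of_gt hlt12)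
  have e4 : ord v (x 1 ^ 2 + al * x 1 + be) = ord v (x 1) := by
    rw [ord_add_eq_left v hsum0 hbe0 (by rw [e3]; exact hcN), e3]
  have hcub0 : x 1 ^ 2 + al * x 1 + be ≠ 0 :=
    add_ne_zero_of_ord_ne v (by rw [e3]; exact ne_of_lt hcN)
  -- duplication in additive form
  have hdup' : x 2 * 4 * x 1 * (x 1 ^ 2 + al * x 1 + be) = (x 1 * x 1 - be) ^ 2 := by
    rw [hdup, sq (x 1)]
  have hL0 : x 2 * 4 * x 1 * (x 1 ^ 2 + al * x 1 + be) ≠ 0 :=
    mul_ne_zero (mul_ne_zero (mul_ne_zero hx2 h40) hx1) hcub0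
  have hM1ne : x 1 * x 1 - be ≠ 0 := by
    intro h0
    rw [hdup', h0] at hL0
    exact hL0 (by norm_num)
  have hdupo : ord v (x 2) + (ord v (x 1) + ord v (x 1)) =
      ord v (x 1 * x 1 - be) + ord v (x 1 * x 1 - be) := by
    have h := congrArg (ord v) hdup'
    rw [ord_mul v (mul_ne_zero (mul_ne_zero hx2 h40) hx1) hcub0,
      ord_mul v (mul_ne_zero hx2 h40) hx1, ord_mul v hx2 h40, ho4, e4, ord_sq, add_zero,
      add_assoc] at h
    exact h
  have hx11 : ord v (x 1 * x 1) = ord v (x 1) + ord v (x 1) := ord_mul v hx1 hx1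
  have hMm1 := ord_sub_min v (mul_ne_zero hx1 hx1) hbe0 hM1ne
  rw [hx11] at hMm1
  -- the product formula in additive form
  have hP : ∀ m, 2 ≤ m → m + 1 ≤ p - 1 →
      (ord v (x (m + 1)) + ord v (x (m - 1)) + (ord v (x m - x 1) + ord v (x m - x 1)) =
          ord v (x m * x 1 - be) + ord v (x m * x 1 - be)) ∧
        ord v (x 1) ≤ ord v (x m - x 1) ∧
        (ord v (x 1) < ord v (x m) → ord v (x m - x 1) = ord v (x 1)) ∧
        min (ord v (x m) + ord v (x 1)) (ord v be) ≤ ord v (x m * x 1 - be) ∧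
        (ord v (x m) + ord v (x 1) ≠ ord v be →
          ord v (x m * x 1 - be) = min (ord v (x m) + ord v (x 1)) (ord v be)) := by
    intro m hm2 hmp
    obtain ⟨hne, hid⟩ := hprod m hm2 hmp
    have hxm : x m ≠ 0 := hx0 m (by omega) (by omega)
    have hxp : x (m + 1) ≠ 0 := hx0 (m + 1) (by omega) hmp
    have hxq : x (m - 1) ≠ 0 := hx0 (m - 1) (by omega) (by omega)
    have hd0 : x m - x 1 ≠ 0 := sub_ne_zero.2 hne
    have hL : x (m + 1) * x (m - 1) * (x m - x 1) ^ 2 ≠ 0 :=
      mul_ne_zero (mul_ne_zero hxp hxq) (pow_ne_zero 2 hd0)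
    have hMne : x m * x 1 - be ≠ 0 := by
      intro h0
      rw [hid, h0] at hL
      exact hL (by norm_num)
    have hxm1 : ord v (x m * x 1) = ord v (x m) + ord v (x 1) := ord_mul v hxm hx1
    have hMm := ord_sub_min v (mul_ne_zero hxm hx1) hbe0 hMne
    rw [hxm1] at hMm
    refine ⟨?_, ?_, fun h => ord_sub_eq_right v hxm hx1 h, hMm.1, hMm.2⟩
    · have h := congrArg (ord v) hid
      rw [ord_mul v (mul_ne_zero hxp hxq) (pow_ne_zero 2 hd0), ord_mul v hxp hxq, ord_sq,
        ord_sq] at h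
      exact h
    · have h := min_le_ord_sub v hxm hx1 hd0
      rwa [min_eq_right (hmin m (by omega) (by omega))] at h
  have hst := seq_core p hp (ord v be) (ord v (x 1)) (fun m => ord v (x m))
    (fun m => ord v (x m - x 1)) (fun m => ord v (x m * x 1 - be)) hcpos hcN rfl hlt hmin
    hdupo hMm1.1 hMm1.2 (fun m h1 h2 => (hP m h1 h2).1) (fun m h1 h2 => (hP m h1 h2).2.1)
    (fun m h1 h2 => (hP m h1 h2).2.2.1) (fun m h1 h2 => (hP m h1 h2).2.2.2.1)
    (fun m h1 h2 => (hP m h1 h2).2.2.2.2)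
  -- `p c = 2 N`
  have hpc : p • ord v (x 1) = ord v be + ord v be := by
    have hs := hst (p - 1) (by omega) le_rfl
    simp only [hsymm] at hs
    have ep : p = (p - 2) + 1 + 1 := by omega
    have e5 : (p - 1) • ord v (x 1) = (p - 2) • ord v (x 1) + ord v (x 1) := by
      rw [← succ_nsmul]
      congr 1
      omega
    have e6 : p • ord v (x 1) = (p - 2) • ord v (x 1) + ord v (x 1) + ord v (x 1) := by
      rw [← succ_nsmul, ← succ_nsmul]
      congr 1
    have hpos : 0 < (p - 2) • ord v (x 1) := nsmul_pos hcpos (by omega)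
    rw [e5] at hs
    rw [e6]
    generalize (p - 2) • ord v (x 1) = s at *
    grind
  intro m hm1' hmp
  have hxm : x m ≠ 0 := hx0 m hm1' hmp
  rcases hst m hm1' hmp with ⟨-, ha⟩ | ⟨-, ha⟩
  · refine ⟨(m : ℤ), val_pow_eq_zpow_of_ord v hxm hbe0 p (2 * (m : ℤ)) ?_⟩
    have ha' : ord v (x m) = m • ord v (x 1) := ha
    linear_combination (norm := module) (p : ℤ) • ha' + (m : ℤ) • hpc
  · refine ⟨(p : ℤ) - (m : ℤ), val_pow_eq_zpow_of_ord v hxm hbe0 p (2 * ((p : ℤ) - (m : ℤ))) ?_⟩
    have ha' : ord v (x m) + m • ord v (x 1) = ord v be + ord v be := ha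
    linear_combination (norm := module) (p : ℤ) • ha' - (m : ℤ) • hpc

/-! ### Assembly -/

/-- Core for the generator `T'` with maximal `v ξ`. -/
theorem gen_core (hS : Shape W e al be) (h2 : v 2 = 1) (hal : v al = 1) (hbe0 : be ≠ 0)
    {p : ℕ} (hp : p.Prime) (hp2 : p ≠ 2) {T' : W.toAffine.Point} (hT'0 : T' ≠ 0)
    (hpT' : p • T' = 0)
    (hmul : ∀ m : ℕ, m • T' ≠ 0 → v be < v (px (m • T') - e) ∧ v (px (m • T') - e) < 1 ∧
      v (px (m • T') - e) ≤ v (px T' - e)) :
    ∀ m, 1 ≤ m → m ≤ p - 1 → ∃ j : ℤ, v (px (m • T') - e) ^ p = v be ^ (2 * j) := by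
  have hp3 : 3 ≤ p := by
    have := hp.two_le
    omega
  have hne : ∀ m, 1 ≤ m → m ≤ p - 1 → m • T' ≠ 0 := fun m h1 h2 =>
    nsmul_ne_zero_of_pos_of_lt hp hT'0 hpT' (by omega) (by omega)
  refine field_core v h2 hal hbe0 p hp3 (fun m => px (m • T') - e) ?_ ?_ ?_ ?_
  · intro m h1 h2
    have h := hmul m (hne m h1 h2)
    simp only [one_nsmul]
    exact h
  · have h := (xi_two hS hT'0 (hne 2 (by norm_num) (by omega))).1
    simp only [one_nsmul]
    exact h
  · intro m hm2 hmp
    have hm0 : m • T' ≠ 0 := hne m (by omega) (by omega)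
    have hx : px (m • T') ≠ px T' := by
      intro heq
      rcases eq_or_eq_neg_of_px_eq hm0 hT'0 heq with h | h
      · apply hne (m - 1) (by omega) (by omega)
        have h1 : (m - 1) • T' + T' = T' := by
          rw [← succ_nsmul, show m - 1 + 1 = m by omega]
          exact h
        exact add_eq_right.1 h1
      · apply hne (m + 1) (by omega) hmp
        rw [succ_nsmul, h, neg_add_cancel]
    obtain ⟨-, -, hprod⟩ := xi_add_sub hS hm0 hT'0 hx
    have ea : m • T' + T' = (m + 1) • T' := (succ_nsmul T' m).symm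
    have es : m • T' - T' = (m - 1) • T' := by
      have h1 : m • T' = (m - 1) • T' + T' := by
        rw [← succ_nsmul, show m - 1 + 1 = m by omega]
      rw [h1, add_sub_cancel_right]
    rw [ea, es] at hprod
    simp only [one_nsmul]
    refine ⟨fun h => hx (sub_left_injective h), ?_⟩
    rw [← hprod]
    ring
  · have h1 : (p - 1) • T' = -T' := by
      have h2 : (p - 1) • T' + T' = 0 := by
        rw [← succ_nsmul, show p - 1 + 1 = p by omega, hpT']
      exact eq_neg_of_add_eq_zero_left h2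
    simp only [one_nsmul]
    rw [h1, px_neg]

/-- **NODEVAL**, given **KER**. -/
theorem nodeVal (hK : KerStmt) : NodeValStmt := by
  intro K _ _ Γ₀ _ v W e al be hS h2 hal hbe hbe0 p hp hp2 hvp x y h hx hpT
  have hker : ∀ P : W.toAffine.Point, P ≠ 0 → p • P = 0 → v (px P - e) ≤ 1 := by
    intro P hP hpP
    obtain ⟨x', y', h', rfl⟩ := exists_some_of_ne_zero hP
    by_contra hgt
    rw [not_le] at hgt
    exact hK K Γ₀ v W e al be hS h2 hal.le hbe.le p hp hp2 hvp x' y' h' hgt hpP
  have hp3 : 3 ≤ p := by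
    have := hp.two_le
    omega
  have hT0 : (Point.some x y h : W.toAffine.Point) ≠ 0 := Point.some_ne_zero _
  have hmid := mid_range v hS h2 hal hbe hbe0 hp hp2 hker hpT (T := Point.some x y h) hx
  -- the generator with maximal valuation
  obtain ⟨k₀, hk₀mem, hk₀max⟩ := Finset.exists_max_image (Finset.Icc 1 (p - 1))
    (fun k => v (px (k • (Point.some x y h : W.toAffine.Point)) - e))
    ⟨1, Finset.mem_Icc.2 ⟨le_rfl, by omega⟩⟩
  rw [Finset.mem_Icc] at hk₀mem
  have hT'0 : k₀ • (Point.some x y h : W.toAffine.Point) ≠ 0 :=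
    nsmul_ne_zero_of_pos_of_lt hp hT0 hpT (by omega) (by omega)
  have hpT' : p • (k₀ • (Point.some x y h : W.toAffine.Point)) = 0 := by
    rw [nsmul_left_comm, hpT, nsmul_zero]
  have hmul : ∀ m : ℕ, m • (k₀ • (Point.some x y h : W.toAffine.Point)) ≠ 0 →
      v be < v (px (m • (k₀ • (Point.some x y h : W.toAffine.Point))) - e) ∧
      v (px (m • (k₀ • (Point.some x y h : W.toAffine.Point))) - e) < 1 ∧
      v (px (m • (k₀ • (Point.some x y h : W.toAffine.Point))) - e) ≤
        v (px (k₀ • (Point.some x y h : W.toAffine.Point)) - e) := by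
    intro m hm
    have e1 : m • (k₀ • (Point.some x y h : W.toAffine.Point)) =
        (k₀ * m) • (Point.some x y h : W.toAffine.Point) := (mul_nsmul _ k₀ m).symm
    have e2 : m • (k₀ • (Point.some x y h : W.toAffine.Point)) =
        ((k₀ * m) % p) • (Point.some x y h : W.toAffine.Point) := by
      rw [e1, mod_nsmul hpT]
    have hne : (k₀ * m) • (Point.some x y h : W.toAffine.Point) ≠ 0 := e1 ▸ hm
    obtain ⟨h1, h2⟩ := hmid (k₀ * m) hne
    rw [← e1] at h1 h2
    refine ⟨h1, h2, ?_⟩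
    have hmem : (k₀ * m) % p ∈ Finset.Icc 1 (p - 1) := by
      rw [Finset.mem_Icc]
      have hlt := Nat.mod_lt (k₀ * m) hp.pos
      refine ⟨?_, by omega⟩
      rcases Nat.eq_zero_or_pos ((k₀ * m) % p) with h0 | h0
      · rw [e2, h0, zero_nsmul] at hm
        exact absurd rfl hm
      · exact h0
    have hmax := hk₀max _ hmem
    rw [e2]
    exact hmax
  have hcore := gen_core v hS h2 hal hbe0 hp hp2 hT'0 hpT' hmul
  obtain ⟨m₀, hm1, hmp, hm₀⟩ := exists_nsmul_inv hp hpT hT'0
  obtain ⟨j, hj⟩ := hcore m₀ hm1 hmp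
  rw [hm₀] at hj
  have h1 := (hmid 1 (by rw [one_nsmul]; exact hT0)).1
  rw [one_nsmul] at h1
  exact ⟨h1, j, hj⟩

end Main

end Fermat.Agent.S05.helper2195
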