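import Mathlib

/-!
# S05 NODEVAL, abstract ordered-group core (helper2204)

`Γ` is a linearly ordered additive commutative group (think `Additive Γ₀ˣ`), `N > 0`.
A sequence `a 1, …, a (p-1)` of elements of the open interval `(0, N)` that satisfies the
"unsigned tropical Kummer recursion"

* `a 2 = min (2 a₁) (2N - 2 a₁)`,
* `a (m+1) + a (m-1) = 2 min (a m + a 1) N - 2 min (a m) (a 1)` for `2 ≤ m ≤ p - 2`,
* `a ((p+1)/2) = a ((p-1)/2)`

has `p • a 1 ∈ ℤ • (2N)`.  (Invariant: `a m ≡ ± m • a 1` modulo `2N`.)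
-/

set_option autoImplicit false

namespace Fermat.Agent.S05.helper2204

section core

variable {Γ : Type*} [AddCommGroup Γ] [LinearOrder Γ] [IsOrderedAddMonoid Γ]

theorem zsmul_tri (j : ℤ) {M : Γ} (hM : 0 < M) : j • M ≤ -M ∨ j • M = 0 ∨ M ≤ j • M := by
  rcases lt_trichotomy j 0 with h | h | h
  · left
    have : j ≤ -1 := by omega
    have h1 : j • M ≤ (-1 : ℤ) • M := zsmul_le_zsmul_left hM.le this
    simpa using h1
  · right; left; simp [h]
  · right; right
    have : (1 : ℤ) ≤ j := by omega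
    have h1 : (1 : ℤ) • M ≤ j • M := zsmul_le_zsmul_left hM.le this
    simpa using h1

/-- `Rel M x y`: `y ≡ ± x` modulo `ℤ • M`. -/
def Rel (M x y : Γ) : Prop := ∃ j : ℤ, y = x + j • M ∨ y = -x + j • M

theorem Rel.unique {N u w : Γ} (hN : 0 < N) (hu : 0 ≤ u) (hu' : u ≤ N) (hw : 0 ≤ w)
    (hw' : w ≤ N) (h : Rel (N + N) w u) : u = w := by
  obtain ⟨j, h⟩ := h
  have hM : 0 < N + N := by grind
  have h3 := zsmul_tri j hM
  generalize j • (N + N) = J at h h3
  grind

theorem Rel.step {N t A B X mt : Γ} (hN : 0 < N) (ht : 0 < t) (ht' : t < N) (hA : 0 < A)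
    (hA' : A < N) (hB : 0 < B) (hB' : B < N)
    (hRA : Rel (N + N) mt A) (hRB : Rel (N + N) (mt - t) B)
    (hX : X + B = 2 • min (A + t) N - 2 • min A t) : Rel (N + N) (mt + t) X := by
  obtain ⟨j, hj⟩ := hRA
  obtain ⟨k, hk⟩ := hRB
  have e1 : (k - j) • (N + N) = k • (N + N) - j • (N + N) := sub_smul _ _ _
  have e2 : (k + j) • (N + N) = k • (N + N) + j • (N + N) := add_smul _ _ _
  have e3 : (1 - j) • (N + N) = (N + N) - j • (N + N) := by rw [sub_smul, one_smul]
  have e4 : (-j) • (N + N) = -(j • (N + N)) := neg_smul _ _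
  have e5 : (j - k) • (N + N) = j • (N + N) - k • (N + N) := sub_smul _ _ _
  have e6 : (1 - j - k) • (N + N) = (N + N) - j • (N + N) - k • (N + N) := by
    rw [sub_smul, sub_smul, one_smul]
  have e7 : (k + j - 1) • (N + N) = k • (N + N) + j • (N + N) - (N + N) := by
    rw [sub_smul, add_smul, one_smul]
  generalize hJ : j • (N + N) = J at *
  generalize hK : k • (N + N) = Kk at *
  rcases hj with hj | hj
  · -- `A = mt + J`
    have hB1 : B = max A t - min A t := by
      apply Rel.unique hN hB.le hB'.le (by grind) (by grind)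
      rcases le_total t A with h | h
      · rcases hk with hk | hk
        · exact ⟨k - j, Or.inl (by grind)⟩
        · exact ⟨k + j, Or.inr (by grind)⟩
      · rcases hk with hk | hk
        · exact ⟨k - j, Or.inr (by grind)⟩
        · exact ⟨k + j, Or.inl (by grind)⟩
    by_cases h : A + t ≤ N
    · exact ⟨j, Or.inl (by grind)⟩
    · exact ⟨1 - j, Or.inr (by grind)⟩
  · -- `A = -mt + J`
    have hB1 : B = min (A + t) (N + N - (A + t)) := by
      apply Rel.unique hN hB.le hB'.le (by grind) (by grind)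
      by_cases h : A + t ≤ N
      · rcases hk with hk | hk
        · exact ⟨k + j, Or.inr (by grind)⟩
        · exact ⟨k - j, Or.inl (by grind)⟩
      · rcases hk with hk | hk
        · exact ⟨k + j - 1, Or.inl (by grind)⟩
        · exact ⟨1 - j + k, Or.inr (by
            have e8 : (1 - j + k) • (N + N) = (N + N) - J + Kk := by
              rw [add_smul, sub_smul, one_smul, hJ, hK]
            grind)⟩
    rcases le_total t A with h | h
    · exact ⟨j, Or.inr (by grind)⟩
    · exact ⟨-j, Or.inl (by grind)⟩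

/-- **Core recursion.** -/
theorem core {N : Γ} (p : ℕ) (hp3 : 3 ≤ p) (hodd : p % 2 = 1) (a : ℕ → Γ)
    (hpos : ∀ m, 1 ≤ m → m < p → 0 < a m ∧ a m < N)
    (h2 : a 2 = min (2 • a 1) (2 • N - 2 • a 1))
    (hstep : ∀ m, 2 ≤ m → m + 1 < p →
      a (m + 1) + a (m - 1) = 2 • min (a m + a 1) N - 2 • min (a m) (a 1))
    (hsym : a ((p + 1) / 2) = a ((p - 1) / 2)) :
    ∃ j : ℤ, p • a 1 = j • (2 • N) := by
  have h1 := hpos 1 (by omega) (by omega)
  have hN : 0 < N := h1.1.trans h1.2
  have key : ∀ m, 1 ≤ m → m + 1 < p →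
      Rel (N + N) (m • a 1) (a m) ∧ Rel (N + N) ((m + 1) • a 1) (a (m + 1)) := by
    intro m hm
    induction m, hm using Nat.le_induction with
    | base =>
      intro _
      refine ⟨⟨0, Or.inl (by simp)⟩, ?_⟩
      by_cases h : 2 • a 1 ≤ 2 • N - 2 • a 1
      · exact ⟨0, Or.inl (by rw [h2, min_eq_left h]; simp)⟩
      · refine ⟨1, Or.inr ?_⟩
        rw [h2, min_eq_right (le_of_not_ge h), one_zsmul]
        grind
    | succ m hm ih =>
      intro hmp
      obtain ⟨i1, i2⟩ := ih (by omega)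
      refine ⟨i2, ?_⟩
      have hA := hpos (m + 1) (by omega) (by omega)
      have hB := hpos m (by omega) (by omega)
      have hs := hstep (m + 1) (by omega) (by omega)
      have e : (m + 1 + 1) • a 1 = (m + 1) • a 1 + a 1 := succ_nsmul _ _
      rw [e]
      refine Rel.step hN h1.1 h1.2 hA.1 hA.2 hB.1 hB.2 i2 ?_ hs
      have e' : (m + 1) • a 1 - a 1 = m • a 1 := by rw [succ_nsmul, add_sub_cancel_right]
      rw [e']
      exact i1
  obtain ⟨k, hk⟩ : ∃ k, p = 2 * k + 1 := ⟨p / 2, by omega⟩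
  have hk1 : 1 ≤ k := by omega
  have e1 : (p + 1) / 2 = k + 1 := by omega
  have e2 : (p - 1) / 2 = k := by omega
  rw [e1, e2] at hsym
  obtain ⟨⟨j, hj⟩, ⟨j', hj'⟩⟩ := key k hk1 (by omega)
  have hA := hpos 1 (by omega) (by omega)
  have hM : 0 < N + N := by grind
  have ep : p • a 1 = k • a 1 + (k + 1) • a 1 := by
    rw [← add_nsmul]; congr 1; omega
  have e3 : (j' - j) • (N + N) = j' • (N + N) - j • (N + N) := sub_smul _ _ _
  have e4 : (j - j') • (N + N) = j • (N + N) - j' • (N + N) := sub_smul _ _ _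
  have e5 : (k + 1) • a 1 = k • a 1 + a 1 := succ_nsmul _ _
  have t3 := zsmul_tri (j - j') hM
  have t4 := zsmul_tri (j' - j) hM
  have e6 : ∀ i : ℤ, i • (2 • N) = i • (N + N) := fun i => by rw [two_nsmul]
  rw [hsym] at hj'
  rcases hj with hj | hj <;> rcases hj' with hj' | hj'
  · exfalso
    generalize j • (N + N) = J at *
    generalize j' • (N + N) = J' at *
    grind
  · refine ⟨j' - j, ?_⟩
    rw [e6]
    generalize j • (N + N) = J at *
    generalize j' • (N + N) = J' at *
    grind
  · refine ⟨j - j', ?_⟩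
    rw [e6]
    generalize j • (N + N) = J at *
    generalize j' • (N + N) = J' at *
    grind
  · exfalso
    generalize j • (N + N) = J at *
    generalize j' • (N + N) = J' at *
    grind

end core

end Fermat.Agent.S05.helper2204
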