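import Mathlib
import Fermat.Agent.S05.helper5_Spec
import Fermat.Agent.S05.helper1745_XOnlyShape
import Fermat.Agent.S05.helper185_AddVal
import Fermat.Agent.S05.helper2204_Core

/-!
# S05 NODEVAL (helper2204): `nodeVal (hK : KerStmt) : NodeValStmt`

x-only route.  `ξ(P) = x(P) - e` on the curve `η² = ξ(ξ² + al ξ + be)` with `v al = 1`,
`0 < v be < 1`; `T` a point of odd prime order `p` with `v (ξ T) < 1`.  Write
`a m = ord ξ(m • T)`, `N = ord be`.

1. `KerStmt` gives `0 ≤ a m` for all `p ∤ m`.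
2. If some multiple `S` had `ord ξ(S) = 0`, then by the product formula all multiples of `S`
   (in particular `T`) would: so `0 < a m`.
3. Duplication then gives `a m < N` (otherwise `ord ξ(2S) ≤ 0`).
4. In the range `(0, N)` the duplication/product/sum formulas give the recursion of
   `helper2204_Core`, whose conclusion is `p • a 1 ∈ ℤ • 2N`.
-/

set_option autoImplicit false

namespace Fermat.Agent.S05.helper2204

open Fermat.Agent.S05.helper185

section kum

variable {K : Type*} [Field K] {G : Type*} [AddCommGroup G]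

/-- The x-only ("Kummer line") identities for a function `ξ : G → K` on an abelian group. -/
structure Kum (ξ : G → K) (al be : K) : Prop where
  neg : ∀ P, ξ (-P) = ξ P
  inj : ∀ P Q, P ≠ 0 → Q ≠ 0 → ξ P = ξ Q → P = Q ∨ P = -Q
  prod : ∀ P Q, P ≠ 0 → Q ≠ 0 → ξ P ≠ ξ Q →
    ξ (P + Q) * ξ (P - Q) * (ξ P - ξ Q) ^ 2 = (ξ P * ξ Q - be) ^ 2
  sum : ∀ P Q, P ≠ 0 → Q ≠ 0 → ξ P ≠ ξ Q →
    (ξ (P + Q) + ξ (P - Q)) * (ξ P - ξ Q) ^ 2 =
      2 * (ξ P + ξ Q) * (ξ P * ξ Q + be) + 4 * al * ξ P * ξ Q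
  dbl : ∀ P, P ≠ 0 → P + P ≠ 0 →
    ξ (P + P) * (4 * (ξ P * (ξ P ^ 2 + al * ξ P + be))) = (ξ P ^ 2 - be) ^ 2 ∧
      ξ P * (ξ P ^ 2 + al * ξ P + be) ≠ 0

/-- Nonzero `p`-torsion. -/
def Tors (p : ℕ) (P : G) : Prop := P ≠ 0 ∧ p • P = 0

theorem Tors.nsmul {p : ℕ} (hp : p.Prime) {P : G} (hP : Tors p P) {m : ℕ} (hm : ¬ p ∣ m) :
    Tors p (m • P) := by
  have : Fact p.Prime := ⟨hp⟩
  refine ⟨?_, ?_⟩
  · have ho : addOrderOf P = p := addOrderOf_eq_prime hP.2 hP.1
    intro h0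
    rw [← addOrderOf_dvd_iff_nsmul_eq_zero, ho] at h0
    exact hm h0
  · rw [smul_comm, hP.2, smul_zero]

variable {Γ₀ : Type*} [LinearOrderedCommGroupWithZero Γ₀] (v : Valuation K Γ₀)

theorem ord_add3_ge {x y z : K} (hx : x ≠ 0) (hy : y ≠ 0) (hz : z ≠ 0) (h : x + y + z ≠ 0) :
    min (ord v x) (min (ord v y) (ord v z)) ≤ ord v (x + y + z) := by
  by_cases hxy : x + y = 0
  · rw [hxy, zero_add]
    exact (min_le_right _ _).trans (min_le_right _ _)
  · have h1 := min_le_ord_add v hx hy hxy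
    have h2 := min_le_ord_add v hxy hz h
    grind

theorem ord_add3_eq {x y z : K} (hx : x ≠ 0) (hy : y ≠ 0) (hz : z ≠ 0)
    (h1 : ord v y < ord v x) (h2 : ord v y < ord v z) : ord v (x + y + z) = ord v y := by
  have hxy : x + y ≠ 0 := add_ne_zero_of_ord_ne v h1.ne'
  have e1 : ord v (x + y) = ord v y := ord_add_eq_right v hx hy h1
  have e2 := ord_add_eq_left v hxy hz (by rw [e1]; exact h2)
  rw [e2, e1]

variable {ξ : G → K} {al be : K}

/-- Duplication formula, in `ord` form. -/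
theorem dbl_ord (hk : Kum ξ al be) (hv2 : v 2 = 1) (hal : v al = 1) (hbe0 : be ≠ 0) {P : G}
    (hP : P ≠ 0) (hPP : P + P ≠ 0) (h2 : ξ (P + P) ≠ 0) :
    ∃ c d : Additive Γ₀ˣ, ord v (ξ (P + P)) + ord v (ξ P) + c = 2 • d ∧
      (0 ≤ ord v (ξ P) → min (ord v (ξ P)) (ord v be) ≤ c) ∧
      (0 < ord v (ξ P) → ord v (ξ P) < ord v be → c = ord v (ξ P)) ∧
      min (2 • ord v (ξ P)) (ord v be) ≤ d ∧
      (2 • ord v (ξ P) ≠ ord v be → d = min (2 • ord v (ξ P)) (ord v be)) := by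
  obtain ⟨heq, hne⟩ := hk.dbl P hP hPP
  have hξ : ξ P ≠ 0 := left_ne_zero_of_mul hne
  have hC : ξ P ^ 2 + al * ξ P + be ≠ 0 := right_ne_zero_of_mul hne
  have hal0 : al ≠ 0 := by
    rintro rfl
    simp at hal
  have h20 : (2 : K) ≠ 0 := by
    intro h
    rw [h] at hv2
    simp at hv2
  have h4 : (4 : K) ≠ 0 := by
    have : (4 : K) = 2 * 2 := by norm_num
    rw [this]
    exact mul_ne_zero h20 h20
  have hv4 : ord v (4 : K) = 0 := by
    have : (4 : K) = 2 * 2 := by norm_num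
    rw [this, ord_mul v h20 h20, ord_eq_zero_of_val_eq_one v hv2, add_zero]
  have hoal : ord v al = 0 := ord_eq_zero_of_val_eq_one v hal
  have hsq : ξ P ^ 2 ≠ 0 := pow_ne_zero 2 hξ
  have halξ : al * ξ P ≠ 0 := mul_ne_zero hal0 hξ
  have osq : ord v (ξ P ^ 2) = 2 • ord v (ξ P) := ord_pow v _ _
  have oalξ : ord v (al * ξ P) = ord v (ξ P) := by rw [ord_mul v hal0 hξ, hoal, zero_add]
  have hD : ξ P ^ 2 - be ≠ 0 := by
    intro h0
    rw [h0] at heq
    have : ξ (P + P) * (4 * (ξ P * (ξ P ^ 2 + al * ξ P + be))) ≠ 0 :=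
      mul_ne_zero h2 (mul_ne_zero h4 hne)
    exact this (by rw [heq]; ring)
  refine ⟨ord v (ξ P ^ 2 + al * ξ P + be), ord v (ξ P ^ 2 - be), ?_, ?_, ?_, ?_, ?_⟩
  · have := congrArg (ord v) heq
    rw [ord_mul v h2 (mul_ne_zero h4 hne), ord_mul v h4 hne, ord_mul v hξ hC, hv4, ord_pow] at this
    rw [← this]
    abel
  · intro h0
    have := ord_add3_ge v hsq halξ hbe0 hC
    rw [osq, oalξ] at this
    grind
  · intro h0 h1
    have := ord_add3_eq v hsq halξ hbe0 (by rw [osq, oalξ]; grind) (by rw [oalξ]; exact h1)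
    rw [this, oalξ]
  · have := min_le_ord_sub v hsq hbe0 hD
    rwa [osq] at this
  · intro hne'
    rw [← osq] at hne' ⊢
    rcases lt_or_gt_of_ne hne' with h | h
    · rw [ord_sub_eq_left v hsq hbe0 h, min_eq_left h.le]
    · rw [ord_sub_eq_right v hsq hbe0 h, min_eq_right h.le]

/-- Product and sum formulas, in `ord` form. -/
theorem pair_ord (hk : Kum ξ al be) (hv2 : v 2 = 1) (hal : v al = 1) (hbe0 : be ≠ 0) {P Q : G}
    (hP : P ≠ 0) (hQ : Q ≠ 0) (hne : ξ P ≠ ξ Q) (hξP : ξ P ≠ 0) (hξQ : ξ Q ≠ 0)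
    (hp : ξ (P + Q) ≠ 0) (hm : ξ (P - Q) ≠ 0) :
    ∃ δ π : Additive Γ₀ˣ,
      ord v (ξ (P + Q)) + ord v (ξ (P - Q)) + 2 • δ = 2 • π ∧
      min (ord v (ξ P)) (ord v (ξ Q)) ≤ δ ∧
      (ord v (ξ P) ≠ ord v (ξ Q) → δ = min (ord v (ξ P)) (ord v (ξ Q))) ∧
      min (ord v (ξ P) + ord v (ξ Q)) (ord v be) ≤ π ∧
      (ord v (ξ P) + ord v (ξ Q) ≠ ord v be → π = min (ord v (ξ P) + ord v (ξ Q)) (ord v be)) ∧
      (0 < ord v (ξ P) → ord v (ξ P) < ord v be → 0 < ord v (ξ Q) → ord v (ξ Q) < ord v be →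
        ∃ σ, σ + 2 • δ = ord v (ξ P) + ord v (ξ Q) ∧
          min (ord v (ξ (P + Q))) (ord v (ξ (P - Q))) ≤ σ) := by
  have hprod := hk.prod P Q hP hQ hne
  have hsum := hk.sum P Q hP hQ hne
  have hd : ξ P - ξ Q ≠ 0 := sub_ne_zero.2 hne
  have hd2 : (ξ P - ξ Q) ^ 2 ≠ 0 := pow_ne_zero 2 hd
  have hal0 : al ≠ 0 := by
    rintro rfl
    simp at hal
  have h20 : (2 : K) ≠ 0 := by
    intro h
    rw [h] at hv2
    simp at hv2
  have h4 : (4 : K) ≠ 0 := by
    have : (4 : K) = 2 * 2 := by norm_num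
    rw [this]
    exact mul_ne_zero h20 h20
  have hv2' : ord v (2 : K) = 0 := ord_eq_zero_of_val_eq_one v hv2
  have hv4 : ord v (4 : K) = 0 := by
    have : (4 : K) = 2 * 2 := by norm_num
    rw [this, ord_mul v h20 h20, hv2', add_zero]
  have hoal : ord v al = 0 := ord_eq_zero_of_val_eq_one v hal
  have hPQ : ξ P * ξ Q ≠ 0 := mul_ne_zero hξP hξQ
  have oPQ : ord v (ξ P * ξ Q) = ord v (ξ P) + ord v (ξ Q) := ord_mul v hξP hξQ
  have hpm : ξ (P + Q) * ξ (P - Q) ≠ 0 := mul_ne_zero hp hm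
  have hπ : ξ P * ξ Q - be ≠ 0 := by
    intro h0
    rw [h0] at hprod
    exact mul_ne_zero hpm hd2 (by rw [hprod]; ring)
  refine ⟨ord v (ξ P - ξ Q), ord v (ξ P * ξ Q - be), ?_, ?_, ?_, ?_, ?_, ?_⟩
  · have := congrArg (ord v) hprod
    rw [ord_mul v hpm hd2, ord_mul v hp hm, ord_pow, ord_pow] at this
    exact this
  · exact min_le_ord_sub v hξP hξQ hd
  · intro hne'
    rcases lt_or_gt_of_ne hne' with h | h
    · rw [ord_sub_eq_left v hξP hξQ h, min_eq_left h.le]
    · rw [ord_sub_eq_right v hξP hξQ h, min_eq_right h.le]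
  · have := min_le_ord_sub v hPQ hbe0 hπ
    rwa [oPQ] at this
  · intro hne'
    rw [← oPQ] at hne' ⊢
    rcases lt_or_gt_of_ne hne' with h | h
    · rw [ord_sub_eq_left v hPQ hbe0 h, min_eq_left h.le]
    · rw [ord_sub_eq_right v hPQ hbe0 h, min_eq_right h.le]
  · intro hP0 hPN hQ0 hQN
    have hY : 4 * al * ξ P * ξ Q ≠ 0 := mul_ne_zero (mul_ne_zero (mul_ne_zero h4 hal0) hξP) hξQ
    have oY : ord v (4 * al * ξ P * ξ Q) = ord v (ξ P) + ord v (ξ Q) := by
      rw [ord_mul v (mul_ne_zero (mul_ne_zero h4 hal0) hξP) hξQ,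
        ord_mul v (mul_ne_zero h4 hal0) hξP, ord_mul v h4 hal0, hv4, hoal]
      abel
    have key : 2 * (ξ P + ξ Q) * (ξ P * ξ Q + be) + 4 * al * ξ P * ξ Q ≠ 0 ∧
        ord v (2 * (ξ P + ξ Q) * (ξ P * ξ Q + be) + 4 * al * ξ P * ξ Q) =
          ord v (ξ P) + ord v (ξ Q) := by
      by_cases hX : 2 * (ξ P + ξ Q) * (ξ P * ξ Q + be) = 0
      · rw [hX, zero_add]
        exact ⟨hY, oY⟩
      · have hs : ξ P + ξ Q ≠ 0 := fun h0 => hX (by rw [h0]; ring)
        have hq : ξ P * ξ Q + be ≠ 0 := fun h0 => hX (by rw [h0]; ring)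
        have oX : ord v (2 * (ξ P + ξ Q) * (ξ P * ξ Q + be)) =
            ord v (ξ P + ξ Q) + ord v (ξ P * ξ Q + be) := by
          rw [ord_mul v (mul_ne_zero h20 hs) hq, ord_mul v h20 hs, hv2', zero_add]
        have b1 := min_le_ord_add v hξP hξQ hs
        have b2 := min_le_ord_add v hPQ hbe0 hq
        rw [oPQ] at b2
        have hlt : ord v (4 * al * ξ P * ξ Q) < ord v (2 * (ξ P + ξ Q) * (ξ P * ξ Q + be)) := by
          rw [oX, oY]
          grind
        refine ⟨add_ne_zero_of_ord_ne v hlt.ne', ?_⟩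
        rw [ord_add_eq_right v hX hY hlt, oY]
    rw [← hsum] at key
    obtain ⟨k1, k2⟩ := key
    have hs : ξ (P + Q) + ξ (P - Q) ≠ 0 := left_ne_zero_of_mul k1
    refine ⟨ord v (ξ (P + Q) + ξ (P - Q)), ?_, min_le_ord_add v hp hm hs⟩
    rw [ord_mul v hs hd2, ord_pow] at k2
    exact k2

/-- **NODEVAL, abstract form.** -/
theorem kum_nodeVal (hk : Kum ξ al be) (hv2 : v 2 = 1) (hal : v al = 1) (hbe : v be < 1)
    (hbe0 : be ≠ 0) {p : ℕ} (hp : p.Prime) (hp2 : p ≠ 2)
    (hker : ∀ P : G, P ≠ 0 → p • P = 0 → v (ξ P) ≤ 1)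
    (T : G) (hT0 : T ≠ 0) (hpT : p • T = 0) (hT : v (ξ T) < 1) :
    v be < v (ξ T) ∧ ∃ j : ℤ, v (ξ T) ^ p = v be ^ (2 * j) := by
  have hp3 : 3 ≤ p := by
    have := hp.two_le
    omega
  have hodd : p % 2 = 1 := hp.eq_two_or_odd.resolve_left hp2
  have hN : 0 < ord v be := (ord_pos_iff v hbe0).2 hbe
  have hTT : Tors p T := ⟨hT0, hpT⟩
  have ndvd : ∀ m, 1 ≤ m → m < p → ¬ p ∣ m := fun m h1 h2 =>
    Nat.not_dvd_of_pos_of_lt (by omega) h2
  have tors : ∀ {P : G}, Tors p P → ∀ m, ¬ p ∣ m → Tors p (m • P) :=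
    fun hP m hm => hP.nsmul hp hm
  have tors2 : ∀ {P : G}, Tors p P → Tors p (P + P) := by
    intro P hP
    have := tors hP 2 (ndvd 2 (by omega) (by omega))
    rwa [two_nsmul] at this
  have xi_ne : ∀ {P : G}, Tors p P → ξ P ≠ 0 := fun hP =>
    left_ne_zero_of_mul (hk.dbl _ hP.1 (tors2 hP).1).2
  have ker0 : ∀ {P : G}, Tors p P → 0 ≤ ord v (ξ P) := fun hP =>
    (ord_nonneg_iff v (xi_ne hP)).2 (hker _ hP.1 hP.2)
  -- distinctness of `ξ (m • P)` and `ξ P`
  have dist : ∀ {P : G}, Tors p P → ∀ m, 2 ≤ m → m + 1 < p → ξ (m • P) ≠ ξ P := by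
    intro P hP m hm2 hmp heq
    rcases hk.inj _ _ (tors hP m (ndvd m (by omega) (by omega))).1 hP.1 heq with h | h
    · obtain ⟨k, rfl⟩ : ∃ k, m = k + 1 := ⟨m - 1, by omega⟩
      rw [succ_nsmul] at h
      have h0 : k • P = 0 := by simpa using h
      exact (tors hP k (ndvd k (by omega) (by omega))).1 h0
    · have h0 : (m + 1) • P = 0 := by rw [succ_nsmul, h, neg_add_cancel]
      exact (tors hP (m + 1) (ndvd (m + 1) (by omega) (by omega))).1 h0
  -- Claim B: a torsion point with `ord ξ = 0` has all multiples with `ord ξ = 0`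
  have claimB : ∀ {S : G}, Tors p S → ord v (ξ S) = 0 →
      ∀ k, 1 ≤ k → k < p → ord v (ξ (k • S)) = 0 := by
    intro S hS h0 k
    induction k using Nat.strong_induction_on with
    | _ k ih =>
      intro hk1 hkp
      rcases (by omega : k = 1 ∨ k = 2 ∨ 3 ≤ k) with rfl | rfl | hk3
      · simpa using h0
      · have hSS := tors2 hS
        obtain ⟨c, d, e1, e2, -, e4, e5⟩ := dbl_ord v hk hv2 hal hbe0 hS.1 hSS.1 (xi_ne hSS)
        have := ker0 hSS
        rw [two_nsmul]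
        grind
      · obtain ⟨n, rfl⟩ : ∃ n, k = n + 2 := ⟨k - 2, by omega⟩
        have i1 := ih n (by omega) (by omega) (by omega)
        have i2 := ih (n + 1) (by omega) (by omega) (by omega)
        have hP := tors hS (n + 1) (ndvd _ (by omega) (by omega))
        have hPQ := tors hS (n + 2) (ndvd _ (by omega) (by omega))
        have hPmQ := tors hS n (ndvd _ (by omega) (by omega))
        have e_plus : (n + 1) • S + S = (n + 2) • S := (succ_nsmul _ _).symm
        have e_minus : (n + 1) • S - S = n • S := by rw [succ_nsmul, add_sub_cancel_right]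
        obtain ⟨δ, π, e1, e2, -, e4, e5, -⟩ := pair_ord v hk hv2 hal hbe0 hP.1 hS.1
          (dist hS (n + 1) (by omega) (by omega)) (xi_ne hP) (xi_ne hS)
          (by rw [e_plus]; exact xi_ne hPQ) (by rw [e_minus]; exact xi_ne hPmQ)
        rw [e_plus, e_minus] at e1
        have := ker0 hPQ
        grind
  -- all multiples of `T` have positive `ord ξ`
  have hT1 : 0 < ord v (ξ T) := (ord_pos_iff v (xi_ne hTT)).2 hT
  have pos : ∀ m, ¬ p ∣ m → 0 < ord v (ξ (m • T)) := by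
    intro m hm
    have hS := tors hTT m hm
    by_contra hcon
    have h0 : ord v (ξ (m • T)) = 0 := le_antisymm (not_lt.mp hcon) (ker0 hS)
    obtain ⟨k, hkp, hk1⟩ := Nat.exists_mul_mod_eq_one_of_coprime
      ((Nat.Prime.coprime_iff_not_dvd hp).2 hm).symm hp.one_lt
    have hk0 : 1 ≤ k := by
      rcases Nat.eq_zero_or_pos k with rfl | h
      · simp at hk1
      · exact h
    have hkT : k • (m • T) = T := by
      rw [smul_smul, mul_comm, ← Nat.div_add_mod (m * k) p, hk1, add_nsmul, mul_nsmul, hpT,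
        smul_zero, zero_add, one_nsmul]
    have := claimB hS h0 k hk0 hkp
    rw [hkT] at this
    exact hT1.ne' this
  -- Claim C: all multiples of `T` have `ord ξ < N`
  have lt : ∀ m, ¬ p ∣ m → ord v (ξ (m • T)) < ord v be := by
    intro m hm
    have hS := tors hTT m hm
    have hSS := tors2 hS
    have hm2 : ¬ p ∣ m + m := by
      intro h
      rw [← two_mul] at h
      rcases (Nat.Prime.dvd_mul hp).1 h with h | h
      · exact ndvd 2 (by omega) (by omega) h
      · exact hm h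
    have h2 := pos (m + m) hm2
    rw [add_nsmul] at h2
    have h1 := pos m hm
    obtain ⟨c, d, e1, e2, -, e4, e5⟩ := dbl_ord v hk hv2 hal hbe0 hS.1 hSS.1 (xi_ne hSS)
    by_contra hcon
    grind
  -- the sequence
  have hcore := core (N := ord v be) p hp3 hodd (fun m => ord v (ξ (m • T)))
    (fun m h1 h2 => ⟨pos m (ndvd m h1 h2), lt m (ndvd m h1 h2)⟩) ?_ ?_ ?_
  · obtain ⟨j, hj⟩ := hcore
    simp only [one_nsmul] at hj
    refine ⟨?_, j, ?_⟩
    · have := lt 1 (ndvd 1 (by omega) (by omega))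
      rw [one_nsmul] at this
      exact (ord_lt_ord_iff v (xi_ne hTT) hbe0).1 this
    · apply val_pow_eq_zpow_of_ord v (xi_ne hTT) hbe0 p (2 * j)
      rw [hj, two_nsmul, smul_add, two_mul, add_smul]
  · -- duplication
    simp only [one_nsmul]
    have hSS := tors2 hTT
    have h2 := pos 2 (ndvd 2 (by omega) (by omega))
    have h2' := lt 2 (ndvd 2 (by omega) (by omega))
    rw [two_nsmul] at h2 h2' ⊢
    have h1' := lt 1 (ndvd 1 (by omega) (by omega))
    rw [one_nsmul] at h1'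
    obtain ⟨c, d, e1, -, e3, e4, e5⟩ := dbl_ord v hk hv2 hal hbe0 hTT.1 hSS.1 (xi_ne hSS)
    grind
  · -- step
    intro m hm2 hmp
    simp only [one_nsmul]
    obtain ⟨n, rfl⟩ : ∃ n, m = n + 1 := ⟨m - 1, by omega⟩
    have hP := tors hTT (n + 1) (ndvd _ (by omega) (by omega))
    have hPQ := tors hTT (n + 1 + 1) (ndvd _ (by omega) (by omega))
    have hPmQ := tors hTT n (ndvd _ (by omega) (by omega))
    have e_plus : (n + 1) • T + T = (n + 1 + 1) • T := (succ_nsmul _ _).symm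
    have e_minus : (n + 1) • T - T = n • T := by rw [succ_nsmul, add_sub_cancel_right]
    obtain ⟨δ, π, e1, e2, e3, e4, e5, e6⟩ := pair_ord v hk hv2 hal hbe0 hP.1 hTT.1
      (dist hTT (n + 1) (by omega) (by omega)) (xi_ne hP) (xi_ne hTT)
      (by rw [e_plus]; exact xi_ne hPQ) (by rw [e_minus]; exact xi_ne hPmQ)
    have a1 := pos (n + 1) (ndvd _ (by omega) (by omega))
    have a2 := lt (n + 1) (ndvd _ (by omega) (by omega))
    have b1 := pos (n + 1 + 1) (ndvd _ (by omega) (by omega))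
    have b2 := lt (n + 1 + 1) (ndvd _ (by omega) (by omega))
    have c1 := pos n (ndvd _ (by omega) (by omega))
    have c2 := lt n (ndvd _ (by omega) (by omega))
    have t2 := lt 1 (ndvd 1 (by omega) (by omega))
    rw [one_nsmul] at t2
    obtain ⟨σ, s1, s2⟩ := e6 a1 a2 hT1 t2
    rw [e_plus, e_minus] at e1 s2
    have en : n + 1 - 1 = n := by omega
    rw [en]
    grind
  · -- symmetry
    obtain ⟨k, hk'⟩ : ∃ k, p = 2 * k + 1 := ⟨p / 2, by omega⟩
    have e1 : (p + 1) / 2 = k + 1 := by omega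
    have e2 : (p - 1) / 2 = k := by omega
    show ord v (ξ (((p + 1) / 2) • T)) = ord v (ξ (((p - 1) / 2) • T))
    rw [e1, e2]
    have h0 : (k + 1) • T + k • T = 0 := by
      rw [← add_nsmul, show k + 1 + k = p by omega, hpT]
    rw [eq_neg_of_add_eq_zero_left h0, hk.neg]

end kum

section point

open WeierstrassCurve WeierstrassCurve.Affine
open Fermat.Agent.S05.helper305 Fermat.Agent.S05.helper1745

variable {K : Type*} [Field K] [DecidableEq K]

/-- The shape coordinate `ξ = x - e` of a point (junk value `0` at the origin). -/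
def xi (W : WeierstrassCurve K) (e : K) : W.toAffine.Point → K
  | .zero => 0
  | .some x _ _ => x - e

variable {W : WeierstrassCurve K} {e al be : K}

theorem kum_point (hS : Shape W e al be) : Kum (xi W e) al be where
  neg := by
    rintro (_ | ⟨x, y, h⟩)
    · rfl
    · rw [Point.neg_some]
      rfl
  inj := by
    rintro (_ | ⟨x₁, y₁, h₁⟩) (_ | ⟨x₂, y₂, h₂⟩) hP hQ heq
    · exact absurd rfl hP
    · exact absurd rfl hP
    · exact absurd rfl hQ
    · have hx : x₁ = x₂ := by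
        have : x₁ - e = x₂ - e := heq
        exact sub_left_injective this
      subst hx
      rcases Y_eq_of_X_eq h₁.left h₂.left rfl with hy | hy
      · left
        subst hy
        rfl
      · right
        rw [Point.neg_some]
        subst hy
        rfl
  prod := by
    rintro (_ | ⟨x₁, y₁, h₁⟩) (_ | ⟨x₂, y₂, h₂⟩) hP hQ hne
    · exact absurd rfl hP
    · exact absurd rfl hP
    · exact absurd rfl hQ
    · have hx : x₁ ≠ x₂ := by
        rintro rfl
        exact hne rfl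
      obtain ⟨Xp, Yp, Xm, Ym, hp, hm, hadd, hsub, hprod, -⟩ :=
        shape_exists_add_sub_some hS h₁ h₂ hx
      rw [hadd, hsub]
      exact hprod
  sum := by
    rintro (_ | ⟨x₁, y₁, h₁⟩) (_ | ⟨x₂, y₂, h₂⟩) hP hQ hne
    · exact absurd rfl hP
    · exact absurd rfl hP
    · exact absurd rfl hQ
    · have hx : x₁ ≠ x₂ := by
        rintro rfl
        exact hne rfl
      obtain ⟨Xp, Yp, Xm, Ym, hp, hm, hadd, hsub, -, hsum⟩ :=
        shape_exists_add_sub_some hS h₁ h₂ hx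
      rw [hadd, hsub]
      exact hsum
  dbl := by
    rintro (_ | ⟨x, y, h⟩) hP hPP
    · exact absurd rfl hP
    · have hy : y ≠ W.toAffine.negY x y := fun hy => hPP (Point.add_self_of_Y_eq hy)
      obtain ⟨X, Y, h', hadd, hdup, hne⟩ := shape_exists_add_self_some hS h hy
      rw [hadd]
      exact ⟨hdup, hne⟩

/-- **S05-NODEVAL** (board row 131). -/
theorem nodeVal (hK : Fermat.Agent.S05.helper5.KerStmt) : Fermat.Agent.S05.helper5.NodeValStmt := by
  intro K _ _ Γ₀ _ v W e al be hS hv2 hal hbe hbe0 p hp hp2 hvp x y h hx hpT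
  have hk := kum_point (W := W) (e := e) hS
  have hker : ∀ P : W.toAffine.Point, P ≠ 0 → p • P = 0 → v (xi W e P) ≤ 1 := by
    rintro (_ | ⟨x', y', h'⟩) hP hpP
    · exact absurd rfl hP
    · by_contra hcon
      exact hK K Γ₀ v W e al be hS hv2 hal.le hbe.le p hp hp2 hvp x' y' h' (not_le.mp hcon) hpP
  exact kum_nodeVal v hk hv2 hal hbe hbe0 hp hp2 hker (Point.some x y h) (Point.some_ne_zero h)
    hpT hx

end point

end Fermat.Agent.S05.helper2204
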