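import Fermat.Agent.S05.helper305_Formulas

/-!
# Valuation estimates for the chord–tangent relation in shape coordinates (helper305, S05)

`v` is an arbitrary valuation on the field `K` (multiplicative notation: `v x ≤ 1` means
integral, `v x < 1` means in the maximal ideal).
-/

namespace Fermat.Agent.S05.helper305

variable {K : Type*} [Field K] {Γ₀ : Type*} [LinearOrderedCommGroupWithZero Γ₀]
  (v : Valuation K Γ₀)

theorem two_ne_zero_of_val (hv2 : v 2 = 1) : (2 : K) ≠ 0 := by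
  intro h0
  rw [h0, map_zero] at hv2
  exact zero_ne_one hv2

theorem val_three_le (hv2 : v 2 = 1) : v 3 ≤ 1 := by
  have : (3 : K) = 2 + 1 := by norm_num
  rw [this]
  exact v.map_add_le hv2.le v.map_one.le

theorem val_four (hv2 : v 2 = 1) : v 4 = 1 := by
  have : (4 : K) = 2 * 2 := by norm_num
  rw [this, map_mul, hv2, one_mul]

/-- If `v a = 1` and `v b < 1` then `v (a + b) = 1`. -/
theorem val_add_eq_one {a b : K} (ha : v a = 1) (hb : v b < 1) : v (a + b) = 1 := by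
  rw [Valuation.map_add_eq_of_lt_left, ha]
  rw [ha]; exact hb

/-- If `v a = 1` and `v b < 1` then `v (a - b) = 1`. -/
theorem val_sub_eq_one {a b : K} (ha : v a = 1) (hb : v b < 1) : v (a - b) = 1 := by
  rw [Valuation.map_sub_eq_of_lt_left, ha]
  rw [ha]; exact hb

/-- If `v (x ^ 2) ≤ 1` then `v x ≤ 1`. -/
theorem val_le_one_of_sq {x : K} (h : v (x ^ 2) ≤ 1) : v x ≤ 1 := by
  by_contra hx
  push Not at hx
  have : 1 < v x ^ 2 := one_lt_pow₀ hx two_ne_zero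
  rw [map_pow] at h
  exact absurd h (not_le.mpr this)

/-- If `v (x ^ 2) = 1` then `v x = 1`. -/
theorem val_eq_one_of_sq {x : K} (h : v (x ^ 2) = 1) : v x = 1 := by
  rw [map_pow] at h
  rcases lt_trichotomy (v x) 1 with hx | hx | hx
  · have : v x ^ 2 < 1 := pow_lt_one₀ zero_le hx two_ne_zero
    exact absurd h this.ne
  · exact hx
  · have : 1 < v x ^ 2 := one_lt_pow₀ hx two_ne_zero
    exact absurd h this.ne'


/-- In the value group: `x * d ^ 2 = a ^ 2`, `d ≤ a`, `a ≠ 0` imply `1 ≤ x`. -/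
theorem one_le_of_mul_sq {x a d : Γ₀} (ha : a ≠ 0) (hd : d ≤ a) (h : x * d ^ 2 = a ^ 2) :
    1 ≤ x := by
  by_contra hx
  push Not at hx
  have ha2 : 0 < a ^ 2 := pow_pos (zero_lt_iff.mpr ha) 2
  have h1 : x * d ^ 2 ≤ x * a ^ 2 := mul_le_mul' le_rfl (pow_le_pow_left₀ zero_le hd 2)
  have h2 : x * a ^ 2 < 1 * a ^ 2 := mul_lt_mul_of_pos_right hx ha2
  rw [one_mul] at h2
  exact absurd h (h1.trans_lt h2).ne

/-- In the value group: `x * w ^ 2 = 1`, `w < 1` imply `1 < x`. -/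
theorem one_lt_of_mul_sq_eq_one {x w : Γ₀} (hw : w < 1) (h : x * w ^ 2 = 1) : 1 < x := by
  by_contra hx
  push Not at hx
  have hw2 : w ^ 2 < 1 := pow_lt_one₀ zero_le hw two_ne_zero
  have h1 : x * w ^ 2 ≤ 1 * w ^ 2 := mul_le_mul' hx le_rfl
  rw [one_mul] at h1
  exact absurd h (h1.trans_lt hw2).ne

/-- In the value group: `a ≤ 1`, `b ≤ 1`, `1 ≤ a * b` imply `a = 1`. -/
theorem eq_one_of_mul_ge_one {a b : Γ₀} (ha : a ≤ 1) (hb : b ≤ 1) (h : 1 ≤ a * b) : a = 1 := by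
  refine le_antisymm ha ?_
  calc 1 ≤ a * b := h
    _ ≤ a * 1 := mul_le_mul' le_rfl hb
    _ = a := mul_one a

namespace AddRel

variable {v}
variable {al be ξ₁ η₁ ξ₂ η₂ ξ₃ η₃ lam r : K}

/-- (V3) Two points in the middle region on the same branch whose depths do not reach
the bottom add to a point in the middle region on the same branch, depths multiply. -/
theorem mid_add (h : AddRel al be ξ₁ η₁ ξ₂ η₂ ξ₃ η₃ lam) (hv2 : v 2 = 1)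
    (hr : r ^ 2 = al) (hvr : v r = 1)
    (h₁ : v ξ₁ < 1) (h₂ : v ξ₂ < 1) (hm : v be < v ξ₁ * v ξ₂)
    (hb₁ : v (η₁ / ξ₁ - r) < 1) (hb₂ : v (η₂ / ξ₂ - r) < 1) :
    v ξ₃ = v ξ₁ * v ξ₂ ∧ v (η₃ / ξ₃ - r) < 1 := by
  have h2 : (2 : K) ≠ 0 := two_ne_zero_of_val v hv2
  have hprod_pos : 0 < v ξ₁ * v ξ₂ := lt_of_le_of_lt zero_le hm
  have hξ₁ : ξ₁ ≠ 0 := by rintro rfl; simp at hprod_pos
  have hξ₂ : ξ₂ ≠ 0 := by rintro rfl; simp at hprod_pos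
  have hvξ₁ : v ξ₁ ≠ 0 := (Valuation.ne_zero_iff v).mpr hξ₁
  have hvξ₂ : v ξ₂ ≠ 0 := (Valuation.ne_zero_iff v).mpr hξ₂
  obtain ⟨ρ₁, rfl⟩ : ∃ ρ₁, η₁ = ρ₁ * ξ₁ := ⟨η₁ / ξ₁, by field_simp⟩
  obtain ⟨ρ₂, rfl⟩ : ∃ ρ₂, η₂ = ρ₂ * ξ₂ := ⟨η₂ / ξ₂, by field_simp⟩
  rw [mul_div_cancel_right₀ _ hξ₁] at hb₁
  rw [mul_div_cancel_right₀ _ hξ₂] at hb₂
  have h2r : v (2 * r) = 1 := by rw [map_mul, hv2, hvr, one_mul]
  have hS : v (ρ₁ + ρ₂) = 1 := by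
    have : ρ₁ + ρ₂ = 2 * r + ((ρ₁ - r) + (ρ₂ - r)) := by ring
    rw [this]
    exact val_add_eq_one v h2r (v.map_add_lt hb₁ hb₂)
  have hρ₂ : v ρ₂ = 1 := by
    have : ρ₂ = r + (ρ₂ - r) := by ring
    rw [this]
    exact val_add_eq_one v hvr hb₂
  have hD : v (ξ₁ * ξ₂ - be) = v ξ₁ * v ξ₂ := by
    rw [Valuation.map_sub_eq_of_lt_left, map_mul]
    rw [map_mul]; exact hm
  have hDne : ξ₁ * ξ₂ - be ≠ 0 := by
    rw [← Valuation.ne_zero_iff v, hD]; exact hprod_pos.ne'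
  have hSne : ρ₁ + ρ₂ ≠ 0 := by
    rw [← Valuation.ne_zero_iff v, hS]; exact one_ne_zero
  have hF2 := h.F2 h2
  have hsum : ρ₁ * ξ₁ * ξ₂ + ρ₂ * ξ₂ * ξ₁ = ξ₁ * ξ₂ * (ρ₁ + ρ₂) := by ring
  rw [hsum] at hF2
  have hval : v ξ₃ = v ξ₁ * v ξ₂ := by
    have := congrArg v hF2
    simp only [map_mul, map_pow, hS, hD, mul_one] at this
    have hne : (v ξ₁ * v ξ₂) ^ 2 ≠ 0 := pow_ne_zero _ hprod_pos.ne'
    exact mul_right_cancel₀ hne this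
  refine ⟨hval, ?_⟩
  have hξ₃ : ξ₃ ≠ 0 := by
    rw [← Valuation.ne_zero_iff v, hval]; exact hprod_pos.ne'
  -- branch of the sum
  have hF4 : η₃ * (ξ₁ * ξ₂ - be) = ξ₃ * (-lam * (ξ₁ * ξ₂ - be) + ξ₁ * ξ₂ * (ρ₁ + ρ₂)) := by
    rw [h.F4 h2]; ring
  have hδ : v (be / (ξ₁ * ξ₂ - be)) < 1 := by
    rw [map_div₀, hD]
    exact (div_lt_one₀ hprod_pos).mpr hm
  -- slope is congruent to r
  have hlam : v (lam - r) < 1 := by
    by_cases hne : ξ₁ = ξ₂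
    · obtain ⟨h12, hη, hl⟩ := h.lam_tangent h2 hne
      subst hne
      have hρ : ρ₁ = ρ₂ := mul_right_cancel₀ hξ₁ h12
      subst hρ
      have hρne : ρ₁ ≠ 0 := by
        rw [← Valuation.ne_zero_iff v, hρ₂]; exact one_ne_zero
      have key : 2 * ρ₁ * (lam - r) = 3 * ξ₁ + be / ξ₁ + 2 * r * (r - ρ₁) := by
        rw [hl, ← hr]
        field_simp
        ring
      have hbe : v (be / ξ₁) < 1 := by
        rw [map_div₀]
        have : v be < v ξ₁ := lt_of_lt_of_le hm (mul_le_of_le_one_right zero_le h₁.le)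
        exact (div_lt_one₀ (zero_lt_iff.mpr hvξ₁)).mpr this
      have h3 : v (3 * ξ₁) < 1 := by
        rw [map_mul]
        exact lt_of_le_of_lt (mul_le_of_le_one_left zero_le (val_three_le v hv2)) h₁
      have h4 : v (2 * r * (r - ρ₁)) < 1 := by
        rw [map_mul, h2r, one_mul, Valuation.map_sub_swap]; exact hb₁
      have : v (2 * ρ₁ * (lam - r)) < 1 := by
        rw [key]; exact v.map_add_lt (v.map_add_lt h3 hbe) h4
      rwa [map_mul, map_mul, hv2, hρ₂, one_mul, one_mul] at this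
    · have hl := h.lam_chord hne
      have hd : ξ₁ - ξ₂ ≠ 0 := sub_ne_zero.mpr hne
      have c₁ := h.c₁
      have c₂ := h.c₂
      have key : lam - ρ₂ = ξ₁ * (1 - be / (ξ₁ * ξ₂)) / (ρ₁ + ρ₂) := by
        rw [hl]
        field_simp
        grind
      have hbe : v (be / (ξ₁ * ξ₂)) < 1 := by
        rw [map_div₀, map_mul]
        exact (div_lt_one₀ hprod_pos).mpr hm
      have : v (lam - ρ₂) < 1 := by
        rw [key, map_div₀, hS, div_one, map_mul, v.map_one_sub_of_lt hbe, mul_one]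
        exact h₁
      have e : lam - r = (lam - ρ₂) + (ρ₂ - r) := by ring
      rw [e]; exact v.map_add_lt this hb₂
  have key : η₃ / ξ₃ - r =
      -(lam - r) + ((ρ₁ - r) + (ρ₂ - r)) + (ρ₁ + ρ₂) * (be / (ξ₁ * ξ₂ - be)) := by
    have : η₃ = ξ₃ * (-lam * (ξ₁ * ξ₂ - be) + ξ₁ * ξ₂ * (ρ₁ + ρ₂)) / (ξ₁ * ξ₂ - be) := by
      rw [eq_div_iff hDne]; exact hF4
    rw [this]
    field_simp
    ring
  rw [key]
  refine v.map_add_lt (v.map_add_lt ?_ (v.map_add_lt hb₁ hb₂)) ?_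
  · rw [Valuation.map_neg]; exact hlam
  · rw [map_mul, hS, one_mul]; exact hδ


/-- (V4) Points in the middle region on opposite branches with equal depth add to a point
with `1 ≤ v ξ₃`. -/
theorem mid_add_opp (h : AddRel al be ξ₁ η₁ ξ₂ η₂ ξ₃ η₃ lam) (hv2 : v 2 = 1) (hvr : v r = 1)
    (h0 : ξ₁ ≠ 0) (h12 : v ξ₁ = v ξ₂)
    (hb₁ : v (η₁ / ξ₁ - r) < 1) (hb₂ : v (η₂ / ξ₂ + r) < 1) :
    1 ≤ v ξ₃ := by
  have h2 := two_ne_zero_of_val v hv2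
  have hvξ₁ : v ξ₁ ≠ 0 := (Valuation.ne_zero_iff v).mpr h0
  have hvξ₂ : v ξ₂ ≠ 0 := h12 ▸ hvξ₁
  have hξ₂ : ξ₂ ≠ 0 := (Valuation.ne_zero_iff v).mp hvξ₂
  obtain ⟨ρ₁, rfl⟩ : ∃ ρ₁, η₁ = ρ₁ * ξ₁ := ⟨η₁ / ξ₁, by field_simp⟩
  obtain ⟨ρ₂, rfl⟩ : ∃ ρ₂, η₂ = ρ₂ * ξ₂ := ⟨η₂ / ξ₂, by field_simp⟩
  rw [mul_div_cancel_right₀ _ h0] at hb₁
  rw [mul_div_cancel_right₀ _ hξ₂] at hb₂
  have h2r : v (2 * r) = 1 := by rw [map_mul, hv2, hvr, one_mul]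
  have hS : v (ρ₁ - ρ₂) = 1 := by
    have : ρ₁ - ρ₂ = 2 * r + ((ρ₁ - r) - (ρ₂ + r)) := by ring
    rw [this]
    exact val_add_eq_one v h2r (v.map_sub_lt hb₁ hb₂)
  have hne : ξ₁ ≠ ξ₂ := by
    intro he
    obtain ⟨h12', _, _⟩ := h.lam_tangent h2 he
    subst he
    have : ρ₁ = ρ₂ := mul_right_cancel₀ h0 h12'
    rw [this, sub_self, map_zero] at hS
    exact zero_ne_one hS
  have hF3 := h.F3 hne
  have hdiff : ρ₁ * ξ₁ * ξ₂ - ρ₂ * ξ₂ * ξ₁ = ξ₁ * ξ₂ * (ρ₁ - ρ₂) := by ring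
  rw [hdiff] at hF3
  have hv := congrArg v hF3
  simp only [map_mul, map_pow, hS, mul_one] at hv
  have hle : v (ξ₁ - ξ₂) ≤ v ξ₁ := by
    refine (v.map_sub _ _).trans ?_
    rw [h12, max_self]
  have hprod : v ξ₁ * v ξ₂ ≠ 0 := mul_ne_zero hvξ₁ hvξ₂
  have hv' : v ξ₃ * v (ξ₁ - ξ₂) ^ 2 = v ξ₁ ^ 2 := by
    have e : v ξ₃ * v ξ₁ * v ξ₂ * v (ξ₁ - ξ₂) ^ 2 = (v ξ₃ * v (ξ₁ - ξ₂) ^ 2) * (v ξ₁ * v ξ₂) := by
      ac_rfl
    have e' : (v ξ₁ * v ξ₂) ^ 2 = v ξ₁ ^ 2 * (v ξ₁ * v ξ₂) := by rw [← h12, sq, sq]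
    rw [e, e'] at hv
    exact mul_right_cancel₀ hprod hv
  exact one_le_of_mul_sq hvξ₁ hle hv'

/-- (V5) Adding a point of `E₀` (`1 ≤ v ξ₁`) to a point of the middle region keeps depth
and branch. -/
theorem e0_add_mid (h : AddRel al be ξ₁ η₁ ξ₂ η₂ ξ₃ η₃ lam) (hv2 : v 2 = 1) (hal : v al ≤ 1)
    (h₁ : 1 ≤ v ξ₁) (h₂ : v ξ₂ < 1) (hm : v be < v ξ₂) :
    v ξ₃ = v ξ₂ ∧ v (η₃ / ξ₃ - η₂ / ξ₂) < 1 := by
  have h2 := two_ne_zero_of_val v hv2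
  have hξ₂pos : 0 < v ξ₂ := lt_of_le_of_lt zero_le hm
  have hvξ₂ : v ξ₂ ≠ 0 := hξ₂pos.ne'
  have hξ₂ : ξ₂ ≠ 0 := (Valuation.ne_zero_iff v).mp hvξ₂
  have hξ₁pos : 0 < v ξ₁ := lt_of_lt_of_le zero_lt_one h₁
  have hvξ₁ : v ξ₁ ≠ 0 := hξ₁pos.ne'
  have hξ₁ : ξ₁ ≠ 0 := (Valuation.ne_zero_iff v).mp hvξ₁
  have hne : ξ₁ ≠ ξ₂ := by
    rintro rfl
    exact absurd h₂ (not_lt.mpr h₁)
  have hd0 : ξ₁ - ξ₂ ≠ 0 := sub_ne_zero.mpr hne
  obtain ⟨τ, rfl⟩ : ∃ τ, η₁ = τ * ξ₁ := ⟨η₁ / ξ₁, by field_simp⟩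
  obtain ⟨ρ, rfl⟩ : ∃ ρ, η₂ = ρ * ξ₂ := ⟨η₂ / ξ₂, by field_simp⟩
  rw [mul_div_cancel_right₀ _ hξ₂]
  have c₁ := h.c₁
  have c₂ := h.c₂
  have hτ2 : τ ^ 2 = ξ₁ + al + be / ξ₁ := by
    field_simp
    grind
  have hρ2 : ρ ^ 2 = ξ₂ + al + be / ξ₂ := by
    field_simp
    grind
  have hbe1 : v (be / ξ₁) < 1 := by
    rw [map_div₀]
    exact (div_lt_one₀ hξ₁pos).mpr (hm.trans (h₂.trans_le h₁))
  have hbe2 : v (be / ξ₂) < 1 := by
    rw [map_div₀]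
    exact (div_lt_one₀ hξ₂pos).mpr hm
  have hρ : v ρ ≤ 1 := by
    apply val_le_one_of_sq v
    rw [hρ2]
    exact v.map_add_le (v.map_add_le h₂.le hal) hbe2.le
  have hτ : v τ ≤ v ξ₁ := by
    have h1 : v (τ ^ 2) ≤ v ξ₁ := by
      rw [hτ2]
      exact v.map_add_le (v.map_add_le le_rfl (hal.trans h₁)) (hbe1.le.trans h₁)
    by_contra hc
    push Not at hc
    have : v ξ₁ < v τ ^ 2 := by
      calc v ξ₁ = v ξ₁ * 1 := (mul_one _).symm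
        _ ≤ v ξ₁ * v ξ₁ := mul_le_mul' le_rfl h₁
        _ < v τ * v τ := mul_lt_mul'' hc hc zero_le zero_le
        _ = v τ ^ 2 := (sq _).symm
    rw [map_pow] at h1
    exact absurd h1 (not_le.mpr this)
  have hprod : (τ - ρ) * (τ + ρ) = (ξ₁ - ξ₂) * (1 - be / (ξ₁ * ξ₂)) := by
    have : (τ - ρ) * (τ + ρ) = τ ^ 2 - ρ ^ 2 := by ring
    rw [this, hτ2, hρ2]
    field_simp
    ring
  have hd : v (ξ₁ - ξ₂) = v ξ₁ := Valuation.map_sub_eq_of_lt_left _ (h₂.trans_le h₁)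
  have hm' : v be < v ξ₁ * v ξ₂ :=
    hm.trans_le (by calc v ξ₂ = 1 * v ξ₂ := (one_mul _).symm
                      _ ≤ v ξ₁ * v ξ₂ := mul_le_mul' h₁ le_rfl)
  have hprodpos : 0 < v ξ₁ * v ξ₂ := mul_pos hξ₁pos hξ₂pos
  have hbe12 : v (be / (ξ₁ * ξ₂)) < 1 := by
    rw [map_div₀, map_mul]
    exact (div_lt_one₀ hprodpos).mpr hm'
  have hvprod : v (τ - ρ) * v (τ + ρ) = v ξ₁ := by
    rw [← map_mul, hprod, map_mul, hd, v.map_one_sub_of_lt hbe12, mul_one]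
  have heq : v (τ + ρ) = v (τ - ρ) := by
    by_contra hne'
    have hmax : v (2 * ρ) = max (v (τ + ρ)) (v (τ - ρ)) := by
      have e : 2 * ρ = (τ + ρ) + -(τ - ρ) := by ring
      rw [e, Valuation.map_add_of_distinct_val _ (by rwa [Valuation.map_neg]), Valuation.map_neg]
    have h2ρle : v (2 * ρ) ≤ 1 := by
      rw [map_mul, hv2, one_mul]; exact hρ
    have ha : v (τ + ρ) ≤ 1 := (le_max_left _ _).trans (hmax ▸ h2ρle)
    have hb : v (τ - ρ) ≤ 1 := (le_max_right _ _).trans (hmax ▸ h2ρle)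
    have hge : 1 ≤ v (τ - ρ) * v (τ + ρ) := hvprod ▸ h₁
    have hb1 : v (τ - ρ) = 1 := eq_one_of_mul_ge_one hb ha hge
    have ha1 : v (τ + ρ) = 1 := eq_one_of_mul_ge_one ha hb (by rwa [mul_comm])
    exact hne' (ha1.trans hb1.symm)
  have hA : v (τ + ρ) ^ 2 = v ξ₁ := by
    rw [sq]; nth_rewrite 1 [heq]; exact hvprod
  have hAle : v (τ + ρ) ≤ v ξ₁ := v.map_add_le hτ (hρ.trans h₁)
  have hBle : v (τ - ρ) ≤ v ξ₁ := v.map_sub_le hτ (hρ.trans h₁)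
  have hD : v (ξ₁ * ξ₂ - be) = v ξ₁ * v ξ₂ := by
    rw [Valuation.map_sub_eq_of_lt_left, map_mul]
    rw [map_mul]; exact hm'
  have hDne : ξ₁ * ξ₂ - be ≠ 0 := by
    rw [← Valuation.ne_zero_iff v, hD]; exact hprodpos.ne'
  have hF2 := h.F2 h2
  have hsum : τ * ξ₁ * ξ₂ + ρ * ξ₂ * ξ₁ = ξ₁ * ξ₂ * (τ + ρ) := by ring
  rw [hsum] at hF2
  have hval : v ξ₃ = v ξ₂ := by
    have hv := congrArg v hF2
    simp only [map_mul, map_pow, hD] at hv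
    have e : v ξ₃ * (v ξ₁ * v ξ₂ * v (τ + ρ)) ^ 2 = (v ξ₃ * v ξ₁) * (v ξ₁ * v ξ₂) ^ 2 := by
      rw [mul_pow, hA]; ac_rfl
    have e' : v ξ₁ * v ξ₂ * (v ξ₁ * v ξ₂) ^ 2 = (v ξ₂ * v ξ₁) * (v ξ₁ * v ξ₂) ^ 2 := by ac_rfl
    rw [e, e'] at hv
    have hne2 : (v ξ₁ * v ξ₂) ^ 2 ≠ 0 := pow_ne_zero _ hprodpos.ne'
    exact mul_right_cancel₀ hvξ₁ (mul_right_cancel₀ hne2 hv)
  refine ⟨hval, ?_⟩
  have hξ₃ : ξ₃ ≠ 0 := by
    rw [← Valuation.ne_zero_iff v, hval]; exact hvξ₂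
  have hF4 : η₃ * (ξ₁ * ξ₂ - be) = ξ₃ * (-lam * (ξ₁ * ξ₂ - be) + ξ₁ * ξ₂ * (τ + ρ)) := by
    rw [h.F4 h2]; ring
  have hl := h.lam_chord hne
  have hlam : lam - τ = ξ₂ * (τ - ρ) / (ξ₁ - ξ₂) := by
    rw [hl]
    field_simp
    ring
  have key : η₃ / ξ₃ - ρ = -(lam - τ) + (τ + ρ) * (be / (ξ₁ * ξ₂ - be)) := by
    have : η₃ = ξ₃ * (-lam * (ξ₁ * ξ₂ - be) + ξ₁ * ξ₂ * (τ + ρ)) / (ξ₁ * ξ₂ - be) := by
      rw [eq_div_iff hDne]; exact hF4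
    rw [this]
    field_simp
    ring
  rw [key]
  refine v.map_add_lt ?_ ?_
  · rw [Valuation.map_neg, hlam, map_div₀, map_mul, hd]
    rw [div_lt_one₀ hξ₁pos]
    calc v ξ₂ * v (τ - ρ) ≤ v ξ₂ * v ξ₁ := mul_le_mul' le_rfl hBle
      _ < 1 * v ξ₁ := mul_lt_mul_of_pos_right h₂ hξ₁pos
      _ = v ξ₁ := one_mul _
  · rw [map_mul, map_div₀, hD, ← mul_div_assoc, div_lt_one₀ hprodpos]
    calc v (τ + ρ) * v be ≤ v ξ₁ * v be := mul_le_mul' hAle le_rfl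
      _ < v ξ₁ * v ξ₂ := mul_lt_mul_of_pos_left hm hξ₁pos

/-- (V2) Two points with unit `ξ` which are congruent modulo the maximal ideal
(here `(ξ₂, η₂)` are the coordinates of the *negative* of the second point) differ by a point
of the kernel of reduction: `1 < v ξ₃`. -/
theorem unit_sub (h : AddRel al be ξ₁ η₁ ξ₂ η₂ ξ₃ η₃ lam) (hv2 : v 2 = 1) (hal : v al ≤ 1)
    (hbe : v be ≤ 1) (hdisc : v (al ^ 2 - 4 * be) = 1)
    (h₁ : v ξ₁ = 1) (h₂ : v ξ₂ = 1) (hξ : v (ξ₁ - ξ₂) < 1) (hη : v (η₁ + η₂) < 1) :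
    1 < v ξ₃ := by
  have h2 := two_ne_zero_of_val v hv2
  have c₁ := h.c₁
  have hξ₁ : ξ₁ ≠ 0 := by
    rw [← Valuation.ne_zero_iff v, h₁]; exact one_ne_zero
  have hg1 : v (ξ₁ ^ 2 + al * ξ₁ + be) ≤ 1 := by
    refine v.map_add_le (v.map_add_le ?_ ?_) hbe
    · rw [map_pow, h₁, one_pow]
    · rw [map_mul, h₁, mul_one]; exact hal
  have hη₁ : v η₁ ≤ 1 := by
    apply val_le_one_of_sq v
    rw [c₁, map_mul, h₁, one_mul]
    exact hg1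
  rcases eq_or_lt_of_le hη₁ with hη₁ | hη₁
  · have hne : ξ₁ ≠ ξ₂ := by
      intro he
      obtain ⟨h12, _, _⟩ := h.lam_tangent h2 he
      rw [← h12] at hη
      have : v (η₁ + η₁) = 1 := by rw [← two_mul, map_mul, hv2, hη₁, one_mul]
      exact absurd hη (not_lt.mpr this.ge)
    have hF3 := h.F3 hne
    have hnum : v (η₁ * ξ₂ - η₂ * ξ₁) = 1 := by
      have e : η₁ * ξ₂ - η₂ * ξ₁ = η₁ * (2 * ξ₁) + (-(η₁ * (ξ₁ - ξ₂)) - (η₁ + η₂) * ξ₁) := by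
        ring
      rw [e]
      apply val_add_eq_one v
      · rw [map_mul, map_mul, hη₁, hv2, h₁, one_mul, one_mul]
      · apply v.map_sub_lt
        · rw [Valuation.map_neg, map_mul, hη₁, one_mul]; exact hξ
        · rw [map_mul, h₁, mul_one]; exact hη
    have hv := congrArg v hF3
    simp only [map_mul, map_pow, h₁, h₂, hnum, mul_one, one_pow] at hv
    exact one_lt_of_mul_sq_eq_one hξ hv
  · have hη₂ : v η₂ < 1 := by
      have e : η₂ = (η₁ + η₂) - η₁ := by ring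
      rw [e]; exact v.map_sub_lt hη hη₁
    have hF2 := h.F2 h2
    have hg : v (ξ₁ ^ 2 + al * ξ₁ + be) < 1 := by
      have e : ξ₁ ^ 2 + al * ξ₁ + be = η₁ ^ 2 / ξ₁ := by
        rw [c₁]; field_simp
      rw [e, map_div₀, map_pow, h₁, div_one]
      exact pow_lt_one₀ zero_le hη₁ two_ne_zero
    have h2ξ : v (2 * ξ₁ + al) = 1 := by
      apply val_eq_one_of_sq v
      have e : (2 * ξ₁ + al) ^ 2 = (al ^ 2 - 4 * be) + 4 * (ξ₁ ^ 2 + al * ξ₁ + be) := by ring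
      rw [e]
      exact val_add_eq_one v hdisc (by rw [map_mul, val_four v hv2, one_mul]; exact hg)
    have hD : v (ξ₁ * ξ₂ - be) = 1 := by
      have e : ξ₁ * ξ₂ - be =
          ξ₁ * (2 * ξ₁ + al) + (-(ξ₁ ^ 2 + al * ξ₁ + be) - ξ₁ * (ξ₁ - ξ₂)) := by ring
      rw [e]
      apply val_add_eq_one v
      · rw [map_mul, h₁, h2ξ, one_mul]
      · apply v.map_sub_lt
        · rw [Valuation.map_neg]; exact hg
        · rw [map_mul, h₁, one_mul]; exact hξ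
    have hnum : v (η₁ * ξ₂ + η₂ * ξ₁) < 1 :=
      v.map_add_lt (by rw [map_mul, h₂, mul_one]; exact hη₁)
        (by rw [map_mul, h₁, mul_one]; exact hη₂)
    have hv := congrArg v hF2
    simp only [map_mul, map_pow, h₁, h₂, hD, mul_one, one_pow] at hv
    exact one_lt_of_mul_sq_eq_one hnum hv

/-- (F1) Translation by the 2-torsion point `T = (0, 0)`. -/
theorem add_T {ξ η : K} (h : AddRel al be ξ η 0 0 ξ₃ η₃ lam) (hξ : ξ ≠ 0) :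
    ξ₃ = be / ξ ∧ η₃ = -(be * η / ξ ^ 2) := by
  have hl := h.lam_chord hξ
  have c₁ := h.c₁
  constructor
  · rw [h.hξ, hl]
    field_simp
    grind
  · rw [h.hη, h.hξ, hl]
    field_simp
    grind

end AddRel

end Fermat.Agent.S05.helper305
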