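import Fermat.Agent.S05.helper5_Spec
import Fermat.Agent.S05.helper1745_XOnlyShape
import Fermat.Agent.S05.helper305_Val

/-!
# S05-MULT (helper2278): an inertia element fixes `p`-torsion, multiplicative reduction

`mult_of (hK : KerStmt) (hN : NodeValStmt) : MultStmt`.

Notation: `ξ = x - e`, `η = eta W x y`; the curve is `η² = ξ (ξ² + al ξ + be)`, with `al` a unit
and `v be = v d ^ p < 1`.  `P = (x, y)` and `P' = (σ x, σ y)` are both `p`-torsion.

* `v ξ ≤ 1` for every `p`-torsion point (this is `hK`).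
* If `v ξ = 1`: `v (σ x - x) < 1`, and if `σ x ≠ x` the Kummer product formula
  `ξ(P'+P) ξ(P'-P) (σx - x)² = (ξ'ξ - be)²` (a unit) puts one of `P' ± P` in the kernel of
  reduction, against `hK`.  If then `σ η = -η ≠ η`, `η` is a nonunit and the duplication formula
  `ξ(2P) · 4η² = (ξ² - be)²` puts `2P` in the kernel of reduction.
* If `v ξ < 1`: `hN` gives `v be < v ξ` and `v ξ = v (d ^ (2j))`, hence `v (σ x - x) < v ξ`; if
  `σ x ≠ x` the Kummer sum formula
  `(ξ(P'+P) + ξ(P'-P)) (σx - x)² = 2(ξ'+ξ)(ξ'ξ+be) + 4 al ξ'ξ` (of valuation `v ξ ^ 2`) puts one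
  of `P' ± P` in the kernel of reduction.  If then `σ η = -η`, the unit `ρ = η/ξ`
  (`ρ² = ξ + al + be/ξ`) has `σ ρ - ρ = -2ρ` a unit, against the inertia hypothesis.
-/

set_option autoImplicit false

namespace Fermat.Agent.S05.helper2278

open WeierstrassCurve WeierstrassCurve.Affine
open Fermat.Agent.S05.helper305 Fermat.Agent.S05.helper1745 Fermat.Agent.S05.helper5

section valgroup

variable {Γ₀ : Type*} [LinearOrderedCommGroupWithZero Γ₀]

/-- In the value group: `x * d ^ 2 = a ^ 2`, `d < a` imply `1 < x`. -/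
theorem one_lt_of_mul_sq_lt {x a d : Γ₀} (hd : d < a) (h : x * d ^ 2 = a ^ 2) : 1 < x := by
  by_contra hx
  have hx' : x ≤ 1 := not_lt.mp hx
  have h1 : x * d ^ 2 ≤ 1 * d ^ 2 := mul_le_mul' hx' le_rfl
  rw [one_mul] at h1
  have h2 : d ^ 2 < a ^ 2 := pow_lt_pow_left₀ hd zero_le two_ne_zero
  exact absurd h (h1.trans_lt h2).ne

/-- In the value group: `1 < a * b` implies `1 < a` or `1 < b`. -/
theorem one_lt_or_of_one_lt_mul {a b : Γ₀} (h : 1 < a * b) : 1 < a ∨ 1 < b := by
  by_contra hc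
  have ha : a ≤ 1 := not_lt.mp fun ha => hc (Or.inl ha)
  have hb : b ≤ 1 := not_lt.mp fun hb => hc (Or.inr hb)
  have : a * b ≤ 1 * 1 := mul_le_mul' ha hb
  rw [one_mul] at this
  exact absurd h (not_lt.mpr this)

end valgroup

section main

variable {K : Type} [Field K] [DecidableEq K] {Γ₀ : Type} [LinearOrderedCommGroupWithZero Γ₀]
  {v : Valuation K Γ₀} {W : WeierstrassCurve K} {e al be : K}

/-- Unit case, `x`-coordinates: two `p`-torsion points with `ξ₂` a unit and `x₁ ≡ x₂` have the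
same `x`-coordinate, provided `p`-torsion points have integral `ξ`. -/
theorem x_eq_of_unit (hS : Shape W e al be) {p : ℕ}
    (hint : ∀ (X Y : K) (hXY : W.toAffine.Nonsingular X Y),
      p • (Point.some X Y hXY : W.toAffine.Point) = 0 → v (X - e) ≤ 1)
    (hbe : v be < 1) {x₁ y₁ x₂ y₂ : K}
    (h₁ : W.toAffine.Nonsingular x₁ y₁) (h₂ : W.toAffine.Nonsingular x₂ y₂)
    (hP₁ : p • (Point.some x₁ y₁ h₁ : W.toAffine.Point) = 0)
    (hP₂ : p • (Point.some x₂ y₂ h₂ : W.toAffine.Point) = 0)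
    (hu : v (x₂ - e) = 1) (hd : v (x₁ - x₂) < 1) : x₁ = x₂ := by
  by_contra hx
  obtain ⟨Xp, Yp, Xm, Ym, hp, hm, hadd, hsub, hprod, -⟩ :=
    shape_exists_add_sub_some hS h₁ h₂ hx
  have hu₁ : v (x₁ - e) = 1 := by
    have : x₁ - e = (x₂ - e) + (x₁ - x₂) := by ring
    rw [this]; exact val_add_eq_one v hu hd
  have hD : v ((x₁ - e) * (x₂ - e) - be) = 1 := by
    apply val_sub_eq_one v _ hbe
    rw [map_mul, hu₁, hu, one_mul]
  have hdd : (x₁ - e) - (x₂ - e) = x₁ - x₂ := by ring
  rw [hdd] at hprod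
  have hv := congrArg v hprod
  simp only [map_mul, map_pow, hD, one_pow] at hv
  have h1 : 1 < v (Xp - e) * v (Xm - e) := one_lt_of_mul_sq_eq_one hd hv
  have hPp : p • (Point.some Xp Yp hp : W.toAffine.Point) = 0 := by
    rw [← hadd, smul_add, hP₁, hP₂, add_zero]
  have hPm : p • (Point.some Xm Ym hm : W.toAffine.Point) = 0 := by
    rw [← hsub, smul_sub, hP₁, hP₂, sub_zero]
  rcases one_lt_or_of_one_lt_mul h1 with h | h
  · exact absurd (hint Xp Yp hp hPp) (not_le.mpr h)
  · exact absurd (hint Xm Ym hm hPm) (not_le.mpr h)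

/-- Node case, `x`-coordinates: two `p`-torsion points with `v be < v ξ₂ < 1` and
`v (x₁ - x₂) < v ξ₂` have the same `x`-coordinate. -/
theorem x_eq_of_node (hS : Shape W e al be) {p : ℕ}
    (hint : ∀ (X Y : K) (hXY : W.toAffine.Nonsingular X Y),
      p • (Point.some X Y hXY : W.toAffine.Point) = 0 → v (X - e) ≤ 1)
    (hv2 : v 2 = 1) (hal : v al = 1) {x₁ y₁ x₂ y₂ : K}
    (h₁ : W.toAffine.Nonsingular x₁ y₁) (h₂ : W.toAffine.Nonsingular x₂ y₂)
    (hP₁ : p • (Point.some x₁ y₁ h₁ : W.toAffine.Point) = 0)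
    (hP₂ : p • (Point.some x₂ y₂ h₂ : W.toAffine.Point) = 0)
    (hξ : v (x₂ - e) < 1) (hbe : v be < v (x₂ - e)) (hd : v (x₁ - x₂) < v (x₂ - e)) :
    x₁ = x₂ := by
  by_contra hx
  obtain ⟨Xp, Yp, Xm, Ym, hp, hm, hadd, hsub, -, hsum⟩ :=
    shape_exists_add_sub_some hS h₁ h₂ hx
  have hpos : 0 < v (x₂ - e) := lt_of_le_of_lt zero_le hbe
  have hξ₁ : v (x₁ - e) = v (x₂ - e) := by
    have : x₁ - e = (x₂ - e) + (x₁ - x₂) := by ring
    rw [this]; exact Valuation.map_add_eq_of_lt_left v hd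
  have hdd : (x₁ - e) - (x₂ - e) = x₁ - x₂ := by ring
  rw [hdd] at hsum
  have hmain : v (4 * al * (x₁ - e) * (x₂ - e)) = v (x₂ - e) ^ 2 := by
    rw [map_mul, map_mul, map_mul, val_four v hv2, hal, hξ₁, one_mul, one_mul, sq]
  have hsmall : v (2 * ((x₁ - e) + (x₂ - e)) * ((x₁ - e) * (x₂ - e) + be)) < v (x₂ - e) ^ 2 := by
    rw [map_mul, map_mul, hv2, one_mul]
    have ha : v ((x₁ - e) + (x₂ - e)) ≤ v (x₂ - e) := v.map_add_le hξ₁.le le_rfl
    have hb : v ((x₁ - e) * (x₂ - e) + be) < v (x₂ - e) := by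
      apply v.map_add_lt _ hbe
      rw [map_mul, hξ₁]
      calc v (x₂ - e) * v (x₂ - e) < 1 * v (x₂ - e) := mul_lt_mul_of_pos_right hξ hpos
        _ = v (x₂ - e) := one_mul _
    calc v ((x₁ - e) + (x₂ - e)) * v ((x₁ - e) * (x₂ - e) + be)
        ≤ v (x₂ - e) * v ((x₁ - e) * (x₂ - e) + be) := mul_le_mul' ha le_rfl
      _ < v (x₂ - e) * v (x₂ - e) := mul_lt_mul_of_pos_left hb hpos
      _ = v (x₂ - e) ^ 2 := (sq _).symm
  have hR : v (2 * ((x₁ - e) + (x₂ - e)) * ((x₁ - e) * (x₂ - e) + be) +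
      4 * al * (x₁ - e) * (x₂ - e)) = v (x₂ - e) ^ 2 := by
    rw [Valuation.map_add_eq_of_lt_right v (hmain ▸ hsmall), hmain]
  have hv := congrArg v hsum
  rw [hR, map_mul, map_pow] at hv
  have h1 : 1 < v ((Xp - e) + (Xm - e)) := one_lt_of_mul_sq_lt hd hv
  have hPp : p • (Point.some Xp Yp hp : W.toAffine.Point) = 0 := by
    rw [← hadd, smul_add, hP₁, hP₂, add_zero]
  have hPm : p • (Point.some Xm Ym hm : W.toAffine.Point) = 0 := by
    rw [← hsub, smul_sub, hP₁, hP₂, sub_zero]
  have h2 : v ((Xp - e) + (Xm - e)) ≤ 1 :=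
    v.map_add_le (hint Xp Yp hp hPp) (hint Xm Ym hm hPm)
  exact absurd h2 (not_le.mpr h1)

/-- Unit case, `η`-coordinate: a `p`-torsion point (`p` odd is not needed here: we only use that
`2P` is again `p`-torsion) with `ξ` a unit and `η ≠ 0` has `η` a unit (or worse). -/
theorem not_val_eta_lt_one (hS : Shape W e al be) {p : ℕ}
    (hint : ∀ (X Y : K) (hXY : W.toAffine.Nonsingular X Y),
      p • (Point.some X Y hXY : W.toAffine.Point) = 0 → v (X - e) ≤ 1)
    (hv2 : v 2 = 1) (hbe : v be < 1) {x y : K} (h : W.toAffine.Nonsingular x y)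
    (hP : p • (Point.some x y h : W.toAffine.Point) = 0)
    (hu : v (x - e) = 1) (hη : eta W x y ≠ 0) : ¬ v (eta W x y) < 1 := by
  intro hlt
  have h2 := hS.two_ne
  have hy : y ≠ W.toAffine.negY x y := by
    intro hy
    have h1 := eta_negY W h2 x y
    rw [← hy] at h1
    apply hη
    have h3 : 2 * eta W x y = 0 := by linear_combination h1
    exact (mul_eq_zero.mp h3).resolve_left h2
  obtain ⟨X, Y, h', hadd, hdup, -⟩ := shape_exists_add_self_some hS h hy
  have heq := (hS.equation_iff x y).1 h.1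
  rw [← heq] at hdup
  have hD : v ((x - e) ^ 2 - be) = 1 := by
    apply val_sub_eq_one v _ hbe
    rw [map_pow, hu, one_pow]
  have hv := congrArg v hdup
  rw [map_mul, map_mul, val_four v hv2, one_mul, map_pow, map_pow, hD, one_pow] at hv
  have h1 : 1 < v (X - e) := one_lt_of_mul_sq_eq_one hlt hv
  have hP2 : p • (Point.some X Y h' : W.toAffine.Point) = 0 := by
    rw [← hadd, smul_add, hP, add_zero]
  exact absurd (hint X Y h' hP2) (not_le.mpr h1)

end main

/-- **S05-MULT**: the multiplicative-reduction inertia statement follows from `KerStmt` and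
`NodeValStmt`. -/
theorem mult_of (hK : KerStmt) (hN : NodeValStmt) : MultStmt := by
  intro K _ _ Γ₀ _ v W e al be hS hv2 hal p hp hp2 hvp σ hσ hσe hσ1 hσ3 d hσd hd0 hvd hbed
    x y h h' hP hP'
  have h2 := hS.two_ne
  have hvd0 : v d ≠ 0 := (Valuation.ne_zero_iff v).mpr hd0
  have hbe_lt : v be < 1 := by rw [hbed]; exact pow_lt_one₀ zero_le hvd hp.ne_zero
  have hbe_ne : be ≠ 0 := by
    rw [← Valuation.ne_zero_iff v, hbed]; exact pow_ne_zero _ hvd0
  have hint : ∀ (X Y : K) (hXY : W.toAffine.Nonsingular X Y),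
      p • (Point.some X Y hXY : W.toAffine.Point) = 0 → v (X - e) ≤ 1 := by
    intro X Y hXY hPX
    by_contra hc
    exact hK K Γ₀ v W e al be hS hv2 hal.le hbe_lt.le p hp hp2 hvp X Y hXY (lt_of_not_ge hc) hPX
  have hσ2 : σ 2 = 2 := map_ofNat σ 2
  have hση : σ (eta W x y) = eta W (σ x) (σ y) := by
    simp only [eta, map_add, map_mul, map_div₀, hσ1, hσ3, hσ2]
  have hσξ : σ (x - e) = σ x - e := by rw [map_sub, hσe]
  have heq := (hS.equation_iff x y).1 h.1
  have heq' := (hS.equation_iff (σ x) (σ y)).1 h'.1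
  -- the `x`-coordinate
  have hξle := hint x y h hP
  have hx : σ x = x ∧ (v (x - e) = 1 ∨ (v (x - e) < 1 ∧ v be < v (x - e))) := by
    rcases eq_or_lt_of_le hξle with hu | hlt
    · refine ⟨?_, Or.inl hu⟩
      have hd := hσ (x - e) hu.le
      rw [hσξ] at hd
      have hrw : σ x - e - (x - e) = σ x - x := by ring
      rw [hrw] at hd
      exact x_eq_of_unit hS hint hbe_lt h' h hP' hP hu hd
    · obtain ⟨hbelt, j, hj⟩ :=
        hN K Γ₀ v W e al be hS hv2 hal hbe_lt hbe_ne p hp hp2 hvp x y h hlt hP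
      refine ⟨?_, Or.inr ⟨hlt, hbelt⟩⟩
      have hval : v (x - e) = v (d ^ (2 * j)) := by
        rw [map_zpow₀]
        have hpow : v (x - e) ^ p = (v d ^ (2 * j)) ^ p := by
          rw [hj, hbed, ← zpow_natCast (v d) p, ← zpow_mul, ← zpow_natCast (v d ^ (2 * j)) p,
            ← zpow_mul, mul_comm]
        exact (pow_left_inj₀ zero_le zero_le hp.ne_zero).mp hpow
      have hu0 : d ^ (2 * j) ≠ 0 := zpow_ne_zero _ hd0
      have hvu0 : v (d ^ (2 * j)) ≠ 0 := (Valuation.ne_zero_iff v).mpr hu0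
      have hσu : σ (d ^ (2 * j)) = d ^ (2 * j) := by rw [map_zpow₀, hσd]
      have hw : v ((x - e) / d ^ (2 * j)) = 1 := by
        rw [map_div₀, hval]; exact div_self hvu0
      have hd := hσ ((x - e) / d ^ (2 * j)) hw.le
      rw [map_div₀, hσu, hσξ] at hd
      have hrw : (σ x - e) / d ^ (2 * j) - (x - e) / d ^ (2 * j) = (σ x - x) / d ^ (2 * j) := by
        ring
      rw [hrw, map_div₀, div_lt_one₀ (zero_lt_iff.mpr hvu0), ← hval] at hd
      exact x_eq_of_node hS hint hv2 hal h' h hP' hP hlt hbelt hd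
  obtain ⟨hx, hcase⟩ := hx
  refine ⟨hx, ?_⟩
  -- the `y`-coordinate
  have hsq : σ (eta W x y) ^ 2 = eta W x y ^ 2 := by
    rw [hση, heq', heq, hx]
  have hη : σ (eta W x y) = eta W x y := by
    rcases sq_eq_sq_iff_eq_or_eq_neg.mp hsq with h1 | h1
    · exact h1
    · by_cases hη0 : eta W x y = 0
      · rw [h1, hη0, neg_zero]
      · exfalso
        rcases hcase with hu | ⟨hlt, hbelt⟩
        · -- unit case
          have hηle : v (eta W x y) ≤ 1 := by
            apply val_le_one_of_sq v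
            rw [heq, map_mul, hu, one_mul]
            refine v.map_add_le (v.map_add_le ?_ ?_) hbe_lt.le
            · rw [map_pow, hu, one_pow]
            · rw [map_mul, hu, mul_one]; exact hal.le
          have hd := hσ _ hηle
          rw [h1] at hd
          have hrw : -eta W x y - eta W x y = -(2 * eta W x y) := by ring
          rw [hrw, Valuation.map_neg, map_mul, hv2, one_mul] at hd
          exact not_val_eta_lt_one hS hint hv2 hbe_lt h hP hu hη0 hd
        · -- node case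
          have hpos : 0 < v (x - e) := lt_of_le_of_lt zero_le hbelt
          have hξ0 : x - e ≠ 0 := (Valuation.ne_zero_iff v).mp hpos.ne'
          have hρ2 : (eta W x y / (x - e)) ^ 2 = al + ((x - e) + be / (x - e)) := by
            rw [div_pow, heq]
            field_simp
            ring
          have hbe' : v (be / (x - e)) < 1 := by
            rw [map_div₀]; exact (div_lt_one₀ hpos).mpr hbelt
          have hρ : v (eta W x y / (x - e)) = 1 := by
            apply val_eq_one_of_sq v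
            rw [hρ2]
            exact val_add_eq_one v hal (v.map_add_lt hlt hbe')
          have hd := hσ _ hρ.le
          rw [map_div₀, h1, hσξ, hx] at hd
          have hrw : -eta W x y / (x - e) - eta W x y / (x - e) =
              -(2 * (eta W x y / (x - e))) := by ring
          rw [hrw, Valuation.map_neg, map_mul, hv2, one_mul, hρ] at hd
          exact lt_irrefl _ hd
  rw [hση, hx] at hη
  simpa [eta] using hη

end Fermat.Agent.S05.helper2278
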