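import Mathlib
import Fermat.Agent.S05.helper5_Spec
import Fermat.Agent.S05.helper4205_Inertia

/-!
# S05 top layer (helper2284, board row 133)

`top : GoodStmt → MultStmt → TargetStmt`: the frozen statement S05 follows from the two
point-level local statements of `helper5_Spec` (good reduction / multiplicative reduction).

Contents:
* valuations of integers and of integers divided by `4`, `16` in a valuation subring of
  `AlgebraicClosure ℚ` lying over an odd prime `q`;
* the two shapes of the Frey curve: `(e, al, be) = (0, (B - A)/4, -(A B)/16)` and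
  `(A/4, (A + C)/4, A C/16)` with `A = a^p`, `B = b^p`, `C = c^p`;
* the case distinction `q ∤ abc`, `q ∣ ab`, `q ∣ c` and the passage from coordinates to points.
-/

set_option autoImplicit false

namespace Fermat.Agent.S05.helper2284

open WeierstrassCurve WeierstrassCurve.Affine
open Fermat.Agent.S05.helper305 (Shape)
open Fermat.Agent.S05.helper5
open Fermat.Agent.S05.helper4205

/-- The Frey curve base-changed to `AlgebraicClosure ℚ`. -/
noncomputable abbrev freyBar (P : FreyPackage) : WeierstrassCurve (AlgebraicClosure ℚ) :=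
  WeierstrassCurve.baseChange P.freyCurve (AlgebraicClosure ℚ)

theorem freyBar_a₁ (P : FreyPackage) : (freyBar P).a₁ = 1 := by
  simp [freyBar, WeierstrassCurve.baseChange, FreyPackage.freyCurve]

theorem freyBar_a₃ (P : FreyPackage) : (freyBar P).a₃ = 0 := by
  simp [freyBar, WeierstrassCurve.baseChange, FreyPackage.freyCurve]

theorem freyBar_a₂ (P : FreyPackage) :
    (freyBar P).a₂ = (((P.b : AlgebraicClosure ℚ)) ^ P.p - 1 - (P.a : AlgebraicClosure ℚ) ^ P.p) / 4 := by
  simp [freyBar, WeierstrassCurve.baseChange, FreyPackage.freyCurve]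

theorem freyBar_a₄ (P : FreyPackage) :
    (freyBar P).a₄ = -((P.a : AlgebraicClosure ℚ) ^ P.p) * ((P.b : AlgebraicClosure ℚ)) ^ P.p / 16 := by
  simp [freyBar, WeierstrassCurve.baseChange, FreyPackage.freyCurve]

theorem freyBar_a₆ (P : FreyPackage) : (freyBar P).a₆ = 0 := by
  simp [freyBar, WeierstrassCurve.baseChange, FreyPackage.freyCurve]


/-! ### The two shapes of the Frey curve -/

/-- Shape centred at the 2-torsion point `x = 0`. -/
theorem freyBar_shape_zero (P : FreyPackage) :
    Shape (freyBar P) 0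
      ((((P.b : ℤ) ^ P.p - (P.a : ℤ) ^ P.p : ℤ) : AlgebraicClosure ℚ) / 4)
      (((-((P.a : ℤ) * P.b) ^ P.p : ℤ) : AlgebraicClosure ℚ) / 16) := by
  refine ⟨two_ne_zero, ?_, ?_, ?_⟩
  · simp only [WeierstrassCurve.b₂, freyBar_a₁, freyBar_a₂]
    push_cast
    ring
  · simp only [WeierstrassCurve.b₄, freyBar_a₁, freyBar_a₃, freyBar_a₄]
    push_cast
    ring
  · simp only [WeierstrassCurve.b₆, freyBar_a₃, freyBar_a₆]
    ring

/-- Shape centred at the 2-torsion point `x = a^p/4`. -/
theorem freyBar_shape_shift (P : FreyPackage) :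
    Shape (freyBar P) ((((P.a : ℤ) ^ P.p : ℤ) : AlgebraicClosure ℚ) / 4)
      ((((P.a : ℤ) ^ P.p + (P.c : ℤ) ^ P.p : ℤ) : AlgebraicClosure ℚ) / 4)
      (((((P.a : ℤ) * P.c) ^ P.p : ℤ) : AlgebraicClosure ℚ) / 16) := by
  have hF : ((P.a : AlgebraicClosure ℚ)) ^ P.p + (P.b : AlgebraicClosure ℚ) ^ P.p
      = (P.c : AlgebraicClosure ℚ) ^ P.p := by
    have := congrArg (fun z : ℤ => (z : AlgebraicClosure ℚ)) P.hFLT
    push_cast at this
    exact this
  refine ⟨two_ne_zero, ?_, ?_, ?_⟩
  · simp only [WeierstrassCurve.b₂, freyBar_a₁, freyBar_a₂]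
    push_cast
    linear_combination hF
  · simp only [WeierstrassCurve.b₄, freyBar_a₁, freyBar_a₃, freyBar_a₄]
    push_cast
    linear_combination (-((P.a : AlgebraicClosure ℚ) ^ P.p) / 8) * hF
  · simp only [WeierstrassCurve.b₆, freyBar_a₃, freyBar_a₆]
    push_cast
    ring


/-! ### Valuations of integers in a valuation subring lying over `q` -/

section valuations

variable {L : Type*} [Field L]

theorem val_int_le_one (A : ValuationSubring L) (n : ℤ) : A.valuation (n : L) ≤ 1 :=
  (ValuationSubring.valuation_le_one_iff A _).2 (vs_intCast_mem A n)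

theorem val_int_lt_one {A : ValuationSubring L} {q : ℕ} (hq : q.Prime)
    (hA : A.LiesOverPrime q) {n : ℤ} (hn : (q : ℤ) ∣ n) : A.valuation (n : L) < 1 := by
  rw [← ValuationSubring.mem_nonunits_iff]
  exact (intCast_mem_nonunits_iff hq hA n).2 hn

theorem not_dvd_two_pow {q : ℕ} (hq : q.Prime) (hq2 : q ≠ 2) (k : ℕ) : ¬ q ∣ 2 ^ k := by
  intro h
  have h2 : q ∣ 2 := hq.dvd_of_dvd_pow h
  exact hq2 ((Nat.prime_dvd_prime_iff_eq hq Nat.prime_two).1 h2)

theorem val_two {A : ValuationSubring L} {q : ℕ} (hq : q.Prime) (hq2 : q ≠ 2)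
    (hA : A.LiesOverPrime q) : A.valuation (2 : L) = 1 := by
  have := valuation_natCast_eq_one (A := A) hq hA (n := 2) (by simpa using not_dvd_two_pow hq hq2 1)
  simpa using this

theorem val_four {A : ValuationSubring L} {q : ℕ} (hq : q.Prime) (hq2 : q ≠ 2)
    (hA : A.LiesOverPrime q) : A.valuation (4 : L) = 1 := by
  have := valuation_natCast_eq_one (A := A) hq hA (n := 4)
    (by have := not_dvd_two_pow hq hq2 2; norm_num at this; exact this)
  simpa using this

theorem val_sixteen {A : ValuationSubring L} {q : ℕ} (hq : q.Prime) (hq2 : q ≠ 2)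
    (hA : A.LiesOverPrime q) : A.valuation (16 : L) = 1 := by
  have := valuation_natCast_eq_one (A := A) hq hA (n := 16)
    (by have := not_dvd_two_pow hq hq2 4; norm_num at this; exact this)
  simpa using this

theorem val_prime {A : ValuationSubring L} {q p : ℕ} (hq : q.Prime) (hp : p.Prime) (hqp : q ≠ p)
    (hA : A.LiesOverPrime q) : A.valuation (p : L) = 1 :=
  valuation_natCast_eq_one (A := A) hq hA (n := p)
    (fun h => hqp ((Nat.prime_dvd_prime_iff_eq hq hp).1 h))

end valuations

/-! ### Divisibility facts for a Frey package -/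

theorem not_dvd_both {q : ℕ} (hq : q.Prime) {a b : ℤ} (h : gcd a b = 1)
    (ha : (q : ℤ) ∣ a) (hb : (q : ℤ) ∣ b) : False := by
  have h1 : (q : ℤ) ∣ gcd a b := dvd_gcd ha hb
  rw [h] at h1
  have h2 : q ∣ 1 := by exact_mod_cast h1
  exact hq.one_lt.ne' (Nat.dvd_one.1 h2)


/-! ### Coordinates of `p`-torsion points are fixed by inertia -/

theorem coords_fixed (hG : GoodStmt) (hM : MultStmt) (P : FreyPackage) {q : ℕ} (hq : q.Prime)
    (hq2 : q ≠ 2) (hqp : q ≠ P.p) (A : ValuationSubring (AlgebraicClosure ℚ))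
    (hA : A.LiesOverPrime q) (σ : AlgebraicClosure ℚ ≃ₐ[ℚ] AlgebraicClosure ℚ)
    (hσ : σ ∈ A.inertiaSubgroupIn ℚ) (x y : AlgebraicClosure ℚ)
    (h : (freyBar P).toAffine.Nonsingular x y)
    (h' : (freyBar P).toAffine.Nonsingular (σ x) (σ y))
    (hT : P.p • (Point.some x y h : (freyBar P).toAffine.Point) = 0)
    (hT' : P.p • (Point.some (σ x) (σ y) h' : (freyBar P).toAffine.Point) = 0) :
    σ x = x ∧ σ y = y := by
  -- the ring endomorphism underlying `σ`
  let τ : AlgebraicClosure ℚ →+* AlgebraicClosure ℚ := σ.toAlgHom.toRingHom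
  have hτ : ∀ z : AlgebraicClosure ℚ, A.valuation z ≤ 1 → A.valuation (τ z - z) < 1 := by
    intro z hz
    have hzA : z ∈ A := (ValuationSubring.valuation_le_one_iff A z).1 hz
    exact (ValuationSubring.mem_nonunits_iff (A := A)).1 (apply_sub_mem_nonunits hσ hzA)
  have hτint : ∀ n : ℤ, τ (n : AlgebraicClosure ℚ) = n := fun n => map_intCast σ n
  have hτ4 : τ (4 : AlgebraicClosure ℚ) = 4 := map_ofNat σ 4
  have hτa1 : τ (freyBar P).a₁ = (freyBar P).a₁ := by
    rw [freyBar_a₁]; exact map_one τ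
  have hτa3 : τ (freyBar P).a₃ = (freyBar P).a₃ := by
    rw [freyBar_a₃]; exact map_zero τ
  have hv2 : A.valuation (2 : AlgebraicClosure ℚ) = 1 := val_two hq hq2 hA
  have hv4 : A.valuation (4 : AlgebraicClosure ℚ) = 1 := val_four hq hq2 hA
  have hv16 : A.valuation (16 : AlgebraicClosure ℚ) = 1 := val_sixteen hq hq2 hA
  have hvp : A.valuation (P.p : AlgebraicClosure ℚ) = 1 := val_prime hq P.pp hqp hA
  have hp2 : P.p ≠ 2 := by have := P.hp5; omega
  have hqZ : Prime (q : ℤ) := Nat.prime_iff_prime_int.1 hq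
  have hpow : ∀ {n : ℤ}, (q : ℤ) ∣ n ^ P.p → (q : ℤ) ∣ n := fun hn => Int.Prime.dvd_pow' hq hn
  have hFLT := P.hFLT
  by_cases hab : (q : ℤ) ∣ P.a * P.b
  · -- multiplicative reduction, node at `x = 0`
    have hal : ¬ (q : ℤ) ∣ P.b ^ P.p - P.a ^ P.p := by
      intro hdvd
      rcases hqZ.dvd_or_dvd hab with ha | hb
      · have hb : (q : ℤ) ∣ P.b ^ P.p := by
          have := dvd_add hdvd (dvd_pow ha P.hp0)
          simpa using this
        exact not_dvd_both hq P.hgcdab ha (hpow hb)
      · have ha : (q : ℤ) ∣ P.a ^ P.p := by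
          have := dvd_sub (dvd_pow hb P.hp0) hdvd
          simpa using this
        exact not_dvd_both hq P.hgcdab (hpow ha) hb
    have hd0 : ((P.a * P.b : ℤ) : AlgebraicClosure ℚ) ≠ 0 :=
      Int.cast_ne_zero.2 (mul_ne_zero P.ha0 P.hb0)
    refine hM (AlgebraicClosure ℚ) A.ValueGroup A.valuation (freyBar P) 0 _ _
      (freyBar_shape_zero P) hv2 ?_ P.p P.pp hp2 hvp τ hτ (map_zero τ) hτa1 hτa3
      ((P.a * P.b : ℤ) : AlgebraicClosure ℚ) (hτint _) hd0 (val_int_lt_one hq hA hab) ?_
      x y h h' hT hT'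
    · rw [map_div₀, hv4, div_one]
      exact valuation_intCast_eq_one hq hA hal
    · rw [map_div₀, hv16, div_one]
      push_cast
      rw [Valuation.map_neg, map_pow]
  · by_cases hc : (q : ℤ) ∣ P.c
    · -- multiplicative reduction, node at `x = a^p/4`
      have ha : ¬ (q : ℤ) ∣ P.a := fun ha => hab (dvd_mul_of_dvd_left ha _)
      have hal : ¬ (q : ℤ) ∣ P.a ^ P.p + P.c ^ P.p := by
        intro hdvd
        have : (q : ℤ) ∣ P.a ^ P.p := by
          have := dvd_sub hdvd (dvd_pow hc P.hp0)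
          simpa using this
        exact ha (hpow this)
      have hd0 : ((P.a * P.c : ℤ) : AlgebraicClosure ℚ) ≠ 0 :=
        Int.cast_ne_zero.2 (mul_ne_zero P.ha0 P.hc0)
      have hac : (q : ℤ) ∣ P.a * P.c := dvd_mul_of_dvd_right hc _
      have hτe : τ ((((P.a : ℤ) ^ P.p : ℤ) : AlgebraicClosure ℚ) / 4)
          = (((P.a : ℤ) ^ P.p : ℤ) : AlgebraicClosure ℚ) / 4 := by
        rw [map_div₀, hτint, hτ4]
      refine hM (AlgebraicClosure ℚ) A.ValueGroup A.valuation (freyBar P) _ _ _
        (freyBar_shape_shift P) hv2 ?_ P.p P.pp hp2 hvp τ hτ hτe hτa1 hτa3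
        ((P.a * P.c : ℤ) : AlgebraicClosure ℚ) (hτint _) hd0 (val_int_lt_one hq hA hac) ?_
        x y h h' hT hT'
      · rw [map_div₀, hv4, div_one]
        exact valuation_intCast_eq_one hq hA hal
      · rw [map_div₀, hv16, div_one]
        push_cast
        rw [map_pow]
    · -- good reduction
      have hab' : ¬ (q : ℤ) ∣ -(P.a * P.b) ^ P.p := by
        intro hdvd
        exact hab (hpow ((dvd_neg).1 hdvd))
      have hc' : ¬ (q : ℤ) ∣ (P.c ^ P.p) ^ 2 := by
        intro hdvd
        exact hc (hpow (hqZ.dvd_of_dvd_pow hdvd))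
      have hdisc : ((((P.b : ℤ) ^ P.p - (P.a : ℤ) ^ P.p : ℤ) : AlgebraicClosure ℚ) / 4) ^ 2
          - 4 * ((((-((P.a : ℤ) * P.b) ^ P.p : ℤ) : AlgebraicClosure ℚ) / 16))
          = ((((P.c : ℤ) ^ P.p) ^ 2 : ℤ) : AlgebraicClosure ℚ) / 16 := by
        have hF : ((P.a : AlgebraicClosure ℚ)) ^ P.p + (P.b : AlgebraicClosure ℚ) ^ P.p
            = (P.c : AlgebraicClosure ℚ) ^ P.p := by
          have := congrArg (fun z : ℤ => (z : AlgebraicClosure ℚ)) P.hFLT
          push_cast at this
          exact this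
        push_cast
        rw [← hF]
        ring
      refine hG (AlgebraicClosure ℚ) A.ValueGroup A.valuation (freyBar P) 0 _ _
        (freyBar_shape_zero P) hv2 ?_ ?_ ?_ P.p P.pp hp2 hvp τ hτ (map_zero τ) hτa1 hτa3
        x y h h' hT hT'
      · rw [map_div₀, hv4, div_one]
        exact val_int_le_one A _
      · rw [map_div₀, hv16, div_one]
        exact valuation_intCast_eq_one hq hA hab'
      · rw [hdisc, map_div₀, hv16, div_one]
        exact valuation_intCast_eq_one hq hA hc'


/-! ### The top-level statement -/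

/-- **S05-TOP**: the frozen statement S05 follows from the point-level local statements. -/
theorem top (hG : GoodStmt) (hM : MultStmt) : TargetStmt := by
  intro P q hq hq2 hqp A hA σ hσ T
  obtain ⟨T, hT⟩ := T
  apply Subtype.ext
  change σ • T = T
  rw [Submodule.mem_torsionBy_iff] at hT
  have hT1 : P.p • T = 0 := by
    rw [← hT]; exact (natCast_zsmul T P.p).symm
  have hT2 : P.p • (σ • T) = 0 := by
    rw [Point.algEquiv_smul_def, ← map_nsmul, hT1, map_zero]
  cases T with
  | zero => rfl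
  | some x y h =>
    have h' : (freyBar P).toAffine.Nonsingular (σ x) (σ y) :=
      (WeierstrassCurve.Affine.baseChange_nonsingular (W := P.freyCurve)
        (f := σ.toAlgHom) σ.toAlgHom.injective x y).mpr h
    have hT3 : P.p • (Point.some (σ x) (σ y) h' : (freyBar P).toAffine.Point) = 0 := hT2
    change (Point.some (σ x) (σ y) h' : (freyBar P).toAffine.Point) = Point.some x y h
    obtain ⟨hx, hy⟩ := coords_fixed hG hM P hq hq2 hqp A hA σ hσ x y h h' hT1 hT3
    have aux : ∀ (x' y' : AlgebraicClosure ℚ) (h'' : (freyBar P).toAffine.Nonsingular x' y'),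
        x' = x → y' = y →
        (Point.some x' y' h'' : (freyBar P).toAffine.Point) = Point.some x y h := by
      intro x' y' h'' hx' hy'
      subst hx' hy'
      rfl
    exact aux _ _ h' hx hy

end Fermat.Agent.S05.helper2284
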