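/-
S05 helper (helper241): additive "order functions" on a field with values in a linearly ordered
additive commutative group, with junk value at `0`; linear arithmetic on values is done by `grind`.

* `OrdFn w` : `w (a * b) = w a + w b` and `min (w a) (w b) ≤ w (a + b)` for nonzero arguments.
* `ordv v` : the order function attached to a valuation `v : Valuation K Γ₀`.
* `tri_main` : the purely combinatorial "triangle wave" lemma used for the component analysis.
-/
import Mathlib

set_option autoImplicit false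

namespace Fermat.Agent.S05.helper241

section OrdFn

variable {K : Type*} [Field K] {Γ : Type*} [AddCommGroup Γ] [LinearOrder Γ] [IsOrderedAddMonoid Γ]

/-- An additive valuation with junk value at `0`. -/
structure OrdFn (w : K → Γ) : Prop where
  mul : ∀ a b, a ≠ 0 → b ≠ 0 → w (a * b) = w a + w b
  add : ∀ a b, a ≠ 0 → b ≠ 0 → a + b ≠ 0 → min (w a) (w b) ≤ w (a + b)

namespace OrdFn

variable {w : K → Γ} (hw : OrdFn w)
include hw

theorem one : w 1 = 0 := by
  have h := hw.mul 1 1 one_ne_zero one_ne_zero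
  rw [mul_one] at h
  grind

theorem neg_one : w (-1) = 0 := by
  have h := hw.mul (-1) (-1) (neg_ne_zero.mpr one_ne_zero) (neg_ne_zero.mpr one_ne_zero)
  rw [neg_mul_neg, mul_one, hw.one] at h
  grind

theorem neg {a : K} (ha : a ≠ 0) : w (-a) = w a := by
  have h := hw.mul (-1) a (neg_ne_zero.mpr one_ne_zero) ha
  rw [neg_one_mul, hw.neg_one, zero_add] at h
  exact h

theorem inv {a : K} (ha : a ≠ 0) : w a⁻¹ = -w a := by
  have h := hw.mul a a⁻¹ ha (inv_ne_zero ha)
  rw [mul_inv_cancel₀ ha, hw.one] at h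
  grind

theorem div {a b : K} (ha : a ≠ 0) (hb : b ≠ 0) : w (a / b) = w a - w b := by
  rw [div_eq_mul_inv, hw.mul a b⁻¹ ha (inv_ne_zero hb), hw.inv hb]
  grind

theorem sq {a : K} (ha : a ≠ 0) : w (a ^ 2) = w a + w a := by
  rw [pow_two, hw.mul a a ha ha]

theorem pow {a : K} (ha : a ≠ 0) (n : ℕ) : w (a ^ n) = n • w a := by
  induction n with
  | zero => simp [hw.one]
  | succ n ih =>
    rw [pow_succ, hw.mul _ _ (pow_ne_zero n ha) ha, ih, succ_nsmul]

theorem sub_ge {a b : K} (ha : a ≠ 0) (hb : b ≠ 0) (hab : a - b ≠ 0) :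
    min (w a) (w b) ≤ w (a - b) := by
  have h := hw.add a (-b) ha (neg_ne_zero.mpr hb) (by rwa [← sub_eq_add_neg])
  rwa [hw.neg hb, ← sub_eq_add_neg] at h

/-- Dominant term: if `w a < w b` then `w (a + b) = w a`. -/
theorem add_eq {a b : K} (ha : a ≠ 0) (hb : b ≠ 0) (h : w a < w b) :
    a + b ≠ 0 ∧ w (a + b) = w a := by
  have hne : a + b ≠ 0 := by
    intro h0
    have : b = -a := by linear_combination h0
    rw [this, hw.neg ha] at h
    exact lt_irrefl _ h
  refine ⟨hne, ?_⟩
  have h1 := hw.add a b ha hb hne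
  have h2 := hw.sub_ge hne hb (by rwa [add_sub_cancel_right])
  rw [add_sub_cancel_right] at h2
  grind

theorem add_eq' {a b : K} (ha : a ≠ 0) (hb : b ≠ 0) (h : w b < w a) :
    a + b ≠ 0 ∧ w (a + b) = w b := by
  rw [add_comm]; exact hw.add_eq hb ha h

theorem sub_eq {a b : K} (ha : a ≠ 0) (hb : b ≠ 0) (h : w a < w b) :
    a - b ≠ 0 ∧ w (a - b) = w a := by
  rw [sub_eq_add_neg]
  exact hw.add_eq ha (neg_ne_zero.mpr hb) (by rwa [hw.neg hb])

theorem sub_eq' {a b : K} (ha : a ≠ 0) (hb : b ≠ 0) (h : w b < w a) :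
    a - b ≠ 0 ∧ w (a - b) = w b := by
  rw [sub_eq_add_neg]
  have := hw.add_eq' ha (neg_ne_zero.mpr hb) (by rwa [hw.neg hb])
  rwa [hw.neg hb] at this

/-- If `a + b` has strictly smaller order than `min`, impossible; a convenient contrapositive:
if `w (a + b) < w a` then `w b = w (a + b)`. -/
theorem add_lt_left {a b : K} (ha : a ≠ 0) (hb : b ≠ 0) (hab : a + b ≠ 0)
    (h : w (a + b) < w a) : w b = w (a + b) := by
  have h1 := hw.add a b ha hb hab
  have h2 := hw.sub_ge hab ha (by rwa [add_sub_cancel_left])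
  rw [add_sub_cancel_left] at h2
  grind

end OrdFn

end OrdFn

section Triangle

variable {Γ : Type*} [AddCommGroup Γ] [LinearOrder Γ] [IsOrderedAddMonoid Γ]

/-- The combinatorial "triangle wave" lemma. -/
theorem tri_main (θ N : Γ) (p : ℕ) (hp3 : 3 ≤ p) (ℓ : ℕ → Γ) (hθ : 0 < θ) (hθN : θ < N)
    (h1 : ℓ 1 = θ)
    (hb : ∀ m, 1 ≤ m → m ≤ p - 1 → θ ≤ ℓ m ∧ ℓ m < N)
    (hc : ℓ 2 = 2 • min (2 • θ) N - 2 • θ ∧ 2 • θ ≠ N)
    (hd : ∀ k, 1 ≤ k → k + 2 ≤ p - 1 → θ < ℓ (k + 1) →
      ℓ (k + 2) + ℓ k = 2 • min (ℓ (k + 1) + θ) N - 2 • θ ∧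
        min (ℓ (k + 2)) (ℓ k) = ℓ (k + 1) - θ ∧ ℓ (k + 1) + θ ≠ N)
    (he : ∀ m, 2 ≤ m → m + 1 ≤ p - 1 → ℓ m ≠ θ)
    (hf : ℓ (p - 1) = θ) : p • θ = 2 • N := by
  have key : ∀ n, n + 2 ≤ p - 1 →
      (ℓ (n + 1) = min ((n + 1) • θ) (2 • N - (n + 1) • θ) ∧ (n + 1) • θ ≠ N) ∧
      (ℓ (n + 2) = min ((n + 2) • θ) (2 • N - (n + 2) • θ) ∧ (n + 2) • θ ≠ N) := by
    intro n
    induction n with
    | zero =>
      intro _
      refine ⟨⟨?_, ?_⟩, ?_, ?_⟩
      · simp only [zero_add, one_smul]; grind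
      · simp only [zero_add, one_smul]; grind
      · simp only [zero_add]; grind
      · simp only [zero_add]; exact hc.2
    | succ n ih =>
      intro hn
      obtain ⟨⟨e1, n1⟩, e2, n2⟩ := ih (by omega)
      refine ⟨⟨?_, ?_⟩, ?_⟩
      · have : n + 1 + 1 = n + 2 := by omega
        rw [this]; exact e2
      · have : n + 1 + 1 = n + 2 := by omega
        rw [this]; exact n2
      · have hb2 := hb (n + 2) (by omega) (by omega)
        have hb1 := hb (n + 1) (by omega) (by omega)
        have hb3 := hb (n + 3) (by omega) (by omega)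
        have hne := he (n + 2) (by omega) (by omega)
        have hlt : θ < ℓ (n + 2) := lt_of_le_of_ne hb2.1 (Ne.symm hne)
        have hd' := hd (n + 1) (by omega) (by omega) hlt
        have e3 : n + 1 + 2 = n + 3 := by omega
        have s1 : (n + 2) • θ = (n + 1) • θ + θ := succ_nsmul θ (n + 1)
        have s2 : (n + 3) • θ = (n + 1) • θ + θ + θ := by
          rw [succ_nsmul θ (n + 2), s1]
        rw [e3] at hd' ⊢
        generalize (n + 1) • θ = A at *
        generalize ℓ (n + 1) = l1 at *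
        generalize ℓ (n + 2) = l2 at *
        generalize ℓ (n + 3) = l3 at *
        rw [s2]
        rw [s1] at e2 n2
        obtain ⟨d1, d2, d3⟩ := hd'
        constructor
        · grind
        · grind
  -- conclusion
  have hk := key (p - 3) (by omega)
  have e : p - 3 + 2 = p - 1 := by omega
  rw [e, hf] at hk
  have hp' : p • θ = (p - 1) • θ + θ := by
    have : p = (p - 1) + 1 := by omega
    conv_lhs => rw [this]
    exact succ_nsmul θ (p - 1)
  have hp'' : (p - 1) • θ = (p - 3) • θ + θ + θ := by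
    have : p - 1 = (p - 3) + 1 + 1 := by omega
    rw [this, succ_nsmul, succ_nsmul]
  have hpos : 0 ≤ (p - 3) • θ := nsmul_nonneg hθ.le _
  obtain ⟨_, e2, n2⟩ := hk
  rw [hp', hp''] at *
  generalize (p - 3) • θ = B at *
  grind

end Triangle

section Bridge

variable {Γ : Type*} [AddCommGroup Γ] [LinearOrder Γ] [IsOrderedAddMonoid Γ]

theorem nsmul_cancel {n : ℕ} (hn : n ≠ 0) {a b : Γ} (h : n • a = n • b) : a = b := by
  rcases lt_trichotomy a b with h1 | h1 | h1
  · exact absurd h (ne_of_lt (nsmul_lt_nsmul_right hn h1))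
  · exact h1
  · exact absurd h.symm (ne_of_lt (nsmul_lt_nsmul_right hn h1))

variable {K : Type*} [Field K] {Γ₀ : Type*} [LinearOrderedCommGroupWithZero Γ₀]

open Classical in
/-- The order function attached to a valuation (junk value `0` at `0`). -/
noncomputable def ordv (v : Valuation K Γ₀) (x : K) : Additive Γ₀ˣ :=
  if h : x = 0 then 0 else Additive.ofMul (Units.mk0 (v x) ((Valuation.ne_zero_iff v).mpr h))⁻¹

theorem ordv_mul (v : Valuation K Γ₀) {x y : K} (hx : x ≠ 0) (hy : y ≠ 0) :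
    ordv v (x * y) = ordv v x + ordv v y := by
  unfold ordv
  rw [dif_neg hx, dif_neg hy, dif_neg (mul_ne_zero hx hy)]
  rw [← ofMul_mul, ← mul_inv]
  congr 2
  ext
  simp

theorem ordv_le (v : Valuation K Γ₀) {x y : K} (hx : x ≠ 0) (hy : y ≠ 0) :
    ordv v x ≤ ordv v y ↔ v y ≤ v x := by
  unfold ordv
  rw [dif_neg hx, dif_neg hy]
  rw [Additive.ofMul_le, inv_le_inv_iff, ← Units.val_le_val]
  simp

theorem ordv_lt (v : Valuation K Γ₀) {x y : K} (hx : x ≠ 0) (hy : y ≠ 0) :
    ordv v x < ordv v y ↔ v y < v x := by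
  rw [← not_le, ← not_le, ordv_le v hy hx]

theorem ordv_eq (v : Valuation K Γ₀) {x y : K} (hx : x ≠ 0) (hy : y ≠ 0) :
    ordv v x = ordv v y ↔ v x = v y := by
  rw [le_antisymm_iff, le_antisymm_iff, ordv_le v hx hy, ordv_le v hy hx, and_comm]

theorem ordv_one (v : Valuation K Γ₀) : ordv v 1 = 0 := by
  have h := ordv_mul v (one_ne_zero (α := K)) (one_ne_zero (α := K))
  rw [mul_one] at h
  grind

theorem ordv_nonneg (v : Valuation K Γ₀) {x : K} (hx : x ≠ 0) : 0 ≤ ordv v x ↔ v x ≤ 1 := by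
  rw [← ordv_one v, ordv_le v one_ne_zero hx, map_one]

theorem ordv_pos (v : Valuation K Γ₀) {x : K} (hx : x ≠ 0) : 0 < ordv v x ↔ v x < 1 := by
  rw [← ordv_one v, ordv_lt v one_ne_zero hx, map_one]

theorem ordv_eq_zero (v : Valuation K Γ₀) {x : K} (hx : x ≠ 0) : ordv v x = 0 ↔ v x = 1 := by
  rw [← ordv_one v, ordv_eq v hx one_ne_zero, map_one]

theorem ordv_ordFn (v : Valuation K Γ₀) : OrdFn (ordv v) where
  mul := fun a b ha hb => ordv_mul v ha hb
  add := fun a b ha hb hab => by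
    rcases le_total (v a) (v b) with h | h
    · have h1 : v (a + b) ≤ v b := v.map_add_le h le_rfl
      exact (min_le_right _ _).trans ((ordv_le v hb hab).mpr h1)
    · have h1 : v (a + b) ≤ v a := v.map_add_le le_rfl h
      exact (min_le_left _ _).trans ((ordv_le v ha hab).mpr h1)

end Bridge

end Fermat.Agent.S05.helper241
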