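/-
S05 helper (helper241): abstract x-only ("Kummer line") core.

An additive group `G` with coordinate functions `x y : G → K` into a valued field satisfying the
x-only sum/product/duplication identities of the curve `y² = x (x² + α x + β)`, together with a
"Galois" pair `σ : K →+* K`, `τ : G →+ G` behaving like an inertia element.  Main result
`kummer_main`: `τ` fixes every point killed by an odd prime `p` which is a unit, provided
`2`, `α² - 4β` are units and `v β = 1` or `v β = v w ^ p` for a `σ`-fixed `w`.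
-/
import Mathlib
import Fermat.Agent.S05.helper241_Ord

set_option autoImplicit false

namespace Fermat.Agent.S05.helper241

/-- Abstract x-only data of the curve `y² = x (x² + α x + β)`. -/
structure KData {K : Type*} [Field K] {G : Type*} [AddCommGroup G] (x y : G → K) (α β : K) :
    Prop where
  x_neg : ∀ P, x (-P) = x P
  y_neg : ∀ P, y (-P) = -y P
  y_sq : ∀ P, P ≠ 0 → y P ^ 2 = x P * (x P ^ 2 + α * x P + β)
  y_ne_zero : ∀ P, P ≠ 0 → P + P ≠ 0 → y P ≠ 0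
  x_inj : ∀ P Q, P ≠ 0 → Q ≠ 0 → x P = x Q → P = Q ∨ P = -Q
  prod : ∀ P Q, P ≠ 0 → Q ≠ 0 → P + Q ≠ 0 → P - Q ≠ 0 →
    x (P + Q) * x (P - Q) * (x P - x Q) ^ 2 = (x P * x Q - β) ^ 2
  sum : ∀ P Q, P ≠ 0 → Q ≠ 0 → P + Q ≠ 0 → P - Q ≠ 0 →
    (x (P + Q) + x (P - Q)) * (x P - x Q) ^ 2 =
      2 * ((x P + x Q) * (x P * x Q + β) + 2 * α * (x P * x Q))
  dbl : ∀ P, P ≠ 0 → P + P ≠ 0 →
    x (P + P) * (4 * x P * (x P ^ 2 + α * x P + β)) = (x P ^ 2 - β) ^ 2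

namespace KData

variable {K : Type*} [Field K] {G : Type*} [AddCommGroup G] {x y : G → K} {α β : K}

theorem x_ne_zero (hK : KData x y α β) {P : G} (hP : P ≠ 0) (h2P : P + P ≠ 0) : x P ≠ 0 := by
  intro h0
  have h := hK.y_sq P hP
  rw [h0, zero_mul] at h
  exact hK.y_ne_zero P hP h2P (pow_eq_zero_iff (two_ne_zero) |>.mp h)

theorem f_ne_zero (hK : KData x y α β) {P : G} (hP : P ≠ 0) (h2P : P + P ≠ 0) :
    x P ^ 2 + α * x P + β ≠ 0 := by
  intro h0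
  have h := hK.y_sq P hP
  rw [h0, mul_zero] at h
  exact hK.y_ne_zero P hP h2P (pow_eq_zero_iff (two_ne_zero) |>.mp h)

theorem x_ne (hK : KData x y α β) {P Q : G} (hP : P ≠ 0) (hQ : Q ≠ 0) (hadd : P + Q ≠ 0)
    (hsub : P - Q ≠ 0) : x P ≠ x Q := by
  intro h
  rcases hK.x_inj P Q hP hQ h with h1 | h1
  · exact hsub (by rw [h1, sub_self])
  · exact hadd (by rw [h1, neg_add_cancel])

end KData

/-! ### Multiples of a point of prime order -/

section Multiples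

variable {G : Type*} [AddCommGroup G]

theorem nsmul_eq_zero_iff_dvd {p : ℕ} (hp : p.Prime) {T : G} (hT : T ≠ 0) (hpT : p • T = 0)
    (m : ℕ) : m • T = 0 ↔ p ∣ m := by
  have hf : Fact p.Prime := ⟨hp⟩
  have h := addOrderOf_eq_prime hpT hT
  rw [← h]
  exact (addOrderOf_dvd_iff_nsmul_eq_zero).symm

theorem nsmul_ne_zero_of_not_dvd {p : ℕ} (hp : p.Prime) {T : G} (hT : T ≠ 0) (hpT : p • T = 0)
    {m : ℕ} (hm : ¬ p ∣ m) : m • T ≠ 0 := fun h =>
  hm ((nsmul_eq_zero_iff_dvd hp hT hpT m).mp h)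

theorem nsmul_add_self_ne_zero {p : ℕ} (hp : p.Prime) (hp2 : p ≠ 2) {T : G} (hT : T ≠ 0)
    (hpT : p • T = 0) {m : ℕ} (hm : ¬ p ∣ m) : m • T + m • T ≠ 0 := by
  rw [← two_nsmul, ← mul_nsmul']
  apply nsmul_ne_zero_of_not_dvd hp hT hpT
  intro h
  rcases (Nat.Prime.dvd_mul hp).mp h with h1 | h1
  · exact hp2 ((Nat.prime_dvd_prime_iff_eq hp Nat.prime_two).mp h1)
  · exact hm h1

theorem add_self_ne_zero_of_prime {p : ℕ} (hp : p.Prime) (hp2 : p ≠ 2) {T : G} (hT : T ≠ 0)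
    (hpT : p • T = 0) : T + T ≠ 0 := by
  have hnd1 : ¬ p ∣ 1 := fun h => hp.one_lt.ne' (Nat.dvd_one.mp h)
  have := nsmul_add_self_ne_zero hp hp2 hT hpT hnd1
  rwa [one_smul] at this

/-- A point killed by a prime `p` is a multiple of any of its multiples by `m` prime to `p`. -/
theorem exists_zsmul_eq {p : ℕ} (hp : p.Prime) {T : G} (hpT : p • T = 0) {m : ℕ}
    (hm : ¬ p ∣ m) : ∃ a : ℤ, a • (m • T) = T := by
  have hcop : Nat.Coprime m p := (Nat.Coprime.symm ((Nat.Prime.coprime_iff_not_dvd hp).mpr hm))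
  have h1 : (m : ℤ) * Nat.gcdA m p + (p : ℤ) * Nat.gcdB m p = 1 := by
    have := Nat.gcd_eq_gcd_ab m p
    rw [hcop] at this
    exact_mod_cast this.symm
  refine ⟨Nat.gcdA m p, ?_⟩
  have h2 : ((m : ℤ) * Nat.gcdA m p + (p : ℤ) * Nat.gcdB m p) • T = T := by rw [h1, one_smul]
  rw [add_smul, mul_comm (p : ℤ), mul_smul, mul_smul, natCast_zsmul, natCast_zsmul, hpT,
    smul_zero, add_zero] at h2
  rw [smul_comm]
  exact h2

end Multiples

/-! ### Part I: integrality of torsion (kernel of reduction has no `p`-torsion) -/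

section PartI

variable {K : Type*} [Field K] {Γ₀ : Type*} [LinearOrderedCommGroupWithZero Γ₀]
  (v : Valuation K Γ₀)

theorem v_int_of_le {a : K} (h : v a ≤ 1) : a ∈ v.integer := (Valuation.mem_integer_iff v a).mpr h

theorem v_le_of_int {a : K} (h : a ∈ v.integer) : v a ≤ 1 := (Valuation.mem_integer_iff v a).mp h

theorem v_mul_le {a b : K} {g : Γ₀} (ha : v a ≤ 1) (hb : v b ≤ g) : v (a * b) ≤ g := by
  rw [map_mul]
  exact (mul_le_mul' ha hb).trans (one_mul g).le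

theorem v_mul_lt {a b : K} (ha : v a ≤ 1) (hb : v b < 1) : v (a * b) < 1 := by
  rw [map_mul]
  exact (mul_le_mul' ha le_rfl).trans_lt (by rwa [one_mul])

theorem v_mul_lt' {a b : K} (ha : v a < 1) (hb : v b ≤ 1) : v (a * b) < 1 := by
  rw [mul_comm]; exact v_mul_lt v hb ha

theorem v_mul_le' {a b : K} (hb : v b ≤ 1) : v (a * b) ≤ v a := by
  rw [map_mul]
  exact mul_le_of_le_one_right' hb

theorem v_lt_of_sq_lt {a : K} (h : v (a ^ 2) < 1) : v a < 1 := by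
  by_contra hcon
  rw [not_lt] at hcon
  rw [map_pow] at h
  exact absurd h (not_lt.mpr (one_le_pow₀ hcon))

/-- The duplication step for the inverse coordinate. -/
theorem zdbl {α β x1 x2 : K} (hα : v α ≤ 1) (hβ : v β ≤ 1) (hx1 : x1 ≠ 0) (hx2 : x2 ≠ 0)
    (hdbl : x2 * (4 * x1 * (x1 ^ 2 + α * x1 + β)) = (x1 ^ 2 - β) ^ 2) (hz : v x1⁻¹ < 1) :
    v (x2⁻¹ - 4 * x1⁻¹) ≤ v x1⁻¹ ^ 2 := by
  have hzint : x1⁻¹ ∈ v.integer := v_int_of_le v hz.le
  have hαi := v_int_of_le v hα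
  have hβi := v_int_of_le v hβ
  have hβz : v (β * x1⁻¹ ^ 2) < 1 := by
    rw [pow_two]
    exact v_mul_lt v hβ (v_mul_lt v hz.le hz)
  have hD : v (1 - β * x1⁻¹ ^ 2) = 1 := v.map_one_sub_of_lt hβz
  have hD0 : 1 - β * x1⁻¹ ^ 2 ≠ 0 := by
    intro h0; rw [h0, map_zero] at hD; exact zero_ne_one hD
  have key : x2⁻¹ * (1 - β * x1⁻¹ ^ 2) ^ 2 = 4 * x1⁻¹ * (1 + α * x1⁻¹ + β * x1⁻¹ ^ 2) := by
    field_simp
    linear_combination (-1 : K) * hdbl
  have expr : x2⁻¹ - 4 * x1⁻¹ =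
      x1⁻¹ ^ 2 * (4 * (α + 3 * β * x1⁻¹ - β ^ 2 * x1⁻¹ ^ 3)) / (1 - β * x1⁻¹ ^ 2) ^ 2 := by
    rw [eq_div_iff (pow_ne_zero 2 hD0)]
    linear_combination key
  have hE : 4 * (α + 3 * β * x1⁻¹ - β ^ 2 * x1⁻¹ ^ 3) ∈ v.integer := by
    generalize x1⁻¹ = z at hzint ⊢
    aesop
  rw [expr, map_div₀, map_pow _ (1 - β * x1⁻¹ ^ 2), hD, one_pow, div_one, ← map_pow]
  exact v_mul_le' v (v_le_of_int v hE)

theorem v_natCast_le (n : ℕ) : v (n : K) ≤ 1 := by
  induction n with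
  | zero => simp
  | succ n ih =>
    rw [Nat.cast_succ]
    exact v.map_add_le ih (by simp)

theorem v_two_le : v (2 : K) ≤ 1 := by
  have := v_natCast_le v 2
  simpa using this

/-- The general step for the inverse coordinate. -/
theorem zstep {α β x1 xm xp xq c d : K} (hα : v α ≤ 1) (hβ : v β ≤ 1)
    (hx1 : x1 ≠ 0) (hxm : xm ≠ 0) (hxp : xp ≠ 0) (hxq : xq ≠ 0)
    (hprod : xp * xq * (xm - x1) ^ 2 = (xm * x1 - β) ^ 2)
    (hsum : (xp + xq) * (xm - x1) ^ 2 = 2 * ((xm + x1) * (xm * x1 + β) + 2 * α * (xm * x1)))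
    (hz : v x1⁻¹ < 1) (hc : v c ≤ 1)
    (hm : v (xm⁻¹ - c * x1⁻¹) ≤ v x1⁻¹ ^ 2) (hq : v (xq⁻¹ - d * x1⁻¹) ≤ v x1⁻¹ ^ 2) :
    v (xp⁻¹ - (2 + 2 * c - d) * x1⁻¹) ≤ v x1⁻¹ ^ 2 := by
  have hzz : v x1⁻¹ ^ 2 ≤ v x1⁻¹ := by rw [pow_two]; exact mul_le_of_le_one_left' hz.le
  have hzm : v xm⁻¹ ≤ v x1⁻¹ := by
    have e : xm⁻¹ = (xm⁻¹ - c * x1⁻¹) + c * x1⁻¹ := by ring
    rw [e]
    exact v.map_add_le (hm.trans hzz) (v_mul_le v hc le_rfl)
  have hzint : x1⁻¹ ∈ v.integer := v_int_of_le v hz.le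
  have hzmint : xm⁻¹ ∈ v.integer := v_int_of_le v (hzm.trans hz.le)
  have hαi := v_int_of_le v hα
  have hβi := v_int_of_le v hβ
  have hβz : v (β * x1⁻¹ * xm⁻¹) < 1 := v_mul_lt' v (v_mul_lt v hβ hz) (hzm.trans hz.le)
  have hD : v (1 - β * x1⁻¹ * xm⁻¹) = 1 := v.map_one_sub_of_lt hβz
  have hD0 : 1 - β * x1⁻¹ * xm⁻¹ ≠ 0 := by
    intro h0; rw [h0, map_zero] at hD; exact zero_ne_one hD
  have hP : (x1⁻¹ - xm⁻¹) ^ 2 = xp⁻¹ * xq⁻¹ * (1 - β * x1⁻¹ * xm⁻¹) ^ 2 := by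
    field_simp
    linear_combination hprod
  have hS : (xp⁻¹ + xq⁻¹) * (x1⁻¹ - xm⁻¹) ^ 2 =
      2 * (xp⁻¹ * xq⁻¹) * ((x1⁻¹ + xm⁻¹) * (1 + β * x1⁻¹ * xm⁻¹) + 2 * α * x1⁻¹ * xm⁻¹) := by
    field_simp
    linear_combination hsum
  have key : (xp⁻¹ + xq⁻¹) * (1 - β * x1⁻¹ * xm⁻¹) ^ 2 =
      2 * ((x1⁻¹ + xm⁻¹) * (1 + β * x1⁻¹ * xm⁻¹) + 2 * α * x1⁻¹ * xm⁻¹) := by
    have h0 : xp⁻¹ * xq⁻¹ ≠ 0 := mul_ne_zero (inv_ne_zero hxp) (inv_ne_zero hxq)
    apply mul_right_cancel₀ h0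
    linear_combination hS - (xp⁻¹ + xq⁻¹) * hP
  have expr : xp⁻¹ - (2 + 2 * c - d) * x1⁻¹ =
      x1⁻¹ * xm⁻¹ * (2 * ((x1⁻¹ + xm⁻¹) * (3 * β - β ^ 2 * x1⁻¹ * xm⁻¹) + 2 * α)) /
          (1 - β * x1⁻¹ * xm⁻¹) ^ 2
        + 2 * (xm⁻¹ - c * x1⁻¹) - (xq⁻¹ - d * x1⁻¹) := by
    have : x1⁻¹ * xm⁻¹ * (2 * ((x1⁻¹ + xm⁻¹) * (3 * β - β ^ 2 * x1⁻¹ * xm⁻¹) + 2 * α)) /
          (1 - β * x1⁻¹ * xm⁻¹) ^ 2 = xp⁻¹ + xq⁻¹ - 2 * (x1⁻¹ + xm⁻¹) := by
      rw [div_eq_iff (pow_ne_zero 2 hD0)]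
      linear_combination (-1 : K) * key
    rw [this]; ring
  have hE : 2 * ((x1⁻¹ + xm⁻¹) * (3 * β - β ^ 2 * x1⁻¹ * xm⁻¹) + 2 * α) ∈ v.integer := by
    generalize x1⁻¹ = z at hzint ⊢
    generalize xm⁻¹ = zm at hzmint ⊢
    aesop
  rw [expr]
  apply v.map_sub_le (v.map_add_le ?_ ?_) hq
  · rw [map_div₀, map_pow _ (1 - β * x1⁻¹ * xm⁻¹), hD, one_pow, div_one]
    calc v (x1⁻¹ * xm⁻¹ * (2 * ((x1⁻¹ + xm⁻¹) * (3 * β - β ^ 2 * x1⁻¹ * xm⁻¹) + 2 * α)))
        ≤ v (x1⁻¹ * xm⁻¹) := v_mul_le' v (v_le_of_int v hE)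
      _ = v x1⁻¹ * v xm⁻¹ := map_mul _ _ _
      _ ≤ v x1⁻¹ * v x1⁻¹ := mul_le_mul' le_rfl hzm
      _ = v x1⁻¹ ^ 2 := (pow_two _).symm
  · exact v_mul_le v (v_two_le v) hm

/-- **K1**: a nonzero point killed by an odd prime `p` (a unit) has integral `x`-coordinate. -/
theorem x_integral {G : Type*} [AddCommGroup G] {x y : G → K} {α β : K} (hK : KData x y α β)
    (hα : v α ≤ 1) (hβ : v β ≤ 1) (h2 : v (2 : K) = 1) {p : ℕ} (hp : p.Prime) (hp2 : p ≠ 2)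
    (hvp : v (p : K) = 1) {T : G} (hT : T ≠ 0) (hpT : p • T = 0) : v (x T) ≤ 1 := by
  by_contra hcon
  rw [not_le] at hcon
  have hp3 : 3 ≤ p := by have := hp.two_le; omega
  have hne : ∀ m, ¬ p ∣ m → m • T ≠ 0 := fun m hm => nsmul_ne_zero_of_not_dvd hp hT hpT hm
  have hne2 : ∀ m, ¬ p ∣ m → m • T + m • T ≠ 0 := fun m hm =>
    nsmul_add_self_ne_zero hp hp2 hT hpT hm
  have hx0 : ∀ m, ¬ p ∣ m → x (m • T) ≠ 0 := fun m hm => hK.x_ne_zero (hne m hm) (hne2 m hm)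
  have hnd : ∀ m, 1 ≤ m → m ≤ p - 1 → ¬ p ∣ m := fun m h1 h2 h => by
    have := Nat.le_of_dvd (by omega) h; omega
  have hxT0 : x T ≠ 0 := by
    have := hx0 1 (hnd 1 le_rfl (by omega)); rwa [one_smul] at this
  have hzlt : v (x T)⁻¹ < 1 := by rw [map_inv₀]; exact inv_lt_one_of_one_lt₀ hcon
  have hz0 : v (x T)⁻¹ ≠ 0 := by
    rw [Valuation.ne_zero_iff]; exact inv_ne_zero hxT0
  -- main induction
  have key : ∀ n, n + 2 ≤ p - 1 →
      v ((x ((n + 1) • T))⁻¹ - ((n + 1 : ℕ) : K) ^ 2 * (x T)⁻¹) ≤ v (x T)⁻¹ ^ 2 ∧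
      v ((x ((n + 2) • T))⁻¹ - ((n + 2 : ℕ) : K) ^ 2 * (x T)⁻¹) ≤ v (x T)⁻¹ ^ 2 := by
    intro n
    induction n with
    | zero =>
      intro _
      constructor
      · simp
      · have h2T : (0 + 2) • T = T + T := by rw [zero_add, two_nsmul]
        have hTT : T + T ≠ 0 := by
          have := hne2 1 (hnd 1 le_rfl (by omega)); rwa [one_smul] at this
        have hdbl := hK.dbl T hT hTT
        have hx2 : x (T + T) ≠ 0 := by
          have := hx0 2 (hnd 2 (by omega) (by omega)); rwa [two_nsmul] at this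
        have := zdbl v hα hβ hxT0 hx2 hdbl hzlt
        rw [h2T]
        have e : (((0 + 2 : ℕ) : K)) ^ 2 = 4 := by norm_num
        rw [e]
        exact this
    | succ n ih =>
      intro hn
      obtain ⟨h1, h2'⟩ := ih (by omega)
      refine ⟨h2', ?_⟩
      have hP : (n + 2) • T ≠ 0 := hne _ (hnd _ (by omega) (by omega))
      have hPQ : (n + 2) • T + T = (n + 3) • T := (succ_nsmul T (n + 2)).symm
      have hPQ' : (n + 2) • T - T = (n + 1) • T := by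
        rw [succ_nsmul T (n + 1), add_sub_cancel_right]
      have hadd : (n + 2) • T + T ≠ 0 := by rw [hPQ]; exact hne _ (hnd _ (by omega) (by omega))
      have hsub : (n + 2) • T - T ≠ 0 := by rw [hPQ']; exact hne _ (hnd _ (by omega) (by omega))
      have hprod := hK.prod _ _ hP hT hadd hsub
      have hsum := hK.sum _ _ hP hT hadd hsub
      rw [hPQ, hPQ'] at hprod hsum
      have := zstep v hα hβ hxT0 (hx0 _ (hnd (n + 2) (by omega) (by omega)))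
        (hx0 _ (hnd (n + 3) (by omega) (by omega))) (hx0 _ (hnd (n + 1) (by omega) (by omega)))
        hprod hsum hzlt (c := ((n + 2 : ℕ) : K) ^ 2) (d := ((n + 1 : ℕ) : K) ^ 2)
        (by rw [map_pow]; exact pow_le_one₀ zero_le' (v_natCast_le v _)) h2' h1
      have e : (2 + 2 * ((n + 2 : ℕ) : K) ^ 2 - ((n + 1 : ℕ) : K) ^ 2) =
          ((n + 1 + 2 : ℕ) : K) ^ 2 := by
        push_cast; ring
      rw [e] at this
      exact this
  have hC : ∀ m, 1 ≤ m → m ≤ p - 1 →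
      v ((x (m • T))⁻¹ - ((m : ℕ) : K) ^ 2 * (x T)⁻¹) ≤ v (x T)⁻¹ ^ 2 := by
    intro m hm1 hm2
    rcases Nat.lt_or_ge m 2 with h | h
    · have : m = 0 + 1 := by omega
      rw [this]
      exact (key 0 (by omega)).1
    · have : m = (m - 2) + 2 := by omega
      rw [this]
      exact (key (m - 2) (by omega)).2
  -- the two relations
  have e1 : x ((p - 1) • T) = x T := by
    have : (p - 1) • T = -T := by
      apply eq_neg_of_add_eq_zero_left
      rw [← succ_nsmul, Nat.sub_add_cancel (by omega), hpT]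
    rw [this, hK.x_neg]
  have e2 : x ((p - 2) • T) = x (2 • T) := by
    have : (p - 2) • T = -(2 • T) := by
      apply eq_neg_of_add_eq_zero_left
      rw [← add_nsmul, Nat.sub_add_cancel (by omega), hpT]
    rw [this, hK.x_neg]
  have c1 := hC (p - 1) (by omega) le_rfl
  have c2 := hC (p - 2) (by omega) (by omega)
  have c3 := hC 2 (by omega) (by omega)
  rw [e1] at c1
  rw [e2] at c2
  have k1 : ((p - 1 : ℕ) : K) = (p : K) - 1 := by
    rw [Nat.cast_sub (by omega)]; simp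
  have k2 : ((p - 2 : ℕ) : K) = (p : K) - 2 := by
    rw [Nat.cast_sub (by omega)]; simp
  have d1 : v ((p : K) * (2 - p)) ≤ v (x T)⁻¹ := by
    have : (x T)⁻¹ - ((p - 1 : ℕ) : K) ^ 2 * (x T)⁻¹ = ((p : K) * (2 - p)) * (x T)⁻¹ := by
      rw [k1]; ring
    rw [this, map_mul, pow_two] at c1
    exact le_of_mul_le_mul_right c1 (zero_lt_iff.mpr hz0)
  have d2 : v ((p : K) * (4 - p)) ≤ v (x T)⁻¹ := by
    have h := v.map_sub_le c3 c2
    have : (x (2 • T))⁻¹ - ((2 : ℕ) : K) ^ 2 * (x T)⁻¹ -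
        ((x (2 • T))⁻¹ - ((p - 2 : ℕ) : K) ^ 2 * (x T)⁻¹) = ((p : K) * (p - 4)) * (x T)⁻¹ := by
      rw [k2]; push_cast; ring
    rw [this, map_mul, pow_two] at h
    have h' := le_of_mul_le_mul_right h (zero_lt_iff.mpr hz0)
    have : (p : K) * (4 - p) = -((p : K) * (p - 4)) := by ring
    rw [this, Valuation.map_neg]
    exact h'
  have d3 := v.map_sub_le d1 d2
  have : (p : K) * (2 - p) - (p : K) * (4 - p) = -(2 * p) := by ring
  rw [this, Valuation.map_neg, map_mul, h2, hvp, one_mul] at d3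
  exact absurd hzlt (not_lt.mpr d3)

/-- Abstract inertia-like pair `(σ, τ)`. -/
structure GalData {G : Type*} [AddCommGroup G] (x y : G → K) (σ : K →+* K) (τ : G →+ G) :
    Prop where
  x_tau : ∀ P, P ≠ 0 → x (τ P) = σ (x P)
  y_tau : ∀ P, P ≠ 0 → y (τ P) = σ (y P)
  tau_ne : ∀ P, P ≠ 0 → τ P ≠ 0
  v_sigma : ∀ a, v (σ a) = v a
  sigma_sub : ∀ a, v a ≤ 1 → v (σ a - a) < 1

/-- **K2**: a nonzero `p`-torsion point with unit `x`-coordinate is fixed by `τ`. -/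
theorem tau_fixed_of_unit {G : Type*} [AddCommGroup G] {x y : G → K} {α β : K}
    (hK : KData x y α β) {σ : K →+* K} {τ : G →+ G} (hG : GalData v x y σ τ)
    (hα : v α ≤ 1) (hβ : v β ≤ 1) (h2 : v (2 : K) = 1) (hdisc : v (α ^ 2 - 4 * β) = 1)
    {p : ℕ} (hp : p.Prime) (hp2 : p ≠ 2) (hvp : v (p : K) = 1) {S : G} (hS : S ≠ 0)
    (hpS : p • S = 0) (hx : v (x S) = 1) : τ S = S := by
  have hτS : τ S ≠ 0 := hG.tau_ne S hS
  have hpτS : p • τ S = 0 := by rw [← map_nsmul, hpS, map_zero]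
  have hnd1 : ¬ p ∣ 1 := fun h => hp.one_lt.ne' (Nat.dvd_one.mp h)
  have hSS : S + S ≠ 0 := by
    have := nsmul_add_self_ne_zero hp hp2 hS hpS hnd1; rwa [one_smul] at this
  have hαi := v_int_of_le v hα
  have hβi := v_int_of_le v hβ
  have hai := v_int_of_le v hx.le
  have h4 : v (4 : K) ≤ 1 := by
    have := v_natCast_le v 4
    simpa using this
  have ha' : v (σ (x S)) = 1 := by rw [hG.v_sigma, hx]
  have ha'i := v_int_of_le v ha'.le
  have he1 : v (σ (x S) - x S) < 1 := hG.sigma_sub _ hx.le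
  -- the common final contradiction
  have fin : v (α + 2 * x S) < 1 → v (x S ^ 2 - β) < 1 → False := by
    intro h1 h3
    have e : α ^ 2 - 4 * β = (α + 2 * x S) * (α - 2 * x S) + 4 * (x S ^ 2 - β) := by ring
    have hi : α - 2 * x S ∈ v.integer := by
      generalize x S = a at hai ⊢
      aesop
    have hlt : v (α ^ 2 - 4 * β) < 1 := by
      rw [e]
      exact v.map_add_lt (v_mul_lt' v h1 (v_le_of_int v hi)) (v_mul_lt v h4 h3)
    rw [hdisc] at hlt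
    exact lt_irrefl _ hlt
  by_contra hne
  by_cases hneg : τ S = -S
  · -- the sign is excluded using the `y`-coordinate
    have hy : σ (y S) = -y S := by rw [← hG.y_tau S hS, hneg, hK.y_neg]
    have hysq := hK.y_sq S hS
    have hfi : x S * (x S ^ 2 + α * x S + β) ∈ v.integer := by
      generalize x S = a at hai ⊢
      aesop
    have hyint : v (y S) ≤ 1 := by
      by_contra hc
      rw [not_le] at hc
      have h1 : 1 < v (y S ^ 2) := by rw [map_pow]; exact one_lt_pow₀ hc two_ne_zero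
      rw [hysq] at h1
      exact absurd h1 (not_lt.mpr (v_le_of_int v hfi))
    have hy1 : v (σ (y S) - y S) < 1 := hG.sigma_sub _ hyint
    have e0 : σ (y S) - y S = -(2 * y S) := by rw [hy]; ring
    rw [e0, Valuation.map_neg, map_mul, h2, one_mul] at hy1
    have hf : v (x S ^ 2 + α * x S + β) < 1 := by
      have h1 : v (y S ^ 2) < 1 := by rw [map_pow]; exact pow_lt_one₀ zero_le' hy1 two_ne_zero
      rw [hysq, map_mul, hx, one_mul] at h1
      exact h1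
    have hdbl := hK.dbl S hS hSS
    have hx2 : v (x (S + S)) ≤ 1 :=
      x_integral v hK hα hβ h2 hp hp2 hvp hSS (by rw [nsmul_add, hpS, add_zero])
    have h3 : v (x S ^ 2 - β) < 1 := by
      apply v_lt_of_sq_lt
      rw [← hdbl]
      exact v_mul_lt v hx2 (v_mul_lt v (v_mul_le v h4 hx.le) hf)
    have h1 : v (α + 2 * x S) < 1 := by
      have e : x S * (α + 2 * x S) = (x S ^ 2 + α * x S + β) + (x S ^ 2 - β) := by ring
      have h : v (x S * (α + 2 * x S)) < 1 := by rw [e]; exact v.map_add_lt hf h3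
      rwa [map_mul, hx, one_mul] at h
    exact fin h1 h3
  · -- `τ S ≠ ± S` is excluded by the x-only identities
    have hadd : τ S + S ≠ 0 := fun h => hneg (eq_neg_of_add_eq_zero_left h)
    have hsub : τ S - S ≠ 0 := fun h => hne (sub_eq_zero.mp h)
    have hprod := hK.prod _ _ hτS hS hadd hsub
    have hsum := hK.sum _ _ hτS hS hadd hsub
    rw [hG.x_tau S hS] at hprod hsum
    have hXp : v (x (τ S + S)) ≤ 1 :=
      x_integral v hK hα hβ h2 hp hp2 hvp hadd (by rw [nsmul_add, hpτS, hpS, add_zero])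
    have hXm : v (x (τ S - S)) ≤ 1 :=
      x_integral v hK hα hβ h2 hp hp2 hvp hsub (by rw [nsmul_sub, hpτS, hpS, sub_zero])
    have he1sq : v ((σ (x S) - x S) ^ 2) < 1 := by
      rw [map_pow]; exact pow_lt_one₀ zero_le' he1 two_ne_zero
    have he2 : v (σ (x S) * x S - β) < 1 := by
      apply v_lt_of_sq_lt
      rw [← hprod]
      exact v_mul_lt v (by rw [map_mul]; exact mul_le_one' hXp hXm) he1sq
    have he3 : v ((σ (x S) + x S) * (σ (x S) * x S + β) + 2 * α * (σ (x S) * x S)) < 1 := by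
      have h : v (2 * ((σ (x S) + x S) * (σ (x S) * x S + β) + 2 * α * (σ (x S) * x S))) < 1 := by
        rw [← hsum]
        exact v_mul_lt v (v.map_add_le hXp hXm) he1sq
      rwa [map_mul, h2, one_mul] at h
    have h3 : v (x S ^ 2 - β) < 1 := by
      have e : x S ^ 2 - β = (σ (x S) * x S - β) - x S * (σ (x S) - x S) := by ring
      rw [e]
      exact v.map_sub_lt he2 (v_mul_lt v hx.le he1)
    have h1 : v (α + 2 * x S) < 1 := by
      have e : 2 * x S ^ 2 * (α + 2 * x S) =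
          ((σ (x S) + x S) * (σ (x S) * x S + β) + 2 * α * (σ (x S) * x S))
            - (σ (x S) - x S) * (6 * x S ^ 2 + 2 * x S * (σ (x S) - x S) + 2 * α * x S)
            + (σ (x S) + x S) * (σ (x S) * x S - β) := by ring
      have hi1 : 6 * x S ^ 2 + 2 * x S * (σ (x S) - x S) + 2 * α * x S ∈ v.integer := by
        generalize σ (x S) = a' at ha'i ⊢
        generalize x S = a at hai ⊢
        aesop
      have hi2 : σ (x S) + x S ∈ v.integer := add_mem ha'i hai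
      have h : v (2 * x S ^ 2 * (α + 2 * x S)) < 1 := by
        rw [e]
        exact v.map_add_lt (v.map_sub_lt he3 (v_mul_lt' v he1 (v_le_of_int v hi1)))
          (v_mul_lt v (v_le_of_int v hi2) he2)
      rwa [map_mul, map_mul, map_pow, h2, hx, one_pow, one_mul, one_mul] at h
    exact fin h1 h3

/-- **K3**: in the good case (`β` a unit) every nonzero `p`-torsion point has unit `x`. -/
theorem x_unit_of_good {G : Type*} [AddCommGroup G] {x y : G → K} {α β : K}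
    (hK : KData x y α β) (hα : v α ≤ 1) (hβ1 : v β = 1) (h2 : v (2 : K) = 1)
    {p : ℕ} (hp : p.Prime) (hp2 : p ≠ 2) (hvp : v (p : K) = 1) {S : G} (hS : S ≠ 0)
    (hpS : p • S = 0) : v (x S) = 1 := by
  have h1 := x_integral v hK hα hβ1.le h2 hp hp2 hvp hS hpS
  by_contra hne
  have hlt : v (x S) < 1 := lt_of_le_of_ne h1 hne
  have hnd1 : ¬ p ∣ 1 := fun h => hp.one_lt.ne' (Nat.dvd_one.mp h)
  have hSS : S + S ≠ 0 := by
    have := nsmul_add_self_ne_zero hp hp2 hS hpS hnd1; rwa [one_smul] at this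
  have hdbl := hK.dbl S hS hSS
  have hx2 : v (x (S + S)) ≤ 1 :=
    x_integral v hK hα hβ1.le h2 hp hp2 hvp hSS (by rw [nsmul_add, hpS, add_zero])
  have hαi := v_int_of_le v hα
  have hβi := v_int_of_le v hβ1.le
  have hai := v_int_of_le v h1
  have hsq : v (x S ^ 2) < v β := by
    rw [hβ1, map_pow]; exact pow_lt_one₀ zero_le' hlt two_ne_zero
  have hR : v ((x S ^ 2 - β) ^ 2) = 1 := by
    rw [map_pow, Valuation.map_sub_eq_of_lt_right v hsq, hβ1, one_pow]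
  rw [← hdbl] at hR
  have hfi : 4 * (x S ^ 2 + α * x S + β) ∈ v.integer := by
    generalize x S = a at hai ⊢
    aesop
  have hL : v (x (S + S) * (4 * x S * (x S ^ 2 + α * x S + β))) < 1 := by
    have e : 4 * x S * (x S ^ 2 + α * x S + β) = x S * (4 * (x S ^ 2 + α * x S + β)) := by ring
    rw [e]
    exact v_mul_lt v hx2 (v_mul_lt' v hlt (v_le_of_int v hfi))
  rw [hR] at hL
  exact lt_irrefl _ hL

end PartI

/-! ### Part II: the multiplicative case, in additive (order) language -/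

section PartII

variable {K : Type*} [Field K] {Γ : Type*} [AddCommGroup Γ] [LinearOrder Γ] [IsOrderedAddMonoid Γ]

/-- Bundle of the standing hypotheses of the multiplicative case. -/
structure OrdHyp (w : K → Γ) (α β : K) : Prop where
  hw : OrdFn w
  α0 : α ≠ 0
  wα : w α = 0
  two0 : (2 : K) ≠ 0
  w2 : w (2 : K) = 0
  β0 : β ≠ 0
  wβ : 0 < w β

variable {w : K → Γ} {α β : K}

theorem add_dom (hw : OrdFn w) {D R : K} (hD : D ≠ 0) (hR : R ≠ 0 → w D < w R) :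
    D + R ≠ 0 ∧ w (D + R) = w D := by
  by_cases h0 : R = 0
  · rw [h0, add_zero]; exact ⟨hD, rfl⟩
  · exact hw.add_eq hD h0 (hR h0)

theorem OrdHyp.four0 (h : OrdHyp w α β) : (4 : K) ≠ 0 := by
  have : (4 : K) = 2 * 2 := by norm_num
  rw [this]; exact mul_ne_zero h.two0 h.two0

theorem OrdHyp.w4 (h : OrdHyp w α β) : w (4 : K) = 0 := by
  have : (4 : K) = 2 * 2 := by norm_num
  rw [this, h.hw.mul _ _ h.two0 h.two0, h.w2, add_zero]

/-- Duplication: a small point with small double has `w x < w β`. -/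
theorem dbl_lt (h : OrdHyp w α β) {xs x2 : K} (hxs : xs ≠ 0) (hx2 : x2 ≠ 0)
    (hf : xs ^ 2 + α * xs + β ≠ 0)
    (hdbl : x2 * (4 * xs * (xs ^ 2 + α * xs + β)) = (xs ^ 2 - β) ^ 2)
    (hs : 0 < w xs) (h2s : 0 < w x2) : w xs < w β := by
  have hw := h.hw
  by_contra hcon
  rw [not_lt] at hcon
  have h40 := h.four0
  have hw4 := h.w4
  have hsq0 : xs ^ 2 ≠ 0 := pow_ne_zero 2 hxs
  have hwsq : w (xs ^ 2) = w xs + w xs := hw.sq hxs
  have hαx0 : α * xs ≠ 0 := mul_ne_zero h.α0 hxs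
  have hwαx : w (α * xs) = w xs := by rw [hw.mul _ _ h.α0 hxs, h.wα, zero_add]
  have hnum := hw.sub_eq' hsq0 h.β0 (show w β < w (xs ^ 2) by rw [hwsq]; grind)
  have h1 := hw.add_eq' hsq0 hαx0 (show w (α * xs) < w (xs ^ 2) by rw [hwsq, hwαx]; grind)
  rw [hwαx] at h1
  have hfge : w β ≤ w (xs ^ 2 + α * xs + β) := by
    have := hw.add _ _ h1.1 h.β0 hf
    rw [h1.2] at this
    grind
  have hL : w (x2 * (4 * xs * (xs ^ 2 + α * xs + β))) =
      w x2 + (w (4 : K) + w xs + w (xs ^ 2 + α * xs + β)) := by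
    rw [hw.mul _ _ hx2 (mul_ne_zero (mul_ne_zero h40 hxs) hf),
      hw.mul _ _ (mul_ne_zero h40 hxs) hf, hw.mul _ _ h40 hxs]
  have hR : w ((xs ^ 2 - β) ^ 2) = w (xs ^ 2 - β) + w (xs ^ 2 - β) := hw.sq hnum.1
  rw [hdbl, hR, hnum.2, hw4] at hL
  grind

/-- Duplication: exact order of the double of a small point (in the all-small situation). -/
theorem dbl_eq (h : OrdHyp w α β) {xs x2 : K} (hxs : xs ≠ 0) (hx2 : x2 ≠ 0)
    (hdbl : x2 * (4 * xs * (xs ^ 2 + α * xs + β)) = (xs ^ 2 - β) ^ 2)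
    (hs : 0 < w xs) (hsN : w xs < w β) (h2N : w x2 < w β) :
    w x2 = 2 • min (2 • w xs) (w β) - 2 • w xs ∧ 2 • w xs ≠ w β := by
  have hw := h.hw
  have h40 := h.four0
  have hw4 := h.w4
  have hsq0 : xs ^ 2 ≠ 0 := pow_ne_zero 2 hxs
  have hwsq : w (xs ^ 2) = w xs + w xs := hw.sq hxs
  have hαx0 : α * xs ≠ 0 := mul_ne_zero h.α0 hxs
  have hwαx : w (α * xs) = w xs := by rw [hw.mul _ _ h.α0 hxs, h.wα, zero_add]
  have h1 := hw.add_eq' hsq0 hαx0 (show w (α * xs) < w (xs ^ 2) by rw [hwsq, hwαx]; grind)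
  rw [hwαx] at h1
  have hf := hw.add_eq h1.1 h.β0 (show w (xs ^ 2 + α * xs) < w β by rw [h1.2]; exact hsN)
  rw [h1.2] at hf
  have hL0 : x2 * (4 * xs * (xs ^ 2 + α * xs + β)) ≠ 0 :=
    mul_ne_zero hx2 (mul_ne_zero (mul_ne_zero h40 hxs) hf.1)
  have hnum0 : xs ^ 2 - β ≠ 0 := by
    intro h0
    rw [hdbl, h0] at hL0
    exact hL0 (by ring)
  have hL : w (x2 * (4 * xs * (xs ^ 2 + α * xs + β))) =
      w x2 + (w (4 : K) + w xs + w (xs ^ 2 + α * xs + β)) := by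
    rw [hw.mul _ _ hx2 (mul_ne_zero (mul_ne_zero h40 hxs) hf.1),
      hw.mul _ _ (mul_ne_zero h40 hxs) hf.1, hw.mul _ _ h40 hxs]
  have hR : w ((xs ^ 2 - β) ^ 2) = w (xs ^ 2 - β) + w (xs ^ 2 - β) := hw.sq hnum0
  rw [hdbl, hR, hf.2, hw4] at hL
  rcases lt_trichotomy (w xs + w xs) (w β) with hc | hc | hc
  · have := (hw.sub_eq hsq0 h.β0 (by rw [hwsq]; exact hc)).2
    rw [hwsq] at this
    grind
  · have := hw.sub_ge hsq0 h.β0 hnum0
    rw [hwsq] at this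
    grind
  · have := (hw.sub_eq' hsq0 h.β0 (by rw [hwsq]; exact hc)).2
    grind

/-- Two small points with small sum and difference have different orders. -/
theorem inj_aux (h : OrdHyp w α β) {xP xQ xp xm : K} (hxP : xP ≠ 0) (hxQ : xQ ≠ 0)
    (hxp : xp ≠ 0) (hxm : xm ≠ 0) (hne : xP ≠ xQ)
    (hsum : (xp + xm) * (xP - xQ) ^ 2 = 2 * ((xP + xQ) * (xP * xQ + β) + 2 * α * (xP * xQ)))
    (heq : w xP = w xQ) (hs : 0 < w xP) (hsN : w xP < w β) (hp : 0 < w xp) (hm : 0 < w xm) :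
    False := by
  have hw := h.hw
  have hd0 : xP - xQ ≠ 0 := sub_ne_zero.mpr hne
  have hdge := hw.sub_ge hxP hxQ hd0
  have hPQ0 : xP * xQ ≠ 0 := mul_ne_zero hxP hxQ
  have hwPQ : w (xP * xQ) = w xP + w xQ := hw.mul _ _ hxP hxQ
  have hD0 : 2 * α * (xP * xQ) ≠ 0 := mul_ne_zero (mul_ne_zero h.two0 h.α0) hPQ0
  have hwD : w (2 * α * (xP * xQ)) = w xP + w xQ := by
    rw [hw.mul _ _ (mul_ne_zero h.two0 h.α0) hPQ0, hw.mul _ _ h.two0 h.α0, h.w2, h.wα, hwPQ]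
    grind
  have hR : (xP + xQ) * (xP * xQ + β) ≠ 0 →
      w (2 * α * (xP * xQ)) < w ((xP + xQ) * (xP * xQ + β)) := by
    intro hR0
    have hu0 : xP + xQ ≠ 0 := fun h0 => hR0 (by rw [h0, zero_mul])
    have ht0 : xP * xQ + β ≠ 0 := fun h0 => hR0 (by rw [h0, mul_zero])
    have hu := hw.add _ _ hxP hxQ hu0
    have ht := hw.add _ _ hPQ0 h.β0 ht0
    rw [hw.mul _ _ hu0 ht0, hwD]
    rw [hwPQ] at ht
    grind
  have hin := add_dom hw hD0 hR
  have hRHS0 : 2 * ((xP + xQ) * (xP * xQ + β) + 2 * α * (xP * xQ)) ≠ 0 := by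
    rw [add_comm]; exact mul_ne_zero h.two0 hin.1
  have hwRHS : w (2 * ((xP + xQ) * (xP * xQ + β) + 2 * α * (xP * xQ))) = w xP + w xQ := by
    rw [add_comm, hw.mul _ _ h.two0 hin.1, h.w2, hin.2, hwD]
    grind
  have hpm0 : xp + xm ≠ 0 := by
    intro h0; rw [h0, zero_mul] at hsum; exact hRHS0 hsum.symm
  have hwsum : w (xp + xm) + (w (xP - xQ) + w (xP - xQ)) = w xP + w xQ := by
    rw [← hwRHS, ← hsum, hw.mul _ _ hpm0 (pow_ne_zero 2 hd0), hw.sq hd0]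
  have hmin := hw.add _ _ hxp hxm hpm0
  grind

/-- The structure of `x(S ± T)` for small points `S`, `T` with `w x_T < w x_S`. -/
theorem e_aux (h : OrdHyp w α β) {xS xT xp xm : K} (hxS : xS ≠ 0) (hxT : xT ≠ 0)
    (hxp : xp ≠ 0) (hxm : xm ≠ 0)
    (hprod : xp * xm * (xS - xT) ^ 2 = (xS * xT - β) ^ 2)
    (hsum : (xp + xm) * (xS - xT) ^ 2 = 2 * ((xS + xT) * (xS * xT + β) + 2 * α * (xS * xT)))
    (hθ : 0 < w xT) (hlt : w xT < w xS) (hsN : w xS < w β) (hpN : w xp < w β)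
    (hmN : w xm < w β) :
    w xp + w xm = 2 • min (w xS + w xT) (w β) - 2 • w xT ∧
      min (w xp) (w xm) = w xS - w xT ∧ w xS + w xT ≠ w β := by
  have hw := h.hw
  have hd := hw.sub_eq' hxS hxT hlt
  have ha := hw.add_eq' hxS hxT hlt
  have hST0 : xS * xT ≠ 0 := mul_ne_zero hxS hxT
  have hwST : w (xS * xT) = w xS + w xT := hw.mul _ _ hxS hxT
  have hD0 : 2 * α * (xS * xT) ≠ 0 := mul_ne_zero (mul_ne_zero h.two0 h.α0) hST0
  have hwD : w (2 * α * (xS * xT)) = w xS + w xT := by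
    rw [hw.mul _ _ (mul_ne_zero h.two0 h.α0) hST0, hw.mul _ _ h.two0 h.α0, h.w2, h.wα, hwST]
    grind
  have hR : (xS + xT) * (xS * xT + β) ≠ 0 →
      w (2 * α * (xS * xT)) < w ((xS + xT) * (xS * xT + β)) := by
    intro hR0
    have ht0 : xS * xT + β ≠ 0 := fun h0 => hR0 (by rw [h0, mul_zero])
    have hge := hw.add _ _ hST0 h.β0 ht0
    rw [hw.mul _ _ ha.1 ht0, ha.2, hwD]
    rw [hwST] at hge
    grind
  have hin := add_dom hw hD0 hR
  have hRHS0 : 2 * ((xS + xT) * (xS * xT + β) + 2 * α * (xS * xT)) ≠ 0 := by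
    rw [add_comm]; exact mul_ne_zero h.two0 hin.1
  have hwRHS : w (2 * ((xS + xT) * (xS * xT + β) + 2 * α * (xS * xT))) = w xS + w xT := by
    rw [add_comm, hw.mul _ _ h.two0 hin.1, h.w2, hin.2, hwD]
    grind
  have hpm0 : xp + xm ≠ 0 := by
    intro h0; rw [h0, zero_mul] at hsum; exact hRHS0 hsum.symm
  have hwsum : w (xp + xm) + (w xT + w xT) = w xS + w xT := by
    rw [← hwRHS, ← hsum, hw.mul _ _ hpm0 (pow_ne_zero 2 hd.1), hw.sq hd.1, hd.2]
  have hmin := hw.add _ _ hxp hxm hpm0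
  have hne1 : w xp < w xm → w (xp + xm) = w xp := fun hh => (hw.add_eq hxp hxm hh).2
  have hne2 : w xm < w xp → w (xp + xm) = w xm := fun hh => (hw.add_eq' hxp hxm hh).2
  have hnum0 : xS * xT - β ≠ 0 := by
    intro h0
    rw [h0] at hprod
    have : xp * xm * (xS - xT) ^ 2 ≠ 0 :=
      mul_ne_zero (mul_ne_zero hxp hxm) (pow_ne_zero 2 hd.1)
    exact this (by rw [hprod]; ring)
  have hwprod : w xp + w xm + (w xT + w xT) = w (xS * xT - β) + w (xS * xT - β) := by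
    rw [← hw.sq hnum0, ← hprod, hw.mul _ _ (mul_ne_zero hxp hxm) (pow_ne_zero 2 hd.1),
      hw.mul _ _ hxp hxm, hw.sq hd.1, hd.2]
  rcases lt_trichotomy (w xS + w xT) (w β) with hc | hc | hc
  · have := (hw.sub_eq hST0 h.β0 (by rw [hwST]; exact hc)).2
    rw [hwST] at this
    grind
  · have := hw.sub_ge hST0 h.β0 hnum0
    rw [hwST] at this
    grind
  · have := (hw.sub_eq' hST0 h.β0 (by rw [hwST]; exact hc)).2
    grind

/-- **K5**: a small `p`-torsion point whose `x`-coordinate has the order of a `σ`-fixed element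
is fixed by `τ`. -/
theorem tau_fixed_of_ord_eq (h : OrdHyp w α β) {G : Type*} [AddCommGroup G] {x y : G → K}
    (hK : KData x y α β) {σ : K →+* K} {τ : G →+ G}
    (hxτ : ∀ P, P ≠ 0 → x (τ P) = σ (x P)) (hyτ : ∀ P, P ≠ 0 → y (τ P) = σ (y P))
    (hτ0 : ∀ P, P ≠ 0 → τ P ≠ 0)
    (hσw : ∀ a, a ≠ 0 → w (σ a) = w a)
    (hσin : ∀ a, a ≠ 0 → 0 ≤ w a → σ a - a ≠ 0 → 0 < w (σ a - a))
    {p : ℕ} (hp : p.Prime) (hp2 : p ≠ 2)
    (hint : ∀ S : G, S ≠ 0 → p • S = 0 → 0 ≤ w (x S))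
    {S : G} (hS : S ≠ 0) (hpS : p • S = 0) {ω : K} (hω0 : ω ≠ 0) (hσω : σ ω = ω)
    (hxω : w (x S) = w ω) (hpos : 0 < w (x S)) (hltN : w (x S) < w β) : τ S = S := by
  have hw := h.hw
  have hSS : S + S ≠ 0 := add_self_ne_zero_of_prime hp hp2 hS hpS
  have hx0 : x S ≠ 0 := hK.x_ne_zero hS hSS
  have key : ∀ b : K, b ≠ 0 → w b = w ω → σ b - b ≠ 0 → w ω < w (σ b - b) := by
    intro b hb hbω hne
    have hu0 : b / ω ≠ 0 := div_ne_zero hb hω0
    have hwu : w (b / ω) = 0 := by rw [hw.div hb hω0, hbω, sub_self]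
    have e : σ b - b = ω * (σ (b / ω) - b / ω) := by
      rw [map_div₀, hσω]; field_simp
    have hne' : σ (b / ω) - b / ω ≠ 0 := by
      intro h0; rw [h0, mul_zero] at e; exact hne e
    have hpos' := hσin _ hu0 hwu.ge hne'
    rw [e, hw.mul _ _ hω0 hne']
    grind
  have hτS : τ S ≠ 0 := hτ0 S hS
  have hpτS : p • τ S = 0 := by rw [← map_nsmul, hpS, map_zero]
  by_contra hne
  by_cases hneg : τ S = -S
  · have hy : σ (y S) = -y S := by rw [← hyτ S hS, hneg, hK.y_neg]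
    have hy0 : y S ≠ 0 := hK.y_ne_zero S hS hSS
    have hysq := hK.y_sq S hS
    have hsq0 : x S ^ 2 ≠ 0 := pow_ne_zero 2 hx0
    have hwsq : w (x S ^ 2) = w (x S) + w (x S) := hw.sq hx0
    have hαx0 : α * x S ≠ 0 := mul_ne_zero h.α0 hx0
    have hwαx : w (α * x S) = w (x S) := by rw [hw.mul _ _ h.α0 hx0, h.wα, zero_add]
    have h1 := hw.add_eq' hsq0 hαx0
      (show w (α * x S) < w (x S ^ 2) by rw [hwsq, hwαx]; grind)
    rw [hwαx] at h1
    have hf := hw.add_eq h1.1 h.β0 (show w (x S ^ 2 + α * x S) < w β by rw [h1.2]; exact hltN)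
    rw [h1.2] at hf
    have hwy : w (y S) + w (y S) = w (x S) + w (x S) := by
      rw [← hw.sq hy0, hysq, hw.mul _ _ hx0 hf.1, hf.2]
    have hwy' : w (y S) = w ω := by grind
    have e : σ (y S) - y S = -(2 * y S) := by rw [hy]; ring
    have hne' : σ (y S) - y S ≠ 0 := by
      rw [e]; exact neg_ne_zero.mpr (mul_ne_zero h.two0 hy0)
    have := key (y S) hy0 hwy' hne'
    rw [e, hw.neg (mul_ne_zero h.two0 hy0), hw.mul _ _ h.two0 hy0, h.w2] at this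
    grind
  · have hadd : τ S + S ≠ 0 := fun h => hneg (eq_neg_of_add_eq_zero_left h)
    have hsub : τ S - S ≠ 0 := fun h => hne (sub_eq_zero.mp h)
    have hsum := hK.sum _ _ hτS hS hadd hsub
    have hxne := hK.x_ne hτS hS hadd hsub
    rw [hxτ S hS] at hsum hxne
    have ha'0 : σ (x S) ≠ 0 := (map_ne_zero σ).mpr hx0
    have hwa' : w (σ (x S)) = w (x S) := hσw _ hx0
    have hd0 : σ (x S) - x S ≠ 0 := sub_ne_zero.mpr hxne
    have hd := key (x S) hx0 hxω hd0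
    have h2a0 : 2 * x S ≠ 0 := mul_ne_zero h.two0 hx0
    have hw2a : w (2 * x S) = w (x S) := by rw [hw.mul _ _ h.two0 hx0, h.w2, zero_add]
    have hs := hw.add_eq' hd0 h2a0
      (show w (2 * x S) < w (σ (x S) - x S) by rw [hw2a, hxω]; exact hd)
    have es : σ (x S) - x S + 2 * x S = σ (x S) + x S := by ring
    rw [es, hw2a] at hs
    have hPQ0 : σ (x S) * x S ≠ 0 := mul_ne_zero ha'0 hx0
    have hwPQ : w (σ (x S) * x S) = w (x S) + w (x S) := by rw [hw.mul _ _ ha'0 hx0, hwa']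
    have hD0 : 2 * α * (σ (x S) * x S) ≠ 0 := mul_ne_zero (mul_ne_zero h.two0 h.α0) hPQ0
    have hwD : w (2 * α * (σ (x S) * x S)) = w (x S) + w (x S) := by
      rw [hw.mul _ _ (mul_ne_zero h.two0 h.α0) hPQ0, hw.mul _ _ h.two0 h.α0, h.w2, h.wα, hwPQ]
      grind
    have hR : (σ (x S) + x S) * (σ (x S) * x S + β) ≠ 0 →
        w (2 * α * (σ (x S) * x S)) < w ((σ (x S) + x S) * (σ (x S) * x S + β)) := by
      intro hR0
      have ht0 : σ (x S) * x S + β ≠ 0 := fun h0 => hR0 (by rw [h0, mul_zero])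
      have ht := hw.add _ _ hPQ0 h.β0 ht0
      rw [hw.mul _ _ hs.1 ht0, hs.2, hwD]
      rw [hwPQ] at ht
      grind
    have hin := add_dom hw hD0 hR
    have hRHS0 : 2 * ((σ (x S) + x S) * (σ (x S) * x S + β) + 2 * α * (σ (x S) * x S)) ≠ 0 := by
      rw [add_comm]; exact mul_ne_zero h.two0 hin.1
    have hwRHS : w (2 * ((σ (x S) + x S) * (σ (x S) * x S + β) + 2 * α * (σ (x S) * x S))) =
        w (x S) + w (x S) := by
      rw [add_comm, hw.mul _ _ h.two0 hin.1, h.w2, hin.2, hwD]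
      grind
    have hpadd : p • (τ S + S) = 0 := by rw [nsmul_add, hpτS, hpS, add_zero]
    have hpsub : p • (τ S - S) = 0 := by rw [nsmul_sub, hpτS, hpS, sub_zero]
    have hXp0 : x (τ S + S) ≠ 0 :=
      hK.x_ne_zero hadd (add_self_ne_zero_of_prime hp hp2 hadd hpadd)
    have hXm0 : x (τ S - S) ≠ 0 :=
      hK.x_ne_zero hsub (add_self_ne_zero_of_prime hp hp2 hsub hpsub)
    have hpm0 : x (τ S + S) + x (τ S - S) ≠ 0 := by
      intro h0; rw [h0, zero_mul] at hsum; exact hRHS0 hsum.symm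
    have hwsum : w (x (τ S + S) + x (τ S - S)) +
        (w (σ (x S) - x S) + w (σ (x S) - x S)) = w (x S) + w (x S) := by
      rw [← hwRHS, ← hsum, hw.mul _ _ hpm0 (pow_ne_zero 2 hd0), hw.sq hd0]
    have hmin := hw.add _ _ hXp0 hXm0 hpm0
    have hip := hint _ hadd hpadd
    have him := hint _ hsub hpsub
    grind

/-- The multiplicative case: if all nonzero multiples of `T` are small, some generator of `⟨T⟩`
is fixed by `τ`. -/
theorem mult_case (h : OrdHyp w α β) {G : Type*} [AddCommGroup G] {x y : G → K}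
    (hK : KData x y α β) {σ : K →+* K} {τ : G →+ G}
    (hxτ : ∀ P, P ≠ 0 → x (τ P) = σ (x P)) (hyτ : ∀ P, P ≠ 0 → y (τ P) = σ (y P))
    (hτ0 : ∀ P, P ≠ 0 → τ P ≠ 0)
    (hσw : ∀ a, a ≠ 0 → w (σ a) = w a)
    (hσin : ∀ a, a ≠ 0 → 0 ≤ w a → σ a - a ≠ 0 → 0 < w (σ a - a))
    {p : ℕ} (hp : p.Prime) (hp2 : p ≠ 2)
    {w₀ : K} (hw₀ : w₀ ≠ 0) (hσw₀ : σ w₀ = w₀) (hβw : w β = p • w w₀)
    (hint : ∀ S : G, S ≠ 0 → p • S = 0 → 0 ≤ w (x S))
    {T : G} (hT : T ≠ 0) (hpT : p • T = 0)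
    (hsmall : ∀ m, ¬ p ∣ m → 0 < w (x (m • T))) :
    ∃ m₀, ¬ p ∣ m₀ ∧ τ (m₀ • T) = m₀ • T := by
  have hw := h.hw
  have hp3 : 3 ≤ p := by have := hp.two_le; omega
  have hne : ∀ m, ¬ p ∣ m → m • T ≠ 0 := fun m hm => nsmul_ne_zero_of_not_dvd hp hT hpT hm
  have hne2 : ∀ m, ¬ p ∣ m → m • T + m • T ≠ 0 := fun m hm =>
    nsmul_add_self_ne_zero hp hp2 hT hpT hm
  have hx0 : ∀ m, ¬ p ∣ m → x (m • T) ≠ 0 := fun m hm => hK.x_ne_zero (hne m hm) (hne2 m hm)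
  have hnd2 : ∀ m, ¬ p ∣ m → ¬ p ∣ m + m := by
    intro m hm hh
    rw [← two_mul] at hh
    rcases (Nat.Prime.dvd_mul hp).mp hh with h1 | h1
    · exact hp2 ((Nat.prime_dvd_prime_iff_eq hp Nat.prime_two).mp h1)
    · exact hm h1
  -- Step 1: all nonzero multiples have `w x < w β`
  have hltN : ∀ m, ¬ p ∣ m → w (x (m • T)) < w β := by
    intro m hm
    have hdbl := hK.dbl _ (hne m hm) (hne2 m hm)
    have e : m • T + m • T = (m + m) • T := (add_nsmul T m m).symm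
    rw [e] at hdbl
    exact dbl_lt h (hx0 m hm) (hx0 _ (hnd2 m hm)) (hK.f_ne_zero (hne m hm) (hne2 m hm)) hdbl
      (hsmall m hm) (hsmall _ (hnd2 m hm))
  -- Step 2: a multiple of minimal order
  have hne' : (Finset.Icc 1 (p - 1)).Nonempty := ⟨1, by rw [Finset.mem_Icc]; omega⟩
  obtain ⟨m₀, hm₀mem, hmin⟩ :=
    Finset.exists_min_image (Finset.Icc 1 (p - 1)) (fun m => w (x (m • T))) hne'
  rw [Finset.mem_Icc] at hm₀mem
  have hm₀ : ¬ p ∣ m₀ := fun hd => by have := Nat.le_of_dvd (by omega) hd; omega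
  refine ⟨m₀, hm₀, ?_⟩
  have hmod : ∀ m, m • T = (m % p) • T := by
    intro m
    conv_lhs => rw [← Nat.mod_add_div m p]
    rw [add_nsmul, mul_nsmul, hpT, smul_zero, add_zero]
  have hminall : ∀ m, ¬ p ∣ m → w (x (m₀ • T)) ≤ w (x (m • T)) := by
    intro m hm
    rw [hmod m]
    apply hmin
    rw [Finset.mem_Icc]
    have h1 : m % p < p := Nat.mod_lt _ hp.pos
    have h2 : m % p ≠ 0 := fun h0 => hm (Nat.dvd_of_mod_eq_zero h0)
    omega
  have hkT' : ∀ k, k • (m₀ • T) = (k * m₀) • T := fun k => (mul_nsmul' T k m₀).symm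
  have hdvd : ∀ k, ¬ p ∣ k → ¬ p ∣ k * m₀ := by
    intro k hk hh
    rcases (Nat.Prime.dvd_mul hp).mp hh with h1 | h1
    · exact hk h1
    · exact hm₀ h1
  have hT'0 : m₀ • T ≠ 0 := hne m₀ hm₀
  have hpT' : p • (m₀ • T) = 0 := by
    rw [← mul_nsmul', mul_comm, mul_nsmul', hpT, smul_zero]
  have Lne : ∀ k, ¬ p ∣ k → k • (m₀ • T) ≠ 0 := fun k hk => by
    rw [hkT']; exact hne _ (hdvd k hk)
  have Lx0 : ∀ k, ¬ p ∣ k → x (k • (m₀ • T)) ≠ 0 := fun k hk => by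
    rw [hkT']; exact hx0 _ (hdvd k hk)
  have Lpos : ∀ k, ¬ p ∣ k → 0 < w (x (k • (m₀ • T))) := fun k hk => by
    rw [hkT']; exact hsmall _ (hdvd k hk)
  have LltN : ∀ k, ¬ p ∣ k → w (x (k • (m₀ • T))) < w β := fun k hk => by
    rw [hkT']; exact hltN _ (hdvd k hk)
  have Lmin : ∀ k, ¬ p ∣ k → w (x (m₀ • T)) ≤ w (x (k • (m₀ • T))) := fun k hk => by
    rw [hkT']; exact hminall _ (hdvd k hk)
  have hnd : ∀ m, 1 ≤ m → m ≤ p - 1 → ¬ p ∣ m := fun m h1 h2 hh => by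
    have := Nat.le_of_dvd (by omega) hh; omega
  have hxT'0 : x (m₀ • T) ≠ 0 := hx0 m₀ hm₀
  have hθpos : 0 < w (x (m₀ • T)) := hsmall m₀ hm₀
  have hθN : w (x (m₀ • T)) < w β := hltN m₀ hm₀
  have hTT' : m₀ • T + m₀ • T ≠ 0 := hne2 m₀ hm₀
  -- the hypotheses of the triangle lemma
  have t1 : w (x (1 • (m₀ • T))) = w (x (m₀ • T)) := by rw [one_smul]
  have tb : ∀ m, 1 ≤ m → m ≤ p - 1 →
      w (x (m₀ • T)) ≤ w (x (m • (m₀ • T))) ∧ w (x (m • (m₀ • T))) < w β :=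
    fun m hm1 hm2 => ⟨Lmin m (hnd m hm1 hm2), LltN m (hnd m hm1 hm2)⟩
  have tc : w (x (2 • (m₀ • T))) = 2 • min (2 • w (x (m₀ • T))) (w β) - 2 • w (x (m₀ • T)) ∧
      2 • w (x (m₀ • T)) ≠ w β := by
    have hdbl := hK.dbl _ hT'0 hTT'
    have e : m₀ • T + m₀ • T = 2 • (m₀ • T) := (two_nsmul (m₀ • T)).symm
    rw [e] at hdbl
    exact dbl_eq h hxT'0 (Lx0 2 (hnd 2 (by omega) (by omega))) hdbl hθpos hθN
      (LltN 2 (hnd 2 (by omega) (by omega)))
  have setup : ∀ k, 1 ≤ k → k + 2 ≤ p - 1 →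
      (k + 1) • (m₀ • T) ≠ 0 ∧ (k + 1) • (m₀ • T) + m₀ • T ≠ 0 ∧
      (k + 1) • (m₀ • T) - m₀ • T ≠ 0 ∧
      (k + 1) • (m₀ • T) + m₀ • T = (k + 2) • (m₀ • T) ∧
      (k + 1) • (m₀ • T) - m₀ • T = k • (m₀ • T) := by
    intro k hk1 hk2
    have hPQ : (k + 1) • (m₀ • T) + m₀ • T = (k + 2) • (m₀ • T) :=
      (succ_nsmul (m₀ • T) (k + 1)).symm
    have hPQ' : (k + 1) • (m₀ • T) - m₀ • T = k • (m₀ • T) := by
      rw [succ_nsmul (m₀ • T) k, add_sub_cancel_right]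
    refine ⟨Lne _ (hnd _ (by omega) (by omega)), ?_, ?_, hPQ, hPQ'⟩
    · rw [hPQ]; exact Lne _ (hnd _ (by omega) (by omega))
    · rw [hPQ']; exact Lne _ (hnd _ (by omega) (by omega))
  have td : ∀ k, 1 ≤ k → k + 2 ≤ p - 1 → w (x (m₀ • T)) < w (x ((k + 1) • (m₀ • T))) →
      w (x ((k + 2) • (m₀ • T))) + w (x (k • (m₀ • T))) =
        2 • min (w (x ((k + 1) • (m₀ • T))) + w (x (m₀ • T))) (w β) - 2 • w (x (m₀ • T)) ∧
      min (w (x ((k + 2) • (m₀ • T)))) (w (x (k • (m₀ • T)))) =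
        w (x ((k + 1) • (m₀ • T))) - w (x (m₀ • T)) ∧
      w (x ((k + 1) • (m₀ • T))) + w (x (m₀ • T)) ≠ w β := by
    intro k hk1 hk2 hlt
    obtain ⟨hP, hadd, hsub, hPQ, hPQ'⟩ := setup k hk1 hk2
    have hprod := hK.prod _ _ hP hT'0 hadd hsub
    have hsum := hK.sum _ _ hP hT'0 hadd hsub
    rw [hPQ, hPQ'] at hprod hsum
    exact e_aux h (Lx0 _ (hnd (k + 1) (by omega) (by omega))) hxT'0
      (Lx0 _ (hnd (k + 2) (by omega) (by omega))) (Lx0 _ (hnd k (by omega) (by omega)))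
      hprod hsum hθpos hlt (LltN _ (hnd (k + 1) (by omega) (by omega)))
      (LltN _ (hnd (k + 2) (by omega) (by omega))) (LltN _ (hnd k (by omega) (by omega)))
  have te : ∀ m, 2 ≤ m → m + 1 ≤ p - 1 → w (x (m • (m₀ • T))) ≠ w (x (m₀ • T)) := by
    intro m hm2 hm3 heq
    obtain ⟨k, rfl⟩ : ∃ k, m = k + 1 := ⟨m - 1, by omega⟩
    obtain ⟨hP, hadd, hsub, hPQ, hPQ'⟩ := setup k (by omega) (by omega)
    have hsum := hK.sum _ _ hP hT'0 hadd hsub
    have hxne := hK.x_ne hP hT'0 hadd hsub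
    rw [hPQ, hPQ'] at hsum
    exact inj_aux h (Lx0 _ (hnd (k + 1) (by omega) (by omega))) hxT'0
      (Lx0 _ (hnd (k + 2) (by omega) (by omega))) (Lx0 _ (hnd k (by omega) (by omega)))
      hxne hsum heq (Lpos _ (hnd (k + 1) (by omega) (by omega)))
      (LltN _ (hnd (k + 1) (by omega) (by omega)))
      (Lpos _ (hnd (k + 2) (by omega) (by omega))) (Lpos _ (hnd k (by omega) (by omega)))
  have tf : w (x ((p - 1) • (m₀ • T))) = w (x (m₀ • T)) := by
    have : (p - 1) • (m₀ • T) = -(m₀ • T) := by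
      apply eq_neg_of_add_eq_zero_left
      rw [← succ_nsmul, Nat.sub_add_cancel (by omega), hpT']
    rw [this, hK.x_neg]
  have main : p • w (x (m₀ • T)) = 2 • w β :=
    tri_main (w (x (m₀ • T))) (w β) p hp3 (fun k => w (x (k • (m₀ • T)))) hθpos hθN
      t1 tb tc td te tf
  have hθ : w (x (m₀ • T)) = w (w₀ ^ 2) := by
    rw [hw.pow hw₀ 2]
    apply nsmul_cancel hp.ne_zero
    rw [main, hβw, ← mul_nsmul', ← mul_nsmul', mul_comm]
  exact tau_fixed_of_ord_eq h hK hxτ hyτ hτ0 hσw hσin hp hp2 hint hT'0 hpT'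
    (pow_ne_zero 2 hw₀) (by rw [map_pow, hσw₀]) hθ hθpos hθN

end PartII

/-! ### Assembly -/

section Main

variable {K : Type*} [Field K] {Γ₀ : Type*} [LinearOrderedCommGroupWithZero Γ₀]

/-- **Main abstract theorem**: `τ` fixes all points killed by the odd prime `p`. -/
theorem kummer_main (v : Valuation K Γ₀) {G : Type*} [AddCommGroup G] {x y : G → K} {α β : K}
    (hK : KData x y α β) {σ : K →+* K} {τ : G →+ G} (hG : GalData v x y σ τ)
    (hα : v α ≤ 1) (hβ : v β ≤ 1) (hβ0 : β ≠ 0) (h2 : v (2 : K) = 1)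
    (hdisc : v (α ^ 2 - 4 * β) = 1) {p : ℕ} (hp : p.Prime) (hp2 : p ≠ 2) (hvp : v (p : K) = 1)
    (hcase : v β = 1 ∨ ∃ w₀ : K, σ w₀ = w₀ ∧ v β = v w₀ ^ p) (T : G) (hpT : p • T = 0) :
    τ T = T := by
  by_cases hT : T = 0
  · rw [hT, map_zero]
  by_cases hβ1 : v β = 1
  · exact tau_fixed_of_unit v hK hG hα hβ h2 hdisc hp hp2 hvp hT hpT
      (x_unit_of_good v hK hα hβ1 h2 hp hp2 hvp hT hpT)
  obtain ⟨w₀, hσw₀, hβw⟩ := hcase.resolve_left hβ1
  have hβlt : v β < 1 := lt_of_le_of_ne hβ hβ1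
  have h4 : v (4 : K) ≤ 1 := by
    have := v_natCast_le v 4
    simpa using this
  have hα1 : v α = 1 := by
    have e : α ^ 2 = (α ^ 2 - 4 * β) + 4 * β := by ring
    have h4β : v (4 * β) < v (α ^ 2 - 4 * β) := by rw [hdisc]; exact v_mul_lt v h4 hβlt
    have h1 : v (α ^ 2) = 1 := by rw [e, v.map_add_eq_of_lt_left h4β, hdisc]
    rw [map_pow] at h1
    rcases lt_trichotomy (v α) 1 with hlt | heq | hgt
    · exact absurd h1 (ne_of_lt (pow_lt_one₀ zero_le' hlt two_ne_zero))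
    · exact heq
    · exact absurd h1.symm (ne_of_lt (one_lt_pow₀ hgt two_ne_zero))
  have hpm : ∀ m : ℕ, p • (m • T) = 0 := fun m => by
    rw [← mul_nsmul', mul_comm, mul_nsmul', hpT, smul_zero]
  by_cases hex : ∃ m, ¬ p ∣ m ∧ v (x (m • T)) = 1
  · obtain ⟨m, hm, hxm⟩ := hex
    have hS := nsmul_ne_zero_of_not_dvd hp hT hpT hm
    have hfix := tau_fixed_of_unit v hK hG hα hβ h2 hdisc hp hp2 hvp hS (hpm m) hxm
    obtain ⟨a, ha⟩ := exists_zsmul_eq hp hpT hm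
    rw [← ha, map_zsmul, hfix]
  · have hw₀0 : w₀ ≠ 0 := by
      rintro rfl
      rw [map_zero, zero_pow hp.ne_zero] at hβw
      exact hβ0 ((map_eq_zero v).mp hβw)
    have h20 : (2 : K) ≠ 0 := by
      intro h0; rw [h0, map_zero] at h2; exact zero_ne_one h2
    have hα0 : α ≠ 0 := by
      intro h0; rw [h0, map_zero] at hα1; exact zero_ne_one hα1
    have hx0 : ∀ S : G, S ≠ 0 → p • S = 0 → x S ≠ 0 := fun S hS hpS =>
      hK.x_ne_zero hS (add_self_ne_zero_of_prime hp hp2 hS hpS)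
    have hsmall_v : ∀ m, ¬ p ∣ m → v (x (m • T)) < 1 := fun m hm =>
      lt_of_le_of_ne
        (x_integral v hK hα hβ h2 hp hp2 hvp (nsmul_ne_zero_of_not_dvd hp hT hpT hm) (hpm m))
        (fun h1 => hex ⟨m, hm, h1⟩)
    have h : OrdHyp (ordv v) α β :=
      { hw := ordv_ordFn v
        α0 := hα0
        wα := (ordv_eq_zero v hα0).mpr hα1
        two0 := h20
        w2 := (ordv_eq_zero v h20).mpr h2
        β0 := hβ0
        wβ := (ordv_pos v hβ0).mpr hβlt }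
    have hσw : ∀ a, a ≠ 0 → ordv v (σ a) = ordv v a := fun a ha =>
      (ordv_eq v ((map_ne_zero σ).mpr ha) ha).mpr (hG.v_sigma a)
    have hσin : ∀ a, a ≠ 0 → 0 ≤ ordv v a → σ a - a ≠ 0 → 0 < ordv v (σ a - a) :=
      fun a ha h0 hne => (ordv_pos v hne).mpr (hG.sigma_sub a ((ordv_nonneg v ha).mp h0))
    have hβw' : ordv v β = p • ordv v w₀ := by
      rw [← (ordv_ordFn v).pow hw₀0 p]
      exact (ordv_eq v hβ0 (pow_ne_zero p hw₀0)).mpr (by rw [hβw, map_pow])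
    have hint : ∀ S : G, S ≠ 0 → p • S = 0 → 0 ≤ ordv v (x S) := fun S hS hpS =>
      (ordv_nonneg v (hx0 S hS hpS)).mpr (x_integral v hK hα hβ h2 hp hp2 hvp hS hpS)
    have hsmall : ∀ m, ¬ p ∣ m → 0 < ordv v (x (m • T)) := fun m hm =>
      (ordv_pos v (hx0 _ (nsmul_ne_zero_of_not_dvd hp hT hpT hm) (hpm m))).mpr (hsmall_v m hm)
    obtain ⟨m₀, hm₀, hfix⟩ := mult_case h hK hG.x_tau hG.y_tau hG.tau_ne hσw hσin hp hp2
      hw₀0 hσw₀ hβw' hint hT hpT hsmall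
    obtain ⟨a, ha⟩ := exists_zsmul_eq hp hpT hm₀
    rw [← ha, map_zsmul, hfix]

end Main

end Fermat.Agent.S05.helper241
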