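/-
S05 helper (helper241): instantiation of the abstract x-only core `kummer_main` on Mathlib's
`WeierstrassCurve.Affine.Point` for curves `y² = x³ + a x² + b x`, and the resulting
unramifiedness statement for the Frey curve.
-/
import Mathlib
import Fermat.Prelude.Def_FLTPrelim_Ramification
import Fermat.Agent.S05.helper241_Kummer
import Fermat.Agent.S05.helper1745_XOnly
import Fermat.Agent.S05.helper4205_Inertia
import Fermat.Agent.S05.helper725_Transfer

set_option autoImplicit false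

namespace Fermat.Agent.S05.helper241

open WeierstrassCurve WeierstrassCurve.Affine

section Curve

variable {F : Type*} [Field F] [DecidableEq F] (E : Affine F)

/-- `x`-coordinate of a point (junk value `0` at infinity). -/
def xOf : E.Point → F
  | .zero => 0
  | .some x _ _ => x

/-- `y`-coordinate of a point (junk value `0` at infinity). -/
def yOf : E.Point → F
  | .zero => 0
  | .some _ y _ => y

theorem kdata_of_legendre (h1 : E.a₁ = 0) (h3 : E.a₃ = 0) (h6 : E.a₆ = 0) (h2 : (2 : F) ≠ 0) :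
    KData (xOf E) (yOf E) E.a₂ E.a₄ where
  x_neg := by
    rintro (_ | ⟨x, y, h⟩)
    · rfl
    · rfl
  y_neg := by
    rintro (_ | ⟨x, y, h⟩)
    · show (0 : F) = -0
      simp
    · show E.negY x y = -y
      simp [Affine.negY, h1, h3]
  y_sq := by
    rintro (_ | ⟨x, y, h⟩) hP
    · exact absurd rfl hP
    · show y ^ 2 = x * (x ^ 2 + E.a₂ * x + E.a₄)
      have := (equation_iff x y).mp h.1
      rw [h1, h3, h6] at this
      linear_combination this
  y_ne_zero := by
    rintro (_ | ⟨x, y, h⟩) hP hPP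
    · exact absurd rfl hP
    · show y ≠ 0
      intro hy
      apply hPP
      apply Point.add_self_of_Y_eq
      simp [Affine.negY, h1, h3, hy]
  x_inj := by
    rintro (_ | ⟨x₁, y₁, h₁⟩) (_ | ⟨x₂, y₂, h₂⟩) hP hQ hx
    · exact absurd rfl hP
    · exact absurd rfl hP
    · exact absurd rfl hQ
    · exact Point.X_eq_iff.mp hx
  prod := by
    rintro (_ | ⟨x₁, y₁, h₁⟩) (_ | ⟨x₂, y₂, h₂⟩) hP hQ hadd hsub
    · exact absurd rfl hP
    · exact absurd rfl hP
    · exact absurd rfl hQ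
    · have hx : x₁ ≠ x₂ := by
        intro hx
        rcases (Point.X_eq_iff (h₁ := h₁) (h₂ := h₂)).mp hx with h | h
        · exact hsub (by rw [h, sub_self])
        · exact hadd (by rw [h, neg_add_cancel])
      obtain ⟨Xp, Yp, Xm, Ym, hp, hm, e1, e2, e3, e4⟩ :=
        helper1745.exists_add_sub_some h₁ h₂ hx
      rw [e1, e2]
      show Xp * Xm * (x₁ - x₂) ^ 2 = (x₁ * x₂ - E.a₄) ^ 2
      rw [e3]
      simp only [WeierstrassCurve.b₄, WeierstrassCurve.b₆, WeierstrassCurve.b₈, h1, h3, h6]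
      ring
  sum := by
    rintro (_ | ⟨x₁, y₁, h₁⟩) (_ | ⟨x₂, y₂, h₂⟩) hP hQ hadd hsub
    · exact absurd rfl hP
    · exact absurd rfl hP
    · exact absurd rfl hQ
    · have hx : x₁ ≠ x₂ := by
        intro hx
        rcases (Point.X_eq_iff (h₁ := h₁) (h₂ := h₂)).mp hx with h | h
        · exact hsub (by rw [h, sub_self])
        · exact hadd (by rw [h, neg_add_cancel])
      obtain ⟨Xp, Yp, Xm, Ym, hp, hm, e1, e2, e3, e4⟩ :=
        helper1745.exists_add_sub_some h₁ h₂ hx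
      rw [e1, e2]
      show (Xp + Xm) * (x₁ - x₂) ^ 2 =
        2 * ((x₁ + x₂) * (x₁ * x₂ + E.a₄) + 2 * E.a₂ * (x₁ * x₂))
      rw [e4]
      simp only [WeierstrassCurve.b₂, WeierstrassCurve.b₄, WeierstrassCurve.b₆, h1, h3, h6]
      ring
  dbl := by
    rintro (_ | ⟨x, y, h⟩) hP hPP
    · exact absurd rfl hP
    · have hy : y ≠ E.negY x y := fun hy => hPP (Point.add_self_of_Y_eq hy)
      obtain ⟨X, Y, h', e1, e2, -⟩ := helper1745.exists_add_self_some h hy
      rw [e1]
      show X * (4 * x * (x ^ 2 + E.a₂ * x + E.a₄)) = (x ^ 2 - E.a₄) ^ 2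
      have e3 : 4 * x * (x ^ 2 + E.a₂ * x + E.a₄) =
          4 * x ^ 3 + E.b₂ * x ^ 2 + 2 * E.b₄ * x + E.b₆ := by
        simp only [WeierstrassCurve.b₂, WeierstrassCurve.b₄, WeierstrassCurve.b₆, h1, h3, h6]
        ring
      rw [e3, e2]
      simp only [WeierstrassCurve.b₄, WeierstrassCurve.b₆, WeierstrassCurve.b₈, h1, h3, h6]
      ring

end Curve

section Galois

variable {R S K : Type*} [CommRing R] [Field S] [Field K] [DecidableEq K] [Algebra R S]
  [Algebra R K] [Algebra S K] [IsScalarTower R S K] (W : Affine R)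

/-- The action of a Galois element on points, as an additive map. -/
noncomputable def tauHom (σ : K ≃ₐ[S] K) : (W⁄K).Point →+ (W⁄K).Point :=
  DistribSMul.toAddMonoidHom (W⁄K).Point σ

theorem tauHom_apply (σ : K ≃ₐ[S] K) (P : (W⁄K).Point) : tauHom W σ P = σ • P := rfl

theorem galData_of_inertia [Algebra.IsAlgebraic S K] (A : ValuationSubring K) (σ : K ≃ₐ[S] K)
    (hσ : σ ∈ A.inertiaSubgroupIn S) :
    GalData A.valuation (xOf (W⁄K)) (yOf (W⁄K)) (σ : K →+* K) (tauHom W σ) where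
  x_tau := by
    rintro (_ | ⟨x, y, h⟩) hP
    · exact absurd rfl hP
    · rfl
  y_tau := by
    rintro (_ | ⟨x, y, h⟩) hP
    · exact absurd rfl hP
    · rfl
  tau_ne := by
    rintro (_ | ⟨x, y, h⟩) hP
    · exact absurd rfl hP
    · exact Point.some_ne_zero _
  v_sigma := fun a =>
    helper4205.valuation_apply_of_mem_decomposition
      (helper4205.mem_decomposition_of_mem_inertiaSubgroupIn hσ) a
  sigma_sub := fun a ha => by
    have h1 : a ∈ A := (ValuationSubring.valuation_le_one_iff A a).mp ha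
    have h2 := helper4205.apply_sub_mem_nonunits hσ h1
    exact (ValuationSubring.mem_nonunits_iff (A := A)).mp h2

end Galois

section LocalThm

open helper725

/-- **Local theorem**: for integers `α₀ β₀` with `β₀ = u * w₀ ^ p ≠ 0`, `q ∤ u`,
`q ∤ α₀² - 4β₀`, and odd primes `p ≠ q`, the `p`-torsion of `y² = x³ + α₀ x² + β₀ x` is
unramified at `q`. -/
theorem unramified_legendre {a b : ℚ} (α₀ β₀ u w₀ : ℤ) (ha : a = (α₀ : ℚ)) (hb : b = (β₀ : ℚ))
    {p q : ℕ} (hp : p.Prime) (hp2 : p ≠ 2) (hq : q.Prime) (hq2 : q ≠ 2) (hqp : q ≠ p)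
    (hβ0 : β₀ ≠ 0) (hdisc : ¬ (q : ℤ) ∣ α₀ ^ 2 - 4 * β₀) (hβ : β₀ = u * w₀ ^ p)
    (hu : ¬ (q : ℤ) ∣ u) :
    WeierstrassCurve.Affine.Point.GaloisRepUnramifiedAt (K := AlgebraicClosure ℚ) ℚ
      (legendreModel a b) p q := by
  intro A hA σ hσ P
  apply Subtype.ext
  have hP : p • (P : ((legendreModel a b)⁄(AlgebraicClosure ℚ)).Point) = 0 := by
    have := P.2
    rw [Submodule.mem_torsionBy_iff] at this
    rwa [natCast_zsmul] at this
  have hK := kdata_of_legendre ((legendreModel a b)⁄(AlgebraicClosure ℚ))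
    (by simp) (by simp) (by simp) two_ne_zero
  have halg : Algebra.IsAlgebraic ℚ (AlgebraicClosure ℚ) := AlgebraicClosure.isAlgebraic ℚ
  have hG := galData_of_inertia (legendreModel a b) A σ hσ
  have e2 : ((legendreModel a b)⁄(AlgebraicClosure ℚ)).a₂ = ((α₀ : ℤ) : AlgebraicClosure ℚ) := by
    simp [ha]
  have e4 : ((legendreModel a b)⁄(AlgebraicClosure ℚ)).a₄ = ((β₀ : ℤ) : AlgebraicClosure ℚ) := by
    simp [hb]
  rw [e2, e4] at hK
  have hαv : A.valuation ((α₀ : ℤ) : AlgebraicClosure ℚ) ≤ 1 :=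
    (ValuationSubring.valuation_le_one_iff A _).mpr (helper4205.vs_intCast_mem A α₀)
  have hβv : A.valuation ((β₀ : ℤ) : AlgebraicClosure ℚ) ≤ 1 :=
    (ValuationSubring.valuation_le_one_iff A _).mpr (helper4205.vs_intCast_mem A β₀)
  have hβ0' : ((β₀ : ℤ) : AlgebraicClosure ℚ) ≠ 0 := Int.cast_ne_zero.mpr hβ0
  have h2v : A.valuation (2 : AlgebraicClosure ℚ) = 1 := by
    have := helper4205.valuation_natCast_eq_one (A := A) hq hA (n := 2)
      (fun h => hq2 ((Nat.prime_dvd_prime_iff_eq hq Nat.prime_two).mp h))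
    simpa using this
  have hpv : A.valuation ((p : ℕ) : AlgebraicClosure ℚ) = 1 :=
    helper4205.valuation_natCast_eq_one (A := A) hq hA (n := p)
      (fun h => hqp ((Nat.prime_dvd_prime_iff_eq hq hp).mp h))
  have hdv : A.valuation (((α₀ : ℤ) : AlgebraicClosure ℚ) ^ 2 - 4 * ((β₀ : ℤ) : AlgebraicClosure ℚ))
      = 1 := by
    have := helper4205.valuation_intCast_eq_one (A := A) hq hA hdisc
    rw [← this]
    congr 1
    push_cast
    ring
  have huv : A.valuation ((u : ℤ) : AlgebraicClosure ℚ) = 1 :=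
    helper4205.valuation_intCast_eq_one (A := A) hq hA hu
  have hcase : A.valuation ((β₀ : ℤ) : AlgebraicClosure ℚ) = 1 ∨
      ∃ w : AlgebraicClosure ℚ, (σ : AlgebraicClosure ℚ →+* AlgebraicClosure ℚ) w = w ∧
        A.valuation ((β₀ : ℤ) : AlgebraicClosure ℚ) = A.valuation w ^ p := by
    right
    refine ⟨((w₀ : ℤ) : AlgebraicClosure ℚ), by simp, ?_⟩
    rw [hβ]
    push_cast
    rw [map_mul, huv, one_mul, map_pow]
  exact kummer_main A.valuation hK hG hαv hβv hβ0' h2v hdv hp hp2 hpv hcase _ hP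

end LocalThm

section Frey

open helper725

/-- **S05**: the mod-`p` representation of the Frey curve is unramified at every prime
`q ≠ 2, p`. -/
theorem frey_unramified (P : FreyPackage) {q : ℕ} (hq : q.Prime) (hq2 : q ≠ 2) (hqp : q ≠ P.p) :
    P.GaloisRepUnramifiedAt q := by
  have hp : P.p.Prime := P.pp
  have hp2 : P.p ≠ 2 := by have := P.hp5; omega
  have hqZ : Prime (q : ℤ) := Nat.prime_iff_prime_int.mp hq
  have hFLT := P.hFLT
  have hpow : ∀ z : ℤ, (q : ℤ) ∣ z ^ P.p → (q : ℤ) ∣ z := fun z h => hqZ.dvd_of_dvd_pow h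
  have hcop : ∀ x y : ℤ, gcd x y = 1 → (q : ℤ) ∣ x → (q : ℤ) ∣ y → False := by
    intro x y hg hx hy
    have := dvd_gcd hx hy
    rw [hg] at this
    exact hqZ.not_dvd_one this
  by_cases hc : (q : ℤ) ∣ P.c
  · have ha : ¬ (q : ℤ) ∣ P.a := fun h => hcop _ _ P.hgcdac h hc
    have hb : ¬ (q : ℤ) ∣ P.b := fun h => hcop _ _ P.hgcdbc h hc
    apply frey_unramified_of_legendre_shift P q
    refine unramified_legendre (P.a ^ P.p + P.c ^ P.p) (P.a ^ P.p * P.c ^ P.p) (P.a ^ P.p) P.c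
      (by simp) (by simp) hp hp2 hq hq2 hqp ?_ ?_ rfl ?_
    · exact mul_ne_zero (pow_ne_zero _ P.ha0) (pow_ne_zero _ P.hc0)
    · have e : (P.a ^ P.p + P.c ^ P.p) ^ 2 - 4 * (P.a ^ P.p * P.c ^ P.p) = (P.b ^ P.p) ^ 2 := by
        have : P.b ^ P.p = P.c ^ P.p - P.a ^ P.p := by linear_combination hFLT
        rw [this]; ring
      rw [e]
      intro h
      exact hb (hpow _ (hqZ.dvd_of_dvd_pow h))
    · intro h; exact ha (hpow _ h)
  · apply frey_unramified_of_legendre P q
    have hdisc : ¬ (q : ℤ) ∣ (P.b ^ P.p - P.a ^ P.p) ^ 2 - 4 * -(P.a ^ P.p * P.b ^ P.p) := by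
      have e : (P.b ^ P.p - P.a ^ P.p) ^ 2 - 4 * -(P.a ^ P.p * P.b ^ P.p) = (P.c ^ P.p) ^ 2 := by
        rw [← hFLT]; ring
      rw [e]
      intro h
      exact hc (hpow _ (hqZ.dvd_of_dvd_pow h))
    have hβ0 : -(P.a ^ P.p * P.b ^ P.p) ≠ 0 :=
      neg_ne_zero.mpr (mul_ne_zero (pow_ne_zero _ P.ha0) (pow_ne_zero _ P.hb0))
    by_cases ha : (q : ℤ) ∣ P.a
    · have hb : ¬ (q : ℤ) ∣ P.b := fun h => hcop _ _ P.hgcdab ha h
      refine unramified_legendre (P.b ^ P.p - P.a ^ P.p) (-(P.a ^ P.p * P.b ^ P.p))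
        (-(P.b ^ P.p)) P.a (by simp) (by simp) hp hp2 hq hq2 hqp hβ0 hdisc (by ring) ?_
      intro h
      rw [dvd_neg] at h
      exact hb (hpow _ h)
    · refine unramified_legendre (P.b ^ P.p - P.a ^ P.p) (-(P.a ^ P.p * P.b ^ P.p))
        (-(P.a ^ P.p)) P.b (by simp) (by simp) hp hp2 hq hq2 hqp hβ0 hdisc (by ring) ?_
      intro h
      rw [dvd_neg] at h
      exact ha (hpow _ h)

end Frey

end Fermat.Agent.S05.helper241
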