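import Mathlib

set_option autoImplicit false

/-!
Abstract "Legendre-coordinatised" groups: an additive commutative group `G` with coordinate
functions `X Y : G → K` behaving like the affine coordinates of the curve
`Y² = X³ + a X² + b X`, where the group law is only accessed through Vieta's relations for
collinear triples. Part A: the kernel of reduction `E₁ = {v(X) > 1}` and its torsion.
-/

namespace Fermat.Agent.S05.helper245

/-- Abstract coordinates on a group behaving like `Y² = X³ + a X² + b X`. -/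
structure IsLegCoord {K : Type*} [Field K] {G : Type*} [AddCommGroup G] (a b : K)
    (X Y : G → K) : Prop where
  eqn : ∀ P, P ≠ 0 → Y P ^ 2 = X P ^ 3 + a * X P ^ 2 + b * X P
  inj : ∀ P Q, P ≠ 0 → Q ≠ 0 → X P = X Q → Y P = Y Q → P = Q
  negX : ∀ P, P ≠ 0 → X (-P) = X P
  negY : ∀ P, P ≠ 0 → Y (-P) = -Y P
  vieta : ∀ P₁ P₂ P₃, P₁ ≠ 0 → P₂ ≠ 0 → P₃ ≠ 0 → P₁ + P₂ + P₃ = 0 →
    ∃ l m : K, Y P₁ = l * X P₁ + m ∧ Y P₂ = l * X P₂ + m ∧ Y P₃ = l * X P₃ + m ∧
      X P₁ + X P₂ + X P₃ = l ^ 2 - a ∧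
      X P₁ * X P₂ + X P₁ * X P₃ + X P₂ * X P₃ = b - 2 * l * m ∧
      X P₁ * X P₂ * X P₃ = m ^ 2

section

variable {K : Type*} [Field K] {Γ₀ : Type*} [LinearOrderedCommGroupWithZero Γ₀]
  (v : Valuation K Γ₀)

theorem val_natCast_le_one (n : ℕ) : v (n : K) ≤ 1 := by
  induction n with
  | zero => simp
  | succ n ih =>
    rw [Nat.cast_succ]
    exact v.map_add_le ih (le_of_eq v.map_one)

theorem val_two_le_one : v (2 : K) ≤ 1 := by
  have := val_natCast_le_one v 2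
  simpa using this

theorem val_four_le_one : v (4 : K) ≤ 1 := by
  have := val_natCast_le_one v 4
  simpa using this

theorem val_three_le_one : v (3 : K) ≤ 1 := by
  have := val_natCast_le_one v 3
  simpa using this

/-- In a linearly ordered group with zero, `x ^ 2 ≤ y ^ 2 → x ≤ y`. -/
theorem le_of_sq_le_sq' {x y : Γ₀} (h : x ^ 2 ≤ y ^ 2) : x ≤ y := by
  by_contra hlt
  have hlt' : y < x := lt_of_not_ge hlt
  have : y ^ 2 < x ^ 2 := pow_lt_pow_left₀ hlt' zero_le (by norm_num)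
  exact absurd h (not_le.mpr this)

theorem lt_of_sq_lt_sq' {x y : Γ₀} (h : x ^ 2 < y ^ 2) : x < y := by
  by_contra hle
  have hle' : y ≤ x := le_of_not_gt hle
  have : y ^ 2 ≤ x ^ 2 := pow_le_pow_left₀ zero_le hle' 2
  exact absurd h (not_lt.mpr this)

theorem eq_of_sq_eq_sq' {x y : Γ₀} (h : x ^ 2 = y ^ 2) : x = y :=
  le_antisymm (le_of_sq_le_sq' h.le) (le_of_sq_le_sq' h.ge)

end

section E1

variable {K : Type*} [Field K] {Γ₀ : Type*} [LinearOrderedCommGroupWithZero Γ₀]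
  (v : Valuation K Γ₀) {G : Type*} [AddCommGroup G] {a b : K} {X Y : G → K}

/-- For a point with `1 < v (X P)`: `v (Y P) ^ 2 = v (X P) ^ 3`. -/
theorem val_Y_sq_of_E1 (hL : IsLegCoord a b X Y) (ha : v a ≤ 1) (hb : v b ≤ 1) {P : G}
    (hP : P ≠ 0) (hx : 1 < v (X P)) : v (Y P) ^ 2 = v (X P) ^ 3 := by
  have h := hL.eqn P hP
  rw [← v.map_pow, h, ← v.map_pow, add_assoc]
  apply v.map_add_eq_of_lt_left
  have hx0 : 0 < v (X P) := lt_trans zero_lt_one hx
  have h1 : v (a * X P ^ 2) < v (X P ^ 3) := by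
    rw [v.map_mul, v.map_pow, v.map_pow]
    calc v a * v (X P) ^ 2 ≤ 1 * v (X P) ^ 2 := by gcongr
      _ = v (X P) ^ 2 := one_mul _
      _ < v (X P) ^ 3 := pow_lt_pow_right₀ hx (by norm_num)
  have h2 : v (b * X P) < v (X P ^ 3) := by
    rw [v.map_mul, v.map_pow]
    calc v b * v (X P) ≤ 1 * v (X P) := by gcongr
      _ = v (X P) ^ 1 := by rw [one_mul, pow_one]
      _ < v (X P) ^ 3 := pow_lt_pow_right₀ hx (by norm_num)
  exact v.map_add_lt h1 h2

theorem Y_ne_zero_of_E1 (hL : IsLegCoord a b X Y) (ha : v a ≤ 1) (hb : v b ≤ 1) {P : G}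
    (hP : P ≠ 0) (hx : 1 < v (X P)) : Y P ≠ 0 := by
  intro h0
  have h := val_Y_sq_of_E1 v hL ha hb hP hx
  rw [h0, v.map_zero, zero_pow (by norm_num)] at h
  have hx0 : 0 < v (X P) := lt_trans zero_lt_one hx
  exact absurd h.symm (pow_pos hx0 3).ne'

/-- `v (X/Y) ^ 2 * v X = 1` on `E₁`. -/
theorem val_z_sq_of_E1 (hL : IsLegCoord a b X Y) (ha : v a ≤ 1) (hb : v b ≤ 1) {P : G}
    (hP : P ≠ 0) (hx : 1 < v (X P)) : v (X P / Y P) ^ 2 * v (X P) = 1 := by
  have h := val_Y_sq_of_E1 v hL ha hb hP hx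
  have hx0 : v (X P) ≠ 0 := (lt_trans zero_lt_one hx).ne'
  have hy0 : v (Y P) ≠ 0 := by
    rw [v.ne_zero_iff]; exact Y_ne_zero_of_E1 v hL ha hb hP hx
  rw [v.map_div, div_pow, h]
  field_simp

theorem val_z_lt_one_of_E1 (hL : IsLegCoord a b X Y) (ha : v a ≤ 1) (hb : v b ≤ 1) {P : G}
    (hP : P ≠ 0) (hx : 1 < v (X P)) : v (X P / Y P) < 1 := by
  have h := val_z_sq_of_E1 v hL ha hb hP hx
  by_contra hge
  have hge' : 1 ≤ v (X P / Y P) := le_of_not_gt hge
  have h1 : (1 : Γ₀) ≤ v (X P / Y P) ^ 2 := one_le_pow₀ hge'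
  have : (1 : Γ₀) < v (X P / Y P) ^ 2 * v (X P) := by
    calc (1 : Γ₀) = 1 * 1 := (one_mul 1).symm
      _ < v (X P / Y P) ^ 2 * v (X P) := mul_lt_mul_of_le_of_lt_of_nonneg_of_pos h1 hx zero_le (lt_of_lt_of_le zero_lt_one h1)
  exact absurd h this.ne'

/-- Closure of `E₁` under the group law, and the key estimate for `z = X / Y`. -/
theorem E1_triple (hL : IsLegCoord a b X Y) (ha : v a ≤ 1) (hb : v b ≤ 1)
    {P₁ P₂ P₃ : G} (h₁ : P₁ ≠ 0) (h₂ : P₂ ≠ 0) (h₃ : P₃ ≠ 0) (hs : P₁ + P₂ + P₃ = 0)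
    (hx₁ : 1 < v (X P₁)) (hx₂ : 1 < v (X P₂)) :
    1 < v (X P₃) ∧
      v (X P₁ / Y P₁ + X P₂ / Y P₂ + X P₃ / Y P₃) ≤
        v (X P₁ / Y P₁) * v (X P₂ / Y P₂) * v (X P₃ / Y P₃) := by
  obtain ⟨l, m, hy₁, hy₂, hy₃, e₁, e₂, e₃⟩ := hL.vieta P₁ P₂ P₃ h₁ h₂ h₃ hs
  have hx₁0 : (0 : Γ₀) < v (X P₁) := lt_trans zero_lt_one hx₁
  have hx₂0 : (0 : Γ₀) < v (X P₂) := lt_trans zero_lt_one hx₂
  have hsum12 : v (X P₁ + X P₂) ≤ max (v (X P₁)) (v (X P₂)) := v.map_add _ _
  -- Step 1: the third point is in `E₁`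
  have hx₃ : 1 < v (X P₃) := by
    by_contra hle
    have hle' : v (X P₃) ≤ 1 := le_of_not_gt hle
    have key : (X P₁ * X P₂ + X P₁ * X P₃ + X P₂ * X P₃ - b) ^ 2 =
        4 * (X P₁ + X P₂ + X P₃ + a) * (X P₁ * X P₂ * X P₃) := by
      rw [e₂, e₁, e₃]; ring
    have hM : max (v (X P₁)) (v (X P₂)) < v (X P₁) * v (X P₂) := by
      rcases le_total (v (X P₁)) (v (X P₂)) with h | h
      · rw [max_eq_right h]
        calc v (X P₂) = 1 * v (X P₂) := (one_mul _).symm
          _ < v (X P₁) * v (X P₂) := mul_lt_mul_of_pos_right hx₁ hx₂0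
      · rw [max_eq_left h]
        calc v (X P₁) = v (X P₁) * 1 := (mul_one _).symm
          _ < v (X P₁) * v (X P₂) := mul_lt_mul_of_pos_left hx₂ hx₁0
    have hL1 : v (X P₁ * X P₂ + X P₁ * X P₃ + X P₂ * X P₃ - b) = v (X P₁) * v (X P₂) := by
      have : X P₁ * X P₂ + X P₁ * X P₃ + X P₂ * X P₃ - b =
          X P₁ * X P₂ + ((X P₁ + X P₂) * X P₃ - b) := by ring
      rw [this, ← v.map_mul]
      apply v.map_add_eq_of_lt_left
      rw [v.map_mul]
      apply v.map_sub_lt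
      · rw [v.map_mul]
        calc v (X P₁ + X P₂) * v (X P₃) ≤ max (v (X P₁)) (v (X P₂)) * 1 :=
              mul_le_mul' hsum12 hle'
          _ = max (v (X P₁)) (v (X P₂)) := mul_one _
          _ < v (X P₁) * v (X P₂) := hM
      · exact lt_of_le_of_lt hb (lt_of_lt_of_le (lt_max_of_lt_left hx₁) hM.le)
    have hR : v (4 * (X P₁ + X P₂ + X P₃ + a) * (X P₁ * X P₂ * X P₃)) ≤
        max (v (X P₁)) (v (X P₂)) * (v (X P₁) * v (X P₂)) := by
      rw [v.map_mul, v.map_mul, v.map_mul, v.map_mul]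
      have h4 := val_four_le_one v
      have hs' : v (X P₁ + X P₂ + X P₃ + a) ≤ max (v (X P₁)) (v (X P₂)) := by
        apply v.map_add_le (v.map_add_le hsum12 ?_) ?_
        · exact le_trans hle' (le_trans hx₁.le (le_max_left _ _))
        · exact le_trans ha (le_trans hx₁.le (le_max_left _ _))
      calc v 4 * v (X P₁ + X P₂ + X P₃ + a) * (v (X P₁) * v (X P₂) * v (X P₃))
          ≤ 1 * max (v (X P₁)) (v (X P₂)) * (v (X P₁) * v (X P₂) * 1) := by gcongr
        _ = max (v (X P₁)) (v (X P₂)) * (v (X P₁) * v (X P₂)) := by rw [one_mul, mul_one]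
    have hfin : (v (X P₁) * v (X P₂)) ^ 2 ≤ max (v (X P₁)) (v (X P₂)) * (v (X P₁) * v (X P₂)) := by
      calc (v (X P₁) * v (X P₂)) ^ 2
          = v ((X P₁ * X P₂ + X P₁ * X P₃ + X P₂ * X P₃ - b) ^ 2) := by rw [v.map_pow, hL1]
        _ = v (4 * (X P₁ + X P₂ + X P₃ + a) * (X P₁ * X P₂ * X P₃)) := by rw [key]
        _ ≤ _ := hR
    have h12 : (0 : Γ₀) < v (X P₁) * v (X P₂) := mul_pos hx₁0 hx₂0
    rw [sq] at hfin
    have := le_of_mul_le_mul_right hfin h12
    exact absurd this (not_le.mpr hM)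
  refine ⟨hx₃, ?_⟩
  have hx₃0 : (0 : Γ₀) < v (X P₃) := lt_trans zero_lt_one hx₃
  have hy₁0 := Y_ne_zero_of_E1 v hL ha hb h₁ hx₁
  have hy₂0 := Y_ne_zero_of_E1 v hL ha hb h₂ hx₂
  have hy₃0 := Y_ne_zero_of_E1 v hL ha hb h₃ hx₃
  -- Step 2: the estimate
  have hS : X P₁ * Y P₂ * Y P₃ + X P₂ * Y P₁ * Y P₃ + X P₃ * Y P₁ * Y P₂ =
      m * (2 * b * l - a * m) := by
    rw [hy₁, hy₂, hy₃]
    linear_combination (3 * l ^ 2) * e₃ + (2 * l * m) * e₂ + m ^ 2 * e₁
  have hsum : X P₁ / Y P₁ + X P₂ / Y P₂ + X P₃ / Y P₃ =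
      m * (2 * b * l - a * m) / (Y P₁ * Y P₂ * Y P₃) := by
    rw [← hS]; field_simp
  have hprod : X P₁ / Y P₁ * (X P₂ / Y P₂) * (X P₃ / Y P₃) = m ^ 2 / (Y P₁ * Y P₂ * Y P₃) := by
    rw [← e₃]; field_simp
  rw [← v.map_mul, ← v.map_mul, hsum, hprod, v.map_div, v.map_div]
  have hm2 : v m ^ 2 = v (X P₁) * v (X P₂) * v (X P₃) := by
    rw [← v.map_pow, ← e₃, v.map_mul, v.map_mul]
  have hlm : v l ≤ v m := by
    apply le_of_sq_le_sq'
    rw [hm2, ← v.map_pow]
    have hl2 : l ^ 2 = X P₁ + X P₂ + X P₃ + a := by rw [e₁]; ring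
    rw [hl2]
    have hp1 : v (X P₁) ≤ v (X P₁) * v (X P₂) * v (X P₃) := by
      calc v (X P₁) = v (X P₁) * 1 * 1 := by rw [mul_one, mul_one]
        _ ≤ v (X P₁) * v (X P₂) * v (X P₃) := by gcongr
    have hp2 : v (X P₂) ≤ v (X P₁) * v (X P₂) * v (X P₃) := by
      calc v (X P₂) = 1 * v (X P₂) * 1 := by rw [mul_one, one_mul]
        _ ≤ v (X P₁) * v (X P₂) * v (X P₃) := by gcongr
    have hp3 : v (X P₃) ≤ v (X P₁) * v (X P₂) * v (X P₃) := by
      calc v (X P₃) = 1 * 1 * v (X P₃) := by rw [one_mul, one_mul]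
        _ ≤ v (X P₁) * v (X P₂) * v (X P₃) := by gcongr
    have hpa : v a ≤ v (X P₁) * v (X P₂) * v (X P₃) :=
      le_trans ha (le_trans hx₁.le hp1)
    exact v.map_add_le (v.map_add_le (v.map_add_le hp1 hp2) hp3) hpa
  have hnum : v (m * (2 * b * l - a * m)) ≤ v (m ^ 2) := by
    rw [v.map_mul, v.map_pow, sq]
    have h2 := val_two_le_one v
    have : v (2 * b * l - a * m) ≤ v m := by
      apply v.map_sub_le
      · rw [v.map_mul, v.map_mul]
        calc v 2 * v b * v l ≤ 1 * 1 * v m := by gcongr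
          _ = v m := by rw [one_mul, one_mul]
      · rw [v.map_mul]
        calc v a * v m ≤ 1 * v m := by gcongr
          _ = v m := one_mul _
    gcongr
  exact div_le_div_of_nonneg_right hnum zero_le

theorem E1_multiples (hL : IsLegCoord a b X Y) (ha : v a ≤ 1) (hb : v b ≤ 1) {P : G}
    (hP : P ≠ 0) (hx : 1 < v (X P)) (n : ℕ) :
    (n • P = 0 ∧ v ((n : K) * (X P / Y P)) < v (X P / Y P)) ∨
      (n • P ≠ 0 ∧ 1 < v (X (n • P)) ∧
        v (X (n • P) / Y (n • P) - (n : K) * (X P / Y P)) < v (X P / Y P)) := by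
  have hy0 := Y_ne_zero_of_E1 v hL ha hb hP hx
  have hx0 : X P ≠ 0 := by
    intro h; rw [h, v.map_zero] at hx; exact absurd hx (not_lt.mpr zero_le)
  have hz0 : X P / Y P ≠ 0 := div_ne_zero hx0 hy0
  have hk0 : (0 : Γ₀) < v (X P / Y P) := by rw [v.pos_iff]; exact hz0
  have hk1 : v (X P / Y P) < 1 := val_z_lt_one_of_E1 v hL ha hb hP hx
  induction n with
  | zero =>
    left
    exact ⟨zero_nsmul P, by rw [Nat.cast_zero, zero_mul, v.map_zero]; exact hk0⟩
  | succ n ih =>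
    rcases ih with ⟨hn0, hnv⟩ | ⟨hn0, hnx, hnv⟩
    · right
      have hP' : (n + 1) • P = P := by rw [succ_nsmul, hn0, zero_add]
      rw [hP']
      refine ⟨hP, hx, ?_⟩
      have : X P / Y P - ((n + 1 : ℕ) : K) * (X P / Y P) = -((n : K) * (X P / Y P)) := by
        push_cast; ring
      rw [this, v.map_neg]; exact hnv
    · by_cases hR : (n + 1) • P = 0
      · left
        refine ⟨hR, ?_⟩
        have hQ : n • P = -P := by
          rw [succ_nsmul] at hR; exact eq_neg_of_add_eq_zero_left hR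
        rw [hQ, hL.negX P hP, hL.negY P hP] at hnv
        have : ((n + 1 : ℕ) : K) * (X P / Y P) = -(X P / -Y P - (n : K) * (X P / Y P)) := by
          push_cast; field_simp; ring
        rw [this, v.map_neg]; exact hnv
      · right
        have hR' : -((n + 1) • P) ≠ 0 := neg_ne_zero.mpr hR
        have hsum : n • P + P + -((n + 1) • P) = 0 := by rw [succ_nsmul]; abel
        obtain ⟨hxR, hest⟩ := E1_triple v hL ha hb hn0 hP hR' hsum hnx hx
        rw [hL.negX _ hR] at hxR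
        rw [hL.negX _ hR, hL.negY _ hR] at hest
        refine ⟨hR, hxR, ?_⟩
        have hzR : v (X ((n + 1) • P) / Y ((n + 1) • P)) < 1 :=
          val_z_lt_one_of_E1 v hL ha hb hR hxR
        have hzQ : v (X (n • P) / Y (n • P)) ≤ v (X P / Y P) := by
          have : X (n • P) / Y (n • P) =
              (X (n • P) / Y (n • P) - (n : K) * (X P / Y P)) + (n : K) * (X P / Y P) := by ring
          rw [this]
          apply v.map_add_le hnv.le
          rw [v.map_mul]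
          calc v (n : K) * v (X P / Y P) ≤ 1 * v (X P / Y P) := by
                gcongr; exact val_natCast_le_one v n
            _ = v (X P / Y P) := one_mul _
        have hnegdiv : X ((n + 1) • P) / -Y ((n + 1) • P) =
            -(X ((n + 1) • P) / Y ((n + 1) • P)) := by rw [div_neg]
        rw [hnegdiv, v.map_neg] at hest
        have hest' : v (X (n • P) / Y (n • P) + X P / Y P +
            -(X ((n + 1) • P) / Y ((n + 1) • P))) < v (X P / Y P) := by
          refine lt_of_le_of_lt hest ?_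
          calc v (X (n • P) / Y (n • P)) * v (X P / Y P) * v (X ((n + 1) • P) / Y ((n + 1) • P))
              ≤ v (X P / Y P) * 1 * v (X ((n + 1) • P) / Y ((n + 1) • P)) := by gcongr
            _ = v (X P / Y P) * v (X ((n + 1) • P) / Y ((n + 1) • P)) := by rw [mul_one]
            _ < v (X P / Y P) * 1 := mul_lt_mul_of_pos_left hzR hk0
            _ = v (X P / Y P) := mul_one _
        have : X ((n + 1) • P) / Y ((n + 1) • P) - ((n + 1 : ℕ) : K) * (X P / Y P) =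
            (X (n • P) / Y (n • P) - (n : K) * (X P / Y P)) -
              (X (n • P) / Y (n • P) + X P / Y P +
                -(X ((n + 1) • P) / Y ((n + 1) • P))) := by
          push_cast; ring
        rw [this]
        exact v.map_sub_lt hnv hest'

/-- **The kernel of reduction has no `p`-torsion** when `p` is a unit. -/
theorem E1_torsion_free (hL : IsLegCoord a b X Y) (ha : v a ≤ 1) (hb : v b ≤ 1) {p : ℕ}
    (hp : v (p : K) = 1) {P : G} (hP : P ≠ 0) (hx : 1 < v (X P)) : p • P ≠ 0 := by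
  intro h0
  rcases E1_multiples v hL ha hb hP hx p with ⟨-, hv⟩ | ⟨hne, -, -⟩
  · rw [v.map_mul, hp, one_mul] at hv
    exact lt_irrefl _ hv
  · exact hne h0

end E1

end Fermat.Agent.S05.helper245
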