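import Fermat.Agent.S05.helper245_LegA

set_option autoImplicit false

/-!
Abstract Legendre-coordinatised groups, part B: congruent points differ by a point of `E₁`,
doubling of points reducing to `2`-torsion, the subgroup `E₀`, translation by the `2`-torsion
point at the node.
-/

namespace Fermat.Agent.S05.helper245

section PartB

variable {K : Type*} [Field K] {Γ₀ : Type*} [LinearOrderedCommGroupWithZero Γ₀]
  (v : Valuation K Γ₀) {G : Type*} [AddCommGroup G] {a b : K} {X Y : G → K}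

/-- Two distinct points that are congruent at the scale `v (Y P)` differ by a point of `E₁`. -/
theorem close_sub_mem_E1 (hL : IsLegCoord a b X Y) (ha : v a ≤ 1) (h2 : v 2 = 1)
    {P Q : G} (hP : P ≠ 0) (hQ : Q ≠ 0) (hPQ : P ≠ Q)
    (hXP : v (X P) ≤ 1) (hYP : v (Y P) ≤ 1)
    (hX : v (X P - X Q) < v (Y P)) (hY : v (Y P - Y Q) < v (Y P)) :
    1 < v (X (P - Q)) := by
  have hR : Q - P ≠ 0 := sub_ne_zero.mpr (Ne.symm hPQ)
  have hQ' : -Q ≠ 0 := neg_ne_zero.mpr hQ
  have hsum : P + -Q + (Q - P) = 0 := by abel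
  obtain ⟨l, m, hy₁, hy₂, -, e₁, -, -⟩ := hL.vieta P (-Q) (Q - P) hP hQ' hR hsum
  rw [hL.negX Q hQ] at hy₂ e₁
  rw [hL.negY Q hQ] at hy₂
  have hl : Y P + Y Q = l * (X P - X Q) := by linear_combination hy₁ - hy₂
  have hv : v (Y P + Y Q) = v (Y P) := by
    have h1 : Y P + Y Q = 2 * Y P - (Y P - Y Q) := by ring
    have h2' : v (2 * Y P) = v (Y P) := by rw [v.map_mul, h2, one_mul]
    rw [h1]
    rw [← h2'] at hY
    rw [v.map_sub_eq_of_lt_left hY, h2']
  rw [hl, v.map_mul] at hv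
  have hYP0 : (0 : Γ₀) < v (Y P) := lt_of_le_of_lt zero_le hX
  have hvl : 1 < v l := by
    by_contra hle
    have hle' : v l ≤ 1 := le_of_not_gt hle
    have : v (Y P) ≤ v (X P - X Q) := by
      calc v (Y P) = v l * v (X P - X Q) := hv.symm
        _ ≤ 1 * v (X P - X Q) := by gcongr
        _ = v (X P - X Q) := one_mul _
    exact absurd hX (not_lt.mpr this)
  have hXQ : v (X Q) ≤ 1 := by
    have : X Q = X P - (X P - X Q) := by ring
    rw [this]
    exact v.map_sub_le hXP (le_trans hX.le hYP)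
  have hXR : X (Q - P) = l ^ 2 - (a + X P + X Q) := by linear_combination e₁
  have hneg : X (P - Q) = X (Q - P) := by
    rw [← neg_sub Q P, hL.negX _ hR]
  rw [hneg, hXR]
  have hl2 : 1 < v (l ^ 2) := by
    rw [v.map_pow]; exact one_lt_pow₀ hvl (by norm_num)
  have hrest : v (a + X P + X Q) ≤ 1 := v.map_add_le (v.map_add_le ha hXP) hXQ
  rw [v.map_sub_eq_of_lt_left (lt_of_le_of_lt hrest hl2)]
  exact hl2

/-- A point with integral coordinates, `Y` in the maximal ideal and `f'(X)` a unit has its double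
in `E₁`. -/
theorem double_mem_E1 (hL : IsLegCoord a b X Y) (ha : v a ≤ 1) (h2 : v 2 = 1)
    {P : G} (hP : P ≠ 0) (h2P : 2 • P ≠ 0) (hXP : v (X P) ≤ 1) (hYP : v (Y P) < 1)
    (hf' : v (3 * X P ^ 2 + 2 * a * X P + b) = 1) : 1 < v (X (2 • P)) := by
  have hR : -(2 • P) ≠ 0 := neg_ne_zero.mpr h2P
  have hsum : P + P + -(2 • P) = 0 := by rw [two_nsmul]; abel
  obtain ⟨l, m, hy₁, -, -, e₁, e₂, -⟩ := hL.vieta P P (-(2 • P)) hP hP hR hsum
  rw [hL.negX _ h2P] at e₁ e₂
  have key : 3 * X P ^ 2 + 2 * a * X P + b = 2 * l * Y P := by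
    linear_combination (-2 * l) * hy₁ + (2 * X P) * e₁ - e₂
  rw [key, v.map_mul, v.map_mul, h2, one_mul] at hf'
  have hvl : 1 < v l := by
    by_contra hle
    have hle' : v l ≤ 1 := le_of_not_gt hle
    have : v l * v (Y P) < 1 := by
      calc v l * v (Y P) ≤ 1 * v (Y P) := by gcongr
        _ = v (Y P) := one_mul _
        _ < 1 := hYP
    exact absurd hf' this.ne
  have hXR : X (2 • P) = l ^ 2 - (a + X P + X P) := by linear_combination e₁
  rw [hXR]
  have hl2 : 1 < v (l ^ 2) := by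
    rw [v.map_pow]; exact one_lt_pow₀ hvl (by norm_num)
  have hrest : v (a + X P + X P) ≤ 1 := v.map_add_le (v.map_add_le ha hXP) hXP
  rw [v.map_sub_eq_of_lt_left (lt_of_le_of_lt hrest hl2)]
  exact hl2

/-- `E₀ = {v(X) ≥ 1}` is stable under the group law (node case). -/
theorem E0_triple (hL : IsLegCoord a b X Y) (ha : v a ≤ 1) (hb : v b < 1) (h2 : v 2 = 1)
    {P₁ P₂ P₃ : G} (h₁ : P₁ ≠ 0) (h₂ : P₂ ≠ 0) (h₃ : P₃ ≠ 0) (hs : P₁ + P₂ + P₃ = 0)
    (hx₁ : 1 ≤ v (X P₁)) (hx₂ : 1 ≤ v (X P₂)) : 1 ≤ v (X P₃) := by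
  wlog hle : v (X P₂) ≤ v (X P₁) generalizing P₁ P₂
  · have hs' : P₂ + P₁ + P₃ = 0 := by rw [add_comm P₂ P₁]; exact hs
    exact this h₂ h₁ hs' hx₂ hx₁ (le_of_not_ge hle)
  rcases hx₂.lt_or_eq with hx₂' | hx₂'
  · -- both in `E₁`
    have hx₁' : 1 < v (X P₁) := lt_of_lt_of_le hx₂' hle
    exact (E1_triple v hL ha hb.le h₁ h₂ h₃ hs hx₁' hx₂').1.le
  · by_contra hlt
    have hlt' : v (X P₃) < 1 := lt_of_not_ge hlt
    obtain ⟨l, m, -, -, -, e₁, e₂, e₃⟩ := hL.vieta P₁ P₂ P₃ h₁ h₂ h₃ hs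
    have hm2 : v m ^ 2 = v (X P₁) * v (X P₃) := by
      rw [← v.map_pow, ← e₃, v.map_mul, v.map_mul, ← hx₂', mul_one]
    have h23 : v (X P₂ + X P₃) = 1 := by
      rw [hx₂'] at hlt'
      rw [v.map_add_eq_of_lt_left hlt', ← hx₂']
    rcases hx₁.lt_or_eq with hx₁' | hx₁'
    · -- `1 < v (X P₁)`, `v (X P₂) = 1`
      have hx₁0 : (0 : Γ₀) < v (X P₁) := lt_trans zero_lt_one hx₁'
      have hE : X P₁ * (X P₂ + X P₃) = (b - X P₂ * X P₃) - 2 * l * m := by
        linear_combination e₂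
      have hsmall : v (b - X P₂ * X P₃) < 1 := by
        apply v.map_sub_lt hb
        rw [v.map_mul, ← hx₂', one_mul]; exact hlt'
      have hlm : v (2 * l * m) = v (X P₁) := by
        have hL' : v (X P₁ * (X P₂ + X P₃)) = v (X P₁) := by rw [v.map_mul, h23, mul_one]
        rw [hE] at hL'
        by_cases hc : v (2 * l * m) ≤ 1
        · have : v ((b - X P₂ * X P₃) - 2 * l * m) ≤ 1 := v.map_sub_le hsmall.le hc
          rw [hL'] at this
          exact absurd hx₁' (not_lt.mpr this)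
        · have hc' : 1 < v (2 * l * m) := lt_of_not_ge hc
          rw [v.map_sub_eq_of_lt_right (lt_trans hsmall hc')] at hL'
          exact hL'
      rw [v.map_mul, v.map_mul, h2, one_mul] at hlm
      have hl2 : v l ^ 2 = v (X P₁) := by
        have : l ^ 2 = X P₁ + (X P₂ + X P₃ + a) := by linear_combination -e₁
        rw [← v.map_pow, this]
        apply v.map_add_eq_of_lt_left
        refine lt_of_le_of_lt (v.map_add_le h23.le ha) hx₁'
      have hsq : (v l * v m) ^ 2 = v (X P₁) * (v (X P₁) * v (X P₃)) := by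
        rw [mul_pow, hl2, hm2]
      rw [hlm, sq] at hsq
      have h3 : v (X P₁) = v (X P₁) * v (X P₃) := mul_left_cancel₀ hx₁0.ne' hsq
      have h3' : v (X P₁) * 1 = v (X P₁) * v (X P₃) := by rw [mul_one]; exact h3
      have : (1 : Γ₀) = v (X P₃) := mul_left_cancel₀ hx₁0.ne' h3'
      exact absurd this.symm hlt'.ne
    · -- both units
      rw [← hx₁', one_mul] at hm2
      have hvm : v m < 1 := by
        apply lt_of_sq_lt_sq'
        rw [hm2, one_pow]; exact hlt'
      have hvl : v l ≤ 1 := by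
        apply le_of_sq_le_sq'
        have : l ^ 2 = X P₁ + (X P₂ + X P₃ + a) := by linear_combination -e₁
        rw [← v.map_pow, this, one_pow]
        exact v.map_add_le hx₁'.symm.le (v.map_add_le h23.le ha)
      have hE : X P₁ * X P₂ = b - 2 * l * m - X P₁ * X P₃ - X P₂ * X P₃ := by
        linear_combination e₂
      have hprod : v (X P₁ * X P₂) = 1 := by rw [v.map_mul, ← hx₁', ← hx₂', one_mul]
      have hsmall : v (b - 2 * l * m - X P₁ * X P₃ - X P₂ * X P₃) < 1 := by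
        apply v.map_sub_lt (v.map_sub_lt (v.map_sub_lt hb ?_) ?_) ?_
        · rw [v.map_mul, v.map_mul, h2, one_mul]
          calc v l * v m ≤ 1 * v m := by gcongr
            _ = v m := one_mul _
            _ < 1 := hvm
        · rw [v.map_mul, ← hx₁', one_mul]; exact hlt'
        · rw [v.map_mul, ← hx₂', one_mul]; exact hlt'
      rw [hE] at hprod
      exact absurd hprod hsmall.ne

/-- Translation by the `2`-torsion point `T = (0, 0)`: `X (Q + T) * X Q = b`. -/
theorem X_add_T_mul (hL : IsLegCoord a b X Y) {T : G} (hT : T ≠ 0) (hTX : X T = 0)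
    (hTY : Y T = 0) {Q : G} (hQ : Q ≠ 0) (hQT : Q + T ≠ 0) : X (Q + T) * X Q = b := by
  have hR : -(Q + T) ≠ 0 := neg_ne_zero.mpr hQT
  have hsum : Q + T + -(Q + T) = 0 := by abel
  obtain ⟨l, m, -, hy₂, -, -, e₂, -⟩ := hL.vieta Q T (-(Q + T)) hQ hT hR hsum
  rw [hL.negX _ hQT, hTX] at e₂
  rw [hTX, hTY] at hy₂
  have hm : m = 0 := by linear_combination -hy₂
  rw [hm] at e₂
  linear_combination e₂

theorem two_nsmul_T (hL : IsLegCoord a b X Y) {T : G} (hT : T ≠ 0) (hTY : Y T = 0) :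
    2 • T = 0 := by
  have h : -T = T :=
    hL.inj (-T) T (neg_ne_zero.mpr hT) hT (hL.negX T hT) (by rw [hL.negY T hT, hTY, neg_zero])
  rw [two_nsmul]
  nth_rewrite 1 [← h]
  exact neg_add_cancel T

end PartB

end Fermat.Agent.S05.helper245
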