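import Fermat.Agent.S05.helper245_LegB

set_option autoImplicit false

/-!
Abstract Legendre-coordinatised groups, part C: the node region `v b < v (X P) < 1` and the
additivity of the component function on collinear triples in the node region.
-/

namespace Fermat.Agent.S05.helper245

section NodeAux

variable {Γ₀ : Type*} [LinearOrderedCommGroupWithZero Γ₀]

/-- Pure value-group bookkeeping for the node triple lemma. -/
theorem node_aux {x₁ x₂ x₃ μ B : Γ₀} {c₁ c₂ c₃ : Prop} [Decidable c₁] [Decidable c₂]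
    [Decidable c₃] (hx₁ : x₁ < 1) (hx₂ : x₂ < 1) (hx₃ : x₃ < 1)
    (h₁0 : x₁ ≠ 0) (h₂0 : x₂ ≠ 0) (h₃0 : x₃ ≠ 0)
    (hμ : μ ^ 2 = x₁ * x₂ * x₃)
    (h₁' : ¬c₁ → μ = x₁) (h₂' : ¬c₂ → μ = x₂) (h₃' : ¬c₃ → μ = x₃)
    (hall : c₁ → c₂ → c₃ → μ = B) :
    (if c₁ then x₁ else B ^ 2 / x₁) * (if c₂ then x₂ else B ^ 2 / x₂) *
      (if c₃ then x₃ else B ^ 2 / x₃) = B ^ 2 := by
  have hμ0 : μ ≠ 0 := by
    intro h
    rw [h, zero_pow (by norm_num)] at hμ
    exact mul_ne_zero (mul_ne_zero h₁0 h₂0) h₃0 hμ.symm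
  by_cases hc₁ : c₁ <;> by_cases hc₂ : c₂ <;> by_cases hc₃ : c₃
  · -- all on the `+` branch
    rw [if_pos hc₁, if_pos hc₂, if_pos hc₃, ← hμ, hall hc₁ hc₂ hc₃]
  · -- only the third on the `-` branch
    rw [if_pos hc₁, if_pos hc₂, if_neg hc₃]
    have e := h₃' hc₃
    rw [← e] at hμ ⊢
    have : μ = x₁ * x₂ := by
      have h : μ * μ = x₁ * x₂ * μ := by rw [← sq]; exact hμ
      exact mul_right_cancel₀ hμ0 h
    rw [← this]
    field_simp
  · rw [if_pos hc₁, if_neg hc₂, if_pos hc₃]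
    have e := h₂' hc₂
    rw [← e] at hμ ⊢
    have : μ = x₁ * x₃ := by
      have h : μ * μ = x₁ * x₃ * μ := by rw [← sq, hμ]; ac_rfl
      exact mul_right_cancel₀ hμ0 h
    rw [mul_right_comm, ← this]
    field_simp
  · exfalso
    have e₂ := h₂' hc₂
    have e₃ := h₃' hc₃
    rw [← e₂, ← e₃] at hμ
    have h : 1 * (μ * μ) = x₁ * (μ * μ) := by
      calc 1 * (μ * μ) = μ ^ 2 := by rw [one_mul, sq]
        _ = _ := hμ
        _ = x₁ * (μ * μ) := by ac_rfl
    have := mul_right_cancel₀ (mul_ne_zero hμ0 hμ0) h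
    exact absurd this.symm hx₁.ne
  · rw [if_neg hc₁, if_pos hc₂, if_pos hc₃]
    have e := h₁' hc₁
    rw [← e] at hμ ⊢
    have : μ = x₂ * x₃ := by
      have h : μ * μ = x₂ * x₃ * μ := by rw [← sq, hμ]; ac_rfl
      exact mul_right_cancel₀ hμ0 h
    rw [mul_assoc, ← this]
    field_simp
  · exfalso
    have e₁ := h₁' hc₁
    have e₃ := h₃' hc₃
    rw [← e₁, ← e₃] at hμ
    have h : 1 * (μ * μ) = x₂ * (μ * μ) := by
      calc 1 * (μ * μ) = μ ^ 2 := by rw [one_mul, sq]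
        _ = _ := hμ
        _ = x₂ * (μ * μ) := by ac_rfl
    have := mul_right_cancel₀ (mul_ne_zero hμ0 hμ0) h
    exact absurd this.symm hx₂.ne
  · exfalso
    have e₁ := h₁' hc₁
    have e₂ := h₂' hc₂
    rw [← e₁, ← e₂] at hμ
    have h : 1 * (μ * μ) = x₃ * (μ * μ) := by
      calc 1 * (μ * μ) = μ ^ 2 := by rw [one_mul, sq]
        _ = _ := hμ
        _ = x₃ * (μ * μ) := by ac_rfl
    have := mul_right_cancel₀ (mul_ne_zero hμ0 hμ0) h
    exact absurd this.symm hx₃.ne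
  · exfalso
    have e₁ := h₁' hc₁
    have e₂ := h₂' hc₂
    rw [← e₁, ← e₂] at hμ
    have h : 1 * (μ * μ) = x₃ * (μ * μ) := by
      calc 1 * (μ * μ) = μ ^ 2 := by rw [one_mul, sq]
        _ = _ := hμ
        _ = x₃ * (μ * μ) := by ac_rfl
    have := mul_right_cancel₀ (mul_ne_zero hμ0 hμ0) h
    exact absurd this.symm hx₃.ne

end NodeAux

section Node

variable {K : Type*} [Field K] {Γ₀ : Type*} [LinearOrderedCommGroupWithZero Γ₀]
  (v : Valuation K Γ₀) {G : Type*} [AddCommGroup G] {a b : K} {X Y : G → K}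

open Classical in
/-- The component function on the node region, relative to a square root `β` of `a`. -/
noncomputable def cc (b : K) (X Y : G → K) (β : K) (P : G) : Γ₀ :=
  if v (Y P - β * X P) < v (X P) then v (X P) else v b ^ 2 / v (X P)

theorem val_beta_eq_one (ha : v a = 1) {β : K} (hβ : β ^ 2 = a) : v β = 1 := by
  apply eq_of_sq_eq_sq'
  rw [← v.map_pow, hβ, ha, one_pow]

/-- In the node region a point lies on exactly one of the two branches `Y ≡ ±β X`. -/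
theorem branch_iff (hL : IsLegCoord a b X Y) (ha : v a = 1) (h2 : v 2 = 1) {β : K}
    (hβ : β ^ 2 = a) {P : G} (hP : P ≠ 0) (hG : v b < v (X P)) (hG' : v (X P) < 1) :
    v (Y P - β * X P) < v (X P) ↔ ¬ v (Y P + β * X P) < v (X P) := by
  have hx0 : (0 : Γ₀) < v (X P) := lt_of_le_of_lt zero_le hG
  have hβ1 : v β = 1 := val_beta_eq_one v ha hβ
  have hprod : (Y P - β * X P) * (Y P + β * X P) = X P ^ 3 + b * X P := by
    linear_combination hL.eqn P hP - X P ^ 2 * hβ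
  have hlt : v (X P ^ 3 + b * X P) < v (X P) * v (X P) := by
    apply v.map_add_lt
    · rw [v.map_pow, pow_succ, sq]
      calc v (X P) * v (X P) * v (X P) < v (X P) * v (X P) * 1 :=
            mul_lt_mul_of_pos_left hG' (mul_pos hx0 hx0)
        _ = v (X P) * v (X P) := mul_one _
    · rw [v.map_mul]
      exact mul_lt_mul_of_pos_right hG hx0
  constructor
  · intro h₁ h₂
    have h3 : v (2 * β * X P) < v (X P) := by
      have : 2 * β * X P = (Y P + β * X P) - (Y P - β * X P) := by ring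
      rw [this]; exact v.map_sub_lt h₂ h₁
    rw [v.map_mul, v.map_mul, h2, hβ1, one_mul, one_mul] at h3
    exact lt_irrefl _ h3
  · intro h₂
    by_contra h₁
    have h₁' : v (X P) ≤ v (Y P - β * X P) := le_of_not_gt h₁
    have h₂' : v (X P) ≤ v (Y P + β * X P) := le_of_not_gt h₂
    have : v (X P) * v (X P) ≤ v (X P ^ 3 + b * X P) := by
      rw [← hprod, v.map_mul]; exact mul_le_mul' h₁' h₂'
    exact absurd hlt (not_lt.mpr this)

theorem cc_neg_mul (hL : IsLegCoord a b X Y) (ha : v a = 1) (h2 : v 2 = 1) {β : K}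
    (hβ : β ^ 2 = a) {P : G} (hP : P ≠ 0) (hG : v b < v (X P)) (hG' : v (X P) < 1) :
    cc v b X Y β (-P) * cc v b X Y β P = v b ^ 2 := by
  have hx0 : v (X P) ≠ 0 := (lt_of_le_of_lt zero_le hG).ne'
  have hbr := branch_iff v hL ha h2 hβ hP hG hG'
  unfold cc
  rw [hL.negX P hP, hL.negY P hP]
  have : -Y P - β * X P = -(Y P + β * X P) := by ring
  rw [this, v.map_neg]
  by_cases h : v (Y P - β * X P) < v (X P)
  · rw [if_pos h, if_neg (hbr.mp h)]
    exact div_mul_cancel₀ _ hx0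
  · have h' : v (Y P + β * X P) < v (X P) := by
      by_contra hc; exact h (hbr.mpr hc)
    rw [if_neg h, if_pos h']
    exact mul_div_cancel₀ _ hx0

theorem cc_neg_beta (hL : IsLegCoord a b X Y) {β : K} {P : G} (hP : P ≠ 0) :
    cc v b X Y (-β) P = cc v b X Y β (-P) := by
  unfold cc
  rw [hL.negX P hP, hL.negY P hP]
  have h1 : Y P - -β * X P = Y P + β * X P := by ring
  have h2 : -Y P - β * X P = -(Y P + β * X P) := by ring
  rw [h1, h2, v.map_neg]

theorem cc_ne_zero (hb0 : b ≠ 0) {β : K} {P : G} (hG : v b < v (X P)) :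
    cc v b X Y β P ≠ 0 := by
  have hx0 : v (X P) ≠ 0 := (lt_of_le_of_lt zero_le hG).ne'
  have hb0' : v b ≠ 0 := (v.ne_zero_iff).mpr hb0
  unfold cc
  split_ifs
  · exact hx0
  · exact div_ne_zero (pow_ne_zero 2 hb0') hx0

theorem val_X_eq_cc_or (hb0 : b ≠ 0) {β : K} {P : G} (hG : v b < v (X P)) :
    v (X P) = cc v b X Y β P ∨ v (X P) = v b ^ 2 / cc v b X Y β P := by
  have hx0 : v (X P) ≠ 0 := (lt_of_le_of_lt zero_le hG).ne'
  have hb0' : v b ≠ 0 := (v.ne_zero_iff).mpr hb0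
  unfold cc
  split_ifs
  · left; rfl
  · right
    rw [div_div_cancel₀ (pow_ne_zero 2 hb0')]

/-- The node triple lemma when the slope is congruent to `β`. -/
theorem node_triple_aux (hL : IsLegCoord a b X Y) (ha : v a = 1) (hb0 : b ≠ 0)
    (h2 : v 2 = 1) {β : K} (hβ : β ^ 2 = a) {P₁ P₂ P₃ : G}
    (h₁ : P₁ ≠ 0) (h₂ : P₂ ≠ 0) (h₃ : P₃ ≠ 0)
    (hG₁ : v b < v (X P₁)) (hG₁' : v (X P₁) < 1)
    (hG₂ : v b < v (X P₂)) (hG₂' : v (X P₂) < 1)
    (hG₃ : v b < v (X P₃)) (hG₃' : v (X P₃) < 1) {l m : K}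
    (hy₁ : Y P₁ = l * X P₁ + m) (hy₂ : Y P₂ = l * X P₂ + m) (hy₃ : Y P₃ = l * X P₃ + m)
    (e₂ : X P₁ * X P₂ + X P₁ * X P₃ + X P₂ * X P₃ = b - 2 * l * m)
    (e₃ : X P₁ * X P₂ * X P₃ = m ^ 2) (hl : v (l - β) < 1) :
    cc v b X Y β P₁ * cc v b X Y β P₂ * cc v b X Y β P₃ = v b ^ 2 := by
  have hβ1 : v β = 1 := val_beta_eq_one v ha hβ
  have hx₁0 : (0 : Γ₀) < v (X P₁) := lt_of_le_of_lt zero_le hG₁
  have hx₂0 : (0 : Γ₀) < v (X P₂) := lt_of_le_of_lt zero_le hG₂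
  have hx₃0 : (0 : Γ₀) < v (X P₃) := lt_of_le_of_lt zero_le hG₃
  have hm2 : v m ^ 2 = v (X P₁) * v (X P₂) * v (X P₃) := by
    rw [← v.map_pow, ← e₃, v.map_mul, v.map_mul]
  have hvl : v l = 1 := by
    have : l = β + (l - β) := by ring
    rw [this, v.map_add_eq_of_lt_left (by rw [hβ1]; exact hl), hβ1]
  -- the two branch facts, for a general point on the line
  have plus : ∀ P : G, Y P = l * X P + m → 0 < v (X P) →
      v (Y P - β * X P) < v (X P) → v m < v (X P) := by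
    intro P hy hx0 hc
    have : m = (Y P - β * X P) - (l - β) * X P := by rw [hy]; ring
    rw [this]
    apply v.map_sub_lt hc
    rw [v.map_mul]
    calc v (l - β) * v (X P) < 1 * v (X P) := mul_lt_mul_of_pos_right hl hx0
      _ = v (X P) := one_mul _
  have minus : ∀ P : G, P ≠ 0 → Y P = l * X P + m → v b < v (X P) → v (X P) < 1 →
      ¬ v (Y P - β * X P) < v (X P) → v m = v (X P) := by
    intro P hP hy hG hG' hc
    have hx0 : (0 : Γ₀) < v (X P) := lt_of_le_of_lt zero_le hG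
    have hc' : v (Y P + β * X P) < v (X P) := by
      by_contra h; exact hc ((branch_iff v hL ha h2 hβ hP hG hG').mpr h)
    have : m = ((Y P + β * X P) - (l - β) * X P) - 2 * β * X P := by rw [hy]; ring
    rw [this]
    have h2β : v (2 * β * X P) = v (X P) := by
      rw [v.map_mul, v.map_mul, h2, hβ1, one_mul, one_mul]
    have hsmall : v ((Y P + β * X P) - (l - β) * X P) < v (2 * β * X P) := by
      rw [h2β]
      apply v.map_sub_lt hc'
      rw [v.map_mul]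
      calc v (l - β) * v (X P) < 1 * v (X P) := mul_lt_mul_of_pos_right hl hx0
        _ = v (X P) := one_mul _
    rw [v.map_sub_eq_of_lt_right hsmall, h2β]
  unfold cc
  refine node_aux hG₁' hG₂' hG₃' hx₁0.ne' hx₂0.ne' hx₃0.ne' hm2
    (minus P₁ h₁ hy₁ hG₁ hG₁') (minus P₂ h₂ hy₂ hG₂ hG₂') (minus P₃ h₃ hy₃ hG₃ hG₃') ?_
  intro hc₁ hc₂ hc₃
  have hm₁ := plus P₁ hy₁ hx₁0 hc₁
  have hm₂ := plus P₂ hy₂ hx₂0 hc₂
  have hm₃ := plus P₃ hy₃ hx₃0 hc₃
  have hm0 : (0 : Γ₀) < v m := by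
    rcases (zero_le (a := v m)).lt_or_eq with h | h
    · exact h
    · rw [← h, zero_pow (by norm_num)] at hm2
      exact absurd hm2.symm (mul_pos (mul_pos hx₁0 hx₂0) hx₃0).ne'
  -- each pairwise product is smaller than `m`
  have pair : ∀ x y z : Γ₀, v m ^ 2 = x * y * z → v m < z → x * y < v m := by
    intro x y z hxyz hz
    by_contra hge
    have hge' : v m ≤ x * y := le_of_not_gt hge
    have h1 : v m * z ≤ v m * v m := by
      calc v m * z ≤ x * y * z := by gcongr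
        _ = v m * v m := by rw [← hxyz, sq]
    have h3 : z ≤ v m := le_of_mul_le_mul_left h1 hm0
    exact absurd hz (not_lt.mpr h3)
  have p12 : v (X P₁ * X P₂) < v m := by
    rw [v.map_mul]; exact pair _ _ _ hm2 hm₃
  have p13 : v (X P₁ * X P₃) < v m := by
    rw [v.map_mul]; exact pair _ _ _ (by rw [hm2]; ac_rfl) hm₂
  have p23 : v (X P₂ * X P₃) < v m := by
    rw [v.map_mul]; exact pair _ _ _ (by rw [hm2]; ac_rfl) hm₁
  have hb' : b = 2 * l * m + (X P₁ * X P₂ + X P₁ * X P₃ + X P₂ * X P₃) := by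
    linear_combination -e₂
  have h2lm : v (2 * l * m) = v m := by rw [v.map_mul, v.map_mul, h2, hvl, one_mul, one_mul]
  have : v b = v m := by
    rw [hb', v.map_add_eq_of_lt_left, h2lm]
    rw [h2lm]
    exact v.map_add_lt (v.map_add_lt p12 p13) p23
  exact this.symm

/-- **Additivity of the component function on collinear triples in the node region.** -/
theorem node_triple (hL : IsLegCoord a b X Y) (ha : v a = 1) (hb0 : b ≠ 0)
    (h2 : v 2 = 1) {β : K} (hβ : β ^ 2 = a) {P₁ P₂ P₃ : G}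
    (h₁ : P₁ ≠ 0) (h₂ : P₂ ≠ 0) (h₃ : P₃ ≠ 0) (hs : P₁ + P₂ + P₃ = 0)
    (hG₁ : v b < v (X P₁)) (hG₁' : v (X P₁) < 1)
    (hG₂ : v b < v (X P₂)) (hG₂' : v (X P₂) < 1)
    (hG₃ : v b < v (X P₃)) (hG₃' : v (X P₃) < 1) :
    cc v b X Y β P₁ * cc v b X Y β P₂ * cc v b X Y β P₃ = v b ^ 2 ∨
      cc v b X Y β P₁ * cc v b X Y β P₂ * cc v b X Y β P₃ = v b ^ 4 := by
  obtain ⟨l, m, hy₁, hy₂, hy₃, e₁, e₂, e₃⟩ := hL.vieta P₁ P₂ P₃ h₁ h₂ h₃ hs
  have hb0' : v b ≠ 0 := (v.ne_zero_iff).mpr hb0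
  have hfac : v ((l - β) * (l + β)) < 1 := by
    have : (l - β) * (l + β) = X P₁ + X P₂ + X P₃ := by linear_combination -e₁ - hβ
    rw [this]
    exact v.map_add_lt (v.map_add_lt hG₁' hG₂') hG₃'
  have hor : v (l - β) < 1 ∨ v (l + β) < 1 := by
    by_contra hcon
    have h1 : 1 ≤ v (l - β) := le_of_not_gt (fun h => hcon (Or.inl h))
    have h2' : 1 ≤ v (l + β) := le_of_not_gt (fun h => hcon (Or.inr h))
    rw [v.map_mul] at hfac
    have : (1 : Γ₀) ≤ v (l - β) * v (l + β) := by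
      calc (1 : Γ₀) = 1 * 1 := (one_mul 1).symm
        _ ≤ v (l - β) * v (l + β) := mul_le_mul' h1 h2'
    exact absurd hfac (not_lt.mpr this)
  rcases hor with hl | hl
  · left
    exact node_triple_aux v hL ha hb0 h2 hβ h₁ h₂ h₃ hG₁ hG₁' hG₂ hG₂' hG₃ hG₃' hy₁ hy₂ hy₃ e₂ e₃ hl
  · right
    have hβ' : (-β) ^ 2 = a := by rw [neg_sq]; exact hβ
    have hl' : v (l - -β) < 1 := by rw [sub_neg_eq_add]; exact hl
    have key := node_triple_aux v hL ha hb0 h2 hβ' h₁ h₂ h₃ hG₁ hG₁' hG₂ hG₂' hG₃ hG₃'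
      hy₁ hy₂ hy₃ e₂ e₃ hl'
    rw [cc_neg_beta v hL h₁, cc_neg_beta v hL h₂, cc_neg_beta v hL h₃] at key
    have k₁ := cc_neg_mul v hL ha h2 hβ h₁ hG₁ hG₁'
    have k₂ := cc_neg_mul v hL ha h2 hβ h₂ hG₂ hG₂'
    have k₃ := cc_neg_mul v hL ha h2 hβ h₃ hG₃ hG₃'
    have hmul : v b ^ 2 * (cc v b X Y β P₁ * cc v b X Y β P₂ * cc v b X Y β P₃) =
        v b ^ 2 * v b ^ 4 := by
      calc v b ^ 2 * (cc v b X Y β P₁ * cc v b X Y β P₂ * cc v b X Y β P₃)
          = (cc v b X Y β (-P₁) * cc v b X Y β (-P₂) * cc v b X Y β (-P₃)) *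
              (cc v b X Y β P₁ * cc v b X Y β P₂ * cc v b X Y β P₃) := by rw [key]
        _ = (cc v b X Y β (-P₁) * cc v b X Y β P₁) * (cc v b X Y β (-P₂) * cc v b X Y β P₂) *
              (cc v b X Y β (-P₃) * cc v b X Y β P₃) := by ac_rfl
        _ = v b ^ 2 * v b ^ 2 * v b ^ 2 := by rw [k₁, k₂, k₃]
        _ = v b ^ 2 * v b ^ 4 := by rw [mul_assoc, ← pow_add]
    exact mul_left_cancel₀ (pow_ne_zero 2 hb0') hmul

end Node

end Fermat.Agent.S05.helper245
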