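import Fermat.Agent.S05.helper245_LegC

set_option autoImplicit false

/-!
Abstract Legendre-coordinatised groups, part D: the main theorems. An additive endomorphism `τ`
acting on coordinates through a map `s` which is trivial modulo the maximal ideal fixes all
`p`-torsion points, in the good reduction case and in the node case with `v b` a `p`-th power of
the valuation of an `s`-fixed element.
-/

namespace Fermat.Agent.S05.helper245

section Main

variable {K : Type*} [Field K] {Γ₀ : Type*} [LinearOrderedCommGroupWithZero Γ₀]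
  (v : Valuation K Γ₀) {G : Type*} [AddCommGroup G] {a b : K} {X Y : G → K}

/-- Common endgame. -/
theorem fixed_of_close (hL : IsLegCoord a b X Y) (ha : v a ≤ 1) (hb : v b ≤ 1) (h2 : v 2 = 1)
    {p : ℕ} (hp : v (p : K) = 1) (τ : G →+ G) (hτ0 : ∀ P, P ≠ 0 → τ P ≠ 0)
    {P : G} (hP : P ≠ 0) (hpP : p • P = 0) (hXP : v (X P) ≤ 1) (hYP : v (Y P) ≤ 1)
    (hX : v (X P - X (τ P)) < v (Y P)) (hY : v (Y P - Y (τ P)) < v (Y P)) : τ P = P := by
  by_contra hne
  have h1 := close_sub_mem_E1 v hL ha h2 hP (hτ0 P hP) (Ne.symm hne) hXP hYP hX hY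
  have hD : P - τ P ≠ 0 := sub_ne_zero.mpr (Ne.symm hne)
  have hpD : p • (P - τ P) = 0 := by rw [smul_sub, ← map_nsmul, hpP, map_zero, sub_zero]
  exact E1_torsion_free v hL ha hb hp hD h1 hpD

theorem val_Y_le_one (hL : IsLegCoord a b X Y) (ha : v a ≤ 1) (hb : v b ≤ 1) {P : G}
    (hP : P ≠ 0) (hXP : v (X P) ≤ 1) : v (Y P) ≤ 1 := by
  apply le_of_sq_le_sq'
  rw [← v.map_pow, hL.eqn P hP, one_pow]
  apply v.map_add_le (v.map_add_le ?_ ?_) ?_
  · rw [v.map_pow]; exact pow_le_one₀ zero_le hXP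
  · rw [v.map_mul, v.map_pow]
    calc v a * v (X P) ^ 2 ≤ 1 * 1 := mul_le_mul' ha (pow_le_one₀ zero_le hXP)
      _ = 1 := one_mul 1
  · rw [v.map_mul]
    calc v b * v (X P) ≤ 1 * 1 := mul_le_mul' hb hXP
      _ = 1 := one_mul 1

/-- At a point with unit `X` and non-unit `Y`, the derivative of the cubic is a unit. -/
theorem val_deriv_eq_one (hL : IsLegCoord a b X Y) (hdisc : v (a ^ 2 - 4 * b) = 1)
    {P : G} (hP : P ≠ 0) (hX : v (X P) = 1) (hY : v (Y P) < 1) :
    v (3 * X P ^ 2 + 2 * a * X P + b) = 1 := by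
  have hg : v (X P ^ 2 + a * X P + b) < 1 := by
    have h1 : Y P ^ 2 = X P * (X P ^ 2 + a * X P + b) := by rw [hL.eqn P hP]; ring
    have h2 : v (Y P) ^ 2 = v (X P ^ 2 + a * X P + b) := by
      rw [← v.map_pow, h1, v.map_mul, hX, one_mul]
    rw [← h2]
    calc v (Y P) ^ 2 = v (Y P) * v (Y P) := sq _
      _ ≤ 1 * v (Y P) := by gcongr
      _ = v (Y P) := one_mul _
      _ < 1 := hY
  have h2xa : v (2 * X P + a) = 1 := by
    apply eq_of_sq_eq_sq'
    have : (2 * X P + a) ^ 2 = (a ^ 2 - 4 * b) + 4 * (X P ^ 2 + a * X P + b) := by ring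
    rw [← v.map_pow, this, one_pow]
    have h4 : v (4 * (X P ^ 2 + a * X P + b)) < v (a ^ 2 - 4 * b) := by
      rw [hdisc, v.map_mul]
      calc v 4 * v (X P ^ 2 + a * X P + b) ≤ 1 * v (X P ^ 2 + a * X P + b) := by
            gcongr; exact val_four_le_one v
        _ = v (X P ^ 2 + a * X P + b) := one_mul _
        _ < 1 := hg
    rw [v.map_add_eq_of_lt_left h4, hdisc]
  have : 3 * X P ^ 2 + 2 * a * X P + b = X P * (2 * X P + a) + (X P ^ 2 + a * X P + b) := by
    ring
  rw [this]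
  have h1 : v (X P * (2 * X P + a)) = 1 := by rw [v.map_mul, hX, h2xa, one_mul]
  rw [v.map_add_eq_of_lt_left (by rw [h1]; exact hg), h1]

/-- A nonzero `p`-torsion point (`p` odd) with integral `X` and nonsingular reduction has unit
`Y`-coordinate. -/
theorem val_Y_eq_one_of_torsion (hL : IsLegCoord a b X Y) (ha : v a ≤ 1) (hb : v b ≤ 1)
    (h2 : v 2 = 1) {p : ℕ} (hp : v (p : K) = 1) (hodd : Odd p) {P : G} (hP : P ≠ 0)
    (hpP : p • P = 0) (hXP : v (X P) ≤ 1)
    (hf' : v (Y P) < 1 → v (3 * X P ^ 2 + 2 * a * X P + b) = 1) : v (Y P) = 1 := by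
  rcases (val_Y_le_one v hL ha hb hP hXP).lt_or_eq with hlt | heq
  · exfalso
    by_cases h2P : 2 • P = 0
    · obtain ⟨k, hk⟩ := hodd
      have : p • P = P := by
        rw [hk, add_nsmul, mul_nsmul, h2P, nsmul_zero, zero_add, one_nsmul]
      rw [this] at hpP
      exact hP hpP
    · have h1 := double_mem_E1 v hL ha h2 hP h2P hXP hlt (hf' hlt)
      have hp2 : p • (2 • P) = 0 := by rw [smul_comm, hpP, nsmul_zero]
      exact E1_torsion_free v hL ha hb hp h2P h1 hp2
  · exact heq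

/-- **Good reduction**: `τ` fixes the `p`-torsion. -/
theorem good_main (hL : IsLegCoord a b X Y) (ha : v a ≤ 1) (hb : v b = 1)
    (hdisc : v (a ^ 2 - 4 * b) = 1) (h2 : v 2 = 1) {p : ℕ} (hp : v (p : K) = 1) (hodd : Odd p)
    (τ : G →+ G) (hτ0 : ∀ P, P ≠ 0 → τ P ≠ 0) (s : K → K)
    (hτX : ∀ P, P ≠ 0 → X (τ P) = s (X P)) (hτY : ∀ P, P ≠ 0 → Y (τ P) = s (Y P))
    (hs : ∀ u, v u ≤ 1 → v (s u - u) < 1) {P : G} (hpP : p • P = 0) : τ P = P := by
  by_cases hP : P = 0
  · rw [hP, map_zero]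
  by_cases hx : 1 < v (X P)
  · exact absurd hpP (E1_torsion_free v hL ha hb.le hp hP hx)
  have hXP : v (X P) ≤ 1 := le_of_not_gt hx
  have hf' : v (Y P) < 1 → v (3 * X P ^ 2 + 2 * a * X P + b) = 1 := by
    intro hY
    rcases hXP.lt_or_eq with hlt | heq
    · have : 3 * X P ^ 2 + 2 * a * X P + b = b + (3 * X P + 2 * a) * X P := by ring
      rw [this]
      have hsmall : v ((3 * X P + 2 * a) * X P) < v b := by
        rw [hb, v.map_mul]
        have h3 : v (3 * X P + 2 * a) ≤ 1 := by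
          apply v.map_add_le
          · rw [v.map_mul]
            calc v 3 * v (X P) ≤ 1 * 1 := mul_le_mul' (val_three_le_one v) hXP
              _ = 1 := one_mul 1
          · rw [v.map_mul, h2, one_mul]; exact ha
        calc v (3 * X P + 2 * a) * v (X P) ≤ 1 * v (X P) := by gcongr
          _ = v (X P) := one_mul _
          _ < 1 := hlt
      rw [v.map_add_eq_of_lt_left hsmall, hb]
    · exact val_deriv_eq_one v hL hdisc hP heq hY
  have hYP : v (Y P) = 1 := val_Y_eq_one_of_torsion v hL ha hb.le h2 hp hodd hP hpP hXP hf'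
  apply fixed_of_close v hL ha hb.le h2 hp τ hτ0 hP hpP hXP hYP.le
  · rw [hYP, hτX P hP, v.map_sub_swap]; exact hs _ hXP
  · rw [hYP, hτY P hP, v.map_sub_swap]; exact hs _ hYP.le

end Main

end Fermat.Agent.S05.helper245
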