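import Fermat.Agent.S05.helper245_LegD

set_option autoImplicit false

/-!
Abstract Legendre-coordinatised groups, part E: the node case main theorem.
-/

namespace Fermat.Agent.S05.helper245

section NodeMain

variable {K : Type*} [Field K] {Γ₀ : Type*} [LinearOrderedCommGroupWithZero Γ₀]
  (v : Valuation K Γ₀) {G : Type*} [AddCommGroup G] {a b : K} {X Y : G → K}

/-- `E₀ = {0} ∪ {v(X) ≥ 1}` as a subgroup (node case). -/
def E0 (hL : IsLegCoord a b X Y) (ha : v a ≤ 1) (hb : v b < 1) (h2 : v 2 = 1) :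
    AddSubgroup G where
  carrier := {Q | Q = 0 ∨ 1 ≤ v (X Q)}
  zero_mem' := Or.inl rfl
  add_mem' := by
    intro P Q hP hQ
    by_cases hP0 : P = 0
    · rw [hP0, zero_add]; exact hQ
    by_cases hQ0 : Q = 0
    · rw [hQ0, add_zero]; exact hP
    by_cases hPQ : P + Q = 0
    · exact Or.inl hPQ
    right
    have hxP : 1 ≤ v (X P) := hP.resolve_left hP0
    have hxQ : 1 ≤ v (X Q) := hQ.resolve_left hQ0
    have hR : -(P + Q) ≠ 0 := neg_ne_zero.mpr hPQ
    have := E0_triple v hL ha hb h2 hP0 hQ0 hR (by abel) hxP hxQ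
    rwa [hL.negX _ hPQ] at this
  neg_mem' := by
    intro P hP
    by_cases hP0 : P = 0
    · left; rw [hP0, neg_zero]
    right
    rw [hL.negX P hP0]; exact hP.resolve_left hP0

theorem mem_E0_iff (hL : IsLegCoord a b X Y) (ha : v a ≤ 1) (hb : v b < 1) (h2 : v 2 = 1)
    {P : G} : P ∈ E0 v hL ha hb h2 ↔ P = 0 ∨ 1 ≤ v (X P) := Iff.rfl

omit [AddCommGroup G] in
theorem mem_of_nsmul_mem {G : Type*} [AddCommGroup G] {H : AddSubgroup G} {p k : ℕ}
    (hpp : p.Prime) (hk : ¬ p ∣ k) {P : G} (hpP : p • P = 0) (hkP : k • P ∈ H) : P ∈ H := by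
  have hcop : Nat.gcd k p = 1 :=
    Nat.Coprime.symm ((Nat.Prime.coprime_iff_not_dvd hpp).mpr hk)
  have h := Nat.gcd_eq_gcd_ab k p
  rw [hcop] at h
  have hP : P = (Nat.gcdA k p) • (k • P) + (Nat.gcdB k p) • (p • P) := by
    calc P = ((1 : ℕ) : ℤ) • P := by simp
      _ = ((k : ℤ) * Nat.gcdA k p + (p : ℤ) * Nat.gcdB k p) • P := by rw [h]
      _ = (Nat.gcdA k p) • ((k : ℤ) • P) + (Nat.gcdB k p) • ((p : ℤ) • P) := by
          rw [add_smul, mul_comm (k : ℤ), mul_comm (p : ℤ), mul_smul, mul_smul]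
      _ = (Nat.gcdA k p) • (k • P) + (Nat.gcdB k p) • (p • P) := by
          rw [natCast_zsmul, natCast_zsmul]
  rw [hP, hpP, smul_zero, add_zero]
  exact H.zsmul_mem hkP _

/-- Multiples (prime to `p`) of a `p`-torsion point outside `E₀` lie in the node region. -/
theorem node_region_of_multiple (hL : IsLegCoord a b X Y) (ha : v a ≤ 1) (hb : v b < 1)
    (hb0 : b ≠ 0) (h2 : v 2 = 1) {T : G} (hT : T ≠ 0) (hTX : X T = 0) (hTY : Y T = 0)
    {p : ℕ} (hpp : p.Prime) (hp2 : p ≠ 2) {P : G} (hpP : p • P = 0) (hP : P ≠ 0)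
    (hxP : v (X P) < 1) {k : ℕ} (hk : ¬ p ∣ k) :
    k • P ≠ 0 ∧ v b < v (X (k • P)) ∧ v (X (k • P)) < 1 := by
  have hPE : P ∉ E0 v hL ha hb h2 := by
    rintro (h | h)
    · exact hP h
    · exact absurd hxP (not_lt.mpr h)
  have hkE : k • P ∉ E0 v hL ha hb h2 := fun h => hPE (mem_of_nsmul_mem hpp hk hpP h)
  have hk0 : k • P ≠ 0 := fun h => hkE (Or.inl h)
  have hkx : v (X (k • P)) < 1 := lt_of_not_ge (fun h => hkE (Or.inr h))
  refine ⟨hk0, ?_, hkx⟩
  by_contra hle
  have hle' : v (X (k • P)) ≤ v b := le_of_not_gt hle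
  have h2k : ¬ p ∣ 2 * k := by
    intro h
    rcases (Nat.Prime.dvd_mul hpp).mp h with h | h
    · exact hp2 ((Nat.prime_dvd_prime_iff_eq hpp Nat.prime_two).mp h)
    · exact hk h
  apply hPE
  apply mem_of_nsmul_mem hpp h2k hpP
  have h2T := two_nsmul_T hL hT hTY
  by_cases hQT : k • P + T = 0
  · have hQ : k • P = -T := eq_neg_of_add_eq_zero_left hQT
    have : (2 * k) • P = 0 := by
      rw [mul_nsmul', hQ, smul_neg, h2T, neg_zero]
    rw [this]; exact zero_mem _
  · have hmul := X_add_T_mul hL hT hTX hTY hk0 hQT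
    have hge : 1 ≤ v (X (k • P + T)) := by
      by_contra hlt
      have hlt' : v (X (k • P + T)) < 1 := lt_of_not_ge hlt
      have hXQ0 : (0 : Γ₀) < v (X (k • P)) := by
        rw [v.pos_iff]; intro h0; rw [h0, mul_zero] at hmul; exact hb0 hmul.symm
      have : v b < v (X (k • P)) := by
        rw [← hmul, v.map_mul]
        calc v (X (k • P + T)) * v (X (k • P)) < 1 * v (X (k • P)) :=
              mul_lt_mul_of_pos_right hlt' hXQ0
          _ = v (X (k • P)) := one_mul _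
      exact absurd this (not_lt.mpr hle')
    have hmem : k • P + T ∈ E0 v hL ha hb h2 := Or.inr hge
    have : (2 * k) • P = 2 • (k • P + T) := by
      rw [smul_add, h2T, add_zero, mul_nsmul']
    rw [this]; exact nsmul_mem hmem 2

/-- The component function is "multiplicative" along multiples of a `p`-torsion point in the
node region. -/
theorem cc_multiples (hL : IsLegCoord a b X Y) (ha : v a = 1) (hb : v b < 1) (hb0 : b ≠ 0)
    (h2 : v 2 = 1) {β : K} (hβ : β ^ 2 = a) {T : G} (hT : T ≠ 0) (hTX : X T = 0)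
    (hTY : Y T = 0) {p : ℕ} (hpp : p.Prime) (hp2 : p ≠ 2) {P : G} (hpP : p • P = 0)
    (hP : P ≠ 0) (hxP : v (X P) < 1) (k : ℕ) (hk1 : 1 ≤ k) :
    k < p → ∃ j : ℕ, cc v b X Y β (k • P) * v b ^ (2 * j) = cc v b X Y β P ^ k := by
  have h1p : ¬ p ∣ 1 := Nat.not_dvd_of_pos_of_lt one_pos hpp.one_lt
  have hPb : v b < v (X P) := by
    have := node_region_of_multiple v hL ha.le hb hb0 h2 hT hTX hTY hpp hp2 hpP hP hxP h1p
    rw [one_nsmul] at this; exact this.2.1
  induction k, hk1 using Nat.le_induction with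
  | base => intro _; exact ⟨0, by simp⟩
  | succ k hk1 ih =>
    intro hk
    obtain ⟨j, hj⟩ := ih (by omega)
    have hkp : ¬ p ∣ k := Nat.not_dvd_of_pos_of_lt (by omega) (by omega)
    have hk1p : ¬ p ∣ k + 1 := Nat.not_dvd_of_pos_of_lt (by omega) hk
    obtain ⟨hQ0, hQb, hQ1⟩ :=
      node_region_of_multiple v hL ha.le hb hb0 h2 hT hTX hTY hpp hp2 hpP hP hxP hkp
    obtain ⟨hR0, hRb, hR1⟩ :=
      node_region_of_multiple v hL ha.le hb hb0 h2 hT hTX hTY hpp hp2 hpP hP hxP hk1p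
    have hR0' : -((k + 1) • P) ≠ 0 := neg_ne_zero.mpr hR0
    have hsum : k • P + P + -((k + 1) • P) = 0 := by rw [succ_nsmul]; abel
    have hRb' : v b < v (X (-((k + 1) • P))) := by rw [hL.negX _ hR0]; exact hRb
    have hR1' : v (X (-((k + 1) • P))) < 1 := by rw [hL.negX _ hR0]; exact hR1
    have tri := node_triple v hL ha hb0 h2 hβ hQ0 hP hR0' hsum hQb hQ1 hPb hxP hRb' hR1'
    have kneg := cc_neg_mul v hL ha h2 hβ hR0 hRb hR1
    have hn0 : cc v b X Y β (-((k + 1) • P)) ≠ 0 := cc_ne_zero v hb0 hRb'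
    rcases tri with tri | tri
    · refine ⟨j, ?_⟩
      have e : cc v b X Y β (k • P) * cc v b X Y β P = cc v b X Y β ((k + 1) • P) := by
        have : cc v b X Y β (-((k + 1) • P)) * (cc v b X Y β (k • P) * cc v b X Y β P) =
            cc v b X Y β (-((k + 1) • P)) * cc v b X Y β ((k + 1) • P) := by
          rw [kneg, ← tri]; ac_rfl
        exact mul_left_cancel₀ hn0 this
      calc cc v b X Y β ((k + 1) • P) * v b ^ (2 * j)
          = cc v b X Y β (k • P) * cc v b X Y β P * v b ^ (2 * j) := by rw [e]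
        _ = (cc v b X Y β (k • P) * v b ^ (2 * j)) * cc v b X Y β P := by ac_rfl
        _ = cc v b X Y β P ^ k * cc v b X Y β P := by rw [hj]
        _ = cc v b X Y β P ^ (k + 1) := (pow_succ _ _).symm
    · refine ⟨j + 1, ?_⟩
      have e : cc v b X Y β (k • P) * cc v b X Y β P =
          v b ^ 2 * cc v b X Y β ((k + 1) • P) := by
        have : cc v b X Y β (-((k + 1) • P)) * (cc v b X Y β (k • P) * cc v b X Y β P) =
            cc v b X Y β (-((k + 1) • P)) * (v b ^ 2 * cc v b X Y β ((k + 1) • P)) := by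
          calc cc v b X Y β (-((k + 1) • P)) * (cc v b X Y β (k • P) * cc v b X Y β P)
              = cc v b X Y β (k • P) * cc v b X Y β P * cc v b X Y β (-((k + 1) • P)) := by
                ac_rfl
            _ = v b ^ 4 := tri
            _ = v b ^ 2 * v b ^ 2 := by rw [← pow_add]
            _ = v b ^ 2 * (cc v b X Y β (-((k + 1) • P)) * cc v b X Y β ((k + 1) • P)) := by
                rw [kneg]
            _ = cc v b X Y β (-((k + 1) • P)) * (v b ^ 2 * cc v b X Y β ((k + 1) • P)) := by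
                ac_rfl
        exact mul_left_cancel₀ hn0 this
      calc cc v b X Y β ((k + 1) • P) * v b ^ (2 * (j + 1))
          = (v b ^ 2 * cc v b X Y β ((k + 1) • P)) * v b ^ (2 * j) := by
            rw [mul_add, pow_add, mul_one]; ac_rfl
        _ = cc v b X Y β (k • P) * cc v b X Y β P * v b ^ (2 * j) := by rw [e]
        _ = (cc v b X Y β (k • P) * v b ^ (2 * j)) * cc v b X Y β P := by ac_rfl
        _ = cc v b X Y β P ^ (k + 1) := by rw [hj, pow_succ]

/-- **Node case**: `τ` fixes the `p`-torsion when `v b` is a `p`-th power of the valuation of an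
`s`-fixed element. -/
theorem node_main (hL : IsLegCoord a b X Y) (ha : v a = 1) (hb : v b < 1) (hb0 : b ≠ 0)
    (h2 : v 2 = 1) {β : K} (hβ : β ^ 2 = a) {T : G} (hT : T ≠ 0) (hTX : X T = 0)
    (hTY : Y T = 0) {p : ℕ} (hpp : p.Prime) (hp2 : p ≠ 2) (hp : v (p : K) = 1)
    (τ : G →+ G) (hτ0 : ∀ P, P ≠ 0 → τ P ≠ 0) (s : K →+* K)
    (hτX : ∀ P, P ≠ 0 → X (τ P) = s (X P)) (hτY : ∀ P, P ≠ 0 → Y (τ P) = s (Y P))
    (hs : ∀ u, v u ≤ 1 → v (s u - u) < 1) {d : K} (hd : s d = d) (hbd : v b = v d ^ p)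
    {P : G} (hpP : p • P = 0) : τ P = P := by
  by_cases hP : P = 0
  · rw [hP, map_zero]
  have hodd : Odd p := hpp.odd_of_ne_two hp2
  have hp3 : 3 ≤ p := by
    have := hpp.two_le
    omega
  have hdisc : v (a ^ 2 - 4 * b) = 1 := by
    have h4b : v (4 * b) < v (a ^ 2) := by
      rw [v.map_pow, ha, one_pow, v.map_mul]
      calc v 4 * v b ≤ 1 * v b := by gcongr; exact val_four_le_one v
        _ = v b := one_mul _
        _ < 1 := hb
    rw [v.map_sub_eq_of_lt_left h4b, v.map_pow, ha, one_pow]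
  by_cases hx : 1 < v (X P)
  · exact absurd hpP (E1_torsion_free v hL ha.le hb.le hp hP hx)
  have hXP : v (X P) ≤ 1 := le_of_not_gt hx
  rcases hXP.lt_or_eq with hlt | heq
  · -- the node region
    have h1p : ¬ p ∣ 1 := Nat.not_dvd_of_pos_of_lt one_pos hpp.one_lt
    have hPb : v b < v (X P) := by
      have := node_region_of_multiple v hL ha.le hb hb0 h2 hT hTX hTY hpp hp2 hpP hP hlt h1p
      rw [one_nsmul] at this; exact this.2.1
    obtain ⟨j, hj⟩ := cc_multiples v hL ha hb hb0 h2 hβ hT hTX hTY hpp hp2 hpP hP hlt (p - 1)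
      (by omega) (by omega)
    have hneg : (p - 1) • P = -P := by
      have : (p - 1) • P + P = 0 := by
        rw [← succ_nsmul, Nat.sub_add_cancel hpp.one_le]; exact hpP
      exact eq_neg_of_add_eq_zero_left this
    rw [hneg] at hj
    have kneg := cc_neg_mul v hL ha h2 hβ hP hPb hlt
    have hc : cc v b X Y β P ^ p = (v d ^ (2 * (j + 1))) ^ p := by
      calc cc v b X Y β P ^ p = cc v b X Y β P ^ (p - 1) * cc v b X Y β P := by
            rw [← pow_succ, Nat.sub_add_cancel hpp.one_le]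
        _ = cc v b X Y β (-P) * v b ^ (2 * j) * cc v b X Y β P := by rw [hj]
        _ = (cc v b X Y β (-P) * cc v b X Y β P) * v b ^ (2 * j) := by ac_rfl
        _ = v b ^ 2 * v b ^ (2 * j) := by rw [kneg]
        _ = v b ^ (2 * (j + 1)) := by rw [← pow_add]; congr 1; ring
        _ = (v d ^ (2 * (j + 1))) ^ p := by rw [hbd, ← pow_mul, ← pow_mul, mul_comm]
    have hc' : cc v b X Y β P = v d ^ (2 * (j + 1)) :=
      (pow_left_inj₀ zero_le zero_le hpp.ne_zero).mp hc
    obtain ⟨ϖ, hϖs, hϖv⟩ : ∃ ϖ : K, s ϖ = ϖ ∧ v (X P) = v ϖ := by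
      rcases val_X_eq_cc_or v hb0 (β := β) (Y := Y) hPb with h | h
      · exact ⟨d ^ (2 * (j + 1)), by rw [map_pow, hd], by rw [h, hc', v.map_pow]⟩
      · refine ⟨d ^ (2 * p) / d ^ (2 * (j + 1)), by rw [map_div₀, map_pow, map_pow, hd], ?_⟩
        rw [h, hc', v.map_div, v.map_pow, v.map_pow, hbd, ← pow_mul, mul_comm p 2]
    have hx0 : (0 : Γ₀) < v (X P) := lt_of_le_of_lt zero_le hPb
    have hϖ0 : ϖ ≠ 0 := by rw [← v.ne_zero_iff, ← hϖv]; exact hx0.ne'
    have hYX : v (Y P) = v (X P) := by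
      apply eq_of_sq_eq_sq'
      rw [← v.map_pow, hL.eqn P hP]
      have e : X P ^ 3 + a * X P ^ 2 + b * X P = a * X P ^ 2 + (X P ^ 3 + b * X P) := by ring
      have hdom : v (a * X P ^ 2) = v (X P) ^ 2 := by rw [v.map_mul, ha, one_mul, v.map_pow]
      have hsmall : v (X P ^ 3 + b * X P) < v (a * X P ^ 2) := by
        rw [hdom, sq]
        apply v.map_add_lt
        · rw [v.map_pow, pow_succ, sq]
          calc v (X P) * v (X P) * v (X P) < v (X P) * v (X P) * 1 :=
                mul_lt_mul_of_pos_left hlt (mul_pos hx0 hx0)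
            _ = v (X P) * v (X P) := mul_one _
        · rw [v.map_mul]
          exact mul_lt_mul_of_pos_right hPb hx0
      rw [e, v.map_add_eq_of_lt_left hsmall, hdom]
    have scale : ∀ z : K, v z = v ϖ → v (z - s z) < v ϖ := by
      intro z hz
      have hϖ0' : v ϖ ≠ 0 := (v.ne_zero_iff).mpr hϖ0
      have hu : v (z / ϖ) ≤ 1 := by rw [v.map_div, hz, div_self hϖ0']
      have hsu := hs (z / ϖ) hu
      have e : z - s z = -(ϖ * (s (z / ϖ) - z / ϖ)) := by
        rw [map_div₀, hϖs]; field_simp; ring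
      rw [e, v.map_neg, v.map_mul]
      calc v ϖ * v (s (z / ϖ) - z / ϖ) < v ϖ * 1 :=
            mul_lt_mul_of_pos_left hsu (lt_of_le_of_ne zero_le hϖ0'.symm)
        _ = v ϖ := mul_one _
    have hYP : v (Y P) ≤ 1 := by rw [hYX]; exact hXP
    apply fixed_of_close v hL ha.le hb.le h2 hp τ hτ0 hP hpP hXP hYP
    · rw [hYX, hτX P hP, hϖv]; exact scale _ hϖv
    · rw [hτY P hP]
      have := scale (Y P) (hYX.trans hϖv)
      rwa [← hYX.trans hϖv] at this
  · -- unit `X`
    have hf' : v (Y P) < 1 → v (3 * X P ^ 2 + 2 * a * X P + b) = 1 :=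
      fun hY => val_deriv_eq_one v hL hdisc hP heq hY
    have hYP : v (Y P) = 1 :=
      val_Y_eq_one_of_torsion v hL ha.le hb.le h2 hp hodd hP hpP hXP hf'
    apply fixed_of_close v hL ha.le hb.le h2 hp τ hτ0 hP hpP hXP hYP.le
    · rw [hYP, hτX P hP, v.map_sub_swap]; exact hs _ hXP
    · rw [hYP, hτY P hP, v.map_sub_swap]; exact hs _ hYP.le

end NodeMain

end Fermat.Agent.S05.helper245
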