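import Fermat.Agent.S05.helper2852_Ord

/-!
# Sequence-level node valuation lemmas (helper2852, S05-NODEVAL, route X')

`x m` stands for `ξ(m • T)` for a point `T` of odd prime order `p` on `η² = ξ(ξ² + al ξ + be)`
with `v al = 1`, `0 < v be < 1`.  Only the product formula and the duplication formula are used.
-/

set_option autoImplicit false

namespace Fermat.Agent.S05.helper2852

variable {K : Type*} [Field K] {Γ₀ : Type*} [LinearOrderedCommGroupWithZero Γ₀]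
variable (v : Valuation K Γ₀)

theorem four_ne_zero_of (hv2 : v (2 : K) = 1) : (4 : K) ≠ 0 := by
  intro h
  have h2 : v (4 : K) = 1 := by
    have : (4 : K) = 2 * 2 := by norm_num
    rw [this, map_mul, hv2, mul_one]
  rw [h, map_zero] at h2
  exact zero_ne_one h2

theorem ord_four (hv2 : v (2 : K) = 1) : ord v (4 : K) = 0 := by
  have h2 : v (4 : K) = 1 := by
    have : (4 : K) = 2 * 2 := by norm_num
    rw [this, map_mul, hv2, mul_one]
  exact (ord_eq_zero_iff v (four_ne_zero_of v hv2)).2 h2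

theorem ne_zero_of_val_one {a : K} (h : v a = 1) : a ≠ 0 := by
  intro h0
  rw [h0, map_zero] at h
  exact zero_ne_one h

/-- Duplication, low case: if `v ξ ≤ v be` then `1 ≤ v ξ(2P)`. -/
theorem dbl_low {ξ ξ2 al be : K} (hv2 : v (2 : K) = 1) (hal : v al = 1) (hbe0 : be ≠ 0)
    (hbe : v be < 1) (hξ : ξ ≠ 0) (hξ2 : ξ2 ≠ 0)
    (hd : ξ2 * (4 * (ξ * (ξ ^ 2 + al * ξ + be))) = (ξ ^ 2 - be) ^ 2)
    (hlow : ord v ξ ≤ ord v be) : 0 ≤ ord v ξ2 := by
  have h4 := four_ne_zero_of v hv2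
  have ho4 := ord_four v hv2
  have hal0 : al ≠ 0 := ne_zero_of_val_one v hal
  have hoal : ord v al = 0 := (ord_eq_zero_iff v hal0).2 hal
  have hb : ord v be < 0 := (ord_neg_iff v hbe0).2 hbe
  have hsq : ord v (ξ ^ 2) = ord v ξ + ord v ξ := ord_sq v hξ
  have hsq0 : ξ ^ 2 ≠ 0 := pow_ne_zero 2 hξ
  have halξ : ord v (al * ξ) = ord v ξ := by rw [ord_mul v hal0 hξ, hoal, zero_add]
  have halξ0 : al * ξ ≠ 0 := mul_ne_zero hal0 hξ
  -- numerator
  obtain ⟨hn0, hn⟩ := ord_sub_of_lt v hsq0 hbe0 (by rw [hsq]; grind)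
  -- s = ξ² + al ξ
  obtain ⟨hs0, hs⟩ := ord_add_of_lt v hsq0 halξ0 (by rw [hsq, halξ]; grind)
  have hc0 : ξ ^ 2 + al * ξ + be ≠ 0 := by
    intro h0
    rw [h0, mul_zero, mul_zero, mul_zero] at hd
    exact hn0 ((pow_eq_zero_iff (two_ne_zero)).1 hd.symm)
  have hc : ord v (ξ ^ 2 + al * ξ + be) ≤ max (ord v (ξ ^ 2 + al * ξ)) (ord v be) :=
    ord_add_le v hs0 hbe0 hc0
  have hd' := congrArg (ord v) hd
  rw [ord_mul v hξ2 (mul_ne_zero h4 (mul_ne_zero hξ hc0)), ord_mul v h4 (mul_ne_zero hξ hc0),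
    ord_mul v hξ hc0, ord_sq v hn0, ho4, hn] at hd'
  rw [hs, halξ] at hc
  grind

/-- Duplication, middle case `v be < v ξ < 1`. -/
theorem dbl_mid {ξ ξ2 al be : K} (hv2 : v (2 : K) = 1) (hal : v al = 1) (hbe0 : be ≠ 0)
    (hξ : ξ ≠ 0) (hξ2 : ξ2 ≠ 0)
    (hd : ξ2 * (4 * (ξ * (ξ ^ 2 + al * ξ + be))) = (ξ ^ 2 - be) ^ 2)
    (hlt : ord v ξ < 0) (hmid : ord v be < ord v ξ) :
    (ord v be < ord v ξ + ord v ξ → ord v ξ2 = ord v ξ + ord v ξ) ∧
    (ord v ξ + ord v ξ < ord v be → ord v ξ2 = ord v be + ord v be - (ord v ξ + ord v ξ)) ∧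
    (ord v ξ + ord v ξ = ord v be → ord v ξ2 ≤ ord v be) := by
  have h4 := four_ne_zero_of v hv2
  have ho4 := ord_four v hv2
  have hal0 : al ≠ 0 := ne_zero_of_val_one v hal
  have hoal : ord v al = 0 := (ord_eq_zero_iff v hal0).2 hal
  have hsq : ord v (ξ ^ 2) = ord v ξ + ord v ξ := ord_sq v hξ
  have hsq0 : ξ ^ 2 ≠ 0 := pow_ne_zero 2 hξ
  have halξ : ord v (al * ξ) = ord v ξ := by rw [ord_mul v hal0 hξ, hoal, zero_add]
  have halξ0 : al * ξ ≠ 0 := mul_ne_zero hal0 hξ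
  obtain ⟨hs0, hs⟩ := ord_add_of_lt v hsq0 halξ0 (by rw [hsq, halξ]; grind)
  obtain ⟨hc0, hc⟩ := ord_add_of_gt v hs0 hbe0 (by rw [hs, halξ]; exact hmid)
  rw [hs, halξ] at hc
  have hL0 : ξ2 * (4 * (ξ * (ξ ^ 2 + al * ξ + be))) ≠ 0 :=
    mul_ne_zero hξ2 (mul_ne_zero h4 (mul_ne_zero hξ hc0))
  have hn0 : ξ ^ 2 - be ≠ 0 := by
    intro h0
    rw [h0] at hd
    exact hL0 (by rw [hd]; ring)
  have hd' := congrArg (ord v) hd
  rw [ord_mul v hξ2 (mul_ne_zero h4 (mul_ne_zero hξ hc0)), ord_mul v h4 (mul_ne_zero hξ hc0),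
    ord_mul v hξ hc0, ord_sq v hn0, ho4, hc] at hd'
  refine ⟨fun h => ?_, fun h => ?_, fun h => ?_⟩
  · obtain ⟨-, hn⟩ := ord_sub_of_gt v hsq0 hbe0 (by rw [hsq]; exact h)
    rw [hn, hsq] at hd'
    grind
  · obtain ⟨-, hn⟩ := ord_sub_of_lt v hsq0 hbe0 (by rw [hsq]; exact h)
    rw [hn] at hd'
    grind
  · have hn := ord_sub_le v hsq0 hbe0 hn0
    rw [hsq] at hn
    grind


/-- Unit propagation: if `v (x 1) = 1` and all `x m` are integral, then all `v (x m) = 1`. -/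
theorem seq_unit {al be : K} (x : ℕ → K) (p : ℕ) (hp : p.Prime) (hp2 : p ≠ 2)
    (hv2 : v (2 : K) = 1) (hal : v al ≤ 1) (hbe : v be < 1) (hbe0 : be ≠ 0)
    (hx0 : ∀ m, ¬ p ∣ m → x m ≠ 0)
    (hle : ∀ m, ¬ p ∣ m → v (x m) ≤ 1)
    (hprod : ∀ m, 1 ≤ m → ¬ p ∣ m → x m ≠ x 1 →
      x (m + 1) * x (m - 1) * (x m - x 1) ^ 2 = (x m * x 1 - be) ^ 2)
    (hinj : ∀ m, 1 ≤ m → ¬ p ∣ m → x m = x 1 → p ∣ m - 1 ∨ p ∣ m + 1)
    (hdbl1 : x 2 * (4 * (x 1 * (x 1 ^ 2 + al * x 1 + be))) = (x 1 ^ 2 - be) ^ 2)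
    (h1 : v (x 1) = 1) :
    ∀ m, 1 ≤ m → m ≤ p - 1 → v (x m) = 1 := by
  have hp3 : 3 ≤ p := by
    have := hp.two_le
    omega
  have hnd : ∀ m, 1 ≤ m → m ≤ p - 1 → ¬ p ∣ m := fun m h1 h2 hd => by
    have := Nat.le_of_dvd (by omega) hd
    omega
  have h4 := four_ne_zero_of v hv2
  have ho4 := ord_four v hv2
  have hb : ord v be < 0 := (ord_neg_iff v hbe0).2 hbe
  have hn1 : ¬ p ∣ 1 := hnd 1 le_rfl (by omega)
  have hx1 := hx0 1 hn1
  have ho1 : ord v (x 1) = 0 := (ord_eq_zero_iff v hx1).2 h1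
  have hnonpos : ∀ m, ¬ p ∣ m → ord v (x m) ≤ 0 := fun m hm =>
    (ord_nonpos_iff v (hx0 m hm)).2 (hle m hm)
  have key : ∀ n, n + 2 ≤ p - 1 → ord v (x (n + 1)) = 0 ∧ ord v (x (n + 2)) = 0 := by
    intro n
    induction n with
    | zero =>
      intro _
      refine ⟨ho1, ?_⟩
      have hn2 : ¬ p ∣ 2 := hnd 2 (by omega) (by omega)
      have hx2 := hx0 2 hn2
      have hsq0 : x 1 ^ 2 ≠ 0 := pow_ne_zero 2 hx1
      have hsq : ord v (x 1 ^ 2) = 0 := by rw [ord_sq v hx1, ho1, add_zero]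
      obtain ⟨hn0, hn⟩ := ord_sub_of_gt v hsq0 hbe0 (by rw [hsq]; exact hb)
      have hc0 : x 1 ^ 2 + al * x 1 + be ≠ 0 := by
        intro h0
        rw [h0, mul_zero, mul_zero, mul_zero] at hdbl1
        exact hn0 ((pow_eq_zero_iff (two_ne_zero)).1 hdbl1.symm)
      have hc : v (x 1 ^ 2 + al * x 1 + be) ≤ 1 := by
        apply v.map_add_le
        · apply v.map_add_le
          · rw [map_pow, h1, one_pow]
          · rw [map_mul, h1, mul_one]; exact hal
        · exact hbe.le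
      have hc' : ord v (x 1 ^ 2 + al * x 1 + be) ≤ 0 := (ord_nonpos_iff v hc0).2 hc
      have hd' := congrArg (ord v) hdbl1
      rw [ord_mul v hx2 (mul_ne_zero h4 (mul_ne_zero hx1 hc0)),
        ord_mul v h4 (mul_ne_zero hx1 hc0), ord_mul v hx1 hc0, ord_sq v hn0, ho4, hn, hsq, ho1]
        at hd'
      have := hnonpos 2 hn2
      grind
    | succ n ih =>
      intro hn
      obtain ⟨hP1, hP2⟩ := ih (by omega)
      refine ⟨hP2, ?_⟩
      have hm : ¬ p ∣ n + 2 := hnd _ (by omega) (by omega)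
      have hm1 : ¬ p ∣ n + 1 := hnd _ (by omega) (by omega)
      have hm3 : ¬ p ∣ n + 3 := hnd _ (by omega) (by omega)
      have hne : x (n + 2) ≠ x 1 := by
        intro heq
        rcases hinj (n + 2) (by omega) hm heq with h | h
        · have := Nat.le_of_dvd (by omega) h
          omega
        · have := Nat.le_of_dvd (by omega) h
          omega
      have hpr : x (n + 3) * x (n + 1) * (x (n + 2) - x 1) ^ 2 = (x (n + 2) * x 1 - be) ^ 2 :=
        hprod (n + 2) (by omega) hm hne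
      have hx2 := hx0 (n + 2) hm
      have hx1' := hx0 (n + 1) hm1
      have hx3 := hx0 (n + 3) hm3
      have hD0 : x (n + 2) - x 1 ≠ 0 := sub_ne_zero.2 hne
      have hprod0 : x (n + 2) * x 1 ≠ 0 := mul_ne_zero hx2 hx1
      have hoprod : ord v (x (n + 2) * x 1) = 0 := by rw [ord_mul v hx2 hx1, hP2, ho1, add_zero]
      obtain ⟨hN0, hN⟩ := ord_sub_of_gt v hprod0 hbe0 (by rw [hoprod]; exact hb)
      have hD := ord_sub_le v hx2 hx1 hD0
      rw [hP2, ho1, max_self] at hD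
      have hpr' := congrArg (ord v) hpr
      rw [ord_mul v (mul_ne_zero hx3 hx1') (pow_ne_zero 2 hD0), ord_mul v hx3 hx1',
        ord_sq v hD0, ord_sq v hN0, hN, hoprod, hP1] at hpr'
      have := hnonpos (n + 3) hm3
      grind
  intro m hm1 hm2
  have hxm := hx0 m (hnd m hm1 hm2)
  rw [← ord_eq_zero_iff v hxm]
  rcases Nat.lt_or_ge m 2 with h | h
  · have : m = 1 := by omega
    subst this
    exact ho1
  · have := (key (m - 2) (by omega)).2
    rwa [show m - 2 + 2 = m by omega] at this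


theorem arith_base {Γ : Type*} [AddCommGroup Γ] [LinearOrder Γ] [IsOrderedAddMonoid Γ]
    (b τ C : Γ) (hb : b < 0) (hbτ : b < τ)
    (hd1 : b < τ + τ → C = τ + τ) (hd2 : τ + τ < b → C = b + b - (τ + τ))
    (hd3 : τ + τ = b → C ≤ b) (hA2 : b < C) :
    (b + b < τ ∧ τ ≠ b ∧ (b < τ → τ = τ) ∧ (τ < b → τ = b + b - τ)) ∧
    (b + b < τ + τ ∧ τ + τ ≠ b ∧ (b < τ + τ → C = τ + τ) ∧
      (τ + τ < b → C = b + b - (τ + τ))) := by
  grind

theorem arith_step {Γ : Type*} [AddCommGroup Γ] [LinearOrder Γ] [IsOrderedAddMonoid Γ]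
    (b τ M A B C D N : Γ) (hb : b < 0) (hτ : τ < 0) (hbτ : b < τ)
    (hP1 : b + b < M ∧ M ≠ b ∧ (b < M → B = M) ∧ (M < b → B = b + b - M))
    (hP2 : b + b < M + τ ∧ M + τ ≠ b ∧ (b < M + τ → A = M + τ) ∧
      (M + τ < b → A = b + b - (M + τ)))
    (hpr : C + B + (D + D) = N + N)
    (hDle : D ≤ max A τ) (hDeq : A < τ → D = τ)
    (hN1 : b < A + τ → N = A + τ) (hN2 : A + τ < b → N = b) (hN3 : N ≤ max (A + τ) b)
    (hA3 : b < C) (hneg3 : C < 0) (hmax2 : A ≤ τ) (hM : M ≤ τ) :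
    b + b < M + τ + τ ∧ M + τ + τ ≠ b ∧ (b < M + τ + τ → C = M + τ + τ) ∧
      (M + τ + τ < b → C = b + b - (M + τ + τ)) := by
  grind

theorem arith_final {Γ : Type*} [AddCommGroup Γ] [LinearOrder Γ] [IsOrderedAddMonoid Γ]
    (b τ Q : Γ) (hτ : τ < 0) (hQ : Q ≤ τ + τ)
    (hP : b + b < Q ∧ Q ≠ b ∧ (b < Q → τ = Q) ∧ (Q < b → τ = b + b - Q)) :
    Q + τ = b + b := by
  grind

/-- Main node lemma (minimal generator): if all `x m` are nonunits and `x 1` has the largest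
valuation, then `v be < v (x j)` and `v (x j) ^ p ∈ (v be ^ 2) ^ ℕ` for all `j`. -/
theorem seq_main {al be : K} (x : ℕ → K) (p : ℕ) (hp : p.Prime) (hp2 : p ≠ 2)
    (hv2 : v (2 : K) = 1) (hal : v al = 1) (hbe : v be < 1) (hbe0 : be ≠ 0)
    (hx0 : ∀ m, ¬ p ∣ m → x m ≠ 0)
    (hlt : ∀ m, ¬ p ∣ m → v (x m) < 1)
    (hmax : ∀ m, ¬ p ∣ m → v (x m) ≤ v (x 1))
    (hprod : ∀ m, 1 ≤ m → ¬ p ∣ m → x m ≠ x 1 →
      x (m + 1) * x (m - 1) * (x m - x 1) ^ 2 = (x m * x 1 - be) ^ 2)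
    (hinj : ∀ m, 1 ≤ m → ¬ p ∣ m → x m = x 1 → p ∣ m - 1 ∨ p ∣ m + 1)
    (hdbl : ∀ m, ¬ p ∣ m →
      x (2 * m) * (4 * (x m * (x m ^ 2 + al * x m + be))) = (x m ^ 2 - be) ^ 2)
    (hsym : x (p - 1) = x 1) :
    ∀ j, 1 ≤ j → j ≤ p - 1 → v be < v (x j) ∧ ∃ i : ℕ, v (x j) ^ p = v be ^ (2 * i) := by
  have hp3 : 3 ≤ p := by
    have := hp.two_le
    omega
  have hnd : ∀ m, 1 ≤ m → m ≤ p - 1 → ¬ p ∣ m := fun m h1 h2 hd => by
    have := Nat.le_of_dvd (by omega) hd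
    omega
  have hnd2 : ∀ m, ¬ p ∣ m → ¬ p ∣ 2 * m := fun m hm hd => by
    rcases (Nat.Prime.dvd_mul hp).1 hd with h | h
    · have := Nat.le_of_dvd (by norm_num) h
      omega
    · exact hm h
  have hb : ord v be < 0 := (ord_neg_iff v hbe0).2 hbe
  have h1 : ¬ p ∣ 1 := hnd 1 le_rfl (by omega)
  have hx1 := hx0 1 h1
  have hneg : ∀ m, ¬ p ∣ m → ord v (x m) < 0 := fun m hm =>
    (ord_neg_iff v (hx0 m hm)).2 (hlt m hm)
  have hmaxo : ∀ m, ¬ p ∣ m → ord v (x m) ≤ ord v (x 1) := fun m hm =>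
    (ord_le_ord v (hx0 m hm) hx1).2 (hmax m hm)
  have hτ : ord v (x 1) < 0 := hneg 1 h1
  -- A-computation: no multiple has ord ≤ b
  have hA : ∀ m, ¬ p ∣ m → ord v be < ord v (x m) := by
    intro m hm
    by_contra hcon
    rw [not_lt] at hcon
    have h1 := dbl_low v hv2 hal hbe0 hbe (hx0 m hm) (hx0 (2 * m) (hnd2 m hm)) (hdbl m hm) hcon
    have h2 := hneg (2 * m) (hnd2 m hm)
    exact absurd h1 (not_le.2 h2)
  have hbτ : ord v be < ord v (x 1) := hA 1 h1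
  have hmτ : ∀ m : ℕ, (m + 1) • ord v (x 1) ≤ ord v (x 1) := by
    intro m
    rw [succ_nsmul]
    have := nsmul_nonpos hτ.le m
    grind
  -- the induction
  have key : ∀ n, n + 2 ≤ p - 1 →
      (ord v be + ord v be < (n + 1) • ord v (x 1) ∧ (n + 1) • ord v (x 1) ≠ ord v be ∧
        (ord v be < (n + 1) • ord v (x 1) → ord v (x (n + 1)) = (n + 1) • ord v (x 1)) ∧
        ((n + 1) • ord v (x 1) < ord v be →
          ord v (x (n + 1)) = ord v be + ord v be - (n + 1) • ord v (x 1))) ∧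
      (ord v be + ord v be < (n + 2) • ord v (x 1) ∧ (n + 2) • ord v (x 1) ≠ ord v be ∧
        (ord v be < (n + 2) • ord v (x 1) → ord v (x (n + 2)) = (n + 2) • ord v (x 1)) ∧
        ((n + 2) • ord v (x 1) < ord v be →
          ord v (x (n + 2)) = ord v be + ord v be - (n + 2) • ord v (x 1))) := by
    intro n
    induction n with
    | zero =>
      intro _
      have hn2 : ¬ p ∣ 2 := hnd 2 (by omega) (by omega)
      have hd := dbl_mid v hv2 hal hbe0 hx1 (hx0 2 hn2) (by simpa using hdbl 1 h1) hτ hbτ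
      have hA2 := hA 2 hn2
      have hneg2 := hneg 2 hn2
      have h := arith_base (ord v be) (ord v (x 1)) (ord v (x 2)) hb hbτ hd.1 hd.2.1 hd.2.2 hA2
      simpa only [zero_add, one_nsmul, two_nsmul] using h
    | succ n ih =>
      intro hn
      obtain ⟨hP1, hP2⟩ := ih (by omega)
      refine ⟨hP2, ?_⟩
      have hm : ¬ p ∣ n + 2 := hnd _ (by omega) (by omega)
      have hm1 : ¬ p ∣ n + 1 := hnd _ (by omega) (by omega)
      have hm3 : ¬ p ∣ n + 3 := hnd _ (by omega) (by omega)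
      have hne : x (n + 2) ≠ x 1 := by
        intro heq
        rcases hinj (n + 2) (by omega) hm heq with h | h
        · have := Nat.le_of_dvd (by omega) h
          omega
        · have := Nat.le_of_dvd (by omega) h
          omega
      have hpr : x (n + 3) * x (n + 1) * (x (n + 2) - x 1) ^ 2 = (x (n + 2) * x 1 - be) ^ 2 :=
        hprod (n + 2) (by omega) hm hne
      have hx2 := hx0 (n + 2) hm
      have hx1' := hx0 (n + 1) hm1
      have hx3 := hx0 (n + 3) hm3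
      have hD0 : x (n + 2) - x 1 ≠ 0 := sub_ne_zero.2 hne
      have hL0 : x (n + 3) * x (n + 1) * (x (n + 2) - x 1) ^ 2 ≠ 0 :=
        mul_ne_zero (mul_ne_zero hx3 hx1') (pow_ne_zero 2 hD0)
      have hN0 : x (n + 2) * x 1 - be ≠ 0 := by
        intro h0
        rw [h0] at hpr
        exact hL0 (by rw [hpr]; ring)
      have hpr' := congrArg (ord v) hpr
      rw [ord_mul v (mul_ne_zero hx3 hx1') (pow_ne_zero 2 hD0), ord_mul v hx3 hx1',
        ord_sq v hD0, ord_sq v hN0] at hpr'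
      have hDle := ord_sub_le v hx2 hx1 hD0
      have hDeq : ord v (x (n + 2)) < ord v (x 1) → ord v (x (n + 2) - x 1) = ord v (x 1) :=
        fun h => (ord_sub_of_lt v hx2 hx1 h).2
      have hprod0 : x (n + 2) * x 1 ≠ 0 := mul_ne_zero hx2 hx1
      have hoprod : ord v (x (n + 2) * x 1) = ord v (x (n + 2)) + ord v (x 1) := ord_mul v hx2 hx1
      have hN1 : ord v be < ord v (x (n + 2)) + ord v (x 1) →
          ord v (x (n + 2) * x 1 - be) = ord v (x (n + 2)) + ord v (x 1) := fun h => by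
        have := (ord_sub_of_gt v hprod0 hbe0 (by rw [hoprod]; exact h)).2
        rw [this, hoprod]
      have hN2 : ord v (x (n + 2)) + ord v (x 1) < ord v be →
          ord v (x (n + 2) * x 1 - be) = ord v be := fun h =>
        (ord_sub_of_lt v hprod0 hbe0 (by rw [hoprod]; exact h)).2
      have hN3 := ord_sub_le v hprod0 hbe0 hN0
      rw [hoprod] at hN3
      have hA3 := hA (n + 3) hm3
      have hneg3 := hneg (n + 3) hm3
      have hneg2 := hneg (n + 2) hm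
      have hneg1 := hneg (n + 1) hm1
      have hmax2 := hmaxo (n + 2) hm
      have hM := hmτ n
      have e2 : (n + 2) • ord v (x 1) = (n + 1) • ord v (x 1) + ord v (x 1) :=
        succ_nsmul (ord v (x 1)) (n + 1)
      have e3 : (n + 1 + 2) • ord v (x 1) = (n + 1) • ord v (x 1) + ord v (x 1) + ord v (x 1) := by
        rw [show n + 1 + 2 = (n + 2) + 1 by omega, succ_nsmul (ord v (x 1)) (n + 2), e2]
      rw [e2] at hP2
      rw [e3]
      exact arith_step (ord v be) (ord v (x 1)) ((n + 1) • ord v (x 1)) (ord v (x (n + 2)))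
        (ord v (x (n + 1))) (ord v (x (n + 3))) (ord v (x (n + 2) - x 1))
        (ord v (x (n + 2) * x 1 - be)) hb hτ hbτ hP1 hP2 hpr' hDle hDeq hN1 hN2 hN3 hA3 hneg3
        hmax2 hM
  have hall : ∀ m, 1 ≤ m → m ≤ p - 1 →
      (ord v be + ord v be < m • ord v (x 1) ∧ m • ord v (x 1) ≠ ord v be ∧
        (ord v be < m • ord v (x 1) → ord v (x m) = m • ord v (x 1)) ∧
        (m • ord v (x 1) < ord v be →
          ord v (x m) = ord v be + ord v be - m • ord v (x 1))) := by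
    intro m h1 h2
    rcases Nat.lt_or_ge m 2 with h | h
    · have : m = 1 := by omega
      subst this
      exact (key 0 (by omega)).1
    · have := (key (m - 2) (by omega)).2
      rwa [show m - 2 + 2 = m by omega] at this
  -- `p • τ = 2 • b`
  have hPp := hall (p - 1) (by omega) le_rfl
  rw [hsym] at hPp
  have hQ : (p - 1) • ord v (x 1) ≤ ord v (x 1) + ord v (x 1) := by
    have e : (p - 1) • ord v (x 1) = (p - 3) • ord v (x 1) + ord v (x 1) + ord v (x 1) := by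
      rw [show p - 1 = (p - 3) + 1 + 1 by omega, succ_nsmul, succ_nsmul]
    have := nsmul_nonpos hτ.le (p - 3)
    rw [e]
    grind
  have hpτ : p • ord v (x 1) = ord v be + ord v be := by
    have e : p • ord v (x 1) = (p - 1) • ord v (x 1) + ord v (x 1) := by
      rw [← succ_nsmul, show p - 1 + 1 = p by omega]
    rw [e]
    exact arith_final (ord v be) (ord v (x 1)) ((p - 1) • ord v (x 1)) hτ hQ hPp
  intro j hj1 hj2
  obtain ⟨-, hne, hhi, hlo⟩ := hall j hj1 hj2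
  have hxj := hx0 j (hnd j hj1 hj2)
  have hcomm : p • (j • ord v (x 1)) = j • (ord v be + ord v be) := by
    rw [← hpτ, ← mul_nsmul, ← mul_nsmul, mul_comm]
  rcases lt_or_gt_of_ne hne with h | h
  · have ho := hlo h
    refine ⟨(ord_lt_ord v hbe0 hxj).1 (by rw [ho]; grind), p - j, ?_⟩
    apply pow_eq_pow_of_nsmul_ord v hxj hbe0
    rw [ho, nsmul_sub, hcomm, mul_nsmul, two_nsmul, sub_nsmul _ (by omega : j ≤ p)]
    abel
  · have ho := hhi h
    refine ⟨(ord_lt_ord v hbe0 hxj).1 (by rw [ho]; exact h), j, ?_⟩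
    apply pow_eq_pow_of_nsmul_ord v hxj hbe0
    rw [ho, hcomm, mul_nsmul, two_nsmul]

end Fermat.Agent.S05.helper2852
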