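import Fermat.Agent.S05.helper2852_NodeSeq
import Fermat.Agent.S05.helper872_Kummer
import Fermat.Agent.S05.helper5_Spec

/-!
# S05-NODEVAL (helper2852): `theorem nodeVal (hK : KerStmt) : NodeValStmt`

Route X' (minimal generator): abstract "Kummer line" `X : G → K` on an additive group with the
product and duplication formulas; the valuation of `X` along the multiples of a point of odd
prime order `p` is computed by `seq_main` of `helper2852_NodeSeq`.
-/

set_option autoImplicit false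

namespace Fermat.Agent.S05.helper2852

open WeierstrassCurve WeierstrassCurve.Affine
open Fermat.Agent.S05.helper305 (Shape)

section abstract

variable {K : Type*} [Field K] {G : Type*} [AddCommGroup G]

/-- An abstract Kummer line: `X : G → K` (junk value at `0`) with the x-only identities of
`η² = ξ(ξ² + al ξ + be)`. -/
structure KLine (X : G → K) (al be : K) : Prop where
  neg : ∀ P : G, X (-P) = X P
  inj : ∀ P Q : G, P ≠ 0 → Q ≠ 0 → X P = X Q → P = Q ∨ P = -Q
  prod : ∀ P Q : G, P ≠ 0 → Q ≠ 0 → X P ≠ X Q →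
    X (P + Q) * X (P - Q) * (X P - X Q) ^ 2 = (X P * X Q - be) ^ 2
  sum : ∀ P Q : G, P ≠ 0 → Q ≠ 0 → X P ≠ X Q →
    (X (P + Q) + X (P - Q)) * (X P - X Q) ^ 2 =
      2 * (X P + X Q) * (X P * X Q + be) + 4 * al * X P * X Q
  dbl : ∀ P : G, P ≠ 0 → P + P ≠ 0 →
    X (P + P) * (4 * (X P * (X P ^ 2 + al * X P + be))) = (X P ^ 2 - be) ^ 2

variable {p : ℕ} {T : G}

theorem dvd_of_nsmul_eq_zero (hp : p.Prime) (hT : T ≠ 0) (hpT : p • T = 0) {m : ℕ}
    (h : m • T = 0) : p ∣ m := by
  have := Fact.mk hp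
  have ho : addOrderOf T = p := addOrderOf_eq_prime hpT hT
  exact ho ▸ addOrderOf_dvd_of_nsmul_eq_zero h

theorem nsmul_ne_zero_of_not_dvd (hp : p.Prime) (hT : T ≠ 0) (hpT : p • T = 0) {m : ℕ}
    (hm : ¬ p ∣ m) : m • T ≠ 0 := fun h => hm (dvd_of_nsmul_eq_zero hp hT hpT h)

theorem nsmul_eq_mod_nsmul (hpT : p • T = 0) (m : ℕ) : m • T = (m % p) • T := by
  conv_lhs => rw [← Nat.div_add_mod m p]
  rw [add_nsmul, mul_nsmul, hpT, nsmul_zero, zero_add]

theorem p_nsmul_nsmul (hpT : p • T = 0) (m : ℕ) : p • (m • T) = 0 := by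
  rw [← mul_nsmul', mul_comm, mul_nsmul', hpT, nsmul_zero]

theorem not_dvd_two_mul (hp : p.Prime) (hp2 : p ≠ 2) {m : ℕ} (hm : ¬ p ∣ m) : ¬ p ∣ 2 * m := by
  intro hd
  rcases (Nat.Prime.dvd_mul hp).1 hd with h | h
  · have := Nat.le_of_dvd (by norm_num) h
    have := hp.two_le
    omega
  · exact hm h

/-- If `p ∤ m`, then `T` is a multiple `k • (m • T)` with `1 ≤ k ≤ p - 1`. -/
theorem exists_nsmul_eq_of_not_dvd (hp : p.Prime) (hT : T ≠ 0) (hpT : p • T = 0) {m : ℕ}
    (hm : ¬ p ∣ m) : ∃ k, 1 ≤ k ∧ k ≤ p - 1 ∧ k • (m • T) = T := by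
  have hcop : Nat.Coprime m p := ((Nat.Prime.coprime_iff_not_dvd hp).2 hm).symm
  obtain ⟨k', hk'lt, hk'⟩ := Nat.exists_mul_mod_eq_one_of_coprime hcop hp.one_lt
  have hkT : k' • (m • T) = T := by
    rw [← mul_nsmul', mul_comm, nsmul_eq_mod_nsmul hpT, hk', one_nsmul]
  refine ⟨k', ?_, by omega, hkT⟩
  rcases Nat.eq_zero_or_pos k' with h0 | h0
  · rw [h0, zero_nsmul] at hkT
    exact absurd hkT.symm hT
  · exact h0

variable {X : G → K} {al be : K}

theorem KLine.x_ne_zero (hk : KLine X al be) (hbe0 : be ≠ 0) (hp : p.Prime) (hp2 : p ≠ 2)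
    (hT : T ≠ 0) (hpT : p • T = 0) {m : ℕ} (hm : ¬ p ∣ m) : X (m • T) ≠ 0 := by
  intro h0
  have h1 : m • T ≠ 0 := nsmul_ne_zero_of_not_dvd hp hT hpT hm
  have h2 : m • T + m • T ≠ 0 := by
    rw [← two_nsmul, ← mul_nsmul']
    exact nsmul_ne_zero_of_not_dvd hp hT hpT (not_dvd_two_mul hp hp2 hm)
  have hd := hk.dbl (m • T) h1 h2
  rw [h0] at hd
  apply hbe0
  have : be ^ 2 = 0 := by linear_combination -hd
  exact (pow_eq_zero_iff two_ne_zero).1 this

theorem KLine.seq_prod (hk : KLine X al be) (hp : p.Prime) (hT : T ≠ 0) (hpT : p • T = 0)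
    {m : ℕ} (h1 : 1 ≤ m) (hm : ¬ p ∣ m) (hne : X (m • T) ≠ X (1 • T)) :
    X ((m + 1) • T) * X ((m - 1) • T) * (X (m • T) - X (1 • T)) ^ 2 =
      (X (m • T) * X (1 • T) - be) ^ 2 := by
  rw [one_nsmul] at hne ⊢
  have hpr := hk.prod (m • T) T (nsmul_ne_zero_of_not_dvd hp hT hpT hm) hT hne
  have e1 : m • T + T = (m + 1) • T := (succ_nsmul T m).symm
  have e2 : m • T - T = (m - 1) • T := by
    rw [sub_eq_iff_eq_add, ← succ_nsmul, Nat.sub_add_cancel h1]
  rw [e1, e2] at hpr
  exact hpr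

theorem KLine.seq_inj (hk : KLine X al be) (hp : p.Prime) (hT : T ≠ 0) (hpT : p • T = 0)
    {m : ℕ} (h1 : 1 ≤ m) (hm : ¬ p ∣ m) (heq : X (m • T) = X (1 • T)) :
    p ∣ m - 1 ∨ p ∣ m + 1 := by
  rw [one_nsmul] at heq
  rcases hk.inj (m • T) T (nsmul_ne_zero_of_not_dvd hp hT hpT hm) hT heq with h | h
  · left
    apply dvd_of_nsmul_eq_zero hp hT hpT
    have : (m - 1) • T + T = T := by rw [← succ_nsmul, Nat.sub_add_cancel h1, h]
    exact add_eq_right.mp this
  · right
    apply dvd_of_nsmul_eq_zero hp hT hpT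
    rw [succ_nsmul, h, neg_add_cancel]

theorem KLine.seq_dbl (hk : KLine X al be) (hp : p.Prime) (hp2 : p ≠ 2) (hT : T ≠ 0)
    (hpT : p • T = 0) {m : ℕ} (hm : ¬ p ∣ m) :
    X ((2 * m) • T) * (4 * (X (m • T) * (X (m • T) ^ 2 + al * X (m • T) + be))) =
      (X (m • T) ^ 2 - be) ^ 2 := by
  have h1 : m • T ≠ 0 := nsmul_ne_zero_of_not_dvd hp hT hpT hm
  have e : m • T + m • T = (2 * m) • T := by rw [← two_nsmul, ← mul_nsmul']
  have h2 : m • T + m • T ≠ 0 := by
    rw [e]
    exact nsmul_ne_zero_of_not_dvd hp hT hpT (not_dvd_two_mul hp hp2 hm)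
  have hd := hk.dbl (m • T) h1 h2
  rw [e] at hd
  exact hd

theorem KLine.seq_sym (hk : KLine X al be) (hp : p.Prime) (hpT : p • T = 0) :
    X ((p - 1) • T) = X (1 • T) := by
  have : (p - 1) • T = -T := by
    rw [eq_neg_iff_add_eq_zero, ← succ_nsmul, Nat.sub_add_cancel hp.one_le, hpT]
  rw [this, hk.neg, one_nsmul]

variable {Γ₀ : Type*} [LinearOrderedCommGroupWithZero Γ₀] (v : Valuation K Γ₀)

/-- **Abstract node valuation theorem.** -/
theorem KLine.nodeVal (hk : KLine X al be) (hp : p.Prime) (hp2 : p ≠ 2)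
    (hv2 : v (2 : K) = 1) (hal : v al = 1) (hbe : v be < 1) (hbe0 : be ≠ 0)
    (hT : T ≠ 0) (hpT : p • T = 0)
    (hker : ∀ S : G, S ≠ 0 → p • S = 0 → v (X S) ≤ 1)
    (hT1 : v (X T) < 1) :
    v be < v (X T) ∧ ∃ i : ℕ, v (X T) ^ p = v be ^ (2 * i) := by
  have hp3 : 3 ≤ p := by
    have := hp.two_le
    omega
  have hnd : ∀ m, 1 ≤ m → m ≤ p - 1 → ¬ p ∣ m := fun m h1 h2 hd => by
    have := Nat.le_of_dvd (by omega) hd
    omega
  -- Step A: all nonzero multiples of `T` are nonunits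
  have hstepA : ∀ m, ¬ p ∣ m → v (X (m • T)) < 1 := by
    intro m hm
    by_contra hcon
    have hS : m • T ≠ 0 := nsmul_ne_zero_of_not_dvd hp hT hpT hm
    have hpS : p • (m • T) = 0 := p_nsmul_nsmul hpT m
    have h1 : v (X (m • T)) = 1 := le_antisymm (hker _ hS hpS) (not_lt.1 hcon)
    have hu := seq_unit v (al := al) (be := be) (fun j => X (j • (m • T))) p hp hp2 hv2 hal.le
      hbe hbe0
      (fun j hj => hk.x_ne_zero hbe0 hp hp2 hS hpS hj)
      (fun j hj => hker _ (nsmul_ne_zero_of_not_dvd hp hS hpS hj) (p_nsmul_nsmul hpS j))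
      (fun j h1 hj hne => hk.seq_prod hp hS hpS h1 hj hne)
      (fun j h1 hj heq => hk.seq_inj hp hS hpS h1 hj heq)
      (by simpa using hk.seq_dbl hp hp2 hS hpS (hnd 1 le_rfl (by omega)))
      (by simpa using h1)
    obtain ⟨k, hk1, hk2, hkT⟩ := exists_nsmul_eq_of_not_dvd hp hT hpT hm
    have h2 := hu k hk1 hk2
    simp only [hkT] at h2
    rw [h2] at hT1
    exact lt_irrefl _ hT1
  -- Step B: the generator with the largest valuation
  obtain ⟨m₁, hm₁, hmax⟩ := Finset.exists_max_image (Finset.Icc 1 (p - 1))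
    (fun m => v (X (m • T))) ⟨1, by rw [Finset.mem_Icc]; omega⟩
  rw [Finset.mem_Icc] at hm₁
  have hm₁d : ¬ p ∣ m₁ := hnd m₁ hm₁.1 hm₁.2
  have hS : m₁ • T ≠ 0 := nsmul_ne_zero_of_not_dvd hp hT hpT hm₁d
  have hpS : p • (m₁ • T) = 0 := p_nsmul_nsmul hpT m₁
  have hidx : ∀ j, ¬ p ∣ j → ∃ i, 1 ≤ i ∧ i ≤ p - 1 ∧ j • (m₁ • T) = i • T := by
    intro j hj
    refine ⟨(j * m₁) % p, ?_, ?_, ?_⟩
    · rcases Nat.eq_zero_or_pos ((j * m₁) % p) with h0 | h0
      · exfalso
        rcases (Nat.Prime.dvd_mul hp).1 (Nat.dvd_of_mod_eq_zero h0) with h | h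
        · exact hj h
        · exact hm₁d h
      · exact h0
    · have := Nat.mod_lt (j * m₁) hp.pos
      omega
    · rw [← mul_nsmul', nsmul_eq_mod_nsmul hpT]
  have hmain := seq_main v (al := al) (be := be) (fun j => X (j • (m₁ • T))) p hp hp2 hv2 hal
    hbe hbe0
    (fun j hj => hk.x_ne_zero hbe0 hp hp2 hS hpS hj)
    (fun j hj => by
      obtain ⟨i, hi1, hi2, hi⟩ := hidx j hj
      show v (X (j • (m₁ • T))) < 1
      rw [hi]
      exact hstepA i (hnd i hi1 hi2))
    (fun j hj => by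
      obtain ⟨i, hi1, hi2, hi⟩ := hidx j hj
      show v (X (j • (m₁ • T))) ≤ v (X (1 • (m₁ • T)))
      rw [hi, one_nsmul]
      exact hmax i (by rw [Finset.mem_Icc]; exact ⟨hi1, hi2⟩))
    (fun j h1 hj hne => hk.seq_prod hp hS hpS h1 hj hne)
    (fun j h1 hj heq => hk.seq_inj hp hS hpS h1 hj heq)
    (fun j hj => hk.seq_dbl hp hp2 hS hpS hj)
    (hk.seq_sym hp hpS)
  obtain ⟨k, hk1, hk2, hkT⟩ := exists_nsmul_eq_of_not_dvd hp hT hpT hm₁d
  have h2 := hmain k hk1 hk2
  simp only [hkT] at h2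
  exact h2

end abstract

section points

variable {K : Type*} [Field K]

/-- The shape coordinate `ξ = x - e` as a function on points (junk `0` at the origin). -/
def xiFun (W : WeierstrassCurve K) (e : K) : W.toAffine.Point → K
  | .zero => 0
  | .some x _ _ => x - e

@[simp] theorem xiFun_some (W : WeierstrassCurve K) (e : K) {x y : K}
    (h : W.toAffine.Nonsingular x y) : xiFun W e (Point.some x y h) = x - e := rfl

variable [DecidableEq K] {W : WeierstrassCurve K} {e al be : K}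

/-- The points of a curve of shape `(e, al, be)` form an abstract Kummer line. -/
theorem kLine_of_shape (hS : Shape W e al be) : KLine (xiFun W e) al be where
  neg := by
    intro P
    cases P with
    | zero => rfl
    | some x y h => rw [Point.neg_some]; rfl
  inj := by
    intro P Q hP hQ hX
    cases P with
    | zero => exact absurd rfl hP
    | some x₁ y₁ h₁ =>
      cases Q with
      | zero => exact absurd rfl hQ
      | some x₂ y₂ h₂ =>
        have hx : x₁ = x₂ := by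
          simp only [xiFun_some] at hX
          linear_combination hX
        exact helper872.eq_or_eq_neg_of_X_eq h₁ h₂ hx
  prod := by
    intro P Q hP hQ hX
    cases P with
    | zero => exact absurd rfl hP
    | some x₁ y₁ h₁ =>
      cases Q with
      | zero => exact absurd rfl hQ
      | some x₂ y₂ h₂ =>
        have hx : x₁ ≠ x₂ := by
          intro hx
          apply hX
          simp only [xiFun_some, hx]
        obtain ⟨Xp, Yp, Xm, Ym, hp, hm, hadd, hsub, hprod, -⟩ :=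
          helper872.exists_add_sub_shape hS h₁ h₂ hx
        rw [hadd, hsub]
        simp only [xiFun_some]
        linear_combination hprod
  sum := by
    intro P Q hP hQ hX
    cases P with
    | zero => exact absurd rfl hP
    | some x₁ y₁ h₁ =>
      cases Q with
      | zero => exact absurd rfl hQ
      | some x₂ y₂ h₂ =>
        have hx : x₁ ≠ x₂ := by
          intro hx
          apply hX
          simp only [xiFun_some, hx]
        obtain ⟨Xp, Yp, Xm, Ym, hp, hm, hadd, hsub, -, hsum⟩ :=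
          helper872.exists_add_sub_shape hS h₁ h₂ hx
        rw [hadd, hsub]
        simp only [xiFun_some]
        linear_combination hsum
  dbl := by
    intro P hP hPP
    cases P with
    | zero => exact absurd rfl hP
    | some x y h =>
      have hy : y ≠ W.toAffine.negY x y := by
        intro hy
        exact hPP ((helper872.some_add_some_eq_zero_iff h h).2 ⟨rfl, hy⟩)
      obtain ⟨X, Y, h', hadd, hdup, -⟩ := helper872.exists_add_self_shape hS h hy
      rw [hadd]
      simp only [xiFun_some]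
      linear_combination hdup

end points

/-- **S05-NODEVAL**: multiplicative reduction, a `p`-torsion point near the node has
`v be < v (x - e)` and `v (x - e) ^ p ∈ (v be ^ 2) ^ ℤ`. -/
theorem nodeVal (hK : helper5.KerStmt) : helper5.NodeValStmt := by
  intro K _ _ Γ₀ _ v W e al be hS hv2 hal hbe hbe0 p hp hp2 hvp x y h hx hpP
  have hk := kLine_of_shape (W := W) hS
  have hker : ∀ S : W.toAffine.Point, S ≠ 0 → p • S = 0 → v (xiFun W e S) ≤ 1 := by
    intro S hS0 hpS
    cases S with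
    | zero => exact absurd rfl hS0
    | some x' y' h' =>
      by_contra hcon
      rw [not_le] at hcon
      exact hK K Γ₀ v W e al be hS hv2 hal.le hbe.le p hp hp2 hvp x' y' h' hcon hpS
  obtain ⟨h1, i, hi⟩ := hk.nodeVal v hp hp2 hv2 hal hbe hbe0 (Point.some_ne_zero h) hpP hker
    (by simpa using hx)
  simp only [xiFun_some] at h1 hi
  refine ⟨h1, (i : ℤ), ?_⟩
  rw [hi, ← zpow_natCast]
  congr 1

end Fermat.Agent.S05.helper2852
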