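import Mathlib

/-!
# Additive "ord" of a multiplicative valuation (helper2852, S05)

For `v : Valuation K Γ₀` on a field, `ord v x : Additive Γ₀ˣ` is the logarithm of `v x`
(junk value `0` at `x = 0`).  The order is NOT reversed: `ord v x ≤ ord v y ↔ v x ≤ v y`.
All inequalities between valuations of nonzero elements become linear arithmetic in the ordered
additive group `Additive Γ₀ˣ`, which `grind` decides.
-/

set_option autoImplicit false

namespace Fermat.Agent.S05.helper2852

variable {K : Type*} [Field K] {Γ₀ : Type*} [LinearOrderedCommGroupWithZero Γ₀]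

/-- Additive logarithm of the valuation (junk `0` at `0`). -/
noncomputable def ord (v : Valuation K Γ₀) (x : K) : Additive Γ₀ˣ :=
  if h : v x = 0 then 0 else Additive.ofMul (Units.mk0 (v x) h)

variable (v : Valuation K Γ₀)

theorem ord_of_ne {x : K} (hx : x ≠ 0) :
    ord v x = Additive.ofMul (Units.mk0 (v x) ((Valuation.ne_zero_iff v).mpr hx)) := by
  have : v x ≠ 0 := (Valuation.ne_zero_iff v).mpr hx
  simp [ord, this]

theorem ord_mul {x y : K} (hx : x ≠ 0) (hy : y ≠ 0) : ord v (x * y) = ord v x + ord v y := by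
  rw [ord_of_ne v hx, ord_of_ne v hy, ord_of_ne v (mul_ne_zero hx hy), ← ofMul_mul]
  congr 1
  ext
  simp

theorem ord_one : ord v (1 : K) = 0 := by
  rw [ord_of_ne v one_ne_zero]
  simp

theorem ord_pow {x : K} (hx : x ≠ 0) (n : ℕ) : ord v (x ^ n) = n • ord v x := by
  induction n with
  | zero => simp [ord_one]
  | succ n ih => rw [pow_succ, ord_mul v (pow_ne_zero n hx) hx, ih, succ_nsmul]

theorem ord_sq {x : K} (hx : x ≠ 0) : ord v (x ^ 2) = ord v x + ord v x := by
  rw [ord_pow v hx, two_nsmul]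

theorem ord_le_ord {x y : K} (hx : x ≠ 0) (hy : y ≠ 0) : ord v x ≤ ord v y ↔ v x ≤ v y := by
  rw [ord_of_ne v hx, ord_of_ne v hy, Additive.ofMul_le, ← Units.val_le_val]
  simp

theorem ord_lt_ord {x y : K} (hx : x ≠ 0) (hy : y ≠ 0) : ord v x < ord v y ↔ v x < v y := by
  rw [lt_iff_not_ge, lt_iff_not_ge, ord_le_ord v hy hx]

theorem ord_eq_ord {x y : K} (hx : x ≠ 0) (hy : y ≠ 0) : ord v x = ord v y ↔ v x = v y := by
  rw [le_antisymm_iff, le_antisymm_iff, ord_le_ord v hx hy, ord_le_ord v hy hx]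

theorem ord_nonpos_iff {x : K} (hx : x ≠ 0) : ord v x ≤ 0 ↔ v x ≤ 1 := by
  rw [← ord_one v, ord_le_ord v hx one_ne_zero, map_one]

theorem ord_neg_iff {x : K} (hx : x ≠ 0) : ord v x < 0 ↔ v x < 1 := by
  rw [← ord_one v, ord_lt_ord v hx one_ne_zero, map_one]

theorem ord_pos_iff {x : K} (hx : x ≠ 0) : 0 < ord v x ↔ 1 < v x := by
  rw [← ord_one v, ord_lt_ord v one_ne_zero hx, map_one]

theorem ord_eq_zero_iff {x : K} (hx : x ≠ 0) : ord v x = 0 ↔ v x = 1 := by
  rw [← ord_one v, ord_eq_ord v hx one_ne_zero, map_one]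

theorem ord_add_le {x y : K} (hx : x ≠ 0) (hy : y ≠ 0) (hxy : x + y ≠ 0) :
    ord v (x + y) ≤ max (ord v x) (ord v y) := by
  rcases le_total (v x) (v y) with h | h
  · have h1 : ord v x ≤ ord v y := (ord_le_ord v hx hy).2 h
    rw [max_eq_right h1, ord_le_ord v hxy hy]
    exact (v.map_add x y).trans (max_le h le_rfl)
  · have h1 : ord v y ≤ ord v x := (ord_le_ord v hy hx).2 h
    rw [max_eq_left h1, ord_le_ord v hxy hx]
    exact (v.map_add x y).trans (max_le le_rfl h)

theorem ord_sub_le {x y : K} (hx : x ≠ 0) (hy : y ≠ 0) (hxy : x - y ≠ 0) :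
    ord v (x - y) ≤ max (ord v x) (ord v y) := by
  rcases le_total (v x) (v y) with h | h
  · have h1 : ord v x ≤ ord v y := (ord_le_ord v hx hy).2 h
    rw [max_eq_right h1, ord_le_ord v hxy hy]
    exact (v.map_sub x y).trans (max_le h le_rfl)
  · have h1 : ord v y ≤ ord v x := (ord_le_ord v hy hx).2 h
    rw [max_eq_left h1, ord_le_ord v hxy hx]
    exact (v.map_sub x y).trans (max_le le_rfl h)

/-- If `ord x < ord y` then `x + y ≠ 0` and `ord (x + y) = ord y`. -/
theorem ord_add_of_lt {x y : K} (hx : x ≠ 0) (hy : y ≠ 0) (h : ord v x < ord v y) :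
    x + y ≠ 0 ∧ ord v (x + y) = ord v y := by
  have hlt : v x < v y := (ord_lt_ord v hx hy).1 h
  have heq : v (x + y) = v y := v.map_add_eq_of_lt_right hlt
  have hne : x + y ≠ 0 := by
    intro h0
    rw [h0, map_zero] at heq
    exact ((Valuation.ne_zero_iff v).mpr hy) heq.symm
  exact ⟨hne, (ord_eq_ord v hne hy).2 heq⟩

/-- If `ord y < ord x` then `x + y ≠ 0` and `ord (x + y) = ord x`. -/
theorem ord_add_of_gt {x y : K} (hx : x ≠ 0) (hy : y ≠ 0) (h : ord v y < ord v x) :
    x + y ≠ 0 ∧ ord v (x + y) = ord v x := by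
  have := ord_add_of_lt v hy hx h
  rw [add_comm] at this
  exact this

/-- If `ord x < ord y` then `x - y ≠ 0` and `ord (x - y) = ord y`. -/
theorem ord_sub_of_lt {x y : K} (hx : x ≠ 0) (hy : y ≠ 0) (h : ord v x < ord v y) :
    x - y ≠ 0 ∧ ord v (x - y) = ord v y := by
  have hlt : v x < v y := (ord_lt_ord v hx hy).1 h
  have heq : v (x - y) = v y := v.map_sub_eq_of_lt_right hlt
  have hne : x - y ≠ 0 := by
    intro h0
    rw [h0, map_zero] at heq
    exact ((Valuation.ne_zero_iff v).mpr hy) heq.symm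
  exact ⟨hne, (ord_eq_ord v hne hy).2 heq⟩

/-- If `ord y < ord x` then `x - y ≠ 0` and `ord (x - y) = ord x`. -/
theorem ord_sub_of_gt {x y : K} (hx : x ≠ 0) (hy : y ≠ 0) (h : ord v y < ord v x) :
    x - y ≠ 0 ∧ ord v (x - y) = ord v x := by
  have hlt : v y < v x := (ord_lt_ord v hy hx).1 h
  have heq : v (x - y) = v x := v.map_sub_eq_of_lt_left hlt
  have hne : x - y ≠ 0 := by
    intro h0
    rw [h0, map_zero] at heq
    exact ((Valuation.ne_zero_iff v).mpr hx) heq.symm
  exact ⟨hne, (ord_eq_ord v hne hx).2 heq⟩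

/-- Back to the multiplicative world: `n • ord x = m • ord y` gives `v x ^ n = v y ^ m`. -/
theorem pow_eq_pow_of_nsmul_ord {x y : K} (hx : x ≠ 0) (hy : y ≠ 0) {n m : ℕ}
    (h : n • ord v x = m • ord v y) : v x ^ n = v y ^ m := by
  rw [← ord_pow v hx, ← ord_pow v hy] at h
  have := (ord_eq_ord v (pow_ne_zero n hx) (pow_ne_zero m hy)).1 h
  simpa using this

end Fermat.Agent.S05.helper2852
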