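import Mathlib

/-!
# Unsigned tropical Kummer law at a node (helper2885, S05)

Field-level statement.  `K` is a field with a valuation `v`, `al` is a unit (`v al = 1`),
`be ≠ 0` with `v be < 1`, `v 2 = 1`.  If `ξ₁ ≠ ξ₂` and `Xp`, `Xm` satisfy the Kummer identities

* `Xp * Xm * (ξ₁ - ξ₂)² = (ξ₁ ξ₂ - be)²`
* `(Xp + Xm) * (ξ₁ - ξ₂)² = 2 (ξ₁ + ξ₂) (ξ₁ ξ₂ + be) + 4 al ξ₁ ξ₂`

(these are the `x`-coordinates of `P ± Q` on `η² = ξ (ξ² + al ξ + be)`), then, writing
`c ξ = clamp (v be) (v ξ)` for the valuation clamped to `[v be, 1]`, the unordered pair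
`{c Xp, c Xm}` equals `{c ξ₁ * c ξ₂, c ξ₁ / c ξ₂}` up to the relation `Rel (v be)`
(multiplication by `(v be) ^ (2ℤ)` and inversion).  Similarly for duplication.
-/

set_option autoImplicit false

namespace Fermat.Agent.S05.helper2885

section value

variable {Γ₀ : Type*} [LinearOrderedCommGroupWithZero Γ₀]

/-- clamp of `t` to the interval `[ε, 1]`. -/
def clamp (ε t : Γ₀) : Γ₀ := max (min t 1) ε

theorem clamp_of_one_le {ε t : Γ₀} (hε : ε ≤ 1) (h : 1 ≤ t) : clamp ε t = 1 := by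
  unfold clamp
  rw [min_eq_right h, max_eq_left hε]

theorem clamp_of_le {ε t : Γ₀} (hε : ε ≤ 1) (h : t ≤ ε) : clamp ε t = ε := by
  unfold clamp
  rw [min_eq_left (h.trans hε), max_eq_right h]

theorem clamp_of_mem {ε t : Γ₀} (h1 : ε ≤ t) (h2 : t ≤ 1) : clamp ε t = t := by
  unfold clamp
  rw [min_eq_left h2, max_eq_left h1]

theorem le_clamp (ε t : Γ₀) : ε ≤ clamp ε t := le_max_right _ _

theorem clamp_le_one {ε t : Γ₀} (hε : ε ≤ 1) : clamp ε t ≤ 1 :=
  max_le (min_le_right _ _) hε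

/-- equality up to `ε ^ (2ℤ)` and inversion. -/
def Rel (ε a b : Γ₀) : Prop := ∃ j : ℤ, a = ε ^ (2 * j) * b ∨ a = ε ^ (2 * j) * b⁻¹

theorem Rel.refl (ε a : Γ₀) : Rel ε a a := ⟨0, Or.inl (by simp)⟩

theorem Rel.of_eq {ε a b : Γ₀} (h : a = b) : Rel ε a b := h ▸ Rel.refl ε a

theorem Rel.inv_right {ε a b : Γ₀} (h : Rel ε a b) : Rel ε a b⁻¹ := by
  obtain ⟨j, h | h⟩ := h
  · exact ⟨j, Or.inr (by rw [inv_inv]; exact h)⟩
  · exact ⟨j, Or.inl h⟩

theorem Rel.symm {ε a b : Γ₀} (hε : ε ≠ 0) (h : Rel ε a b) : Rel ε b a := by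
  obtain ⟨j, h | h⟩ := h
  · refine ⟨-j, Or.inl ?_⟩
    rw [h, ← mul_assoc, ← zpow_add₀ hε]
    simp
  · refine ⟨j, Or.inr ?_⟩
    rw [h, mul_inv, inv_inv, ← mul_assoc, ← zpow_neg, ← zpow_add₀ hε]
    simp

theorem Rel.trans {ε a b c : Γ₀} (hε : ε ≠ 0) (h₁ : Rel ε a b) (h₂ : Rel ε b c) : Rel ε a c := by
  obtain ⟨j, h₁ | h₁⟩ := h₁ <;> obtain ⟨k, h₂ | h₂⟩ := h₂
  · refine ⟨j + k, Or.inl ?_⟩
    rw [h₁, h₂, ← mul_assoc, ← zpow_add₀ hε]; congr 2; ring
  · refine ⟨j + k, Or.inr ?_⟩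
    rw [h₁, h₂, ← mul_assoc, ← zpow_add₀ hε]; congr 2; ring
  · refine ⟨j - k, Or.inr ?_⟩
    rw [h₁, h₂, mul_inv, ← mul_assoc, ← zpow_neg, ← zpow_add₀ hε]; congr 2; ring
  · refine ⟨j - k, Or.inl ?_⟩
    rw [h₁, h₂, mul_inv, inv_inv, ← mul_assoc, ← zpow_neg, ← zpow_add₀ hε]; congr 2; ring

/-- Closure property used in the induction. -/
theorem Rel.mul_div {ε a b : Γ₀} (c : Γ₀) (h : Rel ε a b) :
    (Rel ε (a * c) (b * c) ∧ Rel ε (a / c) (b / c)) ∨
      (Rel ε (a * c) (b / c) ∧ Rel ε (a / c) (b * c)) := by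
  obtain ⟨j, h | h⟩ := h
  · left
    exact ⟨⟨j, Or.inl (by rw [h, mul_assoc])⟩, ⟨j, Or.inl (by rw [h, mul_div_assoc])⟩⟩
  · right
    refine ⟨⟨j, Or.inr ?_⟩, ⟨j, Or.inr ?_⟩⟩
    · rw [h, inv_div, mul_assoc, div_eq_mul_inv, mul_comm c]
    · rw [h, mul_inv, div_eq_mul_inv, mul_assoc]

/-- `1 ~ ε * ε`. -/
theorem Rel.one_eps_sq {ε : Γ₀} (hε : ε ≠ 0) : Rel ε 1 (ε * ε) := by
  refine ⟨-1, Or.inl ?_⟩
  have : ε ^ (2 * (-1 : ℤ)) = (ε * ε)⁻¹ := by
    rw [show (2 * (-1 : ℤ)) = -2 by norm_num, zpow_neg, zpow_ofNat, sq]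
  rw [this, inv_mul_cancel₀ (mul_ne_zero hε hε)]

/-- `ε² / t ~ t`. -/
theorem Rel.eps_sq_div {ε : Γ₀} (t : Γ₀) : Rel ε (ε ^ 2 / t) t := by
  refine ⟨1, Or.inr ?_⟩
  rw [mul_one, zpow_ofNat, div_eq_mul_inv]

end value

section roots

variable {K : Type*} [Field K] {Γ₀ : Type*} [LinearOrderedCommGroupWithZero Γ₀]
  (v : Valuation K Γ₀)

/-- if `t < v X` and `v X * v Y ≤ t^2` then `v (X+Y) = v X`. -/
theorem add_eq_left_of {X Y : K} {t : Γ₀} (hX : t < v X) (hprod : v X * v Y ≤ t ^ 2) :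
    v (X + Y) = v X := by
  apply v.map_add_eq_of_lt_left
  by_contra hYX
  have hYX' : v X ≤ v Y := not_lt.mp hYX
  have h1 : t ^ 2 < v X * v Y := by
    calc t ^ 2 = t * t := sq t
      _ ≤ t * v X := by gcongr
      _ < v X * v X := by
          have : 0 < v X := lt_of_le_of_lt zero_le hX
          gcongr
      _ ≤ v X * v Y := by gcongr
  exact absurd hprod (not_le.mpr h1)

/-- both roots have valuation `≤ t`. -/
theorem both_le {X Y : K} {t : Γ₀} (hprod : v X * v Y ≤ t ^ 2) (hsum : v (X + Y) ≤ t) :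
    v X ≤ t ∧ v Y ≤ t := by
  constructor
  · by_contra h
    have h' : t < v X := not_le.mp h
    have := add_eq_left_of v h' hprod
    rw [this] at hsum
    exact absurd hsum (not_le.mpr h')
  · by_contra h
    have h' : t < v Y := not_le.mp h
    rw [mul_comm] at hprod
    have := add_eq_left_of v h' hprod
    rw [add_comm, this] at hsum
    exact absurd hsum (not_le.mpr h')

/-- both roots have valuation `t`. -/
theorem both_eq {X Y : K} {t : Γ₀} (ht : t ≠ 0) (hprod : v X * v Y = t ^ 2)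
    (hsum : v (X + Y) ≤ t) : v X = t ∧ v Y = t := by
  obtain ⟨hX, hY⟩ := both_le v hprod.le hsum
  have ht0 : 0 < t := zero_lt_iff.mpr ht
  constructor
  · by_contra h
    have hlt : v X < t := lt_of_le_of_ne hX h
    have : v X * v Y < t ^ 2 := by
      calc v X * v Y ≤ v X * t := by gcongr
        _ < t * t := by gcongr
        _ = t ^ 2 := (sq t).symm
    exact absurd hprod this.ne
  · by_contra h
    have hlt : v Y < t := lt_of_le_of_ne hY h
    have : v X * v Y < t ^ 2 := by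
      calc v X * v Y ≤ t * v Y := by gcongr
        _ < t * t := by gcongr
        _ = t ^ 2 := (sq t).symm
    exact absurd hprod this.ne

/-- both roots have valuation `≥ 1`. -/
theorem both_ge_one {X Y : K} {R : Γ₀} (hR : 1 ≤ R) (hprod : R ≤ v X * v Y)
    (hsum : v (X + Y) ≤ R) : 1 ≤ v X ∧ 1 ≤ v Y := by
  have hR0 : 0 < R := lt_of_lt_of_le zero_lt_one hR
  have key : ∀ {X Y : K}, R ≤ v X * v Y → v (X + Y) ≤ R → 1 ≤ v X := by
    intro X Y hprod hsum
    by_contra h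
    have h' : v X < 1 := not_le.mp h
    have hY : R < v Y := by
      by_contra hY
      have hY' : v Y ≤ R := not_lt.mp hY
      have : v X * v Y < R := by
        calc v X * v Y ≤ v X * R := by gcongr
          _ < 1 * R := by gcongr
          _ = R := one_mul R
      exact absurd hprod (not_le.mpr this)
    have hXY : v X < v Y := lt_of_lt_of_le h' (hR.trans hY.le)
    rw [v.map_add_eq_of_lt_right hXY] at hsum
    exact absurd hsum (not_le.mpr hY)
  refine ⟨key hprod hsum, key (X := Y) (Y := X) ?_ ?_⟩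
  · rwa [mul_comm]
  · rwa [add_comm]

/-- the roots have valuations `s` and `≤ r`. -/
theorem split_le {X Y : K} {s r : Γ₀} (hr : r < s) (hsum : v (X + Y) = s)
    (hprod : v X * v Y ≤ s * r) : (v X = s ∧ v Y ≤ r) ∨ (v X ≤ r ∧ v Y = s) := by
  have hs0 : 0 < s := lt_of_le_of_lt zero_le hr
  rcases lt_trichotomy (v X) (v Y) with h | h | h
  · right
    rw [v.map_add_eq_of_lt_right h] at hsum
    rw [hsum] at hprod
    rw [mul_comm] at hprod
    exact ⟨le_of_mul_le_mul_left hprod hs0, hsum⟩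
  · exfalso
    have h1 : s ≤ v X := by
      have := v.map_add X Y
      rw [hsum, ← h, max_self] at this
      exact this
    have : s * r < v X * v Y := by
      calc s * r < s * s := by gcongr
        _ ≤ v X * v X := by gcongr
        _ = v X * v Y := by rw [h]
    exact absurd hprod (not_le.mpr this)
  · left
    rw [v.map_add_eq_of_lt_left h] at hsum
    rw [hsum] at hprod
    exact ⟨hsum, le_of_mul_le_mul_left hprod hs0⟩

/-- the roots have valuations `s` and `r`. -/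
theorem split_eq {X Y : K} {s r : Γ₀} (hr : r < s) (hsum : v (X + Y) = s)
    (hprod : v X * v Y = s * r) : (v X = s ∧ v Y = r) ∨ (v X = r ∧ v Y = s) := by
  have hs0 : s ≠ 0 := (lt_of_le_of_lt zero_le hr).ne'
  rcases split_le v hr hsum hprod.le with ⟨h1, _⟩ | ⟨_, h2⟩
  · left
    refine ⟨h1, ?_⟩
    rw [h1] at hprod
    exact mul_left_cancel₀ hs0 hprod
  · right
    refine ⟨?_, h2⟩
    rw [h2, mul_comm] at hprod
    exact mul_left_cancel₀ hs0 hprod

end roots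


section pair

variable {K : Type*} [Field K] {Γ₀ : Type*} [LinearOrderedCommGroupWithZero Γ₀]
  (v : Valuation K Γ₀) {al be ξ₁ ξ₂ Xp Xm : K}

theorem v_four (h2 : v (2 : K) = 1) : v (4 : K) = 1 := by
  have : (4 : K) = 2 * 2 := by norm_num
  rw [this, map_mul, h2, one_mul]

theorem v_sumNum_le (h2 : v (2 : K) = 1) (hal : v al = 1) :
    v (2 * (ξ₁ + ξ₂) * (ξ₁ * ξ₂ + be) + 4 * al * ξ₁ * ξ₂) ≤
      max (v (ξ₁ + ξ₂) * v (ξ₁ * ξ₂ + be)) (v ξ₁ * v ξ₂) := by
  have h4 := v_four v h2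
  have := v.map_add (2 * (ξ₁ + ξ₂) * (ξ₁ * ξ₂ + be)) (4 * al * ξ₁ * ξ₂)
  simpa only [map_mul, h2, h4, hal, one_mul] using this

theorem v_sumNum_eq (h2 : v (2 : K) = 1) (hal : v al = 1)
    (h : v (ξ₁ + ξ₂) * v (ξ₁ * ξ₂ + be) < v ξ₁ * v ξ₂) :
    v (2 * (ξ₁ + ξ₂) * (ξ₁ * ξ₂ + be) + 4 * al * ξ₁ * ξ₂) = v ξ₁ * v ξ₂ := by
  have h4 := v_four v h2
  have e1 : v (2 * (ξ₁ + ξ₂) * (ξ₁ * ξ₂ + be)) = v (ξ₁ + ξ₂) * v (ξ₁ * ξ₂ + be) := by
    simp only [map_mul, h2, one_mul]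
  have e2 : v (4 * al * ξ₁ * ξ₂) = v ξ₁ * v ξ₂ := by
    simp only [map_mul, h4, hal, one_mul]
  rw [v.map_add_eq_of_lt_right (by rw [e1, e2]; exact h), e2]

/-- The unsigned Kummer law, ordered case `v ξ₂ ≤ v ξ₁`. -/
theorem pair_ord (h2 : v (2 : K) = 1) (hal : v al = 1) (hbe0 : be ≠ 0) (hbe1 : v be < 1)
    (hne : ξ₁ ≠ ξ₂) (hle : v ξ₂ ≤ v ξ₁)
    (hP : Xp * Xm * (ξ₁ - ξ₂) ^ 2 = (ξ₁ * ξ₂ - be) ^ 2)
    (hS : (Xp + Xm) * (ξ₁ - ξ₂) ^ 2 = 2 * (ξ₁ + ξ₂) * (ξ₁ * ξ₂ + be) + 4 * al * ξ₁ * ξ₂) :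
    (Rel (v be) (clamp (v be) (v Xp)) (clamp (v be) (v ξ₁) * clamp (v be) (v ξ₂)) ∧
      Rel (v be) (clamp (v be) (v Xm)) (clamp (v be) (v ξ₁) / clamp (v be) (v ξ₂))) ∨
    (Rel (v be) (clamp (v be) (v Xp)) (clamp (v be) (v ξ₁) / clamp (v be) (v ξ₂)) ∧
      Rel (v be) (clamp (v be) (v Xm)) (clamp (v be) (v ξ₁) * clamp (v be) (v ξ₂))) := by
  have hε0 : v be ≠ 0 := (v.ne_zero_iff).mpr hbe0
  have hεpos : 0 < v be := zero_lt_iff.mpr hε0
  have hε1 : v be ≤ 1 := hbe1.le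
  have hd : ξ₁ - ξ₂ ≠ 0 := sub_ne_zero.mpr hne
  have hD0 : v (ξ₁ - ξ₂) ≠ 0 := (v.ne_zero_iff).mpr hd
  have hDpos : 0 < v (ξ₁ - ξ₂) := zero_lt_iff.mpr hD0
  have hD2pos : 0 < v (ξ₁ - ξ₂) ^ 2 := pow_pos hDpos 2
  have hDle : v (ξ₁ - ξ₂) ≤ v ξ₁ := v.map_sub_le le_rfl hle
  have hsle : v (ξ₁ + ξ₂) ≤ v ξ₁ := v.map_add_le le_rfl hle
  have hPv : v Xp * v Xm = v (ξ₁ * ξ₂ - be) ^ 2 / v (ξ₁ - ξ₂) ^ 2 := by
    rw [eq_div_iff hD2pos.ne']
    have := congrArg v hP
    simpa only [map_mul, map_pow] using this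
  have hSv : v (Xp + Xm) =
      v (2 * (ξ₁ + ξ₂) * (ξ₁ * ξ₂ + be) + 4 * al * ξ₁ * ξ₂) / v (ξ₁ - ξ₂) ^ 2 := by
    rw [eq_div_iff hD2pos.ne']
    have := congrArg v hS
    simpa only [map_mul, map_pow] using this
  have hnPle : v (ξ₁ * ξ₂ - be) ≤ max (v ξ₁ * v ξ₂) (v be) := by
    have := v.map_sub (ξ₁ * ξ₂) be
    rwa [map_mul] at this
  have hmle : v (ξ₁ * ξ₂ + be) ≤ max (v ξ₁ * v ξ₂) (v be) := by
    have := v.map_add (ξ₁ * ξ₂) be
    rwa [map_mul] at this
  rcases le_or_gt 1 (v ξ₁) with h1 | h1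
  · -- `P ∈ E₀`
    have hc1 : clamp (v be) (v ξ₁) = 1 := clamp_of_one_le hε1 h1
    have ha1pos : 0 < v ξ₁ := lt_of_lt_of_le zero_lt_one h1
    rw [hc1, one_mul, one_div]
    suffices h : clamp (v be) (v Xp) = clamp (v be) (v ξ₂) ∧
        clamp (v be) (v Xm) = clamp (v be) (v ξ₂) by
      left; exact ⟨Rel.of_eq h.1, (Rel.of_eq h.2).inv_right⟩
    rcases le_or_gt 1 (v ξ₂) with h1' | h1'
    · -- E1
      have h12 : 1 ≤ v ξ₁ * v ξ₂ := one_le_mul_of_one_le_of_one_le h1 h1'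
      have hprod : v be < v ξ₁ * v ξ₂ := lt_of_lt_of_le hbe1 h12
      have hnP : v (ξ₁ * ξ₂ - be) = v ξ₁ * v ξ₂ := by
        rw [v.map_sub_eq_of_lt_left (by rwa [map_mul]), map_mul]
      have hm : v (ξ₁ * ξ₂ + be) = v ξ₁ * v ξ₂ := by
        rw [v.map_add_eq_of_lt_left (by rwa [map_mul]), map_mul]
      have ha1le : v ξ₁ ≤ v ξ₁ * v ξ₂ := le_mul_of_one_le_right zero_le h1'
      have hnS : v (2 * (ξ₁ + ξ₂) * (ξ₁ * ξ₂ + be) + 4 * al * ξ₁ * ξ₂) ≤ (v ξ₁ * v ξ₂) ^ 2 := by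
        refine (v_sumNum_le v h2 hal).trans (max_le ?_ ?_)
        · rw [hm, sq]
          gcongr
          exact hsle.trans ha1le
        · rw [sq]; exact le_mul_of_one_le_left zero_le h12
      have hD2 : v (ξ₁ - ξ₂) ^ 2 ≤ (v ξ₁ * v ξ₂) ^ 2 := by
        gcongr
        exact hDle.trans ha1le
      obtain ⟨hp, hm'⟩ := both_ge_one v (R := (v ξ₁ * v ξ₂) ^ 2 / v (ξ₁ - ξ₂) ^ 2)
        ((one_le_div₀ hD2pos).mpr hD2) (by rw [hPv, hnP])
        (by rw [hSv]; exact div_le_div_of_nonneg_right hnS zero_le)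
      rw [clamp_of_one_le hε1 hp, clamp_of_one_le hε1 hm', clamp_of_one_le hε1 h1']
      exact ⟨rfl, rfl⟩
    · have hlt : v ξ₂ < v ξ₁ := lt_of_lt_of_le h1' h1
      have hD : v (ξ₁ - ξ₂) = v ξ₁ := v.map_sub_eq_of_lt_left hlt
      rw [hD] at hPv hSv
      have ha1sq : 0 < v ξ₁ ^ 2 := pow_pos ha1pos 2
      rcases lt_or_ge (v be) (v ξ₂) with hε2 | hε2
      · -- E2
        have ha2pos : 0 < v ξ₂ := lt_trans hεpos hε2
        have hprod : v be < v ξ₁ * v ξ₂ := lt_of_lt_of_le hε2 (le_mul_of_one_le_left zero_le h1)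
        have hnP : v (ξ₁ * ξ₂ - be) = v ξ₁ * v ξ₂ := by
          rw [v.map_sub_eq_of_lt_left (by rwa [map_mul]), map_mul]
        have hm : v (ξ₁ * ξ₂ + be) = v ξ₁ * v ξ₂ := by
          rw [v.map_add_eq_of_lt_left (by rwa [map_mul]), map_mul]
        have hnS : v (2 * (ξ₁ + ξ₂) * (ξ₁ * ξ₂ + be) + 4 * al * ξ₁ * ξ₂) ≤
            v ξ₁ * (v ξ₁ * v ξ₂) := by
          refine (v_sumNum_le v h2 hal).trans (max_le ?_ ?_)
          · rw [hm]; gcongr
          · exact le_mul_of_one_le_left zero_le h1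
        obtain ⟨hp, hm'⟩ := both_eq v (t := v ξ₂) ha2pos.ne'
          (by rw [hPv, hnP]; field_simp)
          (by rw [hSv, div_le_iff₀ ha1sq]; refine hnS.trans (le_of_eq ?_); rw [sq]; ac_rfl)
        rw [hp, hm']
        exact ⟨rfl, rfl⟩
      · -- E3
        have hB1 : v ξ₁ * v ξ₂ ≤ v ξ₁ * v be := by gcongr
        have hB2 : v be ≤ v ξ₁ * v be := le_mul_of_one_le_left zero_le h1
        have hnP : v (ξ₁ * ξ₂ - be) ≤ v ξ₁ * v be := hnPle.trans (max_le hB1 hB2)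
        have hm : v (ξ₁ * ξ₂ + be) ≤ v ξ₁ * v be := hmle.trans (max_le hB1 hB2)
        have hnS : v (2 * (ξ₁ + ξ₂) * (ξ₁ * ξ₂ + be) + 4 * al * ξ₁ * ξ₂) ≤
            v ξ₁ * (v ξ₁ * v be) := by
          refine (v_sumNum_le v h2 hal).trans (max_le ?_ ?_)
          · gcongr
          · exact hB1.trans (le_mul_of_one_le_left zero_le h1)
        obtain ⟨hp, hm'⟩ := both_le v (t := v be)
          (by
            rw [hPv, div_le_iff₀ ha1sq, ← mul_pow]
            gcongr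
            rw [mul_comm (v be)]; exact hnP)
          (by rw [hSv, div_le_iff₀ ha1sq]; refine hnS.trans (le_of_eq ?_); rw [sq]; ac_rfl)
        rw [clamp_of_le hε1 hp, clamp_of_le hε1 hm', clamp_of_le hε1 hε2]
        exact ⟨rfl, rfl⟩
  · rcases le_or_gt (v ξ₁) (v be) with hD1 | hC
    · -- D : both near the node point
      have h2ε : v ξ₂ ≤ v be := hle.trans hD1
      have hc1 : clamp (v be) (v ξ₁) = v be := clamp_of_le hε1 hD1
      have hc2 : clamp (v be) (v ξ₂) = v be := clamp_of_le hε1 h2ε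
      have hprod : v ξ₁ * v ξ₂ < v be := by
        calc v ξ₁ * v ξ₂ ≤ v be * v be := by gcongr
          _ < 1 * v be := by gcongr
          _ = v be := one_mul _
      have hnP : v (ξ₁ * ξ₂ - be) = v be := v.map_sub_eq_of_lt_right (by rwa [map_mul])
      have hm : v (ξ₁ * ξ₂ + be) = v be := v.map_add_eq_of_lt_right (by rwa [map_mul])
      have hnS : v (2 * (ξ₁ + ξ₂) * (ξ₁ * ξ₂ + be) + 4 * al * ξ₁ * ξ₂) ≤ v be ^ 2 := by
        refine (v_sumNum_le v h2 hal).trans (max_le ?_ ?_)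
        · rw [hm, sq]; gcongr; exact hsle.trans hD1
        · rw [sq]; gcongr
      have hD2 : v (ξ₁ - ξ₂) ^ 2 ≤ v be ^ 2 := by
        gcongr
        exact hDle.trans hD1
      obtain ⟨hp, hm'⟩ := both_ge_one v (R := v be ^ 2 / v (ξ₁ - ξ₂) ^ 2)
        ((one_le_div₀ hD2pos).mpr hD2) (by rw [hPv, hnP])
        (by rw [hSv]; exact div_le_div_of_nonneg_right hnS zero_le)
      rw [clamp_of_one_le hε1 hp, clamp_of_one_le hε1 hm', hc1, hc2]
      left
      exact ⟨Rel.one_eps_sq hε0, Rel.of_eq (div_self hε0).symm⟩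
    · -- C : `v be < v ξ₁ < 1`
      have ha1pos : 0 < v ξ₁ := lt_trans hεpos hC
      have ha1ne : v ξ₁ ≠ 0 := ha1pos.ne'
      have ha1sq : 0 < v ξ₁ ^ 2 := pow_pos ha1pos 2
      have hc1 : clamp (v be) (v ξ₁) = v ξ₁ := clamp_of_mem hC.le h1.le
      rw [hc1]
      rcases lt_or_eq_of_le hle with hlt | heq
      · have hD : v (ξ₁ - ξ₂) = v ξ₁ := v.map_sub_eq_of_lt_left hlt
        rw [hD] at hPv hSv
        rcases le_or_gt (v ξ₂) (v be) with hε2 | hε2
        · -- C3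
          have hc2 : clamp (v be) (v ξ₂) = v be := clamp_of_le hε1 hε2
          rw [hc2]
          have hprod : v ξ₁ * v ξ₂ < v be := by
            calc v ξ₁ * v ξ₂ ≤ v ξ₁ * v be := by gcongr
              _ < 1 * v be := by gcongr
              _ = v be := one_mul _
          have hnP : v (ξ₁ * ξ₂ - be) = v be := v.map_sub_eq_of_lt_right (by rwa [map_mul])
          have hm : v (ξ₁ * ξ₂ + be) = v be := v.map_add_eq_of_lt_right (by rwa [map_mul])
          have hnS : v (2 * (ξ₁ + ξ₂) * (ξ₁ * ξ₂ + be) + 4 * al * ξ₁ * ξ₂) ≤ v ξ₁ * v be := by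
            refine (v_sumNum_le v h2 hal).trans (max_le ?_ ?_)
            · rw [hm]; gcongr
            · gcongr
          have ht0 : v be / v ξ₁ ≠ 0 := div_ne_zero hε0 ha1ne
          obtain ⟨hp, hm'⟩ := both_eq v (t := v be / v ξ₁) ht0
            (by rw [hPv, hnP, div_pow])
            (by
              rw [hSv, div_le_iff₀ ha1sq]
              refine hnS.trans (le_of_eq ?_)
              field_simp)
          have hmem1 : v be ≤ v be / v ξ₁ := by
            rw [le_div_iff₀ ha1pos]; exact mul_le_of_le_one_right zero_le h1.le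
          have hmem2 : v be / v ξ₁ ≤ 1 := (div_le_one₀ ha1pos).mpr hC.le
          rw [hp, hm', clamp_of_mem hmem1 hmem2]
          left
          constructor
          · have := Rel.eps_sq_div (ε := v be) (v ξ₁ * v be)
            have e : v be ^ 2 / (v ξ₁ * v be) = v be / v ξ₁ := by field_simp
            rwa [e] at this
          · have := (Rel.refl (v be) (v be / v ξ₁)).inv_right
            rwa [inv_div] at this
        · -- C2
          have ha2pos : 0 < v ξ₂ := lt_trans hεpos hε2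
          have ha2ne : v ξ₂ ≠ 0 := ha2pos.ne'
          have hc2 : clamp (v be) (v ξ₂) = v ξ₂ := clamp_of_mem hε2.le (hlt.le.trans h1.le)
          rw [hc2]
          have h12lt : v ξ₁ * v ξ₂ < v ξ₂ := mul_lt_of_lt_one_left ha2pos h1
          have hm : v (ξ₁ * ξ₂ + be) < v ξ₂ := lt_of_le_of_lt hmle (max_lt h12lt hε2)
          have hsm : v (ξ₁ + ξ₂) * v (ξ₁ * ξ₂ + be) < v ξ₁ * v ξ₂ := by
            calc v (ξ₁ + ξ₂) * v (ξ₁ * ξ₂ + be) ≤ v ξ₁ * v (ξ₁ * ξ₂ + be) := by gcongr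
              _ < v ξ₁ * v ξ₂ := by gcongr
          have hnS := v_sumNum_eq v h2 hal hsm
          rw [hnS] at hSv
          have hσ : v (Xp + Xm) = v ξ₂ / v ξ₁ := by rw [hSv]; field_simp
          have hs1 : v be ≤ v ξ₂ / v ξ₁ := by
            rw [le_div_iff₀ ha1pos]
            exact (mul_le_of_le_one_right zero_le h1.le).trans hε2.le
          have hs2 : v ξ₂ / v ξ₁ ≤ 1 := (div_le_one₀ ha1pos).mpr hlt.le
          have hrel_s : Rel (v be) (v ξ₂ / v ξ₁) (v ξ₁ / v ξ₂) := by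
            have := (Rel.refl (v be) (v ξ₂ / v ξ₁)).inv_right
            rwa [inv_div] at this
          rcases lt_trichotomy (v be) (v ξ₁ * v ξ₂) with hlt3 | heq3 | hgt3
          · -- C2a
            have hnP : v (ξ₁ * ξ₂ - be) = v ξ₁ * v ξ₂ := by
              rw [v.map_sub_eq_of_lt_left (by rwa [map_mul]), map_mul]
            have hr : v ξ₁ * v ξ₂ < v ξ₂ / v ξ₁ := by
              rw [lt_div_iff₀ ha1pos]
              calc v ξ₁ * v ξ₂ * v ξ₁ ≤ v ξ₁ * v ξ₂ * 1 := by gcongr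
                _ = v ξ₁ * v ξ₂ := mul_one _
                _ < v ξ₂ := h12lt
            have hr1 : v ξ₁ * v ξ₂ ≤ 1 := h12lt.le.trans (hlt.le.trans h1.le)
            rcases split_eq v hr hσ (by rw [hPv, hnP]; field_simp) with ⟨hp, hm'⟩ | ⟨hp, hm'⟩
            · right
              rw [hp, hm', clamp_of_mem hs1 hs2, clamp_of_mem hlt3.le hr1]
              exact ⟨hrel_s, Rel.refl _ _⟩
            · left
              rw [hp, hm', clamp_of_mem hs1 hs2, clamp_of_mem hlt3.le hr1]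
              exact ⟨Rel.refl _ _, hrel_s⟩
          · -- C2c
            have hnP : v (ξ₁ * ξ₂ - be) ≤ v be :=
              hnPle.trans (max_le heq3.symm.le le_rfl)
            have hr : v be < v ξ₂ / v ξ₁ := by
              rw [lt_div_iff₀ ha1pos]
              exact lt_of_le_of_lt (mul_le_of_le_one_right zero_le h1.le) hε2
            have hprodle : v Xp * v Xm ≤ v ξ₂ / v ξ₁ * v be := by
              rw [hPv, div_le_iff₀ ha1sq]
              calc v (ξ₁ * ξ₂ - be) ^ 2 ≤ v be ^ 2 := by gcongr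
                _ = v be * (v ξ₁ * v ξ₂) := by rw [← heq3, sq]
                _ = v ξ₂ / v ξ₁ * v be * v ξ₁ ^ 2 := by field_simp
            have hcc : v be = v ξ₁ * v ξ₂ := heq3
            rcases split_le v hr hσ hprodle with ⟨hp, hm'⟩ | ⟨hp, hm'⟩
            · right
              rw [hp, clamp_of_mem hs1 hs2, clamp_of_le hε1 hm']
              exact ⟨hrel_s, Rel.of_eq hcc⟩
            · left
              rw [hm', clamp_of_mem hs1 hs2, clamp_of_le hε1 hp]
              exact ⟨Rel.of_eq hcc, hrel_s⟩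
          · -- C2b
            have h12pos : 0 < v ξ₁ * v ξ₂ := mul_pos ha1pos ha2pos
            have hnP : v (ξ₁ * ξ₂ - be) = v be := v.map_sub_eq_of_lt_right (by rwa [map_mul])
            have hr : v be ^ 2 / (v ξ₁ * v ξ₂) < v ξ₂ / v ξ₁ := by
              rw [div_lt_iff₀ h12pos]
              calc v be ^ 2 < v ξ₂ ^ 2 := pow_lt_pow_left₀ hε2 zero_le two_ne_zero
                _ = v ξ₂ / v ξ₁ * (v ξ₁ * v ξ₂) := by field_simp
            have hr0 : v be ≤ v be ^ 2 / (v ξ₁ * v ξ₂) := by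
              rw [le_div_iff₀ h12pos, sq]; gcongr
            have hr1 : v be ^ 2 / (v ξ₁ * v ξ₂) ≤ 1 := by
              rw [div_le_one₀ h12pos, sq]
              calc v be * v be ≤ v ξ₁ * v be := by gcongr
                _ ≤ v ξ₁ * v ξ₂ := by gcongr
            rcases split_eq v hr hσ (by rw [hPv, hnP]; field_simp) with ⟨hp, hm'⟩ | ⟨hp, hm'⟩
            · right
              rw [hp, hm', clamp_of_mem hs1 hs2, clamp_of_mem hr0 hr1]
              exact ⟨hrel_s, Rel.eps_sq_div _⟩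
            · left
              rw [hp, hm', clamp_of_mem hs1 hs2, clamp_of_mem hr0 hr1]
              exact ⟨Rel.eps_sq_div _, hrel_s⟩
      · -- C1 : `v ξ₂ = v ξ₁`
        have hε2 : v be < v ξ₂ := heq ▸ hC
        have ha2pos : 0 < v ξ₂ := lt_trans hεpos hε2
        have h21 : v ξ₂ < 1 := heq ▸ h1
        have hc2 : clamp (v be) (v ξ₂) = v ξ₂ := clamp_of_mem hε2.le h21.le
        rw [hc2]
        have h12pos : 0 < v ξ₁ * v ξ₂ := mul_pos ha1pos ha2pos
        have h12lt : v ξ₁ * v ξ₂ < v ξ₂ := mul_lt_of_lt_one_left ha2pos h1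
        have h12lt1 : v ξ₁ * v ξ₂ < 1 := h12lt.trans h21
        have hm : v (ξ₁ * ξ₂ + be) < v ξ₂ := lt_of_le_of_lt hmle (max_lt h12lt hε2)
        have hsm : v (ξ₁ + ξ₂) * v (ξ₁ * ξ₂ + be) < v ξ₁ * v ξ₂ := by
          calc v (ξ₁ + ξ₂) * v (ξ₁ * ξ₂ + be) ≤ v ξ₁ * v (ξ₁ * ξ₂ + be) := by gcongr
            _ < v ξ₁ * v ξ₂ := by gcongr
        have hnS := v_sumNum_eq v h2 hal hsm
        rw [hnS] at hSv
        have hD2 : v (ξ₁ - ξ₂) ^ 2 ≤ v ξ₁ * v ξ₂ := by
          rw [sq]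
          calc v (ξ₁ - ξ₂) * v (ξ₁ - ξ₂) ≤ v ξ₁ * v ξ₁ := by gcongr
            _ = v ξ₁ * v ξ₂ := by rw [heq]
        have hσ1 : 1 ≤ v (Xp + Xm) := by rw [hSv]; exact (one_le_div₀ hD2pos).mpr hD2
        have hdiv : v ξ₁ / v ξ₂ = 1 := by rw [heq]; exact div_self ha1ne
        rw [hdiv]
        have hone : ∀ t : Γ₀, 1 ≤ t → Rel (v be) (clamp (v be) t) 1 := fun t ht =>
          Rel.of_eq (clamp_of_one_le hε1 ht)
        rcases lt_trichotomy (v be) (v ξ₁ * v ξ₂) with hlt3 | heq3 | hgt3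
        · -- C1a
          have hnP : v (ξ₁ * ξ₂ - be) = v ξ₁ * v ξ₂ := by
            rw [v.map_sub_eq_of_lt_left (by rwa [map_mul]), map_mul]
          have hprodeq : v Xp * v Xm = v (Xp + Xm) * (v ξ₁ * v ξ₂) := by
            rw [hPv, hSv, hnP]; field_simp
          rcases split_eq v (lt_of_lt_of_le h12lt1 hσ1) rfl hprodeq with ⟨hp, hm'⟩ | ⟨hp, hm'⟩
          · right
            refine ⟨hone _ (hp ▸ hσ1), ?_⟩
            rw [hm', clamp_of_mem hlt3.le h12lt1.le]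
            exact Rel.refl _ _
          · left
            refine ⟨?_, hone _ (hm' ▸ hσ1)⟩
            rw [hp, clamp_of_mem hlt3.le h12lt1.le]
            exact Rel.refl _ _
        · -- C1c
          have hnP : v (ξ₁ * ξ₂ - be) ≤ v be :=
            hnPle.trans (max_le heq3.symm.le le_rfl)
          have hprodle : v Xp * v Xm ≤ v (Xp + Xm) * v be := by
            rw [hPv, hSv, div_le_iff₀ hD2pos]
            calc v (ξ₁ * ξ₂ - be) ^ 2 ≤ v be ^ 2 := by gcongr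
              _ = v ξ₁ * v ξ₂ * v be := by rw [← heq3, sq]
              _ = v ξ₁ * v ξ₂ / v (ξ₁ - ξ₂) ^ 2 * v be * v (ξ₁ - ξ₂) ^ 2 := by field_simp
          have hcc : v be = v ξ₁ * v ξ₂ := heq3
          rcases split_le v (lt_of_lt_of_le hbe1 hσ1) rfl hprodle with ⟨hp, hm'⟩ | ⟨hp, hm'⟩
          · right
            refine ⟨hone _ (hp ▸ hσ1), ?_⟩
            rw [clamp_of_le hε1 hm']
            exact Rel.of_eq hcc
          · left
            refine ⟨?_, hone _ (hm' ▸ hσ1)⟩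
            rw [clamp_of_le hε1 hp]
            exact Rel.of_eq hcc
        · -- C1b
          have hnP : v (ξ₁ * ξ₂ - be) = v be := v.map_sub_eq_of_lt_right (by rwa [map_mul])
          have hr0 : v be ≤ v be ^ 2 / (v ξ₁ * v ξ₂) := by
            rw [le_div_iff₀ h12pos, sq]; gcongr
          have hr1 : v be ^ 2 / (v ξ₁ * v ξ₂) < 1 := by
            rw [div_lt_one₀ h12pos, sq]
            calc v be * v be < v ξ₁ * v be := by gcongr
              _ ≤ v ξ₁ * v ξ₂ := by gcongr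
          have hprodeq : v Xp * v Xm = v (Xp + Xm) * (v be ^ 2 / (v ξ₁ * v ξ₂)) := by
            rw [hPv, hSv, hnP]; field_simp
          rcases split_eq v (lt_of_lt_of_le hr1 hσ1) rfl hprodeq with ⟨hp, hm'⟩ | ⟨hp, hm'⟩
          · right
            refine ⟨hone _ (hp ▸ hσ1), ?_⟩
            rw [hm', clamp_of_mem hr0 hr1.le]
            exact Rel.eps_sq_div _
          · left
            refine ⟨?_, hone _ (hm' ▸ hσ1)⟩
            rw [hp, clamp_of_mem hr0 hr1.le]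
            exact Rel.eps_sq_div _

/-- The unsigned Kummer law (no order assumption). -/
theorem pair (h2 : v (2 : K) = 1) (hal : v al = 1) (hbe0 : be ≠ 0) (hbe1 : v be < 1)
    (hne : ξ₁ ≠ ξ₂)
    (hP : Xp * Xm * (ξ₁ - ξ₂) ^ 2 = (ξ₁ * ξ₂ - be) ^ 2)
    (hS : (Xp + Xm) * (ξ₁ - ξ₂) ^ 2 = 2 * (ξ₁ + ξ₂) * (ξ₁ * ξ₂ + be) + 4 * al * ξ₁ * ξ₂) :
    (Rel (v be) (clamp (v be) (v Xp)) (clamp (v be) (v ξ₁) * clamp (v be) (v ξ₂)) ∧
      Rel (v be) (clamp (v be) (v Xm)) (clamp (v be) (v ξ₁) / clamp (v be) (v ξ₂))) ∨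
    (Rel (v be) (clamp (v be) (v Xp)) (clamp (v be) (v ξ₁) / clamp (v be) (v ξ₂)) ∧
      Rel (v be) (clamp (v be) (v Xm)) (clamp (v be) (v ξ₁) * clamp (v be) (v ξ₂))) := by
  rcases le_total (v ξ₂) (v ξ₁) with hle | hle
  · exact pair_ord v h2 hal hbe0 hbe1 hne hle hP hS
  · have hP' : Xp * Xm * (ξ₂ - ξ₁) ^ 2 = (ξ₂ * ξ₁ - be) ^ 2 := by
      rw [show (ξ₂ - ξ₁) ^ 2 = (ξ₁ - ξ₂) ^ 2 by ring, hP]; ring
    have hS' : (Xp + Xm) * (ξ₂ - ξ₁) ^ 2 =
        2 * (ξ₂ + ξ₁) * (ξ₂ * ξ₁ + be) + 4 * al * ξ₂ * ξ₁ := by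
      rw [show (ξ₂ - ξ₁) ^ 2 = (ξ₁ - ξ₂) ^ 2 by ring, hS]; ring
    have key := pair_ord v h2 hal hbe0 hbe1 (Ne.symm hne) hle hP' hS'
    have flip : ∀ a : Γ₀, Rel (v be) a (clamp (v be) (v ξ₂) / clamp (v be) (v ξ₁)) →
        Rel (v be) a (clamp (v be) (v ξ₁) / clamp (v be) (v ξ₂)) := by
      intro a h
      have := h.inv_right
      rwa [inv_div] at this
    rw [mul_comm (clamp (v be) (v ξ₂))] at key
    rcases key with ⟨k1, k2⟩ | ⟨k1, k2⟩
    · exact Or.inl ⟨k1, flip _ k2⟩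
    · exact Or.inr ⟨flip _ k1, k2⟩

/-- Clamped valuation at a `2`-torsion point. -/
theorem two_torsion_clamp (hal : v al = 1) (hbe0 : be ≠ 0) (hbe1 : v be < 1) {ξ : K}
    (h : ξ * (ξ ^ 2 + al * ξ + be) = 0) :
    clamp (v be) (v ξ) = 1 ∨ clamp (v be) (v ξ) = v be := by
  have hε0 : v be ≠ 0 := (v.ne_zero_iff).mpr hbe0
  have hεpos : 0 < v be := zero_lt_iff.mpr hε0
  rcases mul_eq_zero.mp h with h0 | h0
  · right
    rw [h0, map_zero]
    exact clamp_of_le hbe1.le zero_le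
  · have hξ0 : ξ ≠ 0 := by
      rintro rfl
      apply hbe0
      simpa using h0
    have hapos : 0 < v ξ := zero_lt_iff.mpr ((v.ne_zero_iff).mpr hξ0)
    rcases lt_trichotomy (v ξ) 1 with h1 | h1 | h1
    · right
      have e : ξ * (ξ + al) = -be := by linear_combination h0
      have e2 : v (ξ + al) = 1 := by
        rw [v.map_add_eq_of_lt_right (by rw [hal]; exact h1), hal]
      have e3 := congrArg v e
      rw [map_mul, e2, mul_one, v.map_neg] at e3
      rw [e3]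
      exact clamp_of_le hbe1.le le_rfl
    · left
      exact clamp_of_one_le hbe1.le h1.ge
    · exfalso
      have e1 : v (al * ξ + be) < v (ξ ^ 2) := by
        rw [map_pow, sq]
        refine lt_of_le_of_lt (v.map_add _ _) (max_lt ?_ ?_)
        · rw [map_mul, hal, one_mul]
          exact lt_mul_of_one_lt_left hapos h1
        · calc v be < 1 := hbe1
            _ < v ξ := h1
            _ < v ξ * v ξ := lt_mul_of_one_lt_left hapos h1
      have e2 : v (ξ ^ 2 + al * ξ + be) = v (ξ ^ 2) := by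
        rw [add_assoc]; exact v.map_add_eq_of_lt_left e1
      rw [h0, map_zero, map_pow] at e2
      exact (pow_pos hapos 2).ne e2

/-- The unsigned Kummer law for duplication. -/
theorem dbl (h2 : v (2 : K) = 1) (hal : v al = 1) (hbe0 : be ≠ 0) (hbe1 : v be < 1) {ξ X : K}
    (hne : ξ * (ξ ^ 2 + al * ξ + be) ≠ 0)
    (hD : X * (4 * ξ * (ξ ^ 2 + al * ξ + be)) = (ξ ^ 2 - be) ^ 2) :
    Rel (v be) (clamp (v be) (v X)) (clamp (v be) (v ξ) * clamp (v be) (v ξ)) := by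
  have hε0 : v be ≠ 0 := (v.ne_zero_iff).mpr hbe0
  have hεpos : 0 < v be := zero_lt_iff.mpr hε0
  have hε1 : v be ≤ 1 := hbe1.le
  have h4 := v_four v h2
  have hξ0 : ξ ≠ 0 := left_ne_zero_of_mul hne
  have hq0 : ξ ^ 2 + al * ξ + be ≠ 0 := right_ne_zero_of_mul hne
  have hapos : 0 < v ξ := zero_lt_iff.mpr ((v.ne_zero_iff).mpr hξ0)
  have hqpos : 0 < v (ξ ^ 2 + al * ξ + be) := zero_lt_iff.mpr ((v.ne_zero_iff).mpr hq0)
  have hDv : v X * (v ξ * v (ξ ^ 2 + al * ξ + be)) = v (ξ ^ 2 - be) ^ 2 := by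
    have := congrArg v hD
    simpa only [map_mul, map_pow, h4, one_mul] using this
  have hnDle : v (ξ ^ 2 - be) ≤ max (v ξ ^ 2) (v be) := by
    have := v.map_sub (ξ ^ 2) be
    rwa [map_pow] at this
  have hqle : v (ξ ^ 2 + al * ξ + be) ≤ max (max (v ξ ^ 2) (v ξ)) (v be) := by
    refine (v.map_add _ _).trans (max_le_max ?_ le_rfl)
    refine (v.map_add _ _).trans (le_of_eq ?_)
    rw [map_pow, map_mul, hal, one_mul]
  -- a general principle: `v X * m = N` with `0 < m ≤ N` gives `1 ≤ v X`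
  have big : ∀ {m N : Γ₀}, 0 < m → m ≤ N → v X * m = N → 1 ≤ v X := by
    intro m N hm hmN he
    by_contra hlt
    have hlt' : v X < 1 := not_le.mp hlt
    have : v X * m < N := lt_of_lt_of_le (mul_lt_of_lt_one_left hm hlt') hmN
    exact this.ne he
  rcases le_or_gt 1 (v ξ) with h1 | h1
  · -- `1 ≤ v ξ`
    have hc : clamp (v be) (v ξ) = 1 := clamp_of_one_le hε1 h1
    have ha2 : 1 ≤ v ξ ^ 2 := one_le_pow₀ h1
    have hnD : v (ξ ^ 2 - be) = v ξ ^ 2 := by
      rw [v.map_sub_eq_of_lt_left (by rw [map_pow]; exact lt_of_lt_of_le hbe1 ha2), map_pow]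
    have hq : v (ξ ^ 2 + al * ξ + be) ≤ v ξ ^ 2 := by
      refine hqle.trans (max_le (max_le le_rfl ?_) (hε1.trans ha2))
      rw [sq]; exact le_mul_of_one_le_left zero_le h1
    have hX : 1 ≤ v X := by
      refine big (mul_pos hapos hqpos) ?_ hDv
      rw [hnD]
      calc v ξ * v (ξ ^ 2 + al * ξ + be) ≤ v ξ ^ 2 * v ξ ^ 2 := by
            gcongr
            rw [sq]; exact le_mul_of_one_le_left zero_le h1
        _ = (v ξ ^ 2) ^ 2 := (sq _).symm
    rw [clamp_of_one_le hε1 hX, hc, one_mul]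
    exact Rel.refl _ _
  · rcases le_or_gt (v ξ) (v be) with hle | hC
    · -- `v ξ ≤ v be`
      have hc : clamp (v be) (v ξ) = v be := clamp_of_le hε1 hle
      have ha2 : v ξ ^ 2 < v be := by
        rw [sq]
        calc v ξ * v ξ ≤ v be * v be := by gcongr
          _ < 1 * v be := by gcongr
          _ = v be := one_mul _
      have hnD : v (ξ ^ 2 - be) = v be :=
        v.map_sub_eq_of_lt_right (by rw [map_pow]; exact ha2)
      have hq : v (ξ ^ 2 + al * ξ + be) ≤ v be :=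
        hqle.trans (max_le (max_le ha2.le hle) le_rfl)
      have hX : 1 ≤ v X := by
        refine big (mul_pos hapos hqpos) ?_ hDv
        rw [hnD, sq (v be)]
        gcongr
      rw [clamp_of_one_le hε1 hX, hc]
      exact Rel.one_eps_sq hε0
    · -- `v be < v ξ < 1`
      have hc : clamp (v be) (v ξ) = v ξ := clamp_of_mem hC.le h1.le
      rw [hc]
      have ha2lt : v ξ ^ 2 < v ξ := by
        rw [sq]; exact mul_lt_of_lt_one_left hapos h1
      have hq : v (ξ ^ 2 + al * ξ + be) = v ξ := by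
        have e1 : v (ξ ^ 2 + al * ξ) = v ξ := by
          rw [v.map_add_eq_of_lt_right (by rw [map_pow, map_mul, hal, one_mul]; exact ha2lt),
            map_mul, hal, one_mul]
        rw [v.map_add_eq_of_lt_left (by rw [e1]; exact hC), e1]
      rw [hq] at hDv
      have ha2pos : 0 < v ξ * v ξ := mul_pos hapos hapos
      have hXv : v X = v (ξ ^ 2 - be) ^ 2 / (v ξ * v ξ) := by
        rw [eq_div_iff ha2pos.ne']; exact hDv
      rcases lt_trichotomy (v be) (v ξ ^ 2) with hlt3 | heq3 | hgt3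
      · have hnD : v (ξ ^ 2 - be) = v ξ ^ 2 := by
          rw [v.map_sub_eq_of_lt_left (by rw [map_pow]; exact hlt3), map_pow]
        have hX : v X = v ξ * v ξ := by rw [hXv, hnD]; field_simp
        rw [hX, clamp_of_mem (by rw [← sq]; exact hlt3.le) (by rw [← sq]; exact (ha2lt.trans h1).le)]
        exact Rel.refl _ _
      · have hnD : v (ξ ^ 2 - be) ≤ v be := hnDle.trans (max_le heq3.symm.le le_rfl)
        have hX : v X ≤ v be := by
          rw [hXv, div_le_iff₀ ha2pos]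
          calc v (ξ ^ 2 - be) ^ 2 ≤ v be ^ 2 := by gcongr
            _ = v be * (v ξ * v ξ) := by rw [sq, ← sq (v ξ), ← heq3]
        rw [clamp_of_le hε1 hX]
        exact Rel.of_eq (by rw [heq3, sq])
      · have hnD : v (ξ ^ 2 - be) = v be :=
          v.map_sub_eq_of_lt_right (by rw [map_pow]; exact hgt3)
        have hX : v X = v be ^ 2 / (v ξ * v ξ) := by rw [hXv, hnD]
        have hr0 : v be ≤ v be ^ 2 / (v ξ * v ξ) := by
          rw [le_div_iff₀ ha2pos, sq, ← sq (v ξ)]; gcongr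
        have hr1 : v be ^ 2 / (v ξ * v ξ) ≤ 1 := by
          rw [div_le_one₀ ha2pos, sq]
          gcongr
        rw [hX, clamp_of_mem hr0 hr1]
        exact Rel.eps_sq_div _

end pair

end Fermat.Agent.S05.helper2885
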