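import Mathlib
import Fermat.Agent.S05.helper5_Spec
import Fermat.Agent.S05.helper1745_XOnly
import Fermat.Agent.S05.helper2885_KummerVal

/-!
# S05-NODEVAL (helper2885): `NodeValStmt` of the captain spec

Route (X): the unsigned tropical Kummer law.  For a Weierstrass curve of shape
`η² = ξ (ξ² + al ξ + be)` with `v al = 1`, `0 < v be < 1`, `v 2 = 1`, put
`kap P = clamp (v be) (v (x(P) - e))` (`kap 0 = 1`).  Then the unordered pair
`{kap (P+Q), kap (P-Q)}` is `{kap P * kap Q, kap P / kap Q}` up to `Rel (v be)`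
(multiplication by `(v be)^(2ℤ)` and inversion); hence `kap (n • P) ~ kap P ^ n`, and for a
point killed by an odd prime `p` one gets `v be < v (x - e)` and `v (x - e) ^ p ∈ (v be)^(2ℤ)`.
-/

set_option autoImplicit false

namespace Fermat.Agent.S05.helper2885

open WeierstrassCurve WeierstrassCurve.Affine
open Fermat.Agent.S05.helper305 (Shape)

section identities

variable {K : Type*} [Field K] {W : WeierstrassCurve K} {e al be : K}

theorem four_ne_zero_of_shape (hS : Shape W e al be) : (4 : K) ≠ 0 := by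
  have h2 := hS.two_ne
  have : (4 : K) = 2 * 2 := by norm_num
  rw [this]; exact mul_ne_zero h2 h2

/-- the `2`-division cubic in shape coordinates. -/
theorem shape_cubic (hS : Shape W e al be) (x : K) :
    4 * x ^ 3 + W.b₂ * x ^ 2 + 2 * W.b₄ * x + W.b₆ =
      4 * (x - e) * ((x - e) ^ 2 + al * (x - e) + be) := by
  rw [hS.hb2, hS.hb4, hS.hb6]; ring

theorem shape_b8 (hS : Shape W e al be) :
    4 * W.b₈ = (4 * al - 12 * e) * (-4 * e ^ 3 + 4 * al * e ^ 2 - 4 * be * e) -
      (6 * e ^ 2 - 4 * al * e + 2 * be) ^ 2 := by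
  rw [W.b_relation, hS.hb2, hS.hb4, hS.hb6]

variable [DecidableEq K]

/-- Kummer identities for `P ± Q` in shape coordinates. -/
theorem shape_add_sub (hS : Shape W e al be) {x₁ y₁ x₂ y₂ : K}
    (h₁ : W.toAffine.Nonsingular x₁ y₁) (h₂ : W.toAffine.Nonsingular x₂ y₂) (hx : x₁ ≠ x₂) :
    ∃ (Xp Yp Xm Ym : K) (hp : W.toAffine.Nonsingular Xp Yp) (hm : W.toAffine.Nonsingular Xm Ym),
      Point.some x₁ y₁ h₁ + Point.some x₂ y₂ h₂ = Point.some Xp Yp hp ∧
      Point.some x₁ y₁ h₁ - Point.some x₂ y₂ h₂ = Point.some Xm Ym hm ∧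
      (Xp - e) * (Xm - e) * ((x₁ - e) - (x₂ - e)) ^ 2 = ((x₁ - e) * (x₂ - e) - be) ^ 2 ∧
      ((Xp - e) + (Xm - e)) * ((x₁ - e) - (x₂ - e)) ^ 2 =
        2 * ((x₁ - e) + (x₂ - e)) * ((x₁ - e) * (x₂ - e) + be) +
          4 * al * (x₁ - e) * (x₂ - e) := by
  obtain ⟨Xp, Yp, Xm, Ym, hp, hm, e1, e2, hPi, hSi⟩ :=
    Fermat.Agent.S05.helper1745.exists_add_sub_some h₁ h₂ hx
  refine ⟨Xp, Yp, Xm, Ym, hp, hm, e1, e2, ?_, ?_⟩
  · have h4 := four_ne_zero_of_shape hS
    have hb8 := shape_b8 hS
    have hb2 := hS.hb2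
    have hb4 := hS.hb4
    have hb6 := hS.hb6
    rw [hb4, hb6] at hPi
    rw [hb2, hb4, hb6] at hSi
    apply mul_left_cancel₀ h4
    linear_combination 4 * hPi - 4 * e * hSi - hb8
  · have hb2 := hS.hb2
    have hb4 := hS.hb4
    have hb6 := hS.hb6
    rw [hb2, hb4, hb6] at hSi
    linear_combination hSi

/-- Kummer identity for `2P` in shape coordinates. -/
theorem shape_dbl (hS : Shape W e al be) {x y : K} (h : W.toAffine.Nonsingular x y)
    (hy : y ≠ W.toAffine.negY x y) :
    ∃ (X Y : K) (h' : W.toAffine.Nonsingular X Y),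
      Point.some x y h + Point.some x y h = Point.some X Y h' ∧
      (X - e) * (4 * (x - e) * ((x - e) ^ 2 + al * (x - e) + be)) = ((x - e) ^ 2 - be) ^ 2 ∧
      (x - e) * ((x - e) ^ 2 + al * (x - e) + be) ≠ 0 := by
  obtain ⟨X, Y, h', e1, hD, hg⟩ := Fermat.Agent.S05.helper1745.exists_add_self_some h hy
  have h4 := four_ne_zero_of_shape hS
  have hc := shape_cubic hS x
  refine ⟨X, Y, h', e1, ?_, ?_⟩
  · have hb8 := shape_b8 hS
    have hb4 := hS.hb4
    have hb6 := hS.hb6
    rw [hc, hb4, hb6] at hD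
    apply mul_left_cancel₀ h4
    linear_combination 4 * hD - hb8
  · rw [hc, mul_assoc] at hg
    exact right_ne_zero_of_mul hg

omit [DecidableEq K] in
/-- at a `2`-torsion point the shape cubic vanishes. -/
theorem shape_two_torsion (hS : Shape W e al be) {x y : K} (h : W.toAffine.Nonsingular x y)
    (hy : y = W.toAffine.negY x y) :
    (x - e) * ((x - e) ^ 2 + al * (x - e) + be) = 0 := by
  have h4 := four_ne_zero_of_shape hS
  have h0 := (Fermat.Agent.S05.helper1745.y_eq_negY_iff h.left).mp hy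
  rw [shape_cubic hS x, mul_assoc] at h0
  exact (mul_eq_zero.mp h0).resolve_left h4

end identities

section kappa

variable {K : Type*} [Field K] {Γ₀ : Type*} [LinearOrderedCommGroupWithZero Γ₀]
  (v : Valuation K Γ₀) (W : WeierstrassCurve K) (e be : K)

/-- the component function: clamped valuation of `x - e`. -/
noncomputable def kap : W.toAffine.Point → Γ₀
  | .zero => 1
  | .some x _ _ => clamp (v be) (v (x - e))

@[simp] theorem kap_zero : kap v W e be (0 : W.toAffine.Point) = 1 := rfl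

@[simp] theorem kap_some {x y : K} (h : W.toAffine.Nonsingular x y) :
    kap v W e be (Point.some x y h) = clamp (v be) (v (x - e)) := rfl

theorem kap_neg (P : W.toAffine.Point) : kap v W e be (-P) = kap v W e be P := by
  cases P with
  | zero => rfl
  | some x y h => rw [Point.neg_some]; rfl

theorem kap_ne_zero (hbe0 : be ≠ 0) (P : W.toAffine.Point) : kap v W e be P ≠ 0 := by
  have hε0 : v be ≠ 0 := (v.ne_zero_iff).mpr hbe0
  cases P with
  | zero => exact one_ne_zero
  | some x y h =>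
    exact (lt_of_lt_of_le (zero_lt_iff.mpr hε0) (le_clamp _ _)).ne'

variable {W e be} {al : K} [DecidableEq K]

/-- duplication law. -/
theorem kap_two (hS : Shape W e al be) (h2 : v (2 : K) = 1) (hal : v al = 1) (hbe0 : be ≠ 0)
    (hbe1 : v be < 1) (P : W.toAffine.Point) :
    Rel (v be) (kap v W e be (P + P)) (kap v W e be P * kap v W e be P) := by
  have hε0 : v be ≠ 0 := (v.ne_zero_iff).mpr hbe0
  cases P with
  | zero => exact Rel.of_eq (by simp [← Point.zero_def])
  | some x y h =>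
    by_cases hy : y = W.toAffine.negY x y
    · rw [Point.add_self_of_Y_eq hy, kap_zero, kap_some]
      rcases two_torsion_clamp v hal hbe0 hbe1 (shape_two_torsion hS h hy) with hc | hc
      · rw [hc, one_mul]; exact Rel.refl _ _
      · rw [hc]; exact Rel.one_eps_sq hε0
    · obtain ⟨X, Y, h', e1, hD, hne⟩ := shape_dbl hS h hy
      rw [e1, kap_some, kap_some]
      exact dbl v h2 hal hbe0 hbe1 hne hD

/-- **The unsigned tropical Kummer law.** -/
theorem kap_add_sub (hS : Shape W e al be) (h2 : v (2 : K) = 1) (hal : v al = 1) (hbe0 : be ≠ 0)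
    (hbe1 : v be < 1) (P Q : W.toAffine.Point) :
    (Rel (v be) (kap v W e be (P + Q)) (kap v W e be P * kap v W e be Q) ∧
      Rel (v be) (kap v W e be (P - Q)) (kap v W e be P / kap v W e be Q)) ∨
    (Rel (v be) (kap v W e be (P + Q)) (kap v W e be P / kap v W e be Q) ∧
      Rel (v be) (kap v W e be (P - Q)) (kap v W e be P * kap v W e be Q)) := by
  have hε0 : v be ≠ 0 := (v.ne_zero_iff).mpr hbe0
  cases P with
  | zero =>
    left
    rw [← Point.zero_def, zero_add, zero_sub, kap_neg, kap_zero, one_mul, one_div]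
    exact ⟨Rel.refl _ _, (Rel.refl _ _).inv_right⟩
  | some x₁ y₁ h₁ =>
    cases Q with
    | zero =>
      left
      rw [← Point.zero_def, add_zero, sub_zero, kap_zero, mul_one, div_one]
      exact ⟨Rel.refl _ _, Rel.refl _ _⟩
    | some x₂ y₂ h₂ =>
      by_cases hx : x₁ = x₂
      · subst hx
        have hc0 : kap v W e be (Point.some x₁ y₁ h₁) ≠ 0 := kap_ne_zero v W e be hbe0 _
        have hk2 : kap v W e be (Point.some x₁ y₂ h₂) = kap v W e be (Point.some x₁ y₁ h₁) := rfl
        have hdiv : kap v W e be (Point.some x₁ y₁ h₁) / kap v W e be (Point.some x₁ y₂ h₂) = 1 := by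
          rw [hk2, div_self hc0]
        rw [hdiv, hk2]
        rcases Y_eq_of_X_eq h₁.1 h₂.1 rfl with hyy | hyy
        · -- `Q = P`
          subst hyy
          left
          rw [sub_self, kap_zero]
          exact ⟨kap_two v hS h2 hal hbe0 hbe1 _, Rel.refl _ _⟩
        · -- `Q = -P`
          have hQ : Point.some x₁ y₂ h₂ = -Point.some x₁ y₁ h₁ := by
            rw [Point.neg_some]
            congr 1
            rw [hyy]
            simp only [Affine.negY]
            ring
          right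
          rw [hQ, sub_neg_eq_add, add_neg_cancel, kap_zero]
          exact ⟨Rel.refl _ _, kap_two v hS h2 hal hbe0 hbe1 _⟩
      · obtain ⟨Xp, Yp, Xm, Ym, hp, hm, e1, e2, hPi, hSi⟩ := shape_add_sub hS h₁ h₂ hx
        rw [e1, e2]
        simp only [kap_some]
        exact pair v h2 hal hbe0 hbe1 (fun h => hx (by linear_combination h)) hPi hSi

/-- `kap (n • P) ~ kap P ^ n`. -/
theorem kap_nsmul (hS : Shape W e al be) (h2 : v (2 : K) = 1) (hal : v al = 1) (hbe0 : be ≠ 0)
    (hbe1 : v be < 1) (P : W.toAffine.Point) (n : ℕ) :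
    Rel (v be) (kap v W e be (n • P)) (kap v W e be P ^ n) := by
  have hε0 : v be ≠ 0 := (v.ne_zero_iff).mpr hbe0
  have hc0 : kap v W e be P ≠ 0 := kap_ne_zero v W e be hbe0 P
  suffices h : ∀ n : ℕ, Rel (v be) (kap v W e be (n • P)) (kap v W e be P ^ n) ∧
      Rel (v be) (kap v W e be ((n + 1) • P)) (kap v W e be P ^ (n + 1)) from (h n).1
  intro n
  induction n with
  | zero =>
    refine ⟨Rel.of_eq (by simp), Rel.of_eq (by simp)⟩
  | succ n ih =>
    obtain ⟨ha, hb⟩ := ih
    refine ⟨hb, ?_⟩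
    have e1 : (n + 1 + 1) • P = (n + 1) • P + P := succ_nsmul P (n + 1)
    have e2 : n • P = (n + 1) • P - P := by rw [succ_nsmul, add_sub_cancel_right]
    have p1 : kap v W e be P ^ (n + 1) * kap v W e be P = kap v W e be P ^ (n + 1 + 1) :=
      (pow_succ _ _).symm
    have p2 : kap v W e be P ^ (n + 1) / kap v W e be P = kap v W e be P ^ n := by
      rw [pow_succ, mul_div_assoc, div_self hc0, mul_one]
    have key := kap_add_sub v hS h2 hal hbe0 hbe1 ((n + 1) • P) P
    rw [← e1, ← e2] at key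
    have md := Rel.mul_div (kap v W e be P) hb
    rw [p1, p2] at md
    rcases key with ⟨k1, k2⟩ | ⟨k1, k2⟩ <;> rcases md with ⟨m1, m2⟩ | ⟨m1, m2⟩
    · exact Rel.trans hε0 k1 m1
    · -- `kap(n+2) ~ c^n`, `kap n ~ c^(n+2)`
      have h3 : Rel (v be) (kap v W e be P ^ n) (kap v W e be P ^ (n + 1 + 1)) :=
        Rel.trans hε0 (Rel.symm hε0 ha) (Rel.trans hε0 k2 m2)
      exact Rel.trans hε0 (Rel.trans hε0 k1 m1) h3
    · have h3 : Rel (v be) (kap v W e be P ^ n) (kap v W e be P ^ (n + 1 + 1)) :=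
        Rel.trans hε0 (Rel.symm hε0 ha) (Rel.trans hε0 k2 m1)
      exact Rel.trans hε0 (Rel.trans hε0 k1 m2) h3
    · exact Rel.trans hε0 k1 m2

end kappa

/-- **S05-NODEVAL.** -/
theorem nodeVal : Fermat.Agent.S05.helper5.NodeValStmt := by
  intro K _ _ Γ₀ _ v W e al be hS h2 hal hbe1 hbe0 p hp hp2 _ x y h hx hpP
  have hε0 : v be ≠ 0 := (v.ne_zero_iff).mpr hbe0
  have hεpos : 0 < v be := zero_lt_iff.mpr hε0
  have key := kap_nsmul v hS h2 hal hbe0 hbe1 (Point.some x y h) p
  rw [hpP, kap_zero, kap_some] at key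
  -- `clamp ^ p ∈ (v be)^(2ℤ)`
  have hc0 : clamp (v be) (v (x - e)) ≠ 0 :=
    (lt_of_lt_of_le hεpos (le_clamp _ _)).ne'
  have hj : ∃ j : ℤ, clamp (v be) (v (x - e)) ^ p = v be ^ (2 * j) := by
    obtain ⟨j, hj | hj⟩ := key
    · refine ⟨-j, ?_⟩
      have : v be ^ (2 * -j) = (v be ^ (2 * j))⁻¹ := by rw [mul_neg, zpow_neg]
      rw [this]
      exact eq_inv_of_mul_eq_one_right hj.symm
    · refine ⟨j, ?_⟩
      have h1 : v be ^ (2 * j) * (clamp (v be) (v (x - e)) ^ p)⁻¹ = 1 := hj.symm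
      have h3 := eq_inv_of_mul_eq_one_left h1
      rw [inv_inv] at h3
      exact h3.symm
  have hlt : v be < v (x - e) := by
    by_contra hle
    have hle' : v (x - e) ≤ v be := not_lt.mp hle
    rw [clamp_of_le hbe1.le hle'] at hj
    obtain ⟨j, hj⟩ := hj
    rw [← zpow_natCast] at hj
    have := zpow_right_injective₀ hεpos hbe1.ne hj
    have hodd : Odd p := hp.odd_of_ne_two hp2
    have heven : Even p := by
      have : Even (p : ℤ) := ⟨j, by rw [this]; ring⟩
      exact (Int.even_coe_nat p).mp this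
    exact (Nat.not_even_iff_odd.mpr hodd) heven
  refine ⟨hlt, ?_⟩
  rw [clamp_of_mem hlt.le hx.le] at hj
  exact hj

end Fermat.Agent.S05.helper2885
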