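import Fermat.Agent.S05.helper5_Spec
import Fermat.Agent.S05.helper305_Formulas

/-!
# S05-NODEVAL (helper2945): component valuation of torsion points near the node

Route (S-ref): signed component map measured against `ρ = η_P / ξ_P` of the torsion point
itself (no square root of `al` needed), on top of a symmetric Vieta package `Coll`
derived from `helper305.AddRel`.
-/

set_option autoImplicit false

namespace Fermat.Agent.S05.helper2945

open WeierstrassCurve WeierstrassCurve.Affine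
open Fermat.Agent.S05.helper305

section field

variable {K : Type*} [Field K]

/-- Symmetric Vieta package: three points `(ξᵢ, yᵢ)` of `y² = ξ(ξ² + al ξ + be)` on the line
`y = lam ξ + mu`. -/
structure Coll (al be ξ₁ y₁ ξ₂ y₂ ξ₃ y₃ lam mu : K) : Prop where
  l₁ : y₁ = lam * ξ₁ + mu
  l₂ : y₂ = lam * ξ₂ + mu
  l₃ : y₃ = lam * ξ₃ + mu
  e₁ : ξ₁ + ξ₂ + ξ₃ = lam ^ 2 - al
  e₂ : ξ₁ * ξ₂ + ξ₁ * ξ₃ + ξ₂ * ξ₃ = be - 2 * lam * mu
  e₃ : ξ₁ * ξ₂ * ξ₃ = mu ^ 2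

variable {al be ξ₁ η₁ ξ₂ η₂ ξ₃ η₃ y₁ y₂ y₃ lam mu : K}

theorem coll_of_addRel (h : AddRel al be ξ₁ η₁ ξ₂ η₂ ξ₃ η₃ lam) :
    Coll al be ξ₁ η₁ ξ₂ η₂ ξ₃ (-η₃) lam (η₁ - lam * ξ₁) := by
  have c₁ := h.c₁
  have c₂ := h.c₂
  have hξ := h.hξ
  have hη := h.hη
  rcases h.hlam with ⟨hne, hl⟩ | ⟨he, h12, hη0, hl⟩
  · have hd : ξ₁ - ξ₂ ≠ 0 := sub_ne_zero.mpr hne
    refine ⟨by ring, by linear_combination hl, by linear_combination -hη,
      by linear_combination hξ, ?_, ?_⟩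
    · apply mul_left_cancel₀ hd
      linear_combination ((ξ₁ - ξ₂) * (ξ₁ + ξ₂)) * hξ + c₁ - c₂
        + (η₂ + lam * ξ₂ + η₁ - lam * ξ₁) * hl
    · apply mul_left_cancel₀ (pow_ne_zero 2 hd)
      linear_combination (ξ₁ * ξ₂ * (ξ₁ - ξ₂) ^ 2) * hξ - (ξ₁ - ξ₂) * (ξ₁ * c₂ - ξ₂ * c₁) +
        (ξ₁ * ξ₂ * (lam * (ξ₁ - ξ₂) + η₁ - η₂)
          + ξ₁ * ((η₂ * ξ₁ - η₁ * ξ₂) + (η₁ - lam * ξ₁) * (ξ₁ - ξ₂))) * hl
  · subst he h12
    refine ⟨by ring, by ring, by linear_combination -hη, by linear_combination hξ, ?_, ?_⟩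
    · linear_combination (2 * ξ₁) * hξ + hl
    · linear_combination (ξ₁ ^ 2) * hξ - c₁ + ξ₁ * hl

end field

section val

variable {K : Type*} [Field K] {Γ₀ : Type*} [LinearOrderedCommGroupWithZero Γ₀]
  (v : Valuation K Γ₀)
variable {al be ρ ξ y ξ₁ y₁ ξ₂ y₂ ξ₃ y₃ η₁ η₂ η₃ lam mu : K}

theorem Coll.rot (h : Coll al be ξ₁ y₁ ξ₂ y₂ ξ₃ y₃ lam mu) :
    Coll al be ξ₂ y₂ ξ₃ y₃ ξ₁ y₁ lam mu :=
  ⟨h.l₂, h.l₃, h.l₁, by linear_combination h.e₁, by linear_combination h.e₂,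
    by linear_combination h.e₃⟩

theorem Coll.curve₁ (h : Coll al be ξ₁ y₁ ξ₂ y₂ ξ₃ y₃ lam mu) :
    y₁ ^ 2 = ξ₁ * (ξ₁ ^ 2 + al * ξ₁ + be) := by
  linear_combination (y₁ + lam * ξ₁ + mu) * h.l₁ - ξ₁ ^ 2 * h.e₁ + ξ₁ * h.e₂ - h.e₃

theorem Coll.curve₂ (h : Coll al be ξ₁ y₁ ξ₂ y₂ ξ₃ y₃ lam mu) :
    y₂ ^ 2 = ξ₂ * (ξ₂ ^ 2 + al * ξ₂ + be) := h.rot.curve₁

theorem Coll.curve₃ (h : Coll al be ξ₁ y₁ ξ₂ y₂ ξ₃ y₃ lam mu) :
    y₃ ^ 2 = ξ₃ * (ξ₃ ^ 2 + al * ξ₃ + be) := h.rot.rot.curve₁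

theorem Coll.sym_identity (h : Coll al be ξ₁ y₁ ξ₂ y₂ ξ₃ y₃ lam mu) :
    (ξ₁ * ξ₂ + ξ₃ * (ξ₁ + ξ₂) - be) ^ 2 = 4 * (ξ₁ + ξ₂ + ξ₃ + al) * (ξ₁ * ξ₂ * ξ₃) := by
  have h1 : ξ₁ * ξ₂ + ξ₃ * (ξ₁ + ξ₂) - be = -2 * lam * mu := by linear_combination h.e₂
  have h2 : ξ₁ + ξ₂ + ξ₃ + al = lam ^ 2 := by linear_combination h.e₁
  rw [h1, h2, h.e₃]; ring

theorem val_four (hv2 : v 2 = 1) : v 4 = 1 := by
  have : (4 : K) = 2 * 2 := by norm_num
  rw [this, map_mul, hv2, mul_one]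

/-- `E₀ = {1 ≤ v ξ}` is closed under the chord–tangent law. -/
theorem Coll.e0_closed (h : Coll al be ξ₁ y₁ ξ₂ y₂ ξ₃ y₃ lam mu) (hv2 : v 2 = 1)
    (hal : v al ≤ 1) (hbe : v be < 1) (h₁ : 1 ≤ v ξ₁) (h₂ : 1 ≤ v ξ₂) : 1 ≤ v ξ₃ := by
  by_contra h₃
  rw [not_le] at h₃
  have hR1 : 1 ≤ v ξ₁ * v ξ₂ := one_le_mul_of_one_le_of_one_le h₁ h₂
  have hRpos : 0 < v ξ₁ * v ξ₂ := lt_of_lt_of_le zero_lt_one hR1
  have h1R : v ξ₁ ≤ v ξ₁ * v ξ₂ := le_mul_of_one_le_right zero_le h₂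
  have h2R : v ξ₂ ≤ v ξ₁ * v ξ₂ := le_mul_of_one_le_left zero_le h₁
  have hs : v (ξ₁ + ξ₂) ≤ v ξ₁ * v ξ₂ := v.map_add_le h1R h2R
  have hA1 : v (ξ₃ * (ξ₁ + ξ₂)) < v (ξ₁ * ξ₂) := by
    rw [map_mul, map_mul]
    calc v ξ₃ * v (ξ₁ + ξ₂) ≤ v ξ₃ * (v ξ₁ * v ξ₂) := by gcongr
      _ < v ξ₁ * v ξ₂ := mul_lt_of_lt_one_left hRpos h₃
  have hA2 : v be < v (ξ₁ * ξ₂) := by rw [map_mul]; exact lt_of_lt_of_le hbe hR1
  have hA : v (ξ₁ * ξ₂ + ξ₃ * (ξ₁ + ξ₂) - be) = v ξ₁ * v ξ₂ := by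
    have e1 : v (ξ₁ * ξ₂ + ξ₃ * (ξ₁ + ξ₂)) = v (ξ₁ * ξ₂) := v.map_add_eq_of_lt_left hA1
    rw [v.map_sub_eq_of_lt_left (by rw [e1]; exact hA2), e1, map_mul]
  have hB1 : v (ξ₁ + ξ₂ + ξ₃ + al) ≤ v ξ₁ * v ξ₂ :=
    v.map_add_le (v.map_add_le hs (h₃.le.trans hR1)) (hal.trans hR1)
  have hB2 : v (ξ₁ * ξ₂ * ξ₃) < v ξ₁ * v ξ₂ := by
    rw [map_mul, map_mul]
    exact mul_lt_of_lt_one_right hRpos h₃
  have hB : v (4 * (ξ₁ + ξ₂ + ξ₃ + al) * (ξ₁ * ξ₂ * ξ₃)) < (v ξ₁ * v ξ₂) ^ 2 := by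
    rw [map_mul, map_mul, val_four v hv2, one_mul, sq]
    exact mul_lt_mul_of_le_of_lt_of_nonneg_of_pos hB1 hB2 zero_le hRpos
  have hid := congrArg v h.sym_identity
  rw [map_pow, hA] at hid
  rw [hid] at hB
  exact lt_irrefl _ hB

/-- Doubling a point with `v ξ ≤ v be` lands in `E₀`. -/
theorem Coll.dbl_e0 (h : Coll al be ξ y ξ y ξ₃ y₃ lam mu) (hv2 : v 2 = 1)
    (hal : v al ≤ 1) (hbe0 : be ≠ 0) (hbe : v be < 1) (hξ : v ξ ≤ v be) : 1 ≤ v ξ₃ := by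
  by_contra h₃
  rw [not_le] at h₃
  have hBpos : 0 < v be := zero_lt_iff.mpr ((Valuation.ne_zero_iff v).mpr hbe0)
  have hr1 : v ξ < 1 := lt_of_le_of_lt hξ hbe
  have t1 : v (ξ * ξ) < v be := by
    rw [map_mul]
    calc v ξ * v ξ ≤ v be * v ξ := by gcongr
      _ < v be := mul_lt_of_lt_one_right hBpos hr1
  have t2 : v (ξ * ξ₃) < v be := by
    rw [map_mul]
    calc v ξ * v ξ₃ ≤ v be * v ξ₃ := by gcongr
      _ < v be := mul_lt_of_lt_one_right hBpos h₃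
  have hlam : v lam ≤ 1 := by
    have e : lam ^ 2 = ξ + ξ + ξ₃ + al := by linear_combination -h.e₁
    have : v (lam ^ 2) ≤ 1 := by
      rw [e]
      exact v.map_add_le (v.map_add_le (v.map_add_le hr1.le hr1.le) h₃.le) hal
    rw [map_pow] at this
    exact (pow_le_one_iff_of_nonneg zero_le two_ne_zero).mp this
  have hmu : v mu < v be := by
    have e : v mu ^ 2 = v ξ * v ξ * v ξ₃ := by
      rw [← map_pow, ← h.e₃, map_mul, map_mul]
    have : v mu ^ 2 < v be ^ 2 := by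
      rw [e, sq]
      calc v ξ * v ξ * v ξ₃ ≤ v be * v be * v ξ₃ := by gcongr
        _ < v be * v be := mul_lt_of_lt_one_right (mul_pos hBpos hBpos) h₃
    exact lt_of_pow_lt_pow_left₀ 2 zero_le this
  have t3 : v (2 * lam * mu) < v be := by
    rw [map_mul, map_mul, hv2, one_mul]
    calc v lam * v mu ≤ 1 * v mu := by gcongr
      _ = v mu := one_mul _
      _ < v be := hmu
  have e : be = ξ * ξ + ξ * ξ₃ + ξ * ξ₃ + 2 * lam * mu := by linear_combination -h.e₂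
  have : v be < v be := by
    conv_lhs => rw [e]
    exact v.map_add_lt (v.map_add_lt (v.map_add_lt t1 t2) t2) t3
  exact lt_irrefl _ this

/-! ### Branches -/

/-- The component value of a point `(ξ, y)` relative to the branch direction `ρ`. -/
noncomputable def cval (ρ be ξ y : K) : Γ₀ :=
  if v (y - ρ * ξ) < v ξ then v ξ else v be ^ 2 / v ξ

theorem cval_neg_rho : cval v (-ρ) be ξ y = cval v ρ be ξ (-y) := by
  unfold cval
  have e1 : y - -ρ * ξ = y + ρ * ξ := by ring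
  have e2 : -y - ρ * ξ = -(y + ρ * ξ) := by ring
  rw [e1, e2, Valuation.map_neg]

theorem val_prod_lt (c : y ^ 2 = ξ * (ξ ^ 2 + al * ξ + be)) (hG : v be < v ξ) (hG' : v ξ < 1)
    (hρal : v (ρ ^ 2 - al) < 1) : v ((y - ρ * ξ) * (y + ρ * ξ)) < v ξ ^ 2 := by
  have hξpos : 0 < v ξ := lt_of_le_of_lt zero_le hG
  have hsq : 0 < v ξ ^ 2 := pow_pos hξpos 2
  have e : (y - ρ * ξ) * (y + ρ * ξ) = ξ ^ 3 - (ρ ^ 2 - al) * ξ ^ 2 + be * ξ := by
    linear_combination c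
  rw [e]
  have t1 : v (ξ ^ 3) < v ξ ^ 2 := by
    rw [map_pow, pow_succ]
    exact mul_lt_of_lt_one_right hsq hG'
  have t2 : v ((ρ ^ 2 - al) * ξ ^ 2) < v ξ ^ 2 := by
    rw [map_mul, map_pow]
    exact mul_lt_of_lt_one_left hsq hρal
  have t3 : v (be * ξ) < v ξ ^ 2 := by
    rw [map_mul, sq]
    exact mul_lt_mul_of_pos_right hG hξpos
  exact v.map_add_lt (v.map_sub_lt t1 t2) t3

theorem minus_of_not_plus (c : y ^ 2 = ξ * (ξ ^ 2 + al * ξ + be)) (hG : v be < v ξ)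
    (hG' : v ξ < 1) (hρal : v (ρ ^ 2 - al) < 1) (hn : ¬ v (y - ρ * ξ) < v ξ) :
    v (y + ρ * ξ) < v ξ := by
  by_contra hn'
  rw [not_lt] at hn hn'
  have := val_prod_lt v c hG hG' hρal
  rw [map_mul, sq] at this
  exact absurd (mul_le_mul' hn hn') (not_le.mpr this)

theorem not_minus_of_plus (hv2 : v 2 = 1) (hρ : v ρ = 1) (hp : v (y - ρ * ξ) < v ξ) :
    v (y + ρ * ξ) = v ξ := by
  have e : y + ρ * ξ = (y - ρ * ξ) + 2 * ρ * ξ := by ring
  have h2 : v (2 * ρ * ξ) = v ξ := by rw [map_mul, map_mul, hv2, hρ, one_mul, one_mul]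
  rw [e, v.map_add_eq_of_lt_right (by rw [h2]; exact hp), h2]

theorem cval_mul_cval_neg (c : y ^ 2 = ξ * (ξ ^ 2 + al * ξ + be)) (hv2 : v 2 = 1)
    (hG : v be < v ξ) (hG' : v ξ < 1) (hρ : v ρ = 1) (hρal : v (ρ ^ 2 - al) < 1) :
    cval v ρ be ξ y * cval v (-ρ) be ξ y = v be ^ 2 := by
  have hξ0 : v ξ ≠ 0 := (lt_of_le_of_lt zero_le hG).ne'
  unfold cval
  have e1 : y - -ρ * ξ = y + ρ * ξ := by ring
  rw [e1]
  by_cases hp : v (y - ρ * ξ) < v ξ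
  · have := not_minus_of_plus v hv2 hρ hp
    rw [if_pos hp, if_neg (by rw [this]; exact lt_irrefl _), mul_div_cancel₀ _ hξ0]
  · have := minus_of_not_plus v c hG hG' hρal hp
    rw [if_neg hp, if_pos this, div_mul_cancel₀ _ hξ0]

theorem cval_ne_zero (hbe0 : be ≠ 0) (hG : v be < v ξ) : cval v ρ be ξ y ≠ 0 := by
  have hξ0 : v ξ ≠ 0 := (lt_of_le_of_lt zero_le hG).ne'
  have hB0 : v be ≠ 0 := (Valuation.ne_zero_iff v).mpr hbe0
  unfold cval
  split_ifs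
  · exact hξ0
  · exact div_ne_zero (pow_ne_zero 2 hB0) hξ0

theorem plus_iff (hy : y = lam * ξ + mu) (hlam : v (lam - ρ) < 1) (hξ0 : v ξ ≠ 0) :
    v (y - ρ * ξ) < v ξ ↔ v mu < v ξ := by
  have ht : v ((lam - ρ) * ξ) < v ξ := by
    rw [map_mul]
    exact mul_lt_of_lt_one_left (zero_lt_iff.mpr hξ0) hlam
  constructor
  · intro h
    have e : mu = (y - ρ * ξ) - (lam - ρ) * ξ := by rw [hy]; ring
    rw [e]
    exact v.map_sub_lt h ht
  · intro h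
    have e : y - ρ * ξ = (lam - ρ) * ξ + mu := by rw [hy]; ring
    rw [e]
    exact v.map_add_lt ht h

theorem mu_eq_of_minus (hy : y = lam * ξ + mu) (hlamp : v (lam + ρ) = 1)
    (h : v (y + ρ * ξ) < v ξ) : v mu = v ξ := by
  by_contra hne
  have e : y + ρ * ξ = (lam + ρ) * ξ + mu := by rw [hy]; ring
  have h1 : v ((lam + ρ) * ξ) = v ξ := by rw [map_mul, hlamp, one_mul]
  rw [e, v.map_add_of_distinct_val (by rw [h1]; exact fun h' => hne h'.symm), h1] at h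
  exact absurd (le_max_left _ _) (not_le.mpr h)

omit v in
theorem gz_one {a b c m : Γ₀} (hm2 : m ^ 2 = a * b * c) (hc : m = c) (hc0 : c ≠ 0) :
    a * b = c := by
  have : a * b * c = c * c := by rw [← hm2, hc, sq]
  exact mul_right_cancel₀ hc0 this

omit v in
theorem gz_two {a b c m : Γ₀} (hm2 : m ^ 2 = a * b * c) (hb : m = b) (hc : m = c)
    (hb0 : b ≠ 0) (hc0 : c ≠ 0) : a = 1 := by
  have h1 : a * (b * c) = 1 * (b * c) := by
    rw [one_mul, ← mul_assoc, ← hm2, sq]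
    nth_rewrite 1 [hb]
    rw [hc]
  exact mul_right_cancel₀ (mul_ne_zero hb0 hc0) h1

/-- Case `lam ≡ ρ`: the product of the component values of a collinear triple in the
node region is `(v be)^2`. -/
theorem Coll.cval_prod (h : Coll al be ξ₁ y₁ ξ₂ y₂ ξ₃ y₃ lam mu) (hv2 : v 2 = 1)
    (G₁ : v be < v ξ₁) (G₁' : v ξ₁ < 1) (G₂ : v be < v ξ₂) (G₂' : v ξ₂ < 1)
    (G₃ : v be < v ξ₃) (G₃' : v ξ₃ < 1) (hρ : v ρ = 1) (hlam : v (lam - ρ) < 1) :
    cval v ρ be ξ₁ y₁ * cval v ρ be ξ₂ y₂ * cval v ρ be ξ₃ y₃ = v be ^ 2 := by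
  have hr1 : v ξ₁ ≠ 0 := (lt_of_le_of_lt zero_le G₁).ne'
  have hr2 : v ξ₂ ≠ 0 := (lt_of_le_of_lt zero_le G₂).ne'
  have hr3 : v ξ₃ ≠ 0 := (lt_of_le_of_lt zero_le G₃).ne'
  have hlamp : v (lam + ρ) = 1 := by
    have e : lam + ρ = (lam - ρ) + 2 * ρ := by ring
    have h2 : v (2 * ρ) = 1 := by rw [map_mul, hv2, hρ, one_mul]
    rw [e, v.map_add_eq_of_lt_right (by rw [h2]; exact hlam), h2]
  have hvlam : v lam = 1 := by
    have e : lam = (lam - ρ) + ρ := by ring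
    rw [e, v.map_add_eq_of_lt_right (by rw [hρ]; exact hlam), hρ]
  have hρal : v (ρ ^ 2 - al) < 1 := by
    have e : ρ ^ 2 - al = (ξ₁ + ξ₂ + ξ₃) - (lam - ρ) * (lam + ρ) := by
      linear_combination -h.e₁
    rw [e]
    refine v.map_sub_lt (v.map_add_lt (v.map_add_lt G₁' G₂') G₃') ?_
    rw [map_mul, hlamp, mul_one]
    exact hlam
  have hm2 : v mu ^ 2 = v ξ₁ * v ξ₂ * v ξ₃ := by
    rw [← map_pow, ← h.e₃, map_mul, map_mul]
  have hm0 : v mu ≠ 0 := by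
    intro h0
    rw [h0, zero_pow two_ne_zero] at hm2
    exact mul_ne_zero (mul_ne_zero hr1 hr2) hr3 hm2.symm
  have hmpos : 0 < v mu := zero_lt_iff.mpr hm0
  have key : ∀ {ξ y : K}, y = lam * ξ + mu → y ^ 2 = ξ * (ξ ^ 2 + al * ξ + be) →
      v be < v ξ → v ξ < 1 →
      (v (y - ρ * ξ) < v ξ ∧ v mu < v ξ) ∨ (¬ v (y - ρ * ξ) < v ξ ∧ v mu = v ξ) := by
    intro ξ y hy c hG hG'
    have hξ0 : v ξ ≠ 0 := (lt_of_le_of_lt zero_le hG).ne'
    by_cases hp : v (y - ρ * ξ) < v ξ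
    · exact Or.inl ⟨hp, (plus_iff v hy hlam hξ0).mp hp⟩
    · exact Or.inr ⟨hp, mu_eq_of_minus v hy hlamp (minus_of_not_plus v c hG hG' hρal hp)⟩
  have hBm : v mu < v ξ₁ → v mu < v ξ₂ → v mu < v ξ₃ → v be = v mu := by
    intro a1 a2 a3
    have p12 : v (ξ₁ * ξ₂) < v mu := by
      rw [map_mul]
      have : v ξ₁ * v ξ₂ * v ξ₃ < v mu * v ξ₃ := by
        rw [← hm2, sq]; exact mul_lt_mul_of_pos_left a3 hmpos
      exact lt_of_mul_lt_mul_right this zero_le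
    have p13 : v (ξ₁ * ξ₃) < v mu := by
      rw [map_mul]
      have : v ξ₁ * v ξ₃ * v ξ₂ < v mu * v ξ₂ := by
        rw [mul_right_comm, ← hm2, sq]; exact mul_lt_mul_of_pos_left a2 hmpos
      exact lt_of_mul_lt_mul_right this zero_le
    have p23 : v (ξ₂ * ξ₃) < v mu := by
      rw [map_mul]
      have : v ξ₂ * v ξ₃ * v ξ₁ < v mu * v ξ₁ := by
        rw [mul_comm (v ξ₂ * v ξ₃), ← mul_assoc, ← hm2, sq]
        exact mul_lt_mul_of_pos_left a1 hmpos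
      exact lt_of_mul_lt_mul_right this zero_le
    have e : be = (ξ₁ * ξ₂ + ξ₁ * ξ₃ + ξ₂ * ξ₃) + 2 * lam * mu := by linear_combination -h.e₂
    have h2 : v (2 * lam * mu) = v mu := by
      rw [map_mul, map_mul, hv2, hvlam, one_mul, one_mul]
    have h3 : v (ξ₁ * ξ₂ + ξ₁ * ξ₃ + ξ₂ * ξ₃) < v (2 * lam * mu) := by
      rw [h2]; exact v.map_add_lt (v.map_add_lt p12 p13) p23
    conv_lhs => rw [e]
    rw [v.map_add_eq_of_lt_right h3, h2]
  have hm2' : v mu ^ 2 = v ξ₁ * v ξ₃ * v ξ₂ := by rw [hm2, mul_right_comm]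
  have hm2'' : v mu ^ 2 = v ξ₂ * v ξ₃ * v ξ₁ := by rw [hm2, mul_comm (v ξ₂ * v ξ₃), mul_assoc]
  have hm2c : v mu ^ 2 = v ξ₃ * v ξ₁ * v ξ₂ := by rw [hm2]; ac_rfl
  rcases key h.l₁ h.curve₁ G₁ G₁' with ⟨p1, a1⟩ | ⟨p1, a1⟩ <;>
  rcases key h.l₂ h.curve₂ G₂ G₂' with ⟨p2, a2⟩ | ⟨p2, a2⟩ <;>
  rcases key h.l₃ h.curve₃ G₃ G₃' with ⟨p3, a3⟩ | ⟨p3, a3⟩
  · unfold cval
    rw [if_pos p1, if_pos p2, if_pos p3, hBm a1 a2 a3, hm2]
  · unfold cval
    rw [if_pos p1, if_pos p2, if_neg p3, gz_one hm2 a3 hr3, mul_div_cancel₀ _ hr3]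
  · unfold cval
    rw [if_pos p1, if_neg p2, if_pos p3, mul_right_comm, gz_one hm2' a2 hr2,
      mul_div_cancel₀ _ hr2]
  · exact absurd (gz_two hm2 a2 a3 hr2 hr3) G₁'.ne
  · unfold cval
    rw [if_neg p1, if_pos p2, if_pos p3, mul_assoc, gz_one hm2'' a1 hr1,
      div_mul_cancel₀ _ hr1]
  · exact absurd (gz_two hm2'' a3 a1 hr3 hr1) G₂'.ne
  · exact absurd (gz_two hm2c a1 a2 hr1 hr2) G₃'.ne
  · exact absurd (gz_two hm2 a2 a3 hr2 hr3) G₁'.ne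

/-- Component law for a sum of two points in the node region whose sum is again in the
node region. -/
theorem cval_add (h : AddRel al be ξ₁ η₁ ξ₂ η₂ ξ₃ η₃ lam) (hv2 : v 2 = 1)
    (hbe0 : be ≠ 0)
    (G₁ : v be < v ξ₁) (G₁' : v ξ₁ < 1) (G₂ : v be < v ξ₂) (G₂' : v ξ₂ < 1)
    (G₃ : v be < v ξ₃) (G₃' : v ξ₃ < 1) (hρ : v ρ = 1) (hρal : v (ρ ^ 2 - al) < 1) :
    cval v ρ be ξ₃ η₃ = cval v ρ be ξ₁ η₁ * cval v ρ be ξ₂ η₂ ∨
      cval v ρ be ξ₃ η₃ * v be ^ 2 = cval v ρ be ξ₁ η₁ * cval v ρ be ξ₂ η₂ := by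
  have hC := coll_of_addRel h
  have hB0 : v be ≠ 0 := (Valuation.ne_zero_iff v).mpr hbe0
  have hB2 : v be ^ 2 ≠ 0 := pow_ne_zero 2 hB0
  have c₃ : η₃ ^ 2 = ξ₃ * (ξ₃ ^ 2 + al * ξ₃ + be) := by
    have := hC.curve₃
    rwa [neg_sq] at this
  have hρ' : v (-ρ) = 1 := by rw [Valuation.map_neg, hρ]
  have hρal' : v ((-ρ) ^ 2 - al) < 1 := by rwa [neg_sq]
  -- `lam ≡ ρ` or `lam ≡ -ρ`
  have hdich : v (lam - ρ) < 1 ∨ v (lam + ρ) < 1 := by
    by_contra hcon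
    rw [not_or, not_lt, not_lt] at hcon
    have e : (lam - ρ) * (lam + ρ) = (ξ₁ + ξ₂ + ξ₃) - (ρ ^ 2 - al) := by
      linear_combination -hC.e₁
    have hlt : v ((lam - ρ) * (lam + ρ)) < 1 := by
      rw [e]
      exact v.map_sub_lt (v.map_add_lt (v.map_add_lt G₁' G₂') G₃') hρal
    rw [map_mul] at hlt
    exact absurd (one_le_mul_of_one_le_of_one_le hcon.1 hcon.2) (not_le.mpr hlt)
  rcases hdich with hl | hl
  · left
    have hp := hC.cval_prod v hv2 G₁ G₁' G₂ G₂' G₃ G₃' hρ hl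
    have h3 := cval_mul_cval_neg v c₃ hv2 G₃ G₃' hρ hρal
    rw [cval_neg_rho] at h3
    have hne : cval v ρ be ξ₃ (-η₃) ≠ 0 := cval_ne_zero v hbe0 G₃
    apply mul_right_cancel₀ hne
    rw [h3, hp]
  · right
    have hl' : v (lam - -ρ) < 1 := by rwa [sub_neg_eq_add]
    have hp := hC.cval_prod v hv2 G₁ G₁' G₂ G₂' G₃ G₃' hρ' hl'
    have h1 := cval_mul_cval_neg v h.c₁ hv2 G₁ G₁' hρ hρal
    have h2 := cval_mul_cval_neg v h.c₂ hv2 G₂ G₂' hρ hρal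
    have e3 : cval v (-ρ) be ξ₃ (-η₃) = cval v ρ be ξ₃ η₃ := by
      rw [cval_neg_rho, neg_neg]
    rw [e3] at hp
    -- (c₁ c₁')(c₂ c₂') c₃ = B² c₁ c₂
    have hne1 : cval v (-ρ) be ξ₁ η₁ ≠ 0 := cval_ne_zero v hbe0 G₁
    have hne2 : cval v (-ρ) be ξ₂ η₂ ≠ 0 := cval_ne_zero v hbe0 G₂
    apply mul_right_cancel₀ (mul_ne_zero hne1 hne2)
    calc cval v ρ be ξ₃ η₃ * v be ^ 2 * (cval v (-ρ) be ξ₁ η₁ * cval v (-ρ) be ξ₂ η₂)
        = v be ^ 2 * (cval v (-ρ) be ξ₁ η₁ * cval v (-ρ) be ξ₂ η₂ * cval v ρ be ξ₃ η₃) := by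
          ac_rfl
      _ = v be ^ 2 * v be ^ 2 := by rw [hp]
      _ = (cval v ρ be ξ₁ η₁ * cval v (-ρ) be ξ₁ η₁) *
            (cval v ρ be ξ₂ η₂ * cval v (-ρ) be ξ₂ η₂) := by rw [h1, h2]
      _ = cval v ρ be ξ₁ η₁ * cval v ρ be ξ₂ η₂ *
            (cval v (-ρ) be ξ₁ η₁ * cval v (-ρ) be ξ₂ η₂) := by ac_rfl

end val

section point

variable {K : Type*} [Field K] [DecidableEq K] {Γ₀ : Type*} [LinearOrderedCommGroupWithZero Γ₀]
  (v : Valuation K Γ₀) {W : WeierstrassCurve K} {e al be : K}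

/-- Membership in `E₀ = {O} ∪ {1 ≤ v (x - e)}`. -/
def InE0 (e : K) : W.toAffine.Point → Prop
  | .zero => True
  | .some x _ _ => 1 ≤ v (x - e)

/-- Component value of a point (junk value `1` at `O`). -/
noncomputable def cP (ρ e be : K) : W.toAffine.Point → Γ₀
  | .zero => 1
  | .some x y _ => cval v ρ be (x - e) (eta W x y)

theorem inE0_add (hS : Shape W e al be) (hv2 : v 2 = 1) (hal : v al ≤ 1) (hbe : v be < 1)
    {P Q : W.toAffine.Point} (hP : InE0 v e P) (hQ : InE0 v e Q) : InE0 v e (P + Q) := by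
  rcases P with _ | ⟨x₁, y₁, h₁⟩
  · change InE0 v e ((0 : W.toAffine.Point) + Q)
    rwa [zero_add]
  rcases Q with _ | ⟨x₂, y₂, h₂⟩
  · change InE0 v e (Point.some x₁ y₁ h₁ + (0 : W.toAffine.Point))
    rwa [add_zero]
  by_cases hne : x₁ = x₂ ∧ y₁ = W.toAffine.negY x₂ y₂
  · rw [Point.add_of_Y_eq hne.1 hne.2]
    trivial
  · obtain ⟨x₃, y₃, h₃, lam, hsum, hrel⟩ := hS.add_some_rel h₁ h₂ hne
    rw [hsum]
    exact (coll_of_addRel hrel).e0_closed v hv2 hal hbe hP hQ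

omit [DecidableEq K] in
theorem inE0_neg {P : W.toAffine.Point} (hP : InE0 v e P) : InE0 v e (-P) := by
  rcases P with _ | ⟨x₁, y₁, h₁⟩
  · exact hP
  · exact hP

/-- `E₀` as a subgroup. -/
def E0 (hS : Shape W e al be) (hv2 : v 2 = 1) (hal : v al ≤ 1) (hbe : v be < 1) :
    AddSubgroup W.toAffine.Point where
  carrier := {P | InE0 v e P}
  zero_mem' := trivial
  add_mem' := fun hP hQ => inE0_add v hS hv2 hal hbe hP hQ
  neg_mem' := fun hP => inE0_neg v hP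

theorem inE0_nsmul (hS : Shape W e al be) (hv2 : v 2 = 1) (hal : v al ≤ 1) (hbe : v be < 1)
    {P : W.toAffine.Point} (hP : InE0 v e P) (n : ℕ) : InE0 v e (n • P) :=
  (E0 v hS hv2 hal hbe).nsmul_mem hP n

theorem inE0_two_nsmul_of_le (hS : Shape W e al be) (hv2 : v 2 = 1) (hal : v al ≤ 1)
    (hbe0 : be ≠ 0) (hbe : v be < 1) {x y : K} (h : W.toAffine.Nonsingular x y)
    (hξ : v (x - e) ≤ v be) : InE0 v e (2 • (Point.some x y h : W.toAffine.Point)) := by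
  rw [two_nsmul]
  by_cases hy : y = W.toAffine.negY x y
  · rw [Point.add_self_of_Y_eq hy]
    trivial
  · obtain ⟨x₃, y₃, h₃, lam, hsum, hrel⟩ := hS.add_some_rel h h (fun hh => hy hh.2)
    rw [hsum]
    exact (coll_of_addRel hrel).dbl_e0 v hv2 hal hbe0 hbe hξ

/-- The local theorem: a `p`-torsion point near the node lies strictly inside the node
region and its depth `v (x - e)` satisfies `v (x - e) ^ p ∈ (v be ^ 2) ^ ℤ`. -/
theorem nodeVal_aux (hS : Shape W e al be) (hv2 : v 2 = 1) (hal : v al = 1) (hbe : v be < 1)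
    (hbe0 : be ≠ 0) (p : ℕ) (hp : p.Prime) (hp2 : p ≠ 2) (x y : K)
    (h : W.toAffine.Nonsingular x y) (hξ : v (x - e) < 1)
    (hP : p • (Point.some x y h : W.toAffine.Point) = 0) :
    v be < v (x - e) ∧ ∃ j : ℤ, v (x - e) ^ p = v be ^ (2 * j) := by
  have hal' : v al ≤ 1 := hal.le
  have hB0 : v be ≠ 0 := (Valuation.ne_zero_iff v).mpr hbe0
  have hB2 : v be ^ 2 ≠ 0 := pow_ne_zero 2 hB0
  have h2K : (2 : K) ≠ 0 := hS.two_ne
  have hPnot : ¬ InE0 v e (Point.some x y h : W.toAffine.Point) := not_le.mpr hξ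
  -- Step 1: multiples prime to `p` are outside `E₀`
  have step1 : ∀ k : ℕ, ¬ p ∣ k → ¬ InE0 v e (k • (Point.some x y h : W.toAffine.Point)) := by
    intro k hk hin
    have hcop : Nat.Coprime k p := ((Nat.Prime.coprime_iff_not_dvd hp).mpr hk).symm
    obtain ⟨m, -, hm⟩ := Nat.exists_mul_mod_eq_one_of_coprime hcop hp.one_lt
    have e1 : (k * m) • (Point.some x y h : W.toAffine.Point) = Point.some x y h := by
      have hdm := Nat.div_add_mod (k * m) p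
      rw [hm] at hdm
      rw [← hdm, add_nsmul, mul_nsmul, hP, nsmul_zero, zero_add, one_nsmul]
    have e2 : InE0 v e ((k * m) • (Point.some x y h : W.toAffine.Point)) := by
      rw [mul_nsmul]
      exact inE0_nsmul v hS hv2 hal' hbe hin m
    rw [e1] at e2
    exact hPnot e2
  -- Step 2: all multiples `k • P`, `0 < k < p`, lie in the node region
  have step2 : ∀ k : ℕ, 0 < k → k < p →
      ∃ (xk yk : K) (hk : W.toAffine.Nonsingular xk yk),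
        k • (Point.some x y h : W.toAffine.Point) = Point.some xk yk hk ∧
        v be < v (xk - e) ∧ v (xk - e) < 1 := by
    intro k hk0 hkp
    have hnd : ¬ p ∣ k := Nat.not_dvd_of_pos_of_lt hk0 hkp
    have hnd2 : ¬ p ∣ 2 * k := by
      intro hd
      rcases (Nat.Prime.dvd_mul hp).mp hd with h2 | h2
      · exact hp2 ((Nat.prime_dvd_prime_iff_eq hp Nat.prime_two).mp h2)
      · exact hnd h2
    have h1 := step1 k hnd
    have h2 := step1 (2 * k) hnd2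
    rw [mul_nsmul'] at h2
    rcases hkP : k • (Point.some x y h : W.toAffine.Point) with _ | ⟨xk, yk, hk'⟩
    · rw [hkP] at h1
      exact absurd trivial h1
    · rw [hkP] at h1 h2
      refine ⟨xk, yk, hk', rfl, ?_, not_le.mp h1⟩
      by_contra hcon
      rw [not_lt] at hcon
      exact h2 (inE0_two_nsmul_of_le v hS hv2 hal' hbe0 hbe hk' hcon)
  -- the point itself
  have hG : v be < v (x - e) := by
    obtain ⟨x1, y1, h1, h1P, g1, -⟩ := step2 1 one_pos hp.one_lt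
    rw [one_nsmul] at h1P
    cases h1P
    exact g1
  refine ⟨hG, ?_⟩
  have hξpos : 0 < v (x - e) := lt_of_le_of_lt zero_le hG
  have hξ0 : v (x - e) ≠ 0 := hξpos.ne'
  have hξK : x - e ≠ 0 := (Valuation.ne_zero_iff v).mp hξ0
  have c : eta W x y ^ 2 = (x - e) * ((x - e) ^ 2 + al * (x - e) + be) :=
    (hS.equation_iff x y).mp h.1
  -- the branch direction
  obtain ⟨ρ, hρdef⟩ : ∃ ρ : K, ρ = eta W x y / (x - e) := ⟨_, rfl⟩
  have hρξ : ρ * (x - e) = eta W x y := by rw [hρdef, div_mul_cancel₀ _ hξK]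
  have hρal : v (ρ ^ 2 - al) < 1 := by
    have e1 : ρ ^ 2 - al = (x - e) + be / (x - e) := by
      rw [hρdef]
      field_simp
      linear_combination c
    rw [e1]
    refine v.map_add_lt hξ ?_
    rw [map_div₀]
    exact (div_lt_one₀ hξpos).mpr hG
  have hρ : v ρ = 1 := by
    have e1 : ρ ^ 2 = (ρ ^ 2 - al) + al := by ring
    have e2 : v (ρ ^ 2) = 1 := by
      rw [e1, v.map_add_eq_of_lt_right (by rw [hal]; exact hρal), hal]
    rw [map_pow] at e2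
    exact (pow_eq_one_iff_of_nonneg zero_le two_ne_zero).mp e2
  have hc1 : cval v ρ be (x - e) (eta W x y) = v (x - e) := by
    unfold cval
    rw [hρξ, sub_self, map_zero, if_pos hξpos]
  -- Step 4: induction on the multiple
  have step4 : ∀ k : ℕ, 1 ≤ k → k < p → ∃ j : ℤ,
      cP v ρ e be (k • (Point.some x y h : W.toAffine.Point)) =
        v (x - e) ^ k * v be ^ (2 * j) := by
    intro k hk1
    induction k, hk1 using Nat.le_induction with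
    | base =>
      intro _
      refine ⟨0, ?_⟩
      rw [one_nsmul, pow_one, mul_zero, zpow_zero, mul_one]
      exact hc1
    | succ k hk1 ih =>
      intro hk1p
      have hkp : k < p := by omega
      obtain ⟨j, hj⟩ := ih hkp
      obtain ⟨xk, yk, hk', hkP, gk, gk'⟩ := step2 k (by omega) hkp
      obtain ⟨xs, ys, hs', hsP, gs, gs'⟩ := step2 (k + 1) (by omega) hk1p
      have hadd : (k + 1) • (Point.some x y h : W.toAffine.Point) =
          Point.some xk yk hk' + Point.some x y h := by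
        rw [succ_nsmul, hkP]
      have hne : ¬ (xk = x ∧ yk = W.toAffine.negY x y) := by
        intro hh
        rw [Point.add_of_Y_eq hh.1 hh.2] at hadd
        rw [hadd] at hsP
        exact (Point.some_ne_zero hs') hsP.symm
      obtain ⟨x₃, y₃, h₃, lam, hsum, hrel⟩ := hS.add_some_rel hk' h hne
      have hs3 : (Point.some xs ys hs' : W.toAffine.Point) = Point.some x₃ y₃ h₃ := by
        rw [← hsP, hadd, hsum]
      cases hs3
      have hck : cval v ρ be (xk - e) (eta W xk yk) = v (x - e) ^ k * v be ^ (2 * j) := by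
        rw [hkP] at hj
        exact hj
      rw [hsP]
      change ∃ j : ℤ, cval v ρ be (xs - e) (eta W xs ys) = v (x - e) ^ (k + 1) * v be ^ (2 * j)
      rcases cval_add v hrel hv2 hbe0 gk gk' hG hξ gs gs' hρ hρal with hca | hca
      · refine ⟨j, ?_⟩
        rw [hca, hck, hc1, pow_succ]
        ac_rfl
      · refine ⟨j - 1, ?_⟩
        apply mul_right_cancel₀ hB2
        rw [hca, hck, hc1, pow_succ]
        have e3 : v be ^ (2 * j) = v be ^ (2 * (j - 1)) * v be ^ 2 := by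
          rw [← zpow_natCast (v be) 2, ← zpow_add₀ hB0]
          congr 1
          push_cast
          ring
        rw [e3]
        ac_rfl
  -- Step 5: `(p - 1) • P = -P`
  have hp3 : 3 ≤ p := by
    have := hp.two_le
    omega
  obtain ⟨j, hj⟩ := step4 (p - 1) (by omega) (by omega)
  have hneg : (p - 1) • (Point.some x y h : W.toAffine.Point) = -Point.some x y h := by
    apply eq_neg_of_add_eq_zero_left
    rw [← succ_nsmul, Nat.sub_add_cancel hp.one_le]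
    exact hP
  rw [hneg, Point.neg_some] at hj
  change cval v ρ be (x - e) (eta W x (W.toAffine.negY x y)) = _ at hj
  rw [eta_negY W h2K] at hj
  have hc2 : cval v ρ be (x - e) (-eta W x y) = v be ^ 2 / v (x - e) := by
    unfold cval
    have e1 : -eta W x y - ρ * (x - e) = -(2 * ρ * (x - e)) := by rw [← hρξ]; ring
    have e2 : v (-eta W x y - ρ * (x - e)) = v (x - e) := by
      rw [e1, Valuation.map_neg, map_mul, map_mul, hv2, hρ, one_mul, one_mul]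
    rw [e2, if_neg (lt_irrefl _)]
  rw [hc2] at hj
  -- `B² / r = r^(p-1) * B^(2j)`  ⟹  `r^p = B^(2(1-j))`
  refine ⟨1 - j, ?_⟩
  have hBj : v be ^ (2 * j) ≠ 0 := zpow_ne_zero _ hB0
  have e4 : v (x - e) ^ p * v be ^ (2 * j) = v be ^ 2 := by
    have e5 : v (x - e) ^ p = v (x - e) ^ (p - 1) * v (x - e) := by
      rw [← pow_succ, Nat.sub_add_cancel hp.one_le]
    rw [e5, mul_right_comm, ← hj, div_mul_cancel₀ _ hξ0]
  have e6 : v be ^ (2 * (1 - j)) = v be ^ 2 / v be ^ (2 * j) := by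
    rw [← zpow_natCast (v be) 2, ← zpow_sub₀ hB0]
    congr 1
    push_cast
    ring
  rw [e6, eq_div_iff hBj, e4]

end point

/-- **S05-NODEVAL** (captain spec `helper5.NodeValStmt`), unconditionally. -/
theorem nodeVal : Fermat.Agent.S05.helper5.NodeValStmt := by
  intro K _ _ Γ₀ _ v W e al be hS hv2 hal hbe hbe0 p hp hp2 _ x y h hξ hP
  exact nodeVal_aux v hS hv2 hal hbe hbe0 p hp hp2 x y h hξ hP

/-- Board form: `nodeVal (hK : KerStmt) : NodeValStmt` (the kernel statement is not needed). -/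
theorem nodeVal_of_ker (_hK : Fermat.Agent.S05.helper5.KerStmt) :
    Fermat.Agent.S05.helper5.NodeValStmt := nodeVal

end Fermat.Agent.S05.helper2945
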