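import Mathlib
import Fermat.Prelude.Def_FLTPrelim_FreyPackage
import Fermat.Prelude.Def_FLTPrelim_Ramification
import Fermat.Agent.S05.helper305_Shape

/-!
# Shape data of the Frey curve at an odd prime (helper3034, S05, board row 60)

For a Frey package `P` (so `A + B = C` with `A = a^p`, `B = b^p`, `C = c^p` pairwise coprime),
a field `K ⊇ ℚ` and a valuation `v` on `K` with `v q < 1` for an odd prime `q`, the base change of
the Frey curve to `K` has a *shape* `(e, al, be)` (in the sense of `helper305.Shape`) with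
rational `e, al, be` which are `v`-integral, `be ≠ 0`, `v (al² - 4 be) = 1`, and either
`v be = 1` (good reduction) or `v al = 1` and `v be = v(w)^p` for a nonzero integer `w`
(multiplicative reduction with `p ∣ ord_q`).

* `q ∤ c`: `e = 0`, `al = (B - A)/4`, `be = -(A B)/16`, `al² - 4 be = C²/16`, `w = a b`;
* `q ∣ c`: `e = A/4`, `al = (A + C)/4`, `be = A C/16`, `al² - 4 be = B²/16`, `w = a c`.
-/

namespace Fermat.Agent.S05.helper3034

open WeierstrassCurve
open Fermat.Agent.S05.helper305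

section valuation

variable {K : Type*} [Field K] {Γ₀ : Type*} [LinearOrderedCommGroupWithZero Γ₀]

theorem val_natCast_le_one (v : Valuation K Γ₀) (n : ℕ) : v (n : K) ≤ 1 := by
  induction n with
  | zero => simp
  | succ n ih =>
    rw [Nat.cast_succ]
    exact (v.map_add _ _).trans (max_le ih (by simp))

theorem val_intCast_le_one (v : Valuation K Γ₀) (n : ℤ) : v (n : K) ≤ 1 := by
  rcases Int.natAbs_eq n with h | h
  · rw [h]
    simpa using val_natCast_le_one v n.natAbs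
  · rw [h, Int.cast_neg, Valuation.map_neg]
    simpa using val_natCast_le_one v n.natAbs

/-- If `v q < 1` then every integer coprime to `q` has valuation `1`. -/
theorem val_intCast_eq_one_of_isCoprime (v : Valuation K Γ₀) {q : ℕ} (hvq : v (q : K) < 1)
    {n : ℤ} (hn : IsCoprime n (q : ℤ)) : v (n : K) = 1 := by
  obtain ⟨s, t, hst⟩ := hn
  refine le_antisymm (val_intCast_le_one v n) ?_
  by_contra hlt
  rw [not_le] at hlt
  have h1 : v ((s : K) * (n : K)) < 1 := by
    rw [map_mul]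
    calc v (s : K) * v (n : K) ≤ 1 * v (n : K) :=
          mul_le_mul' (val_intCast_le_one v s) le_rfl
      _ = v (n : K) := one_mul _
      _ < 1 := hlt
  have h2 : v ((t : K) * (q : K)) < 1 := by
    rw [map_mul]
    calc v (t : K) * v (q : K) ≤ 1 * v (q : K) :=
          mul_le_mul' (val_intCast_le_one v t) le_rfl
      _ = v (q : K) := one_mul _
      _ < 1 := hvq
  have hsum : (1 : K) = (s : K) * (n : K) + (t : K) * (q : K) := by
    have := congrArg (Int.cast : ℤ → K) hst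
    push_cast at this
    exact this.symm
  have h3 : v (1 : K) < 1 := by
    rw [hsum]
    exact lt_of_le_of_lt (v.map_add _ _) (max_lt h1 h2)
  rw [map_one] at h3
  exact lt_irrefl _ h3

/-- If `v q < 1` for a prime `q` then every integer not divisible by `q` has valuation `1`. -/
theorem val_intCast_eq_one (v : Valuation K Γ₀) {q : ℕ} (hq : q.Prime) (hvq : v (q : K) < 1)
    {n : ℤ} (hn : ¬ (q : ℤ) ∣ n) : v (n : K) = 1 :=
  val_intCast_eq_one_of_isCoprime v hvq
    (((Nat.prime_iff_prime_int.mp hq).irreducible.coprime_iff_not_dvd).mpr hn).symm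

/-- If `v q < 1` for an odd prime `q` then `v 2 = 1`. -/
theorem val_two_eq_one (v : Valuation K Γ₀) {q : ℕ} (hq : q.Prime) (hq2 : q ≠ 2)
    (hvq : v (q : K) < 1) : v (2 : K) = 1 := by
  have h : ¬ (q : ℤ) ∣ (2 : ℤ) := by
    intro h
    have h' : q ∣ 2 := by exact_mod_cast h
    exact hq2 ((Nat.prime_dvd_prime_iff_eq hq Nat.prime_two).mp h')
  have := val_intCast_eq_one v hq hvq h
  simpa using this

end valuation

section frey

variable {K : Type*} [Field K] [Algebra ℚ K] {Γ₀ : Type*} [LinearOrderedCommGroupWithZero Γ₀]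

theorem algebraMap_int_div_nat (n : ℤ) (m : ℕ) :
    algebraMap ℚ K ((n : ℚ) / (m : ℚ)) = (n : K) / (m : K) := by
  rw [map_div₀, map_intCast, map_natCast]

theorem frey_b₂ (P : FreyPackage) :
    P.freyCurve.b₂ = (((P.b ^ P.p - P.a ^ P.p : ℤ) : ℚ)) := by
  simp only [WeierstrassCurve.b₂, FreyPackage.freyCurve]
  push_cast
  ring

theorem frey_b₄ (P : FreyPackage) :
    P.freyCurve.b₄ = -(((P.a ^ P.p * P.b ^ P.p : ℤ) : ℚ)) / 8 := by
  simp only [WeierstrassCurve.b₄, FreyPackage.freyCurve]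
  push_cast
  ring

theorem frey_b₆ (P : FreyPackage) : P.freyCurve.b₆ = 0 := by
  simp only [WeierstrassCurve.b₆, FreyPackage.freyCurve]
  ring

/-- Transport of the three shape identities from `ℚ` to `K`. -/
theorem shape_map_of_rat (W : WeierstrassCurve ℚ) (h2K : (2 : K) ≠ 0) {e al be : ℚ}
    (h2 : W.b₂ = 4 * al - 12 * e) (h4 : W.b₄ = 6 * e ^ 2 - 4 * al * e + 2 * be)
    (h6 : W.b₆ = -4 * e ^ 3 + 4 * al * e ^ 2 - 4 * be * e) :
    Shape (W.map (algebraMap ℚ K)) (algebraMap ℚ K e) (algebraMap ℚ K al)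
      (algebraMap ℚ K be) := by
  refine ⟨h2K, ?_, ?_, ?_⟩
  · rw [WeierstrassCurve.map_b₂, h2]
    simp only [map_sub, map_mul, map_ofNat]
  · rw [WeierstrassCurve.map_b₄, h4]
    simp only [map_sub, map_add, map_mul, map_pow, map_ofNat]
  · rw [WeierstrassCurve.map_b₆, h6]
    simp only [map_sub, map_add, map_mul, map_pow, map_neg, map_ofNat]

theorem val_algebraMap_div_four (v : Valuation K Γ₀) (hv4 : v (4 : K) = 1) (n : ℤ) :
    v (algebraMap ℚ K ((n : ℚ) / 4)) = v (n : K) := by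
  rw [map_div₀, map_intCast, map_ofNat, map_div₀, hv4, div_one]

theorem val_algebraMap_div_sixteen (v : Valuation K Γ₀) (hv16 : v (16 : K) = 1) (n : ℤ) :
    v (algebraMap ℚ K ((n : ℚ) / 16)) = v (n : K) := by
  rw [map_div₀, map_intCast, map_ofNat, map_div₀, hv16, div_one]

/-- **Shape data of the Frey curve at an odd prime `q`** (board row 60).
`K` is any field containing `ℚ` (e.g. `AlgebraicClosure ℚ`), `v` any valuation on `K` with
`v q < 1`. -/
theorem frey_shape (v : Valuation K Γ₀) (P : FreyPackage) {q : ℕ} (hq : q.Prime) (hq2 : q ≠ 2)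
    (hvq : v (q : K) < 1) :
    ∃ e al be : ℚ,
      Shape (P.freyCurve.map (algebraMap ℚ K)) (algebraMap ℚ K e) (algebraMap ℚ K al)
        (algebraMap ℚ K be) ∧
      v (algebraMap ℚ K e) ≤ 1 ∧ v (algebraMap ℚ K al) ≤ 1 ∧ v (algebraMap ℚ K be) ≤ 1 ∧
      algebraMap ℚ K be ≠ 0 ∧
      v ((algebraMap ℚ K al) ^ 2 - 4 * algebraMap ℚ K be) = 1 ∧
      (v (algebraMap ℚ K be) = 1 ∨
        (v (algebraMap ℚ K al) = 1 ∧
          ∃ w : ℤ, w ≠ 0 ∧ v (algebraMap ℚ K be) = v (w : K) ^ P.p)) := by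
  have hv2 : v (2 : K) = 1 := val_two_eq_one v hq hq2 hvq
  have hv4 : v (4 : K) = 1 := by
    have h : (4 : K) = 2 * 2 := by norm_num
    rw [h, map_mul, hv2, one_mul]
  have hv16 : v (16 : K) = 1 := by
    have h : (16 : K) = 4 * 4 := by norm_num
    rw [h, map_mul, hv4, one_mul]
  have h2K : (2 : K) ≠ 0 := fun h => by
    rw [h, map_zero] at hv2
    exact zero_ne_one hv2
  have hqprime : Prime (q : ℤ) := Nat.prime_iff_prime_int.mp hq
  have hp0 : P.p ≠ 0 := P.hp0
  have hFLTQ : (P.a : ℚ) ^ P.p + (P.b : ℚ) ^ P.p = (P.c : ℚ) ^ P.p := by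
    exact_mod_cast P.hFLT
  have hnab : ¬ ((q : ℤ) ∣ P.a ∧ (q : ℤ) ∣ P.b) := by
    rintro ⟨h1, h2⟩
    have h := dvd_gcd h1 h2
    rw [P.hgcdab] at h
    exact hqprime.not_dvd_one h
  have hnac : ¬ ((q : ℤ) ∣ P.a ∧ (q : ℤ) ∣ P.c) := by
    rintro ⟨h1, h2⟩
    have h := dvd_gcd h1 h2
    rw [P.hgcdac] at h
    exact hqprime.not_dvd_one h
  have hnbc : ¬ ((q : ℤ) ∣ P.b ∧ (q : ℤ) ∣ P.c) := by
    rintro ⟨h1, h2⟩
    have h := dvd_gcd h1 h2
    rw [P.hgcdbc] at h
    exact hqprime.not_dvd_one h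
  have hpow : ∀ x : ℤ, (q : ℤ) ∣ x ^ P.p → (q : ℤ) ∣ x := fun x => hqprime.dvd_of_dvd_pow
  have hval : ∀ n : ℤ, ¬ (q : ℤ) ∣ n → v (n : K) = 1 :=
    fun n hn => val_intCast_eq_one v hq hvq hn
  have hφ0 : ∀ x : ℚ, x ≠ 0 → algebraMap ℚ K x ≠ 0 := fun x hx =>
    (map_ne_zero (algebraMap ℚ K)).mpr hx
  have haQ : (P.a : ℚ) ^ P.p ≠ 0 := pow_ne_zero _ (Int.cast_ne_zero.mpr P.ha0)
  have hbQ : (P.b : ℚ) ^ P.p ≠ 0 := pow_ne_zero _ (Int.cast_ne_zero.mpr P.hb0)
  have hcQ : (P.c : ℚ) ^ P.p ≠ 0 := pow_ne_zero _ (Int.cast_ne_zero.mpr P.hc0)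
  by_cases hc : (q : ℤ) ∣ P.c
  · -- `q ∣ c`: shift by `e = A/4`
    have ha : ¬ (q : ℤ) ∣ P.a := fun h => hnac ⟨h, hc⟩
    have hb : ¬ (q : ℤ) ∣ P.b := fun h => hnbc ⟨h, hc⟩
    have hal1 : v (algebraMap ℚ K (((P.a ^ P.p + P.c ^ P.p : ℤ) : ℚ) / 4)) = 1 := by
      rw [val_algebraMap_div_four v hv4]
      apply hval
      intro h
      have h' : (q : ℤ) ∣ P.a ^ P.p := by
        have := dvd_sub h (dvd_pow hc hp0)
        simpa using this
      exact ha (hpow _ h')
    have hbe : v (algebraMap ℚ K (((P.a ^ P.p * P.c ^ P.p : ℤ) : ℚ) / 16)) =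
        v (((P.a * P.c : ℤ) : K)) ^ P.p := by
      rw [val_algebraMap_div_sixteen v hv16, ← mul_pow, Int.cast_pow, map_pow]
    refine ⟨((P.a ^ P.p : ℤ) : ℚ) / 4, ((P.a ^ P.p + P.c ^ P.p : ℤ) : ℚ) / 4,
      ((P.a ^ P.p * P.c ^ P.p : ℤ) : ℚ) / 16, ?_, ?_, ?_, ?_, ?_, ?_, ?_⟩
    · apply shape_map_of_rat _ h2K
      · rw [frey_b₂]
        push_cast
        linear_combination hFLTQ
      · rw [frey_b₄]
        push_cast
        linear_combination (-(P.a : ℚ) ^ P.p / 8) * hFLTQ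
      · rw [frey_b₆]
        push_cast
        ring
    · rw [val_algebraMap_div_four v hv4]
      exact val_intCast_le_one v _
    · exact hal1.le
    · rw [val_algebraMap_div_sixteen v hv16]
      exact val_intCast_le_one v _
    · apply hφ0
      push_cast
      exact div_ne_zero (mul_ne_zero haQ hcQ) (by norm_num)
    · have h : (algebraMap ℚ K (((P.a ^ P.p + P.c ^ P.p : ℤ) : ℚ) / 4)) ^ 2 -
          4 * algebraMap ℚ K (((P.a ^ P.p * P.c ^ P.p : ℤ) : ℚ) / 16) =
          algebraMap ℚ K ((((P.b ^ P.p) ^ 2 : ℤ) : ℚ) / 16) := by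
        rw [← map_ofNat (algebraMap ℚ K) 4, ← map_pow, ← map_mul, ← map_sub]
        congr 1
        push_cast
        linear_combination (-((P.c : ℚ) ^ P.p - (P.a : ℚ) ^ P.p + (P.b : ℚ) ^ P.p) / 16) * hFLTQ
      rw [h, val_algebraMap_div_sixteen v hv16]
      apply hval
      intro h'
      exact hb (hpow _ (hqprime.dvd_of_dvd_pow h'))
    · right
      exact ⟨hal1, P.a * P.c, mul_ne_zero P.ha0 P.hc0, hbe⟩
  · -- `q ∤ c`: no shift
    have hbe : v (algebraMap ℚ K (((-(P.a ^ P.p * P.b ^ P.p) : ℤ) : ℚ) / 16)) =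
        v (((P.a * P.b : ℤ) : K)) ^ P.p := by
      rw [val_algebraMap_div_sixteen v hv16, Int.cast_neg, Valuation.map_neg, ← mul_pow,
        Int.cast_pow, map_pow]
    refine ⟨0, ((P.b ^ P.p - P.a ^ P.p : ℤ) : ℚ) / 4,
      ((-(P.a ^ P.p * P.b ^ P.p) : ℤ) : ℚ) / 16, ?_, ?_, ?_, ?_, ?_, ?_, ?_⟩
    · apply shape_map_of_rat _ h2K
      · rw [frey_b₂]
        push_cast
        ring
      · rw [frey_b₄]
        push_cast
        ring
      · rw [frey_b₆]
        ring
    · rw [map_zero, map_zero]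
      exact zero_le_one
    · rw [val_algebraMap_div_four v hv4]
      exact val_intCast_le_one v _
    · rw [val_algebraMap_div_sixteen v hv16]
      exact val_intCast_le_one v _
    · apply hφ0
      push_cast
      exact div_ne_zero (neg_ne_zero.mpr (mul_ne_zero haQ hbQ)) (by norm_num)
    · have h : (algebraMap ℚ K (((P.b ^ P.p - P.a ^ P.p : ℤ) : ℚ) / 4)) ^ 2 -
          4 * algebraMap ℚ K (((-(P.a ^ P.p * P.b ^ P.p) : ℤ) : ℚ) / 16) =
          algebraMap ℚ K ((((P.c ^ P.p) ^ 2 : ℤ) : ℚ) / 16) := by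
        rw [← map_ofNat (algebraMap ℚ K) 4, ← map_pow, ← map_mul, ← map_sub]
        congr 1
        push_cast
        linear_combination (((P.a : ℚ) ^ P.p + (P.b : ℚ) ^ P.p + (P.c : ℚ) ^ P.p) / 16) * hFLTQ
      rw [h, val_algebraMap_div_sixteen v hv16]
      apply hval
      intro h'
      exact hc (hpow _ (hqprime.dvd_of_dvd_pow h'))
    · by_cases hab : (q : ℤ) ∣ P.a * P.b
      · right
        refine ⟨?_, P.a * P.b, mul_ne_zero P.ha0 P.hb0, hbe⟩
        rw [val_algebraMap_div_four v hv4]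
        apply hval
        intro h
        rcases hqprime.dvd_or_dvd hab with h1 | h1
        · have h2 : (q : ℤ) ∣ P.b ^ P.p := by
            have := dvd_add h (dvd_pow h1 hp0)
            simpa using this
          exact hnab ⟨h1, hpow _ h2⟩
        · have h2 : (q : ℤ) ∣ P.a ^ P.p := by
            have := dvd_sub (dvd_pow h1 hp0) h
            simpa using this
          exact hnab ⟨hpow _ h2, h1⟩
      · left
        rw [hbe]
        rw [hval _ hab, one_pow]

end frey

section qbar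

open WeierstrassCurve.Affine

/-- Row 60 specialised to a valuation subring `A` of `AlgebraicClosure ℚ` lying over an odd
prime `q`, with the base-change notation of the frozen statement S05. -/
theorem frey_shape_of_liesOver (A : ValuationSubring (AlgebraicClosure ℚ)) (P : FreyPackage)
    {q : ℕ} (hq : q.Prime) (hq2 : q ≠ 2) (hA : A.LiesOverPrime q) :
    ∃ e al be : ℚ,
      Shape ((P.freyCurve : Affine ℚ)⁄(AlgebraicClosure ℚ))
        (algebraMap ℚ (AlgebraicClosure ℚ) e) (algebraMap ℚ (AlgebraicClosure ℚ) al)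
        (algebraMap ℚ (AlgebraicClosure ℚ) be) ∧
      A.valuation (algebraMap ℚ (AlgebraicClosure ℚ) e) ≤ 1 ∧
      A.valuation (algebraMap ℚ (AlgebraicClosure ℚ) al) ≤ 1 ∧
      A.valuation (algebraMap ℚ (AlgebraicClosure ℚ) be) ≤ 1 ∧
      algebraMap ℚ (AlgebraicClosure ℚ) be ≠ 0 ∧
      A.valuation ((algebraMap ℚ (AlgebraicClosure ℚ) al) ^ 2 -
        4 * algebraMap ℚ (AlgebraicClosure ℚ) be) = 1 ∧
      (A.valuation (algebraMap ℚ (AlgebraicClosure ℚ) be) = 1 ∨
        (A.valuation (algebraMap ℚ (AlgebraicClosure ℚ) al) = 1 ∧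
          ∃ w : ℤ, w ≠ 0 ∧ A.valuation (algebraMap ℚ (AlgebraicClosure ℚ) be) =
            A.valuation (w : AlgebraicClosure ℚ) ^ P.p)) :=
  frey_shape A.valuation P hq hq2 (A.mem_nonunits_iff.mp hA)

/-- The valuation of `A` at `2` and at every prime `n ≠ q` is `1` (for `A` over an odd `q`). -/
theorem valuation_two_of_liesOver (A : ValuationSubring (AlgebraicClosure ℚ))
    {q : ℕ} (hq : q.Prime) (hq2 : q ≠ 2) (hA : A.LiesOverPrime q) :
    A.valuation (2 : AlgebraicClosure ℚ) = 1 :=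
  val_two_eq_one A.valuation hq hq2 (A.mem_nonunits_iff.mp hA)

theorem valuation_natCast_of_liesOver (A : ValuationSubring (AlgebraicClosure ℚ))
    {q : ℕ} (hq : q.Prime) (hA : A.LiesOverPrime q) {n : ℕ} (hn : ¬ q ∣ n) :
    A.valuation (n : AlgebraicClosure ℚ) = 1 := by
  have h := val_intCast_eq_one A.valuation hq (A.mem_nonunits_iff.mp hA)
    (n := (n : ℤ)) (by exact_mod_cast hn)
  simpa using h

end qbar

end Fermat.Agent.S05.helper3034
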