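import Fermat.Agent.S05.helper305_Points
import Fermat.Agent.S05.helper5_Spec

/-!
# NODEVAL: torsion points near the node (helper305, S05)

`nodeVal : helper5.NodeValStmt` — for multiplicative reduction (`v al = 1`, `v be < 1`), a
`p`-torsion point with `v (x - e) < 1` satisfies `v be < v (x - e)` and
`v (x - e) ^ p = v be ^ (2 j)`.

No square root of `al` is needed: the branch is taken relative to `r := η/ξ` of the point
itself (`v (r ^ 2 - al) < 1`).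
-/

set_option linter.unusedSectionVars false

namespace Fermat.Agent.S05.helper305

open WeierstrassCurve WeierstrassCurve.Affine

variable {K : Type*} [Field K]
variable {Γ₀ : Type*} [LinearOrderedCommGroupWithZero Γ₀]

section field

variable {v : Valuation K Γ₀} {al be ξ₁ η₁ ξ₂ η₂ ξ₃ η₃ lam r : K}

/-- (V3') `mid_add` with the branch reference `r` only a square root of `al` modulo the
maximal ideal. -/
theorem AddRel.mid_add' (h : AddRel al be ξ₁ η₁ ξ₂ η₂ ξ₃ η₃ lam) (hv2 : v 2 = 1)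
    (hr : v (r ^ 2 - al) < 1) (hvr : v r = 1)
    (h₁ : v ξ₁ < 1) (h₂ : v ξ₂ < 1) (hm : v be < v ξ₁ * v ξ₂)
    (hb₁ : v (η₁ / ξ₁ - r) < 1) (hb₂ : v (η₂ / ξ₂ - r) < 1) :
    v ξ₃ = v ξ₁ * v ξ₂ ∧ v (η₃ / ξ₃ - r) < 1 := by
  have h2 : (2 : K) ≠ 0 := two_ne_zero_of_val v hv2
  have hprod_pos : 0 < v ξ₁ * v ξ₂ := lt_of_le_of_lt zero_le hm
  have hξ₁ : ξ₁ ≠ 0 := by rintro rfl; simp at hprod_pos
  have hξ₂ : ξ₂ ≠ 0 := by rintro rfl; simp at hprod_pos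
  have hvξ₁ : v ξ₁ ≠ 0 := (Valuation.ne_zero_iff v).mpr hξ₁
  have hvξ₂ : v ξ₂ ≠ 0 := (Valuation.ne_zero_iff v).mpr hξ₂
  obtain ⟨ρ₁, rfl⟩ : ∃ ρ₁, η₁ = ρ₁ * ξ₁ := ⟨η₁ / ξ₁, by field_simp⟩
  obtain ⟨ρ₂, rfl⟩ : ∃ ρ₂, η₂ = ρ₂ * ξ₂ := ⟨η₂ / ξ₂, by field_simp⟩
  rw [mul_div_cancel_right₀ _ hξ₁] at hb₁
  rw [mul_div_cancel_right₀ _ hξ₂] at hb₂
  have h2r : v (2 * r) = 1 := by rw [map_mul, hv2, hvr, one_mul]
  have hS : v (ρ₁ + ρ₂) = 1 := by
    have : ρ₁ + ρ₂ = 2 * r + ((ρ₁ - r) + (ρ₂ - r)) := by ring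
    rw [this]
    exact val_add_eq_one v h2r (v.map_add_lt hb₁ hb₂)
  have hρ₂ : v ρ₂ = 1 := by
    have : ρ₂ = r + (ρ₂ - r) := by ring
    rw [this]
    exact val_add_eq_one v hvr hb₂
  have hD : v (ξ₁ * ξ₂ - be) = v ξ₁ * v ξ₂ := by
    rw [Valuation.map_sub_eq_of_lt_left, map_mul]
    rw [map_mul]; exact hm
  have hDne : ξ₁ * ξ₂ - be ≠ 0 := by
    rw [← Valuation.ne_zero_iff v, hD]; exact hprod_pos.ne'
  have hSne : ρ₁ + ρ₂ ≠ 0 := by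
    rw [← Valuation.ne_zero_iff v, hS]; exact one_ne_zero
  have hF2 := h.F2 h2
  have hsum : ρ₁ * ξ₁ * ξ₂ + ρ₂ * ξ₂ * ξ₁ = ξ₁ * ξ₂ * (ρ₁ + ρ₂) := by ring
  rw [hsum] at hF2
  have hval : v ξ₃ = v ξ₁ * v ξ₂ := by
    have := congrArg v hF2
    simp only [map_mul, map_pow, hS, hD, mul_one] at this
    have hne : (v ξ₁ * v ξ₂) ^ 2 ≠ 0 := pow_ne_zero _ hprod_pos.ne'
    exact mul_right_cancel₀ hne this
  refine ⟨hval, ?_⟩
  have hξ₃ : ξ₃ ≠ 0 := by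
    rw [← Valuation.ne_zero_iff v, hval]; exact hprod_pos.ne'
  have hF4 : η₃ * (ξ₁ * ξ₂ - be) = ξ₃ * (-lam * (ξ₁ * ξ₂ - be) + ξ₁ * ξ₂ * (ρ₁ + ρ₂)) := by
    rw [h.F4 h2]; ring
  have hδ : v (be / (ξ₁ * ξ₂ - be)) < 1 := by
    rw [map_div₀, hD]
    exact (div_lt_one₀ hprod_pos).mpr hm
  have hlam : v (lam - r) < 1 := by
    by_cases hne : ξ₁ = ξ₂
    · obtain ⟨h12, hη, hl⟩ := h.lam_tangent h2 hne
      subst hne
      have hρ : ρ₁ = ρ₂ := mul_right_cancel₀ hξ₁ h12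
      subst hρ
      have hρne : ρ₁ ≠ 0 := by
        rw [← Valuation.ne_zero_iff v, hρ₂]; exact one_ne_zero
      have key : 2 * ρ₁ * (lam - r) =
          3 * ξ₁ + be / ξ₁ + 2 * r * (r - ρ₁) - 2 * (r ^ 2 - al) := by
        rw [hl]
        field_simp
        ring
      have hbe : v (be / ξ₁) < 1 := by
        rw [map_div₀]
        have : v be < v ξ₁ := lt_of_lt_of_le hm (mul_le_of_le_one_right zero_le h₁.le)
        exact (div_lt_one₀ (zero_lt_iff.mpr hvξ₁)).mpr this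
      have h3 : v (3 * ξ₁) < 1 := by
        rw [map_mul]
        exact lt_of_le_of_lt (mul_le_of_le_one_left zero_le (val_three_le v hv2)) h₁
      have h4 : v (2 * r * (r - ρ₁)) < 1 := by
        rw [map_mul, h2r, one_mul, Valuation.map_sub_swap]; exact hb₁
      have h5 : v (2 * (r ^ 2 - al)) < 1 := by
        rw [map_mul, hv2, one_mul]; exact hr
      have : v (2 * ρ₁ * (lam - r)) < 1 := by
        rw [key]; exact v.map_sub_lt (v.map_add_lt (v.map_add_lt h3 hbe) h4) h5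
      rwa [map_mul, map_mul, hv2, hρ₂, one_mul, one_mul] at this
    · have hl := h.lam_chord hne
      have hd : ξ₁ - ξ₂ ≠ 0 := sub_ne_zero.mpr hne
      have c₁ := h.c₁
      have c₂ := h.c₂
      have key : lam - ρ₂ = ξ₁ * (1 - be / (ξ₁ * ξ₂)) / (ρ₁ + ρ₂) := by
        rw [hl]
        field_simp
        grind
      have hbe : v (be / (ξ₁ * ξ₂)) < 1 := by
        rw [map_div₀, map_mul]
        exact (div_lt_one₀ hprod_pos).mpr hm
      have : v (lam - ρ₂) < 1 := by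
        rw [key, map_div₀, hS, div_one, map_mul, v.map_one_sub_of_lt hbe, mul_one]
        exact h₁
      have e : lam - r = (lam - ρ₂) + (ρ₂ - r) := by ring
      rw [e]; exact v.map_add_lt this hb₂
  have key : η₃ / ξ₃ - r =
      -(lam - r) + ((ρ₁ - r) + (ρ₂ - r)) + (ρ₁ + ρ₂) * (be / (ξ₁ * ξ₂ - be)) := by
    have : η₃ = ξ₃ * (-lam * (ξ₁ * ξ₂ - be) + ξ₁ * ξ₂ * (ρ₁ + ρ₂)) / (ξ₁ * ξ₂ - be) := by
      rw [eq_div_iff hDne]; exact hF4
    rw [this]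
    field_simp
    ring
  rw [key]
  refine v.map_add_lt (v.map_add_lt ?_ (v.map_add_lt hb₁ hb₂)) ?_
  · rw [Valuation.map_neg]; exact hlam
  · rw [map_mul, hS, one_mul]; exact hδ

/-- (E) The set `{1 ≤ v ξ}` is closed under addition when `v be < 1`. -/
theorem AddRel.e0_add (h : AddRel al be ξ₁ η₁ ξ₂ η₂ ξ₃ η₃ lam) (hv2 : v 2 = 1) (hal : v al ≤ 1)
    (hbe : v be < 1) (h₁ : 1 ≤ v ξ₁) (h₂ : 1 ≤ v ξ₂) : 1 ≤ v ξ₃ := by
  have h2 := two_ne_zero_of_val v hv2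
  have hξ₁pos : 0 < v ξ₁ := lt_of_lt_of_le zero_lt_one h₁
  have hξ₂pos : 0 < v ξ₂ := lt_of_lt_of_le zero_lt_one h₂
  have hξ₁ : ξ₁ ≠ 0 := (Valuation.ne_zero_iff v).mp hξ₁pos.ne'
  have hξ₂ : ξ₂ ≠ 0 := (Valuation.ne_zero_iff v).mp hξ₂pos.ne'
  obtain ⟨τ₁, rfl⟩ : ∃ τ, η₁ = τ * ξ₁ := ⟨η₁ / ξ₁, by field_simp⟩
  obtain ⟨τ₂, rfl⟩ : ∃ τ, η₂ = τ * ξ₂ := ⟨η₂ / ξ₂, by field_simp⟩
  have c₁ := h.c₁
  have c₂ := h.c₂
  have hτ1 : τ₁ ^ 2 = ξ₁ + al + be / ξ₁ := by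
    field_simp
    grind
  have hτ2 : τ₂ ^ 2 = ξ₂ + al + be / ξ₂ := by
    field_simp
    grind
  have hprodpos : 0 < v ξ₁ * v ξ₂ := mul_pos hξ₁pos hξ₂pos
  have hone : 1 ≤ v ξ₁ * v ξ₂ := one_le_mul_of_one_le_of_one_le h₁ h₂
  have hle1 : v ξ₁ ≤ v ξ₁ * v ξ₂ := by
    calc v ξ₁ = v ξ₁ * 1 := (mul_one _).symm
      _ ≤ v ξ₁ * v ξ₂ := mul_le_mul' le_rfl h₂
  have hle2 : v ξ₂ ≤ v ξ₁ * v ξ₂ := by
    calc v ξ₂ = 1 * v ξ₂ := (one_mul _).symm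
      _ ≤ v ξ₁ * v ξ₂ := mul_le_mul' h₁ le_rfl
  have hb1 : v (τ₁ ^ 2) ≤ v ξ₁ * v ξ₂ := by
    rw [hτ1]
    refine v.map_add_le (v.map_add_le hle1 (hal.trans hone)) ?_
    rw [map_div₀]
    exact ((div_le_one₀ hξ₁pos).mpr (hbe.le.trans h₁)).trans hone
  have hb2 : v (τ₂ ^ 2) ≤ v ξ₁ * v ξ₂ := by
    rw [hτ2]
    refine v.map_add_le (v.map_add_le hle2 (hal.trans hone)) ?_
    rw [map_div₀]
    exact ((div_le_one₀ hξ₂pos).mpr (hbe.le.trans h₂)).trans hone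
  have hw : v (τ₁ + τ₂) ^ 2 ≤ v ξ₁ * v ξ₂ := by
    rcases le_total (v τ₁) (v τ₂) with hle | hle
    · have : v (τ₁ + τ₂) ≤ v τ₂ := v.map_add_le hle le_rfl
      calc v (τ₁ + τ₂) ^ 2 ≤ v τ₂ ^ 2 := pow_le_pow_left₀ zero_le this 2
        _ = v (τ₂ ^ 2) := (map_pow v τ₂ 2).symm
        _ ≤ _ := hb2
    · have : v (τ₁ + τ₂) ≤ v τ₁ := v.map_add_le le_rfl hle
      calc v (τ₁ + τ₂) ^ 2 ≤ v τ₁ ^ 2 := pow_le_pow_left₀ zero_le this 2
        _ = v (τ₁ ^ 2) := (map_pow v τ₁ 2).symm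
        _ ≤ _ := hb1
  have hD : v (ξ₁ * ξ₂ - be) = v ξ₁ * v ξ₂ := by
    rw [Valuation.map_sub_eq_of_lt_left, map_mul]
    rw [map_mul]; exact hbe.trans_le hone
  have hF2 := h.F2 h2
  have hsum : τ₁ * ξ₁ * ξ₂ + τ₂ * ξ₂ * ξ₁ = ξ₁ * ξ₂ * (τ₁ + τ₂) := by ring
  rw [hsum] at hF2
  have hv := congrArg v hF2
  simp only [map_mul, map_pow, hD] at hv
  have hv' : v ξ₃ * v (τ₁ + τ₂) ^ 2 = v ξ₁ * v ξ₂ := by
    have e : v ξ₃ * (v ξ₁ * v ξ₂ * v (τ₁ + τ₂)) ^ 2 =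
        (v ξ₃ * v (τ₁ + τ₂) ^ 2) * (v ξ₁ * v ξ₂) ^ 2 := by
      rw [mul_pow]; ac_rfl
    rw [e] at hv
    exact mul_right_cancel₀ (pow_ne_zero 2 hprodpos.ne') hv
  by_contra hlt
  push Not at hlt
  have : v ξ₃ * v (τ₁ + τ₂) ^ 2 < v ξ₁ * v ξ₂ := by
    calc v ξ₃ * v (τ₁ + τ₂) ^ 2 ≤ v ξ₃ * (v ξ₁ * v ξ₂) := mul_le_mul' le_rfl hw
      _ < 1 * (v ξ₁ * v ξ₂) := mul_lt_mul_of_pos_right hlt hprodpos
      _ = v ξ₁ * v ξ₂ := one_mul _
  exact absurd hv' this.ne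

/-- (V6) Near-node congruence: if `(ξ₂, η₂)` (coordinates of the negative of the second
point) satisfies `v (ξ₁ - ξ₂) < v ξ₂`, `v (η₁ + η₂) < v η₂`, `v η₂ = v ξ₂ ≤ 1`, the sum lies
in the kernel of reduction. -/
theorem AddRel.node_cong (h : AddRel al be ξ₁ η₁ ξ₂ η₂ ξ₃ η₃ lam) (hv2 : v 2 = 1)
    (hal : v al ≤ 1) (h₂ : v ξ₂ ≤ 1) (hη₂ : v η₂ = v ξ₂)
    (hξ : v (ξ₁ - ξ₂) < v ξ₂) (hη : v (η₁ + η₂) < v η₂) : 1 < v ξ₃ := by
  have h2 := two_ne_zero_of_val v hv2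
  have hne : ξ₁ ≠ ξ₂ := by
    intro he
    obtain ⟨h12, -, -⟩ := h.lam_tangent h2 he
    rw [h12, ← two_mul, map_mul, hv2, one_mul] at hη
    exact lt_irrefl _ hη
  have hl : lam * (ξ₁ - ξ₂) = η₁ - η₂ := by
    rcases h.hlam with ⟨-, hl⟩ | ⟨he, -⟩
    · exact hl
    · exact absurd he hne
  have hnum : v (η₁ - η₂) = v η₂ := by
    have e : η₁ - η₂ = -(2 * η₂) + (η₁ + η₂) := by ring
    rw [e, Valuation.map_add_eq_of_lt_left, Valuation.map_neg, map_mul, hv2, one_mul]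
    rw [Valuation.map_neg, map_mul, hv2, one_mul]; exact hη
  have hdpos : 0 < v (ξ₁ - ξ₂) := (Valuation.pos_iff v).mpr (sub_ne_zero.mpr hne)
  have hlam : 1 < v lam := by
    have hv := congrArg v hl
    rw [map_mul, hnum, hη₂] at hv
    by_contra hle
    push Not at hle
    have : v lam * v (ξ₁ - ξ₂) < v ξ₂ := by
      calc v lam * v (ξ₁ - ξ₂) ≤ 1 * v (ξ₁ - ξ₂) := mul_le_mul' hle le_rfl
        _ = v (ξ₁ - ξ₂) := one_mul _
        _ < v ξ₂ := hξ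
    exact absurd hv this.ne
  have hlam2 : 1 < v (lam ^ 2) := by
    rw [map_pow]; exact one_lt_pow₀ hlam two_ne_zero
  have h₁ : v ξ₁ ≤ 1 := by
    have e : ξ₁ = ξ₂ + (ξ₁ - ξ₂) := by ring
    rw [e]; exact v.map_add_le h₂ (hξ.le.trans h₂)
  have e3 : ξ₃ = lam ^ 2 + (-al - ξ₁ - ξ₂) := by rw [h.hξ]; ring
  rw [e3, Valuation.map_add_eq_of_lt_left]
  · exact hlam2
  · refine lt_of_le_of_lt ?_ hlam2
    refine v.map_sub_le (v.map_sub_le ?_ h₁) h₂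
    rw [Valuation.map_neg]; exact hal

end field

section points

variable [DecidableEq K]
variable {v : Valuation K Γ₀} {W : WeierstrassCurve K} {e al be r : K}

/-- (V3') at point level. -/
theorem InMid.add' (hS : Shape W e al be) (hv2 : v 2 = 1) (hr : v (r ^ 2 - al) < 1)
    (hvr : v r = 1)
    {P₁ P₂ : W.toAffine.Point} {δ₁ δ₂ : Γ₀} (h₁ : InMid v W e r δ₁ P₁) (h₂ : InMid v W e r δ₂ P₂)
    (hδ₁ : δ₁ < 1) (hδ₂ : δ₂ < 1) (hm : v be < δ₁ * δ₂) :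
    InMid v W e r (δ₁ * δ₂) (P₁ + P₂) := by
  obtain ⟨ξ₁, η₁, hP₁, rfl, hb₁⟩ := h₁
  obtain ⟨ξ₂, η₂, hP₂, rfl, hb₂⟩ := h₂
  have hne : ¬(ξ₁ = ξ₂ ∧ η₁ = -η₂) := by
    rintro ⟨rfl, rfl⟩
    have h2r : v (2 * r) = 1 := by rw [map_mul, hv2, hvr, one_mul]
    have e2 : 2 * r = -((-η₂ / ξ₁ - r) + (η₂ / ξ₁ - r)) := by ring
    rw [e2, Valuation.map_neg] at h2r
    exact absurd (v.map_add_lt hb₁ hb₂) (not_lt.mpr h2r.ge)
  obtain ⟨ξ₃, η₃, lam, hP₃, hrel⟩ := hP₁.add hS hP₂ hne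
  obtain ⟨hval, hbr⟩ := hrel.mid_add' hv2 hr hvr hδ₁ hδ₂ hm hb₁ hb₂
  exact ⟨ξ₃, η₃, hP₃, hval, hbr⟩

/-- (E) at point level: `E₀` is closed under addition (multiplicative reduction). -/
theorem InE0.add (hS : Shape W e al be) (hv2 : v 2 = 1) (hal : v al ≤ 1) (hbe : v be < 1)
    {P Q : W.toAffine.Point} (hP : InE0 v W e P) (hQ : InE0 v W e Q) : InE0 v W e (P + Q) := by
  rcases hP with rfl | ⟨ξ₁, η₁, hP, hv₁⟩
  · rw [zero_add]; exact hQ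
  rcases hQ with rfl | ⟨ξ₂, η₂, hQ, hv₂⟩
  · rw [add_zero]; exact Or.inr ⟨ξ₁, η₁, hP, hv₁⟩
  by_cases hne : ξ₁ = ξ₂ ∧ η₁ = -η₂
  · obtain ⟨rfl, rfl⟩ := hne
    left
    have hQ' : IsPt W e Q ξ₁ (-(-η₂)) := by rw [neg_neg]; exact hQ
    exact hP.add_eq_zero hS.two_ne hQ'
  · obtain ⟨ξ₃, η₃, lam, hP₃, hrel⟩ := hP.add hS hQ hne
    exact Or.inr ⟨ξ₃, η₃, hP₃, hrel.e0_add hv2 hal hbe hv₁ hv₂⟩

theorem InE0.nsmul (hS : Shape W e al be) (hv2 : v 2 = 1) (hal : v al ≤ 1) (hbe : v be < 1)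
    {P : W.toAffine.Point} (hP : InE0 v W e P) (n : ℕ) : InE0 v W e (n • P) := by
  induction n with
  | zero => rw [zero_nsmul]; exact Or.inl rfl
  | succ n ih => rw [succ_nsmul]; exact InE0.add hS hv2 hal hbe ih hP

/-- Multiples of a 2-torsion element. -/
theorem nsmul_two_torsion {G : Type*} [AddCommGroup G] {T : G} (hTT : T + T = 0) (m : ℕ) :
    (2 * m) • T = 0 ∧ (2 * m + 1) • T = T := by
  have h0 : (2 * m) • T = 0 := by
    rw [mul_nsmul, two_nsmul, hTT, nsmul_zero]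
  exact ⟨h0, by rw [succ_nsmul, h0, zero_add]⟩

/-- The invariant of the induction, tracking the number of translations by `T`. -/
theorem mid_iter' (hS : Shape W e al be) (hv2 : v 2 = 1) (hr : v (r ^ 2 - al) < 1)
    (hvr : v r = 1)
    (hbe : be ≠ 0) {T : W.toAffine.Point} (hT : IsPt W e T 0 0)
    {P : W.toAffine.Point} {δ : Γ₀} (hP : InMid v W e r δ P) (hδ₁ : δ < 1) (hδ₂ : v be < δ)
    (j : ℕ) :
    ∃ (k : ℕ) (c : Γ₀) (Q : W.toAffine.Point), Q = j • P + k • T ∧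
      c * v be ^ k = δ ^ j ∧
      ((c = 1 ∧ InE0 v W e Q) ∨ (v be < c ∧ c < 1 ∧ InMid v W e r c Q)) := by
  have hβ : v be ≠ 0 := (Valuation.ne_zero_iff v).mpr hbe
  have hβpos : 0 < v be := zero_lt_iff.mpr hβ
  have hδne : δ ≠ 0 := (hβpos.trans hδ₂).ne'
  have hal : v al ≤ 1 := by
    have e1 : al = r ^ 2 - (r ^ 2 - al) := by ring
    have h1 : v (r ^ 2) = 1 := by rw [map_pow, hvr, one_pow]
    rw [e1, val_sub_eq_one v h1 hr]
  have hTT : T + T = 0 := T_add_T hS hT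
  have hr' : v ((-r) ^ 2 - al) < 1 := by rw [neg_sq]; exact hr
  have hvr' : v (-r) = 1 := by rw [Valuation.map_neg]; exact hvr
  induction j with
  | zero =>
    exact ⟨0, 1, 0, by simp, by simp, Or.inl ⟨rfl, Or.inl rfl⟩⟩
  | succ j ih =>
    obtain ⟨k, c, Q, hQ, hck, hcase⟩ := ih
    have hQ1 : Q + P = (j + 1) • P + k • T := by rw [hQ, succ_nsmul]; abel
    have hQ2 : Q + P + T = (j + 1) • P + (k + 1) • T := by
      rw [hQ, succ_nsmul, succ_nsmul]; abel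
    rcases hcase with ⟨rfl, hE0⟩ | ⟨hc₁, hc₂, hMid⟩
    · refine ⟨k, δ, Q + P, hQ1, ?_, Or.inr ⟨hδ₂, hδ₁, hE0.add_mid hS hv2 hal hP hδ₁ hδ₂⟩⟩
      rw [pow_succ, ← hck, one_mul, mul_comm]
    · have hcne : c ≠ 0 := (hβpos.trans hc₁).ne'
      rcases lt_trichotomy (v be) (c * δ) with hlt | heq | hgt
      · refine ⟨k, c * δ, Q + P, hQ1, ?_,
          Or.inr ⟨hlt, ?_, hMid.add' hS hv2 hr hvr hP hc₂ hδ₁ hlt⟩⟩
        · rw [pow_succ, ← hck]; ac_rfl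
        · calc c * δ < 1 * δ := mul_lt_mul_of_pos_right hc₂ (zero_lt_iff.mpr hδne)
            _ = δ := one_mul δ
            _ < 1 := hδ₁
      · obtain ⟨δ', hδ', hPT⟩ := hP.add_T hS hbe hT hδne
        have hδc : δ' = c := mul_right_cancel₀ hδne (hδ'.trans heq)
        subst hδc
        have hE := hMid.add_opp hS hv2 hvr hPT hcne
        have hpt : Q + (P + T) = Q + P + T := by abel
        rw [hpt] at hE
        refine ⟨k + 1, 1, Q + P + T, hQ2, ?_, Or.inl ⟨rfl, hE⟩⟩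
        rw [one_mul, pow_succ, pow_succ, ← hck, heq]; ac_rfl
      · obtain ⟨c₁, hc₁', hQT⟩ := hMid.add_T hS hbe hT hcne
        obtain ⟨δ₁, hδ₁', hPT⟩ := hP.add_T hS hbe hT hδne
        have hc₁ne : c₁ * δ₁ ≠ 0 := by
          intro h0
          have : (c₁ * c) * (δ₁ * δ) = 0 := by
            calc (c₁ * c) * (δ₁ * δ) = (c₁ * δ₁) * (c * δ) := by ac_rfl
              _ = 0 := by rw [h0, zero_mul]
          rw [hc₁', hδ₁'] at this
          exact hβ (mul_self_eq_zero.mp this)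
        obtain ⟨c₂, hc₂'', -⟩ : ∃ c₂ : Γ₀, c₂ * (c₁ * δ₁) = v be ∧ True :=
          ⟨v be / (c₁ * δ₁), div_mul_cancel₀ _ hc₁ne, trivial⟩
        obtain ⟨h1, h2, h3, h4, h5, h6⟩ := step_c_aux hβ hc₁ hδ₂ hgt hc₁' hδ₁' hc₂''
        have hsum := hQT.add' hS hv2 hr' hvr' hPT h1 h2 h3
        obtain ⟨c₂', hc₂', hfin⟩ := hsum.add_T hS hbe hT hc₁ne
        have hc22 : c₂' = c₂ := mul_right_cancel₀ hc₁ne (hc₂'.trans hc₂''.symm)
        subst hc22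
        rw [neg_neg] at hfin
        have hpt : Q + T + (P + T) + T = Q + P + T := by
          have : Q + T + (P + T) + T = Q + P + T + (T + T) := by abel
          rw [this, hTT, add_zero]
        rw [hpt] at hfin
        refine ⟨k + 1, c₂', Q + P + T, hQ2, ?_, Or.inr ⟨h4, h5, hfin⟩⟩
        rw [pow_succ, pow_succ, ← hck]
        calc c₂' * (v be ^ k * v be) = (c₂' * v be) * v be ^ k := by ac_rfl
          _ = (c * δ) * v be ^ k := by rw [h6]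
          _ = c * v be ^ k * δ := by ac_rfl

/-- Torsion points in the middle region: `δ ^ n = v be ^ (2 m)` for some `m`. -/
theorem mid_torsion' (hS : Shape W e al be) (hv2 : v 2 = 1) (hr : v (r ^ 2 - al) < 1)
    (hvr : v r = 1)
    (hbe : be ≠ 0) {T : W.toAffine.Point} (hT : IsPt W e T 0 0)
    {P : W.toAffine.Point} {δ : Γ₀} (hP : InMid v W e r δ P) (hδ₁ : δ < 1) (hδ₂ : v be < δ)
    (n : ℕ) (hn : n • P = 0) : ∃ m : ℕ, δ ^ n = v be ^ (2 * m) := by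
  obtain ⟨k, c, Q, hQ, hck, hcase⟩ := mid_iter' hS hv2 hr hvr hbe hT hP hδ₁ hδ₂ n
  rw [hn, zero_add] at hQ
  have hTT : T + T = 0 := T_add_T hS hT
  have hT0 : ¬ InE0 v W e T := by
    rintro (h0 | ⟨ξ, η, hTpt, hv⟩)
    · exact hT.ne_zero h0
    · obtain ⟨hξ0, -⟩ := hTpt.unique hT
      rw [hξ0, map_zero] at hv
      exact absurd hv (not_le.mpr zero_lt_one)
  obtain ⟨m, rfl | rfl⟩ := Nat.even_or_odd' k
  · rw [(nsmul_two_torsion hTT m).1] at hQ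
    rcases hcase with ⟨rfl, -⟩ | ⟨-, -, ξ, η, hQpt, -, -⟩
    · exact ⟨m, by rw [← hck, one_mul]⟩
    · exact absurd hQ hQpt.ne_zero
  · rw [(nsmul_two_torsion hTT m).2] at hQ
    subst hQ
    rcases hcase with ⟨-, hE⟩ | ⟨hc₁, -, ξ, η, hQpt, hvξ, -⟩
    · exact absurd hE hT0
    · exfalso
      obtain ⟨h0, -⟩ := hQpt.unique hT
      rw [h0, map_zero] at hvξ
      rw [← hvξ] at hc₁
      exact not_lt_zero hc₁

/-- **NODEVAL** (board row 131): no hypothesis on the kernel of reduction is needed. -/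
theorem nodeVal : helper5.NodeValStmt := by
  intro K _ _ Γ₀ _ v W e al be hS hv2 hal hbe hbe0 p hp hp2 hvp x y h hξ hpP
  obtain ⟨T, hT⟩ := exists_T hS hbe0
  have hTT := T_add_T hS hT
  have hP : IsPt W e (Point.some x y h) (x - e) (eta W x y) := ⟨x, y, h, rfl, rfl, rfl⟩
  have hcurve := hP.curve hS
  have hβpos : 0 < v be := (Valuation.pos_iff v).mpr hbe0
  have hT0 : ¬ InE0 v W e T := by
    rintro (h0 | ⟨ξ, η, hTpt, hv⟩)
    · exact hT.ne_zero h0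
    · obtain ⟨hξ0, -⟩ := hTpt.unique hT
      rw [hξ0, map_zero] at hv
      exact absurd hv (not_le.mpr zero_lt_one)
  have hpT : p • T = T := by
    obtain ⟨m, rfl⟩ := hp.odd_of_ne_two hp2
    exact (nsmul_two_torsion hTT m).2
  have hA : v be < v (x - e) := by
    by_contra hle
    push Not at hle
    by_cases h0 : x - e = 0
    · have hη0 : eta W x y = 0 := by
        rw [h0] at hcurve
        simpa using hcurve
      have hP' : IsPt W e (Point.some x y h) 0 0 := by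
        rw [h0, hη0] at hP; exact hP
      have hPT : Point.some x y h = T := hP'.ext hT
      rw [hPT, hpT] at hpP
      exact hT.ne_zero hpP
    · have hne : ¬(x - e = 0 ∧ eta W x y = -0) := fun hh => h0 hh.1
      obtain ⟨ξ₃, η₃, lam, hP₃, hrel⟩ := hP.add hS hT hne
      obtain ⟨h1, -⟩ := hrel.add_T h0
      have hξpos : 0 < v (x - e) := (Valuation.pos_iff v).mpr h0
      have hE0 : InE0 v W e (Point.some x y h + T) :=
        Or.inr ⟨ξ₃, η₃, hP₃, by rw [h1, map_div₀]; exact (one_le_div₀ hξpos).mpr hle⟩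
      have hE := InE0.nsmul hS hv2 hal.le hbe hE0 p
      rw [nsmul_add, hpP, zero_add, hpT] at hE
      exact hT0 hE
  refine ⟨hA, ?_⟩
  have hξpos : 0 < v (x - e) := hβpos.trans hA
  have hξ0 : x - e ≠ 0 := (Valuation.pos_iff v).mp hξpos
  have hr2 : (eta W x y / (x - e)) ^ 2 - al = (x - e) + be / (x - e) := by
    rw [div_pow, hcurve]
    field_simp
    ring
  have hbeξ : v (be / (x - e)) < 1 := by
    rw [map_div₀]; exact (div_lt_one₀ hξpos).mpr hA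
  have hr : v ((eta W x y / (x - e)) ^ 2 - al) < 1 := by
    rw [hr2]; exact v.map_add_lt hξ hbeξ
  have hvr : v (eta W x y / (x - e)) = 1 := by
    apply val_eq_one_of_sq v
    have e1 : (eta W x y / (x - e)) ^ 2 = al + ((eta W x y / (x - e)) ^ 2 - al) := by ring
    rw [e1]; exact val_add_eq_one v hal hr
  have hMid : InMid v W e (eta W x y / (x - e)) (v (x - e)) (Point.some x y h) :=
    ⟨x - e, eta W x y, hP, rfl, by rw [sub_self, map_zero]; exact zero_lt_one⟩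
  obtain ⟨m, hm⟩ := mid_torsion' hS hv2 hr hvr hbe0 hT hMid hξ hA p hpP
  refine ⟨(m : ℤ), ?_⟩
  rw [hm]
  have e2 : (2 * (m : ℤ)) = ((2 * m : ℕ) : ℤ) := by push_cast; ring
  rw [e2, zpow_natCast]

end points

end Fermat.Agent.S05.helper305
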