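import Fermat.Agent.S05.helper305_Val

/-!
# Point-level lemmas in shape coordinates (helper305, S05)

`IsPt W e P ξ η`: the point `P` of `W` is affine with shape coordinates `(ξ, η)`.
Regions `InE1`, `InE0`, `InMid` and their behaviour under addition; the torsion lemma
`mid_torsion` for points in the middle region.
-/

set_option linter.unusedSectionVars false

namespace Fermat.Agent.S05.helper305

open WeierstrassCurve WeierstrassCurve.Affine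

variable {K : Type*} [Field K] [DecidableEq K]
variable {Γ₀ : Type*} [LinearOrderedCommGroupWithZero Γ₀]

/-- `P` is the affine point with shape coordinates `ξ = x - e`, `η = y + (a₁ x + a₃)/2`. -/
def IsPt (W : WeierstrassCurve K) (e : K) (P : W.toAffine.Point) (ξ η : K) : Prop :=
  ∃ (x y : K) (h : W.toAffine.Nonsingular x y), P = Point.some x y h ∧ ξ = x - e ∧ η = eta W x y

section basic

variable {W : WeierstrassCurve K} {e al be : K}

theorem IsPt.ne_zero {P : W.toAffine.Point} {ξ η : K} (h : IsPt W e P ξ η) : P ≠ 0 := by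
  obtain ⟨x, y, hxy, rfl, -, -⟩ := h
  exact Point.some_ne_zero hxy

theorem exists_isPt_of_ne_zero {P : W.toAffine.Point} (h : P ≠ 0) : ∃ ξ η, IsPt W e P ξ η := by
  rcases P with _ | ⟨x, y, hxy⟩
  · exact absurd rfl h
  · exact ⟨x - e, eta W x y, x, y, hxy, rfl, rfl, rfl⟩

theorem IsPt.unique {P : W.toAffine.Point} {ξ η ξ' η' : K} (h : IsPt W e P ξ η)
    (h' : IsPt W e P ξ' η') : ξ = ξ' ∧ η = η' := by
  obtain ⟨x, y, hxy, rfl, rfl, rfl⟩ := h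
  obtain ⟨x', y', hxy', hP, rfl, rfl⟩ := h'
  rw [Point.some.injEq] at hP
  obtain ⟨rfl, rfl⟩ := hP
  exact ⟨rfl, rfl⟩

theorem IsPt.ext {P Q : W.toAffine.Point} {ξ η : K} (h : IsPt W e P ξ η)
    (h' : IsPt W e Q ξ η) : P = Q := by
  obtain ⟨x, y, hxy, rfl, hξ, hη⟩ := h
  obtain ⟨x', y', hxy', rfl, hξ', hη'⟩ := h'
  have hx : x = x' := by
    have := hξ.symm.trans hξ'
    exact sub_left_injective this
  subst hx
  have hy : y = y' := by
    have := hη.symm.trans hη'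
    simp only [eta] at this
    exact add_right_cancel this
  subst hy
  rfl

theorem IsPt.neg (h2 : (2 : K) ≠ 0) {P : W.toAffine.Point} {ξ η : K} (h : IsPt W e P ξ η) :
    IsPt W e (-P) ξ (-η) := by
  obtain ⟨x, y, hxy, rfl, rfl, rfl⟩ := h
  exact ⟨x, W.toAffine.negY x y, (nonsingular_neg ..).mpr hxy, Point.neg_some hxy, rfl,
    (eta_negY W h2 x y).symm⟩

theorem IsPt.curve (hS : Shape W e al be) {P : W.toAffine.Point} {ξ η : K}
    (h : IsPt W e P ξ η) : η ^ 2 = ξ * (ξ ^ 2 + al * ξ + be) := by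
  obtain ⟨x, y, hxy, rfl, rfl, rfl⟩ := h
  exact (hS.equation_iff x y).1 hxy.1

/-- Addition of two affine points which are not negatives of each other. -/
theorem IsPt.add (hS : Shape W e al be) {P₁ P₂ : W.toAffine.Point} {ξ₁ η₁ ξ₂ η₂ : K}
    (h₁ : IsPt W e P₁ ξ₁ η₁) (h₂ : IsPt W e P₂ ξ₂ η₂) (hne : ¬(ξ₁ = ξ₂ ∧ η₁ = -η₂)) :
    ∃ ξ₃ η₃ lam, IsPt W e (P₁ + P₂) ξ₃ η₃ ∧ AddRel al be ξ₁ η₁ ξ₂ η₂ ξ₃ η₃ lam := by
  obtain ⟨x₁, y₁, hxy₁, rfl, rfl, rfl⟩ := h₁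
  obtain ⟨x₂, y₂, hxy₂, rfl, rfl, rfl⟩ := h₂
  have hne' : ¬(x₁ = x₂ ∧ y₁ = W.toAffine.negY x₂ y₂) := by
    rintro ⟨rfl, rfl⟩
    exact hne ⟨rfl, eta_negY W hS.two_ne _ _⟩
  obtain ⟨x₃, y₃, h₃, lam, hsum, hrel⟩ := hS.add_some_rel hxy₁ hxy₂ hne'
  exact ⟨x₃ - e, eta W x₃ y₃, lam, ⟨x₃, y₃, h₃, hsum, rfl, rfl⟩, hrel⟩

/-- Two affine points which are negatives of each other add to zero. -/
theorem IsPt.add_eq_zero (h2 : (2 : K) ≠ 0) {P₁ P₂ : W.toAffine.Point} {ξ η : K}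
    (h₁ : IsPt W e P₁ ξ η) (h₂ : IsPt W e P₂ ξ (-η)) : P₁ + P₂ = 0 := by
  have h₂' := h₂.neg h2
  rw [neg_neg] at h₂'
  have : P₁ = -P₂ := h₁.ext h₂'
  rw [this, neg_add_cancel]

/-- Existence of the affine point with given shape coordinates `(ξ, η)`, `η ≠ 0`. -/
theorem exists_isPt (hS : Shape W e al be) {ξ η : K}
    (hc : η ^ 2 = ξ * (ξ ^ 2 + al * ξ + be)) (hη : η ≠ 0) :
    ∃ P : W.toAffine.Point, IsPt W e P ξ η := by
  have h2 := hS.two_ne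
  have hη' : eta W (ξ + e) (η - (W.a₁ * (ξ + e) + W.a₃) / 2) = η := by
    simp only [eta]; ring
  have hx : ξ + e - e = ξ := by ring
  have heq : W.toAffine.Equation (ξ + e) (η - (W.a₁ * (ξ + e) + W.a₃) / 2) := by
    rw [hS.equation_iff, hη', hx]; exact hc
  have hns : W.toAffine.Nonsingular (ξ + e) (η - (W.a₁ * (ξ + e) + W.a₃) / 2) := by
    rw [Affine.nonsingular_iff']
    refine ⟨heq, Or.inr ?_⟩
    have := two_mul_eta W h2 (ξ + e) (η - (W.a₁ * (ξ + e) + W.a₃) / 2)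
    rw [hη'] at this
    rw [← this]
    exact mul_ne_zero h2 hη
  exact ⟨Point.some _ _ hns, _, _, hns, rfl, hx.symm, hη'.symm⟩

/-- The 2-torsion point `T` with shape coordinates `(0, 0)`. -/
theorem exists_T (hS : Shape W e al be) (hbe : be ≠ 0) :
    ∃ T : W.toAffine.Point, IsPt W e T 0 0 := by
  have h2 := hS.two_ne
  have hb2 := hS.hb2
  have hb4 := hS.hb4
  simp only [WeierstrassCurve.b₂, WeierstrassCurve.b₄] at hb2 hb4
  have hη' : eta W e (-(W.a₁ * e + W.a₃) / 2) = 0 := by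
    simp only [eta]; ring
  have heq : W.toAffine.Equation e (-(W.a₁ * e + W.a₃) / 2) := by
    rw [hS.equation_iff, hη']; ring
  have hns : W.toAffine.Nonsingular e (-(W.a₁ * e + W.a₃) / 2) := by
    rw [Affine.nonsingular_iff']
    refine ⟨heq, Or.inl ?_⟩
    intro h0
    apply hbe
    have h4 : (4 : K) ≠ 0 := by
      have : (4 : K) = 2 * 2 := by norm_num
      rw [this]; exact mul_ne_zero h2 h2
    have h0' : 2 * (W.toAffine.a₁ * (-(W.toAffine.a₁ * e + W.toAffine.a₃) / 2) -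
        (3 * e ^ 2 + 2 * W.toAffine.a₂ * e + W.toAffine.a₄)) = 0 := by rw [h0, mul_zero]
    have h0'' : -(W.a₁ * (W.a₁ * e + W.a₃)) - 2 * (3 * e ^ 2 + 2 * W.a₂ * e + W.a₄) = 0 := by
      rw [← h0']; field_simp
    apply mul_left_cancel₀ h2
    linear_combination (-1 : K) * h0'' - e * hb2 - hb4
  exact ⟨Point.some _ _ hns, _, _, hns, rfl, (sub_self e).symm, hη'.symm⟩

end basic

section regions

variable (v : Valuation K Γ₀) (W : WeierstrassCurve K) (e : K)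

/-- Kernel of reduction: `P = 0` or `1 < v ξ`. -/
def InE1 (P : W.toAffine.Point) : Prop := P = 0 ∨ ∃ ξ η, IsPt W e P ξ η ∧ 1 < v ξ

/-- `P = 0` or `1 ≤ v ξ`. -/
def InE0 (P : W.toAffine.Point) : Prop := P = 0 ∨ ∃ ξ η, IsPt W e P ξ η ∧ 1 ≤ v ξ

/-- Middle region: affine with `v ξ = δ` on the branch `η/ξ ≡ r`. -/
def InMid (r : K) (δ : Γ₀) (P : W.toAffine.Point) : Prop :=
  ∃ ξ η, IsPt W e P ξ η ∧ v ξ = δ ∧ v (η / ξ - r) < 1

variable {v W e}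
variable {al be r : K}

theorem InE1.inE0 {P : W.toAffine.Point} (h : InE1 v W e P) : InE0 v W e P := by
  rcases h with h | ⟨ξ, η, hP, hv⟩
  · exact Or.inl h
  · exact Or.inr ⟨ξ, η, hP, hv.le⟩

/-- (V3) at point level. -/
theorem InMid.add (hS : Shape W e al be) (hv2 : v 2 = 1) (hr : r ^ 2 = al) (hvr : v r = 1)
    {P₁ P₂ : W.toAffine.Point} {δ₁ δ₂ : Γ₀} (h₁ : InMid v W e r δ₁ P₁) (h₂ : InMid v W e r δ₂ P₂)
    (hδ₁ : δ₁ < 1) (hδ₂ : δ₂ < 1) (hm : v be < δ₁ * δ₂) :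
    InMid v W e r (δ₁ * δ₂) (P₁ + P₂) := by
  obtain ⟨ξ₁, η₁, hP₁, rfl, hb₁⟩ := h₁
  obtain ⟨ξ₂, η₂, hP₂, rfl, hb₂⟩ := h₂
  have hne : ¬(ξ₁ = ξ₂ ∧ η₁ = -η₂) := by
    rintro ⟨rfl, rfl⟩
    have h2r : v (2 * r) = 1 := by rw [map_mul, hv2, hvr, one_mul]
    have e2 : 2 * r = -((-η₂ / ξ₁ - r) + (η₂ / ξ₁ - r)) := by ring
    rw [e2, Valuation.map_neg] at h2r
    exact absurd (v.map_add_lt hb₁ hb₂) (not_lt.mpr h2r.ge)
  obtain ⟨ξ₃, η₃, lam, hP₃, hrel⟩ := hP₁.add hS hP₂ hne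
  obtain ⟨hval, hbr⟩ := hrel.mid_add hv2 hr hvr hδ₁ hδ₂ hm hb₁ hb₂
  exact ⟨ξ₃, η₃, hP₃, hval, hbr⟩

/-- (V4) at point level. -/
theorem InMid.add_opp (hS : Shape W e al be) (hv2 : v 2 = 1) (hvr : v r = 1)
    {P₁ P₂ : W.toAffine.Point} {δ : Γ₀} (h₁ : InMid v W e r δ P₁) (h₂ : InMid v W e (-r) δ P₂)
    (hδ : δ ≠ 0) : InE0 v W e (P₁ + P₂) := by
  obtain ⟨ξ₁, η₁, hP₁, hv₁, hb₁⟩ := h₁
  obtain ⟨ξ₂, η₂, hP₂, hv₂, hb₂⟩ := h₂
  rw [sub_neg_eq_add] at hb₂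
  by_cases hne : ξ₁ = ξ₂ ∧ η₁ = -η₂
  · obtain ⟨rfl, rfl⟩ := hne
    left
    have hP₂' : IsPt W e P₂ ξ₁ (-(-η₂)) := by rw [neg_neg]; exact hP₂
    exact hP₁.add_eq_zero hS.two_ne hP₂'
  · obtain ⟨ξ₃, η₃, lam, hP₃, hrel⟩ := hP₁.add hS hP₂ hne
    have h0 : ξ₁ ≠ 0 := by
      rw [← Valuation.ne_zero_iff v, hv₁]; exact hδ
    exact Or.inr ⟨ξ₃, η₃, hP₃, hrel.mid_add_opp hv2 hvr h0 (hv₁.trans hv₂.symm) hb₁ hb₂⟩

/-- (V5) at point level. -/
theorem InE0.add_mid (hS : Shape W e al be) (hv2 : v 2 = 1) (hal : v al ≤ 1)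
    {Q P : W.toAffine.Point} {δ : Γ₀} (hQ : InE0 v W e Q) (hP : InMid v W e r δ P)
    (hδ : δ < 1) (hm : v be < δ) : InMid v W e r δ (Q + P) := by
  rcases hQ with rfl | ⟨ξ₁, η₁, hQ, hv₁⟩
  · rw [zero_add]; exact hP
  · obtain ⟨ξ₂, η₂, hP₂, rfl, hb₂⟩ := hP
    have hne : ¬(ξ₁ = ξ₂ ∧ η₁ = -η₂) := by
      rintro ⟨rfl, -⟩
      exact absurd hδ (not_lt.mpr hv₁)
    obtain ⟨ξ₃, η₃, lam, hP₃, hrel⟩ := hQ.add hS hP₂ hne
    obtain ⟨hval, hbr⟩ := hrel.e0_add_mid hv2 hal hv₁ hδ hm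
    refine ⟨ξ₃, η₃, hP₃, hval, ?_⟩
    have e3 : η₃ / ξ₃ - r = (η₃ / ξ₃ - η₂ / ξ₂) + (η₂ / ξ₂ - r) := by ring
    rw [e3]; exact v.map_add_lt hbr hb₂

/-- (F1) at point level: translation by `T` sends the middle region to itself, swapping
branches and inverting the depth. -/
theorem InMid.add_T (hS : Shape W e al be) (hbe : be ≠ 0) {T : W.toAffine.Point}
    (hT : IsPt W e T 0 0) {P : W.toAffine.Point} {δ : Γ₀} (hP : InMid v W e r δ P)
    (hδ : δ ≠ 0) : ∃ δ', δ' * δ = v be ∧ InMid v W e (-r) δ' (P + T) := by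
  obtain ⟨ξ, η, hP, rfl, hb⟩ := hP
  have h0 : ξ ≠ 0 := (Valuation.ne_zero_iff v).mp hδ
  have hne : ¬(ξ = 0 ∧ η = -0) := fun h => h0 h.1
  obtain ⟨ξ₃, η₃, lam, hP₃, hrel⟩ := hP.add hS hT hne
  obtain ⟨h1, h2⟩ := hrel.add_T h0
  refine ⟨v ξ₃, ?_, ξ₃, η₃, hP₃, rfl, ?_⟩
  · rw [h1, map_div₀, div_mul_cancel₀ _ hδ]
  · have e3 : η₃ / ξ₃ - -r = -(η / ξ - r) := by
      rw [h1, h2]
      field_simp
      ring
    rw [e3, Valuation.map_neg]; exact hb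

/-- `T + T = 0`. -/
theorem T_add_T (hS : Shape W e al be) {T : W.toAffine.Point} (hT : IsPt W e T 0 0) :
    T + T = 0 := by
  have hT' : IsPt W e T 0 (-0) := by rw [neg_zero]; exact hT
  exact hT.add_eq_zero hS.two_ne hT'

end regions

section iteration

/-- Value-group bookkeeping for the wrap-around step. -/
theorem step_c_aux {β c δ c₁ δ₁ c₂ : Γ₀} (hβ : β ≠ 0) (hc : β < c) (hδ : β < δ)
    (hcδ : c * δ < β) (h1 : c₁ * c = β) (h2 : δ₁ * δ = β) (h3 : c₂ * (c₁ * δ₁) = β) :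
    c₁ < 1 ∧ δ₁ < 1 ∧ β < c₁ * δ₁ ∧ β < c₂ ∧ c₂ < 1 ∧ c₂ * β = c * δ := by
  have hβpos : 0 < β := zero_lt_iff.mpr hβ
  have hcpos : 0 < c := hβpos.trans hc
  have hδpos : 0 < δ := hβpos.trans hδ
  have hc₁ : c₁ < 1 := by
    apply lt_of_mul_lt_mul_right (a := c) _ zero_le
    rw [h1, one_mul]; exact hc
  have hδ₁ : δ₁ < 1 := by
    apply lt_of_mul_lt_mul_right (a := δ) _ zero_le
    rw [h2, one_mul]; exact hδ
  have key : (c₁ * δ₁) * (c * δ) = β * β := by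
    calc (c₁ * δ₁) * (c * δ) = (c₁ * c) * (δ₁ * δ) := by ac_rfl
      _ = β * β := by rw [h1, h2]
  have h4 : β < c₁ * δ₁ := by
    apply lt_of_mul_lt_mul_right (a := c * δ) _ zero_le
    rw [key]
    exact mul_lt_mul_of_pos_left hcδ hβpos
  have h5 : c₂ * β = c * δ := by
    have : (c₂ * β) * β = (c * δ) * β := by
      calc (c₂ * β) * β = c₂ * (β * β) := by ac_rfl
        _ = c₂ * ((c₁ * δ₁) * (c * δ)) := by rw [key]
        _ = (c₂ * (c₁ * δ₁)) * (c * δ) := by ac_rfl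
        _ = β * (c * δ) := by rw [h3]
        _ = (c * δ) * β := by ac_rfl
    exact mul_right_cancel₀ hβ this
  have h6 : c₂ < 1 := by
    apply lt_of_mul_lt_mul_right (a := β) _ zero_le
    rw [h5, one_mul]; exact hcδ
  have h7 : β < c₂ := by
    apply lt_of_mul_lt_mul_right (a := β) _ zero_le
    rw [h5]
    exact mul_lt_mul'' hc hδ zero_le zero_le
  exact ⟨hc₁, hδ₁, h4, h7, h6, h5⟩

theorem iter_pt_aux {G : Type*} [AddCommGroup G] {P T Q : G} (hTT : T + T = 0) (j : ℕ)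
    (hQ : Q = j • P ∨ Q = j • P + T) :
    (Q + P = (j + 1) • P ∨ Q + P = (j + 1) • P + T) ∧
    (Q + P + T = (j + 1) • P ∨ Q + P + T = (j + 1) • P + T) := by
  rcases hQ with rfl | rfl
  · exact ⟨Or.inl (succ_nsmul P j).symm, Or.inr (by rw [succ_nsmul])⟩
  · refine ⟨Or.inr ?_, Or.inl ?_⟩
    · rw [succ_nsmul]; abel
    · have : j • P + T + P + T = (j • P + P) + (T + T) := by abel
      rw [this, hTT, add_zero, succ_nsmul]

variable {v : Valuation K Γ₀} {W : WeierstrassCurve K} {e al be r : K}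

/-- The invariant of the induction: the multiples of a point of the middle region move
through the regions like the multiples of its depth modulo `v be`. -/
theorem mid_iter (hS : Shape W e al be) (hv2 : v 2 = 1) (hr : r ^ 2 = al) (hvr : v r = 1)
    (hbe : be ≠ 0) {T : W.toAffine.Point} (hT : IsPt W e T 0 0)
    {P : W.toAffine.Point} {δ : Γ₀} (hP : InMid v W e r δ P) (hδ₁ : δ < 1) (hδ₂ : v be < δ)
    (j : ℕ) :
    ∃ (k : ℕ) (c : Γ₀) (Q : W.toAffine.Point), (Q = j • P ∨ Q = j • P + T) ∧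
      c * v be ^ k = δ ^ j ∧
      ((c = 1 ∧ InE0 v W e Q) ∨ (v be < c ∧ c < 1 ∧ InMid v W e r c Q)) := by
  have hβ : v be ≠ 0 := (Valuation.ne_zero_iff v).mpr hbe
  have hβpos : 0 < v be := zero_lt_iff.mpr hβ
  have hδne : δ ≠ 0 := (hβpos.trans hδ₂).ne'
  have hal : v al ≤ 1 := by rw [← hr, map_pow, hvr, one_pow]
  have hTT : T + T = 0 := T_add_T hS hT
  have hr' : (-r) ^ 2 = al := by rw [neg_sq]; exact hr
  have hvr' : v (-r) = 1 := by rw [Valuation.map_neg]; exact hvr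
  induction j with
  | zero =>
    exact ⟨0, 1, 0, Or.inl (by simp), by simp, Or.inl ⟨rfl, Or.inl rfl⟩⟩
  | succ j ih =>
    obtain ⟨k, c, Q, hQ, hck, hcase⟩ := ih
    obtain ⟨hQ1, hQ2⟩ := iter_pt_aux hTT j hQ
    rcases hcase with ⟨rfl, hE0⟩ | ⟨hc₁, hc₂, hMid⟩
    · refine ⟨k, δ, Q + P, hQ1, ?_, Or.inr ⟨hδ₂, hδ₁, hE0.add_mid hS hv2 hal hP hδ₁ hδ₂⟩⟩
      rw [pow_succ, ← hck, one_mul, mul_comm]
    · have hcne : c ≠ 0 := (hβpos.trans hc₁).ne'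
      rcases lt_trichotomy (v be) (c * δ) with hlt | heq | hgt
      · refine ⟨k, c * δ, Q + P, hQ1, ?_, Or.inr ⟨hlt, ?_, hMid.add hS hv2 hr hvr hP hc₂ hδ₁ hlt⟩⟩
        · rw [pow_succ, ← hck]; ac_rfl
        · calc c * δ < 1 * δ := mul_lt_mul_of_pos_right hc₂ (zero_lt_iff.mpr hδne)
            _ = δ := one_mul δ
            _ < 1 := hδ₁
      · obtain ⟨δ', hδ', hPT⟩ := hP.add_T hS hbe hT hδne
        have hδc : δ' = c := mul_right_cancel₀ hδne (hδ'.trans heq)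
        subst hδc
        have hE := hMid.add_opp hS hv2 hvr hPT hcne
        have hpt : Q + (P + T) = Q + P + T := by abel
        rw [hpt] at hE
        refine ⟨k + 1, 1, Q + P + T, hQ2, ?_, Or.inl ⟨rfl, hE⟩⟩
        rw [one_mul, pow_succ, pow_succ, ← hck, heq]; ac_rfl
      · obtain ⟨c₁, hc₁', hQT⟩ := hMid.add_T hS hbe hT hcne
        obtain ⟨δ₁, hδ₁', hPT⟩ := hP.add_T hS hbe hT hδne
        have hc₁ne : c₁ * δ₁ ≠ 0 := by
          intro h0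
          have : (c₁ * c) * (δ₁ * δ) = 0 := by
            calc (c₁ * c) * (δ₁ * δ) = (c₁ * δ₁) * (c * δ) := by ac_rfl
              _ = 0 := by rw [h0, zero_mul]
          rw [hc₁', hδ₁'] at this
          exact hβ (mul_self_eq_zero.mp this)
        obtain ⟨c₂, hc₂'', -⟩ : ∃ c₂ : Γ₀, c₂ * (c₁ * δ₁) = v be ∧ True :=
          ⟨v be / (c₁ * δ₁), div_mul_cancel₀ _ hc₁ne, trivial⟩
        obtain ⟨h1, h2, h3, h4, h5, h6⟩ := step_c_aux hβ hc₁ hδ₂ hgt hc₁' hδ₁' hc₂''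
        have hsum := hQT.add hS hv2 hr' hvr' hPT h1 h2 h3
        obtain ⟨c₂', hc₂', hfin⟩ := hsum.add_T hS hbe hT hc₁ne
        have hc22 : c₂' = c₂ := mul_right_cancel₀ hc₁ne (hc₂'.trans hc₂''.symm)
        subst hc22
        rw [neg_neg] at hfin
        have hpt : Q + T + (P + T) + T = Q + P + T := by
          have : Q + T + (P + T) + T = Q + P + T + (T + T) := by abel
          rw [this, hTT, add_zero]
        rw [hpt] at hfin
        refine ⟨k + 1, c₂', Q + P + T, hQ2, ?_, Or.inr ⟨h4, h5, hfin⟩⟩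
        rw [pow_succ, pow_succ, ← hck]
        calc c₂' * (v be ^ k * v be) = (c₂' * v be) * v be ^ k := by ac_rfl
          _ = (c * δ) * v be ^ k := by rw [h6]
          _ = c * v be ^ k * δ := by ac_rfl

/-- Torsion points in the middle region: `δ ^ n = v be ^ k` for some `k`. -/
theorem mid_torsion (hS : Shape W e al be) (hv2 : v 2 = 1) (hr : r ^ 2 = al) (hvr : v r = 1)
    (hbe : be ≠ 0) {T : W.toAffine.Point} (hT : IsPt W e T 0 0)
    {P : W.toAffine.Point} {δ : Γ₀} (hP : InMid v W e r δ P) (hδ₁ : δ < 1) (hδ₂ : v be < δ)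
    (n : ℕ) (hn : n • P = 0) : ∃ k : ℕ, δ ^ n = v be ^ k := by
  obtain ⟨k, c, Q, hQ, hck, hcase⟩ := mid_iter hS hv2 hr hvr hbe hT hP hδ₁ hδ₂ n
  rw [hn] at hQ
  rcases hcase with ⟨rfl, -⟩ | ⟨hc₁, -, ξ, η, hQpt, hvξ, -⟩
  · exact ⟨k, by rw [← hck, one_mul]⟩
  · exfalso
    rcases hQ with rfl | hQ
    · exact hQpt.ne_zero rfl
    · rw [zero_add] at hQ
      subst hQ
      obtain ⟨h0, -⟩ := hQpt.unique hT
      rw [h0, map_zero] at hvξ
      rw [← hvξ] at hc₁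
      exact not_lt_zero hc₁

end iteration

end Fermat.Agent.S05.helper305
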