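import Fermat.Agent.S05.helper305_Formulas

/-!
# Kernel of reduction in shape coordinates: closure and additivity of `t = ξ/η` (helper3098, S05)

Board row 61 (S05-V1), `AddRel` form.  `v` is an arbitrary valuation on the field `K`
(multiplicative notation); the kernel of reduction is `{1 < v ξ}`.

Main result `e1_add`: if two points of the kernel of reduction are related to a third one by
the chord–tangent relation `AddRel`, then the third lies in the kernel of reduction, and the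
parameter `t = ξ/η` is additive up to a strictly smaller error.
-/

namespace Fermat.Agent.S05.helper3098

open Fermat.Agent.S05.helper305

variable {K : Type*} [Field K]

section identity

variable {al be ξ₁ η₁ ξ₂ η₂ ξ₃ η₃ lam : K}

/-- The exact identity behind the additivity of `t = ξ/η` modulo higher order terms. -/
theorem key_identity (h : AddRel al be ξ₁ η₁ ξ₂ η₂ ξ₃ η₃ lam) :
    (ξ₁ * ξ₂ - be) * (η₁ * η₂) -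
        (η₁ * ξ₂ + η₂ * ξ₁) * ((η₁ * ξ₂ + η₂ * ξ₁) - lam * (ξ₁ * ξ₂ - be)) =
      -(al * ξ₁ ^ 2 * ξ₂ ^ 2 +
          be * ((2 * ξ₁ + 2 * ξ₂ + al) * (ξ₁ * ξ₂) + 2 * (η₁ * η₂))) := by
  have c₁ := h.c₁
  have c₂ := h.c₂
  rcases h.hlam with ⟨hne, hl⟩ | ⟨he, h12, hη, hl⟩
  · have hd : ξ₁ - ξ₂ ≠ 0 := sub_ne_zero.mpr hne
    apply mul_left_cancel₀ hd
    linear_combination ((η₁ * ξ₂ + η₂ * ξ₁) * (ξ₁ * ξ₂ - be)) * hl +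
      ((ξ₁ * ξ₂ - be) * ξ₂ - (ξ₁ - ξ₂) * ξ₂ ^ 2) * c₁ +
      (-(ξ₁ * ξ₂ - be) * ξ₁ - (ξ₁ - ξ₂) * ξ₁ ^ 2) * c₂
  · subst he h12
    linear_combination (ξ₁ * (ξ₁ * ξ₁ - be)) * hl +
      ((ξ₁ * ξ₁ - be) - 4 * ξ₁ ^ 2 + 2 * be) * c₁

/-- Consequence of `key_identity` and `AddRel.F4`: the defect of additivity of `ξ/η`,
cleared of denominators. -/
theorem defect_identity (h2 : (2 : K) ≠ 0) (h : AddRel al be ξ₁ η₁ ξ₂ η₂ ξ₃ η₃ lam) :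
    (ξ₁ * ξ₂ - be) * (ξ₃ * (η₁ * η₂) - (η₁ * ξ₂ + η₂ * ξ₁) * η₃) =
      ξ₃ * -(al * ξ₁ ^ 2 * ξ₂ ^ 2 +
          be * ((2 * ξ₁ + 2 * ξ₂ + al) * (ξ₁ * ξ₂) + 2 * (η₁ * η₂))) := by
  have hF4 := h.F4 h2
  have hG := key_identity h
  linear_combination (-(η₁ * ξ₂ + η₂ * ξ₁)) * hF4 + ξ₃ * hG

/-- Abstract squaring step: from `P · (D η₃ η₁₂) = ξ₃ G`, `s · η₁₂ = N`, `ξ₃ N² = ξ₁₂ D²`
and `η₃² = ξ₃ g₃` one gets `P² · (D⁴ g₃ ξ₁₂) = s² ξ₃² G²`. -/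
theorem sq_identity {P s D η₃ η₁₂ N ξ₃ G g₃ ξ₁₂ : K}
    (e1 : P * (D * (η₃ * η₁₂)) = ξ₃ * G) (e2 : s * η₁₂ = N)
    (hF2 : ξ₃ * N ^ 2 = ξ₁₂ * D ^ 2) (c₃ : η₃ ^ 2 = ξ₃ * g₃)
    (hden : D * (η₃ * η₁₂) ≠ 0) :
    P ^ 2 * (D ^ 4 * g₃ * ξ₁₂) = s ^ 2 * ξ₃ ^ 2 * G ^ 2 := by
  apply mul_right_cancel₀ (pow_ne_zero 2 hden)
  linear_combination ((P * (D * (η₃ * η₁₂)) + ξ₃ * G) * D ^ 4 * g₃ * ξ₁₂) * e1 -
    ((s * η₁₂ + N) * ξ₃ ^ 2 * G ^ 2 * D ^ 2 * η₃ ^ 2) * e2 -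
    (N ^ 2 * ξ₃ ^ 2 * G ^ 2 * D ^ 2) * c₃ - (ξ₃ ^ 2 * G ^ 2 * D ^ 2 * g₃) * hF2

end identity

section order

variable {Γ₀ : Type*} [LinearOrderedCommGroupWithZero Γ₀]

/-- In the value group: `x ^ 2 * a = 1`, `1 < a` imply `x < 1`. -/
theorem lt_one_of_sq_mul_eq_one {x a : Γ₀} (ha : 1 < a) (h : x ^ 2 * a = 1) : x < 1 := by
  by_contra hx
  push Not at hx
  have h1 : (1 : Γ₀) ≤ x ^ 2 := one_le_pow₀ hx
  have h2 : a ≤ x ^ 2 * a := le_mul_of_one_le_left zero_le h1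
  rw [h] at h2
  exact absurd ha (not_lt.mpr h2)

/-- In the value group: `x * w ^ 2 = 1`, `w < 1` imply `1 < x`. -/
theorem one_lt_of_mul_sq_eq_one' {x w : Γ₀} (hw : w < 1) (h : x * w ^ 2 = 1) : 1 < x := by
  by_contra hx
  push Not at hx
  have hw2 : w ^ 2 < 1 := pow_lt_one₀ zero_le hw two_ne_zero
  have h1 : x * w ^ 2 ≤ 1 * w ^ 2 := mul_le_mul' hx le_rfl
  rw [one_mul] at h1
  exact absurd h (h1.trans_lt hw2).ne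

end order

section valuation

variable {Γ₀ : Type*} [LinearOrderedCommGroupWithZero Γ₀] {v : Valuation K Γ₀}
variable {al be ξ₁ η₁ ξ₂ η₂ ξ₃ η₃ lam : K}

/-- For `1 < v ξ` and integral `al`, `be`: `v (ξ² + al ξ + be) = v ξ ^ 2`. -/
theorem val_quad {ξ : K} (hal : v al ≤ 1) (hbe : v be ≤ 1) (hξ : 1 < v ξ) :
    v (ξ ^ 2 + al * ξ + be) = v ξ ^ 2 := by
  have h0 : (0 : Γ₀) < v ξ := lt_trans zero_lt_one hξ
  have h1 : v (al * ξ + be) ≤ v ξ := by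
    refine v.map_add_le ?_ (hbe.trans hξ.le)
    rw [map_mul]
    exact mul_le_of_le_one_left h0.le hal
  have h2 : v ξ < v (ξ ^ 2) := by
    rw [map_pow, sq]
    exact lt_mul_of_one_lt_left h0 hξ
  rw [add_assoc, Valuation.map_add_eq_of_lt_left, map_pow]
  exact lt_of_le_of_lt h1 h2

/-- On the curve, a point of the kernel of reduction has `η ≠ 0`, `v η ^ 2 = v ξ * v ξ ^ 2`
and `v (ξ/η) < 1`. -/
theorem val_t_lt_one {ξ η : K} (hal : v al ≤ 1) (hbe : v be ≤ 1) (hξ : 1 < v ξ)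
    (hc : η ^ 2 = ξ * (ξ ^ 2 + al * ξ + be)) :
    η ≠ 0 ∧ v η ^ 2 = v ξ * v ξ ^ 2 ∧ v (ξ / η) < 1 := by
  have h0 : (0 : Γ₀) < v ξ := lt_trans zero_lt_one hξ
  have hξ0 : ξ ≠ 0 := (Valuation.ne_zero_iff v).mp h0.ne'
  have hg := val_quad hal hbe hξ
  have hg0 : ξ ^ 2 + al * ξ + be ≠ 0 := by
    rw [← Valuation.ne_zero_iff v, hg]; exact pow_ne_zero _ h0.ne'
  have hη : η ≠ 0 := by
    intro h
    rw [h] at hc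
    have : ξ * (ξ ^ 2 + al * ξ + be) ≠ 0 := mul_ne_zero hξ0 hg0
    exact this (by rw [← hc]; ring)
  have hη2 : v η ^ 2 = v ξ * v ξ ^ 2 := by
    rw [← map_pow, hc, map_mul, hg]
  refine ⟨hη, hη2, ?_⟩
  have key : (ξ / η) ^ 2 * (ξ ^ 2 + al * ξ + be) = ξ := by
    rw [div_pow, hc, div_mul_eq_mul_div, div_eq_iff (mul_ne_zero hξ0 hg0)]
    ring
  have hv := congrArg v key
  rw [map_mul, map_pow, hg] at hv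
  have hv' : v (ξ / η) ^ 2 * v ξ = 1 := by
    have e : (v (ξ / η) ^ 2 * v ξ) * v ξ = 1 * v ξ := by
      rw [one_mul, mul_assoc, ← sq]; exact hv
    exact mul_right_cancel₀ h0.ne' e
  exact lt_one_of_sq_mul_eq_one hξ hv'

/-- **Kernel of reduction (S05-V1).**  If `(ξ₁, η₁)` and `(ξ₂, η₂)` lie in the kernel of
reduction `{1 < v ξ}` and `(ξ₃, η₃)` is their sum (chord–tangent relation `AddRel`), then
`(ξ₃, η₃)` lies in the kernel of reduction and `t = ξ/η` is additive modulo a strictly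
smaller term. -/
theorem e1_add (h : AddRel al be ξ₁ η₁ ξ₂ η₂ ξ₃ η₃ lam) (hv2 : v 2 = 1) (hal : v al ≤ 1)
    (hbe : v be ≤ 1) (h₁ : 1 < v ξ₁) (h₂ : 1 < v ξ₂) :
    1 < v ξ₃ ∧ v (ξ₃ / η₃ - (ξ₁ / η₁ + ξ₂ / η₂)) < v (ξ₁ / η₁ + ξ₂ / η₂) := by
  have h2 : (2 : K) ≠ 0 := by
    intro h0
    rw [h0, map_zero] at hv2
    exact zero_ne_one hv2
  have c₁ := h.c₁
  have c₂ := h.c₂
  have ha0 : (0 : Γ₀) < v ξ₁ := lt_trans zero_lt_one h₁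
  have hb0 : (0 : Γ₀) < v ξ₂ := lt_trans zero_lt_one h₂
  have hab0 : (0 : Γ₀) < v ξ₁ * v ξ₂ := mul_pos ha0 hb0
  have hab1 : (1 : Γ₀) < v ξ₁ * v ξ₂ := by
    calc (1 : Γ₀) < v ξ₁ := h₁
      _ ≤ v ξ₁ * v ξ₂ := le_mul_of_one_le_right zero_le h₂.le
  have hξ₁0 : ξ₁ ≠ 0 := (Valuation.ne_zero_iff v).mp ha0.ne'
  have hξ₂0 : ξ₂ ≠ 0 := (Valuation.ne_zero_iff v).mp hb0.ne'
  obtain ⟨hη₁, hvη₁, ht₁⟩ := val_t_lt_one hal hbe h₁ c₁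
  obtain ⟨hη₂, hvη₂, ht₂⟩ := val_t_lt_one hal hbe h₂ c₂
  have hg₁ := val_quad hal hbe h₁
  have hg₂ := val_quad hal hbe h₂
  -- the denominator `D = ξ₁ ξ₂ - be`
  have hD : v (ξ₁ * ξ₂ - be) = v ξ₁ * v ξ₂ := by
    rw [Valuation.map_sub_eq_of_lt_left, map_mul]
    rw [map_mul]; exact lt_of_le_of_lt hbe hab1
  have hD0 : ξ₁ * ξ₂ - be ≠ 0 := by
    rw [← Valuation.ne_zero_iff v, hD]; exact hab0.ne'
  -- `s = t₁ + t₂`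
  have hs : v (ξ₁ / η₁ + ξ₂ / η₂) < 1 := v.map_add_lt ht₁ ht₂
  have hF2 := h.F2 h2
  have e2 : (ξ₁ / η₁ + ξ₂ / η₂) * (η₁ * η₂) = η₁ * ξ₂ + η₂ * ξ₁ := by
    field_simp
    ring
  -- `ξ₃ s² g₁ g₂ = D²`
  have key1 : ξ₃ * (ξ₁ / η₁ + ξ₂ / η₂) ^ 2 *
      ((ξ₁ ^ 2 + al * ξ₁ + be) * (ξ₂ ^ 2 + al * ξ₂ + be)) = (ξ₁ * ξ₂ - be) ^ 2 := by
    have hne : (ξ₁ * ξ₂) * (η₁ * η₂) ^ 2 ≠ 0 :=
      mul_ne_zero (mul_ne_zero hξ₁0 hξ₂0) (pow_ne_zero _ (mul_ne_zero hη₁ hη₂))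
    apply mul_right_cancel₀ hne
    linear_combination
      (ξ₃ * ((ξ₁ ^ 2 + al * ξ₁ + be) * (ξ₂ ^ 2 + al * ξ₂ + be)) * (ξ₁ * ξ₂) *
        ((ξ₁ / η₁ + ξ₂ / η₂) * (η₁ * η₂) + (η₁ * ξ₂ + η₂ * ξ₁))) * e2 +
      ((ξ₁ ^ 2 + al * ξ₁ + be) * (ξ₂ ^ 2 + al * ξ₂ + be) * (ξ₁ * ξ₂)) * hF2 -
      ((ξ₁ * ξ₂ - be) ^ 2 * (ξ₁ * ξ₂) * η₂ ^ 2) * c₁ -
      ((ξ₁ * ξ₂ - be) ^ 2 * (ξ₁ * ξ₂) * (ξ₁ * (ξ₁ ^ 2 + al * ξ₁ + be))) * c₂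
  have hXs : v ξ₃ * v (ξ₁ / η₁ + ξ₂ / η₂) ^ 2 = 1 := by
    have hv := congrArg v key1
    rw [map_mul, map_mul, map_mul, map_pow, map_pow, hg₁, hg₂, hD, mul_pow] at hv
    have hne : v ξ₁ ^ 2 * v ξ₂ ^ 2 ≠ 0 :=
      mul_ne_zero (pow_ne_zero _ ha0.ne') (pow_ne_zero _ hb0.ne')
    have e : v ξ₃ * v (ξ₁ / η₁ + ξ₂ / η₂) ^ 2 * (v ξ₁ ^ 2 * v ξ₂ ^ 2) =
        1 * (v ξ₁ ^ 2 * v ξ₂ ^ 2) := by rw [one_mul]; exact hv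
    exact mul_right_cancel₀ hne e
  have hX : 1 < v ξ₃ := one_lt_of_mul_sq_eq_one' hs hXs
  refine ⟨hX, ?_⟩
  have hX0 : (0 : Γ₀) < v ξ₃ := lt_trans zero_lt_one hX
  have hξ₃0 : ξ₃ ≠ 0 := (Valuation.ne_zero_iff v).mp hX0.ne'
  have hs0 : v (ξ₁ / η₁ + ξ₂ / η₂) ≠ 0 := by
    intro h0
    rw [h0, zero_pow two_ne_zero, mul_zero] at hXs
    exact zero_ne_one hXs
  have c₃ := h.c₃ h2
  obtain ⟨hη₃, -, -⟩ := val_t_lt_one hal hbe hX c₃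
  have hg₃ := val_quad hal hbe hX
  -- the defect
  have hdef := defect_identity h2 h
  have e1 : (ξ₃ / η₃ - (ξ₁ / η₁ + ξ₂ / η₂)) * ((ξ₁ * ξ₂ - be) * (η₃ * (η₁ * η₂))) =
      ξ₃ * -(al * ξ₁ ^ 2 * ξ₂ ^ 2 +
        be * ((2 * ξ₁ + 2 * ξ₂ + al) * (ξ₁ * ξ₂) + 2 * (η₁ * η₂))) := by
    rw [← hdef]
    field_simp
    ring
  have hden : (ξ₁ * ξ₂ - be) * (η₃ * (η₁ * η₂)) ≠ 0 :=
    mul_ne_zero hD0 (mul_ne_zero hη₃ (mul_ne_zero hη₁ hη₂))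
  have key2 := sq_identity e1 e2 hF2 c₃ hden
  -- bound on the numerator `G`
  have hG : v (-(al * ξ₁ ^ 2 * ξ₂ ^ 2 +
      be * ((2 * ξ₁ + 2 * ξ₂ + al) * (ξ₁ * ξ₂) + 2 * (η₁ * η₂)))) ≤ (v ξ₁ * v ξ₂) ^ 2 := by
    rw [Valuation.map_neg]
    have hA : v (al * ξ₁ ^ 2 * ξ₂ ^ 2) ≤ (v ξ₁ * v ξ₂) ^ 2 := by
      rw [map_mul, map_mul, map_pow, map_pow, mul_pow, mul_assoc]
      exact mul_le_of_le_one_left zero_le hal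
    have hlin : v (2 * ξ₁ + 2 * ξ₂ + al) ≤ v ξ₁ * v ξ₂ := by
      refine v.map_add_le (v.map_add_le ?_ ?_) (hal.trans hab1.le)
      · rw [map_mul, hv2, one_mul]
        exact le_mul_of_one_le_right zero_le h₂.le
      · rw [map_mul, hv2, one_mul]
        exact le_mul_of_one_le_left zero_le h₁.le
    have hC1 : v ((2 * ξ₁ + 2 * ξ₂ + al) * (ξ₁ * ξ₂)) ≤ (v ξ₁ * v ξ₂) ^ 2 := by
      rw [map_mul, map_mul, sq]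
      exact mul_le_mul' hlin le_rfl
    have hC2 : v (2 * (η₁ * η₂)) ≤ (v ξ₁ * v ξ₂) ^ 2 := by
      rw [map_mul, hv2, one_mul, map_mul]
      apply le_of_pow_le_pow_left₀ two_ne_zero zero_le
      rw [mul_pow, hvη₁, hvη₂]
      calc v ξ₁ * v ξ₁ ^ 2 * (v ξ₂ * v ξ₂ ^ 2) = (v ξ₁ * v ξ₂) * (v ξ₁ * v ξ₂) ^ 2 := by
            rw [mul_pow]; ac_rfl
        _ ≤ (v ξ₁ * v ξ₂) ^ 2 * (v ξ₁ * v ξ₂) ^ 2 := by
            refine mul_le_mul' ?_ le_rfl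
            rw [sq]
            exact le_mul_of_one_le_left zero_le hab1.le
        _ = ((v ξ₁ * v ξ₂) ^ 2) ^ 2 := (sq _).symm
    have hB : v (be * ((2 * ξ₁ + 2 * ξ₂ + al) * (ξ₁ * ξ₂) + 2 * (η₁ * η₂))) ≤
        (v ξ₁ * v ξ₂) ^ 2 := by
      rw [map_mul]
      exact (mul_le_of_le_one_left zero_le hbe).trans (v.map_add_le hC1 hC2)
    exact v.map_add_le hA hB
  -- conclusion
  have hv := congrArg v key2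
  simp only [map_mul, map_pow] at hv
  rw [hD, hg₃] at hv
  by_contra hcon
  push Not at hcon
  have hP0 : (0 : Γ₀) < v (ξ₃ / η₃ - (ξ₁ / η₁ + ξ₂ / η₂)) :=
    lt_of_lt_of_le (zero_lt_iff.mpr hs0) hcon
  set P := v (ξ₃ / η₃ - (ξ₁ / η₁ + ξ₂ / η₂)) with hPdef
  set S := v (ξ₁ / η₁ + ξ₂ / η₂) with hSdef
  set G := v (-(al * ξ₁ ^ 2 * ξ₂ ^ 2 +
      be * ((2 * ξ₁ + 2 * ξ₂ + al) * (ξ₁ * ξ₂) + 2 * (η₁ * η₂)))) with hGdef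
  set A := v ξ₁ * v ξ₂ with hAdef
  set X := v ξ₃ with hXdef
  have hc0 : (0 : Γ₀) < P ^ 2 * (A ^ 4 * X ^ 2) :=
    mul_pos (pow_pos hP0 2) (mul_pos (pow_pos hab0 4) (pow_pos hX0 2))
  have h1 : P ^ 2 * (A ^ 4 * X ^ 2) * A ≤ P ^ 2 * (A ^ 4 * X ^ 2) * 1 := by
    calc P ^ 2 * (A ^ 4 * X ^ 2) * A = P ^ 2 * (A ^ 4 * X ^ 2 * A) := by ac_rfl
      _ = S ^ 2 * X ^ 2 * G ^ 2 := hv
      _ ≤ P ^ 2 * X ^ 2 * (A ^ 2) ^ 2 := by gcongr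
      _ = P ^ 2 * (A ^ 4 * X ^ 2) * 1 := by
          rw [mul_one, ← pow_mul]; ac_rfl
  have h3 : A ≤ 1 := le_of_mul_le_mul_left h1 hc0
  exact absurd hab1 (not_lt.mpr h3)

end valuation

end Fermat.Agent.S05.helper3098
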