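/-
S05 row NODEVAL (helper5_Spec.NodeValStmt), as a corollary of the general node-depth law
`Fermat.Agent.Lib.helper3266.nodeVal` (b-form, no assumption on `v 2` or `v p`).

* `nodeVal0 : NodeValStmt0`  -- `helper5.NodeValStmt` WITHOUT the hypothesis `v p = 1`
  (usable at the residue characteristic `p` itself);
* `nodeVal : helper5.NodeValStmt`.
-/
import Fermat.Agent.S05.helper5_Spec
import Fermat.Agent.Lib.helper3266_NodeVal

set_option autoImplicit false

namespace Fermat.Agent.S05.helper3266

open WeierstrassCurve WeierstrassCurve.Affine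
open Fermat.Agent.S05.helper305 (Shape)

/-- A `Shape W e al be` is a `BShape W e (4 al) be`. -/
theorem bshape_of_shape {K : Type*} [Field K] {W : WeierstrassCurve K} {e al be : K}
    (hS : Shape W e al be) : Fermat.Agent.Lib.helper3266.BShape W e (4 * al) be :=
  Fermat.Agent.Lib.helper3266.BShape.of_two_ne hS.two_ne hS.hb2 hS.hb4 hS.hb6

/-- `helper5.NodeValStmt` without the hypothesis `v p = 1`. -/
def NodeValStmt0 : Prop :=
  ∀ (K : Type) [Field K] [DecidableEq K] (Γ₀ : Type) [LinearOrderedCommGroupWithZero Γ₀]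
    (v : Valuation K Γ₀) (W : WeierstrassCurve K) (e al be : K),
    Shape W e al be → v 2 = 1 → v al = 1 → v be < 1 → be ≠ 0 →
    ∀ (p : ℕ), p.Prime → p ≠ 2 →
    ∀ (x y : K) (h : W.toAffine.Nonsingular x y), v (x - e) < 1 →
      p • (Point.some x y h : W.toAffine.Point) = 0 →
      v be < v (x - e) ∧ ∃ j : ℤ, v (x - e) ^ p = v be ^ (2 * j)

/-- **NODEVAL without `v p = 1`.** -/
theorem nodeVal0 : NodeValStmt0 := by
  intro K _ _ Γ₀ _ v W e al be hS h2 hal hbe hbe0 p hp hp2 x y h hx hP
  have h4 : v (4 * al) = 1 := by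
    have : (4 : K) = 2 * 2 := by norm_num
    rw [this, map_mul, map_mul, h2, hal, one_mul, one_mul]
  exact Fermat.Agent.Lib.helper3266.nodeVal_some (bshape_of_shape hS) h4 hbe hbe0 hp hp2 x y h hx hP

/-- **NODEVAL** (row 131 of the S05 board): the captain's `helper5.NodeValStmt`. -/
theorem nodeVal : helper5.NodeValStmt := by
  intro K _ _ Γ₀ _ v W e al be hS h2 hal hbe hbe0 p hp hp2 _ x y h hx hP
  exact nodeVal0 K Γ₀ v W e al be hS h2 hal hbe hbe0 p hp hp2 x y h hx hP

end Fermat.Agent.S05.helper3266
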