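import Fermat.Agent.S05.helper5_Spec
import Fermat.Agent.S05.helper1445_Top

/-!
# S05 glue (helper4205): captain's spec ⟹ `helper1445.LocalStatement` ⟹ frozen statement

* `localStatement_of : helper5.GoodStmt → helper5.MultStmt → helper1445.LocalStatement`
* `target_of : helper5.GoodStmt → helper5.MultStmt → helper5.TargetStmt`
  (via `helper1445.top`, which already contains the Frey arithmetic and the transfer to the
  Legendre models).
-/

set_option autoImplicit false

namespace Fermat.Agent.S05.helper4205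

open WeierstrassCurve WeierstrassCurve.Affine WeierstrassCurve.Affine.Point
open Fermat.Agent.S05.helper305 (Shape)

local notation "Qbar" => AlgebraicClosure ℚ

/-- A Legendre-type model `Y² = X³ + a₂X² + a₄X` base-changed to any field of characteristic
`≠ 2` has shape `(0, a₂, a₄)`. -/
theorem shape_of_legendre {F K : Type*} [Field F] [Field K] (φ : F →+* K) (W : WeierstrassCurve F)
    (h1 : W.a₁ = 0) (h3 : W.a₃ = 0) (h6 : W.a₆ = 0) (h2 : (2 : K) ≠ 0) :
    Shape (W.map φ) 0 (φ W.a₂) (φ W.a₄) := by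
  refine ⟨h2, ?_, ?_, ?_⟩
  · simp only [WeierstrassCurve.b₂, WeierstrassCurve.map_a₁, WeierstrassCurve.map_a₂, h1]
    simp
  · simp only [WeierstrassCurve.b₄, WeierstrassCurve.map_a₁, WeierstrassCurve.map_a₃,
      WeierstrassCurve.map_a₄, h1, h3]
    simp
  · simp only [WeierstrassCurve.b₆, WeierstrassCurve.map_a₃, WeierstrassCurve.map_a₆, h3, h6]
    simp

theorem localStatement_of (hG : helper5.GoodStmt) (hM : helper5.MultStmt) :
    helper1445.LocalStatement := by
  intro A W h1 h3 h6 h4 ha2 ha4 hv2 hdisc σ hσ1 hσ2 n hn hn2 hvn hcase P hP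
  have h2ne : (2 : Qbar) ≠ 0 := by
    intro h
    rw [h, _root_.map_zero] at hv2
    exact zero_ne_one hv2
  have hS : Shape (W.map (algebraMap ℚ Qbar)) 0 (algebraMap ℚ Qbar W.a₂)
      (algebraMap ℚ Qbar W.a₄) := shape_of_legendre (algebraMap ℚ Qbar) W h1 h3 h6 h2ne
  have hval2 : A.valuation (algebraMap ℚ Qbar W.a₂) ≤ 1 :=
    (A.valuation_le_one_iff _).2 ha2
  have hval4 : A.valuation (algebraMap ℚ Qbar W.a₄) ≤ 1 :=
    (A.valuation_le_one_iff _).2 ha4
  have hdisc' : A.valuation ((algebraMap ℚ Qbar W.a₂) ^ 2 - 4 * (algebraMap ℚ Qbar W.a₄)) = 1 := by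
    have : (algebraMap ℚ Qbar W.a₂) ^ 2 - 4 * (algebraMap ℚ Qbar W.a₄)
        = algebraMap ℚ Qbar (W.a₂ ^ 2 - 4 * W.a₄) := by
      simp only [map_sub, map_mul, map_pow, map_ofNat]
    rw [this]; exact hdisc
  have hσ : ∀ x : Qbar, A.valuation x ≤ 1 →
      A.valuation (((σ : Qbar ≃ₐ[ℚ] Qbar) : Qbar →+* Qbar) x - x) < 1 := by
    intro x hx
    have hxA : x ∈ A := (A.valuation_le_one_iff _).1 hx
    exact (A.mem_nonunits_iff).1 (hσ2 x hxA)
  have hσalg : ∀ r : ℚ, ((σ : Qbar ≃ₐ[ℚ] Qbar) : Qbar →+* Qbar) (algebraMap ℚ Qbar r)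
      = algebraMap ℚ Qbar r := fun r => σ.commutes r
  have hσ0 : ((σ : Qbar ≃ₐ[ℚ] Qbar) : Qbar →+* Qbar) 0 = 0 := _root_.map_zero _
  have hσa1 : ((σ : Qbar ≃ₐ[ℚ] Qbar) : Qbar →+* Qbar) (W.map (algebraMap ℚ Qbar)).a₁
      = (W.map (algebraMap ℚ Qbar)).a₁ := hσalg _
  have hσa3 : ((σ : Qbar ≃ₐ[ℚ] Qbar) : Qbar →+* Qbar) (W.map (algebraMap ℚ Qbar)).a₃
      = (W.map (algebraMap ℚ Qbar)).a₃ := hσalg _
  -- the point
  rcases P with _ | ⟨x, y, h⟩
  · rfl
  · have hsmul : σ • (Point.some x y h : (W⁄Qbar).Point) =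
        Point.some (σ x) (σ y)
          ((WeierstrassCurve.Affine.baseChange_nonsingular W (σ.toAlgHom).injective x y).mpr h) := rfl
    have hP' : n • (σ • (Point.some x y h : (W⁄Qbar).Point)) = 0 := by
      have := WeierstrassCurve.Affine.Point.algEquiv_smul_zsmul σ (n : ℤ)
        (Point.some x y h : (W⁄Qbar).Point)
      rw [natCast_zsmul, natCast_zsmul, hP] at this
      rw [← this]
      rfl
    rw [hsmul] at hP' ⊢
    have key : σ x = x ∧ σ y = y := by
      by_cases hgood : A.valuation (algebraMap ℚ Qbar W.a₄) = 1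
      · exact hG Qbar A.ValueGroup A.valuation (W.map (algebraMap ℚ Qbar)) 0
          (algebraMap ℚ Qbar W.a₂) (algebraMap ℚ Qbar W.a₄) hS hv2 hval2 hgood hdisc'
          n hn hn2 hvn ((σ : Qbar ≃ₐ[ℚ] Qbar) : Qbar →+* Qbar) hσ hσ0 hσa1 hσa3 x y h _ hP hP'
      · have hlt : A.valuation (algebraMap ℚ Qbar W.a₄) < 1 := lt_of_le_of_ne hval4 hgood
        obtain ⟨w, hw⟩ : ∃ w : ℚ, A.valuation (algebraMap ℚ Qbar W.a₄) =
            A.valuation (algebraMap ℚ Qbar w) ^ n := by
          rcases hcase with h' | h'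
          · exact absurd h' hgood
          · exact h'
        have hw0 : algebraMap ℚ Qbar w ≠ 0 := by
          intro h0
          rw [h0, _root_.map_zero, zero_pow hn.ne_zero] at hw
          have : algebraMap ℚ Qbar W.a₄ = 0 := (map_eq_zero _).1 hw
          exact h4 ((map_eq_zero (algebraMap ℚ Qbar)).1 this)
        have hwlt : A.valuation (algebraMap ℚ Qbar w) < 1 := by
          by_contra hge
          rw [not_lt] at hge
          have : (1 : A.ValueGroup) ≤ A.valuation (algebraMap ℚ Qbar w) ^ n := one_le_pow₀ hge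
          rw [← hw] at this
          exact absurd hlt (not_lt.2 this)
        have hal : A.valuation (algebraMap ℚ Qbar W.a₂) = 1 := by
          by_contra hne
          have hlt2 : A.valuation (algebraMap ℚ Qbar W.a₂) < 1 := lt_of_le_of_ne hval2 hne
          have h4le : A.valuation (4 : Qbar) ≤ 1 := by
            have : (4 : Qbar) = 2 * 2 := by norm_num
            rw [this, map_mul, hv2, one_mul]
          have hlt' : A.valuation ((algebraMap ℚ Qbar W.a₂) ^ 2 - 4 * (algebraMap ℚ Qbar W.a₄)) < 1 := by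
            refine lt_of_le_of_lt (A.valuation.map_sub _ _) (max_lt ?_ ?_)
            · rw [map_pow]
              exact pow_lt_one₀ zero_le hlt2 two_ne_zero
            · rw [map_mul]
              calc A.valuation 4 * A.valuation (algebraMap ℚ Qbar W.a₄)
                  ≤ 1 * A.valuation (algebraMap ℚ Qbar W.a₄) := mul_le_mul_left h4le _
                _ = A.valuation (algebraMap ℚ Qbar W.a₄) := one_mul _
                _ < 1 := hlt
          rw [hdisc'] at hlt'
          exact lt_irrefl _ hlt'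
        exact hM Qbar A.ValueGroup A.valuation (W.map (algebraMap ℚ Qbar)) 0
          (algebraMap ℚ Qbar W.a₂) (algebraMap ℚ Qbar W.a₄) hS hv2 hal
          n hn hn2 hvn ((σ : Qbar ≃ₐ[ℚ] Qbar) : Qbar →+* Qbar) hσ hσ0 hσa1 hσa3
          (algebraMap ℚ Qbar w) (hσalg w) hw0 hwlt hw x y h _ hP hP'
    obtain ⟨hx, hy⟩ := key
    simp only [hx, hy]

/-- The frozen statement S05 from the captain's `GoodStmt` and `MultStmt`. -/
theorem target_of (hG : helper5.GoodStmt) (hM : helper5.MultStmt) : helper5.TargetStmt := by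
  intro P q hq hq2 hqp
  exact helper1445.top (localStatement_of hG hM) P hq hq2 hqp

end Fermat.Agent.S05.helper4205
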