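import Fermat.Agent.S05.helper305_Formulas

/-!
# Symmetric collinearity package in shape coordinates (helper5345, S05)

`Coll al be ξ₁ η₁ ξ₂ η₂ ξ₃ η₃ lam mu` says that the three points `(ξᵢ, ηᵢ)` are the
intersection (with multiplicity) of the line `η = lam ξ + mu` with the curve
`η² = ξ (ξ² + al ξ + be)`; it is symmetric in the three points.
-/

set_option autoImplicit false

namespace Fermat.Agent.S05.helper5345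

open Fermat.Agent.S05.helper305

variable {K : Type*} [Field K]

/-- Vieta package for a line meeting the curve `η² = ξ (ξ² + al ξ + be)`. -/
structure Coll (al be ξ₁ η₁ ξ₂ η₂ ξ₃ η₃ lam mu : K) : Prop where
  l₁ : η₁ = lam * ξ₁ + mu
  l₂ : η₂ = lam * ξ₂ + mu
  l₃ : η₃ = lam * ξ₃ + mu
  e₁ : ξ₁ + ξ₂ + ξ₃ = lam ^ 2 - al
  e₂ : ξ₁ * ξ₂ + ξ₁ * ξ₃ + ξ₂ * ξ₃ = be - 2 * lam * mu
  e₃ : ξ₁ * ξ₂ * ξ₃ = mu ^ 2

variable {al be ξ₁ η₁ ξ₂ η₂ ξ₃ η₃ lam mu : K}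

/-- From the chord–tangent relation to the symmetric package (third point `= -(P₁ + P₂)`). -/
theorem coll_of_addRel (h : AddRel al be ξ₁ η₁ ξ₂ η₂ ξ₃ η₃ lam) :
    Coll al be ξ₁ η₁ ξ₂ η₂ ξ₃ (-η₃) lam (η₁ - lam * ξ₁) := by
  have c₁ := h.c₁
  have c₂ := h.c₂
  have hξ := h.hξ
  have hη := h.hη
  rcases h.hlam with ⟨hne, hl⟩ | ⟨he, h12, hη₁, hl⟩
  · have hd : ξ₁ - ξ₂ ≠ 0 := sub_ne_zero.mpr hne
    have E2 : ξ₁ * ξ₂ + ξ₁ * ξ₃ + ξ₂ * ξ₃ = be - 2 * lam * (η₁ - lam * ξ₁) := by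
      apply mul_left_cancel₀ hd
      subst hξ
      have hη₂ : η₂ = η₁ - lam * (ξ₁ - ξ₂) := by linear_combination hl
      subst hη₂
      linear_combination c₁ - c₂
    refine ⟨by ring, by linear_combination hl, by rw [hη]; ring, by rw [hξ]; ring, E2, ?_⟩
    linear_combination (-1 : K) * c₁ + ξ₁ * E2 + (-ξ₁ ^ 2) * hξ
  · subst he h12
    have E2 : ξ₁ * ξ₁ + ξ₁ * ξ₃ + ξ₁ * ξ₃ = be - 2 * lam * (η₁ - lam * ξ₁) := by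
      rw [hξ]
      linear_combination hl
    refine ⟨by ring, by ring, by rw [hη]; ring, by rw [hξ]; ring, E2, ?_⟩
    linear_combination (-1 : K) * c₁ + ξ₁ * E2 + (-ξ₁ ^ 2) * hξ

/-- The symmetric (Kummer) relation between the three `ξ`-coordinates. -/
theorem Coll.kum (h : Coll al be ξ₁ η₁ ξ₂ η₂ ξ₃ η₃ lam mu) :
    (ξ₁ * ξ₂ + ξ₁ * ξ₃ + ξ₂ * ξ₃ - be) ^ 2 = 4 * (ξ₁ + ξ₂ + ξ₃ + al) * (ξ₁ * ξ₂ * ξ₃) := by
  rw [h.e₁, h.e₂, h.e₃]; ring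

theorem Coll.perm12 (h : Coll al be ξ₁ η₁ ξ₂ η₂ ξ₃ η₃ lam mu) :
    Coll al be ξ₂ η₂ ξ₁ η₁ ξ₃ η₃ lam mu :=
  ⟨h.l₂, h.l₁, h.l₃, by rw [← h.e₁]; ring, by rw [← h.e₂]; ring, by rw [← h.e₃]; ring⟩

theorem Coll.perm23 (h : Coll al be ξ₁ η₁ ξ₂ η₂ ξ₃ η₃ lam mu) :
    Coll al be ξ₁ η₁ ξ₃ η₃ ξ₂ η₂ lam mu :=
  ⟨h.l₁, h.l₃, h.l₂, by rw [← h.e₁]; ring, by rw [← h.e₂]; ring, by rw [← h.e₃]; ring⟩

/-! ### Valuation toolkit -/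

section val

variable {Γ₀ : Type*} [LinearOrderedCommGroupWithZero Γ₀] (v : Valuation K Γ₀)

theorem vle_mul {a b : K} (ha : v a ≤ 1) (hb : v b ≤ 1) : v (a * b) ≤ 1 := by
  rw [map_mul]; exact mul_le_one' ha hb

theorem vlt_mul_l {a b : K} (ha : v a < 1) (hb : v b ≤ 1) : v (a * b) < 1 := by
  rw [map_mul]; exact mul_lt_one_of_lt_of_le ha hb

theorem vlt_mul_r {a b : K} (ha : v a ≤ 1) (hb : v b < 1) : v (a * b) < 1 := by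
  rw [mul_comm]; exact vlt_mul_l v hb ha

theorem veq_add_l {a b : K} (ha : v a = 1) (hb : v b < 1) : v (a + b) = 1 := by
  rw [Valuation.map_add_eq_of_lt_left, ha]
  rw [ha]; exact hb

theorem veq_sub_l {a b : K} (ha : v a = 1) (hb : v b < 1) : v (a - b) = 1 := by
  rw [Valuation.map_sub_eq_of_lt_left, ha]
  rw [ha]; exact hb

theorem v_four (hv2 : v 2 = 1) : v (4 : K) = 1 := by
  have : (4 : K) = 2 * 2 := by norm_num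
  rw [this, map_mul, hv2, one_mul]

theorem ne_zero_of_vpos {a : K} {g : Γ₀} (h : g < v a) : a ≠ 0 := by
  rintro rfl
  rw [map_zero] at h
  exact not_lt_zero h

theorem vpos_of_lt {a : K} {g : Γ₀} (h : g < v a) : 0 < v a := lt_of_le_of_lt zero_le h

theorem vdiv_lt_one {a b : K} (h : v a < v b) : v (a / b) < 1 := by
  rw [map_div₀]
  exact (div_lt_one₀ (vpos_of_lt v h)).mpr h

theorem vdiv_le_one {a b : K} (hb : b ≠ 0) (h : v a ≤ v b) : v (a / b) ≤ 1 := by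
  rw [map_div₀]
  exact (div_le_one₀ (zero_lt_iff.mpr ((Valuation.ne_zero_iff v).mpr hb))).mpr h

theorem v_eq_one_of_sq {x : K} (h : v (x ^ 2) = 1) : v x = 1 := by
  rw [map_pow] at h
  exact (pow_eq_one_iff_of_nonneg zero_le two_ne_zero).1 h

/-- `E₀ = {1 ≤ v ξ}` is closed under the group law (multiplicative reduction). -/
theorem Coll.e0_closed (h : Coll al be ξ₁ η₁ ξ₂ η₂ ξ₃ η₃ lam mu) (hv2 : v 2 = 1)
    (hal : v al ≤ 1) (hbe : v be < 1) (h₁ : 1 ≤ v ξ₁) (h₂ : 1 ≤ v ξ₂) : 1 ≤ v ξ₃ := by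
  by_contra hc
  rw [not_le] at hc
  have hξ₁ : ξ₁ ≠ 0 := ne_zero_of_vpos v (lt_of_lt_of_le zero_lt_one h₁)
  have hξ₂ : ξ₂ ≠ 0 := ne_zero_of_vpos v (lt_of_lt_of_le zero_lt_one h₂)
  have hu₁ : v ξ₁⁻¹ ≤ 1 := by rw [map_inv₀]; exact inv_le_one_of_one_le₀ h₁
  have hu₂ : v ξ₂⁻¹ ≤ 1 := by rw [map_inv₀]; exact inv_le_one_of_one_le₀ h₂
  have key : (1 + (ξ₃ * (ξ₁⁻¹ + ξ₂⁻¹) - be * (ξ₁⁻¹ * ξ₂⁻¹))) ^ 2
      = 4 * (ξ₃ * (ξ₁⁻¹ + ξ₂⁻¹ + (ξ₃ + al) * (ξ₁⁻¹ * ξ₂⁻¹))) := by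
    have hk := h.kum
    field_simp
    linear_combination hk
  have hL : v ((1 + (ξ₃ * (ξ₁⁻¹ + ξ₂⁻¹) - be * (ξ₁⁻¹ * ξ₂⁻¹))) ^ 2) = 1 := by
    rw [map_pow, v.map_one_add_of_lt, one_pow]
    exact v.map_sub_lt (vlt_mul_l v hc (v.map_add_le hu₁ hu₂)) (vlt_mul_l v hbe (vle_mul v hu₁ hu₂))
  have hR : v (4 * (ξ₃ * (ξ₁⁻¹ + ξ₂⁻¹ + (ξ₃ + al) * (ξ₁⁻¹ * ξ₂⁻¹)))) < 1 := by
    refine vlt_mul_r v (v_four v hv2).le (vlt_mul_l v hc ?_)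
    exact v.map_add_le (v.map_add_le hu₁ hu₂) (vle_mul v (v.map_add_le hc.le hal) (vle_mul v hu₁ hu₂))
  rw [key] at hL
  exact absurd hL hR.ne

/-- Two points at or below the level of `be` add up to a point of `E₀`. -/
theorem Coll.hi_hi (h : Coll al be ξ₁ η₁ ξ₂ η₂ ξ₃ η₃ lam mu) (hv2 : v 2 = 1)
    (hal : v al ≤ 1) (hbe : v be < 1) (hbe0 : be ≠ 0) (h₁ : v ξ₁ ≤ v be) (h₂ : v ξ₂ ≤ v be) :
    1 ≤ v ξ₃ := by
  by_contra hc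
  rw [not_le] at hc
  have hw₁ : v (ξ₁ / be) ≤ 1 := vdiv_le_one v hbe0 h₁
  have hw₂ : v (ξ₂ / be) ≤ 1 := vdiv_le_one v hbe0 h₂
  have key : (1 - (be * ((ξ₁ / be) * (ξ₂ / be)) + (ξ₁ / be) * ξ₃ + (ξ₂ / be) * ξ₃)) ^ 2
      = 4 * ((ξ₁ + ξ₂ + ξ₃ + al) * ((ξ₁ / be) * (ξ₂ / be)) * ξ₃) := by
    have hk := h.kum
    field_simp
    linear_combination hk
  have hL : v ((1 - (be * ((ξ₁ / be) * (ξ₂ / be)) + (ξ₁ / be) * ξ₃ + (ξ₂ / be) * ξ₃)) ^ 2) = 1 := by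
    rw [map_pow, v.map_one_sub_of_lt, one_pow]
    exact v.map_add_lt (v.map_add_lt (vlt_mul_l v hbe (vle_mul v hw₁ hw₂)) (vlt_mul_r v hw₁ hc))
      (vlt_mul_r v hw₂ hc)
  have hR : v (4 * ((ξ₁ + ξ₂ + ξ₃ + al) * ((ξ₁ / be) * (ξ₂ / be)) * ξ₃)) < 1 := by
    refine vlt_mul_r v (v_four v hv2).le (vlt_mul_r v ?_ hc)
    refine vle_mul v ?_ (vle_mul v hw₁ hw₂)
    exact v.map_add_le (v.map_add_le (v.map_add_le (h₁.trans hbe.le) (h₂.trans hbe.le)) hc.le) hal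
  rw [key] at hL
  exact absurd hL hR.ne

end val

/-! ### Branches relative to a unit `ρ` with `ρ² ≡ al` -/

section sign

variable {Γ₀ : Type*} [LinearOrderedCommGroupWithZero Γ₀]

/-- `Sgn v ρ ξ η s`: the point `(ξ, η)` lies on the branch `η/ξ ≡ s ρ` (`s = ±1`). -/
def Sgn (v : Valuation K Γ₀) (ρ ξ η : K) (s : ℤ) : Prop :=
  (s = 1 ∧ v (η - ρ * ξ) < v ξ) ∨ (s = -1 ∧ v (η + ρ * ξ) < v ξ)

variable {v : Valuation K Γ₀} {ρ ξ η : K} {s s' : ℤ}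

theorem Sgn.neg_rho (h : Sgn v ρ ξ η s) : Sgn v (-ρ) ξ η (-s) := by
  rcases h with ⟨rfl, h⟩ | ⟨rfl, h⟩
  · right; refine ⟨rfl, ?_⟩
    have : η + -ρ * ξ = η - ρ * ξ := by ring
    rwa [this]
  · left; refine ⟨by norm_num, ?_⟩
    have : η - -ρ * ξ = η + ρ * ξ := by ring
    rwa [this]

theorem Sgn.neg_eta (h : Sgn v ρ ξ η s) : Sgn v ρ ξ (-η) (-s) := by
  rcases h with ⟨rfl, h⟩ | ⟨rfl, h⟩
  · right; refine ⟨rfl, ?_⟩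
    have : -η + ρ * ξ = -(η - ρ * ξ) := by ring
    rwa [this, Valuation.map_neg]
  · left; refine ⟨by norm_num, ?_⟩
    have : -η - ρ * ξ = -(η + ρ * ξ) := by ring
    rwa [this, Valuation.map_neg]

theorem Sgn.unique (hv2 : v 2 = 1) (hρ : v ρ = 1) (h : Sgn v ρ ξ η s) (h' : Sgn v ρ ξ η s') :
    s = s' := by
  have key : v (η - ρ * ξ) < v ξ → v (η + ρ * ξ) < v ξ → False := by
    intro h1 h2
    have : v ((η + ρ * ξ) - (η - ρ * ξ)) < v ξ := v.map_sub_lt h2 h1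
    have e : (η + ρ * ξ) - (η - ρ * ξ) = 2 * ρ * ξ := by ring
    rw [e, map_mul, map_mul, hv2, hρ, one_mul, one_mul] at this
    exact lt_irrefl _ this
  rcases h with ⟨rfl, h⟩ | ⟨rfl, h⟩ <;> rcases h' with ⟨rfl, h'⟩ | ⟨rfl, h'⟩
  · rfl
  · exact (key h h').elim
  · exact (key h' h).elim
  · rfl

theorem sgn_exists (hρ : v (ρ ^ 2 - al) < 1) (hc : η ^ 2 = ξ * (ξ ^ 2 + al * ξ + be))
    (h1 : v ξ < 1) (hb : v be < v ξ) : ∃ s, Sgn v ρ ξ η s := by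
  have hξ : ξ ≠ 0 := ne_zero_of_vpos v hb
  have hpos : 0 < v ξ := vpos_of_lt v hb
  have e : (η - ρ * ξ) * (η + ρ * ξ) = ξ ^ 2 * (ξ - (ρ ^ 2 - al) + be / ξ) := by
    field_simp
    linear_combination hc
  have hlt : v ((η - ρ * ξ) * (η + ρ * ξ)) < v ξ * v ξ := by
    rw [e, map_mul, map_pow, sq]
    have : v (ξ - (ρ ^ 2 - al) + be / ξ) < 1 :=
      v.map_add_lt (v.map_sub_lt h1 hρ) (vdiv_lt_one v hb)
    exact mul_lt_of_lt_one_right (mul_pos hpos hpos) this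
  by_contra hcon
  push Not at hcon
  have h1' : v ξ ≤ v (η - ρ * ξ) := by
    by_contra h; exact hcon 1 (Or.inl ⟨rfl, not_le.mp h⟩)
  have h2' : v ξ ≤ v (η + ρ * ξ) := by
    by_contra h; exact hcon (-1) (Or.inr ⟨rfl, not_le.mp h⟩)
  rw [map_mul] at hlt
  exact absurd (mul_le_mul' h1' h2') (not_le.mpr hlt)

/-- Value-group bookkeeping for the signed triple law. -/
theorem sign_prod {a₁ a₂ a₃ m B : Γ₀} {s₁ s₂ s₃ : ℤ}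
    (p₁ : a₁ ≠ 0) (p₂ : a₂ ≠ 0) (p₃ : a₃ ≠ 0) (q₁ : a₁ < 1) (q₂ : a₂ < 1) (q₃ : a₃ < 1)
    (hm : m ^ 2 = a₁ * a₂ * a₃)
    (hF : m < a₁ → m < a₂ → m < a₃ → B = m)
    (h₁ : (s₁ = 1 ∧ m < a₁) ∨ (s₁ = -1 ∧ m = a₁))
    (h₂ : (s₂ = 1 ∧ m < a₂) ∨ (s₂ = -1 ∧ m = a₂))
    (h₃ : (s₃ = 1 ∧ m < a₃) ∨ (s₃ = -1 ∧ m = a₃)) :
    ∃ j : ℤ, a₁ ^ s₁ * a₂ ^ s₂ * a₃ ^ s₃ = B ^ (2 * j) := by
  have two : ∀ {a b c : Γ₀}, a ≠ 0 → b ≠ 0 → m ^ 2 = a * b * c → m = a → m = b → c = 1 := by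
    intro a b c ha hb h hma hmb
    subst hma
    rw [← hmb, sq] at h
    have h' : m * m * 1 = m * m * c := by rw [mul_one]; exact h
    exact (mul_left_cancel₀ (mul_ne_zero ha ha) h').symm
  have one : ∀ {a b c : Γ₀}, c ≠ 0 → m ^ 2 = a * b * c → m = c → a * b * c⁻¹ = 1 := by
    intro a b c hc h hmc
    subst hmc
    rw [sq] at h
    have h' : m = a * b := mul_right_cancel₀ hc h
    rw [← h']; exact mul_inv_cancel₀ hc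
  rcases h₁ with ⟨rfl, h₁⟩ | ⟨rfl, h₁⟩ <;> rcases h₂ with ⟨rfl, h₂⟩ | ⟨rfl, h₂⟩ <;>
    rcases h₃ with ⟨rfl, h₃⟩ | ⟨rfl, h₃⟩
  · refine ⟨1, ?_⟩
    rw [hF h₁ h₂ h₃, zpow_one, zpow_one, zpow_one, ← hm, mul_one]
    exact (zpow_natCast m 2).symm
  · exact ⟨0, by rw [zpow_one, zpow_one, zpow_neg_one, mul_zero, zpow_zero]; exact one p₃ hm h₃⟩
  · refine ⟨0, ?_⟩
    rw [zpow_one, zpow_one, zpow_neg_one, mul_zero, zpow_zero, mul_right_comm]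
    exact one p₂ (by rw [hm]; ac_rfl) h₂
  · exact absurd (two p₂ p₃ (by rw [hm]; ac_rfl) h₂ h₃) q₁.ne
  · refine ⟨0, ?_⟩
    rw [zpow_one, zpow_one, zpow_neg_one, mul_zero, zpow_zero]
    have := one p₁ (a := a₂) (b := a₃) (by rw [hm]; ac_rfl) h₁
    rw [← this]; ac_rfl
  · exact absurd (two p₁ p₃ (by rw [hm]; ac_rfl) h₁ h₃) q₂.ne
  · exact absurd (two p₁ p₂ hm h₁ h₂) q₃.ne
  · exact absurd (two p₁ p₂ hm h₁ h₂) q₃.ne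

/-- Signed triple law, case `lam ≡ ρ`. -/
theorem Coll.sgn_core {s₁ s₂ s₃ : ℤ} (h : Coll al be ξ₁ η₁ ξ₂ η₂ ξ₃ η₃ lam mu) (hv2 : v 2 = 1)
    (hρ1 : v ρ = 1) (hlam : v (lam - ρ) < 1)
    (m₁ : v be < v ξ₁) (n₁ : v ξ₁ < 1) (m₂ : v be < v ξ₂) (n₂ : v ξ₂ < 1)
    (m₃ : v be < v ξ₃) (n₃ : v ξ₃ < 1)
    (S₁ : Sgn v ρ ξ₁ η₁ s₁) (S₂ : Sgn v ρ ξ₂ η₂ s₂) (S₃ : Sgn v ρ ξ₃ η₃ s₃) :
    ∃ j : ℤ, v ξ₁ ^ s₁ * v ξ₂ ^ s₂ * v ξ₃ ^ s₃ = v be ^ (2 * j) := by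
  have hlp : v (lam + ρ) = 1 := by
    have e : lam + ρ = 2 * ρ + (lam - ρ) := by ring
    rw [e]; exact veq_add_l v (by rw [map_mul, hv2, hρ1, one_mul]) hlam
  have hlam1 : v lam = 1 := by
    have e : lam = ρ + (lam - ρ) := by ring
    rw [e]; exact veq_add_l v hρ1 hlam
  have P : ∀ (ξ η : K) (s : ℤ), η = lam * ξ + mu → Sgn v ρ ξ η s →
      (s = 1 ∧ v mu < v ξ) ∨ (s = -1 ∧ v mu = v ξ) := by
    intro ξ η s hl hS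
    rcases hS with ⟨rfl, hs⟩ | ⟨rfl, hs⟩
    · left; refine ⟨rfl, ?_⟩
      have e : mu = (η - ρ * ξ) - (lam - ρ) * ξ := by rw [hl]; ring
      rw [e]; refine v.map_sub_lt hs ?_
      rw [map_mul]
      exact mul_lt_of_lt_one_left (vpos_of_lt v hs) hlam
    · right; refine ⟨rfl, ?_⟩
      have e : mu = (η + ρ * ξ) - (lam + ρ) * ξ := by rw [hl]; ring
      have hv : v ((lam + ρ) * ξ) = v ξ := by rw [map_mul, hlp, one_mul]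
      rw [e, v.map_sub_eq_of_lt_right (by rw [hv]; exact hs), hv]
  have p₁ : v ξ₁ ≠ 0 := (vpos_of_lt v m₁).ne'
  have p₂ : v ξ₂ ≠ 0 := (vpos_of_lt v m₂).ne'
  have p₃ : v ξ₃ ≠ 0 := (vpos_of_lt v m₃).ne'
  have hm2 : v mu ^ 2 = v ξ₁ * v ξ₂ * v ξ₃ := by
    have := congrArg v h.e₃
    rw [map_mul, map_mul, map_pow] at this
    exact this.symm
  have hmu0 : 0 < v mu := by
    have : v mu ^ 2 ≠ 0 := by rw [hm2]; exact mul_ne_zero (mul_ne_zero p₁ p₂) p₃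
    exact zero_lt_iff.mpr (fun h0 => this (by rw [h0]; exact zero_pow two_ne_zero))
  have hpair : ∀ {a b c : Γ₀}, v mu ^ 2 = a * b * c → v mu < c → a * b < v mu := by
    intro a b c hm hc
    have h1 : a * b * c < v mu * c := by
      rw [← hm, sq]; exact mul_lt_mul_of_pos_left hc hmu0
    exact lt_of_mul_lt_mul_right h1 zero_le
  have hF : v mu < v ξ₁ → v mu < v ξ₂ → v mu < v ξ₃ → v be = v mu := by
    intro a1 a2 a3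
    have e : be = 2 * lam * mu + (ξ₁ * ξ₂ + ξ₁ * ξ₃ + ξ₂ * ξ₃) := by linear_combination -h.e₂
    have hv : v (2 * lam * mu) = v mu := by rw [map_mul, map_mul, hv2, hlam1, one_mul, one_mul]
    rw [e, v.map_add_eq_of_lt_left, hv]
    rw [hv]
    refine v.map_add_lt (v.map_add_lt ?_ ?_) ?_
    · rw [map_mul]; exact hpair hm2 a3
    · rw [map_mul]; exact hpair (by rw [hm2]; exact mul_right_comm _ _ _) a2
    · rw [map_mul]; exact hpair (by rw [hm2]; exact mul_rotate _ _ _) a1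
  exact sign_prod p₁ p₂ p₃ n₁ n₂ n₃ hm2 hF (P ξ₁ η₁ s₁ h.l₁ S₁) (P ξ₂ η₂ s₂ h.l₂ S₂)
    (P ξ₃ η₃ s₃ h.l₃ S₃)

/-- Signed triple law: for three collinear points in the middle region, with signs `sᵢ`
relative to a unit `ρ` with `ρ² ≡ al`, the signed product of the `v ξᵢ` is an even power
of `v be`. -/
theorem Coll.sgn_law {s₁ s₂ s₃ : ℤ} (h : Coll al be ξ₁ η₁ ξ₂ η₂ ξ₃ η₃ lam mu) (hv2 : v 2 = 1)
    (hρ1 : v ρ = 1) (hρ : v (ρ ^ 2 - al) < 1)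
    (m₁ : v be < v ξ₁) (n₁ : v ξ₁ < 1) (m₂ : v be < v ξ₂) (n₂ : v ξ₂ < 1)
    (m₃ : v be < v ξ₃) (n₃ : v ξ₃ < 1)
    (S₁ : Sgn v ρ ξ₁ η₁ s₁) (S₂ : Sgn v ρ ξ₂ η₂ s₂) (S₃ : Sgn v ρ ξ₃ η₃ s₃) :
    ∃ j : ℤ, v ξ₁ ^ s₁ * v ξ₂ ^ s₂ * v ξ₃ ^ s₃ = v be ^ (2 * j) := by
  have hprod : v ((lam - ρ) * (lam + ρ)) < 1 := by
    have e : (lam - ρ) * (lam + ρ) = (ξ₁ + ξ₂ + ξ₃) - (ρ ^ 2 - al) := by
      rw [h.e₁]; ring
    rw [e]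
    exact v.map_sub_lt (v.map_add_lt (v.map_add_lt n₁ n₂) n₃) hρ
  have hcase : v (lam - ρ) < 1 ∨ v (lam + ρ) < 1 := by
    by_contra hcon
    push Not at hcon
    rw [map_mul] at hprod
    exact absurd (one_le_mul_of_one_le_of_one_le hcon.1 hcon.2) (not_le.mpr hprod)
  rcases hcase with hl | hl
  · exact h.sgn_core hv2 hρ1 hl m₁ n₁ m₂ n₂ m₃ n₃ S₁ S₂ S₃
  · have hl' : v (lam - -ρ) < 1 := by rwa [sub_neg_eq_add]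
    obtain ⟨j, hj⟩ := h.sgn_core (ρ := -ρ) hv2 (by rwa [Valuation.map_neg]) hl' m₁ n₁ m₂ n₂ m₃ n₃
      S₁.neg_rho S₂.neg_rho S₃.neg_rho
    refine ⟨-j, ?_⟩
    have e : v ξ₁ ^ s₁ * v ξ₂ ^ s₂ * v ξ₃ ^ s₃ = (v ξ₁ ^ (-s₁) * v ξ₂ ^ (-s₂) * v ξ₃ ^ (-s₃))⁻¹ := by
      rw [zpow_neg, zpow_neg, zpow_neg, mul_inv, mul_inv, inv_inv, inv_inv, inv_inv]
    rw [e, hj, mul_neg, zpow_neg]

end sign

end Fermat.Agent.S05.helper5345
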