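import Fermat.Agent.S05.helper5345_Coll
import Fermat.Agent.S05.helper5_Spec

/-!
# S05-NODEVAL (helper5345): `nodeVal : NodeValStmt`

Signed component map relative to `ρ = η_T / ξ_T` (no square root of `al` needed), on the
symmetric Vieta package `Coll`:
* `E₀ = {O} ∪ {1 ≤ v ξ}` is a subgroup (`Coll.e0_closed`);
* points with `v ξ ≤ v be` double into `E₀` (`Coll.hi_hi`);
* hence all nonzero multiples of a `p`-torsion point `T` with `v ξ_T < 1` lie in the middle
  region `v be < v ξ < 1`, where the signed triple law `Coll.sgn_law` gives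
  `v ξ(kT) ^ (±1) = v ξ_T ^ k * v be ^ (2 j)`; `k = p - 1` yields `v ξ_T ^ p = v be ^ (2 j)`.
-/

set_option autoImplicit false

namespace Fermat.Agent.S05.helper5345

open WeierstrassCurve WeierstrassCurve.Affine
open Fermat.Agent.S05.helper305

variable {K : Type*} [Field K] [DecidableEq K]

/-- `ξ`-coordinate of a point (junk value `0` at the origin). -/
def xi (W : WeierstrassCurve K) (e : K) : W.toAffine.Point → K
  | .zero => 0
  | .some x _ _ => x - e

/-- `η`-coordinate of a point (junk value `0` at the origin). -/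
def et (W : WeierstrassCurve K) : W.toAffine.Point → K
  | .zero => 0
  | .some x y _ => eta W x y

variable {W : WeierstrassCurve K} {e al be : K}

omit [DecidableEq K] in
theorem xi_neg (P : W.toAffine.Point) : xi W e (-P) = xi W e P := by
  rcases P with _ | ⟨x, y, h⟩
  · rfl
  · rw [Point.neg_some]; rfl

omit [DecidableEq K] in
theorem et_neg (h2 : (2 : K) ≠ 0) (P : W.toAffine.Point) : et W (-P) = -et W P := by
  rcases P with _ | ⟨x, y, h⟩
  · show (0 : K) = -0
    rw [neg_zero]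
  · rw [Point.neg_some]
    exact eta_negY W h2 x y

omit [DecidableEq K] in
theorem curve (hS : Shape W e al be) {P : W.toAffine.Point} (hP : P ≠ 0) :
    et W P ^ 2 = xi W e P * (xi W e P ^ 2 + al * xi W e P + be) := by
  rcases P with _ | ⟨x, y, h⟩
  · exact absurd rfl hP
  · exact (hS.equation_iff x y).1 h.1

/-- Three nonzero points with zero sum are collinear. -/
theorem coll (hS : Shape W e al be) (P Q R : W.toAffine.Point) (hP : P ≠ 0) (hQ : Q ≠ 0)
    (hR : R ≠ 0) (h : P + Q + R = 0) :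
    ∃ lam mu, Coll al be (xi W e P) (et W P) (xi W e Q) (et W Q) (xi W e R) (et W R) lam mu := by
  have hR' : R = -(P + Q) := eq_neg_of_add_eq_zero_right h
  have hPQ : P + Q ≠ 0 := by
    intro h0
    rw [h0, neg_zero] at hR'
    exact hR hR'
  rcases P with _ | ⟨x₁, y₁, h₁⟩
  · exact absurd rfl hP
  rcases Q with _ | ⟨x₂, y₂, h₂⟩
  · exact absurd rfl hQ
  have hne : ¬(x₁ = x₂ ∧ y₁ = W.toAffine.negY x₂ y₂) := by
    rintro ⟨hx, hy⟩
    exact hPQ (Point.add_of_Y_eq hx hy)
  obtain ⟨x₃, y₃, h₃, lam, hsum, hrel⟩ := hS.add_some_rel h₁ h₂ hne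
  have hC := coll_of_addRel hrel
  rw [hsum] at hR'
  subst hR'
  refine ⟨lam, eta W x₁ y₁ - lam * (x₁ - e), ?_⟩
  rw [xi_neg, et_neg hS.two_ne]
  exact hC

section E0

variable {Γ₀ : Type*} [LinearOrderedCommGroupWithZero Γ₀] (v : Valuation K Γ₀)

/-- Membership in `E₀ = {O} ∪ {1 ≤ v ξ}`. -/
def InE0 (W : WeierstrassCurve K) (e : K) (P : W.toAffine.Point) : Prop :=
  P = 0 ∨ 1 ≤ v (xi W e P)

theorem inE0_add (hS : Shape W e al be) (hv2 : v 2 = 1) (hal : v al ≤ 1) (hbe : v be < 1)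
    {P Q : W.toAffine.Point} (hP : InE0 v W e P) (hQ : InE0 v W e Q) : InE0 v W e (P + Q) := by
  by_cases hP0 : P = 0
  · rw [hP0, zero_add]; exact hQ
  by_cases hQ0 : Q = 0
  · rw [hQ0, add_zero]; exact hP
  by_cases hPQ : P + Q = 0
  · exact Or.inl hPQ
  right
  obtain ⟨lam, mu, hC⟩ := coll hS P Q (-(P + Q)) hP0 hQ0 (neg_ne_zero.mpr hPQ) (add_neg_cancel _)
  have := hC.e0_closed v hv2 hal hbe (hP.resolve_left hP0) (hQ.resolve_left hQ0)
  rwa [xi_neg] at this

/-- `E₀` as a subgroup (multiplicative reduction: `v be < 1`). -/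
def E0 (hS : Shape W e al be) (hv2 : v 2 = 1) (hal : v al ≤ 1) (hbe : v be < 1) :
    AddSubgroup W.toAffine.Point where
  carrier := {P | InE0 v W e P}
  add_mem' := fun hP hQ => inE0_add v hS hv2 hal hbe hP hQ
  zero_mem' := Or.inl rfl
  neg_mem' := fun {P} hP => by
    rcases hP with h | h
    · left; rw [h, neg_zero]
    · right
      show 1 ≤ v (xi W e (-P))
      rwa [xi_neg]

/-- All multiples `k • T`, `p ∤ k`, of a `p`-torsion point near the node lie in the middle
region. -/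
theorem multiples_mid (hS : Shape W e al be) (hv2 : v 2 = 1) (hal : v al ≤ 1) (hbe : v be < 1)
    (hbe0 : be ≠ 0) {p : ℕ} (hp : p.Prime) (hp2 : p ≠ 2) {T : W.toAffine.Point}
    (hT : p • T = 0) (hT0 : T ≠ 0) (hT1 : v (xi W e T) < 1) (k : ℕ) (hk : ¬ p ∣ k) :
    k • T ≠ 0 ∧ v be < v (xi W e (k • T)) ∧ v (xi W e (k • T)) < 1 := by
  have hnot : ∀ m : ℕ, ¬ p ∣ m → ¬ InE0 v W e (m • T) := by
    intro m hm hin
    have hcop : IsCoprime (m : ℤ) (p : ℤ) := by
      rw [Int.isCoprime_iff_gcd_eq_one, Int.gcd_natCast_natCast]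
      exact ((Nat.Prime.coprime_iff_not_dvd hp).2 hm).symm
    obtain ⟨a, b, hab⟩ := hcop
    have hTeq : T = a • (m • T) := by
      have h1 : (a * m + b * p) • T = T := by rw [hab, one_zsmul]
      rw [add_zsmul, mul_zsmul, mul_zsmul, natCast_zsmul, natCast_zsmul, hT, zsmul_zero,
        add_zero] at h1
      exact h1.symm
    have hin' : InE0 v W e T := by
      have := (E0 v hS hv2 hal hbe).zsmul_mem hin a
      rw [← hTeq] at this
      exact this
    rcases hin' with h | h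
    · exact hT0 h
    · exact absurd hT1 (not_lt.mpr h)
  have h1 := hnot k hk
  have hk0 : k • T ≠ 0 := fun h => h1 (Or.inl h)
  have hk1 : v (xi W e (k • T)) < 1 := by
    by_contra h
    exact h1 (Or.inr (not_lt.mp h))
  refine ⟨hk0, ?_, hk1⟩
  by_contra hcon
  rw [not_lt] at hcon
  have h2k : ¬ p ∣ 2 * k := by
    intro h
    rcases (Nat.Prime.dvd_mul hp).1 h with h | h
    · exact hp2 ((Nat.prime_dvd_prime_iff_eq hp Nat.prime_two).1 h)
    · exact hk h
  apply hnot (2 * k) h2k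
  have e2 : (2 * k) • T = k • T + k • T := by rw [two_mul, add_nsmul]
  rw [e2]
  by_cases h0 : k • T + k • T = 0
  · exact Or.inl h0
  · right
    obtain ⟨lam, mu, hC⟩ := coll hS (k • T) (k • T) (-(k • T + k • T)) hk0 hk0
      (neg_ne_zero.mpr h0) (add_neg_cancel _)
    have := hC.hi_hi v hv2 hal hbe hbe0 hcon hcon
    rwa [xi_neg] at this

/-- Core of NODEVAL at point level. -/
theorem nodeval_core (hS : Shape W e al be) (hv2 : v 2 = 1) (hal : v al = 1) (hbe : v be < 1)
    (hbe0 : be ≠ 0) {p : ℕ} (hp : p.Prime) (hp2 : p ≠ 2) {T : W.toAffine.Point}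
    (hT : p • T = 0) (hT0 : T ≠ 0) (hT1 : v (xi W e T) < 1) :
    v be < v (xi W e T) ∧ ∃ j : ℤ, v (xi W e T) ^ p = v be ^ (2 * j) := by
  have h2 : (2 : K) ≠ 0 := hS.two_ne
  have hmid := fun k hk => multiples_mid v hS hv2 hal.le hbe hbe0 hp hp2 hT hT0 hT1 k hk
  have hb1 : v be < v (xi W e T) := by
    have := (hmid 1 (Nat.Prime.not_dvd_one hp)).2.1
    rwa [one_nsmul] at this
  refine ⟨hb1, ?_⟩
  have hg0 : v (xi W e T) ≠ 0 := (vpos_of_lt v hb1).ne'
  have hB0 : v be ≠ 0 := (Valuation.ne_zero_iff v).mpr hbe0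
  have hξ0 : xi W e T ≠ 0 := ne_zero_of_vpos v hb1
  have hcurve := curve hS hT0
  obtain ⟨ρ, hηρ⟩ : ∃ ρ, et W T = ρ * xi W e T := ⟨et W T / xi W e T, by field_simp⟩
  have hρ : v (ρ ^ 2 - al) < 1 := by
    have hc' : ρ ^ 2 * xi W e T = xi W e T ^ 2 + al * xi W e T + be := by
      rw [hηρ] at hcurve
      apply mul_left_cancel₀ hξ0
      linear_combination hcurve
    have e1 : ρ ^ 2 - al = xi W e T + be / xi W e T := by
      field_simp
      linear_combination hc'
    rw [e1]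
    exact v.map_add_lt hT1 (vdiv_lt_one v hb1)
  have hρ1 : v ρ = 1 := by
    apply v_eq_one_of_sq v
    have e1 : ρ ^ 2 = al + (ρ ^ 2 - al) := by ring
    rw [e1]
    exact veq_add_l v hal hρ
  have hST : Sgn v ρ (xi W e T) (et W T) 1 :=
    Or.inl ⟨rfl, by rw [hηρ, sub_self, map_zero]; exact vpos_of_lt v hb1⟩
  have key : ∀ k : ℕ, 1 ≤ k → k < p → ∃ s j : ℤ,
      Sgn v ρ (xi W e (k • T)) (et W (k • T)) s ∧
        v (xi W e (k • T)) ^ s = v (xi W e T) ^ k * v be ^ (2 * j) := by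
    intro k hk1
    induction k, hk1 using Nat.le_induction with
    | base =>
      intro _
      refine ⟨1, 0, ?_, ?_⟩
      · rw [one_nsmul]; exact hST
      · rw [one_nsmul, zpow_one, pow_one, mul_zero, zpow_zero, mul_one]
    | succ k hk ih =>
      intro hkp
      obtain ⟨s, j, hS1, hj⟩ := ih (by omega)
      have hkd : ¬ p ∣ k := Nat.not_dvd_of_pos_of_lt (by omega) (by omega)
      have hk1d : ¬ p ∣ k + 1 := Nat.not_dvd_of_pos_of_lt (by omega) hkp
      obtain ⟨hk0, hkb, hk1'⟩ := hmid k hkd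
      obtain ⟨hs0, hsb, hs1⟩ := hmid (k + 1) hk1d
      have hsum : k • T + T + -((k + 1) • T) = 0 := by rw [succ_nsmul, add_neg_cancel]
      obtain ⟨lam, mu, hC⟩ := coll hS (k • T) T (-((k + 1) • T)) hk0 hT0 (neg_ne_zero.mpr hs0) hsum
      have hc3 := curve hS (neg_ne_zero.mpr hs0)
      rw [xi_neg, et_neg h2] at hC hc3
      obtain ⟨s₃, hS3⟩ := sgn_exists (v := v) hρ hc3 hs1 hsb
      obtain ⟨j', hj'⟩ := hC.sgn_law hv2 hρ1 hρ hkb hk1' hb1 hT1 hsb hs1 hS1 hST hS3
      refine ⟨-s₃, j - j', ?_, ?_⟩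
      · have := hS3.neg_eta
        rwa [neg_neg] at this
      · rw [hj, zpow_one] at hj'
        rw [zpow_neg]
        apply inv_eq_of_mul_eq_one_left
        have hB2 : v be ^ (2 * j') ≠ 0 := zpow_ne_zero _ hB0
        calc v (xi W e T) ^ (k + 1) * v be ^ (2 * (j - j')) * v (xi W e ((k + 1) • T)) ^ s₃
            = (v (xi W e T) ^ k * v be ^ (2 * j) * v (xi W e T)
                * v (xi W e ((k + 1) • T)) ^ s₃) / v be ^ (2 * j') := by
              rw [pow_succ, mul_sub, zpow_sub₀ hB0, div_eq_mul_inv, div_eq_mul_inv]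
              ac_rfl
          _ = 1 := by rw [hj']; exact div_self hB2
  obtain ⟨s, j, hSf, hjf⟩ := key (p - 1) (by have := hp.two_le; omega)
    (by have := hp.two_le; omega)
  have hpm : (p - 1) • T = -T := by
    have h1 : (p - 1) • T + T = 0 := by
      rw [← succ_nsmul, Nat.sub_add_cancel hp.one_le, hT]
    exact eq_neg_of_add_eq_zero_left h1
  rw [hpm, xi_neg, et_neg h2] at hSf
  rw [hpm, xi_neg] at hjf
  have hneg : Sgn v ρ (xi W e T) (-et W T) (-1) :=
    Or.inr ⟨rfl, by rw [hηρ, neg_add_cancel, map_zero]; exact vpos_of_lt v hb1⟩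
  have hs : s = -1 := Sgn.unique hv2 hρ1 hSf hneg
  subst hs
  refine ⟨-j, ?_⟩
  have h1 : v (xi W e T) ^ p * v be ^ (2 * j) = 1 := by
    have e1 : v (xi W e T) ^ p = v (xi W e T) ^ (p - 1) * v (xi W e T) := by
      rw [← pow_succ, Nat.sub_add_cancel hp.one_le]
    rw [e1, mul_right_comm, ← hjf, zpow_neg_one, inv_mul_cancel₀ hg0]
  rw [mul_neg, zpow_neg]
  exact eq_inv_of_mul_eq_one_left h1

end E0

/-- **NODEVAL** (board row 131): the captain's `NodeValStmt`. -/
theorem nodeVal : Fermat.Agent.S05.helper5.NodeValStmt := by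
  intro K _ _ Γ₀ _ v W e al be hS hv2 hal hbe hbe0 p hp hp2 _ x y h hx hT
  exact nodeval_core v hS hv2 hal hbe hbe0 hp hp2 hT (Point.some_ne_zero h) hx

end Fermat.Agent.S05.helper5345
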