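import Fermat.Agent.S05.helper5_Spec
import Fermat.Agent.S05.helper1445_Top

/-!
# S05: adapter from the captain spec (`GoodStmt`, `MultStmt`) to helper1445's `LocalStatement`
-/

set_option autoImplicit false

namespace Fermat.Agent.S05.helper5

open WeierstrassCurve WeierstrassCurve.Affine WeierstrassCurve.Affine.Point
open Fermat.Agent.S05.helper305 (Shape)

local notation "Qbar" => AlgebraicClosure ℚ

/-- A Legendre-type model `⟨0, a₂, 0, a₄, 0⟩` over `ℚ`, base-changed to `Qbar`, has shape
`(0, a₂, a₄)`. -/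
theorem shape_of_legendre (W : WeierstrassCurve ℚ) (h1 : W.a₁ = 0) (h3 : W.a₃ = 0)
    (h6 : W.a₆ = 0) :
    Shape (W.map (algebraMap ℚ Qbar)) 0 (algebraMap ℚ Qbar W.a₂) (algebraMap ℚ Qbar W.a₄) := by
  refine ⟨two_ne_zero, ?_, ?_, ?_⟩
  · simp [WeierstrassCurve.b₂, h1]
  · simp [WeierstrassCurve.b₄, h1, h3]
  · simp [WeierstrassCurve.b₆, h3, h6]

/-- The captain-spec statements imply helper1445's `LocalStatement`. -/
theorem localStatement_of (hG : GoodStmt) (hM : MultStmt) :
    Fermat.Agent.S05.helper1445.LocalStatement := by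
  intro A W h1 h3 h6 h4 ha2 ha4 hv2 hdisc σ hσ1 hσ2 n hn hn2 hvn hor P hP
  have hS := shape_of_legendre W h1 h3 h6
  -- the inertia hypothesis in valuation form
  have hσ : ∀ x : Qbar, A.valuation x ≤ 1 → A.valuation ((σ : Qbar →+* Qbar) x - x) < 1 := by
    intro x hx
    have hxA : x ∈ A := (A.valuation_le_one_iff x).1 hx
    have := hσ2 x hxA
    rw [ValuationSubring.mem_nonunits_iff] at this
    exact this
  have hσrat : ∀ r : ℚ, (σ : Qbar →+* Qbar) (algebraMap ℚ Qbar r) = algebraMap ℚ Qbar r :=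
    fun r => σ.commutes r
  have hσe : (σ : Qbar →+* Qbar) 0 = 0 := _root_.map_zero _
  have hσa1 : (σ : Qbar →+* Qbar) (W.map (algebraMap ℚ Qbar)).a₁ = (W.map (algebraMap ℚ Qbar)).a₁ := by
    rw [WeierstrassCurve.map_a₁]; exact hσrat _
  have hσa3 : (σ : Qbar →+* Qbar) (W.map (algebraMap ℚ Qbar)).a₃ = (W.map (algebraMap ℚ Qbar)).a₃ := by
    rw [WeierstrassCurve.map_a₃]; exact hσrat _
  have hval2 : A.valuation (algebraMap ℚ Qbar W.a₂) ≤ 1 := (A.valuation_le_one_iff _).2 ha2
  have hval4 : A.valuation (algebraMap ℚ Qbar W.a₄) ≤ 1 := (A.valuation_le_one_iff _).2 ha4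
  have hdisc' : A.valuation ((algebraMap ℚ Qbar W.a₂) ^ 2 - 4 * (algebraMap ℚ Qbar W.a₄)) = 1 := by
    have : algebraMap ℚ Qbar (W.a₂ ^ 2 - 4 * W.a₄)
        = (algebraMap ℚ Qbar W.a₂) ^ 2 - 4 * (algebraMap ℚ Qbar W.a₄) := by
      simp
    rw [← this]; exact hdisc
  rcases P with _ | ⟨x, y, h⟩
  · exact smul_zero (A := (W⁄Qbar).Point) σ
  · -- the conjugate point
    have hmap : σ • (Point.some x y h : (W⁄Qbar).Point)
        = Point.some (σ x) (σ y) ((WeierstrassCurve.Affine.baseChange_nonsingular W σ.toAlgHom.injective x y).mpr h) :=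
      Point.map_some σ.toAlgHom h
    have hP' : n • (Point.some (σ x) (σ y)
        ((WeierstrassCurve.Affine.baseChange_nonsingular W σ.toAlgHom.injective x y).mpr h) : (W⁄Qbar).Point) = 0 := by
      rw [← hmap, algEquiv_smul_def, ← map_nsmul, hP, _root_.map_zero]
    have key : (σ : Qbar →+* Qbar) x = x ∧ (σ : Qbar →+* Qbar) y = y := by
      rcases hor with hgood | ⟨w, hw⟩
      · exact hG Qbar A.ValueGroup A.valuation (W.map (algebraMap ℚ Qbar)) 0 _ _ hS hv2 hval2 hgood
          hdisc' n hn hn2 hvn (σ : Qbar →+* Qbar) hσ hσe hσa1 hσa3 x y h _ hP hP'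
      · -- `v a₄ = v w ^ n`
        rcases lt_or_eq_of_le hval4 with hlt | heq
        · -- multiplicative case
          have hw1 : A.valuation (algebraMap ℚ Qbar w) < 1 := by
            by_contra hcon
            rw [not_lt] at hcon
            have : (1 : A.ValueGroup) ≤ A.valuation (algebraMap ℚ Qbar w) ^ n := one_le_pow₀ hcon
            rw [← hw] at this
            exact absurd hlt (not_lt.mpr this)
          have hw0 : algebraMap ℚ Qbar w ≠ 0 := by
            intro h0
            rw [h0, _root_.map_zero, zero_pow hn.ne_zero] at hw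
            have : algebraMap ℚ Qbar W.a₄ = 0 := (A.valuation.zero_iff).1 hw
            exact h4 ((map_eq_zero _).1 this)
          have hal : A.valuation (algebraMap ℚ Qbar W.a₂) = 1 := by
            by_contra hne
            have hlt2 : A.valuation (algebraMap ℚ Qbar W.a₂) < 1 := lt_of_le_of_ne hval2 hne
            have h4' : A.valuation (4 * algebraMap ℚ Qbar W.a₄) < 1 := by
              have h4le : A.valuation (4 : Qbar) ≤ 1 := by
                have : (4 : Qbar) = 2 * 2 := by norm_num
                rw [this, map_mul, hv2, one_mul]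
              rw [map_mul]
              exact lt_of_le_of_lt (mul_le_of_le_one_left' h4le) hlt
            have hsq : A.valuation ((algebraMap ℚ Qbar W.a₂) ^ 2) < 1 := by
              rw [map_pow]
              exact pow_lt_one₀ zero_le hlt2 two_ne_zero
            have := lt_of_le_of_lt (A.valuation.map_sub _ _) (max_lt hsq h4')
            rw [hdisc'] at this
            exact lt_irrefl _ this
          exact hM Qbar A.ValueGroup A.valuation (W.map (algebraMap ℚ Qbar)) 0 _ _ hS hv2 hal
            n hn hn2 hvn (σ : Qbar →+* Qbar) hσ hσe hσa1 hσa3 (algebraMap ℚ Qbar w) (hσrat w) hw0 hw1 hw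
            x y h _ hP hP'
        · exact hG Qbar A.ValueGroup A.valuation (W.map (algebraMap ℚ Qbar)) 0 _ _ hS hv2 hval2 heq
            hdisc' n hn hn2 hvn (σ : Qbar →+* Qbar) hσ hσe hσa1 hσa3 x y h _ hP hP'
    rw [hmap, Point.some.injEq]
    exact key

end Fermat.Agent.S05.helper5
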