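import Fermat.Statements.S05
import Fermat.Agent.S05.helper5_Adapter

set_option autoImplicit false
open WeierstrassCurve WeierstrassCurve.Affine WeierstrassCurve.Affine.Point
open CuspForm ModularFormClass UpperHalfPlane

namespace Fermat.Agent.S05.helper5

/-- S05 from the two spec statements (via helper1445.top and helper725 transfer). -/
theorem result_of (hG : GoodStmt) (hM : MultStmt) (P : FreyPackage) {q : ℕ} (hq : q.Prime)
    (hq2 : q ≠ 2) (hqp : q ≠ P.p) : P.GaloisRepUnramifiedAt q :=
  Fermat.Agent.S05.helper1445.top (localStatement_of hG hM) P hq hq2 hqp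

theorem target_of (hG : GoodStmt) (hM : MultStmt) : TargetStmt :=
  fun P _ hq hq2 hqp => result_of hG hM P hq hq2 hqp

end Fermat.Agent.S05.helper5
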