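/-
helper65 (S05): abstract "Kummer line" interface and its instance for Mathlib points in shape
coordinates (`ξ = x - e`, `η² = ξ(ξ² + al ξ + be)`), built on helper1745_XOnlyShape.

`KummerLine G al be X`: `G` an additive commutative group, `X : G → Option K` the `ξ`-coordinate
(`none` at the origin), satisfying the three x-only identities
* `ξ(P+Q) ξ(P-Q) (ξ₁-ξ₂)² = (ξ₁ξ₂ - be)²`
* `(ξ(P+Q) + ξ(P-Q)) (ξ₁-ξ₂)² = 2(ξ₁+ξ₂)(ξ₁ξ₂+be) + 4 al ξ₁ξ₂`
* `ξ(2P) · 4ξ(ξ²+al ξ+be) = (ξ²-be)²`.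
-/
import Mathlib
import Fermat.Agent.S05.helper1745_XOnlyShape

set_option autoImplicit false

namespace Fermat.Agent.S05.helper65

open WeierstrassCurve WeierstrassCurve.Affine
open Fermat.Agent.S05.helper305 (Shape)

variable {K : Type*} [Field K]

/-- Abstract x-only ("Kummer line") data of a curve `η² = ξ(ξ² + al ξ + be)`. -/
structure KummerLine (G : Type*) [AddCommGroup G] (al be : K) (X : G → Option K) : Prop where
  X_none : ∀ P, X P = none ↔ P = 0
  X_neg : ∀ P, X (-P) = X P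
  pair : ∀ P Q x₁ x₂, X P = some x₁ → X Q = some x₂ → x₁ ≠ x₂ →
    ∃ x₃ x₄, X (P + Q) = some x₃ ∧ X (P - Q) = some x₄ ∧
      x₃ * x₄ * (x₁ - x₂) ^ 2 = (x₁ * x₂ - be) ^ 2 ∧
      (x₃ + x₄) * (x₁ - x₂) ^ 2 = 2 * (x₁ + x₂) * (x₁ * x₂ + be) + 4 * al * x₁ * x₂
  same : ∀ P Q x, X P = some x → X Q = some x → P = Q ∨ P = -Q
  dbl : ∀ P x, X P = some x → x * (x ^ 2 + al * x + be) ≠ 0 →
    ∃ x₃, X (P + P) = some x₃ ∧ x₃ * (4 * (x * (x ^ 2 + al * x + be))) = (x ^ 2 - be) ^ 2
  dbl_zero : ∀ P x, X P = some x → x * (x ^ 2 + al * x + be) = 0 → P + P = 0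

/-- The shape coordinate `ξ = x - e` of a point (`none` at the origin). -/
def xi (W : WeierstrassCurve K) (e : K) : W.toAffine.Point → Option K
  | .zero => none
  | .some x _ _ => some (x - e)

@[simp] theorem xi_zero (W : WeierstrassCurve K) (e : K) :
    xi W e (0 : W.toAffine.Point) = none := rfl

@[simp] theorem xi_some (W : WeierstrassCurve K) (e : K) {x y : K}
    (h : W.toAffine.Nonsingular x y) : xi W e (Point.some x y h) = some (x - e) := rfl

/-- Mathlib points of a curve of shape `(e, al, be)` form a Kummer line. -/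
theorem kummerLine_of_shape [DecidableEq K] {W : WeierstrassCurve K} {e al be : K}
    (hS : Shape W e al be) : KummerLine W.toAffine.Point al be (xi W e) where
  X_none := by
    rintro (_ | ⟨x, y, h⟩)
    · exact ⟨fun _ => rfl, fun _ => rfl⟩
    · exact ⟨fun h' => by simp at h', fun h' => absurd h' (Point.some_ne_zero h)⟩
  X_neg := by
    rintro (_ | ⟨x, y, h⟩)
    · rfl
    · rfl
  pair := by
    rintro (_ | ⟨x₁, y₁, h₁⟩) (_ | ⟨x₂, y₂, h₂⟩) ξ₁ ξ₂ hP hQ hne
    · simp [xi] at hP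
    · simp [xi] at hP
    · simp [xi] at hQ
    · simp only [xi_some, Option.some.injEq] at hP hQ
      subst hP hQ
      have hx : x₁ ≠ x₂ := fun h => hne (by rw [h])
      obtain ⟨Xp, Yp, Xm, Ym, hp, hm, hadd, hsub, hprod, hsum⟩ :=
        Fermat.Agent.S05.helper1745.shape_exists_add_sub_some hS h₁ h₂ hx
      refine ⟨Xp - e, Xm - e, ?_, ?_, hprod, hsum⟩
      · rw [hadd]; rfl
      · rw [hsub]; rfl
  same := by
    rintro (_ | ⟨x₁, y₁, h₁⟩) (_ | ⟨x₂, y₂, h₂⟩) ξ hP hQ
    · simp [xi] at hP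
    · simp [xi] at hP
    · simp [xi] at hQ
    · simp only [xi_some, Option.some.injEq] at hP hQ
      have hx : x₁ = x₂ := by
        have := hP.trans hQ.symm
        linear_combination this
      exact Point.X_eq_iff.mp hx
  dbl := by
    rintro (_ | ⟨x, y, h⟩) ξ hP hne
    · simp [xi] at hP
    · simp only [xi_some, Option.some.injEq] at hP
      subst hP
      have hy : y ≠ W.toAffine.negY x y := fun hy =>
        hne ((Fermat.Agent.S05.helper1745.shape_y_eq_negY_iff hS h.1).mp hy)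
      obtain ⟨X', Y', h', hadd, hdup, _⟩ :=
        Fermat.Agent.S05.helper1745.shape_exists_add_self_some hS h hy
      exact ⟨X' - e, by rw [hadd]; rfl, hdup⟩
  dbl_zero := by
    rintro (_ | ⟨x, y, h⟩) ξ hP h0
    · simp [xi] at hP
    · simp only [xi_some, Option.some.injEq] at hP
      subst hP
      have hy : y = W.toAffine.negY x y :=
        (Fermat.Agent.S05.helper1745.shape_y_eq_negY_iff hS h.1).mpr h0
      exact Point.add_self_of_Y_eq hy

end Fermat.Agent.S05.helper65
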