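/-
helper65 (S05): the kernel of reduction has no torsion of order prime to the residue
characteristic, proved on an abstract Kummer line using only the x-only sum formula:
with `ζ = 1/ξ` one has `ζ(nP) = n² ζ(P) + ζ(P)² d` with `d` integral, for all `n`.
Consequence: `ker : KerStmt` (the captain's spec, helper5_Spec).
-/
import Mathlib
import Fermat.Agent.S05.helper5_Spec
import Fermat.Agent.S05.helper65_Kummer

set_option autoImplicit false

namespace Fermat.Agent.S05.helper65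

open WeierstrassCurve WeierstrassCurve.Affine
open Fermat.Agent.S05.helper305 (Shape)

variable {K : Type*} [Field K] {Γ₀ : Type*} [LinearOrderedCommGroupWithZero Γ₀]

/-- `ζ = 1/ξ`, with value `0` at the origin. -/
def zeta {G : Type*} (X : G → Option K) (P : G) : K :=
  match X P with
  | none => 0
  | some x => x⁻¹

theorem zeta_of_none {G : Type*} {X : G → Option K} {P : G} (h : X P = none) :
    zeta X P = 0 := by
  simp [zeta, h]

theorem zeta_of_some {G : Type*} {X : G → Option K} {P : G} {x : K} (h : X P = some x) :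
    zeta X P = x⁻¹ := by
  simp [zeta, h]

theorem val_natCast_le_one (v : Valuation K Γ₀) (n : ℕ) : v (n : K) ≤ 1 := by
  induction n with
  | zero => simp
  | succ n ih =>
    rw [Nat.cast_succ]
    exact v.map_add_le ih (by simp)

theorem val_two_le_one (v : Valuation K Γ₀) : v (2 : K) ≤ 1 := by
  have := val_natCast_le_one v 2
  simpa using this

theorem val_three_le_one (v : Valuation K Γ₀) : v (3 : K) ≤ 1 := by
  have := val_natCast_le_one v 3
  simpa using this

theorem val_four_le_one (v : Valuation K Γ₀) : v (4 : K) ≤ 1 := by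
  have := val_natCast_le_one v 4
  simpa using this

theorem mul_lt_one_left' {a b : Γ₀} (ha : a < 1) (hb : b ≤ 1) : a * b < 1 :=
  lt_of_le_of_lt (mul_le_of_le_one_right' hb) ha

theorem mul_lt_one_right' {a b : Γ₀} (ha : a ≤ 1) (hb : b < 1) : a * b < 1 :=
  lt_of_le_of_lt (mul_le_of_le_one_left' ha) hb

theorem sq_lt_one' {a : Γ₀} (ha : a < 1) : a ^ 2 < 1 := by
  rw [pow_two]; exact mul_lt_one_left' ha ha.le

section abstract

variable {G : Type*} [AddCommGroup G] {al be : K} {X : G → Option K}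

/-- One step of the `ζ`-recursion: for `P` in the kernel of reduction and `Q` in the kernel of
reduction (or zero), `ζ(Q+P) + ζ(Q-P) = 2ζ(Q) + 2ζ(P) + ζ(Q)ζ(P)c` with `c` integral. -/
theorem rel_step (v : Valuation K Γ₀) (hK : KummerLine G al be X)
    (hal : v al ≤ 1) (hbe : v be ≤ 1)
    {P Q : G} {x : K} (hP : X P = some x) (hx : 1 < v x)
    (hQ : Q = 0 ∨ ∃ x₁, X Q = some x₁ ∧ 1 < v x₁) :
    ∃ c : K, v c ≤ 1 ∧
      zeta X (Q + P) + zeta X (Q - P) = 2 * zeta X Q + 2 * x⁻¹ + zeta X Q * x⁻¹ * c ∧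
      (Q + P = 0 ∨ ∃ x₃, X (Q + P) = some x₃ ∧ x₃ ≠ 0) := by
  have hx0 : x ≠ 0 := by
    rintro rfl
    simp at hx
  have hζ : v x⁻¹ < 1 := (v.one_lt_val_iff hx0).mp hx
  have h2 : v (2 : K) ≤ 1 := val_two_le_one v
  have h3 : v (3 : K) ≤ 1 := val_three_le_one v
  have h4 : v (4 : K) ≤ 1 := val_four_le_one v
  rcases hQ with rfl | ⟨x₁, hQ, hx₁⟩
  · -- Q = 0
    refine ⟨0, by simp, ?_, Or.inr ⟨x, by rw [zero_add]; exact hP, hx0⟩⟩
    have h0 : zeta X (0 : G) = 0 := zeta_of_none ((hK.X_none 0).mpr rfl)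
    have h1 : zeta X (0 + P) = x⁻¹ := by rw [zero_add]; exact zeta_of_some hP
    have h2' : zeta X (0 - P) = x⁻¹ := by
      rw [zero_sub]; exact zeta_of_some ((hK.X_neg P).trans hP)
    rw [h0, h1, h2']; ring
  · have hx₁0 : x₁ ≠ 0 := by
      rintro rfl
      simp at hx₁
    have hζ₁ : v x₁⁻¹ < 1 := (v.one_lt_val_iff hx₁0).mp hx₁
    have hzQ : zeta X Q = x₁⁻¹ := zeta_of_some hQ
    by_cases hne : x₁ = x
    · -- same ξ: Q = P or Q = -P
      subst hne
      -- duplication data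
      set ζ := x₁⁻¹ with hζdef
      have hxζ : x₁ * ζ = 1 := mul_inv_cancel₀ hx₁0
      set u' := 1 + (al * ζ + be * ζ ^ 2) with hu'
      set u'' := 1 - be * ζ ^ 2 with hu''
      have hvu' : v u' = 1 := by
        apply v.map_one_add_of_lt
        apply v.map_add_lt
        · rw [v.map_mul]; exact mul_lt_one_right' hal hζ
        · rw [v.map_mul, v.map_pow]
          exact mul_lt_one_right' hbe (sq_lt_one' hζ)
      have hvu'' : v u'' = 1 := by
        apply v.map_one_sub_of_lt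
        rw [v.map_mul, v.map_pow]
        exact mul_lt_one_right' hbe (sq_lt_one' hζ)
      have hu'0 : u' ≠ 0 := by
        intro h; rw [h] at hvu'; simp at hvu'
      have hu''0 : u'' ≠ 0 := by
        intro h; rw [h] at hvu''; simp at hvu''
      have hc1 : x₁ ^ 2 + al * x₁ + be = x₁ ^ 2 * u' := by
        rw [hu']
        have : x₁ ^ 2 * (1 + (al * ζ + be * ζ ^ 2)) =
            x₁ ^ 2 + al * x₁ * (x₁ * ζ) + be * (x₁ * ζ) ^ 2 := by ring
        rw [this, hxζ]; ring
      have hc2 : x₁ ^ 2 - be = x₁ ^ 2 * u'' := by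
        rw [hu'']
        have : x₁ ^ 2 * (1 - be * ζ ^ 2) = x₁ ^ 2 - be * (x₁ * ζ) ^ 2 := by ring
        rw [this, hxζ]; ring
      have hcub : x₁ * (x₁ ^ 2 + al * x₁ + be) ≠ 0 := by
        rw [hc1]
        exact mul_ne_zero hx₁0 (mul_ne_zero (pow_ne_zero 2 hx₁0) hu'0)
      obtain ⟨x₃, h₃, hD⟩ := hK.dbl P x₁ hP hcub
      rw [hc1, hc2] at hD
      have hD' : x₃ * (4 * u') = x₁ * u'' ^ 2 := by
        have hx3 : x₁ ^ 3 ≠ 0 := pow_ne_zero 3 hx₁0
        apply mul_left_cancel₀ hx3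
        linear_combination hD
      have hx₃0 : x₃ ≠ 0 := by
        rintro rfl
        rw [zero_mul] at hD'
        exact mul_ne_zero hx₁0 (pow_ne_zero 2 hu''0) hD'.symm
      have h40 : (4 : K) ≠ 0 := by
        intro h4'
        rw [h4', zero_mul, mul_zero] at hD'
        exact mul_ne_zero hx₁0 (pow_ne_zero 2 hu''0) hD'.symm
      have hz₃ : x₃⁻¹ = 4 * u' * ζ / u'' ^ 2 := by
        rw [eq_div_iff (pow_ne_zero 2 hu''0)]
        have : x₃⁻¹ * (x₁ * u'' ^ 2) = 4 * u' := by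
          rw [← hD']; field_simp
        calc x₃⁻¹ * u'' ^ 2 = x₃⁻¹ * (x₁ * u'' ^ 2) * ζ := by
              have : x₃⁻¹ * (x₁ * u'' ^ 2) * ζ = x₃⁻¹ * u'' ^ 2 * (x₁ * ζ) := by ring
              rw [this, hxζ, mul_one]
          _ = 4 * u' * ζ := by rw [this]
      -- the integral constant
      refine ⟨4 * (al + 3 * be * ζ - be ^ 2 * ζ ^ 3) / u'' ^ 2, ?_, ?_, ?_⟩
      · rw [v.map_div, v.map_pow, hvu'', one_pow, div_one, v.map_mul]
        apply mul_le_one' h4
        apply v.map_sub_le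
        · apply v.map_add_le hal
          rw [v.map_mul, v.map_mul]
          exact mul_le_one' (mul_le_one' h3 hbe) hζ.le
        · rw [v.map_mul, v.map_pow, v.map_pow]
          exact mul_le_one' (pow_le_one' hbe 2) (pow_le_one' hζ.le 3)
      · rcases hK.same Q P x₁ hQ hP with rfl | rfl
        · -- Q = P
          have e1 : zeta X (Q + Q) = x₃⁻¹ := zeta_of_some h₃
          have e2 : zeta X (Q - Q) = 0 := by
            rw [sub_self]; exact zeta_of_none ((hK.X_none 0).mpr rfl)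
          rw [e1, e2, hzQ, hz₃]
          field_simp
          rw [hu', hu'']
          ring
        · -- Q = -P
          have e1 : zeta X (-P + P) = 0 := by
            rw [neg_add_cancel]; exact zeta_of_none ((hK.X_none 0).mpr rfl)
          have e2 : zeta X (-P - P) = x₃⁻¹ := by
            have : -P - P = -(P + P) := by abel
            rw [this]; exact zeta_of_some ((hK.X_neg _).trans h₃)
          rw [e1, e2, hzQ, hz₃]
          field_simp
          rw [hu', hu'']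
          ring
      · rcases hK.same Q P x₁ hQ hP with rfl | rfl
        · exact Or.inr ⟨x₃, h₃, hx₃0⟩
        · exact Or.inl (neg_add_cancel P)
    · -- different ξ: pair formulas
      obtain ⟨x₃, x₄, h₃, h₄, hPi, hS⟩ := hK.pair Q P x₁ x hQ hP hne
      set ζ₁ := x₁⁻¹ with hζ₁def
      set ζ₂ := x⁻¹ with hζ₂def
      have hx₁ζ : x₁ * ζ₁ = 1 := mul_inv_cancel₀ hx₁0
      have hxζ : x * ζ₂ = 1 := mul_inv_cancel₀ hx0
      set u := 1 - be * ζ₁ * ζ₂ with hu
      have hvu : v u = 1 := by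
        apply v.map_one_sub_of_lt
        rw [v.map_mul, v.map_mul]
        exact mul_lt_one_right' (mul_le_one' hbe hζ₁.le) hζ
      have hu0 : u ≠ 0 := by
        intro h; rw [h] at hvu; simp at hvu
      have hxx : x₁ * x ≠ 0 := mul_ne_zero hx₁0 hx0
      have e1 : x₁ - x = x₁ * x * (ζ₂ - ζ₁) := by
        have : x₁ * x * (ζ₂ - ζ₁) = x₁ * (x * ζ₂) - x * (x₁ * ζ₁) := by ring
        rw [this, hx₁ζ, hxζ]; ring
      have e2 : x₁ * x - be = x₁ * x * u := by
        rw [hu]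
        have : x₁ * x * (1 - be * ζ₁ * ζ₂) = x₁ * x - be * (x₁ * ζ₁) * (x * ζ₂) := by ring
        rw [this, hx₁ζ, hxζ]; ring
      have e3 : 2 * (x₁ + x) * (x₁ * x + be) + 4 * al * x₁ * x =
          (x₁ * x) ^ 2 * (2 * ((ζ₁ + ζ₂) * (1 + be * ζ₁ * ζ₂) + 2 * al * ζ₁ * ζ₂)) := by
        have : (x₁ * x) ^ 2 * (2 * ((ζ₁ + ζ₂) * (1 + be * ζ₁ * ζ₂) + 2 * al * ζ₁ * ζ₂)) =
            2 * (x * (x₁ * ζ₁) + x₁ * (x * ζ₂)) * (x₁ * x + be * (x₁ * ζ₁) * (x * ζ₂))
              + 4 * al * (x₁ * (x₁ * ζ₁)) * (x * (x * ζ₂)) := by ring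
        rw [this, hx₁ζ, hxζ]; ring
      rw [e1, e2] at hPi
      rw [e1, e3] at hS
      have hxx2 : (x₁ * x) ^ 2 ≠ 0 := pow_ne_zero 2 hxx
      have hPi' : x₃ * x₄ * (ζ₂ - ζ₁) ^ 2 = u ^ 2 := by
        apply mul_left_cancel₀ hxx2
        linear_combination hPi
      have hS' : (x₃ + x₄) * (ζ₂ - ζ₁) ^ 2 =
          2 * ((ζ₁ + ζ₂) * (1 + be * ζ₁ * ζ₂) + 2 * al * ζ₁ * ζ₂) := by
        apply mul_left_cancel₀ hxx2
        linear_combination hS
      have hu2 : u ^ 2 ≠ 0 := pow_ne_zero 2 hu0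
      have hx₃0 : x₃ ≠ 0 := by
        rintro rfl
        rw [zero_mul, zero_mul] at hPi'
        exact hu2 hPi'.symm
      have hx₄0 : x₄ ≠ 0 := by
        rintro rfl
        rw [mul_zero, zero_mul] at hPi'
        exact hu2 hPi'.symm
      have hd0 : (ζ₂ - ζ₁) ^ 2 ≠ 0 := by
        intro h
        rw [h, mul_zero] at hPi'
        exact hu2 hPi'.symm
      have hsum : x₃⁻¹ + x₄⁻¹ =
          2 * ((ζ₁ + ζ₂) * (1 + be * ζ₁ * ζ₂) + 2 * al * ζ₁ * ζ₂) / u ^ 2 := by
        rw [eq_div_iff hu2, ← hPi', ← hS']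
        field_simp
        ring
      refine ⟨2 * (2 * al + (ζ₁ + ζ₂) * (3 * be - be ^ 2 * ζ₁ * ζ₂)) / u ^ 2, ?_, ?_,
        Or.inr ⟨x₃, h₃, hx₃0⟩⟩
      · rw [v.map_div, v.map_pow, hvu, one_pow, div_one, v.map_mul]
        apply mul_le_one' h2
        apply v.map_add_le
        · rw [v.map_mul]; exact mul_le_one' h2 hal
        · rw [v.map_mul]
          apply mul_le_one' (v.map_add_le hζ₁.le hζ.le)
          apply v.map_sub_le
          · rw [v.map_mul]; exact mul_le_one' h3 hbe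
          · rw [v.map_mul, v.map_mul, v.map_pow]
            exact mul_le_one' (mul_le_one' (pow_le_one' hbe 2) hζ₁.le) hζ.le
      · have e4 : zeta X (Q + P) = x₃⁻¹ := zeta_of_some h₃
        have e5 : zeta X (Q - P) = x₄⁻¹ := zeta_of_some h₄
        rw [e4, e5, hzQ, hsum]
        field_simp
        rw [hu]
        ring

/-- The `ζ`-recursion: `ζ(nP) = n² ζ(P) + ζ(P)² d` with `d` integral, and `nP` stays in the
kernel of reduction. -/
theorem zeta_nsmul (v : Valuation K Γ₀) (hK : KummerLine G al be X)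
    (hal : v al ≤ 1) (hbe : v be ≤ 1)
    {P : G} {x : K} (hP : X P = some x) (hx : 1 < v x) (n : ℕ) :
    ∃ d : K, v d ≤ 1 ∧ zeta X (n • P) = (n : K) ^ 2 * x⁻¹ + x⁻¹ ^ 2 * d ∧
      (n • P = 0 ∨ ∃ x', X (n • P) = some x' ∧ 1 < v x') := by
  have hx0 : x ≠ 0 := by
    rintro rfl
    simp at hx
  have hζ : v x⁻¹ < 1 := (v.one_lt_val_iff hx0).mp hx
  have key : ∀ n : ℕ,
      (∃ d : K, v d ≤ 1 ∧ zeta X (n • P) = (n : K) ^ 2 * x⁻¹ + x⁻¹ ^ 2 * d ∧
        (n • P = 0 ∨ ∃ x', X (n • P) = some x' ∧ 1 < v x')) ∧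
      (∃ d : K, v d ≤ 1 ∧ zeta X ((n + 1) • P) = ((n + 1 : ℕ) : K) ^ 2 * x⁻¹ + x⁻¹ ^ 2 * d ∧
        ((n + 1) • P = 0 ∨ ∃ x', X ((n + 1) • P) = some x' ∧ 1 < v x')) := by
    intro n
    induction n with
    | zero =>
      refine ⟨⟨0, by simp, ?_, Or.inl (zero_nsmul P)⟩, ⟨0, by simp, ?_, Or.inr ⟨x, ?_, hx⟩⟩⟩
      · rw [zero_nsmul, zeta_of_none ((hK.X_none 0).mpr rfl)]; simp
      · rw [zero_add, one_nsmul, zeta_of_some hP]; simp
      · rw [zero_add, one_nsmul]; exact hP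
    | succ n ih =>
      obtain ⟨⟨d₀, hd₀, hz₀, _⟩, ⟨d₁, hd₁, hz₁, hE₁⟩⟩ := ih
      refine ⟨⟨d₁, hd₁, hz₁, hE₁⟩, ?_⟩
      obtain ⟨c, hc, hrel, hE⟩ := rel_step v hK hal hbe hP hx hE₁
      have hQP : (n + 1) • P + P = (n + 1 + 1) • P := (succ_nsmul P (n + 1)).symm
      have hQP' : (n + 1) • P - P = n • P := by
        rw [succ_nsmul]; abel
      rw [hQP, hQP', hz₀, hz₁] at hrel
      set d' : K := 2 * d₁ + (((n + 1 : ℕ) : K) ^ 2 + x⁻¹ * d₁) * c - d₀ with hd'
      have hz₂ : zeta X ((n + 1 + 1) • P) = ((n + 1 + 1 : ℕ) : K) ^ 2 * x⁻¹ + x⁻¹ ^ 2 * d' := by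
        rw [hd']
        push_cast
        push_cast at hrel
        linear_combination hrel
      have hvd' : v d' ≤ 1 := by
        rw [hd']
        apply v.map_sub_le _ hd₀
        apply v.map_add_le
        · rw [v.map_mul]; exact mul_le_one' (val_two_le_one v) hd₁
        · rw [v.map_mul]
          refine mul_le_one' (v.map_add_le ?_ ?_) hc
          · rw [v.map_pow]; exact pow_le_one' (val_natCast_le_one v _) 2
          · rw [v.map_mul]; exact mul_le_one' hζ.le hd₁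
      refine ⟨d', hvd', hz₂, ?_⟩
      rw [hQP] at hE
      rcases hE with h0 | ⟨x₃, h₃, hx₃0⟩
      · exact Or.inl h0
      · refine Or.inr ⟨x₃, h₃, ?_⟩
        rw [zeta_of_some h₃] at hz₂
        rw [v.one_lt_val_iff hx₃0, hz₂]
        have : ((n + 1 + 1 : ℕ) : K) ^ 2 * x⁻¹ + x⁻¹ ^ 2 * d' =
            x⁻¹ * (((n + 1 + 1 : ℕ) : K) ^ 2 + x⁻¹ * d') := by ring
        rw [this, v.map_mul]
        apply mul_lt_one_left' hζ
        apply v.map_add_le
        · rw [v.map_pow]; exact pow_le_one' (val_natCast_le_one v _) 2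
        · rw [v.map_mul]; exact mul_le_one' hζ.le hvd'
  exact (key n).1

/-- **No torsion in the kernel of reduction**: if `ξ(P)` is non-integral and `nP = 0`, then `n`
is a non-unit. -/
theorem val_natCast_lt_one_of_nsmul_eq_zero (v : Valuation K Γ₀) (hK : KummerLine G al be X)
    (hal : v al ≤ 1) (hbe : v be ≤ 1)
    {P : G} {x : K} (hP : X P = some x) (hx : 1 < v x) {n : ℕ} (hn : n • P = 0) :
    v (n : K) < 1 := by
  have hx0 : x ≠ 0 := by
    rintro rfl
    simp at hx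
  have hζ : v x⁻¹ < 1 := (v.one_lt_val_iff hx0).mp hx
  obtain ⟨d, hd, hz, _⟩ := zeta_nsmul v hK hal hbe hP hx n
  rw [hn, zeta_of_none ((hK.X_none 0).mpr rfl)] at hz
  have hζ0 : x⁻¹ ≠ 0 := inv_ne_zero hx0
  have hn2 : (n : K) ^ 2 = -(x⁻¹ * d) := by
    apply mul_left_cancel₀ hζ0
    linear_combination -hz
  by_contra hcon
  have h1 : 1 ≤ v (n : K) := not_lt.mp hcon
  have h2 : v ((n : K) ^ 2) < 1 := by
    rw [hn2, v.map_neg, v.map_mul]
    exact mul_lt_one_left' hζ hd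
  rw [v.map_pow] at h2
  exact absurd h2 (not_lt.mpr (one_le_pow_of_one_le' h1 2))

end abstract

/-- **KER** (captain's spec): the kernel of reduction contains no point of order `p` when `p`
is a unit. -/
theorem ker : Fermat.Agent.S05.helper5.KerStmt := by
  intro K _ _ Γ₀ _ v W e al be hS _ hal hbe p _ _ hp x y h hx hcon
  have hK := kummerLine_of_shape hS
  have := val_natCast_lt_one_of_nsmul_eq_zero v hK hal hbe (xi_some W e h) hx hcon
  rw [hp] at this
  exact lt_irrefl _ this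

end Fermat.Agent.S05.helper65
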