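/-
S05, KER (kernel of reduction has no torsion of unit order), x-only route at point level.

With `ζ = 1/(x - e)` (and `ζ(O) = 0`) on the kernel of reduction `E₁ = {O} ∪ {1 < v (x - e)}`:
`v (ζ(nP) - n² ζ(P)) < v (ζ(P))` for all `n`, by a two-step induction on the Kummer-line
sum identity and the duplication identity (`helper1745_XOnlyShape`).
-/
import Mathlib
import Fermat.Agent.S05.helper1745_XOnlyShape
import Fermat.Agent.S05.helper5_Spec

set_option autoImplicit false

namespace Fermat.Agent.S05.helper703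

open WeierstrassCurve WeierstrassCurve.Affine
open Fermat.Agent.S05.helper305 (Shape)

section Abstract

variable {K : Type*} [Field K] {Γ₀ : Type*} [LinearOrderedCommGroupWithZero Γ₀]
variable {G : Type*} [AddCommGroup G]

theorem val_natCast_le_one (v : Valuation K Γ₀) (n : ℕ) : v (n : K) ≤ 1 := by
  induction n with
  | zero => simp
  | succ n ih =>
    rw [Nat.cast_succ]
    exact Valuation.map_add_le v ih (by simp)

theorem mul_lt_one_of_le_of_lt₀ {x y : Γ₀} (hx : x ≤ 1) (hy : y < 1) : x * y < 1 := by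
  rw [mul_comm]; exact mul_lt_one_of_lt_of_le hy hx

theorem val_lt_one_of_sq {v : Valuation K Γ₀} {c : K} (h : v (c ^ 2) < 1) : v c < 1 := by
  rw [map_pow] at h
  by_contra hc
  exact absurd (one_le_pow_of_one_le' (not_lt.mp hc) 2) (not_le.mpr h)

/-- Abstract two-step induction: on a "kernel" `E` of an abelian group with an even coordinate
`Z` (`Z = 1/x`) satisfying the Kummer-line sum estimate and the duplication estimate,
`Z (n • P) ≡ n² Z P` modulo `Z P · 𝔪`. -/
theorem abstract_nsmul (v : Valuation K Γ₀) (E : Set G) (Z : G → K)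
    (h2 : v 2 = 1)
    (zero_mem : (0 : G) ∈ E) (Z_zero : Z 0 = 0)
    (Z_ne : ∀ P ∈ E, P ≠ 0 → Z P ≠ 0)
    (Z_lt : ∀ P ∈ E, P ≠ 0 → v (Z P) < 1)
    (Z_neg : ∀ P, Z (-P) = Z P)
    (inj : ∀ P ∈ E, ∀ Q ∈ E, P ≠ 0 → Q ≠ 0 → Z P = Z Q → P = Q ∨ P = -Q)
    (add : ∀ P ∈ E, ∀ Q ∈ E, P ≠ 0 → Q ≠ 0 → Z P ≠ Z Q →
      P + Q ∈ E ∧ v (Z (P + Q) + Z (P - Q) - 2 * (Z P + Z Q)) ≤ v (Z P) * v (Z Q))
    (dbl : ∀ P ∈ E, P ≠ 0 → P + P ∈ E ∧ v (Z (P + P) - 4 * Z P) ≤ v (Z P) * v (Z P))
    (P : G) (hP : P ∈ E) (hP0 : P ≠ 0) (n : ℕ) :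
    n • P ∈ E ∧ v (Z (n • P) - (n : K) ^ 2 * Z P) < v (Z P) := by
  have ht0 : 0 < v (Z P) := by
    rw [pos_iff_ne_zero]
    exact (Valuation.ne_zero_iff v).mpr (Z_ne P hP hP0)
  have ht1 : v (Z P) < 1 := Z_lt P hP hP0
  have hdP := dbl P hP hP0
  have hd : v (Z (P + P) - 4 * Z P) < v (Z P) :=
    lt_of_le_of_lt hdP.2 (mul_lt_of_lt_one_left ht0 ht1)
  have h4 : v (4 : K) = 1 := by
    have : (4 : K) = 2 * 2 := by norm_num
    rw [this, map_mul, h2, one_mul]
  have key : ∀ c : K, v (c * Z P) < v (Z P) → v c < 1 := by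
    intro c hc
    rw [map_mul] at hc
    by_contra h
    exact absurd (le_mul_of_one_le_left' (not_lt.mp h)) (not_le.mpr hc)
  have key' : ∀ c : K, v c < 1 → v (c * Z P) < v (Z P) := by
    intro c hc
    rw [map_mul]
    exact mul_lt_of_lt_one_left ht0 hc
  have natle := val_natCast_le_one v
  induction n using Nat.twoStepInduction with
  | zero => simp [zero_mem, Z_zero, ht0]
  | one => simp [hP, ht0]
  | more n ih0 ih1 =>
    obtain ⟨-, hn⟩ := ih0
    obtain ⟨hmE, hm⟩ := ih1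
    have e2 : (n + 2) • P = (n + 1) • P + P := succ_nsmul P (n + 1)
    have e1 : (n + 1) • P = n • P + P := succ_nsmul P n
    by_cases hQ0 : (n + 1) • P = 0
    · -- `(n+1)P = O`
      have e : (n + 2) • P = P := by rw [e2, hQ0, zero_add]
      rw [hQ0, Z_zero] at hm
      have hv : v (((n + 1 : ℕ) : K)) < 1 := by
        apply val_lt_one_of_sq
        have := key (-((n + 1 : ℕ) : K) ^ 2) (by convert hm using 2; ring)
        rwa [Valuation.map_neg] at this
      rw [e]
      refine ⟨hP, ?_⟩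
      have : Z P - ((n + 2 : ℕ) : K) ^ 2 * Z P
          = (-(((n + 1 : ℕ) : K) * ((n + 3 : ℕ) : K))) * Z P := by
        push_cast; ring
      rw [this]
      apply key'
      rw [Valuation.map_neg, map_mul]
      exact mul_lt_one_of_lt_of_le hv (natle _)
    · by_cases hZ : Z ((n + 1) • P) = Z P
      · rcases inj _ hmE P hP hQ0 hP0 hZ with h | h
        · -- `(n+1)P = P`, so `nP = O`
          have hn0 : n • P = 0 := by
            have : n • P + P = 0 + P := by rw [← e1, h, zero_add]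
            exact add_right_cancel this
          rw [hn0, Z_zero] at hn
          have hv : v ((n : K)) < 1 := by
            apply val_lt_one_of_sq
            have := key (-(n : K) ^ 2) (by convert hn using 2; ring)
            rwa [Valuation.map_neg] at this
          have e : (n + 2) • P = P + P := by rw [e2, h]
          rw [e]
          refine ⟨hdP.1, ?_⟩
          have : Z (P + P) - ((n + 2 : ℕ) : K) ^ 2 * Z P
              = (Z (P + P) - 4 * Z P) - ((n : K) * ((n + 4 : ℕ) : K)) * Z P := by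
            push_cast; ring
          rw [this]
          refine Valuation.map_sub_lt v hd (key' _ ?_)
          rw [map_mul]
          exact mul_lt_one_of_lt_of_le hv (natle _)
        · -- `(n+1)P = -P`, so `(n+2)P = O`
          have e : (n + 2) • P = 0 := by rw [e2, h, neg_add_cancel]
          rw [e, Z_zero]
          refine ⟨zero_mem, ?_⟩
          rw [h, Z_neg] at hm
          have h1 : v ((n : K) * ((n + 2 : ℕ) : K)) < 1 := by
            have := key (-((n : K) * ((n + 2 : ℕ) : K))) (by convert hm using 2; push_cast; ring)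
            rwa [Valuation.map_neg] at this
          have hv : v (((n + 2 : ℕ) : K)) < 1 := by
            by_contra hcon
            have hcon' : v (((n + 2 : ℕ) : K)) = 1 :=
              le_antisymm (natle _) (not_lt.mp hcon)
            rw [map_mul, hcon', mul_one] at h1
            have hnP : n • P = -(P + P) := by
              have : n • P + P = -(P + P) + P := by rw [← e1, h]; abel
              exact add_right_cancel this
            rw [hnP, Z_neg] at hn
            have h3 : v ((4 - (n : K) ^ 2) * Z P) < v (Z P) := by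
              have : (4 - (n : K) ^ 2) * Z P
                  = (Z (P + P) - (n : K) ^ 2 * Z P) - (Z (P + P) - 4 * Z P) := by ring
              rw [this]; exact Valuation.map_sub_lt v hn hd
            have h5 := key _ h3
            have h6 : v ((n : K) ^ 2) < 1 := by
              rw [pow_two, map_mul]
              exact mul_lt_one_of_lt_of_le h1 h1.le
            have h7 : v (4 : K) < 1 := by
              have : (4 : K) = (4 - (n : K) ^ 2) + (n : K) ^ 2 := by ring
              rw [this]; exact Valuation.map_add_lt v h5 h6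
            rw [h4] at h7; exact lt_irrefl _ h7
          have : (0 : K) - ((n + 2 : ℕ) : K) ^ 2 * Z P
              = (-(((n + 2 : ℕ) : K) * ((n + 2 : ℕ) : K))) * Z P := by ring
          rw [this]
          apply key'
          rw [Valuation.map_neg, map_mul]
          exact mul_lt_one_of_lt_of_le hv hv.le
      · -- generic case: Kummer-line sum identity for `((n+1)P, P)`
        obtain ⟨hE, hest⟩ := add _ hmE P hP hQ0 hP0 hZ
        have e' : (n + 1) • P - P = n • P := by rw [e1, add_sub_cancel_right]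
        rw [← e2, e'] at hest
        rw [← e2] at hE
        refine ⟨hE, ?_⟩
        have hlt : v (Z ((n + 1) • P)) * v (Z P) < v (Z P) :=
          mul_lt_of_lt_one_left ht0 (Z_lt _ hmE hQ0)
        have h1 := lt_of_le_of_lt hest hlt
        have : Z ((n + 2) • P) - ((n + 2 : ℕ) : K) ^ 2 * Z P =
            (Z ((n + 2) • P) + Z (n • P) - 2 * (Z ((n + 1) • P) + Z P))
              - (Z (n • P) - (n : K) ^ 2 * Z P)
              + 2 * (Z ((n + 1) • P) - ((n + 1 : ℕ) : K) ^ 2 * Z P) := by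
          push_cast; ring
        rw [this]
        refine Valuation.map_add_lt v (Valuation.map_sub_lt v h1 hn) ?_
        rw [map_mul, h2, one_mul]; exact hm

end Abstract


section FieldLemmas

variable {K : Type*} [Field K] {Γ₀ : Type*} [LinearOrderedCommGroupWithZero Γ₀]
variable (v : Valuation K Γ₀)

/-- Duplication estimate in the coordinate `z = 1/X`. -/
theorem field_dbl {a b X X' : K} (ha : v a ≤ 1) (hb : v b ≤ 1) (h2 : v 2 = 1)
    (hX0 : X⁻¹ ≠ 0) (hX : v X⁻¹ < 1)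
    (hD : X' * (4 * (X * (X ^ 2 + a * X + b))) = (X ^ 2 - b) ^ 2) :
    X'⁻¹ ≠ 0 ∧ v X'⁻¹ < 1 ∧ v (X'⁻¹ - 4 * X⁻¹) ≤ v X⁻¹ * v X⁻¹ := by
  have hXne : X ≠ 0 := fun h => hX0 (by rw [h, inv_zero])
  obtain ⟨z, hz⟩ : ∃ z, z = X⁻¹ := ⟨_, rfl⟩
  have hXz : X = z⁻¹ := by rw [hz, inv_inv]
  rw [← hz] at hX0 hX ⊢
  subst hXz
  have h4 : v (4 : K) = 1 := by
    have : (4 : K) = 2 * 2 := by norm_num
    rw [this, map_mul, h2, one_mul]
  have hza : a ∈ v.integer := ha
  have hzb : b ∈ v.integer := hb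
  have hzz : z ∈ v.integer := hX.le
  have hbz : v (b * z ^ 2) < 1 := by
    rw [pow_two, ← mul_assoc, map_mul]
    exact mul_lt_one_of_le_of_lt₀ (show v (b * z) ≤ 1 from mul_mem hzb hzz) hX
  have hDv : v (1 - b * z ^ 2) = 1 := Valuation.map_one_sub_of_lt v hbz
  have hD0 : 1 - b * z ^ 2 ≠ 0 := by
    intro h; rw [h, map_zero] at hDv; exact zero_ne_one hDv
  have hUv : v (1 + (a * z + b * z ^ 2)) = 1 := by
    apply Valuation.map_one_add_of_lt
    refine Valuation.map_add_lt v ?_ hbz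
    rw [map_mul]
    exact mul_lt_one_of_le_of_lt₀ ha hX
  have hU0 : 1 + (a * z + b * z ^ 2) ≠ 0 := by
    intro h; rw [h, map_zero] at hUv; exact zero_ne_one hUv
  -- the identity in `z`
  have hid : X' * (4 * z * (1 + (a * z + b * z ^ 2))) = (1 - b * z ^ 2) ^ 2 := by
    field_simp at hD
    linear_combination hD
  have hX'0 : X' ≠ 0 := by
    intro h
    rw [h, zero_mul] at hid
    exact hD0 ((pow_eq_zero_iff (two_ne_zero)).mp hid.symm)
  have hinv : X'⁻¹ = 4 * z * (1 + (a * z + b * z ^ 2)) / (1 - b * z ^ 2) ^ 2 := by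
    rw [eq_div_iff (pow_ne_zero 2 hD0), ← hid]
    field_simp
  refine ⟨inv_ne_zero hX'0, ?_, ?_⟩
  · rw [hinv, map_div₀, map_pow, hDv, map_mul, map_mul, h4, hUv]
    simpa using hX
  · have hM : a + 3 * b * z - b ^ 2 * z ^ 3 ∈ v.integer :=
      sub_mem (add_mem hza (mul_mem (mul_mem (ofNat_mem _ 3) hzb) hzz))
        (mul_mem (pow_mem hzb 2) (pow_mem hzz 3))
    have : X'⁻¹ - 4 * z = 4 * (z * z * (a + 3 * b * z - b ^ 2 * z ^ 3)) / (1 - b * z ^ 2) ^ 2 := by
      have hDD := pow_ne_zero 2 hD0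
      rw [hinv, eq_div_iff hDD, sub_mul, div_mul_cancel₀ _ hDD]
      ring
    rw [this, map_div₀, map_pow, hDv, map_mul, h4, map_mul, map_mul]
    simp only [one_pow, div_one, one_mul]
    exact mul_le_of_le_one_right' hM

/-- Sum/product estimate in the coordinates `z = 1/X`. -/
theorem field_add {a b X₁ X₂ Xp Xm : K} (ha : v a ≤ 1) (hb : v b ≤ 1)
    (h10 : X₁⁻¹ ≠ 0) (h1 : v X₁⁻¹ < 1) (h20 : X₂⁻¹ ≠ 0) (h2 : v X₂⁻¹ < 1) (hne : X₁ ≠ X₂)
    (hP : Xp * Xm * (X₁ - X₂) ^ 2 = (X₁ * X₂ - b) ^ 2)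
    (hS : (Xp + Xm) * (X₁ - X₂) ^ 2 = 2 * (X₁ + X₂) * (X₁ * X₂ + b) + 4 * a * X₁ * X₂) :
    (Xp⁻¹ ≠ 0 ∧ v Xp⁻¹ < 1) ∧ (Xm⁻¹ ≠ 0 ∧ v Xm⁻¹ < 1) ∧
      v (Xp⁻¹ + Xm⁻¹ - 2 * (X₁⁻¹ + X₂⁻¹)) ≤ v X₁⁻¹ * v X₂⁻¹ := by
  obtain ⟨z₁, hz₁⟩ : ∃ z, z = X₁⁻¹ := ⟨_, rfl⟩
  obtain ⟨z₂, hz₂⟩ : ∃ z, z = X₂⁻¹ := ⟨_, rfl⟩
  have hX₁ : X₁ = z₁⁻¹ := by rw [hz₁, inv_inv]
  have hX₂ : X₂ = z₂⁻¹ := by rw [hz₂, inv_inv]
  rw [← hz₁] at h10 h1 ⊢
  rw [← hz₂] at h20 h2 ⊢
  subst hX₁ hX₂
  have hzne : z₂ - z₁ ≠ 0 := by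
    intro h
    apply hne
    rw [sub_eq_zero.mp h]
  have hza : a ∈ v.integer := ha
  have hzb : b ∈ v.integer := hb
  have hz1 : z₁ ∈ v.integer := h1.le
  have hz2 : z₂ ∈ v.integer := h2.le
  have hbz : v (b * z₁ * z₂) < 1 := by
    rw [map_mul]
    exact mul_lt_one_of_le_of_lt₀ (show v (b * z₁) ≤ 1 from mul_mem hzb hz1) h2
  have hDv : v (1 - b * z₁ * z₂) = 1 := Valuation.map_one_sub_of_lt v hbz
  have hD0 : 1 - b * z₁ * z₂ ≠ 0 := by
    intro h; rw [h, map_zero] at hDv; exact zero_ne_one hDv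
  have hπ : Xp * Xm * (z₂ - z₁) ^ 2 = (1 - b * z₁ * z₂) ^ 2 := by
    field_simp at hP
    linear_combination hP
  have hσ : (Xp + Xm) * (z₂ - z₁) ^ 2
      = 2 * (z₁ + z₂) * (1 + b * z₁ * z₂) + 4 * a * z₁ * z₂ := by
    field_simp at hS
    linear_combination hS
  have hXpm : Xp * Xm ≠ 0 := by
    intro h
    rw [h, zero_mul] at hπ
    exact hD0 ((pow_eq_zero_iff (two_ne_zero)).mp hπ.symm)
  have hXp0 : Xp ≠ 0 := left_ne_zero_of_mul hXpm
  have hXm0 : Xm ≠ 0 := right_ne_zero_of_mul hXpm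
  have hprod : Xp⁻¹ * Xm⁻¹ = (z₂ - z₁) ^ 2 / (1 - b * z₁ * z₂) ^ 2 := by
    rw [eq_div_iff (pow_ne_zero 2 hD0), ← hπ]
    field_simp
  have hsum : Xp⁻¹ + Xm⁻¹
      = (2 * (z₁ + z₂) * (1 + b * z₁ * z₂) + 4 * a * z₁ * z₂) / (1 - b * z₁ * z₂) ^ 2 := by
    rw [eq_div_iff (pow_ne_zero 2 hD0), ← hσ, ← hπ]
    field_simp
    ring
  have hz21 : v (z₂ - z₁) < 1 := Valuation.map_sub_lt v h2 h1
  have hvprod : v (Xp⁻¹ * Xm⁻¹) < 1 := by
    rw [hprod, map_div₀, map_pow, map_pow, hDv, one_pow, div_one, pow_two]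
    exact mul_lt_one_of_lt_of_le hz21 hz21.le
  have h2le : v (2 : K) ≤ 1 := by
    have := val_natCast_le_one v 2
    simpa using this
  have h4le : v (4 : K) ≤ 1 := by
    have := val_natCast_le_one v 4
    simpa using this
  have hvsum : v (Xp⁻¹ + Xm⁻¹) < 1 := by
    rw [hsum, map_div₀, map_pow, hDv, one_pow, div_one]
    refine Valuation.map_add_lt v ?_ ?_
    · have : 2 * (z₁ + z₂) * (1 + b * z₁ * z₂) = (z₁ + z₂) * (2 * (1 + b * z₁ * z₂)) := by ring
      rw [this, map_mul]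
      refine mul_lt_one_of_lt_of_le (Valuation.map_add_lt v h1 h2) ?_
      exact (mul_mem (ofNat_mem v.integer 2)
        (add_mem (one_mem _) (mul_mem (mul_mem hzb hz1) hz2)) : _ ∈ v.integer)
    · rw [map_mul]
      exact mul_lt_one_of_le_of_lt₀
        (show v (4 * a * z₁) ≤ 1 from mul_mem (mul_mem (ofNat_mem v.integer 4) hza) hz1) h2
  -- both roots of `T² - sT + π` are small
  have root : ∀ u w : K, v (u * w) < 1 → v (u + w) < 1 → v u < 1 := by
    intro u w hπ' hσ'
    by_contra hcon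
    have hu1 : 1 ≤ v u := not_lt.mp hcon
    have hu0 : 0 < v u := lt_of_lt_of_le zero_lt_one hu1
    have hsq : u * u = (u + w) * u - u * w := by ring
    have hlt : v (u * u) < v u * v u := by
      rw [hsq]
      refine Valuation.map_sub_lt v ?_ ?_
      · rw [map_mul]
        exact mul_lt_mul_of_pos_right (lt_of_lt_of_le hσ' hu1) hu0
      · exact lt_of_lt_of_le hπ' (one_le_mul_of_one_le_of_one_le hu1 hu1)
    rw [map_mul] at hlt
    exact lt_irrefl _ hlt
  refine ⟨⟨inv_ne_zero hXp0, root _ _ hvprod hvsum⟩,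
    ⟨inv_ne_zero hXm0, root _ _ (by rwa [mul_comm]) (by rwa [add_comm])⟩, ?_⟩
  have hM : 2 * (z₁ + z₂) * (3 * b - b ^ 2 * z₁ * z₂) + 4 * a ∈ v.integer :=
    add_mem (mul_mem (mul_mem (ofNat_mem _ 2) (add_mem hz1 hz2))
      (sub_mem (mul_mem (ofNat_mem _ 3) hzb) (mul_mem (mul_mem (pow_mem hzb 2) hz1) hz2)))
      (mul_mem (ofNat_mem _ 4) hza)
  have : Xp⁻¹ + Xm⁻¹ - 2 * (z₁ + z₂)
      = z₁ * z₂ * (2 * (z₁ + z₂) * (3 * b - b ^ 2 * z₁ * z₂) + 4 * a)
        / (1 - b * z₁ * z₂) ^ 2 := by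
    have hDD := pow_ne_zero 2 hD0
    rw [hsum, eq_div_iff hDD, sub_mul, div_mul_cancel₀ _ hDD]
    ring
  rw [this, map_div₀, map_pow, hDv, one_pow, div_one, map_mul, map_mul]
  exact mul_le_of_le_one_right' hM

end FieldLemmas

section PointLevel

variable {K : Type} [Field K] {Γ₀ : Type} [LinearOrderedCommGroupWithZero Γ₀]

/-- The coordinate `ζ = 1/(x - e)` on points, with `ζ(O) = 0`. -/
def zeta (W : WeierstrassCurve K) (e : K) : W.toAffine.Point → K
  | .zero => 0
  | .some x _ _ => (x - e)⁻¹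

/-- The kernel of reduction: `O` together with the points with `1 < v (x - e)`. -/
def kerSet (v : Valuation K Γ₀) (W : WeierstrassCurve K) (e : K) : Set W.toAffine.Point :=
  {P | P = 0 ∨ (zeta W e P ≠ 0 ∧ v (zeta W e P) < 1)}

theorem zeta_zero (W : WeierstrassCurve K) (e : K) : zeta W e (0 : W.toAffine.Point) = 0 := rfl

theorem zeta_some (W : WeierstrassCurve K) (e : K) {x y : K} (h : W.toAffine.Nonsingular x y) :
    zeta W e (Point.some x y h) = (x - e)⁻¹ := rfl

theorem zeta_neg (W : WeierstrassCurve K) (e : K) (P : W.toAffine.Point) :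
    zeta W e (-P) = zeta W e P := by
  rcases P with _ | ⟨x, y, h⟩
  · rfl
  · rfl

/-- **KER**: the kernel of reduction has no torsion of unit order. -/
theorem ker : Fermat.Agent.S05.helper5.KerStmt := by
  intro K _ _ Γ₀ _ v W e al be hS h2 hal hbe p _ _ hvp x y h hx hpP
  have hmain := abstract_nsmul v (kerSet v W e) (zeta W e) h2
    (Or.inl rfl) (zeta_zero W e)
    (fun P hP hP0 => (hP.resolve_left hP0).1)
    (fun P hP hP0 => (hP.resolve_left hP0).2)
    (zeta_neg W e)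
    (by
      intro P _ Q _ hP0 hQ0 hZ
      rcases P with _ | ⟨x₁, y₁, h₁⟩
      · exact absurd rfl hP0
      rcases Q with _ | ⟨x₂, y₂, h₂⟩
      · exact absurd rfl hQ0
      simp only [zeta_some] at hZ
      have hx : x₁ = x₂ := by
        have := inv_injective hZ
        exact sub_left_injective this
      exact Point.X_eq_iff.mp hx)
    (by
      intro P hP Q hQ hP0 hQ0 hZ
      have hP' := hP.resolve_left hP0
      have hQ' := hQ.resolve_left hQ0
      rcases P with _ | ⟨x₁, y₁, h₁⟩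
      · exact absurd rfl hP0
      rcases Q with _ | ⟨x₂, y₂, h₂⟩
      · exact absurd rfl hQ0
      simp only [zeta_some] at hZ hP' hQ' ⊢
      have hx : x₁ ≠ x₂ := fun hx => hZ (by rw [hx])
      obtain ⟨Xp, Yp, Xm, Ym, hp, hm, hadd, hsub, hprod, hsum⟩ :=
        Fermat.Agent.S05.helper1745.shape_exists_add_sub_some hS h₁ h₂ hx
      have hne : x₁ - e ≠ x₂ - e := fun hh => hx (sub_left_injective hh)
      obtain ⟨hA, hB, hC⟩ := field_add v hal hbe hP'.1 hP'.2 hQ'.1 hQ'.2 hne hprod hsum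
      rw [hadd, hsub]
      exact ⟨Or.inr hA, hC⟩)
    (by
      intro P hP hP0
      have hP' := hP.resolve_left hP0
      rcases P with _ | ⟨x₁, y₁, h₁⟩
      · exact absurd rfl hP0
      simp only [zeta_some] at hP' ⊢
      have hX0 : x₁ - e ≠ 0 := fun h0 => hP'.1 (by rw [h0, inv_zero])
      have hy : y₁ ≠ W.toAffine.negY x₁ y₁ := by
        intro hy
        have h0 := (Fermat.Agent.S05.helper1745.shape_y_eq_negY_iff hS h₁.1).mp hy
        rcases mul_eq_zero.mp h0 with h0 | h0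
        · exact hX0 h0
        · -- `X² + al X + be = X² (1 + al z + be z²)` with `v (1 + al z + be z²) = 1`
          have hz : v ((x₁ - e)⁻¹) < 1 := hP'.2
          have hU : v (1 + (al * (x₁ - e)⁻¹ + be * ((x₁ - e)⁻¹ * (x₁ - e)⁻¹))) = 1 := by
            apply Valuation.map_one_add_of_lt
            refine Valuation.map_add_lt v ?_ ?_
            · rw [map_mul]; exact mul_lt_one_of_le_of_lt₀ hal hz
            · rw [map_mul, map_mul]
              exact mul_lt_one_of_le_of_lt₀ hbe (mul_lt_one_of_le_of_lt₀ hz.le hz)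
          have : 1 + (al * (x₁ - e)⁻¹ + be * ((x₁ - e)⁻¹ * (x₁ - e)⁻¹)) = 0 := by
            have : 1 + (al * (x₁ - e)⁻¹ + be * ((x₁ - e)⁻¹ * (x₁ - e)⁻¹))
                = ((x₁ - e) ^ 2 + al * (x₁ - e) + be) * ((x₁ - e)⁻¹ * (x₁ - e)⁻¹) := by
              field_simp
              ring
            rw [this, h0, zero_mul]
          rw [this, map_zero] at hU
          exact zero_ne_one hU
      obtain ⟨X', Y', h', hadd, hdup, -⟩ :=
        Fermat.Agent.S05.helper1745.shape_exists_add_self_some hS h₁ hy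
      obtain ⟨hA, hB, hC⟩ := field_dbl v hal hbe h2 hP'.1 hP'.2 hdup
      rw [hadd]
      exact ⟨Or.inr ⟨hA, hB⟩, hC⟩)
    (Point.some x y h)
    (Or.inr ⟨by
      rw [zeta_some]
      refine inv_ne_zero ?_
      rintro h0
      rw [h0, map_zero] at hx
      exact not_lt_zero hx, by
      rw [zeta_some, map_inv₀]
      exact inv_lt_one_of_one_lt₀ hx⟩)
    (Point.some_ne_zero h) p
  rw [hpP, zeta_zero, zero_sub, Valuation.map_neg, map_mul, map_pow, hvp, one_pow, one_mul]
    at hmain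
  exact lt_irrefl _ hmain.2

end PointLevel

end Fermat.Agent.S05.helper703
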