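import Fermat.Agent.S05.helper305_Formulas

/-!
# Kernel of reduction in shape coordinates: `E₁` is closed and `t = ξ/η` is additive
modulo higher order (helper712, S05; backup of board row 61)

Setting: a field `K` with a valuation `v`, the curve `η² = ξ(ξ² + al ξ + be)` with
`v al ≤ 1`, `v be ≤ 1`, and `AddRel` (chord–tangent relation) from `helper305_Shape`.
`E₁` is the set of points with `1 < v ξ`.

Main results: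
* `e1_point`  : basic facts for a point of `E₁` (`ξ, η ≠ 0`, `v η ^ 2 = v ξ ^ 3`, `v (ξ/η) < 1`).
* `e1_add`    : if `P₁, P₂ ∈ E₁` and `P₃ = P₁ + P₂` (via `AddRel`) then `P₃ ∈ E₁` and
  `v (t₃ - (t₁ + t₂)) < v (t₁ + t₂)` where `t = ξ/η`.
-/

set_option autoImplicit false

namespace Fermat.Agent.S05.helper712

open Fermat.Agent.S05.helper305

variable {K : Type*} [Field K] {Γ₀ : Type*} [LinearOrderedCommGroupWithZero Γ₀]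
  (v : Valuation K Γ₀)

section aux

variable {v}

theorem val_mul_lt_one_left {x y : K} (hx : v x < 1) (hy : v y ≤ 1) : v (x * y) < 1 := by
  rw [map_mul]
  exact mul_lt_one_of_nonneg_of_lt_one_left zero_le hx hy

theorem val_mul_lt_one_right {x y : K} (hx : v x ≤ 1) (hy : v y < 1) : v (x * y) < 1 := by
  rw [mul_comm]
  exact val_mul_lt_one_left hy hx

theorem val_mul_le_one {x y : K} (hx : v x ≤ 1) (hy : v y ≤ 1) : v (x * y) ≤ 1 := by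
  rw [map_mul]
  exact mul_le_one₀ hx zero_le hy

theorem val_inv_lt_one {x : K} (hx : 1 < v x) : v x⁻¹ < 1 := by
  rw [map_inv₀]
  exact inv_lt_one_of_one_lt₀ hx

end aux

/-- Basic facts about a point `(ξ, η)` of `E₁` on `η² = ξ(ξ² + al ξ + be)`. -/
theorem e1_point {al be ξ η : K} (c : η ^ 2 = ξ * (ξ ^ 2 + al * ξ + be))
    (hal : v al ≤ 1) (hbe : v be ≤ 1) (h : 1 < v ξ) :
    ξ ≠ 0 ∧ η ≠ 0 ∧ v η ^ 2 = v ξ ^ 3 ∧ 1 < v η ∧ v ξ < v η ∧ v (ξ / η) < 1 := by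
  have hξ0 : ξ ≠ 0 := by
    rintro rfl
    simp at h
  have hvξ0 : v ξ ≠ 0 := (v.ne_zero_iff).mpr hξ0
  have hvξpos : 0 < v ξ := zero_lt_one.trans h
  -- v (η^2) = v ξ ^ 3
  have h3 : v (η ^ 2) = v ξ ^ 3 := by
    have e : η ^ 2 = ξ ^ 3 * (1 + (al * ξ⁻¹ + be * (ξ⁻¹ * ξ⁻¹))) := by
      rw [c]; field_simp; ring
    rw [e, map_mul, map_pow]
    have hinv : v ξ⁻¹ < 1 := val_inv_lt_one h
    have hsmall : v (al * ξ⁻¹ + be * (ξ⁻¹ * ξ⁻¹)) < 1 :=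
      v.map_add_lt (val_mul_lt_one_right hal hinv)
        (val_mul_lt_one_right hbe (val_mul_lt_one_left hinv hinv.le))
    rw [v.map_one_add_of_lt hsmall, mul_one]
  rw [map_pow] at h3
  have hη1 : 1 < v η := by
    rw [← one_lt_sq_iff₀ zero_le, h3]
    exact one_lt_pow₀ h (by norm_num)
  have hη0 : η ≠ 0 := by
    rintro rfl
    simp at hη1
  have hlt : v ξ < v η := by
    by_contra hcon
    have hcon := not_lt.mp hcon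
    have h2 : v η ^ 2 ≤ v ξ ^ 2 := pow_le_pow_left₀ zero_le hcon 2
    rw [h3] at h2
    have h4 : v ξ ^ 2 * v ξ ≤ v ξ ^ 2 * 1 := by
      rw [mul_one, ← pow_succ]; exact h2
    have hpos : 0 < v ξ ^ 2 := pow_pos hvξpos 2
    exact absurd (le_of_mul_le_mul_left h4 hpos) (not_le.mpr h)
  refine ⟨hξ0, hη0, h3, hη1, hlt, ?_⟩
  rw [map_div₀]
  exact (div_lt_one₀ (zero_lt_one.trans hη1)).mpr hlt

/-- Pure field identity used in `e1_add`. -/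
theorem t_sub_id {ξ₁ η₁ ξ₂ η₂ ξ₃ η₃ D N M : K} (hη₁ : η₁ ≠ 0) (hη₂ : η₂ ≠ 0) (hη₃ : η₃ ≠ 0)
    (hM : M ≠ 0) (hMdef : M = η₁ * η₂ * D + N)
    (key : (η₁ * ξ₂ + η₂ * ξ₁) * η₃ * D = ξ₃ * M) :
    ξ₃ / η₃ - (ξ₁ / η₁ + ξ₂ / η₂) = -(ξ₁ / η₁ + ξ₂ / η₂) * (N / M) := by
  field_simp
  linear_combination (-(η₁ * η₂)) * key - (η₃ * (η₁ * ξ₂ + η₂ * ξ₁)) * hMdef

/-- **`E₁` is closed under addition and `t = ξ/η` is additive modulo higher order.** -/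
theorem e1_add {al be ξ₁ η₁ ξ₂ η₂ ξ₃ η₃ lam : K}
    (h : AddRel al be ξ₁ η₁ ξ₂ η₂ ξ₃ η₃ lam) (hv2 : v 2 = 1)
    (hal : v al ≤ 1) (hbe : v be ≤ 1) (h₁ : 1 < v ξ₁) (h₂ : 1 < v ξ₂) :
    1 < v ξ₃ ∧ v (ξ₃ / η₃ - (ξ₁ / η₁ + ξ₂ / η₂)) < v (ξ₁ / η₁ + ξ₂ / η₂) := by
  have h2 : (2 : K) ≠ 0 := by
    intro h0
    rw [h0, map_zero] at hv2
    exact zero_ne_one hv2
  have c₁ := h.c₁
  have c₂ := h.c₂
  obtain ⟨hξ₁0, hη₁0, hsq₁, hη₁1, hlt₁, ht₁⟩ := e1_point v c₁ hal hbe h₁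
  obtain ⟨hξ₂0, hη₂0, hsq₂, hη₂1, hlt₂, ht₂⟩ := e1_point v c₂ hal hbe h₂
  have hF2 := h.F2 h2
  have hF4 := h.F4 h2
  have c₃ := h.c₃ h2
  -- `lam * S = η₁η₂ + ξ₁ξ₂(ξ₁ + ξ₂ + al)` in both the chord and the tangent case
  have hlamS : lam * (η₁ * ξ₂ + η₂ * ξ₁) = η₁ * η₂ + ξ₁ * ξ₂ * (ξ₁ + ξ₂ + al) := by
    rcases h.hlam with ⟨hne, hl⟩ | ⟨he, hη, hη0, hl⟩
    · have hd : ξ₁ - ξ₂ ≠ 0 := sub_ne_zero.mpr hne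
      apply mul_left_cancel₀ hd
      linear_combination (η₁ * ξ₂ + η₂ * ξ₁) * hl + ξ₂ * c₁ - ξ₁ * c₂
    · subst he hη
      apply mul_left_cancel₀ h2
      linear_combination (2 * ξ₁) * hl - 2 * c₁
  -- key identity
  have key : (η₁ * ξ₂ + η₂ * ξ₁) * η₃ * (ξ₁ * ξ₂ - be) =
      ξ₃ * (η₁ * η₂ * (ξ₁ * ξ₂ - be) +
        (ξ₁ * ξ₂ * (al * (ξ₁ * ξ₂) + 2 * be * (ξ₁ + ξ₂) + al * be) + 2 * be * (η₁ * η₂))) := by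
    linear_combination (η₁ * ξ₂ + η₂ * ξ₁) * hF4 - ξ₃ * (ξ₁ * ξ₂ - be) * hlamS +
      ξ₃ * ξ₂ ^ 2 * c₁ + ξ₃ * ξ₁ ^ 2 * c₂
  -- valuation of `D = ξ₁ξ₂ - be`
  have hvξ₁0 : v ξ₁ ≠ 0 := (v.ne_zero_iff).mpr hξ₁0
  have hvξ₂0 : v ξ₂ ≠ 0 := (v.ne_zero_iff).mpr hξ₂0
  have hD_val : v (ξ₁ * ξ₂ - be) = v ξ₁ * v ξ₂ := by
    rw [← map_mul]
    apply v.map_sub_eq_of_lt_left
    rw [map_mul]
    exact lt_of_le_of_lt hbe (one_lt_mul_of_lt_of_le h₁ h₂.le)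
  have hD0 : ξ₁ * ξ₂ - be ≠ 0 := by
    intro h0
    rw [h0, map_zero] at hD_val
    exact (mul_ne_zero hvξ₁0 hvξ₂0) hD_val.symm
  have hrhs : ξ₁ * ξ₂ * (ξ₁ * ξ₂ - be) ^ 2 ≠ 0 :=
    mul_ne_zero (mul_ne_zero hξ₁0 hξ₂0) (pow_ne_zero 2 hD0)
  have hξ₃0 : ξ₃ ≠ 0 := by
    rintro rfl
    rw [zero_mul] at hF2
    exact hrhs hF2.symm
  have hS0 : η₁ * ξ₂ + η₂ * ξ₁ ≠ 0 := by
    intro h0
    rw [h0] at hF2
    apply hrhs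
    rw [← hF2]
    ring
  -- `v S < v η₁ * v η₂`
  have hS_lt : v (η₁ * ξ₂ + η₂ * ξ₁) < v η₁ * v η₂ := by
    apply v.map_add_lt
    · rw [map_mul]
      exact mul_lt_mul_of_pos_left hlt₂ (zero_lt_one.trans hη₁1)
    · rw [map_mul, mul_comm (v η₁)]
      exact mul_lt_mul_of_pos_left hlt₁ (zero_lt_one.trans hη₂1)
  -- `1 < v ξ₃`
  have hξ₃ : 1 < v ξ₃ := by
    have e := congrArg v hF2
    simp only [map_mul, map_pow, hD_val] at e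
    have e' : v ξ₃ * v (η₁ * ξ₂ + η₂ * ξ₁) ^ 2 = (v η₁ * v η₂) ^ 2 := by
      rw [e, mul_pow (v η₁), hsq₁, hsq₂, ← mul_pow, ← pow_succ']
    by_contra hcon
    have hle : v ξ₃ ≤ 1 := not_lt.mp hcon
    have h3 : v ξ₃ * v (η₁ * ξ₂ + η₂ * ξ₁) ^ 2 ≤ 1 * v (η₁ * ξ₂ + η₂ * ξ₁) ^ 2 :=
      mul_le_mul' hle le_rfl
    rw [one_mul, e'] at h3
    exact absurd (pow_lt_pow_left₀ hS_lt zero_le (by norm_num)) (not_lt.mpr h3)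
  refine ⟨hξ₃, ?_⟩
  obtain ⟨-, hη₃0, -, -, -, -⟩ := e1_point v c₃ hal hbe hξ₃
  -- the error term `N`
  have hη₁inv : v η₁⁻¹ < 1 := val_inv_lt_one hη₁1
  have hη₂inv : v η₂⁻¹ < 1 := val_inv_lt_one hη₂1
  have hξ₁inv : v ξ₁⁻¹ < 1 := val_inv_lt_one h₁
  have hξ₂inv : v ξ₂⁻¹ < 1 := val_inv_lt_one h₂
  have hv2le : v (2 : K) ≤ 1 := hv2.le
  have hNid : (ξ₁ * ξ₂ * (al * (ξ₁ * ξ₂) + 2 * be * (ξ₁ + ξ₂) + al * be) + 2 * be * (η₁ * η₂)) /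
      (η₁ * η₂ * (ξ₁ * ξ₂)) =
      al * ((ξ₁ / η₁) * (ξ₂ / η₂)) + 2 * be * ((ξ₁ / η₁) * η₂⁻¹ + (ξ₂ / η₂) * η₁⁻¹) +
        al * be * (η₁⁻¹ * η₂⁻¹) + 2 * be * (ξ₁⁻¹ * ξ₂⁻¹) := by
    field_simp
  have hNlt1 : v ((ξ₁ * ξ₂ * (al * (ξ₁ * ξ₂) + 2 * be * (ξ₁ + ξ₂) + al * be) +
      2 * be * (η₁ * η₂)) / (η₁ * η₂ * (ξ₁ * ξ₂))) < 1 := by
    rw [hNid]
    have hb2 : v (2 * be) ≤ 1 := val_mul_le_one hv2le hbe
    refine v.map_add_lt (v.map_add_lt (v.map_add_lt ?_ ?_) ?_) ?_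
    · exact val_mul_lt_one_right hal (val_mul_lt_one_left ht₁ ht₂.le)
    · exact val_mul_lt_one_right hb2 (v.map_add_lt (val_mul_lt_one_left ht₁ hη₂inv.le)
        (val_mul_lt_one_left ht₂ hη₁inv.le))
    · exact val_mul_lt_one_right (val_mul_le_one hal hbe) (val_mul_lt_one_left hη₁inv hη₂inv.le)
    · exact val_mul_lt_one_right hb2 (val_mul_lt_one_left hξ₁inv hξ₂inv.le)
  have hden0 : η₁ * η₂ * (ξ₁ * ξ₂) ≠ 0 := mul_ne_zero (mul_ne_zero hη₁0 hη₂0) (mul_ne_zero hξ₁0 hξ₂0)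
  have hdenD : v (η₁ * η₂ * (ξ₁ * ξ₂ - be)) = v (η₁ * η₂ * (ξ₁ * ξ₂)) := by
    simp only [map_mul, hD_val]
  have hN_lt : v (ξ₁ * ξ₂ * (al * (ξ₁ * ξ₂) + 2 * be * (ξ₁ + ξ₂) + al * be) + 2 * be * (η₁ * η₂)) <
      v (η₁ * η₂ * (ξ₁ * ξ₂ - be)) := by
    rw [hdenD]
    rw [map_div₀] at hNlt1
    exact (div_lt_one₀ ((v.pos_iff).mpr hden0)).mp hNlt1
  have hM := v.map_add_eq_of_lt_left hN_lt
  have hMpos : 0 < v (η₁ * η₂ * (ξ₁ * ξ₂ - be)) := by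
    rw [hdenD]; exact (v.pos_iff).mpr hden0
  have hM0 : η₁ * η₂ * (ξ₁ * ξ₂ - be) +
      (ξ₁ * ξ₂ * (al * (ξ₁ * ξ₂) + 2 * be * (ξ₁ + ξ₂) + al * be) + 2 * be * (η₁ * η₂)) ≠ 0 := by
    intro h0
    rw [h0, map_zero] at hM
    exact hMpos.ne hM
  have hid := t_sub_id hη₁0 hη₂0 hη₃0 hM0 rfl key
  have hs0 : ξ₁ / η₁ + ξ₂ / η₂ ≠ 0 := by
    intro h0
    apply hS0
    have : ξ₁ / η₁ + ξ₂ / η₂ = (η₁ * ξ₂ + η₂ * ξ₁) / (η₁ * η₂) := by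
      field_simp
      ring
    rw [this, div_eq_zero_iff] at h0
    rcases h0 with h0 | h0
    · exact h0
    · exact absurd h0 (mul_ne_zero hη₁0 hη₂0)
  have hfrac : v ((ξ₁ * ξ₂ * (al * (ξ₁ * ξ₂) + 2 * be * (ξ₁ + ξ₂) + al * be) + 2 * be * (η₁ * η₂)) /
      (η₁ * η₂ * (ξ₁ * ξ₂ - be) +
        (ξ₁ * ξ₂ * (al * (ξ₁ * ξ₂) + 2 * be * (ξ₁ + ξ₂) + al * be) + 2 * be * (η₁ * η₂)))) < 1 := by
    rw [map_div₀, hM]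
    exact (div_lt_one₀ hMpos).mpr hN_lt
  rw [hid, map_mul, v.map_neg]
  calc v (ξ₁ / η₁ + ξ₂ / η₂) * _ < v (ξ₁ / η₁ + ξ₂ / η₂) * 1 :=
        mul_lt_mul_of_pos_left hfrac ((v.pos_iff).mpr hs0)
    _ = v (ξ₁ / η₁ + ξ₂ / η₂) := mul_one _

end Fermat.Agent.S05.helper712
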