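import Mathlib
import Fermat.Agent.S05.helper185_AddVal
import Fermat.Agent.S05.helper1745_XOnly

/-!
# NODEVAL in general `b`-form (helper752, S05; reusable at the prime 2 for S13)

Let `W` be a Weierstrass curve over a field `K` with a valuation `v`, and let `e B be : K` be such
that the `b`-invariants of `W` shifted by `x ↦ x + e` are `b₂' = B`, `b₄' = 2 be`, `b₆' = 0`,
`b₈' = -be²` (a node at `ξ = x - e = 0` when `v be < 1`).  If `v B = 1`, `v be < 1`, `be ≠ 0`,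
then every point `P = (x, y)` of odd prime order `p` with `v (x - e) < 1` satisfies
`v be < v (x - e)` and `v (x - e) ^ p ∈ (v be ^ 2) ^ ℤ`.

No hypothesis on `v 2`, on `v p`, or on the characteristic is needed, and the kernel of reduction
plays no role.  The proof uses only the x-only ("Kummer line") identities

* `X₊ X₋ (ξ₁ - ξ₂)² = (ξ₁ ξ₂ - be)²`,
* `(X₊ + X₋) (ξ₁ - ξ₂)² = 2 (ξ₁ + ξ₂) (ξ₁ ξ₂ + be) + B ξ₁ ξ₂`,
* `ξ(2S) · ξ (4 ξ² + B ξ + 4 be) = (ξ² - be)²`,

packaged abstractly as `KL ξ B be` for a function `ξ` on an arbitrary commutative group, so the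
main theorem `kl_main` applies to any model with such identities.
-/

set_option autoImplicit false

namespace Fermat.Agent.S05.helper752

open Fermat.Agent.S05.helper185

variable {K : Type*} [Field K] {Γ₀ : Type*} [LinearOrderedCommGroupWithZero Γ₀]

/-! ### Lower bounds that tolerate zero -/

/-- `LB v c x`: "`ord v x ≥ c`, or `x = 0`". -/
def LB (v : Valuation K Γ₀) (c : Additive Γ₀ˣ) (x : K) : Prop := x ≠ 0 → c ≤ ord v x

section LBlemmas

variable {v : Valuation K Γ₀}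

theorem LB.of_ord (x : K) : LB v (ord v x) x := fun _ => le_rfl

theorem LB.of_le {c : Additive Γ₀ˣ} {x : K} (h : c ≤ ord v x) : LB v c x := fun _ => h

theorem LB.mono {c c' : Additive Γ₀ˣ} {x : K} (h : LB v c x) (hc : c' ≤ c) : LB v c' x :=
  fun hx => hc.trans (h hx)

theorem LB.mul {c d : Additive Γ₀ˣ} {x y : K} (hx : LB v c x) (hy : LB v d y) :
    LB v (c + d) (x * y) := by
  intro h
  have hx0 : x ≠ 0 := left_ne_zero_of_mul h
  have hy0 : y ≠ 0 := right_ne_zero_of_mul h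
  rw [ord_mul v hx0 hy0]
  exact add_le_add (hx hx0) (hy hy0)

theorem LB.add {c : Additive Γ₀ˣ} {x y : K} (hx : LB v c x) (hy : LB v c y) :
    LB v c (x + y) := by
  intro h
  by_cases hx0 : x = 0
  · subst hx0; rw [zero_add] at h ⊢; exact hy h
  by_cases hy0 : y = 0
  · subst hy0; rw [add_zero] at h ⊢; exact hx h
  exact (le_min (hx hx0) (hy hy0)).trans (min_le_ord_add v hx0 hy0 h)

end LBlemmas

variable (v : Valuation K Γ₀)

theorem LB.two : LB v 0 (2 : K) := by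
  intro h
  rw [ord_nonneg_iff v h]
  have h1 : v (1 + 1 : K) ≤ max (v 1) (v 1) := v.map_add 1 1
  simpa [one_add_one_eq_two] using h1

theorem LB.four : LB v 0 (4 : K) := by
  have h : LB v (0 + 0) ((2 : K) * 2) := (LB.two v).mul (LB.two v)
  have e : (2 : K) * 2 = 4 := by norm_num
  rwa [e, add_zero] at h

/-- A term of strictly smaller `ord` dominates a sum, even if the other term vanishes. -/
theorem ord_add_of_lt_LB {c : Additive Γ₀ˣ} {x y : K} (hx : x ≠ 0) (hc : ord v x < c)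
    (hy : LB v c y) : x + y ≠ 0 ∧ ord v (x + y) = ord v x := by
  by_cases hy0 : y = 0
  · subst hy0; simp [hx]
  have hlt : ord v x < ord v y := lt_of_lt_of_le hc (hy hy0)
  exact ⟨add_ne_zero_of_ord_ne v (ne_of_lt hlt), ord_add_eq_left v hx hy0 hlt⟩

theorem ord_add_eq_min {x y : K} (hx : x ≠ 0) (hy : y ≠ 0) (h : ord v x ≠ ord v y) :
    ord v (x + y) = min (ord v x) (ord v y) := by
  rcases lt_or_gt_of_ne h with h1 | h1
  · rw [ord_add_eq_left v hx hy h1, min_eq_left h1.le]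
  · rw [ord_add_eq_right v hx hy h1, min_eq_right h1.le]

theorem ord_sub_eq_min {x y : K} (hx : x ≠ 0) (hy : y ≠ 0) (h : ord v x ≠ ord v y) :
    ord v (x - y) = min (ord v x) (ord v y) := by
  rcases lt_or_gt_of_ne h with h1 | h1
  · rw [ord_sub_eq_left v hx hy h1, min_eq_left h1.le]
  · rw [ord_sub_eq_right v hx hy h1, min_eq_right h1.le]

/-! ### Field-level consequences of the Kummer identities -/

/-- Chord step inside `E₀ = {v ξ ≥ 1}`. -/
theorem e0_chord {B be x₁ x₂ X X' : K} (hB : v B = 1) (hbe0 : be ≠ 0) (hbe : v be < 1)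
    (h1 : x₁ ≠ 0) (h2 : x₂ ≠ 0) (ho1 : ord v x₁ ≤ 0) (ho2 : ord v x₂ ≤ 0)
    (hPi : X * X' * (x₁ - x₂) ^ 2 = (x₁ * x₂ - be) ^ 2)
    (hSig : (X + X') * (x₁ - x₂) ^ 2 = 2 * (x₁ + x₂) * (x₁ * x₂ + be) + B * (x₁ * x₂)) :
    X ≠ 0 ∧ ord v X ≤ 0 := by
  have hν : 0 < ord v be := (ord_pos_iff v hbe0).2 hbe
  have hB0 : B ≠ 0 := by rintro rfl; simp at hB
  have hoB : ord v B = 0 := ord_eq_zero_of_val_eq_one v hB
  have h12 : x₁ * x₂ ≠ 0 := mul_ne_zero h1 h2
  have ho12 : ord v (x₁ * x₂) = ord v x₁ + ord v x₂ := ord_mul v h1 h2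
  have hw : x₁ * x₂ + -be ≠ 0 ∧ ord v (x₁ * x₂ + -be) = ord v (x₁ * x₂) :=
    ord_add_of_lt_LB v (c := ord v be) h12 (by rw [ho12]; grind) (by intro _; rw [ord_neg])
  rw [← sub_eq_add_neg] at hw
  obtain ⟨hw0, how⟩ := hw
  have hrhs : (x₁ * x₂ - be) ^ 2 ≠ 0 := pow_ne_zero 2 hw0
  rw [← hPi] at hrhs
  have hXX' : X * X' ≠ 0 := left_ne_zero_of_mul hrhs
  have hd2 : (x₁ - x₂) ^ 2 ≠ 0 := right_ne_zero_of_mul hrhs
  have hX : X ≠ 0 := left_ne_zero_of_mul hXX'
  have hX' : X' ≠ 0 := right_ne_zero_of_mul hXX'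
  have hd : x₁ - x₂ ≠ 0 := fun h => hd2 (by rw [h]; simp)
  refine ⟨hX, ?_⟩
  have ePi : ord v X + ord v X' + (ord v (x₁ - x₂) + ord v (x₁ - x₂)) =
      (ord v x₁ + ord v x₂) + (ord v x₁ + ord v x₂) := by
    have h := congrArg (ord v) hPi
    rw [ord_mul v hXX' hd2, ord_mul v hX hX', ord_sq, ord_sq, how, ho12] at h
    exact h
  have hdge : min (ord v x₁) (ord v x₂) ≤ ord v (x₁ - x₂) := min_le_ord_sub v h1 h2 hd
  by_contra hcon
  rw [not_le] at hcon
  rcases le_or_gt (ord v X) (ord v X') with hle | hlt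
  · grind
  · have hs0 : X + X' ≠ 0 := by
      rw [add_comm]; exact add_ne_zero_of_ord_ne v (ne_of_lt hlt)
    have hos : ord v (X + X') = ord v X' := by
      rw [add_comm]; exact ord_add_eq_left v hX' hX hlt
    have hR : LB v (min (ord v x₁) (ord v x₂) + (ord v x₁ + ord v x₂))
        (2 * (x₁ + x₂) * (x₁ * x₂ + be) + B * (x₁ * x₂)) := by
      apply LB.add
      · have a1 : LB v (min (ord v x₁) (ord v x₂)) (x₁ + x₂) :=
          ((LB.of_ord x₁).mono (min_le_left _ _)).add ((LB.of_ord x₂).mono (min_le_right _ _))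
        have a2 : LB v (ord v x₁ + ord v x₂) (x₁ * x₂ + be) := by
          apply LB.add
          · rw [← ho12]; exact LB.of_ord _
          · exact LB.of_le (by grind)
        have a3 := ((LB.two v).mul a1).mul a2
        rwa [zero_add] at a3
      · apply LB.of_le
        rw [ord_mul v hB0 h12, hoB, ho12]
        grind
    have hR0 : 2 * (x₁ + x₂) * (x₁ * x₂ + be) + B * (x₁ * x₂) ≠ 0 := by
      rw [← hSig]; exact mul_ne_zero hs0 hd2
    have eSig : ord v X' + (ord v (x₁ - x₂) + ord v (x₁ - x₂)) =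
        ord v (2 * (x₁ + x₂) * (x₁ * x₂ + be) + B * (x₁ * x₂)) := by
      have h := congrArg (ord v) hSig
      rw [ord_mul v hs0 hd2, hos, ord_sq] at h
      exact h
    have hRge := hR hR0
    grind

/-- Doubling inside `E₀ = {v ξ ≥ 1}`. -/
theorem e0_dbl {B be x X : K} (hB : v B = 1) (hbe0 : be ≠ 0) (hbe : v be < 1)
    (h1 : x ≠ 0) (ho1 : ord v x ≤ 0)
    (hD : X * (x * (4 * x ^ 2 + B * x + 4 * be)) = (x ^ 2 - be) ^ 2) :
    X ≠ 0 ∧ ord v X ≤ 0 := by
  have hν : 0 < ord v be := (ord_pos_iff v hbe0).2 hbe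
  have hB0 : B ≠ 0 := by rintro rfl; simp at hB
  have hoB : ord v B = 0 := ord_eq_zero_of_val_eq_one v hB
  have hx2 : x ^ 2 ≠ 0 := pow_ne_zero 2 h1
  have hw : x ^ 2 + -be ≠ 0 ∧ ord v (x ^ 2 + -be) = ord v (x ^ 2) :=
    ord_add_of_lt_LB v (c := ord v be) hx2 (by rw [ord_sq]; grind) (by intro _; rw [ord_neg])
  rw [← sub_eq_add_neg] at hw
  obtain ⟨hw0, how⟩ := hw
  have hrhs : (x ^ 2 - be) ^ 2 ≠ 0 := pow_ne_zero 2 hw0
  rw [← hD] at hrhs
  have hX : X ≠ 0 := left_ne_zero_of_mul hrhs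
  have hxc : x * (4 * x ^ 2 + B * x + 4 * be) ≠ 0 := right_ne_zero_of_mul hrhs
  have hc : 4 * x ^ 2 + B * x + 4 * be ≠ 0 := right_ne_zero_of_mul hxc
  refine ⟨hX, ?_⟩
  have eD : ord v X + (ord v x + ord v (4 * x ^ 2 + B * x + 4 * be)) =
      (ord v x + ord v x) + (ord v x + ord v x) := by
    have h := congrArg (ord v) hD
    rw [ord_mul v hX hxc, ord_mul v h1 hc, ord_sq, how, ord_sq] at h
    exact h
  have hcLB : LB v (ord v x + ord v x) (4 * x ^ 2 + B * x + 4 * be) := by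
    apply LB.add
    · apply LB.add
      · have h := (LB.four v).mul (LB.of_ord (v := v) (x ^ 2))
        rwa [ord_sq, zero_add] at h
      · apply LB.of_le
        rw [ord_mul v hB0 h1, hoB]
        grind
    · have h := (LB.four v).mul (LB.of_ord (v := v) be)
      exact h.mono (by grind)
  have hcge := hcLB hc
  grind

/-- Doubling a point with `v ξ ≤ v be` lands in `E₀`. -/
theorem low_dbl {B be x X : K} (hB : v B = 1) (hbe0 : be ≠ 0) (hbe : v be < 1)
    (h1 : x ≠ 0) (ho1 : ord v be ≤ ord v x)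
    (hD : X * (x * (4 * x ^ 2 + B * x + 4 * be)) = (x ^ 2 - be) ^ 2) :
    X ≠ 0 ∧ ord v X ≤ 0 := by
  have hν : 0 < ord v be := (ord_pos_iff v hbe0).2 hbe
  have hB0 : B ≠ 0 := by rintro rfl; simp at hB
  have hoB : ord v B = 0 := ord_eq_zero_of_val_eq_one v hB
  have hw : -be + x ^ 2 ≠ 0 ∧ ord v (-be + x ^ 2) = ord v (-be) :=
    ord_add_of_lt_LB v (c := ord v (x ^ 2)) (neg_ne_zero.2 hbe0)
      (by rw [ord_neg, ord_sq]; grind) (LB.of_ord _)
  have e1 : -be + x ^ 2 = x ^ 2 - be := by ring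
  rw [e1, ord_neg] at hw
  obtain ⟨hw0, how⟩ := hw
  have hrhs : (x ^ 2 - be) ^ 2 ≠ 0 := pow_ne_zero 2 hw0
  rw [← hD] at hrhs
  have hX : X ≠ 0 := left_ne_zero_of_mul hrhs
  have hxc : x * (4 * x ^ 2 + B * x + 4 * be) ≠ 0 := right_ne_zero_of_mul hrhs
  have hc : 4 * x ^ 2 + B * x + 4 * be ≠ 0 := right_ne_zero_of_mul hxc
  refine ⟨hX, ?_⟩
  have eD : ord v X + (ord v x + ord v (4 * x ^ 2 + B * x + 4 * be)) =
      ord v be + ord v be := by
    have h := congrArg (ord v) hD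
    rw [ord_mul v hX hxc, ord_mul v h1 hc, ord_sq, how] at h
    exact h
  have hcLB : LB v (ord v be) (4 * x ^ 2 + B * x + 4 * be) := by
    apply LB.add
    · apply LB.add
      · have h := (LB.four v).mul (LB.of_ord (v := v) (x ^ 2))
        rw [ord_sq, zero_add] at h
        exact h.mono (by grind)
      · apply LB.of_le
        rw [ord_mul v hB0 h1, hoB]
        grind
    · have h := (LB.four v).mul (LB.of_ord (v := v) be)
      exact h.mono (by grind)
  have hcge := hcLB hc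
  grind

/-- Doubling in the middle range `v be < v ξ < 1`. -/
theorem mid_dbl {B be x X : K} (hB : v B = 1) (hbe0 : be ≠ 0)
    (h1 : x ≠ 0) (hX : X ≠ 0) (ho1 : 0 < ord v x) (ho1' : ord v x < ord v be)
    (hoX : ord v X < ord v be)
    (hD : X * (x * (4 * x ^ 2 + B * x + 4 * be)) = (x ^ 2 - be) ^ 2) :
    ord v X = ord v x + ord v x ∨ ord v X + (ord v x + ord v x) = ord v be + ord v be := by
  have hB0 : B ≠ 0 := by rintro rfl; simp at hB
  have hoB : ord v B = 0 := ord_eq_zero_of_val_eq_one v hB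
  have hBx : B * x ≠ 0 := mul_ne_zero hB0 h1
  have hoBx : ord v (B * x) = ord v x := by rw [ord_mul v hB0 h1, hoB, zero_add]
  have hx2 : x ^ 2 ≠ 0 := pow_ne_zero 2 h1
  have hrest : LB v (min (ord v x + ord v x) (ord v be)) (4 * x ^ 2 + 4 * be) := by
    apply LB.add
    · have h := (LB.four v).mul (LB.of_ord (v := v) (x ^ 2))
      rw [ord_sq, zero_add] at h
      exact h.mono (min_le_left _ _)
    · have h := (LB.four v).mul (LB.of_ord (v := v) be)
      rw [zero_add] at h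
      exact h.mono (min_le_right _ _)
  have hc : B * x + (4 * x ^ 2 + 4 * be) ≠ 0 ∧
      ord v (B * x + (4 * x ^ 2 + 4 * be)) = ord v (B * x) :=
    ord_add_of_lt_LB v hBx (by rw [hoBx]; grind) hrest
  have e1 : B * x + (4 * x ^ 2 + 4 * be) = 4 * x ^ 2 + B * x + 4 * be := by ring
  rw [e1, hoBx] at hc
  obtain ⟨hc0, hoc⟩ := hc
  have hxc : x * (4 * x ^ 2 + B * x + 4 * be) ≠ 0 := mul_ne_zero h1 hc0
  have hw2 : (x ^ 2 - be) ^ 2 ≠ 0 := by rw [← hD]; exact mul_ne_zero hX hxc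
  have hw0 : x ^ 2 - be ≠ 0 := fun h => hw2 (by rw [h]; simp)
  have eD : ord v X + (ord v x + ord v x) = ord v (x ^ 2 - be) + ord v (x ^ 2 - be) := by
    have h := congrArg (ord v) hD
    rw [ord_mul v hX hxc, ord_mul v h1 hc0, ord_sq, hoc] at h
    exact h
  have hwge : min (ord v (x ^ 2)) (ord v be) ≤ ord v (x ^ 2 - be) :=
    min_le_ord_sub v hx2 hbe0 hw0
  have hweq : ord v (x ^ 2) ≠ ord v be →
      ord v (x ^ 2 - be) = min (ord v (x ^ 2)) (ord v be) := ord_sub_eq_min v hx2 hbe0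
  rw [ord_sq] at hwge hweq
  grind

/-- Chord step in the middle range: the two values `ord X₊`, `ord X₋` are `|α₁ - α₂|` and one of
`α₁ + α₂`, `2ν - α₁ - α₂`, in some order. -/
theorem mid_chord {B be x₁ x₂ X X' : K} (hB : v B = 1) (hbe0 : be ≠ 0)
    (h1 : x₁ ≠ 0) (h2 : x₂ ≠ 0) (hX : X ≠ 0) (hX' : X' ≠ 0)
    (ho1 : 0 < ord v x₁) (ho1' : ord v x₁ < ord v be)
    (ho2 : 0 < ord v x₂) (ho2' : ord v x₂ < ord v be)
    (hoX : 0 < ord v X) (hoX' : ord v X < ord v be)
    (hoY : 0 < ord v X') (hoY' : ord v X' < ord v be)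
    (hPi : X * X' * (x₁ - x₂) ^ 2 = (x₁ * x₂ - be) ^ 2)
    (hSig : (X + X') * (x₁ - x₂) ^ 2 = 2 * (x₁ + x₂) * (x₁ * x₂ + be) + B * (x₁ * x₂)) :
    ((ord v X' = ord v x₁ - ord v x₂ ∨ ord v X' = ord v x₂ - ord v x₁) ∧
      (ord v X = ord v x₁ + ord v x₂ ∨
        ord v X + (ord v x₁ + ord v x₂) = ord v be + ord v be)) ∨
    ((ord v X = ord v x₁ - ord v x₂ ∨ ord v X = ord v x₂ - ord v x₁) ∧
      (ord v X' = ord v x₁ + ord v x₂ ∨
        ord v X' + (ord v x₁ + ord v x₂) = ord v be + ord v be)) := by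
  have hB0 : B ≠ 0 := by rintro rfl; simp at hB
  have hoB : ord v B = 0 := ord_eq_zero_of_val_eq_one v hB
  have h12 : x₁ * x₂ ≠ 0 := mul_ne_zero h1 h2
  have ho12 : ord v (x₁ * x₂) = ord v x₁ + ord v x₂ := ord_mul v h1 h2
  have hB12 : B * (x₁ * x₂) ≠ 0 := mul_ne_zero hB0 h12
  have hoB12 : ord v (B * (x₁ * x₂)) = ord v x₁ + ord v x₂ := by
    rw [ord_mul v hB0 h12, hoB, zero_add, ho12]
  have hrest : LB v (min (ord v x₁) (ord v x₂) + min (ord v x₁ + ord v x₂) (ord v be))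
      (2 * (x₁ + x₂) * (x₁ * x₂ + be)) := by
    have a1 : LB v (min (ord v x₁) (ord v x₂)) (x₁ + x₂) :=
      ((LB.of_ord x₁).mono (min_le_left _ _)).add ((LB.of_ord x₂).mono (min_le_right _ _))
    have a2 : LB v (min (ord v x₁ + ord v x₂) (ord v be)) (x₁ * x₂ + be) := by
      apply LB.add
      · rw [← ho12]; exact (LB.of_ord _).mono (min_le_left _ _)
      · exact (LB.of_ord _).mono (min_le_right _ _)
    have a3 := ((LB.two v).mul a1).mul a2
    rwa [zero_add] at a3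
  have hR : B * (x₁ * x₂) + 2 * (x₁ + x₂) * (x₁ * x₂ + be) ≠ 0 ∧
      ord v (B * (x₁ * x₂) + 2 * (x₁ + x₂) * (x₁ * x₂ + be)) = ord v (B * (x₁ * x₂)) :=
    ord_add_of_lt_LB v hB12 (by rw [hoB12]; grind) hrest
  rw [add_comm, hoB12, ← hSig] at hR
  obtain ⟨hR0, hoR⟩ := hR
  have hs0 : X + X' ≠ 0 := left_ne_zero_of_mul hR0
  have hd2 : (x₁ - x₂) ^ 2 ≠ 0 := right_ne_zero_of_mul hR0
  have hd : x₁ - x₂ ≠ 0 := fun h => hd2 (by rw [h]; simp)
  rw [ord_mul v hs0 hd2, ord_sq] at hoR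
  have hdge : min (ord v x₁) (ord v x₂) ≤ ord v (x₁ - x₂) := min_le_ord_sub v h1 h2 hd
  have hdeq : ord v x₁ ≠ ord v x₂ → ord v (x₁ - x₂) = min (ord v x₁) (ord v x₂) :=
    ord_sub_eq_min v h1 h2
  have hsge : min (ord v X) (ord v X') ≤ ord v (X + X') := min_le_ord_add v hX hX' hs0
  have hseq : ord v X ≠ ord v X' → ord v (X + X') = min (ord v X) (ord v X') :=
    ord_add_eq_min v hX hX'
  have hw2 : (x₁ * x₂ - be) ^ 2 ≠ 0 := by
    rw [← hPi]; exact mul_ne_zero (mul_ne_zero hX hX') hd2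
  have hw0 : x₁ * x₂ - be ≠ 0 := fun h => hw2 (by rw [h]; simp)
  have ePi : ord v X + ord v X' + (ord v (x₁ - x₂) + ord v (x₁ - x₂)) =
      ord v (x₁ * x₂ - be) + ord v (x₁ * x₂ - be) := by
    have h := congrArg (ord v) hPi
    rw [ord_mul v (mul_ne_zero hX hX') hd2, ord_mul v hX hX', ord_sq, ord_sq] at h
    exact h
  have hwge : min (ord v (x₁ * x₂)) (ord v be) ≤ ord v (x₁ * x₂ - be) :=
    min_le_ord_sub v h12 hbe0 hw0
  have hweq : ord v (x₁ * x₂) ≠ ord v be →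
      ord v (x₁ * x₂ - be) = min (ord v (x₁ * x₂)) (ord v be) := ord_sub_eq_min v h12 hbe0
  rw [ho12] at hwge hweq
  grind

/-! ### Types modulo `2ν`: pure group theory -/

section types

variable {Q : Type*} [AddCommGroup Q]

/-- `g ≡ ± k α`. -/
def Ty (α : Q) (k : ℤ) (g : Q) : Prop := g = k • α ∨ g = -(k • α)

theorem ty_one (α : Q) : Ty α 1 α := Or.inl (one_smul ℤ α).symm

theorem ty_dbl {α X : Q} (h : X = α + α ∨ X + (α + α) = 0) : Ty α 2 X := by
  unfold Ty
  rw [two_smul]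
  grind

theorem ty_step {α g X X' : Q} {k : ℤ} (hg : Ty α k g) (hX' : Ty α (k - 1) X')
    (h : ((X' = g - α ∨ X' = α - g) ∧ (X = g + α ∨ X + (g + α) = 0)) ∨
      ((X = g - α ∨ X = α - g) ∧ (X' = g + α ∨ X' + (g + α) = 0))) :
    Ty α (k + 1) X := by
  unfold Ty at *
  simp only [add_smul, sub_smul, one_smul] at *
  grind

theorem ty_final {α g : Q} {m : ℤ} (h1 : Ty α m g) (h2 : Ty α (m + 1) g) :
    (2 * m + 1) • α = 0 := by
  unfold Ty at *
  have key : (2 * m + 1) • α = m • α + m • α + α := by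
    rw [add_smul, mul_smul, two_smul, one_smul]
  rw [add_smul, one_smul] at h2
  rcases h1 with h1 | h1 <;> rcases h2 with h2 | h2
  · have hα : α = 0 := by grind
    rw [hα, smul_zero]
  · rw [key]; grind
  · rw [key]; grind
  · have hα : α = 0 := by grind
    rw [hα, smul_zero]

end types

/-! ### The abstract Kummer line -/

section kummer

variable {G : Type*} [AddCommGroup G]

/-- Abstract x-only identities for a function `ξ` on a commutative group `G` (values at `0` are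
irrelevant): negation invariance, product formula, sum formula, duplication formula. -/
def KL (ξ : G → K) (B be : K) : Prop :=
  (∀ S, ξ (-S) = ξ S) ∧
  (∀ S T, S ≠ 0 → T ≠ 0 → S + T ≠ 0 → S - T ≠ 0 →
    ξ (S + T) * ξ (S - T) * (ξ S - ξ T) ^ 2 = (ξ S * ξ T - be) ^ 2) ∧
  (∀ S T, S ≠ 0 → T ≠ 0 → S + T ≠ 0 → S - T ≠ 0 →
    (ξ (S + T) + ξ (S - T)) * (ξ S - ξ T) ^ 2 =
      2 * (ξ S + ξ T) * (ξ S * ξ T + be) + B * (ξ S * ξ T)) ∧
  (∀ S, S ≠ 0 → S + S ≠ 0 →
    ξ (S + S) * (ξ S * (4 * ξ S ^ 2 + B * ξ S + 4 * be)) = (ξ S ^ 2 - be) ^ 2)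

/-- `E₀`: the identity together with the points with `v ξ ≥ 1`. -/
def InE0 (v : Valuation K Γ₀) (ξ : G → K) (S : G) : Prop :=
  S = 0 ∨ (ξ S ≠ 0 ∧ ord v (ξ S) ≤ 0)

variable {ξ : G → K} {B be : K}

theorem inE0_add (hB : v B = 1) (hbe0 : be ≠ 0) (hbe : v be < 1) (hKL : KL ξ B be) {S T : G}
    (hS : InE0 v ξ S) (hT : InE0 v ξ T) : InE0 v ξ (S + T) := by
  obtain ⟨-, hprod, hsum, hdbl⟩ := hKL
  by_cases hS0 : S = 0
  · subst hS0; rwa [zero_add]
  by_cases hT0 : T = 0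
  · subst hT0; rwa [add_zero]
  by_cases hST : S + T = 0
  · exact Or.inl hST
  rcases hS with hS | ⟨hS1, hS2⟩
  · exact absurd hS hS0
  rcases hT with hT | ⟨hT1, hT2⟩
  · exact absurd hT hT0
  right
  by_cases hd : S - T = 0
  · have hEq : S = T := sub_eq_zero.mp hd
    subst hEq
    exact e0_dbl v hB hbe0 hbe hS1 hS2 (hdbl S hS0 hST)
  · exact e0_chord v hB hbe0 hbe hS1 hT1 hS2 hT2 (hprod S T hS0 hT0 hST hd)
      (hsum S T hS0 hT0 hST hd)

theorem inE0_nsmul (hB : v B = 1) (hbe0 : be ≠ 0) (hbe : v be < 1) (hKL : KL ξ B be) {S : G}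
    (hS : InE0 v ξ S) (n : ℕ) : InE0 v ξ (n • S) := by
  induction n with
  | zero => exact Or.inl (zero_smul ℕ S)
  | succ n ih => rw [succ_nsmul]; exact inE0_add v hB hbe0 hbe hKL ih hS

theorem not_inE0_nsmul (hB : v B = 1) (hbe0 : be ≠ 0) (hbe : v be < 1) (hKL : KL ξ B be)
    {p : ℕ} (hp : p.Prime) {P : G} (hpP : p • P = 0) (hP : ¬ InE0 v ξ P) {k : ℕ}
    (hk : ¬ p ∣ k) : ¬ InE0 v ξ (k • P) := by
  intro h
  have hcop : Nat.Coprime k p := ((Nat.Prime.coprime_iff_not_dvd hp).2 hk).symm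
  obtain ⟨m, -, hm⟩ := Nat.exists_mul_mod_eq_one_of_coprime hcop hp.one_lt
  have h1 : (m * k) • P = P := by
    have e : m * k = 1 + (k * m / p) * p := by
      have := Nat.mod_add_div (k * m) p
      rw [hm] at this
      rw [mul_comm m k, mul_comm (k * m / p) p]
      exact this.symm
    rw [e, add_smul, one_smul, mul_smul, hpP, smul_zero, add_zero]
  apply hP
  rw [← h1, mul_smul]
  exact inE0_nsmul v hB hbe0 hbe hKL h m

/-- **Main theorem on an abstract Kummer line.** -/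
theorem kl_main (hB : v B = 1) (hbe0 : be ≠ 0) (hbe : v be < 1) (hKL : KL ξ B be) {p : ℕ}
    (hp : p.Prime) (hp2 : p ≠ 2) {P : G} (hP0 : P ≠ 0) (hpP : p • P = 0)
    (hP : v (ξ P) < 1) :
    v be < v (ξ P) ∧ ∃ j : ℤ, v (ξ P) ^ p = v be ^ (2 * j) := by
  have hnotE : ¬ InE0 v ξ P := by
    rintro (h | ⟨h1, h2⟩)
    · exact hP0 h
    · exact absurd ((ord_nonpos_iff v h1).1 h2) (not_le.2 hP)
  have hnot : ∀ k : ℕ, ¬ p ∣ k → ¬ InE0 v ξ (k • P) := fun k hk =>
    not_inE0_nsmul v hB hbe0 hbe hKL hp hpP hnotE hk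
  obtain ⟨hneg, hprod, hsum, hdbl⟩ := hKL
  -- all nonzero multiples lie in the middle range
  have hmid : ∀ k : ℕ, ¬ p ∣ k →
      ξ (k • P) ≠ 0 ∧ 0 < ord v (ξ (k • P)) ∧ ord v (ξ (k • P)) < ord v be := by
    intro k hk
    have hS := hnot k hk
    have h2k : ¬ p ∣ 2 * k := by
      intro h
      rcases (Nat.Prime.dvd_mul hp).1 h with h | h
      · exact hp2 ((Nat.prime_dvd_prime_iff_eq hp Nat.prime_two).1 h)
      · exact hk h
    have hSS := hnot (2 * k) h2k
    have e : (2 * k) • P = k • P + k • P := by rw [two_mul, add_smul]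
    rw [e] at hSS
    have hS0 : k • P ≠ 0 := fun h => hS (Or.inl h)
    have hSS0 : k • P + k • P ≠ 0 := fun h => hSS (Or.inl h)
    have hD := hdbl (k • P) hS0 hSS0
    have hξ : ξ (k • P) ≠ 0 := by
      intro h
      rw [h] at hD
      have h3 : be ^ 2 = 0 := by linear_combination -hD
      exact hbe0 (pow_eq_zero_iff two_ne_zero |>.1 h3)
    refine ⟨hξ, ?_, ?_⟩
    · by_contra hc
      exact hS (Or.inr ⟨hξ, not_lt.1 hc⟩)
    · by_contra hc
      exact hSS (Or.inr (low_dbl v hB hbe0 hbe hξ (not_lt.1 hc) hD))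
  have hp3 : 3 ≤ p := by
    have := hp.two_le
    omega
  have hnd : ∀ k : ℕ, 1 ≤ k → k < p → ¬ p ∣ k := fun k h1 h2 h =>
    absurd (Nat.le_of_dvd (by omega) h) (by omega)
  -- the quotient of the value group by `2ν`
  let H : AddSubgroup (Additive Γ₀ˣ) := AddSubgroup.zmultiples (ord v be + ord v be)
  let π : Additive Γ₀ˣ →+ Additive Γ₀ˣ ⧸ H := QuotientAddGroup.mk' H
  have hπν : π (ord v be + ord v be) = 0 :=
    (QuotientAddGroup.eq_zero_iff _).2 (AddSubgroup.mem_zmultiples _)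
  have hA1 : ord v (ξ (1 • P)) = ord v (ξ P) := by rw [one_smul]
  -- type induction
  have hty : ∀ k : ℕ, 1 ≤ k → k + 1 < p →
      Ty (π (ord v (ξ P))) (k : ℤ) (π (ord v (ξ (k • P)))) ∧
      Ty (π (ord v (ξ P))) ((k : ℤ) + 1) (π (ord v (ξ ((k + 1) • P)))) := by
    intro k hk
    induction k, hk using Nat.le_induction with
    | base =>
      intro h2
      obtain ⟨hx1, ha1, ha2⟩ := hmid 1 (hnd 1 le_rfl (by omega))
      obtain ⟨hx2, hb1, hb2⟩ := hmid 2 (hnd 2 (by omega) (by omega))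
      rw [one_smul] at hx1 ha1 ha2
      have e2 : (2 : ℕ) • P = P + P := two_smul ℕ P
      rw [e2] at hx2 hb1 hb2
      have hPP : P + P ≠ 0 := by
        intro h
        have := hnot 2 (hnd 2 (by omega) (by omega))
        rw [e2] at this
        exact this (Or.inl h)
      have hD := hdbl P hP0 hPP
      have hmd := mid_dbl v hB hbe0 hx1 hx2 ha1 ha2 hb2 hD
      refine ⟨?_, ?_⟩
      · rw [one_smul, Nat.cast_one]; exact ty_one _
      · have e3 : ((1 : ℕ) : ℤ) + 1 = 2 := by norm_num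
        rw [e3, show (1 + 1 : ℕ) • P = P + P from e2]
        apply ty_dbl
        rcases hmd with h | h
        · left; rw [h, map_add]
        · right; rw [← map_add, ← map_add, h, hπν]
    | succ k hk ih =>
      intro h2
      obtain ⟨ih1, ih2⟩ := ih (by omega)
      refine ⟨by exact_mod_cast ih2, ?_⟩
      obtain ⟨hxk, hk1, hk2⟩ := hmid k (hnd k hk (by omega))
      obtain ⟨hxS, hS1, hS2⟩ := hmid (k + 1) (hnd (k + 1) (by omega) (by omega))
      obtain ⟨hxX, hX1, hX2⟩ := hmid (k + 1 + 1) (hnd (k + 1 + 1) (by omega) (by omega))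
      obtain ⟨hxP, hP1, hP2⟩ := hmid 1 (hnd 1 le_rfl (by omega))
      rw [one_smul] at hxP hP1 hP2
      have eadd : (k + 1) • P + P = (k + 1 + 1) • P := (succ_nsmul P (k + 1)).symm
      have esub : (k + 1) • P - P = k • P := by rw [succ_nsmul, add_sub_cancel_right]
      have hS0 : (k + 1) • P ≠ 0 := fun h =>
        hnot (k + 1) (hnd (k + 1) (by omega) (by omega)) (Or.inl h)
      have hadd0 : (k + 1) • P + P ≠ 0 := by
        rw [eadd]
        exact fun h => hnot (k + 1 + 1) (hnd (k + 1 + 1) (by omega) (by omega)) (Or.inl h)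
      have hsub0 : (k + 1) • P - P ≠ 0 := by
        rw [esub]
        exact fun h => hnot k (hnd k hk (by omega)) (Or.inl h)
      have hPi := hprod ((k + 1) • P) P hS0 hP0 hadd0 hsub0
      have hSig := hsum ((k + 1) • P) P hS0 hP0 hadd0 hsub0
      rw [eadd, esub] at hPi hSig
      have hmc := mid_chord v hB hbe0 hxS hxP hxX hxk hS1 hS2 hP1 hP2 hX1 hX2 hk1 hk2
        hPi hSig
      have hstep := ty_step (α := π (ord v (ξ P))) (g := π (ord v (ξ ((k + 1) • P))))
        (X := π (ord v (ξ ((k + 1 + 1) • P)))) (X' := π (ord v (ξ (k • P))))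
        (k := (k : ℤ) + 1) ih2 (by rw [add_sub_cancel_right]; exact ih1) ?_
      · exact_mod_cast hstep
      · rcases hmc with ⟨h1 | h1, h2 | h2⟩ | ⟨h1 | h1, h2 | h2⟩
        · left; exact ⟨Or.inl (by rw [h1, map_sub]), Or.inl (by rw [h2, map_add])⟩
        · left
          exact ⟨Or.inl (by rw [h1, map_sub]),
            Or.inr (by rw [← map_add, ← map_add, h2, hπν])⟩
        · left; exact ⟨Or.inr (by rw [h1, map_sub]), Or.inl (by rw [h2, map_add])⟩
        · left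
          exact ⟨Or.inr (by rw [h1, map_sub]),
            Or.inr (by rw [← map_add, ← map_add, h2, hπν])⟩
        · right; exact ⟨Or.inl (by rw [h1, map_sub]), Or.inl (by rw [h2, map_add])⟩
        · right
          exact ⟨Or.inl (by rw [h1, map_sub]),
            Or.inr (by rw [← map_add, ← map_add, h2, hπν])⟩
        · right; exact ⟨Or.inr (by rw [h1, map_sub]), Or.inl (by rw [h2, map_add])⟩
        · right
          exact ⟨Or.inr (by rw [h1, map_sub]),
            Or.inr (by rw [← map_add, ← map_add, h2, hπν])⟩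
  -- conclusion
  obtain ⟨hxP, hP1, hP2⟩ := hmid 1 (hnd 1 le_rfl (by omega))
  rw [one_smul] at hxP hP1 hP2
  refine ⟨(ord_lt_ord_iff v hxP hbe0).1 hP2, ?_⟩
  obtain ⟨m, hm⟩ : ∃ m : ℕ, p = 2 * m + 1 := by
    rcases Nat.even_or_odd' p with ⟨m, hm | hm⟩
    · exfalso
      have h2 : 2 ∣ p := ⟨m, hm⟩
      exact hp2 ((Nat.prime_dvd_prime_iff_eq Nat.prime_two hp).1 h2).symm
    · exact ⟨m, hm⟩
  obtain ⟨t1, t2⟩ := hty m (by omega) (by omega)
  have eneg : (m + 1) • P = -(m • P) := by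
    rw [eq_neg_iff_add_eq_zero, ← add_smul]
    have e : m + 1 + m = p := by omega
    rw [e, hpP]
  rw [eneg, hneg] at t2
  have hfin := ty_final t1 t2
  rw [← map_zsmul] at hfin
  have hmem : (2 * (m : ℤ) + 1) • ord v (ξ P) ∈ H := (QuotientAddGroup.eq_zero_iff _).1 hfin
  obtain ⟨j, hj⟩ := AddSubgroup.mem_zmultiples_iff.1 hmem
  refine ⟨j, val_pow_eq_zpow_of_ord v hxP hbe0 p (2 * j) ?_⟩
  have e1 : (p : ℕ) • ord v (ξ P) = (2 * (m : ℤ) + 1) • ord v (ξ P) := by
    rw [hm, ← natCast_zsmul]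
    push_cast
    rfl
  rw [e1, ← hj, mul_comm 2 j, mul_smul, two_smul]

end kummer

/-! ### Weierstrass curves in `b`-form with a node at `x = e` -/

section weierstrass

open WeierstrassCurve WeierstrassCurve.Affine

variable [DecidableEq K]

/-- The shifted `x`-coordinate `ξ = x - e` as a function on points (junk value `0` at `0`). -/
def xiPt (W : WeierstrassCurve K) (e : K) : W.toAffine.Point → K
  | .zero => 0
  | .some x _ _ => x - e

omit [DecidableEq K] in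
theorem xiPt_some (W : WeierstrassCurve K) (e : K) {x y : K} (h : W.toAffine.Nonsingular x y) :
    xiPt W e (Point.some x y h) = x - e := rfl

/-- The Kummer identities for a Weierstrass curve whose `b`-invariants, shifted by `e`, are
`(B, 2 be, 0, -be²)`. -/
theorem kl_of_bform {W : WeierstrassCurve K} {e B be : K}
    (hb2 : W.b₂ = B - 12 * e) (hb4 : W.b₄ = 6 * e ^ 2 - B * e + 2 * be)
    (hb6 : W.b₆ = -4 * e ^ 3 + B * e ^ 2 - 4 * be * e)
    (hb8 : W.b₈ = -be ^ 2 + 6 * be * e ^ 2 - B * e ^ 3 + 3 * e ^ 4) :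
    KL (xiPt W e) B be := by
  refine ⟨?_, ?_, ?_, ?_⟩
  · intro S
    rcases S with _ | ⟨x, y, h⟩
    · rfl
    · rfl
  · intro S T hS hT hST hSmT
    rcases S with _ | ⟨x₁, y₁, h₁⟩
    · exact absurd rfl hS
    rcases T with _ | ⟨x₂, y₂, h₂⟩
    · exact absurd rfl hT
    have hx : x₁ ≠ x₂ := by
      intro hx
      rcases Y_eq_of_X_eq h₁.1 h₂.1 hx with hy | hy
      · subst hx hy
        exact hSmT (sub_self _)
      · exact hST (Point.add_of_Y_eq hx hy)
    obtain ⟨Xp, Yp, Xm, Ym, hp, hm, hadd, hsub, hprod, hsum⟩ :=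
      helper1745.exists_add_sub_some (W := W.toAffine) h₁ h₂ hx
    rw [hadd, hsub]
    simp only [xiPt_some]
    rw [hb8, hb4, hb6] at hprod
    rw [hb2, hb4, hb6] at hsum
    linear_combination hprod - e * hsum
  · intro S T hS hT hST hSmT
    rcases S with _ | ⟨x₁, y₁, h₁⟩
    · exact absurd rfl hS
    rcases T with _ | ⟨x₂, y₂, h₂⟩
    · exact absurd rfl hT
    have hx : x₁ ≠ x₂ := by
      intro hx
      rcases Y_eq_of_X_eq h₁.1 h₂.1 hx with hy | hy
      · subst hx hy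
        exact hSmT (sub_self _)
      · exact hST (Point.add_of_Y_eq hx hy)
    obtain ⟨Xp, Yp, Xm, Ym, hp, hm, hadd, hsub, hprod, hsum⟩ :=
      helper1745.exists_add_sub_some (W := W.toAffine) h₁ h₂ hx
    rw [hadd, hsub]
    simp only [xiPt_some]
    rw [hb2, hb4, hb6] at hsum
    linear_combination hsum
  · intro S hS hSS
    rcases S with _ | ⟨x, y, h⟩
    · exact absurd rfl hS
    have hy : y ≠ W.toAffine.negY x y := fun hy => hSS (Point.add_self_of_Y_eq hy)
    obtain ⟨X, Y, h', hadd, hdup, -⟩ :=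
      helper1745.exists_add_self_some (W := W.toAffine) h hy
    rw [hadd]
    simp only [xiPt_some]
    rw [hb2, hb4, hb6, hb8] at hdup
    linear_combination hdup

/-- **NODEVAL in `b`-form** (no hypothesis on `v 2`, `v p` or the characteristic). -/
theorem nodeVal_bform (v : Valuation K Γ₀) (W : WeierstrassCurve K) (e B be : K)
    (hb2 : W.b₂ = B - 12 * e) (hb4 : W.b₄ = 6 * e ^ 2 - B * e + 2 * be)
    (hb6 : W.b₆ = -4 * e ^ 3 + B * e ^ 2 - 4 * be * e)
    (hb8 : W.b₈ = -be ^ 2 + 6 * be * e ^ 2 - B * e ^ 3 + 3 * e ^ 4)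
    (hB : v B = 1) (hbe : v be < 1) (hbe0 : be ≠ 0)
    (p : ℕ) (hp : p.Prime) (hp2 : p ≠ 2)
    (x y : K) (h : W.toAffine.Nonsingular x y) (hx : v (x - e) < 1)
    (hP : p • (Point.some x y h : W.toAffine.Point) = 0) :
    v be < v (x - e) ∧ ∃ j : ℤ, v (x - e) ^ p = v be ^ (2 * j) :=
  kl_main v hB hbe0 hbe (kl_of_bform hb2 hb4 hb6 hb8) hp hp2 (P := Point.some x y h)
    (Point.some_ne_zero h) hP hx

end weierstrass

end Fermat.Agent.S05.helper752
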