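import Mathlib
import Fermat.Agent.S05.helper5_Spec
import Fermat.Agent.S05.helper1745_XOnlyShape
import Fermat.Agent.S05.helper752_NodeValGen

/-!
# S05-NODEVAL (helper752): `NodeValStmt` of `helper5_Spec`

Direct corollary of `nodeVal_bform` (general `b`-form, abstract Kummer line): a curve of shape
`η² = ξ(ξ² + al ξ + be)` has shifted `b`-invariants `(4 al, 2 be, 0, -be²)`.
Neither `KerStmt` nor `v p = 1` is used.
-/

set_option autoImplicit false

namespace Fermat.Agent.S05.helper752

open WeierstrassCurve WeierstrassCurve.Affine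
open Fermat.Agent.S05

/-- **NODEVAL-GEN** (board row 411): NodeVal in shape coordinates WITHOUT `v 2 = 1` and without
`v p = 1`; only `v (4 * al) = 1` is needed (at the prime 2 for the Frey model
`y² + xy = x³ + a₂x² + a₄x`: `Shape W 0 (b₂/4) a₄`, `4 * al = b₂ = 1 + 4a₂`). -/
theorem nodeVal_gen {K : Type*} [Field K] [DecidableEq K] {Γ₀ : Type*}
    [LinearOrderedCommGroupWithZero Γ₀] (v : Valuation K Γ₀) (W : WeierstrassCurve K)
    (e al be : K) (hS : helper305.Shape W e al be) (hal : v (4 * al) = 1) (hbe : v be < 1)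
    (hbe0 : be ≠ 0) (p : ℕ) (hp : p.Prime) (hp2 : p ≠ 2) (x y : K)
    (h : W.toAffine.Nonsingular x y) (hx : v (x - e) < 1)
    (hT : p • (Point.some x y h : W.toAffine.Point) = 0) :
    v be < v (x - e) ∧ ∃ j : ℤ, v (x - e) ^ p = v be ^ (2 * j) :=
  nodeVal_bform v W e (4 * al) be hS.hb2 hS.hb4 hS.hb6 (helper1745.shape_b₈ hS) hal hbe hbe0 p hp
    hp2 x y h hx hT

/-- **NODEVAL**: the exact `NodeValStmt` of the captain's spec. -/
theorem nodeVal : helper5.NodeValStmt := by
  intro K _ _ Γ₀ _ v W e al be hS h2 hal hbe hbe0 p hp hp2 _ x y h hx hP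
  have hB : v (4 * al) = 1 := by
    have e4 : (4 : K) = 2 * 2 := by norm_num
    rw [e4, map_mul, map_mul, h2, hal, one_mul, one_mul]
  exact nodeVal_gen v W e al be hS hB hbe hbe0 p hp hp2 x y h hx hP

/-- The same statement in the hypothesis-passing form of board row 131. -/
theorem nodeVal_of_ker (_hK : helper5.KerStmt) : helper5.NodeValStmt := nodeVal

end Fermat.Agent.S05.helper752
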