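import Mathlib
import Fermat.Agent.S05.helper872_Kummer
import Fermat.Agent.S05.helper5_Spec

/-!
# S05-NODEVAL (helper760): torsion points near the node have "rational depth"

Route: x-only Kummer identities in shape coordinates (`helper872_Kummer`) and the
*maximal generator* trick.  For a point `P` of odd prime order `p` with `v (ξ P) < 1`:

* no nonzero multiple of `P` lies in `E₀ = {1 ≤ v ξ}` (closed under addition), nor in the
  far region `{v ξ ≤ v be}` (its double would lie in `E₀`);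
* so all nonzero multiples lie in the node region `{v be < v ξ < 1}`; for the multiple `T`
  with maximal `v ξ`, the product formula gives by induction
  `v ξ(mT) ∈ {θ^m, (v be)²/θ^m}` and `θ^p = (v be)²`.

All tropical computations are done additively in `Additive Γ₀ˣ`.
-/

set_option autoImplicit false

namespace Fermat.Agent.S05.helper760

open WeierstrassCurve WeierstrassCurve.Affine
open Fermat.Agent.S05.helper305 (Shape)

/-! ### Abstract tropical lemmas in an ordered additive group -/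

section trop

variable {Γ : Type*} [AddCommGroup Γ] [LinearOrder Γ] [IsOrderedAddMonoid Γ]

theorem trop_dbl (θ B oX n : Γ) (hθ : θ < 0) (hB : B < θ) (hXlo : B < oX)
    (hN1 : n ≤ max (2 • θ) B) (hN2 : 2 • θ ≠ B → n = max (2 • θ) B)
    (heq : oX + θ + θ = 2 • n) :
    (oX = 2 • θ ∧ B < 2 • θ) ∨ (oX + 2 • θ = 2 • B ∧ 2 • θ < B) := by
  grind

theorem trop_step (th B t oA oB oC d n : Γ)
    (hid : oA + oB + 2 • d = 2 • n)
    (hth : th < 0) (ht : t < 0)
    (hd1 : d ≤ max oC th) (hd2 : oC ≠ th → d = max oC th)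
    (hn1 : n ≤ max (oC + th) B) (hn2 : oC + th ≠ B → n = max (oC + th) B)
    (hQB : (oB = t ∧ B < t) ∨ (oB + t = 2 • B ∧ t < B))
    (hQC : (oC = t + th ∧ B < t + th) ∨ (oC + (t + th) = 2 • B ∧ t + th < B))
    (hCle : oC ≤ th) (hAlo : B < oA) (hAhi : oA < 0) :
    (oA = t + 2 • th ∧ B < t + 2 • th) ∨ (oA + (t + 2 • th) = 2 • B ∧ t + 2 • th < B) := by
  grind

end trop

/-! ### Additive logarithmic form of a valuation -/

section lg

variable {K : Type*} [Field K] {Γ₀ : Type*} [LinearOrderedCommGroupWithZero Γ₀]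
  (v : Valuation K Γ₀)

/-- Additive logarithmic form of a valuation (junk value `0` at `0`). -/
noncomputable def lg (x : K) : Additive Γ₀ˣ :=
  haveI := Classical.propDecidable (x = 0)
  if h : x = 0 then 0 else Additive.ofMul (Units.mk0 (v x) ((v.ne_zero_iff).2 h))

theorem lg_of_ne {x : K} (h : x ≠ 0) :
    lg v x = Additive.ofMul (Units.mk0 (v x) ((v.ne_zero_iff).2 h)) := by
  simp [lg, h]

theorem lg_mul {x y : K} (hx : x ≠ 0) (hy : y ≠ 0) : lg v (x * y) = lg v x + lg v y := by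
  rw [lg_of_ne v hx, lg_of_ne v hy, lg_of_ne v (mul_ne_zero hx hy), ← ofMul_mul]
  congr 1
  ext
  simp

theorem lg_pow {x : K} (hx : x ≠ 0) (n : ℕ) : lg v (x ^ n) = n • lg v x := by
  induction n with
  | zero =>
    rw [pow_zero, zero_nsmul, lg_of_ne v one_ne_zero]
    have : Units.mk0 (v (1 : K)) ((v.ne_zero_iff).2 one_ne_zero) = 1 := by ext; simp
    rw [this]; rfl
  | succ n ih => rw [pow_succ, lg_mul v (pow_ne_zero n hx) hx, ih, succ_nsmul]

theorem lg_le_iff {x y : K} (hx : x ≠ 0) (hy : y ≠ 0) : lg v x ≤ lg v y ↔ v x ≤ v y := by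
  rw [lg_of_ne v hx, lg_of_ne v hy, Additive.ofMul_le, ← Units.val_le_val]
  simp

theorem lg_lt_iff {x y : K} (hx : x ≠ 0) (hy : y ≠ 0) : lg v x < lg v y ↔ v x < v y := by
  rw [lg_of_ne v hx, lg_of_ne v hy, Additive.ofMul_lt, ← Units.val_lt_val]
  simp

theorem lg_eq_iff {x y : K} (hx : x ≠ 0) (hy : y ≠ 0) : lg v x = lg v y ↔ v x = v y := by
  rw [le_antisymm_iff, le_antisymm_iff, lg_le_iff v hx hy, lg_le_iff v hy hx]

theorem lg_one : lg v (1 : K) = 0 := by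
  have := lg_pow v (one_ne_zero (α := K)) 0
  simpa using this

theorem lg_neg_iff {x : K} (hx : x ≠ 0) : lg v x < 0 ↔ v x < 1 := by
  rw [← lg_one v, lg_lt_iff v hx one_ne_zero, map_one]

theorem lg_eq_zero_iff {x : K} (hx : x ≠ 0) : lg v x = 0 ↔ v x = 1 := by
  rw [← lg_one v, lg_eq_iff v hx one_ne_zero, map_one]

theorem lg_sub_le {x y : K} (hx : x ≠ 0) (hy : y ≠ 0) (hxy : x - y ≠ 0) :
    lg v (x - y) ≤ max (lg v x) (lg v y) := by
  rcases le_total (v x) (v y) with h | h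
  · rw [max_eq_right ((lg_le_iff v hx hy).2 h), lg_le_iff v hxy hy]
    exact (v.map_sub x y).trans (max_le h le_rfl)
  · rw [max_eq_left ((lg_le_iff v hy hx).2 h), lg_le_iff v hxy hx]
    exact (v.map_sub x y).trans (max_le le_rfl h)

theorem lg_sub_eq {x y : K} (hx : x ≠ 0) (hy : y ≠ 0) (hxy : x - y ≠ 0)
    (hne : lg v x ≠ lg v y) : lg v (x - y) = max (lg v x) (lg v y) := by
  rcases lt_or_gt_of_ne hne with h | h
  · rw [max_eq_right h.le, lg_eq_iff v hxy hy]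
    exact v.map_sub_eq_of_lt_right ((lg_lt_iff v hx hy).1 h)
  · rw [max_eq_left h.le, lg_eq_iff v hxy hx]
    exact v.map_sub_eq_of_lt_left ((lg_lt_iff v hy hx).1 h)

/-! ### Field-level tropical lemmas -/

theorem val_four (h2 : v (2 : K) = 1) : v (4 : K) = 1 := by
  have : (4 : K) = 2 * 2 := by norm_num
  rw [this, map_mul, h2, mul_one]

/-- Node region, duplication: `ξ(2T)` has valuation `θ²` or `β²/θ²`. -/
theorem mid_dbl {X ξ al be : K}
    (hid : X * 4 * ξ * (ξ ^ 2 + al * ξ + be) = (ξ ^ 2 - be) ^ 2)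
    (hne : ξ * (ξ ^ 2 + al * ξ + be) ≠ 0) (hX0 : X ≠ 0) (hbe0 : be ≠ 0)
    (h2 : v (2 : K) = 1) (hal : v al = 1)
    (hθ : lg v ξ < 0) (hB : lg v be < lg v ξ) (hXlo : lg v be < lg v X) :
    (lg v X = 2 • lg v ξ ∧ lg v be < 2 • lg v ξ) ∨
      (lg v X + 2 • lg v ξ = 2 • lg v be ∧ 2 • lg v ξ < lg v be) := by
  have hξ0 : ξ ≠ 0 := left_ne_zero_of_mul hne
  have hc0 : ξ ^ 2 + al * ξ + be ≠ 0 := right_ne_zero_of_mul hne
  have h40 : (4 : K) ≠ 0 := by
    intro h; have := val_four v h2; rw [h, map_zero] at this; exact zero_ne_one this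
  have hvξ : v ξ < 1 := (lg_neg_iff v hξ0).1 hθ
  have hvbe : v be < v ξ := (lg_lt_iff v hbe0 hξ0).1 hB
  have hvξ0 : v ξ ≠ 0 := (v.ne_zero_iff).2 hξ0
  -- valuation of the cubic factor
  have hc : v (ξ ^ 2 + al * ξ + be) = v ξ := by
    have h1 : v (ξ ^ 2) < v (al * ξ) := by
      rw [map_pow, map_mul, hal, one_mul, sq]
      calc v ξ * v ξ < 1 * v ξ := mul_lt_mul_of_pos_right hvξ (zero_lt_iff.2 hvξ0)
        _ = v ξ := one_mul _
    have h3 : v (ξ ^ 2 + al * ξ) = v ξ := by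
      rw [v.map_add_eq_of_lt_right h1, map_mul, hal, one_mul]
    have h4 : v be < v (ξ ^ 2 + al * ξ) := by rw [h3]; exact hvbe
    rw [v.map_add_eq_of_lt_left h4, h3]
  have hlc : lg v (ξ ^ 2 + al * ξ + be) = lg v ξ := (lg_eq_iff v hc0 hξ0).2 hc
  have hl4 : lg v (4 : K) = 0 := (lg_eq_zero_iff v h40).2 (val_four v h2)
  -- numerator
  have hN0 : ξ ^ 2 - be ≠ 0 := by
    intro h
    rw [h] at hid
    have : X * 4 * ξ * (ξ ^ 2 + al * ξ + be) ≠ 0 :=
      mul_ne_zero (mul_ne_zero (mul_ne_zero hX0 h40) hξ0) hc0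
    exact this (by rw [hid]; ring)
  have hξ2 : ξ ^ 2 ≠ 0 := pow_ne_zero 2 hξ0
  have hN1 := lg_sub_le v hξ2 hbe0 hN0
  have hN2 := lg_sub_eq v hξ2 hbe0 hN0
  rw [lg_pow v hξ0] at hN1 hN2
  have heq : lg v X + lg v ξ + lg v ξ = 2 • lg v (ξ ^ 2 - be) := by
    have := congrArg (lg v) hid
    rw [lg_mul v (mul_ne_zero (mul_ne_zero hX0 h40) hξ0) hc0,
      lg_mul v (mul_ne_zero hX0 h40) hξ0, lg_mul v hX0 h40, hl4, hlc, lg_pow v hN0] at this
    rw [← this]; abel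
  exact trop_dbl (lg v ξ) (lg v be) (lg v X) (lg v (ξ ^ 2 - be)) hθ hB hXlo hN1 hN2 heq

/-- Node region, induction step from the product formula. -/
theorem mid_step {A Bm C X be : K}
    (hid : A * Bm * (C - X) ^ 2 = (C * X - be) ^ 2)
    (hA0 : A ≠ 0) (hB0 : Bm ≠ 0) (hC0 : C ≠ 0) (hX0 : X ≠ 0) (hbe0 : be ≠ 0) (hCX : C ≠ X)
    (t : Additive Γ₀ˣ) (ht : t < 0) (hth : lg v X < 0)
    (hQB : (lg v Bm = t ∧ lg v be < t) ∨ (lg v Bm + t = 2 • lg v be ∧ t < lg v be))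
    (hQC : (lg v C = t + lg v X ∧ lg v be < t + lg v X) ∨
      (lg v C + (t + lg v X) = 2 • lg v be ∧ t + lg v X < lg v be))
    (hCle : lg v C ≤ lg v X) (hAlo : lg v be < lg v A) (hAhi : lg v A < 0) :
    (lg v A = t + 2 • lg v X ∧ lg v be < t + 2 • lg v X) ∨
      (lg v A + (t + 2 • lg v X) = 2 • lg v be ∧ t + 2 • lg v X < lg v be) := by
  have hD0 : C - X ≠ 0 := sub_ne_zero.2 hCX
  have hN0 : C * X - be ≠ 0 := by
    intro h
    rw [h] at hid
    have : A * Bm * (C - X) ^ 2 ≠ 0 := mul_ne_zero (mul_ne_zero hA0 hB0) (pow_ne_zero 2 hD0)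
    exact this (by rw [hid]; ring)
  have hCX0 : C * X ≠ 0 := mul_ne_zero hC0 hX0
  have hd1 := lg_sub_le v hC0 hX0 hD0
  have hd2 := lg_sub_eq v hC0 hX0 hD0
  have hn1 := lg_sub_le v hCX0 hbe0 hN0
  have hn2 := lg_sub_eq v hCX0 hbe0 hN0
  rw [lg_mul v hC0 hX0] at hn1 hn2
  have heq : lg v A + lg v Bm + 2 • lg v (C - X) = 2 • lg v (C * X - be) := by
    have := congrArg (lg v) hid
    rw [lg_mul v (mul_ne_zero hA0 hB0) (pow_ne_zero 2 hD0), lg_mul v hA0 hB0,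
      lg_pow v hD0, lg_pow v hN0] at this
    exact this
  exact trop_step (lg v X) (lg v be) t (lg v A) (lg v Bm) (lg v C) (lg v (C - X))
    (lg v (C * X - be)) heq hth ht hd1 hd2 hn1 hn2 hQB hQC hCle hAlo hAhi

theorem nsmul_neg_of_neg {Γ : Type*} [AddCommGroup Γ] [LinearOrder Γ] [IsOrderedAddMonoid Γ]
    {a : Γ} (ha : a < 0) {m : ℕ} (hm : 1 ≤ m) : m • a < 0 := by
  induction m, hm using Nat.le_induction with
  | base => rwa [one_nsmul]
  | succ m _ ih => rw [succ_nsmul]; exact add_neg ih ha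

/-- Sequence-level induction in the node region: if all `x m` (`1 ≤ m ≤ n - 1`) lie in the
node region, `x 1` has maximal valuation among them, and the product and duplication
formulas hold, then `v (x m) ^ n ∈ (v be ^ 2) ^ ℕ`. -/
theorem mid_seq (x : ℕ → K) (al be : K) (n : ℕ) (hn : 3 ≤ n) (h2 : v (2 : K) = 1)
    (hal : v al = 1) (hbe0 : be ≠ 0)
    (h0 : ∀ m, 1 ≤ m → m ≤ n - 1 → v be < v (x m) ∧ v (x m) < 1 ∧ v (x m) ≤ v (x 1))
    (hPi : ∀ m, 2 ≤ m → m ≤ n - 2 → x m ≠ x 1 ∧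
      x (m + 1) * x (m - 1) * (x m - x 1) ^ 2 = (x m * x 1 - be) ^ 2)
    (hD : x 2 * 4 * x 1 * (x 1 ^ 2 + al * x 1 + be) = (x 1 ^ 2 - be) ^ 2 ∧
      x 1 * (x 1 ^ 2 + al * x 1 + be) ≠ 0)
    (hsym : x (n - 1) = x 1) :
    ∀ m, 1 ≤ m → m ≤ n - 1 → ∃ j : ℕ, v (x m) ^ n = v be ^ (2 * j) := by
  have hx0 : ∀ m, 1 ≤ m → m ≤ n - 1 → x m ≠ 0 := by
    intro m h1 h2 h
    have := (h0 m h1 h2).1
    rw [h, map_zero] at this
    exact not_lt_zero this
  have h1n : 1 ≤ n - 1 := by omega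
  have hX0 := hx0 1 le_rfl h1n
  have hθ : lg v (x 1) < 0 := (lg_neg_iff v hX0).2 (h0 1 le_rfl h1n).2.1
  have hBθ : lg v be < lg v (x 1) := (lg_lt_iff v hbe0 hX0).2 (h0 1 le_rfl h1n).1
  -- the invariant
  have key : ∀ m, 1 ≤ m → (m ≤ n - 1 →
      ((lg v (x m) = m • lg v (x 1) ∧ lg v be < m • lg v (x 1)) ∨
        (lg v (x m) + m • lg v (x 1) = 2 • lg v be ∧ m • lg v (x 1) < lg v be))) ∧
      (m + 1 ≤ n - 1 →
      ((lg v (x (m + 1)) = (m + 1) • lg v (x 1) ∧ lg v be < (m + 1) • lg v (x 1)) ∨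
        (lg v (x (m + 1)) + (m + 1) • lg v (x 1) = 2 • lg v be ∧
          (m + 1) • lg v (x 1) < lg v be))) := by
    intro m hm
    induction m, hm using Nat.le_induction with
    | base =>
      refine ⟨fun _ => Or.inl ⟨by rw [one_nsmul], by rw [one_nsmul]; exact hBθ⟩, fun h => ?_⟩
      have h22 : 2 ≤ n - 1 := h
      have hX2 := hx0 2 (by norm_num) h22
      have hXlo : lg v be < lg v (x 2) := (lg_lt_iff v hbe0 hX2).2 (h0 2 (by norm_num) h22).1
      exact mid_dbl v hD.1 hD.2 hX2 hbe0 h2 hal hθ hBθ hXlo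
    | succ m hm ih =>
      refine ⟨ih.2, fun h => ?_⟩
      have hm1 : m ≤ n - 1 := by omega
      have hm2 : m + 1 ≤ n - 1 := by omega
      obtain ⟨hne, hid⟩ := hPi (m + 1) (by omega) (by omega)
      have hA0 := hx0 (m + 1 + 1) (by omega) h
      have hB0 := hx0 m hm hm1
      have hC0 := hx0 (m + 1) (by omega) hm2
      have ht : m • lg v (x 1) < 0 := nsmul_neg_of_neg hθ hm
      have hQB := ih.1 hm1
      have hQC := ih.2 hm2
      rw [succ_nsmul] at hQC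
      have hCle : lg v (x (m + 1)) ≤ lg v (x 1) :=
        (lg_le_iff v hC0 hX0).2 (h0 (m + 1) (by omega) hm2).2.2
      have hAlo : lg v be < lg v (x (m + 1 + 1)) :=
        (lg_lt_iff v hbe0 hA0).2 (h0 _ (by omega) h).1
      have hAhi : lg v (x (m + 1 + 1)) < 0 := (lg_neg_iff v hA0).2 (h0 _ (by omega) h).2.1
      have hid' : x (m + 1 + 1) * x m * (x (m + 1) - x 1) ^ 2 = (x (m + 1) * x 1 - be) ^ 2 := by
        simpa using hid
      have hstep := mid_step v hid' hA0 hB0 hC0 hX0 hbe0 hne (m • lg v (x 1)) ht hθ hQB hQC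
        hCle hAlo hAhi
      have e : m • lg v (x 1) + 2 • lg v (x 1) = (m + 1 + 1) • lg v (x 1) := by
        rw [show m + 1 + 1 = m + 2 from rfl, add_nsmul]
      rw [e] at hstep
      exact hstep
  -- closing the cycle: `n • θ = 2 • B`
  have hnθ : n • lg v (x 1) = 2 • lg v be := by
    have hQlast := (key (n - 1) h1n).1 le_rfl
    rw [hsym] at hQlast
    rcases hQlast with ⟨h1, _⟩ | ⟨h1, _⟩
    · exfalso
      have hn2 : n - 1 = (n - 2) + 1 := by omega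
      rw [hn2, succ_nsmul] at h1
      have h3 : (n - 2) • lg v (x 1) < 0 := nsmul_neg_of_neg hθ (by omega)
      have h4 : (n - 2) • lg v (x 1) = 0 := by
        have := h1
        exact (add_eq_right.1 this.symm)
      exact absurd h4 h3.ne
    · have hn1 : n = (n - 1) + 1 := by omega
      rw [hn1, succ_nsmul, ← h1]
      exact add_comm _ _
  intro m hm1 hm2
  have hxm := hx0 m hm1 hm2
  have conv : ∀ j : ℕ, n • lg v (x m) = (2 * j) • lg v be → v (x m) ^ n = v be ^ (2 * j) := by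
    intro j hj
    have h3 : lg v (x m ^ n) = lg v (be ^ (2 * j)) := by
      rw [lg_pow v hxm, lg_pow v hbe0, hj]
    have h4 := (lg_eq_iff v (pow_ne_zero n hxm) (pow_ne_zero _ hbe0)).1 h3
    simpa [map_pow] using h4
  rcases (key m hm1).1 hm2 with ⟨h1, _⟩ | ⟨h1, _⟩
  · refine ⟨m, conv m ?_⟩
    rw [h1, smul_comm, hnθ, smul_smul, mul_comm]
  · refine ⟨n - m, conv (n - m) ?_⟩
    have h3 : lg v (x m) = 2 • lg v be - m • lg v (x 1) := eq_sub_of_add_eq h1
    have e1 : (2 * (n - m)) • lg v be + (2 * m) • lg v be = (2 * n) • lg v be := by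
      rw [← add_nsmul]; congr 1; omega
    rw [h3, nsmul_sub, smul_comm n m, hnθ, smul_smul, smul_smul, sub_eq_iff_eq_add,
      mul_comm m 2, mul_comm n 2, e1]

end lg

/-! ### `E₀ = {1 ≤ v ξ}` is closed under the group law; doubling estimates -/

section e0

variable {K : Type*} [Field K] {Γ₀ : Type*} [LinearOrderedCommGroupWithZero Γ₀]
  (v : Valuation K Γ₀)

/-- If `ξ₁, ξ₂ ∈ E₀` then `ξ(P+Q) ∈ E₀` (sum and product formulas). -/
theorem e0_closed {ξ₁ ξ₂ ξp ξm al be : K} (h2 : v (2 : K) = 1) (hal : v al ≤ 1)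
    (hbe : v be < 1) (h1 : 1 ≤ v ξ₁) (h1' : 1 ≤ v ξ₂)
    (hPi : ξp * ξm * (ξ₁ - ξ₂) ^ 2 = (ξ₁ * ξ₂ - be) ^ 2)
    (hSig : (ξp + ξm) * (ξ₁ - ξ₂) ^ 2 =
      2 * (ξ₁ + ξ₂) * (ξ₁ * ξ₂ + be) + 4 * al * ξ₁ * ξ₂) : 1 ≤ v ξp := by
  by_contra hlt
  rw [not_le] at hlt
  have ha_le : v ξ₁ ≤ v ξ₁ * v ξ₂ := le_mul_of_one_le_right' h1'
  have hb_le : v ξ₂ ≤ v ξ₁ * v ξ₂ := le_mul_of_one_le_left' h1
  have hab1 : 1 ≤ v ξ₁ * v ξ₂ := h1.trans ha_le
  have hquad : (ξ₁ * ξ₂ - be) ^ 2 =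
      ξp * ((2 * (ξ₁ + ξ₂) * (ξ₁ * ξ₂ + be) + 4 * al * ξ₁ * ξ₂) - (ξ₁ - ξ₂) ^ 2 * ξp) := by
    linear_combination ξp * hSig - hPi
  have hvP : v (ξ₁ * ξ₂ - be) = v ξ₁ * v ξ₂ := by
    rw [v.map_sub_eq_of_lt_left (by rw [map_mul]; exact lt_of_lt_of_le hbe hab1), map_mul]
  have hsum : v (ξ₁ + ξ₂) ≤ v ξ₁ * v ξ₂ := v.map_add_le ha_le hb_le
  have hdif : v (ξ₁ - ξ₂) ≤ v ξ₁ * v ξ₂ := v.map_sub_le ha_le hb_le
  have hpl : v (ξ₁ * ξ₂ + be) ≤ v ξ₁ * v ξ₂ :=
    v.map_add_le (by rw [map_mul]) (hbe.le.trans hab1)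
  have hself : v ξ₁ * v ξ₂ ≤ v ξ₁ * v ξ₂ * (v ξ₁ * v ξ₂) := le_mul_of_one_le_right' hab1
  have hS : v (2 * (ξ₁ + ξ₂) * (ξ₁ * ξ₂ + be) + 4 * al * ξ₁ * ξ₂) ≤
      v ξ₁ * v ξ₂ * (v ξ₁ * v ξ₂) := by
    apply v.map_add_le
    · rw [map_mul, map_mul, h2, one_mul]
      exact mul_le_mul' hsum hpl
    · rw [map_mul, map_mul, map_mul, val_four v h2, one_mul, mul_assoc]
      calc v al * (v ξ₁ * v ξ₂) ≤ 1 * (v ξ₁ * v ξ₂) := mul_le_mul' hal le_rfl
        _ = v ξ₁ * v ξ₂ := one_mul _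
        _ ≤ _ := hself
  have hD : v ((ξ₁ - ξ₂) ^ 2 * ξp) ≤ v ξ₁ * v ξ₂ * (v ξ₁ * v ξ₂) := by
    rw [map_mul, map_pow, sq]
    calc v (ξ₁ - ξ₂) * v (ξ₁ - ξ₂) * v ξp ≤ v ξ₁ * v ξ₂ * (v ξ₁ * v ξ₂) * 1 :=
          mul_le_mul' (mul_le_mul' hdif hdif) hlt.le
      _ = _ := mul_one _
  have hfac := v.map_sub_le hS hD
  have hpos : 0 < v ξ₁ * v ξ₂ * (v ξ₁ * v ξ₂) := lt_of_lt_of_le zero_lt_one (hab1.trans hself)
  have hval := congrArg v hquad
  rw [map_pow, hvP, map_mul, sq] at hval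
  have hcontra : v ξp * v (2 * (ξ₁ + ξ₂) * (ξ₁ * ξ₂ + be) + 4 * al * ξ₁ * ξ₂ -
      (ξ₁ - ξ₂) ^ 2 * ξp) < v ξ₁ * v ξ₂ * (v ξ₁ * v ξ₂) := by
    calc _ ≤ v ξp * (v ξ₁ * v ξ₂ * (v ξ₁ * v ξ₂)) := mul_le_mul' le_rfl hfac
      _ < 1 * (v ξ₁ * v ξ₂ * (v ξ₁ * v ξ₂)) := mul_lt_mul_of_pos_right hlt hpos
      _ = _ := one_mul _
  rw [← hval] at hcontra
  exact lt_irrefl _ hcontra

/-- Doubling stays in `E₀`. -/
theorem e0_dbl {X ξ al be : K} (h2 : v (2 : K) = 1) (hal : v al ≤ 1) (hbe : v be < 1)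
    (h1 : 1 ≤ v ξ)
    (hid : X * 4 * ξ * (ξ ^ 2 + al * ξ + be) = (ξ ^ 2 - be) ^ 2) : 1 ≤ v X := by
  by_contra hlt
  rw [not_le] at hlt
  have ha_le : v ξ ≤ v ξ * v ξ := le_mul_of_one_le_right' h1
  have ha2 : 1 ≤ v ξ * v ξ := h1.trans ha_le
  have hN : v (ξ ^ 2 - be) = v ξ * v ξ := by
    rw [v.map_sub_eq_of_lt_left (by rw [map_pow, sq]; exact lt_of_lt_of_le hbe ha2), map_pow, sq]
  have hc : v (ξ ^ 2 + al * ξ + be) ≤ v ξ * v ξ := by
    refine v.map_add_le (v.map_add_le (by rw [map_pow, sq]) ?_) (hbe.le.trans ha2)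
    rw [map_mul]
    calc v al * v ξ ≤ 1 * v ξ := mul_le_mul' hal le_rfl
      _ = v ξ := one_mul _
      _ ≤ _ := ha_le
  have hval := congrArg v hid
  rw [map_mul, map_mul, map_mul, val_four v h2, mul_one, map_pow, hN] at hval
  have hpos : 0 < v ξ * (v ξ * v ξ) :=
    lt_of_lt_of_le zero_lt_one (h1.trans (le_mul_of_one_le_right' ha2))
  have hcontra : v X * v ξ * v (ξ ^ 2 + al * ξ + be) < v ξ * v ξ * (v ξ * v ξ) := by
    calc v X * v ξ * v (ξ ^ 2 + al * ξ + be) ≤ v X * v ξ * (v ξ * v ξ) :=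
          mul_le_mul' le_rfl hc
      _ = v X * (v ξ * (v ξ * v ξ)) := mul_assoc _ _ _
      _ < 1 * (v ξ * (v ξ * v ξ)) := mul_lt_mul_of_pos_right hlt hpos
      _ = v ξ * (v ξ * v ξ) := one_mul _
      _ ≤ v ξ * v ξ * (v ξ * v ξ) := mul_le_mul' ha_le le_rfl
  rw [hval, sq] at hcontra
  exact lt_irrefl _ hcontra

/-- The double of a point in the far region `{v ξ ≤ v be}` lies in `E₀`. -/
theorem far_dbl {X ξ al be : K} (h2 : v (2 : K) = 1) (hal : v al ≤ 1) (hbe : v be < 1)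
    (hbe0 : be ≠ 0) (hfar : v ξ ≤ v be)
    (hid : X * 4 * ξ * (ξ ^ 2 + al * ξ + be) = (ξ ^ 2 - be) ^ 2) : 1 ≤ v X := by
  by_contra hlt
  rw [not_le] at hlt
  have hβ0 : 0 < v be := zero_lt_iff.2 ((v.ne_zero_iff).2 hbe0)
  have hββ : v be * v be < v be := by
    calc v be * v be < 1 * v be := mul_lt_mul_of_pos_right hbe hβ0
      _ = v be := one_mul _
  have hξ2 : v (ξ ^ 2) < v be := by
    rw [map_pow, sq]
    exact lt_of_le_of_lt (mul_le_mul' hfar hfar) hββ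
  have hN : v (ξ ^ 2 - be) = v be := v.map_sub_eq_of_lt_right hξ2
  have hc : v (ξ ^ 2 + al * ξ + be) ≤ v be := by
    refine v.map_add_le (v.map_add_le hξ2.le ?_) le_rfl
    rw [map_mul]
    calc v al * v ξ ≤ 1 * v be := mul_le_mul' hal hfar
      _ = v be := one_mul _
  have hval := congrArg v hid
  rw [map_mul, map_mul, map_mul, val_four v h2, mul_one, map_pow, hN] at hval
  have hpos : 0 < v be * v be := mul_pos hβ0 hβ0
  have hcontra : v X * v ξ * v (ξ ^ 2 + al * ξ + be) < v be * v be := by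
    calc v X * v ξ * v (ξ ^ 2 + al * ξ + be) ≤ v X * v be * v be :=
          mul_le_mul' (mul_le_mul' le_rfl hfar) hc
      _ = v X * (v be * v be) := mul_assoc _ _ _
      _ < 1 * (v be * v be) := mul_lt_mul_of_pos_right hlt hpos
      _ = v be * v be := one_mul _
  rw [hval, sq] at hcontra
  exact lt_irrefl _ hcontra

end e0

/-! ### Point level -/

section points

variable {K : Type*} [Field K] [DecidableEq K] {W : WeierstrassCurve K} {e al be : K}

/-- The shifted `x`-coordinate `ξ = x - e` of a point (junk value `0` at the origin). -/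
def xi (e : K) : W.toAffine.Point → K
  | .zero => 0
  | .some x _ _ => x - e

theorem xi_neg (P : W.toAffine.Point) : xi e (-P) = xi e P := by
  cases P with
  | zero => rfl
  | some x y h => rw [Point.neg_some]; rfl

theorem xi_add_sub (hS : Shape W e al be) {P Q : W.toAffine.Point} (hP : P ≠ 0) (hQ : Q ≠ 0)
    (hne : xi e P ≠ xi e Q) :
    P + Q ≠ 0 ∧ P - Q ≠ 0 ∧
      xi e (P + Q) * xi e (P - Q) * (xi e P - xi e Q) ^ 2 = (xi e P * xi e Q - be) ^ 2 ∧
      (xi e (P + Q) + xi e (P - Q)) * (xi e P - xi e Q) ^ 2 =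
        2 * (xi e P + xi e Q) * (xi e P * xi e Q + be) + 4 * al * xi e P * xi e Q := by
  cases P with
  | zero => exact absurd rfl hP
  | some x₁ y₁ h₁ =>
    cases Q with
    | zero => exact absurd rfl hQ
    | some x₂ y₂ h₂ =>
      have hx : x₁ ≠ x₂ := fun h => hne (by simp [xi, h])
      obtain ⟨Xp, Yp, Xm, Ym, hp, hm, hadd, hsub, hprod, hsum⟩ :=
        helper872.exists_add_sub_shape hS h₁ h₂ hx
      rw [hadd, hsub]
      refine ⟨Point.some_ne_zero _, Point.some_ne_zero _, ?_, ?_⟩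
      · simp only [xi]; linear_combination hprod
      · simp only [xi]; linear_combination hsum

theorem xi_two_nsmul (hS : Shape W e al be) {P : W.toAffine.Point} (hP : P ≠ 0)
    (h2 : 2 • P ≠ 0) :
    xi e (2 • P) * 4 * xi e P * (xi e P ^ 2 + al * xi e P + be) = (xi e P ^ 2 - be) ^ 2 ∧
      xi e P * (xi e P ^ 2 + al * xi e P + be) ≠ 0 := by
  cases P with
  | zero => exact absurd rfl hP
  | some x y h =>
    have hy : y ≠ W.toAffine.negY x y :=
      fun hy => h2 ((helper872.two_nsmul_eq_zero_iff h).2 hy)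
    obtain ⟨X, Y, h', hadd, hdup, hne⟩ := helper872.exists_two_nsmul_shape hS h hy
    rw [hadd]
    exact ⟨hdup, hne⟩

theorem eq_or_eq_neg_of_xi_eq {P Q : W.toAffine.Point} (hP : P ≠ 0) (hQ : Q ≠ 0)
    (h : xi e P = xi e Q) : P = Q ∨ P = -Q := by
  cases P with
  | zero => exact absurd rfl hP
  | some x₁ y₁ h₁ =>
    cases Q with
    | zero => exact absurd rfl hQ
    | some x₂ y₂ h₂ =>
      exact helper872.eq_or_eq_neg_of_X_eq h₁ h₂ (sub_left_injective h)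

theorem nsmul_eq_zero_iff_dvd {P : W.toAffine.Point} {p : ℕ} (hp : p.Prime) (hP : P ≠ 0)
    (hpP : p • P = 0) (m : ℕ) : m • P = 0 ↔ p ∣ m := by
  have : Fact p.Prime := ⟨hp⟩
  rw [← addOrderOf_dvd_iff_nsmul_eq_zero, addOrderOf_eq_prime hpP hP]

theorem nsmul_mod_eq {P : W.toAffine.Point} {p : ℕ} (hpP : p • P = 0) (m : ℕ) :
    (m % p) • P = m • P := by
  conv_rhs => rw [← Nat.mod_add_div m p]
  rw [add_nsmul, mul_nsmul, hpP, nsmul_zero, add_zero]

variable {Γ₀ : Type*} [LinearOrderedCommGroupWithZero Γ₀] (v : Valuation K Γ₀)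

theorem E0_add (hS : Shape W e al be) (h2 : v (2 : K) = 1) (hal : v al ≤ 1) (hbe : v be < 1)
    {R Q : W.toAffine.Point} (hR : R ≠ 0) (hQ : Q ≠ 0) (hvR : 1 ≤ v (xi e R))
    (hvQ : 1 ≤ v (xi e Q)) : R + Q = 0 ∨ 1 ≤ v (xi e (R + Q)) := by
  by_cases hne : xi e R = xi e Q
  · rcases eq_or_eq_neg_of_xi_eq hR hQ hne with h | h
    · subst h
      by_cases h0 : 2 • R = 0
      · left; rw [← two_nsmul]; exact h0
      · right
        obtain ⟨hid, -⟩ := xi_two_nsmul hS hR h0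
        rw [← two_nsmul]
        exact e0_dbl v h2 hal hbe hvR hid
    · left; rw [h]; exact neg_add_cancel Q
  · right
    obtain ⟨-, -, hprod, hsum⟩ := xi_add_sub hS hR hQ hne
    exact e0_closed v h2 hal hbe hvR hvQ hprod hsum

theorem E0_nsmul (hS : Shape W e al be) (h2 : v (2 : K) = 1) (hal : v al ≤ 1)
    (hbe : v be < 1) {Q : W.toAffine.Point} (hQ : Q ≠ 0) (hvQ : 1 ≤ v (xi e Q)) (k : ℕ) :
    k • Q = 0 ∨ 1 ≤ v (xi e (k • Q)) := by
  induction k with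
  | zero => left; exact zero_nsmul Q
  | succ k ih =>
    rw [succ_nsmul]
    by_cases h0 : k • Q = 0
    · right; rw [h0, zero_add]; exact hvQ
    · rcases ih with h | h
      · exact absurd h h0
      · exact E0_add v hS h2 hal hbe h0 hQ h hvQ

end points

/-! ### The main theorem -/

/-- **S05-NODEVAL.**  A `p`-torsion point near the node has `v be < v ξ` and
`v ξ ^ p ∈ (v be ^ 2) ^ ℤ`. -/
theorem nodeVal : helper5.NodeValStmt := by
  intro K _ _ Γ₀ _ v W e al be hS h2 hal hbe hbe0 p hp hp2 _ x y h hξ hpP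
  have hP0 : (Point.some x y h : W.toAffine.Point) ≠ 0 := Point.some_ne_zero _
  generalize hPdef : (Point.some x y h : W.toAffine.Point) = P at hpP hP0
  have hξP : v (xi e P) < 1 := by rw [← hPdef]; exact hξ
  have hxiP : xi e P = x - e := by rw [← hPdef]; rfl
  have hp3 : 3 ≤ p := by have := hp.two_le; omega
  have hdvd : ∀ m, m • P = 0 ↔ p ∣ m := nsmul_eq_zero_iff_dvd hp hP0 hpP
  have hmod : ∀ m, (m % p) • P = m • P := nsmul_mod_eq hpP
  have hal' : v al ≤ 1 := hal.le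
  -- inverses modulo `p`
  have hinv : ∀ m, ¬ p ∣ m → ∃ k, (m * k) • P = P := by
    intro m hm
    have hcop : Nat.Coprime m p := ((Nat.Prime.coprime_iff_not_dvd hp).2 hm).symm
    obtain ⟨k, -, hk⟩ := Nat.exists_mul_mod_eq_one_of_coprime hcop hp.one_lt
    exact ⟨k, by rw [← hmod, hk, one_nsmul]⟩
  -- no nonzero multiple lies in `E₀`
  have hA1 : ∀ m, ¬ p ∣ m → v (xi e (m • P)) < 1 := by
    intro m hm
    by_contra hge
    rw [not_lt] at hge
    have hQ0 : m • P ≠ 0 := fun h0 => hm ((hdvd m).1 h0)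
    obtain ⟨k, hk⟩ := hinv m hm
    have hkm : k • m • P = P := by rw [← mul_nsmul, hk]
    rcases E0_nsmul v hS h2 hal' hbe hQ0 hge k with h' | h'
    · rw [hkm] at h'; exact hP0 h'
    · rw [hkm] at h'; exact absurd hξP (not_lt.2 h')
  -- no nonzero multiple lies in the far region
  have hA2 : ∀ m, ¬ p ∣ m → v be < v (xi e (m • P)) := by
    intro m hm
    by_contra hle
    rw [not_lt] at hle
    have hQ0 : m • P ≠ 0 := fun h0 => hm ((hdvd m).1 h0)
    have h2m : ¬ p ∣ m * 2 := by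
      intro hd
      rcases (Nat.Prime.dvd_mul hp).1 hd with h' | h'
      · exact hm h'
      · exact hp2 ((Nat.prime_dvd_prime_iff_eq hp Nat.prime_two).1 h')
    have e2 : 2 • m • P = (m * 2) • P := by rw [← mul_nsmul]
    have h2Q : 2 • m • P ≠ 0 := by rw [e2]; exact fun h0 => h2m ((hdvd _).1 h0)
    obtain ⟨hid, -⟩ := xi_two_nsmul hS hQ0 h2Q
    have hge := far_dbl v h2 hal' hbe hbe0 hle hid
    have hlt := hA1 (m * 2) h2m
    rw [← e2] at hlt
    exact absurd hge (not_le.2 hlt)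
  have h1p : ¬ p ∣ 1 := fun h1 => hp.one_lt.ne' (Nat.dvd_one.1 h1)
  refine ⟨by have := hA2 1 h1p; rwa [one_nsmul, hxiP] at this, ?_⟩
  -- the multiple with maximal valuation
  have hne : (Finset.Icc 1 (p - 1)).Nonempty := ⟨1, Finset.mem_Icc.2 ⟨le_rfl, by omega⟩⟩
  obtain ⟨m₀, hm₀mem, hmax⟩ :=
    Finset.exists_max_image (Finset.Icc 1 (p - 1)) (fun m => v (xi e (m • P))) hne
  rw [Finset.mem_Icc] at hm₀mem
  have hm₀ : ¬ p ∣ m₀ := fun hd => by
    have := Nat.le_of_dvd (by omega) hd; omega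
  have hT0 : m₀ • P ≠ 0 := fun h0 => hm₀ ((hdvd m₀).1 h0)
  have hpT : p • m₀ • P = 0 := by rw [smul_comm, hpP, nsmul_zero]
  generalize hTdef : m₀ • P = T at hT0 hpT
  have hdvdT : ∀ j, j • T = 0 ↔ p ∣ j := nsmul_eq_zero_iff_dvd hp hT0 hpT
  have hTP : ∀ j, j • T = ((m₀ * j) % p) • P := by
    intro j; rw [hmod, ← hTdef, ← mul_nsmul]
  have hTmid : ∀ j, 1 ≤ j → j ≤ p - 1 →
      v be < v (xi e (j • T)) ∧ v (xi e (j • T)) < 1 ∧ v (xi e (j • T)) ≤ v (xi e (1 • T)) := by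
    intro j hj1 hj2
    have hj : ¬ p ∣ j := fun hd => by
      have := Nat.le_of_dvd (by omega) hd; omega
    have hjm : ¬ p ∣ m₀ * j := fun hd => by
      rcases (Nat.Prime.dvd_mul hp).1 hd with h' | h'
      · exact hm₀ h'
      · exact hj h'
    have hpos : (m₀ * j) % p ≠ 0 := fun h0 => hjm (Nat.dvd_of_mod_eq_zero h0)
    have hlt : (m₀ * j) % p < p := Nat.mod_lt _ hp.pos
    have hr : ¬ p ∣ (m₀ * j) % p := fun hd => by
      have := Nat.le_of_dvd (Nat.pos_of_ne_zero hpos) hd; omega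
    refine ⟨?_, ?_, ?_⟩
    · rw [hTP]; exact hA2 _ hr
    · rw [hTP]; exact hA1 _ hr
    · rw [hTP, one_nsmul, ← hTdef]
      exact hmax _ (Finset.mem_Icc.2 ⟨by omega, by omega⟩)
  have hseq := mid_seq v (fun j => xi e (j • T)) al be p hp3 h2 hal hbe0 hTmid ?_ ?_ ?_
  · obtain ⟨k, hk⟩ := hinv m₀ hm₀
    have hkT : k • T = P := by rw [← hTdef, ← mul_nsmul, hk]
    have hkT' : (k % p) • T = P := by rw [nsmul_mod_eq hpT]; exact hkT
    have hj0 : k % p ≠ 0 := fun h0 => hP0 (by rw [← hkT', h0, zero_nsmul])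
    have hjlt : k % p < p := Nat.mod_lt _ hp.pos
    obtain ⟨j, hj⟩ := hseq (k % p) (by omega) (by omega)
    refine ⟨(j : ℤ), ?_⟩
    simp only [hkT', hxiP] at hj
    rw [hj]
    norm_cast
  · intro m hm2 hmp
    have hmT0 : m • T ≠ 0 := fun h0 => by
      have := Nat.le_of_dvd (by omega) ((hdvdT m).1 h0); omega
    have hne' : xi e (m • T) ≠ xi e T := by
      intro heq
      rcases eq_or_eq_neg_of_xi_eq hmT0 hT0 heq with h' | h'
      · have h0 : (m - 1) • T = 0 := by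
          have hm1 : m = (m - 1) + 1 := by omega
          rw [hm1, succ_nsmul] at h'
          exact add_eq_right.1 h'
        have := Nat.le_of_dvd (by omega) ((hdvdT _).1 h0); omega
      · have h0 : (m + 1) • T = 0 := by rw [succ_nsmul, h', neg_add_cancel]
        have := Nat.le_of_dvd (by omega) ((hdvdT _).1 h0); omega
    obtain ⟨-, -, hprod, -⟩ := xi_add_sub hS hmT0 hT0 hne'
    have e1 : (m + 1) • T = m • T + T := succ_nsmul T m
    have e2 : (m - 1) • T = m • T - T := by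
      have hm1 : m = (m - 1) + 1 := by omega
      rw [eq_sub_iff_add_eq, ← succ_nsmul, ← hm1]
    simp only [one_nsmul]
    rw [e1, e2]
    exact ⟨hne', hprod⟩
  · have h2T : 2 • T ≠ 0 := fun h0 => by
      have := Nat.le_of_dvd (by norm_num) ((hdvdT 2).1 h0); omega
    simpa only [one_nsmul] using xi_two_nsmul hS hT0 h2T
  · have hneg : (p - 1) • T = -T := by
      have hp1 : p = (p - 1) + 1 := by omega
      rw [eq_neg_iff_add_eq_zero, ← succ_nsmul, ← hp1]; exact hpT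
    simp only [one_nsmul]
    rw [hneg, xi_neg]

end Fermat.Agent.S05.helper760
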