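import Mathlib
import Fermat.Agent.S05.helper185_AddVal
import Fermat.Agent.S05.helper872_Kummer
import Fermat.Agent.S05.helper5_Spec

/-!
# NODEVAL in generalised form (helper771, S05 / S13)

`nodeVal_gen`: for a curve of shape `η² = ξ (ξ² + al ξ + be)` with `v (4 al) = 1`
(the invariant `b₂` is a unit), `v be < 1`, `be ≠ 0`, every point of odd prime order `p`
with `v ξ < 1` satisfies `v be < v ξ` and `v ξ ^ p ∈ (v be ^ 2) ^ ℤ`.
No hypothesis on `v 2`, on `v p`, and no kernel statement are needed.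
-/

set_option autoImplicit false

namespace Fermat.Agent.S05.helper771

open Fermat.Agent.S05.helper185

section field

variable {K : Type*} [Field K] {Γ₀ : Type*} [LinearOrderedCommGroupWithZero Γ₀]
variable (v : Valuation K Γ₀)

/-- `x = 0` or `c ≤ ord v x`: lower bound for the additive valuation, with `ord 0 = ∞`. -/
def GE (c : Additive Γ₀ˣ) (x : K) : Prop := x ≠ 0 → c ≤ ord v x

variable {v}

theorem GE.of_le {c : Additive Γ₀ˣ} {x : K} (h : c ≤ ord v x) : GE v c x := fun _ => h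

theorem GE.self (x : K) : GE v (ord v x) x := fun _ => le_rfl

theorem GE.zero (c : Additive Γ₀ˣ) : GE v c (0 : K) := fun h => absurd rfl h

theorem GE.mono {c d : Additive Γ₀ˣ} {x : K} (h : GE v c x) (hd : d ≤ c) : GE v d x :=
  fun hx => hd.trans (h hx)

theorem GE.add {c : Additive Γ₀ˣ} {x y : K} (hx : GE v c x) (hy : GE v c y) :
    GE v c (x + y) := by
  intro hxy
  by_cases hx0 : x = 0
  · subst hx0; rw [zero_add] at hxy ⊢; exact hy hxy
  by_cases hy0 : y = 0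
  · subst hy0; rw [add_zero] at hxy ⊢; exact hx hxy
  exact (le_min (hx hx0) (hy hy0)).trans (min_le_ord_add v hx0 hy0 hxy)

theorem GE.neg {c : Additive Γ₀ˣ} {x : K} (hx : GE v c x) : GE v c (-x) := by
  intro h
  rw [ord_neg]
  exact hx (neg_ne_zero.1 h)

theorem GE.sub {c : Additive Γ₀ˣ} {x y : K} (hx : GE v c x) (hy : GE v c y) :
    GE v c (x - y) := by
  rw [sub_eq_add_neg]; exact hx.add hy.neg

theorem GE.mul {c d : Additive Γ₀ˣ} {x y : K} (hx : GE v c x) (hy : GE v d y) :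
    GE v (c + d) (x * y) := by
  intro hxy
  have hx0 : x ≠ 0 := left_ne_zero_of_mul hxy
  have hy0 : y ≠ 0 := right_ne_zero_of_mul hxy
  rw [ord_mul v hx0 hy0]
  exact add_le_add (hx hx0) (hy hy0)

/-- A term of strictly smaller `ord` dominates a sum. -/
theorem ord_add_of_GE {c : Additive Γ₀ˣ} {x y : K} (hx : x ≠ 0) (hy : GE v c y)
    (h : ord v x < c) : x + y ≠ 0 ∧ ord v (x + y) = ord v x := by
  by_cases hy0 : y = 0
  · subst hy0; rw [add_zero]; exact ⟨hx, rfl⟩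
  have hlt : ord v x < ord v y := lt_of_lt_of_le h (hy hy0)
  exact ⟨add_ne_zero_of_ord_ne v hlt.ne, ord_add_eq_left v hx hy0 hlt⟩

theorem ord_two_nonneg (h2 : (2 : K) ≠ 0) : 0 ≤ ord v (2 : K) := by
  rw [ord_nonneg_iff v h2]
  have : v (1 + 1 : K) ≤ max (v 1) (v 1) := v.map_add 1 1
  rw [one_add_one_eq_two] at this
  simpa using this

theorem four_ne (h2 : (2 : K) ≠ 0) : (4 : K) ≠ 0 := by
  have : (4 : K) = 2 * 2 := by norm_num
  rw [this]; exact mul_ne_zero h2 h2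

theorem GE_two (h2 : (2 : K) ≠ 0) : GE v 0 (2 : K) := GE.of_le (ord_two_nonneg h2)

theorem GE_four (h2 : (2 : K) ≠ 0) : GE v 0 (4 : K) := by
  have h := (GE_two (v := v) h2).mul (GE_two (v := v) h2)
  have e : (2 : K) * 2 = 4 := by norm_num
  rw [e] at h
  exact h.mono (by simp)

/-- The arithmetic core of the generic pair law. -/
theorem gen_core {Γ : Type*} [AddCommGroup Γ] [LinearOrder Γ] [IsOrderedAddMonoid Γ]
    (o1 o2 u w om N : Γ)
    (a3 : min (o1 + o2) N ≤ om)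
    (a4 : o1 + o2 ≠ N → om = min (o1 + o2) N)
    (a5 : u + w + (o1 + o1) = om + om)
    (c1 : min u w + (o1 + o1) ≤ o1 + o2)
    (c2 : u ≠ w → min u w + (o1 + o1) = o1 + o2)
    (h0 : 0 < o1) (hlt : o2 < N) (hpN : u < N) (hmN : w < N) :
    (u + o1 = o2 ∧ (w = o1 + o2 ∨ w + o1 + o2 = N + N)) ∨
    (w + o1 = o2 ∧ (u = o1 + o2 ∨ u + o1 + o2 = N + N)) := by
  rcases lt_trichotomy u w with h | h | h
  · rcases lt_trichotomy (o1 + o2) N with h' | h' | h'
    · grind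
    · grind
    · grind
  · rcases lt_trichotomy (o1 + o2) N with h' | h' | h'
    · grind
    · grind
    · grind
  · rcases lt_trichotomy (o1 + o2) N with h' | h' | h'
    · grind
    · grind
    · grind

/-! ### Tropical consequences of the x-only identities -/

section trop

variable {al be : K}

/-- The factor `4ξ² + 4al ξ + 4be` has `ord ≥ c` as soon as `c ≤ 2 ord ξ, ord ξ, ord be`. -/
theorem GE_quad (h2 : (2 : K) ≠ 0) {ξ : K}
    {c : Additive Γ₀ˣ} (h1 : c ≤ ord v ξ + ord v ξ) (h3 : c ≤ ord v be) :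
    GE v c (4 * ξ ^ 2 + 4 * be) := by
  have a1 : GE v c (4 * ξ ^ 2) := by
    have := (GE_four (v := v) h2).mul (GE.self (v := v) (ξ ^ 2))
    rw [ord_sq] at this
    exact this.mono (by simpa using h1)
  have a2 : GE v c (4 * be) := by
    have := (GE_four (v := v) h2).mul (GE.self (v := v) be)
    exact this.mono (by simpa using h3)
  exact a1.add a2

/-- Doubling, far from the unit circle (`N ≤ ord ξ`): the double lies in `E₀`. -/
theorem dbl_far (h2 : (2 : K) ≠ 0) (hA : ord v (4 * al) = 0) (hal : al ≠ 0) (hbe : be ≠ 0)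
    {ξ ξ' : K} (hξ : ξ ≠ 0) (hξ' : ξ' ≠ 0)
    (hd : ξ' * 4 * ξ * (ξ ^ 2 + al * ξ + be) = (ξ ^ 2 - be) ^ 2)
    (hN : 0 < ord v be) (ho : ord v be ≤ ord v ξ) : ord v ξ' ≤ 0 := by
  have h4 := four_ne h2
  -- the right-hand side
  have hr : -be + ξ ^ 2 ≠ 0 ∧ ord v (-be + ξ ^ 2) = ord v (-be) :=
    ord_add_of_GE (c := ord v ξ + ord v ξ) (neg_ne_zero.2 hbe)
      (by rw [← ord_sq]; exact GE.self _) (by rw [ord_neg]; grind)
  rw [ord_neg] at hr
  -- the left-hand side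
  have hD : GE v (ord v be) (4 * al * ξ + (4 * ξ ^ 2 + 4 * be)) := by
    refine GE.add ?_ (GE_quad h2 (by grind) le_rfl)
    have : ord v (4 * al * ξ) = ord v ξ := by
      rw [ord_mul v (mul_ne_zero h4 hal) hξ, hA, zero_add]
    exact GE.of_le (by rw [this]; exact ho)
  have hd' : ξ' * ξ * (4 * al * ξ + (4 * ξ ^ 2 + 4 * be)) = (-be + ξ ^ 2) ^ 2 := by
    linear_combination hd
  have hD0 : 4 * al * ξ + (4 * ξ ^ 2 + 4 * be) ≠ 0 := by
    intro h0
    rw [h0, mul_zero] at hd'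
    exact hr.1 ((pow_eq_zero_iff two_ne_zero).1 hd'.symm)
  have e := congrArg (ord v) hd'
  rw [ord_mul v (mul_ne_zero hξ' hξ) hD0, ord_mul v hξ' hξ, ord_sq, hr.2] at e
  have := hD hD0
  grind

/-- Doubling in the middle range `0 < ord ξ < N`. -/
theorem dbl_mid (h2 : (2 : K) ≠ 0) (hA : ord v (4 * al) = 0) (hal : al ≠ 0) (hbe : be ≠ 0)
    {ξ ξ' : K} (hξ : ξ ≠ 0) (hξ' : ξ' ≠ 0)
    (hd : ξ' * 4 * ξ * (ξ ^ 2 + al * ξ + be) = (ξ ^ 2 - be) ^ 2)
    (h0 : 0 < ord v ξ) (ho : ord v ξ < ord v be) :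
    (ord v ξ + ord v ξ < ord v be ∧ ord v ξ' = ord v ξ + ord v ξ) ∨
    (ord v be < ord v ξ + ord v ξ ∧ ord v ξ' + ord v ξ + ord v ξ = ord v be + ord v be) ∨
    (ord v ξ + ord v ξ = ord v be ∧ ord v be ≤ ord v ξ') := by
  have h4 := four_ne h2
  have hax : 4 * al * ξ ≠ 0 := mul_ne_zero (mul_ne_zero h4 hal) hξ
  have hoax : ord v (4 * al * ξ) = ord v ξ := by
    rw [ord_mul v (mul_ne_zero h4 hal) hξ, hA, zero_add]
  have hD : 4 * al * ξ + (4 * ξ ^ 2 + 4 * be) ≠ 0 ∧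
      ord v (4 * al * ξ + (4 * ξ ^ 2 + 4 * be)) = ord v (4 * al * ξ) :=
    ord_add_of_GE (c := min (ord v ξ + ord v ξ) (ord v be)) hax
      (GE_quad h2 (min_le_left _ _) (min_le_right _ _)) (by rw [hoax]; grind)
  rw [hoax] at hD
  have hd' : ξ' * ξ * (4 * al * ξ + (4 * ξ ^ 2 + 4 * be)) = (ξ ^ 2 - be) ^ 2 := by
    linear_combination hd
  have hm0 : ξ ^ 2 - be ≠ 0 := by
    intro h0
    rw [h0] at hd'
    have : ξ' * ξ * (4 * al * ξ + (4 * ξ ^ 2 + 4 * be)) ≠ 0 :=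
      mul_ne_zero (mul_ne_zero hξ' hξ) hD.1
    exact this (by rw [hd']; ring)
  have e := congrArg (ord v) hd'
  rw [ord_mul v (mul_ne_zero hξ' hξ) hD.1, ord_mul v hξ' hξ, ord_sq, hD.2] at e
  rcases lt_trichotomy (ord v ξ + ord v ξ) (ord v be) with h | h | h
  · left
    have hr : ξ ^ 2 + -be ≠ 0 ∧ ord v (ξ ^ 2 + -be) = ord v (ξ ^ 2) :=
      ord_add_of_GE (c := ord v be) (pow_ne_zero 2 hξ) (GE.neg (GE.self be))
        (by rw [ord_sq]; exact h)
    rw [← sub_eq_add_neg, ord_sq] at hr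
    rw [hr.2] at e
    exact ⟨h, by grind⟩
  · right; right
    have hr : GE v (ord v be) (ξ ^ 2 - be) :=
      (GE.of_le (by rw [ord_sq, h])).sub (GE.self be)
    have := hr hm0
    exact ⟨h, by grind⟩
  · right; left
    have hr : -be + ξ ^ 2 ≠ 0 ∧ ord v (-be + ξ ^ 2) = ord v (-be) :=
      ord_add_of_GE (c := ord v ξ + ord v ξ) (neg_ne_zero.2 hbe)
        (by rw [← ord_sq]; exact GE.self _) (by rw [ord_neg]; exact h)
    have e2 : -be + ξ ^ 2 = ξ ^ 2 - be := by ring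
    rw [e2, ord_neg] at hr
    rw [hr.2] at e
    exact ⟨h, by grind⟩

/-- All tropical information contained in the product and the sum formula. -/
theorem pair_aux (h2 : (2 : K) ≠ 0) (hA : ord v (4 * al) = 0) (hal : al ≠ 0) (hbe : be ≠ 0)
    {ξ₁ ξ₂ ξp ξm : K} (h1 : ξ₁ ≠ 0) (h2' : ξ₂ ≠ 0) (hp : ξp ≠ 0) (hm : ξm ≠ 0)
    (hd : ξ₁ - ξ₂ ≠ 0)
    (hPi : ξp * ξm * (ξ₁ - ξ₂) ^ 2 = (ξ₁ * ξ₂ - be) ^ 2)
    (hSig : (ξp + ξm) * (ξ₁ - ξ₂) ^ 2 =
      2 * (ξ₁ + ξ₂) * (ξ₁ * ξ₂ + be) + 4 * al * ξ₁ * ξ₂) :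
    -- the difference
    min (ord v ξ₁) (ord v ξ₂) ≤ ord v (ξ₁ - ξ₂) ∧
    (ord v ξ₁ ≠ ord v ξ₂ → ord v (ξ₁ - ξ₂) = min (ord v ξ₁) (ord v ξ₂)) ∧
    -- the numerator of the product formula
    min (ord v ξ₁ + ord v ξ₂) (ord v be) ≤ ord v (ξ₁ * ξ₂ - be) ∧
    (ord v ξ₁ + ord v ξ₂ ≠ ord v be →
      ord v (ξ₁ * ξ₂ - be) = min (ord v ξ₁ + ord v ξ₂) (ord v be)) ∧
    -- the product formula
    ord v ξp + ord v ξm + (ord v (ξ₁ - ξ₂) + ord v (ξ₁ - ξ₂)) =
      ord v (ξ₁ * ξ₂ - be) + ord v (ξ₁ * ξ₂ - be) ∧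
    -- the sum formula, lower bound
    (ord v ξp = ord v ξm ∨
      min (min (ord v ξ₁) (ord v ξ₂) + min (ord v ξ₁ + ord v ξ₂) (ord v be))
          (ord v ξ₁ + ord v ξ₂) ≤
        min (ord v ξp) (ord v ξm) + (ord v (ξ₁ - ξ₂) + ord v (ξ₁ - ξ₂))) ∧
    -- the sum formula, dominant case
    (ord v ξ₁ + ord v ξ₂ <
        min (ord v ξ₁) (ord v ξ₂) + min (ord v ξ₁ + ord v ξ₂) (ord v be) →
      min (ord v ξp) (ord v ξm) + (ord v (ξ₁ - ξ₂) + ord v (ξ₁ - ξ₂)) ≤
          ord v ξ₁ + ord v ξ₂ ∧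
      (ord v ξp ≠ ord v ξm →
        min (ord v ξp) (ord v ξm) + (ord v (ξ₁ - ξ₂) + ord v (ξ₁ - ξ₂)) =
          ord v ξ₁ + ord v ξ₂)) := by
  have h4 := four_ne h2
  have h12 : ξ₁ * ξ₂ ≠ 0 := mul_ne_zero h1 h2'
  have ho12 : ord v (ξ₁ * ξ₂) = ord v ξ₁ + ord v ξ₂ := ord_mul v h1 h2'
  have hm0 : ξ₁ * ξ₂ - be ≠ 0 := by
    intro h0
    rw [h0] at hPi
    have : ξp * ξm * (ξ₁ - ξ₂) ^ 2 ≠ 0 := mul_ne_zero (mul_ne_zero hp hm) (pow_ne_zero 2 hd)
    exact this (by rw [hPi]; ring)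
  -- the terms of the sum formula
  have ht2 : 4 * al * ξ₁ * ξ₂ ≠ 0 := mul_ne_zero (mul_ne_zero (mul_ne_zero h4 hal) h1) h2'
  have hot2 : ord v (4 * al * ξ₁ * ξ₂) = ord v ξ₁ + ord v ξ₂ := by
    rw [ord_mul v (mul_ne_zero (mul_ne_zero h4 hal) h1) h2',
      ord_mul v (mul_ne_zero h4 hal) h1, hA, zero_add]
  have ht1 : GE v (min (ord v ξ₁) (ord v ξ₂) + min (ord v ξ₁ + ord v ξ₂) (ord v be))
      (2 * (ξ₁ + ξ₂) * (ξ₁ * ξ₂ + be)) := by
    have a : GE v (min (ord v ξ₁) (ord v ξ₂)) (ξ₁ + ξ₂) :=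
      (GE.of_le (min_le_left _ _)).add (GE.of_le (min_le_right _ _))
    have b : GE v (min (ord v ξ₁ + ord v ξ₂) (ord v be)) (ξ₁ * ξ₂ + be) :=
      (GE.of_le (by rw [ho12]; exact min_le_left _ _)).add (GE.of_le (min_le_right _ _))
    have c := ((GE_two (v := v) h2).mul a).mul b
    exact c.mono (by simp)
  have hSig' : (ξp + ξm) * (ξ₁ - ξ₂) ^ 2 =
      4 * al * ξ₁ * ξ₂ + 2 * (ξ₁ + ξ₂) * (ξ₁ * ξ₂ + be) := by
    linear_combination hSig
  have hR : GE v (min (min (ord v ξ₁) (ord v ξ₂) + min (ord v ξ₁ + ord v ξ₂) (ord v be))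
      (ord v ξ₁ + ord v ξ₂)) (4 * al * ξ₁ * ξ₂ + 2 * (ξ₁ + ξ₂) * (ξ₁ * ξ₂ + be)) :=
    (GE.of_le (by rw [hot2]; exact min_le_right _ _)).add (ht1.mono (min_le_left _ _))
  -- Newton polygon of `ξp`, `ξm`
  have hnewton : ord v ξp ≠ ord v ξm →
      ξp + ξm ≠ 0 ∧ ord v (ξp + ξm) = min (ord v ξp) (ord v ξm) := by
    intro hne
    refine ⟨add_ne_zero_of_ord_ne v hne, ?_⟩
    rcases lt_or_gt_of_ne hne with h | h
    · rw [ord_add_eq_left v hp hm h, min_eq_left h.le]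
    · rw [ord_add_eq_right v hp hm h, min_eq_right h.le]
  have hsumord : ξp + ξm ≠ 0 → ord v (ξp + ξm) + (ord v (ξ₁ - ξ₂) + ord v (ξ₁ - ξ₂)) =
      ord v (4 * al * ξ₁ * ξ₂ + 2 * (ξ₁ + ξ₂) * (ξ₁ * ξ₂ + be)) := by
    intro hs
    have e := congrArg (ord v) hSig'
    rw [ord_mul v hs (pow_ne_zero 2 hd), ord_sq] at e
    exact e
  have hRne : ξp + ξm ≠ 0 → 4 * al * ξ₁ * ξ₂ + 2 * (ξ₁ + ξ₂) * (ξ₁ * ξ₂ + be) ≠ 0 := by
    intro hs
    rw [← hSig']
    exact mul_ne_zero hs (pow_ne_zero 2 hd)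
  refine ⟨min_le_ord_sub v h1 h2' hd, ?_, ?_, ?_, ?_, ?_, ?_⟩
  · intro hne
    rcases lt_or_gt_of_ne hne with h | h
    · rw [ord_sub_eq_left v h1 h2' h, min_eq_left h.le]
    · rw [ord_sub_eq_right v h1 h2' h, min_eq_right h.le]
  · have := min_le_ord_sub v h12 hbe hm0
    rwa [ho12] at this
  · intro hne
    rw [← ho12] at hne ⊢
    rcases lt_or_gt_of_ne hne with h | h
    · rw [ord_sub_eq_left v h12 hbe h, min_eq_left h.le]
    · rw [ord_sub_eq_right v h12 hbe h, min_eq_right h.le]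
  · have e := congrArg (ord v) hPi
    rw [ord_mul v (mul_ne_zero hp hm) (pow_ne_zero 2 hd), ord_mul v hp hm, ord_sq, ord_sq] at e
    exact e
  · by_cases huw : ord v ξp = ord v ξm
    · exact Or.inl huw
    · right
      obtain ⟨hs, hos⟩ := hnewton huw
      rw [← hos, hsumord hs]
      exact hR (hRne hs)
  · intro hdom
    have hRd : 4 * al * ξ₁ * ξ₂ + 2 * (ξ₁ + ξ₂) * (ξ₁ * ξ₂ + be) ≠ 0 ∧
        ord v (4 * al * ξ₁ * ξ₂ + 2 * (ξ₁ + ξ₂) * (ξ₁ * ξ₂ + be)) =
          ord v (4 * al * ξ₁ * ξ₂) :=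
      ord_add_of_GE ht2 ht1 (by rw [hot2]; exact hdom)
    rw [hot2] at hRd
    have hs : ξp + ξm ≠ 0 := by
      intro h0
      rw [h0, zero_mul] at hSig'
      exact hRd.1 hSig'.symm
    have e := hsumord hs
    rw [hRd.2] at e
    refine ⟨?_, ?_⟩
    · rw [← e]
      have := min_le_ord_add v hp hm hs
      grind
    · intro huw
      rw [← e, (hnewton huw).2]

/-- A point of `E₀` (`ord ξ₁ ≤ 0`) plus or minus a point outside `E₀` is outside `E₀`. -/
theorem pair_E0 (h2 : (2 : K) ≠ 0) (hA : ord v (4 * al) = 0) (hal : al ≠ 0) (hbe : be ≠ 0)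
    {ξ₁ ξ₂ ξp ξm : K} (h1 : ξ₁ ≠ 0) (h2' : ξ₂ ≠ 0) (hp : ξp ≠ 0) (hm : ξm ≠ 0)
    (hd : ξ₁ - ξ₂ ≠ 0)
    (hPi : ξp * ξm * (ξ₁ - ξ₂) ^ 2 = (ξ₁ * ξ₂ - be) ^ 2)
    (hSig : (ξp + ξm) * (ξ₁ - ξ₂) ^ 2 =
      2 * (ξ₁ + ξ₂) * (ξ₁ * ξ₂ + be) + 4 * al * ξ₁ * ξ₂)
    (hN : 0 < ord v be) (ho1 : ord v ξ₁ ≤ 0) (ho2 : 0 < ord v ξ₂) :
    0 < ord v ξp ∧ 0 < ord v ξm := by
  obtain ⟨a1, a2, a3, a4, a5, a6, a7⟩ := pair_aux h2 hA hal hbe h1 h2' hp hm hd hPi hSig
  grind

/-- Two points of the same depth in the middle range: one of `P ± Q` lies in `E₀`. -/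
theorem pair_eq (h2 : (2 : K) ≠ 0) (hA : ord v (4 * al) = 0) (hal : al ≠ 0) (hbe : be ≠ 0)
    {ξ₁ ξ₂ ξp ξm : K} (h1 : ξ₁ ≠ 0) (h2' : ξ₂ ≠ 0) (hp : ξp ≠ 0) (hm : ξm ≠ 0)
    (hd : ξ₁ - ξ₂ ≠ 0)
    (hPi : ξp * ξm * (ξ₁ - ξ₂) ^ 2 = (ξ₁ * ξ₂ - be) ^ 2)
    (hSig : (ξp + ξm) * (ξ₁ - ξ₂) ^ 2 =
      2 * (ξ₁ + ξ₂) * (ξ₁ * ξ₂ + be) + 4 * al * ξ₁ * ξ₂)
    (h0 : 0 < ord v ξ₁) (he : ord v ξ₁ = ord v ξ₂) (hlt : ord v ξ₁ < ord v be) :
    ord v ξp ≤ 0 ∨ ord v ξm ≤ 0 := by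
  have _h0 := h0
  obtain ⟨a1, a2, a3, a4, a5, a6, a7⟩ := pair_aux h2 hA hal hbe h1 h2' hp hm hd hPi hSig
  grind

/-- Two points of different depths in the middle range, with `P ± Q` not beyond `N`:
the depths of `P ± Q` are `o₂ - o₁` and one of `o₁ + o₂`, `2N - o₁ - o₂`. -/
theorem pair_gen (h2 : (2 : K) ≠ 0) (hA : ord v (4 * al) = 0) (hal : al ≠ 0) (hbe : be ≠ 0)
    {ξ₁ ξ₂ ξp ξm : K} (h1 : ξ₁ ≠ 0) (h2' : ξ₂ ≠ 0) (hp : ξp ≠ 0) (hm : ξm ≠ 0)
    (hd : ξ₁ - ξ₂ ≠ 0)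
    (hPi : ξp * ξm * (ξ₁ - ξ₂) ^ 2 = (ξ₁ * ξ₂ - be) ^ 2)
    (hSig : (ξp + ξm) * (ξ₁ - ξ₂) ^ 2 =
      2 * (ξ₁ + ξ₂) * (ξ₁ * ξ₂ + be) + 4 * al * ξ₁ * ξ₂)
    (h0 : 0 < ord v ξ₁) (h12 : ord v ξ₁ < ord v ξ₂) (hlt : ord v ξ₂ < ord v be)
    (hpN : ord v ξp < ord v be) (hmN : ord v ξm < ord v be) :
    (ord v ξp + ord v ξ₁ = ord v ξ₂ ∧
      (ord v ξm = ord v ξ₁ + ord v ξ₂ ∨
        ord v ξm + ord v ξ₁ + ord v ξ₂ = ord v be + ord v be)) ∨
    (ord v ξm + ord v ξ₁ = ord v ξ₂ ∧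
      (ord v ξp = ord v ξ₁ + ord v ξ₂ ∨
        ord v ξp + ord v ξ₁ + ord v ξ₂ = ord v be + ord v be)) := by
  obtain ⟨a1, a2, a3, a4, a5, a6, a7⟩ := pair_aux h2 hA hal hbe h1 h2' hp hm hd hPi hSig
  have hd1 : ord v (ξ₁ - ξ₂) = ord v ξ₁ := by rw [a2 h12.ne, min_eq_left h12.le]
  rw [hd1] at a5 a7
  have hdom : ord v ξ₁ + ord v ξ₂ <
      min (ord v ξ₁) (ord v ξ₂) + min (ord v ξ₁ + ord v ξ₂) (ord v be) := by
    rw [min_eq_left h12.le]
    exact add_lt_add_right (lt_min (by grind) hlt) _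
  obtain ⟨c1, c2⟩ := a7 hdom
  exact gen_core _ _ _ _ _ _ a3 a4 a5 c1 c2 h0 hlt hpN hmN

end trop

end field

/-! ### The combinatorial core -/

/-- `x = ± y` in an additive group. -/
def PM {Q : Type*} [AddCommGroup Q] (x y : Q) : Prop := x = y ∨ x = -y

theorem PM.symm {Q : Type*} [AddCommGroup Q] {x y : Q} (h : PM x y) : PM y x := by
  rcases h with rfl | rfl
  · exact Or.inl rfl
  · exact Or.inr (neg_neg _).symm

theorem PM.trans {Q : Type*} [AddCommGroup Q] {x y z : Q} (h1 : PM x y) (h2 : PM y z) :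
    PM x z := by
  rcases h1 with rfl | rfl <;> rcases h2 with rfl | rfl
  · exact Or.inl rfl
  · exact Or.inr rfl
  · exact Or.inr rfl
  · exact Or.inl (neg_neg _)

theorem PM.neg_right {Q : Type*} [AddCommGroup Q] {x y : Q} (h : PM x y) : PM x (-y) := by
  rcases h with rfl | rfl
  · exact Or.inr (neg_neg _).symm
  · exact Or.inl rfl

/-- The sign chase of the induction step. -/
theorem step_core {Q : Type*} [AddCommGroup Q] (τ α μ ω A1 : Q)
    (hα : PM α (A1 + τ)) (hω : PM ω A1)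
    (h : (PM μ (α - τ) ∧ PM ω (α + τ)) ∨ (PM ω (α - τ) ∧ PM μ (α + τ))) :
    PM μ (A1 + τ + τ) := by
  have key : (PM (α - τ) A1 ∧ PM (α + τ) (A1 + τ + τ)) ∨
      (PM (α - τ) (A1 + τ + τ) ∧ PM (α + τ) A1) := by
    rcases hα with rfl | rfl
    · left; exact ⟨Or.inl (by abel), Or.inl rfl⟩
    · right; exact ⟨Or.inr (by abel), Or.inr (by abel)⟩
  rcases h with ⟨h1, h2⟩ | ⟨h1, h2⟩ <;> rcases key with ⟨k1, k2⟩ | ⟨k1, k2⟩
  · exact (h1.trans k1).trans ((hω.symm.trans h2).trans k2)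
  · exact h1.trans k1
  · exact h2.trans k2
  · exact (h2.trans k2).trans ((hω.symm.trans h1).trans k1)

/-- The relation between the depths of `P`, `T`, `P + T`, `P - T` given by the generic
pair law. -/
def StepRel {Γ : Type*} [AddCommGroup Γ] (N a t u w : Γ) : Prop :=
  ((u + a = t ∨ u + t = a) ∧ (w = a + t ∨ w + a + t = N + N)) ∨
  ((w + a = t ∨ w + t = a) ∧ (u = a + t ∨ u + a + t = N + N))

theorem StepRel.quot {Γ Q : Type*} [AddCommGroup Γ] [AddCommGroup Q] (π : Γ →+ Q)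
    {N a t u w : Γ} (hN : π N + π N = 0) (h : StepRel N a t u w) :
    (PM (π u) (π a - π t) ∧ PM (π w) (π a + π t)) ∨
    (PM (π w) (π a - π t) ∧ PM (π u) (π a + π t)) := by
  have aux1 : ∀ x : Γ, (x + a = t ∨ x + t = a) → PM (π x) (π a - π t) := by
    intro x hx
    rcases hx with hx | hx
    · right; rw [← hx, map_add]; abel
    · left; rw [← hx, map_add]; abel
  have aux2 : ∀ x : Γ, (x = a + t ∨ x + a + t = N + N) → PM (π x) (π a + π t) := by
    intro x hx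
    rcases hx with hx | hx
    · left; rw [hx, map_add]
    · right
      have h' := congrArg π hx
      simp only [map_add] at h'
      rw [hN] at h'
      rw [eq_neg_iff_add_eq_zero, ← h']
      abel
  rcases h with ⟨h1, h2⟩ | ⟨h1, h2⟩
  · exact Or.inl ⟨aux1 u h1, aux2 w h2⟩
  · exact Or.inr ⟨aux1 w h1, aux2 u h2⟩

/-- The combinatorial core: a chain of depths `o 1, …, o (p-1)` in `(0, N)` obeying the
doubling law, the generic pair law and `o (p-1) = o 1` forces `p • o 1 ∈ 2N ℤ`. -/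
theorem chain_core {Γ : Type*} [AddCommGroup Γ] [LinearOrder Γ] [IsOrderedAddMonoid Γ]
    (N : Γ) (hN : 0 < N) (p : ℕ) (hp3 : 3 ≤ p) (o : ℕ → Γ)
    (hmid : ∀ k, 1 ≤ k → k ≤ p - 1 → 0 < o k ∧ o k < N)
    (hdbl : o 2 = o 1 + o 1 ∨ o 2 + o 1 + o 1 = N + N)
    (hstep : ∀ m, m + 3 ≤ p - 1 → StepRel N (o (m + 2)) (o 1) (o (m + 3)) (o (m + 1)))
    (hlast : o (p - 1) = o 1) :
    ∃ j : ℤ, p • o 1 = (2 * j) • N := by
  let M : AddSubgroup Γ := AddSubgroup.zmultiples (N + N)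
  let π : Γ →+ Γ ⧸ M := QuotientAddGroup.mk' M
  have hπN : π N + π N = 0 := by
    rw [← map_add]
    exact (QuotientAddGroup.eq_zero_iff _).2 (AddSubgroup.mem_zmultiples _)
  have hcl : ∀ k : ℕ, 1 ≤ k → k ≤ p - 1 → PM (π (o k)) (k • π (o 1)) := by
    intro k
    induction k using Nat.strong_induction_on with
    | _ k ih =>
      intro hk1 hkp
      rcases Nat.lt_or_ge k 3 with hk3 | hk3
      · interval_cases k
        · exact Or.inl (one_nsmul _).symm
        · rcases hdbl with h | h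
          · left; rw [h, map_add, two_nsmul]
          · right
            have h' := congrArg π h
            simp only [map_add] at h'
            rw [hπN] at h'
            rw [eq_neg_iff_add_eq_zero, ← h', two_nsmul]
            abel
      · obtain ⟨m, rfl⟩ : ∃ m, k = m + 3 := ⟨k - 3, by omega⟩
        have ih1 := ih (m + 1) (by omega) (by omega) (by omega)
        have ih2 := ih (m + 2) (by omega) (by omega) (by omega)
        have e2 : (m + 2) • π (o 1) = (m + 1) • π (o 1) + π (o 1) := succ_nsmul _ (m + 1)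
        have e3 : (m + 3) • π (o 1) = (m + 1) • π (o 1) + π (o 1) + π (o 1) := by
          rw [← e2]; exact succ_nsmul _ (m + 2)
        rw [e2] at ih2
        rw [e3]
        exact step_core _ _ _ _ _ ih2 ih1 ((hstep m hkp).quot π hπN)
  obtain ⟨q, hpq, hq1⟩ : ∃ q, p = q + 2 ∧ 1 ≤ q := ⟨p - 2, by omega, by omega⟩
  have hl := hcl (q + 1) (by omega) (by omega)
  have hq := hcl q hq1 (by omega)
  have e1 : p - 1 = q + 1 := by omega
  rw [e1] at hlast
  rw [hlast] at hl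
  rcases hl with h | h
  · exfalso
    have hqτ : q • π (o 1) = 0 := by
      rw [succ_nsmul] at h
      exact add_eq_right.1 h.symm
    rw [hqτ] at hq
    have hz : π (o q) = 0 := by
      rcases hq with h | h
      · exact h
      · rw [h, neg_zero]
    have hmem : o q ∈ M := (QuotientAddGroup.eq_zero_iff _).1 hz
    obtain ⟨j, hj⟩ := AddSubgroup.mem_zmultiples_iff.1 hmem
    obtain ⟨h1, h2⟩ := hmid q hq1 (by omega)
    rw [← hj] at h1 h2
    rcases le_or_gt j 0 with hj0 | hj0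
    · have : j • (N + N) ≤ 0 := by
        have := zsmul_le_zsmul_left (add_pos hN hN).le hj0
        simpa using this
      exact absurd h1 (not_lt.2 this)
    · have : N + N ≤ j • (N + N) := by
        have := zsmul_le_zsmul_left (add_pos hN hN).le (show (1 : ℤ) ≤ j by omega)
        simpa using this
      have : N < N + N := lt_add_of_pos_left N hN
      grind
  · have hpτ : π (p • o 1) = 0 := by
      rw [map_nsmul, hpq]
      have e : (q + 2) • π (o 1) = (q + 1) • π (o 1) + π (o 1) := succ_nsmul _ (q + 1)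
      rw [e, ← neg_eq_iff_eq_neg.2 h, neg_add_cancel]
    have hmem : p • o 1 ∈ M := (QuotientAddGroup.eq_zero_iff _).1 hpτ
    obtain ⟨j, hj⟩ := AddSubgroup.mem_zmultiples_iff.1 hmem
    refine ⟨j, ?_⟩
    rw [← hj, mul_comm, mul_zsmul, two_zsmul]


/-! ### Abstract x-only (Kummer) data -/

section kummer

variable {K : Type*} [Field K] {Γ₀ : Type*} [LinearOrderedCommGroupWithZero Γ₀]
variable {G : Type*} [AddCommGroup G]

/-- Abstract x-only data on an additive group `G`: a coordinate `X : G → K` (junk value at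
`0`) satisfying the product, sum and duplication formulas of the curve
`η² = ξ (ξ² + al ξ + be)`. -/
structure Kum (al be : K) (X : G → K) : Prop where
  neg : ∀ P, X (-P) = X P
  inj : ∀ P Q, P ≠ 0 → Q ≠ 0 → X P = X Q → P = Q ∨ P = -Q
  pair : ∀ P Q, P ≠ 0 → Q ≠ 0 → X P ≠ X Q →
    X (P + Q) * X (P - Q) * (X P - X Q) ^ 2 = (X P * X Q - be) ^ 2 ∧
    (X (P + Q) + X (P - Q)) * (X P - X Q) ^ 2 =
      2 * (X P + X Q) * (X P * X Q + be) + 4 * al * X P * X Q
  dbl : ∀ P, P ≠ 0 → 2 • P ≠ 0 →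
    X (2 • P) * 4 * X P * (X P ^ 2 + al * X P + be) = (X P ^ 2 - be) ^ 2

/-- **NODEVAL, abstract form.** -/
theorem kum_nodeVal (v : Valuation K Γ₀) {al be : K} {X : G → K} (hK : Kum al be X)
    (h2 : (2 : K) ≠ 0) (hA : v (4 * al) = 1) (hbe : be ≠ 0) (hN : v be < 1)
    {p : ℕ} (hp : p.Prime) (hp2 : p ≠ 2) {T : G} (hT0 : T ≠ 0) (hpT : p • T = 0)
    (hT : v (X T) < 1) :
    v be < v (X T) ∧ ∃ j : ℤ, v (X T) ^ p = v be ^ (2 * j) := by
  have hal : al ≠ 0 := by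
    rintro rfl
    simp at hA
  have hA' : ord v (4 * al) = 0 := ord_eq_zero_of_val_eq_one v hA
  have hN' : 0 < ord v be := (ord_pos_iff v hbe).2 hN
  have hp2le := hp.two_le
  -- torsion facts
  obtain ⟨m, hm⟩ : ∃ m, p = 2 * m + 1 := by
    rcases hp.eq_two_or_odd' with h | h
    · exact absurd h hp2
    · exact h
  have hZ2 : ∀ Q : G, p • Q = 0 → Q ≠ 0 → 2 • Q ≠ 0 := by
    intro Q hQ hQ0 h2Q
    apply hQ0
    rw [hm, add_nsmul, one_nsmul, mul_nsmul, h2Q, nsmul_zero, zero_add] at hQ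
    exact hQ
  have hX : ∀ Q : G, p • Q = 0 → Q ≠ 0 → X Q ≠ 0 := by
    intro Q hQ hQ0 hX0
    have h := hK.dbl Q hQ0 (hZ2 Q hQ hQ0)
    rw [hX0] at h
    have hb2 : be ^ 2 = 0 := by linear_combination -h
    exact hbe (pow_eq_zero_iff two_ne_zero |>.1 hb2)
  have : Fact p.Prime := ⟨hp⟩
  have hord : addOrderOf T = p := addOrderOf_eq_prime hpT hT0
  have hmul : ∀ k : ℕ, k • T = 0 ↔ p ∣ k := by
    intro k
    rw [← hord]
    exact addOrderOf_dvd_iff_nsmul_eq_zero.symm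
  have htor : ∀ k : ℕ, p • (k • T) = 0 := by
    intro k
    rw [smul_comm, hpT, nsmul_zero]
  have hk0 : ∀ k : ℕ, ¬ p ∣ k → k • T ≠ 0 := fun k hk h => hk ((hmul k).1 h)
  have hXT : X T ≠ 0 := hX T hpT hT0
  have ht0 : 0 < ord v (X T) := (ord_pos_iff v hXT).2 hT
  -- no multiple lies in `E₀`
  have hA1 : ∀ a : ℕ, ¬ p ∣ a → 0 < ord v (X (a • T)) := by
    intro a ha
    by_contra hcon
    have hcon' : ord v (X (a • T)) ≤ 0 := not_lt.1 hcon
    have hS0 : a • T ≠ 0 := hk0 a ha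
    have hXS : X (a • T) ≠ 0 := hX _ (htor a) hS0
    have key : ∀ j : ℕ, ¬ p ∣ (1 + j * a) ∧ 0 < ord v (X ((1 + j * a) • T)) := by
      intro j
      induction j with
      | zero =>
        refine ⟨?_, ?_⟩
        · simpa using hp.one_lt.ne'
        · simpa using ht0
      | succ j ih =>
        obtain ⟨ih1, ih2⟩ := ih
        have hP0 : (1 + j * a) • T ≠ 0 := hk0 _ ih1
        have hXP : X ((1 + j * a) • T) ≠ 0 := hX _ (htor _) hP0
        have hne : X (a • T) ≠ X ((1 + j * a) • T) := by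
          intro h
          rw [h] at hcon'
          exact absurd ih2 (not_lt.2 hcon')
        obtain ⟨hPi, hSig⟩ := hK.pair _ _ hS0 hP0 hne
        have hSP : a • T + (1 + j * a) • T ≠ 0 := by
          intro h
          apply hne
          rw [eq_neg_of_add_eq_zero_left h, hK.neg]
        have hSmP : a • T - (1 + j * a) • T ≠ 0 := by
          intro h
          apply hne
          rw [sub_eq_zero.1 h]
        have tSP : p • (a • T + (1 + j * a) • T) = 0 := by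
          rw [nsmul_add, htor, htor, add_zero]
        have tSmP : p • (a • T - (1 + j * a) • T) = 0 := by
          rw [nsmul_sub, htor, htor, sub_zero]
        have h := pair_E0 h2 hA' hal hbe hXS hXP (hX _ tSP hSP) (hX _ tSmP hSmP)
          (sub_ne_zero.2 hne) hPi hSig hN' hcon' ih2
        have e : a • T + (1 + j * a) • T = (1 + (j + 1) * a) • T := by
          rw [← add_nsmul]
          congr 1
          ring
        rw [e] at h hSP
        exact ⟨fun hd => hSP ((hmul _).2 hd), h.1⟩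
    obtain ⟨j, hj⟩ : ∃ j : ℕ, p ∣ 1 + j * a := by
      have hcop : Nat.Coprime a p := ((Nat.Prime.coprime_iff_not_dvd hp).2 ha).symm
      obtain ⟨m', -, hm'⟩ := Nat.exists_mul_mod_eq_one_of_coprime hcop hp.one_lt
      refine ⟨m' * (p - 1), ?_⟩
      have h1 : a * m' ≡ 1 [MOD p] := by
        rw [Nat.ModEq, hm', Nat.mod_eq_of_lt hp.one_lt]
      have h2 : 1 + a * m' * (p - 1) ≡ 1 + 1 * (p - 1) [MOD p] := (h1.mul_right _).add_left 1
      have h3 : 1 + 1 * (p - 1) = p := by omega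
      have e : 1 + m' * (p - 1) * a = 1 + a * m' * (p - 1) := by ring
      rw [e]
      rw [h3] at h2
      exact (Nat.modEq_zero_iff_dvd).1 (h2.trans (Nat.modEq_zero_iff_dvd.2 dvd_rfl))
    exact (key j).1 hj
  -- no multiple lies beyond `N`
  have hA2 : ∀ a : ℕ, ¬ p ∣ a → ord v (X (a • T)) < ord v be := by
    intro a ha
    by_contra hcon
    have hcon' := not_lt.1 hcon
    have hP0 : a • T ≠ 0 := hk0 a ha
    have h2P := hZ2 _ (htor a) hP0
    have t2P : p • (2 • (a • T)) = 0 := by rw [smul_comm, htor, nsmul_zero]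
    have h := dbl_far h2 hA' hal hbe (hX _ (htor a) hP0) (hX _ t2P h2P)
      (hK.dbl _ hP0 h2P) hN' hcon'
    have h2a : ¬ p ∣ 2 * a := by
      intro h
      rcases (Nat.Prime.dvd_mul hp).1 h with h | h
      · exact hp2 ((Nat.prime_dvd_prime_iff_eq hp Nat.prime_two).1 h)
      · exact ha h
    have h' := hA1 (2 * a) h2a
    rw [mul_nsmul'] at h'
    exact absurd h' (not_lt.2 h)
  have hlt : ∀ k : ℕ, 1 ≤ k → k ≤ p - 1 → ¬ p ∣ k := fun k h1 h2 =>
    Nat.not_dvd_of_pos_of_lt (by omega) (by omega)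
  refine ⟨(ord_lt_ord_iff v hXT hbe).1 (by simpa using hA2 1 (hlt 1 le_rfl (by omega))), ?_⟩
  -- the chain of depths
  have hchain := chain_core (ord v be) hN' p (by omega) (fun k => ord v (X (k • T)))
    (fun k h1 h2 => ⟨hA1 k (hlt k h1 h2), hA2 k (hlt k h1 h2)⟩) ?_ ?_ ?_
  · obtain ⟨j, hj⟩ := hchain
    simp only [one_nsmul] at hj
    exact ⟨j, val_pow_eq_zpow_of_ord v hXT hbe p (2 * j) hj⟩
  · -- doubling
    simp only [one_nsmul]
    have h2T := hZ2 T hpT hT0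
    have t2T : p • (2 • T) = 0 := by rw [smul_comm, hpT, nsmul_zero]
    have hT2lt := hA2 2 (hlt 2 (by omega) (by omega))
    have h1lt : ord v (X T) < ord v be := by simpa using hA2 1 (hlt 1 le_rfl (by omega))
    rcases dbl_mid h2 hA' hal hbe hXT (hX _ t2T h2T) (hK.dbl T hT0 h2T) ht0 h1lt with
      h | h | h
    · exact Or.inl h.2
    · exact Or.inr h.2
    · exact absurd hT2lt (not_lt.2 h.2)
  · -- generic step
    intro m hm3
    simp only [one_nsmul]
    have hd1 := hlt (m + 1) (by omega) (by omega)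
    have hd2 := hlt (m + 2) (by omega) (by omega)
    have hd3 := hlt (m + 3) (by omega) (by omega)
    have hP0 : (m + 2) • T ≠ 0 := hk0 _ hd2
    have e2 : (m + 2) • T = (m + 1) • T + T := succ_nsmul T (m + 1)
    have e3 : (m + 3) • T = (m + 2) • T + T := succ_nsmul T (m + 2)
    have hne : X ((m + 2) • T) ≠ X T := by
      intro h
      rcases hK.inj _ _ hP0 hT0 h with h' | h'
      · rw [e2] at h'
        exact hk0 _ hd1 (add_eq_right.1 h')
      · exact hk0 _ hd3 (by rw [e3, h', neg_add_cancel])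
    obtain ⟨hPi, hSig⟩ := hK.pair _ _ hP0 hT0 hne
    have eM : (m + 2) • T - T = (m + 1) • T := by rw [e2, add_sub_cancel_right]
    rw [← e3, eM] at hPi hSig
    have hXP := hX _ (htor (m + 2)) hP0
    have hXu := hX _ (htor (m + 3)) (hk0 _ hd3)
    have hXw := hX _ (htor (m + 1)) (hk0 _ hd1)
    have h1lt : ord v (X T) < ord v be := by simpa using hA2 1 (hlt 1 le_rfl (by omega))
    rcases lt_trichotomy (ord v (X ((m + 2) • T))) (ord v (X T)) with hlt' | heq | hgt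
    · have h := pair_gen h2 hA' hal hbe hXP hXT hXu hXw (sub_ne_zero.2 hne) hPi hSig
        (hA1 _ hd2) hlt' h1lt (hA2 _ hd3) (hA2 _ hd1)
      rcases h with ⟨h1, h2⟩ | ⟨h1, h2⟩
      · exact Or.inl ⟨Or.inl h1, h2⟩
      · exact Or.inr ⟨Or.inl h1, h2⟩
    · exfalso
      have h := pair_eq h2 hA' hal hbe hXP hXT hXu hXw (sub_ne_zero.2 hne) hPi hSig
        (hA1 _ hd2) heq (hA2 _ hd2)
      rcases h with h | h
      · exact absurd (hA1 _ hd3) (not_lt.2 h)
      · exact absurd (hA1 _ hd1) (not_lt.2 h)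
    · have hPi' : X ((m + 3) • T) * X ((m + 1) • T) * (X T - X ((m + 2) • T)) ^ 2 =
          (X T * X ((m + 2) • T) - be) ^ 2 := by linear_combination hPi
      have hSig' : (X ((m + 3) • T) + X ((m + 1) • T)) * (X T - X ((m + 2) • T)) ^ 2 =
          2 * (X T + X ((m + 2) • T)) * (X T * X ((m + 2) • T) + be) +
            4 * al * X T * X ((m + 2) • T) := by linear_combination hSig
      have h := pair_gen h2 hA' hal hbe hXT hXP hXu hXw (sub_ne_zero.2 hne.symm) hPi' hSig'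
        ht0 hgt (hA2 _ hd2) (hA2 _ hd3) (hA2 _ hd1)
      rcases h with ⟨h1, h2⟩ | ⟨h1, h2⟩
      · refine Or.inl ⟨Or.inr h1, ?_⟩
        rcases h2 with h2 | h2
        · exact Or.inl (by rw [h2, add_comm])
        · exact Or.inr (by rw [← h2]; abel)
      · refine Or.inr ⟨Or.inr h1, ?_⟩
        rcases h2 with h2 | h2
        · exact Or.inl (by rw [h2, add_comm])
        · exact Or.inr (by rw [← h2]; abel)
  · -- the last multiple is `-T`
    show ord v (X ((p - 1) • T)) = ord v (X (1 • T))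
    have e : (p - 1) • T = -T := by
      apply eq_neg_of_add_eq_zero_left
      have e' : (p - 1 + 1) • T = (p - 1) • T + T := succ_nsmul T (p - 1)
      rw [← e', Nat.sub_add_cancel hp.one_lt.le, hpT]
    rw [e, hK.neg, one_nsmul]

end kummer

/-! ### The curve -/

section curve

open WeierstrassCurve WeierstrassCurve.Affine
open Fermat.Agent.S05.helper305 (Shape)

variable {K : Type*} [Field K]

/-- The coordinate `ξ = x - e` of a point (junk value `0` at the origin). -/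
def xi (W : WeierstrassCurve K) (e : K) : W.toAffine.Point → K
  | .zero => 0
  | .some x _ _ => x - e

@[simp] theorem xi_some (W : WeierstrassCurve K) (e : K) {x y : K}
    (h : W.toAffine.Nonsingular x y) : xi W e (Point.some x y h) = x - e := rfl

variable [DecidableEq K]

/-- The x-only identities of a curve of shape `(e, al, be)`. -/
theorem kum_of_shape {W : WeierstrassCurve K} {e al be : K} (hS : Shape W e al be) :
    Kum al be (xi W e) where
  neg := by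
    intro P
    cases P with
    | zero => rfl
    | some x y h => rw [Point.neg_some]; rfl
  inj := by
    intro P Q hP hQ hX
    cases P with
    | zero => exact absurd rfl hP
    | some x₁ y₁ h₁ =>
      cases Q with
      | zero => exact absurd rfl hQ
      | some x₂ y₂ h₂ =>
        simp only [xi_some] at hX
        exact helper872.eq_or_eq_neg_of_X_eq h₁ h₂ (by linear_combination hX)
  pair := by
    intro P Q hP hQ hX
    cases P with
    | zero => exact absurd rfl hP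
    | some x₁ y₁ h₁ =>
      cases Q with
      | zero => exact absurd rfl hQ
      | some x₂ y₂ h₂ =>
        simp only [xi_some] at hX
        have hx : x₁ ≠ x₂ := fun h => hX (by rw [h])
        obtain ⟨Xp, Yp, Xm, Ym, hp, hm, hadd, hsub, hprod, hsum⟩ :=
          helper872.exists_add_sub_shape hS h₁ h₂ hx
        rw [hadd, hsub]
        simp only [xi_some]
        refine ⟨?_, ?_⟩
        · linear_combination hprod
        · linear_combination hsum
  dbl := by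
    intro P hP h2P
    cases P with
    | zero => exact absurd rfl hP
    | some x y h =>
      have hy : y ≠ W.toAffine.negY x y := fun hy =>
        h2P ((helper872.two_nsmul_eq_zero_iff h).2 hy)
      obtain ⟨X, Y, h', h2, hdup, -⟩ := helper872.exists_two_nsmul_shape hS h hy
      rw [h2]
      simp only [xi_some]
      exact hdup

/-- **NODEVAL, generalised form**: no hypothesis on `v 2` or `v p`; only `b₂ = 4 al` (up to
the shift) is a unit, `0 < v be < 1`, and `p` is an odd prime. -/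
theorem nodeVal_gen {Γ₀ : Type*} [LinearOrderedCommGroupWithZero Γ₀]
    (v : Valuation K Γ₀) (W : WeierstrassCurve K) (e al be : K)
    (hS : Shape W e al be) (hA : v (4 * al) = 1) (hb : v be < 1) (hbe : be ≠ 0)
    (p : ℕ) (hp : p.Prime) (hp2 : p ≠ 2)
    (x y : K) (h : W.toAffine.Nonsingular x y) (hx : v (x - e) < 1)
    (hpP : p • (Point.some x y h : W.toAffine.Point) = 0) :
    v be < v (x - e) ∧ ∃ j : ℤ, v (x - e) ^ p = v be ^ (2 * j) :=
  kum_nodeVal v (kum_of_shape hS) hS.two_ne hA hbe hb hp hp2 (Point.some_ne_zero h) hpP hx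

/-- **NODEVAL** in the form of the captain's spec. -/
theorem nodeVal : helper5.NodeValStmt := by
  intro K _ _ Γ₀ _ v W e al be hS h2 hal hb hbe p hp hp2 _ x y h hx hpP
  have h4 : v (4 * al) = 1 := by
    have e4 : (4 : K) = 2 * 2 := by norm_num
    rw [map_mul, e4, map_mul, h2, hal]
    simp
  exact nodeVal_gen v W e al be hS h4 hb hbe p hp hp2 x y h hx hpP

end curve

end Fermat.Agent.S05.helper771
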