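import Mathlib

/-!
# Valuation theory of the x-line of a curve `η² = ξ(ξ² + al ξ + be)` (helper79, S05)

Pure valued-field statements about sequences `x m = ξ(m • S)` satisfying the x-only
addition identities.  No elliptic-curve API is used in this file.

* `seq_no_torsion` : the kernel of reduction has no `p`-torsion (`v p = 1`, `v 2 = 1`).
* `seq_node` : in the nodal case (`v al = 1`, `v be < 1`), for a generator of maximal
  `v (x 1)` all of whose multiples reduce to the node, `v (x 1) ^ p = v be ^ 2` and every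
  `v (x m)` is a power of `v (x 1)` strictly between `v be` and `1`.
-/

set_option autoImplicit false

namespace Fermat.Agent.S05.helper79

variable {K : Type*} [Field K] {Γ₀ : Type*} [LinearOrderedCommGroupWithZero Γ₀]

theorem v_natCast_le_one (v : Valuation K Γ₀) (n : ℕ) : v (n : K) ≤ 1 := by
  induction n with
  | zero => simp
  | succ k ih =>
    push_cast
    exact v.map_add_le ih (le_of_eq v.map_one)

theorem v_sq_le_self {g : Γ₀} (hg : g ≤ 1) : g ^ 2 ≤ g := by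
  calc g ^ 2 = g * g := sq g
    _ ≤ g * 1 := mul_le_mul' le_rfl hg
    _ = g := mul_one g

theorem v_mul_le_of_le_one_left {a b : Γ₀} (ha : a ≤ 1) : a * b ≤ b := by
  calc a * b ≤ 1 * b := mul_le_mul' ha le_rfl
    _ = b := one_mul b

theorem v_mul_le_of_le_one_right {a b : Γ₀} (hb : b ≤ 1) : a * b ≤ a := by
  calc a * b ≤ a * 1 := mul_le_mul' le_rfl hb
    _ = a := mul_one a

/-- The core congruence step for `ζ = 1/ξ` in the kernel of reduction. -/
theorem zeta_step (v : Valuation K Γ₀) {al be a b c d k₁ k₂ : K}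
    (hal : v al ≤ 1) (hbe : v be ≤ 1) (h2 : v 2 ≤ 1) (hk₁ : v k₁ ≤ 1) (hk₂ : v k₂ ≤ 1)
    (hb : v b < 1) (ha : v (a - k₁ * b) ≤ v b ^ 2) (hc : v (c - k₂ * b) ≤ v b ^ 2)
    (h : (c + d) * (1 - be * a * b) ^ 2 = 2 * ((a + b) * (1 + be * a * b) + 2 * al * a * b)) :
    v (d - (2 * k₁ + 2 - k₂) * b) ≤ v b ^ 2 := by
  have hb1 : v b ≤ 1 := hb.le
  have hbb : v b ^ 2 ≤ v b := v_sq_le_self hb1
  have ha' : v a ≤ v b := by
    have : a = (a - k₁ * b) + k₁ * b := by ring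
    rw [this]
    apply v.map_add_le (ha.trans hbb)
    rw [map_mul]
    exact v_mul_le_of_le_one_left hk₁
  have hc' : v c ≤ v b := by
    have : c = (c - k₂ * b) + k₂ * b := by ring
    rw [this]
    apply v.map_add_le (hc.trans hbb)
    rw [map_mul]
    exact v_mul_le_of_le_one_left hk₂
  have hab : v (a * b) ≤ v b ^ 2 := by
    rw [map_mul, sq]
    exact mul_le_mul' ha' le_rfl
  have hab1 : v (a * b) ≤ 1 := hab.trans (hbb.trans hb1)
  have ha1 : v a ≤ 1 := ha'.trans hb1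
  have hc1 : v c ≤ 1 := hc'.trans hb1
  have hu : v (1 - be * a * b) = 1 := by
    apply v.map_one_sub_of_lt
    rw [mul_assoc, map_mul]
    calc v be * v (a * b) ≤ v (a * b) := v_mul_le_of_le_one_left hbe
      _ ≤ v b ^ 2 := hab
      _ ≤ v b := hbb
      _ < 1 := hb
  have key : (d - (2 * k₁ + 2 - k₂) * b) * (1 - be * a * b) ^ 2 =
      2 * (a - k₁ * b) - (c - k₂ * b) + a * b * (2 * (a + b) * be + 4 * al
        + (c + (2 * k₁ + 2 - k₂) * b) * (2 * be - be ^ 2 * (a * b))) := by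
    linear_combination h
  have hv : v (d - (2 * k₁ + 2 - k₂) * b)
      = v ((d - (2 * k₁ + 2 - k₂) * b) * (1 - be * a * b) ^ 2) := by
    rw [map_mul, map_pow, hu, one_pow, mul_one]
  have h4 : v (4 : K) ≤ 1 := by
    have : (4 : K) = 2 * 2 := by norm_num
    rw [this, map_mul]
    exact (v_mul_le_of_le_one_left h2).trans h2
  have hk3 : v (2 * k₁ + 2 - k₂) ≤ 1 := by
    apply v.map_sub_le _ hk₂
    apply v.map_add_le _ h2
    rw [map_mul]
    exact (v_mul_le_of_le_one_left h2).trans hk₁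
  rw [hv, key]
  apply v.map_add_le
  · apply v.map_sub_le
    · rw [map_mul]
      exact (v_mul_le_of_le_one_left h2).trans ha
    · exact hc
  · rw [map_mul]
    refine (v_mul_le_of_le_one_right ?_).trans hab
    apply v.map_add_le
    · apply v.map_add_le
      · rw [map_mul, map_mul]
        refine (v_mul_le_of_le_one_right hbe).trans ?_
        refine (v_mul_le_of_le_one_left h2).trans ?_
        exact v.map_add_le ha1 hb1
      · rw [map_mul]
        exact (v_mul_le_of_le_one_left h4).trans hal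
    · rw [map_mul]
      refine (v_mul_le_of_le_one_right ?_).trans ?_
      · apply v.map_sub_le
        · rw [map_mul]
          exact (v_mul_le_of_le_one_left h2).trans hbe
        · rw [map_mul, map_pow]
          refine (v_mul_le_of_le_one_right hab1).trans ?_
          exact (v_sq_le_self hbe).trans hbe
      · apply v.map_add_le hc1
        rw [map_mul]
        exact (v_mul_le_of_le_one_left hk3).trans hb1

/-- `zeta_step` in terms of the `ξ`-coordinates. -/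
theorem zeta_step_x (v : Valuation K Γ₀) {al be xP xQ xd xs k₁ k₂ : K}
    (hal : v al ≤ 1) (hbe : v be ≤ 1) (h2 : v 2 ≤ 1) (hk₁ : v k₁ ≤ 1) (hk₂ : v k₂ ≤ 1)
    (hxP : xP ≠ 0) (hxd : xd ≠ 0) (hne : xP ≠ xQ) (hQ : 1 < v xQ)
    (ha : v (xP⁻¹ - k₁ * xQ⁻¹) ≤ v xQ⁻¹ ^ 2) (hc : v (xd⁻¹ - k₂ * xQ⁻¹) ≤ v xQ⁻¹ ^ 2)
    (hPi : xs * xd * (xP - xQ) ^ 2 = (xP * xQ - be) ^ 2)
    (hSum : (xs + xd) * (xP - xQ) ^ 2
      = 2 * ((xP + xQ) * (xP * xQ + be) + 2 * al * xP * xQ)) :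
    xs ≠ 0 ∧ v (xs⁻¹ - (2 * k₁ + 2 - k₂) * xQ⁻¹) ≤ v xQ⁻¹ ^ 2 := by
  have hxQ : xQ ≠ 0 := by
    intro h0
    rw [h0, map_zero] at hQ
    exact absurd hQ (not_lt.2 zero_le)
  have hb : v xQ⁻¹ < 1 := by
    rw [map_inv₀]
    exact inv_lt_one_of_one_lt₀ hQ
  have hbb : v xQ⁻¹ ^ 2 ≤ v xQ⁻¹ := v_sq_le_self hb.le
  have ha' : v xP⁻¹ < 1 := by
    have : xP⁻¹ = (xP⁻¹ - k₁ * xQ⁻¹) + k₁ * xQ⁻¹ := by ring
    rw [this]
    apply v.map_add_lt (lt_of_le_of_lt (ha.trans hbb) hb)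
    rw [map_mul]
    exact lt_of_le_of_lt (v_mul_le_of_le_one_left hk₁) hb
  have hP : 1 < v xP := by
    rw [map_inv₀] at ha'
    by_contra hcon
    rw [not_lt] at hcon
    have h1 : 1 ≤ (v xP)⁻¹ := (one_le_inv₀ (by rw [zero_lt_iff]; exact (v.ne_zero_iff).2 hxP)).2 hcon
    exact absurd ha' (not_lt.2 h1)
  have hD : xP - xQ ≠ 0 := sub_ne_zero.mpr hne
  have hxs : xs ≠ 0 := by
    intro h0
    rw [h0, zero_mul, zero_mul] at hPi
    have h3 : xP * xQ - be = 0 := by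
      have := hPi.symm
      exact pow_eq_zero_iff (two_ne_zero) |>.1 this
    have h4 : v (xP * xQ) = v be := by
      rw [sub_eq_zero] at h3
      rw [h3]
    have h5 : 1 < v (xP * xQ) := by
      rw [map_mul]
      calc (1 : Γ₀) < v xP := hP
        _ = v xP * 1 := (mul_one _).symm
        _ ≤ v xP * v xQ := mul_le_mul' le_rfl hQ.le
    rw [h4] at h5
    exact absurd h5 (not_lt.2 hbe)
  refine ⟨hxs, ?_⟩
  apply zeta_step v hal hbe h2 hk₁ hk₂ hb ha hc
  have h1 : (xd⁻¹ + xs⁻¹) * (xP * xQ - be) ^ 2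
      = 2 * ((xP + xQ) * (xP * xQ + be) + 2 * al * xP * xQ) := by
    rw [← hPi, ← hSum]
    field_simp
  have e1 : (1 - be * xP⁻¹ * xQ⁻¹) = (xP * xQ - be) * (xP⁻¹ * xQ⁻¹) := by
    field_simp
  have e2 : 2 * ((xP⁻¹ + xQ⁻¹) * (1 + be * xP⁻¹ * xQ⁻¹) + 2 * al * xP⁻¹ * xQ⁻¹)
      = 2 * ((xP + xQ) * (xP * xQ + be) + 2 * al * xP * xQ) * (xP⁻¹ * xQ⁻¹) ^ 2 := by
    field_simp
    ring
  rw [e1, e2, ← h1]
  ring

/-- The doubling congruence `ζ(2S) ≡ 4 ζ(S)` in the kernel of reduction. -/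
theorem zeta_dbl (v : Valuation K Γ₀) {al be x1 x2 : K}
    (hal : v al ≤ 1) (hbe : v be ≤ 1) (h2 : v 2 ≤ 1) (hQ : 1 < v x1)
    (hDbl : x2 * (4 * x1 * (x1 ^ 2 + al * x1 + be)) = (x1 ^ 2 - be) ^ 2) :
    x2 ≠ 0 ∧ v (x2⁻¹ - 4 * x1⁻¹) ≤ v x1⁻¹ ^ 2 := by
  have hx1 : x1 ≠ 0 := by
    intro h0
    rw [h0, map_zero] at hQ
    exact absurd hQ (not_lt.2 zero_le)
  have hb : v x1⁻¹ < 1 := by
    rw [map_inv₀]
    exact inv_lt_one_of_one_lt₀ hQ
  have hb1 := hb.le
  have hbb : v x1⁻¹ ^ 2 ≤ v x1⁻¹ := v_sq_le_self hb.le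
  have h4 : v (4 : K) ≤ 1 := by
    have : (4 : K) = 2 * 2 := by norm_num
    rw [this, map_mul]
    exact (v_mul_le_of_le_one_left h2).trans h2
  have h3 : v (3 : K) ≤ 1 := by
    have : (3 : K) = 2 + 1 := by norm_num
    rw [this]
    exact v.map_add_le h2 (le_of_eq v.map_one)
  have hx2 : x2 ≠ 0 := by
    intro h0
    rw [h0, zero_mul] at hDbl
    have h3 : x1 ^ 2 - be = 0 := pow_eq_zero_iff (two_ne_zero) |>.1 hDbl.symm
    have h4 : v (x1 ^ 2) = v be := by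
      rw [sub_eq_zero] at h3
      rw [h3]
    have h5 : 1 < v (x1 ^ 2) := by
      rw [map_pow]
      exact one_lt_pow₀ hQ two_ne_zero
    rw [h4] at h5
    exact absurd h5 (not_lt.2 hbe)
  refine ⟨hx2, ?_⟩
  set b := x1⁻¹ with hbdef
  have hbb2 : v (b ^ 2) ≤ 1 := by
    rw [map_pow]
    exact hbb.trans hb1
  have hu : v (1 - be * b ^ 2) = 1 := by
    apply v.map_one_sub_of_lt
    rw [map_mul, map_pow]
    exact lt_of_le_of_lt ((v_mul_le_of_le_one_left hbe).trans hbb) hb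
  have key : (x2⁻¹ - 4 * b) * (1 - be * b ^ 2) ^ 2
      = b ^ 2 * (4 * (al + 3 * be * b - be ^ 2 * b ^ 3)) := by
    have hb0 : x1 * b = 1 := mul_inv_cancel₀ hx1
    have e1 : x2⁻¹ * (1 - be * b ^ 2) ^ 2 = 4 * b * (1 + al * b + be * b ^ 2) := by
      have e2 : (1 - be * b ^ 2) = (x1 ^ 2 - be) * b ^ 2 := by
        rw [hbdef]
        field_simp
      have e3 : 4 * b * (1 + al * b + be * b ^ 2)
          = (4 * x1 * (x1 ^ 2 + al * x1 + be)) * b ^ 4 := by
        rw [hbdef]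
        field_simp
      rw [e2, e3, mul_pow, ← hDbl]
      field_simp
    linear_combination e1
  have hv : v (x2⁻¹ - 4 * b) = v ((x2⁻¹ - 4 * b) * (1 - be * b ^ 2) ^ 2) := by
    rw [map_mul, map_pow, hu, one_pow, mul_one]
  rw [hv, key, map_mul, map_pow]
  refine v_mul_le_of_le_one_right ?_
  rw [map_mul]
  refine (v_mul_le_of_le_one_left h4).trans ?_
  apply v.map_sub_le
  · apply v.map_add_le hal
    rw [map_mul, map_mul]
    refine (v_mul_le_of_le_one_right hb1).trans ?_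
    exact (v_mul_le_of_le_one_left h3).trans hbe
  · rw [map_mul, map_pow, map_pow]
    refine (v_mul_le_of_le_one_right (pow_le_one₀ zero_le hb1)).trans ?_
    exact (v_sq_le_self hbe).trans hbe

/-- **No torsion in the kernel of reduction** (sequence form).  If `x m = ξ(m • S)` for a point
`S` of exact odd order `p` and `v p = v 2 = 1`, then `v (x 1) ≤ 1`. -/
theorem seq_no_torsion (v : Valuation K Γ₀) {al be : K} (hal : v al ≤ 1) (hbe : v be ≤ 1)
    (h2 : v 2 = 1) {p : ℕ} (hp3 : 3 ≤ p) (hvp : v (p : K) = 1) (x : ℕ → K)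
    (hPi : ∀ m, 1 ≤ m → m + 2 ≤ p - 1 →
      x (m + 2) * x m * (x (m + 1) - x 1) ^ 2 = (x (m + 1) * x 1 - be) ^ 2)
    (hSum : ∀ m, 1 ≤ m → m + 2 ≤ p - 1 →
      (x (m + 2) + x m) * (x (m + 1) - x 1) ^ 2
        = 2 * ((x (m + 1) + x 1) * (x (m + 1) * x 1 + be) + 2 * al * x (m + 1) * x 1))
    (hNe : ∀ m, 1 ≤ m → m + 2 ≤ p - 1 → x (m + 1) ≠ x 1)
    (hDbl : x 2 * (4 * x 1 * (x 1 ^ 2 + al * x 1 + be)) = (x 1 ^ 2 - be) ^ 2)
    (hneg1 : x (p - 1) = x 1) (hneg2 : x (p - 2) = x 2) : v (x 1) ≤ 1 := by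
  by_contra hcon
  rw [not_le] at hcon
  obtain ⟨k, rfl⟩ : ∃ k, p = k + 3 := ⟨p - 3, by omega⟩
  have h2' : v (2 : K) ≤ 1 := h2.le
  have hx1 : x 1 ≠ 0 := by
    intro h0
    rw [h0, map_zero] at hcon
    exact absurd hcon (not_lt.2 zero_le)
  have hb : v (x 1)⁻¹ < 1 := by
    rw [map_inv₀]
    exact inv_lt_one_of_one_lt₀ hcon
  have hb0 : v (x 1)⁻¹ ≠ 0 := (v.ne_zero_iff).2 (inv_ne_zero hx1)
  -- the induction
  have all : ∀ m, m + 2 ≤ k + 2 →
      (x (m + 1) ≠ 0 ∧ v ((x (m + 1))⁻¹ - ((m + 1 : ℕ) : K) ^ 2 * (x 1)⁻¹) ≤ v (x 1)⁻¹ ^ 2) ∧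
      (x (m + 2) ≠ 0 ∧ v ((x (m + 2))⁻¹ - ((m + 2 : ℕ) : K) ^ 2 * (x 1)⁻¹) ≤ v (x 1)⁻¹ ^ 2) := by
    intro m
    induction m with
    | zero =>
      intro _
      refine ⟨⟨hx1, ?_⟩, ?_⟩
      · simp
      · have := zeta_dbl v hal hbe h2' hcon hDbl
        refine ⟨this.1, ?_⟩
        have e : (((0 + 2 : ℕ) : K)) ^ 2 = 4 := by norm_num
        rw [e]
        exact this.2
    | succ m ih =>
      intro hm
      obtain ⟨⟨hxd, hc⟩, ⟨hxP, ha⟩⟩ := ih (by omega)
      refine ⟨⟨hxP, ha⟩, ?_⟩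
      have hk₁ : v (((m + 2 : ℕ) : K) ^ 2) ≤ 1 := by
        rw [map_pow]
        exact pow_le_one₀ zero_le (v_natCast_le_one v _)
      have hk₂ : v (((m + 1 : ℕ) : K) ^ 2) ≤ 1 := by
        rw [map_pow]
        exact pow_le_one₀ zero_le (v_natCast_le_one v _)
      have hPi' := hPi (m + 1) (by omega) (by omega)
      have hSum' := hSum (m + 1) (by omega) (by omega)
      have hNe' := hNe (m + 1) (by omega) (by omega)
      have := zeta_step_x v hal hbe h2' hk₁ hk₂ hxP hxd hNe' hcon ha hc hPi' hSum'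
      refine ⟨this.1, ?_⟩
      have e : (((m + 1 + 2 : ℕ) : K)) ^ 2
          = 2 * ((m + 2 : ℕ) : K) ^ 2 + 2 - ((m + 1 : ℕ) : K) ^ 2 := by
        push_cast
        ring
      rw [e]
      exact this.2
  -- cancel lemma
  have cancel : ∀ c : K, v (c * (x 1)⁻¹) ≤ v (x 1)⁻¹ ^ 2 → v c < 1 := by
    intro c hc
    rw [map_mul, sq] at hc
    have : v c ≤ v (x 1)⁻¹ := by
      by_contra hlt
      rw [not_le] at hlt
      have : v (x 1)⁻¹ * v (x 1)⁻¹ < v c * v (x 1)⁻¹ :=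
        mul_lt_mul_of_pos_right hlt (zero_lt_iff.2 hb0)
      exact absurd hc (not_le.2 this)
    exact lt_of_le_of_lt this hb
  have hP1 := (all k (le_refl _)).2
  have hP2 := (all k (le_refl _)).1
  have hQ2 := (all 0 (by omega)).2
  have e1 : k + 3 - 1 = k + 2 := by omega
  have e2 : k + 3 - 2 = k + 1 := by omega
  rw [e1] at hneg1
  rw [e2] at hneg2
  rw [hneg1] at hP1
  rw [hneg2] at hP2
  -- first consequence: v (2 - p) < 1
  have c1 : v ((2 : K) - ((k + 3 : ℕ) : K)) < 1 := by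
    have h3 : v (((k + 3 : ℕ) : K) * ((2 : K) - ((k + 3 : ℕ) : K))) < 1 := by
      apply cancel
      have e : ((k + 3 : ℕ) : K) * ((2 : K) - ((k + 3 : ℕ) : K)) * (x 1)⁻¹
          = (x 1)⁻¹ - ((k + 2 : ℕ) : K) ^ 2 * (x 1)⁻¹ := by
        push_cast
        ring
      rw [e]
      exact hP1.2
    rwa [map_mul, hvp, one_mul] at h3
  have c2 : v ((4 : K) - ((k + 3 : ℕ) : K)) < 1 := by
    have h3 : v (((k + 3 : ℕ) : K) * ((4 : K) - ((k + 3 : ℕ) : K))) < 1 := by
      apply cancel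
      have e : ((k + 3 : ℕ) : K) * ((4 : K) - ((k + 3 : ℕ) : K)) * (x 1)⁻¹
          = ((x 2)⁻¹ - ((k + 1 : ℕ) : K) ^ 2 * (x 1)⁻¹)
            - ((x 2)⁻¹ - ((0 + 2 : ℕ) : K) ^ 2 * (x 1)⁻¹) := by
        push_cast
        ring
      rw [e]
      exact v.map_sub_le hP2.2 hQ2.2
    rwa [map_mul, hvp, one_mul] at h3
  have c3 : v (2 : K) < 1 := by
    have e : (2 : K) = ((4 : K) - ((k + 3 : ℕ) : K)) - ((2 : K) - ((k + 3 : ℕ) : K)) := by ring
    rw [e]
    exact v.map_sub_lt c2 c1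
  rw [h2] at c3
  exact lt_irrefl _ c3

/-- The induction step of the nodal analysis, in the value group. -/
theorem node_step {θ n r₀ r₁ r₂ d e : Γ₀} {j : ℕ} (hj : 1 ≤ j)
    (hn0 : 0 < n) (hθ0 : 0 < θ) (hθ1 : θ < 1)
    (R : r₂ * r₀ * d ^ 2 = e ^ 2) (hd0 : d ≠ 0) (hd : d ≤ θ) (hd' : r₁ < θ → d = θ)
    (he : n < r₁ * θ → e = r₁ * θ) (he' : r₁ * θ < n → e = n) (he'' : r₁ * θ = n → e ≤ n)
    (hr₁ : r₁ ≤ θ) (hr₂ : r₂ < 1) (hr₂' : n < r₂) (hr₀' : n < r₀)
    (Φ₀ : (n < θ ^ j ∧ r₀ = θ ^ j) ∨ (θ ^ j < n ∧ r₀ * θ ^ j = n ^ 2))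
    (Φ₁ : (n < θ ^ (j + 1) ∧ r₁ = θ ^ (j + 1)) ∨ (θ ^ (j + 1) < n ∧ r₁ * θ ^ (j + 1) = n ^ 2)) :
    (n < θ ^ (j + 2) ∧ r₂ = θ ^ (j + 2)) ∨ (θ ^ (j + 2) < n ∧ r₂ * θ ^ (j + 2) = n ^ 2) := by
  have hθne : θ ≠ 0 := hθ0.ne'
  have hpow_lt : ∀ i l : ℕ, i < l → θ ^ l < θ ^ i :=
    fun i l hil => pow_lt_pow_right_of_lt_one₀ hθ0 hθ1 hil
  rcases Φ₁ with ⟨h1a, h1b⟩ | ⟨h1a, h1b⟩
  · -- Case A
    have h0 : r₀ = θ ^ j := by
      rcases Φ₀ with ⟨_, h⟩ | ⟨h, _⟩
      · exact h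
      · exact absurd (lt_trans h1a (hpow_lt j (j + 1) (by omega))) (not_lt.2 h.le)
    have hr₁θ : r₁ < θ := by
      rw [h1b]
      have := hpow_lt 1 (j + 1) (by omega)
      rwa [pow_one] at this
    have hdθ : d = θ := hd' hr₁θ
    have hprod : r₁ * θ = θ ^ (j + 2) := by
      rw [h1b, ← pow_succ]
    rcases lt_trichotomy n (θ ^ (j + 2)) with hlt | heq | hgt
    · left
      refine ⟨hlt, ?_⟩
      have hee : e = θ ^ (j + 2) := by
        rw [he (by rwa [hprod]), hprod]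
      rw [h0, hdθ, hee] at R
      have h3 : r₂ * θ ^ (j + 2) = θ ^ (j + 2) * θ ^ (j + 2) := by
        rw [pow_add θ j 2, ← mul_assoc, R, sq, pow_add]
      exact mul_right_cancel₀ (pow_ne_zero _ hθne) h3
    · exfalso
      have hee : e ≤ n := he'' (by rw [hprod, heq])
      rw [h0, hdθ] at R
      have h3 : r₂ * θ ^ (j + 2) ≤ n * θ ^ (j + 2) := by
        calc r₂ * θ ^ (j + 2) = r₂ * θ ^ j * θ ^ 2 := by rw [pow_add, mul_assoc]
          _ = e ^ 2 := R
          _ ≤ n ^ 2 := pow_le_pow_left₀ zero_le hee 2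
          _ = n * θ ^ (j + 2) := by rw [sq, ← heq]
      have h4 : r₂ ≤ n := le_of_mul_le_mul_right h3 (pow_pos hθ0 _)
      exact absurd hr₂' (not_lt.2 h4)
    · right
      refine ⟨hgt, ?_⟩
      have hee : e = n := he' (by rwa [hprod])
      rw [h0, hdθ, hee] at R
      rw [pow_add, ← mul_assoc]
      exact R
  · -- Case B
    have key : r₂ * d ^ 2 = r₁ * θ := by
      rcases Φ₀ with ⟨h0a, h0b⟩ | ⟨h0a, h0b⟩
      · have hlt : r₁ * θ < n := by
          have e1 : r₁ * θ * θ ^ j = n * n := by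
            rw [mul_assoc, ← pow_succ', h1b, sq]
          have e2 : r₁ * θ * θ ^ j < n * θ ^ j := by
            rw [e1]
            exact mul_lt_mul_of_pos_left h0a hn0
          exact lt_of_mul_lt_mul_right e2 zero_le
        have hee : e = n := he' hlt
        rw [h0b, hee] at R
        have h3 : r₂ * d ^ 2 * θ ^ j = r₁ * θ * θ ^ j := by
          rw [mul_right_comm, R, ← h1b, pow_succ', mul_assoc]
        exact mul_right_cancel₀ (pow_ne_zero _ hθne) h3
      · have h3 : r₁ * θ = r₀ := by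
          have h4 : r₁ * θ * θ ^ j = r₀ * θ ^ j := by
            rw [mul_assoc, ← pow_succ', h1b, h0b]
          exact mul_right_cancel₀ (pow_ne_zero _ hθne) h4
        have hee : e = r₀ := by
          rw [← h3]
          exact he (by rw [h3]; exact hr₀')
        rw [hee] at R
        have h5 : r₂ * d ^ 2 * r₀ = r₁ * θ * r₀ := by
          rw [h3, mul_right_comm, R, sq]
        exact mul_right_cancel₀ (ne_of_gt (lt_trans hn0 hr₀')) h5
    rcases lt_or_eq_of_le hr₁ with hlt | heq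
    · right
      have hdθ := hd' hlt
      rw [hdθ] at key
      have h4 : r₂ * θ = r₁ := by
        have h5 : r₂ * θ * θ = r₁ * θ := by
          rw [mul_assoc, ← sq]
          exact key
        exact mul_right_cancel₀ hθne h5
      refine ⟨lt_trans (hpow_lt (j + 1) (j + 2) (by omega)) h1a, ?_⟩
      rw [pow_succ' θ (j + 1), ← mul_assoc, h4]
      exact h1b
    · exfalso
      rw [heq] at key
      have h5 : r₂ * d ^ 2 < d ^ 2 := by
        calc r₂ * d ^ 2 < 1 * d ^ 2 :=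
              mul_lt_mul_of_pos_right hr₂ (pow_pos (zero_lt_iff.2 hd0) 2)
          _ = d ^ 2 := one_mul _
      have h6 : d ^ 2 ≤ θ * θ := by
        rw [sq]
        exact mul_le_mul' hd hd
      rw [key] at h5
      exact absurd h5 (not_lt.2 h6)

/-- **Nodal analysis** (sequence form).  `x m = ξ(m • T)` for a point `T` of exact odd order `p`
all of whose non-zero multiples reduce to the node (`v (x m) < 1`), `T` being chosen with
`v (x 1)` maximal.  Then `v (x 1) ^ p = v be ^ 2`, and every `v (x m)` is a power of `v (x 1)`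
lying strictly above `v be`. -/
theorem seq_node (v : Valuation K Γ₀) {al be : K} (hal : v al = 1) (hbe : v be < 1)
    (hbe0 : be ≠ 0) (h2 : v 2 = 1) {p : ℕ} (hp3 : 3 ≤ p) (x : ℕ → K)
    (hPi : ∀ m, 1 ≤ m → m + 2 ≤ p - 1 →
      x (m + 2) * x m * (x (m + 1) - x 1) ^ 2 = (x (m + 1) * x 1 - be) ^ 2)
    (hNe : ∀ m, 1 ≤ m → m + 2 ≤ p - 1 → x (m + 1) ≠ x 1)
    (hDbl1 : x 2 * (4 * x 1 * (x 1 ^ 2 + al * x 1 + be)) = (x 1 ^ 2 - be) ^ 2)
    (hDbl : ∀ m, 1 ≤ m → m ≤ p - 1 →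
      ∃ y, v y < 1 ∧ y * (4 * x m * (x m ^ 2 + al * x m + be)) = (x m ^ 2 - be) ^ 2)
    (hmax : ∀ m, 1 ≤ m → m ≤ p - 1 → v (x m) ≤ v (x 1))
    (h1 : v (x 1) < 1)
    (hneg1 : x (p - 1) = x 1) :
    v (x 1) ^ p = v be ^ 2 ∧
      ∀ m, 1 ≤ m → m ≤ p - 1 → (∃ j : ℕ, v (x m) = v (x 1) ^ j) ∧ v be < v (x m) := by
  obtain ⟨k, rfl⟩ : ∃ k, p = k + 3 := ⟨p - 3, by omega⟩
  have ek : k + 3 - 1 = k + 2 := by omega
  rw [ek] at hPi hNe hDbl hmax hneg1 ⊢
  have hn0 : 0 < v be := zero_lt_iff.2 ((v.ne_zero_iff).2 hbe0)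
  have hv4 : v (4 : K) = 1 := by
    have : (4 : K) = 2 * 2 := by norm_num
    rw [this, map_mul, h2, one_mul]
  have hnn : v be * v be < v be := by
    calc v be * v be < v be * 1 := mul_lt_mul_of_pos_left hbe hn0
      _ = v be := mul_one _
  -- the doubling lemma: no multiple is as close to the node as `be`
  have DL : ∀ m, 1 ≤ m → m ≤ k + 2 → v be < v (x m) := by
    intro m hm1 hm2
    by_contra hcon
    rw [not_lt] at hcon
    obtain ⟨y, hy1, hy⟩ := hDbl m hm1 hm2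
    have hsq : v (x m ^ 2) < v be := by
      rw [map_pow, sq]
      exact lt_of_le_of_lt (mul_le_mul' hcon hcon) hnn
    have hsub : v (x m ^ 2 - be) = v be := v.map_sub_eq_of_lt_right hsq
    have hquad : v (x m ^ 2 + al * x m + be) ≤ v be := by
      apply v.map_add_le (v.map_add_le hsq.le ?_) le_rfl
      rw [map_mul, hal, one_mul]
      exact hcon
    have h3 := congrArg v hy
    rw [map_mul, map_mul, map_mul, hv4, one_mul, map_pow, hsub] at h3
    have hc : v (x m) * v (x m ^ 2 + al * x m + be) ≤ v be * v be := mul_le_mul' hcon hquad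
    have hc0 : 0 < v (x m) * v (x m ^ 2 + al * x m + be) := by
      rw [zero_lt_iff]
      intro h0
      rw [h0, mul_zero] at h3
      exact (pow_ne_zero 2 hn0.ne') h3.symm
    have h4 : v y * (v (x m) * v (x m ^ 2 + al * x m + be)) < v be ^ 2 := by
      calc v y * (v (x m) * v (x m ^ 2 + al * x m + be))
            < 1 * (v (x m) * v (x m ^ 2 + al * x m + be)) := mul_lt_mul_of_pos_right hy1 hc0
        _ = v (x m) * v (x m ^ 2 + al * x m + be) := one_mul _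
        _ ≤ v be * v be := hc
        _ = v be ^ 2 := (sq _).symm
    rw [h3] at h4
    exact lt_irrefl _ h4
  have hnθ : v be < v (x 1) := DL 1 le_rfl (by omega)
  have hθ0 : 0 < v (x 1) := lt_trans hn0 hnθ
  have hθne : v (x 1) ≠ 0 := hθ0.ne'
  have hpow_lt : ∀ i l : ℕ, i < l → v (x 1) ^ l < v (x 1) ^ i :=
    fun i l hil => pow_lt_pow_right_of_lt_one₀ hθ0 h1 hil
  have hθ2 : v (x 1) ^ 2 < v (x 1) := by
    have := hpow_lt 1 2 (by omega)
    rwa [pow_one] at this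
  -- the main induction
  have all : ∀ m, m + 2 ≤ k + 2 →
      ((v be < v (x 1) ^ (m + 1) ∧ v (x (m + 1)) = v (x 1) ^ (m + 1)) ∨
        (v (x 1) ^ (m + 1) < v be ∧ v (x (m + 1)) * v (x 1) ^ (m + 1) = v be ^ 2)) ∧
      ((v be < v (x 1) ^ (m + 2) ∧ v (x (m + 2)) = v (x 1) ^ (m + 2)) ∨
        (v (x 1) ^ (m + 2) < v be ∧ v (x (m + 2)) * v (x 1) ^ (m + 2) = v be ^ 2)) := by
    intro m
    induction m with
    | zero =>
      intro _
      refine ⟨Or.inl ⟨by simpa using hnθ, by simp⟩, ?_⟩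
      have hquad1 : v (x 1 ^ 2 + al * x 1 + be) = v (x 1) := by
        have h_a : v (x 1 ^ 2 + be) < v (al * x 1) := by
          rw [map_mul, hal, one_mul]
          apply v.map_add_lt _ hnθ
          rw [map_pow]
          exact hθ2
        have e : x 1 ^ 2 + al * x 1 + be = (x 1 ^ 2 + be) + al * x 1 := by ring
        rw [e, v.map_add_eq_of_lt_right h_a, map_mul, hal, one_mul]
      have h3 := congrArg v hDbl1
      rw [map_mul, map_mul, map_mul, hv4, one_mul, hquad1, map_pow] at h3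
      have hDL2 := DL 2 (by omega) (by omega)
      rcases lt_trichotomy (v be) (v (x 1) ^ 2) with hlt | heq | hgt
      · left
        refine ⟨hlt, ?_⟩
        have h4 : v (x 1 ^ 2 - be) = v (x 1) ^ 2 := by
          rw [v.map_sub_eq_of_lt_left (by rwa [map_pow]), map_pow]
        rw [h4] at h3
        have h5 : v (x 2) * (v (x 1) * v (x 1)) = v (x 1) ^ 2 * (v (x 1) * v (x 1)) := by
          rw [h3, sq, sq]
        exact mul_right_cancel₀ (mul_ne_zero hθne hθne) h5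
      · exfalso
        have h4 : v (x 1 ^ 2 - be) ≤ v be := by
          apply v.map_sub_le _ le_rfl
          rw [map_pow, heq]
        have h5 : v (x 2) * v (x 1) ^ 2 ≤ v be * v (x 1) ^ 2 := by
          calc v (x 2) * v (x 1) ^ 2 = v (x 2) * (v (x 1) * v (x 1)) := by rw [sq]
            _ = v (x 1 ^ 2 - be) ^ 2 := h3
            _ ≤ v be ^ 2 := pow_le_pow_left₀ zero_le h4 2
            _ = v be * v (x 1) ^ 2 := by rw [sq, ← heq]
        have h6 : v (x 2) ≤ v be := le_of_mul_le_mul_right h5 (pow_pos hθ0 _)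
        exact absurd hDL2 (not_lt.2 h6)
      · right
        refine ⟨hgt, ?_⟩
        have h4 : v (x 1 ^ 2 - be) = v be := by
          apply v.map_sub_eq_of_lt_right
          rwa [map_pow]
        rw [h4] at h3
        rw [sq (v (x 1))]
        exact h3
    | succ m ih =>
      intro hm
      obtain ⟨Φ₀, Φ₁⟩ := ih (by omega)
      refine ⟨Φ₁, ?_⟩
      have hPi' := hPi (m + 1) (by omega) (by omega)
      have hNe' := hNe (m + 1) (by omega) (by omega)
      have R := congrArg v hPi'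
      rw [map_mul, map_mul, map_pow, map_pow] at R
      have hr₁ := hmax (m + 1 + 1) (by omega) (by omega)
      refine node_step (j := m + 1) (by omega) hn0 hθ0 h1 R
        ((v.ne_zero_iff).2 (sub_ne_zero.mpr hNe')) (v.map_sub_le hr₁ le_rfl)
        (fun h => v.map_sub_eq_of_lt_right h) ?_ ?_ ?_ hr₁
        (lt_of_le_of_lt (hmax (m + 1 + 2) (by omega) (by omega)) h1)
        (DL (m + 1 + 2) (by omega) (by omega)) (DL (m + 1) (by omega) (by omega)) Φ₀ Φ₁
      · intro h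
        rw [v.map_sub_eq_of_lt_left (by rwa [map_mul]), map_mul]
      · intro h
        exact v.map_sub_eq_of_lt_right (by rwa [map_mul])
      · intro h
        apply v.map_sub_le _ le_rfl
        rw [map_mul, h]
  -- conclusion
  have hΦ : ∀ m, 1 ≤ m → m ≤ k + 2 →
      ((v be < v (x 1) ^ m ∧ v (x m) = v (x 1) ^ m) ∨
        (v (x 1) ^ m < v be ∧ v (x m) * v (x 1) ^ m = v be ^ 2)) := by
    intro m hm1 hm2
    rcases Nat.lt_or_ge m 2 with h | h
    · have : m = 0 + 1 := by omega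
      rw [this]
      exact (all 0 (by omega)).1
    · obtain ⟨m', rfl⟩ : ∃ m', m = m' + 2 := ⟨m - 2, by omega⟩
      exact (all m' (by omega)).2
  have hfin : v (x 1) ^ (k + 3) = v be ^ 2 := by
    rcases hΦ (k + 2) (by omega) le_rfl with ⟨_, h⟩ | ⟨_, h⟩
    · exfalso
      rw [hneg1] at h
      have := hpow_lt 1 (k + 2) (by omega)
      rw [pow_one, ← h] at this
      exact lt_irrefl _ this
    · rw [hneg1] at h
      rw [pow_succ']
      exact h
  refine ⟨hfin, ?_⟩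
  intro m hm1 hm2
  refine ⟨?_, DL m hm1 hm2⟩
  rcases hΦ m hm1 hm2 with ⟨_, h⟩ | ⟨_, h⟩
  · exact ⟨m, h⟩
  · refine ⟨k + 3 - m, ?_⟩
    have h3 : v (x m) * v (x 1) ^ m = v (x 1) ^ (k + 3 - m) * v (x 1) ^ m := by
      rw [h, ← hfin, ← pow_add]
      congr 1
      omega
    exact mul_right_cancel₀ (pow_ne_zero _ hθne) h3

/-! ## Group level -/

/-- Abstract x-line of a curve `η² = ξ(ξ² + al ξ + be)`: an additive group `G` with an
"x-coordinate" `X : G → K` (junk value at `0`) satisfying the x-only addition identities. -/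
structure XLine {G : Type*} [AddCommGroup G] (X : G → K) (al be : K) : Prop where
  neg : ∀ P, X (-P) = X P
  ne : ∀ P Q, P ≠ 0 → Q ≠ 0 → P + Q ≠ 0 → P - Q ≠ 0 → X P ≠ X Q
  prod : ∀ P Q, P ≠ 0 → Q ≠ 0 → P + Q ≠ 0 → P - Q ≠ 0 →
    X (P + Q) * X (P - Q) * (X P - X Q) ^ 2 = (X P * X Q - be) ^ 2
  sum : ∀ P Q, P ≠ 0 → Q ≠ 0 → P + Q ≠ 0 → P - Q ≠ 0 →
    (X (P + Q) + X (P - Q)) * (X P - X Q) ^ 2
      = 2 * ((X P + X Q) * (X P * X Q + be) + 2 * al * X P * X Q)
  dbl : ∀ P, P ≠ 0 → P + P ≠ 0 →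
    X (P + P) * (4 * X P * (X P ^ 2 + al * X P + be)) = (X P ^ 2 - be) ^ 2

section group

variable {G : Type*} [AddCommGroup G] {X : G → K} {al be : K}

theorem nsmul_eq_zero_iff_of_prime {p : ℕ} (hp : p.Prime) {S : G} (hS : S ≠ 0)
    (hpS : p • S = 0) (m : ℕ) : m • S = 0 ↔ p ∣ m := by
  have := Fact.mk hp
  have ho : addOrderOf S = p := addOrderOf_eq_prime hpS hS
  rw [← ho]
  exact addOrderOf_dvd_iff_nsmul_eq_zero.symm

theorem nsmul_ne_zero_of_lt {p : ℕ} (hp : p.Prime) {S : G} (hS : S ≠ 0)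
    (hpS : p • S = 0) {m : ℕ} (h1 : 1 ≤ m) (h2 : m ≤ p - 1) : m • S ≠ 0 := by
  rw [Ne, nsmul_eq_zero_iff_of_prime hp hS hpS]
  intro hdvd
  have := Nat.le_of_dvd (by omega) hdvd
  have := hp.two_le
  omega

theorem XLine.seq_prod (h : XLine X al be) {p : ℕ} (hp : p.Prime) {S : G} (hS : S ≠ 0)
    (hpS : p • S = 0) (m : ℕ) (h1 : 1 ≤ m) (h2 : m + 2 ≤ p - 1) :
    X ((m + 2) • S) * X (m • S) * (X ((m + 1) • S) - X (1 • S)) ^ 2
      = (X ((m + 1) • S) * X (1 • S) - be) ^ 2 := by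
  have e1 : (m + 2) • S = (m + 1) • S + S := succ_nsmul S (m + 1)
  have e2 : m • S = (m + 1) • S - S := by rw [succ_nsmul, add_sub_cancel_right]
  have n1 := nsmul_ne_zero_of_lt hp hS hpS (m := m + 1) (by omega) (by omega)
  have n2 := nsmul_ne_zero_of_lt hp hS hpS (m := m + 2) (by omega) (by omega)
  have n0 := nsmul_ne_zero_of_lt hp hS hpS (m := m) (by omega) (by omega)
  rw [e1] at n2 ⊢
  rw [e2] at n0 ⊢
  rw [one_nsmul]
  exact h.prod _ _ n1 hS n2 n0

theorem XLine.seq_sum (h : XLine X al be) {p : ℕ} (hp : p.Prime) {S : G} (hS : S ≠ 0)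
    (hpS : p • S = 0) (m : ℕ) (h1 : 1 ≤ m) (h2 : m + 2 ≤ p - 1) :
    (X ((m + 2) • S) + X (m • S)) * (X ((m + 1) • S) - X (1 • S)) ^ 2
      = 2 * ((X ((m + 1) • S) + X (1 • S)) * (X ((m + 1) • S) * X (1 • S) + be)
        + 2 * al * X ((m + 1) • S) * X (1 • S)) := by
  have e1 : (m + 2) • S = (m + 1) • S + S := succ_nsmul S (m + 1)
  have e2 : m • S = (m + 1) • S - S := by rw [succ_nsmul, add_sub_cancel_right]
  have n1 := nsmul_ne_zero_of_lt hp hS hpS (m := m + 1) (by omega) (by omega)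
  have n2 := nsmul_ne_zero_of_lt hp hS hpS (m := m + 2) (by omega) (by omega)
  have n0 := nsmul_ne_zero_of_lt hp hS hpS (m := m) (by omega) (by omega)
  rw [e1] at n2 ⊢
  rw [e2] at n0 ⊢
  rw [one_nsmul]
  exact h.sum _ _ n1 hS n2 n0

theorem XLine.seq_ne (h : XLine X al be) {p : ℕ} (hp : p.Prime) {S : G} (hS : S ≠ 0)
    (hpS : p • S = 0) (m : ℕ) (h1 : 1 ≤ m) (h2 : m + 2 ≤ p - 1) :
    X ((m + 1) • S) ≠ X (1 • S) := by
  have e1 : (m + 2) • S = (m + 1) • S + S := succ_nsmul S (m + 1)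
  have e2 : m • S = (m + 1) • S - S := by rw [succ_nsmul, add_sub_cancel_right]
  have n1 := nsmul_ne_zero_of_lt hp hS hpS (m := m + 1) (by omega) (by omega)
  have n2 := nsmul_ne_zero_of_lt hp hS hpS (m := m + 2) (by omega) (by omega)
  have n0 := nsmul_ne_zero_of_lt hp hS hpS (m := m) (by omega) (by omega)
  rw [e1] at n2
  rw [e2] at n0
  rw [one_nsmul]
  exact h.ne _ _ n1 hS n2 n0

theorem XLine.seq_dbl (h : XLine X al be) {p : ℕ} (hp : p.Prime) (hp2 : p ≠ 2) {S : G}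
    (hS : S ≠ 0) (hpS : p • S = 0) (m : ℕ) (h1 : 1 ≤ m) (h2 : m ≤ p - 1) :
    X ((2 * m) • S) * (4 * X (m • S) * (X (m • S) ^ 2 + al * X (m • S) + be))
      = (X (m • S) ^ 2 - be) ^ 2 := by
  have n1 := nsmul_ne_zero_of_lt hp hS hpS h1 h2
  have e : (2 * m) • S = m • S + m • S := by rw [two_mul, add_nsmul]
  have n2 : (2 * m) • S ≠ 0 := by
    rw [Ne, nsmul_eq_zero_iff_of_prime hp hS hpS]
    intro hdvd
    rcases (Nat.Prime.dvd_mul hp).1 hdvd with h3 | h3
    · have := Nat.le_of_dvd (by omega) h3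
      have := hp.two_le
      omega
    · have := Nat.le_of_dvd (by omega) h3
      have := hp.two_le
      omega
  rw [e] at n2 ⊢
  exact h.dbl _ n1 n2

theorem XLine.seq_neg (h : XLine X al be) {p : ℕ} {S : G} (hpS : p • S = 0) (m : ℕ)
    (hm : m ≤ p) : X ((p - m) • S) = X (m • S) := by
  have e : (p - m) • S = -(m • S) := by
    rw [eq_neg_iff_add_eq_zero, ← add_nsmul, Nat.sub_add_cancel hm, hpS]
  rw [e, h.neg]

/-- **The kernel of reduction has no `p`-torsion.** -/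
theorem XLine.no_torsion (h : XLine X al be) (v : Valuation K Γ₀) (hal : v al ≤ 1)
    (hbe : v be ≤ 1) (h2 : v 2 = 1) {p : ℕ} (hp : p.Prime) (hp2 : p ≠ 2)
    (hvp : v (p : K) = 1) {S : G} (hS : S ≠ 0) (hpS : p • S = 0) : v (X S) ≤ 1 := by
  have hp3 : 3 ≤ p := by
    have := hp.two_le
    omega
  have key := seq_no_torsion v hal hbe h2 hp3 hvp (fun m => X (m • S))
    (h.seq_prod hp hS hpS) (h.seq_sum hp hS hpS) (h.seq_ne hp hS hpS)
    (by
      have := h.seq_dbl hp hp2 hS hpS 1 le_rfl (by omega)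
      simpa using this)
    (by
      have := h.seq_neg hpS 1 (by omega)
      simpa using this)
    (h.seq_neg hpS 2 (by omega))
  simpa using key

/-- **Nodal case.**  If all non-zero multiples of a point `T` of odd prime order `p` reduce to
the node, then `v (X T)` is a power of some `θ` with `θ ^ p = v be ^ 2`, and
`v be < v (X T) < 1`. -/
theorem XLine.node (h : XLine X al be) (v : Valuation K Γ₀) (hal : v al = 1) (hbe : v be < 1)
    (hbe0 : be ≠ 0) (h2 : v 2 = 1) {p : ℕ} (hp : p.Prime) (hp2 : p ≠ 2) {T : G} (hT : T ≠ 0)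
    (hpT : p • T = 0) (hnode : ∀ m : ℕ, m • T ≠ 0 → v (X (m • T)) < 1) :
    ∃ θ : Γ₀, θ ^ p = v be ^ 2 ∧ (∃ j : ℕ, v (X T) = θ ^ j) ∧ v be < v (X T) := by
  have hp3 : 3 ≤ p := by
    have := hp.two_le
    omega
  have := Fact.mk hp
  have ho : addOrderOf T = p := addOrderOf_eq_prime hpT hT
  -- choose the multiple with maximal valuation
  obtain ⟨m₀, hm₀, hmax⟩ := Finset.exists_max_image (Finset.Icc 1 (p - 1))
    (fun m => v (X (m • T))) ⟨1, by simp; omega⟩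
  rw [Finset.mem_Icc] at hm₀
  have hT' : m₀ • T ≠ 0 := nsmul_ne_zero_of_lt hp hT hpT hm₀.1 hm₀.2
  have hpT' : p • (m₀ • T) = 0 := by
    rw [← mul_nsmul', mul_nsmul, hpT, nsmul_zero]
  -- multiples of `T'` are multiples of `T` with index in `[1, p-1]`
  have hmul : ∀ m : ℕ, m • (m₀ • T) ≠ 0 →
      ∃ r, 1 ≤ r ∧ r ≤ p - 1 ∧ m • (m₀ • T) = r • T := by
    intro m hm
    refine ⟨(m₀ * m) % p, ?_, ?_, ?_⟩
    · by_contra hcon
      have h0 : (m₀ * m) % p = 0 := by omega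
      apply hm
      rw [← mul_nsmul, nsmul_eq_zero_iff_of_prime hp hT hpT]
      exact Nat.dvd_of_mod_eq_zero h0
    · have := Nat.mod_lt (m₀ * m) (by omega : p > 0)
      omega
    · rw [← mul_nsmul]
      conv_rhs => rw [← ho]
      rw [mod_addOrderOf_nsmul]
  have hmax' : ∀ m, 1 ≤ m → m ≤ p - 1 → v (X (m • (m₀ • T))) ≤ v (X (1 • (m₀ • T))) := by
    intro m h1 h2
    have hm := nsmul_ne_zero_of_lt hp hT' hpT' h1 h2
    obtain ⟨r, hr1, hr2, hr⟩ := hmul m hm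
    rw [hr, one_nsmul]
    exact hmax r (by rw [Finset.mem_Icc]; exact ⟨hr1, hr2⟩)
  have hlt1 : v (X (1 • (m₀ • T))) < 1 := by
    rw [one_nsmul]
    exact hnode m₀ hT'
  have key := seq_node v hal hbe hbe0 h2 hp3 (fun m => X (m • (m₀ • T)))
    (h.seq_prod hp hT' hpT') (h.seq_ne hp hT' hpT')
    (by
      have := h.seq_dbl hp hp2 hT' hpT' 1 le_rfl (by omega)
      simpa using this)
    (by
      intro m h1 h2
      refine ⟨X ((2 * m) • (m₀ • T)), ?_, h.seq_dbl hp hp2 hT' hpT' m h1 h2⟩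
      have hne : (2 * m) • (m₀ • T) ≠ 0 := by
        rw [Ne, nsmul_eq_zero_iff_of_prime hp hT' hpT']
        intro hdvd
        rcases (Nat.Prime.dvd_mul hp).1 hdvd with h3 | h3
        · have := Nat.le_of_dvd (by omega) h3
          omega
        · have := Nat.le_of_dvd (by omega) h3
          omega
      obtain ⟨r, hr1, hr2, hr⟩ := hmul (2 * m) hne
      rw [hr]
      exact hnode r (nsmul_ne_zero_of_lt hp hT hpT hr1 hr2))
    hmax' hlt1
    (by
      have := h.seq_neg hpT' 1 (by omega)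
      simpa using this)
  -- `T` is a multiple of `T'`
  obtain ⟨m₁, hm₁, hm₁'⟩ := Nat.exists_mul_mod_eq_one_of_coprime
    (k := p) (n := m₀) ((Nat.coprime_of_lt_prime (by omega) (by omega) hp).symm) (by omega)
  have hTT : m₁ • (m₀ • T) = T := by
    rw [← mul_nsmul, ← mod_addOrderOf_nsmul, ho, hm₁', one_nsmul]
  have hm₁1 : 1 ≤ m₁ := by
    by_contra hcon
    have : m₁ = 0 := by omega
    rw [this, Nat.mul_zero, Nat.zero_mod] at hm₁'
    omega
  refine ⟨v (X (1 • (m₀ • T))), key.1, ?_⟩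
  have := key.2 m₁ hm₁1 (by omega)
  simp only [hTT] at this
  exact this

end group

end Fermat.Agent.S05.helper79
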