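import Fermat.Agent.S05.helper305_Shape
import Fermat.Prelude.Def_FLTPrelim_FreyPackage

/-!
# Frey arithmetic: shape data of the Frey curve at an odd prime (helper956, S05, board row 60)

For a Frey package `P`, a field `K ⊇ ℚ` and a valuation `v` on `K` with `v 2 = 1` and
`v q < 1` (`q` a prime), the Frey curve over `K` has a shape `(e, al, be)` in the sense of
`helper305.Shape` with rational `e, al, be` which are `v`-integral, `al² - 4 be` a `v`-unit, and
either `be` a `v`-unit (good reduction) or `al` a unit and `v be = v w ^ p` for a nonzero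
integer `w` (multiplicative reduction).
-/

namespace Fermat.Agent.S05.helper956

open WeierstrassCurve

section generic

variable {K : Type*} [Field K] {Γ₀ : Type*} [LinearOrderedCommGroupWithZero Γ₀]
  (v : Valuation K Γ₀)

theorem val_natCast_le_one (n : ℕ) : v (n : K) ≤ 1 := by
  induction n with
  | zero => simp
  | succ n ih =>
    rw [Nat.cast_succ]
    exact v.map_add_le ih (le_of_eq v.map_one)

theorem val_intCast_le_one (n : ℤ) : v (n : K) ≤ 1 := by
  rcases Int.natAbs_eq n with h | h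
  · rw [h, Int.cast_natCast]; exact val_natCast_le_one v _
  · rw [h, Int.cast_neg, Int.cast_natCast, Valuation.map_neg]; exact val_natCast_le_one v _

theorem val_intCast_eq_one {q : ℕ} (hq : q.Prime) (hvq : v (q : K) < 1) {n : ℤ}
    (hn : ¬ (q : ℤ) ∣ n) : v (n : K) = 1 := by
  have hcop : IsCoprime (q : ℤ) n :=
    (Nat.prime_iff_prime_int.mp hq).coprime_iff_not_dvd.mpr hn
  obtain ⟨u, w, h⟩ := hcop
  have hK : (u : K) * (q : K) + (w : K) * (n : K) = 1 := by
    have := congrArg (Int.cast : ℤ → K) h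
    push_cast at this
    exact this
  refine le_antisymm (val_intCast_le_one v n) ?_
  by_contra hlt
  rw [not_le] at hlt
  have h1 : v ((u : K) * (q : K)) < 1 := by
    rw [map_mul]
    calc v (u : K) * v (q : K) ≤ 1 * v (q : K) := mul_le_mul' (val_intCast_le_one v u) le_rfl
      _ = v (q : K) := one_mul _
      _ < 1 := hvq
  have h2 : v ((w : K) * (n : K)) < 1 := by
    rw [map_mul]
    calc v (w : K) * v (n : K) ≤ 1 * v (n : K) := mul_le_mul' (val_intCast_le_one v w) le_rfl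
      _ = v (n : K) := one_mul _
      _ < 1 := hlt
  have h3 : v ((u : K) * (q : K) + (w : K) * (n : K)) < 1 := v.map_add_lt h1 h2
  rw [hK, v.map_one] at h3
  exact lt_irrefl _ h3

variable [Algebra ℚ K]

theorem algebraMap_intCast_div (n : ℤ) (d : ℕ) :
    algebraMap ℚ K ((n : ℚ) / (d : ℚ)) = (n : K) / (d : K) := by
  rw [map_div₀, map_intCast, map_natCast]

theorem val_algebraMap_intCast_div (n : ℤ) (d : ℕ) (hd : v (d : K) = 1) :
    v (algebraMap ℚ K ((n : ℚ) / (d : ℚ))) = v (n : K) := by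
  rw [algebraMap_intCast_div, map_div₀, hd, div_one]

end generic

section frey

variable (P : FreyPackage)

theorem not_dvd_and_of_gcd {x y : ℤ} (h : gcd x y = 1) {q : ℕ} (hq : q.Prime) :
    ¬ ((q : ℤ) ∣ x ∧ (q : ℤ) ∣ y) := by
  rintro ⟨hx, hy⟩
  have h1 : (q : ℤ) ∣ 1 := h ▸ dvd_gcd hx hy
  have h2 : (q : ℤ) ∣ ((1 : ℕ) : ℤ) := by simpa using h1
  have h3 : q ∣ 1 := Int.natCast_dvd_natCast.mp h2
  exact hq.one_lt.ne' (Nat.dvd_one.mp h3)

theorem dvd_pow_iff {q : ℕ} (hq : q.Prime) (x : ℤ) {n : ℕ} (hn : n ≠ 0) :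
    (q : ℤ) ∣ x ^ n ↔ (q : ℤ) ∣ x :=
  ⟨fun h => (Nat.prime_iff_prime_int.mp hq).dvd_of_dvd_pow h, fun h => dvd_pow h hn⟩

/-- The rational identity `a^p + b^p = c^p`. -/
theorem hFLT_rat : (P.a : ℚ) ^ P.p + (P.b : ℚ) ^ P.p = (P.c : ℚ) ^ P.p := by
  have := congrArg (Int.cast : ℤ → ℚ) P.hFLT
  push_cast at this
  exact this

theorem freyCurve_b₂ : P.freyCurve.b₂ = (P.b : ℚ) ^ P.p - (P.a : ℚ) ^ P.p := by
  simp only [WeierstrassCurve.b₂, FreyPackage.freyCurve]
  ring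

theorem freyCurve_b₄ : P.freyCurve.b₄ = -((P.a : ℚ) ^ P.p * (P.b : ℚ) ^ P.p) / 8 := by
  simp only [WeierstrassCurve.b₄, FreyPackage.freyCurve]
  ring

theorem freyCurve_b₆ : P.freyCurve.b₆ = 0 := by
  simp only [WeierstrassCurve.b₆, FreyPackage.freyCurve]
  ring

variable {K : Type*} [Field K] [Algebra ℚ K]

/-- A rational shape gives a shape over `K`. -/
theorem shape_map (W : WeierstrassCurve ℚ) (e al be : ℚ) (h2 : (2 : K) ≠ 0)
    (hb2 : W.b₂ = 4 * al - 12 * e) (hb4 : W.b₄ = 6 * e ^ 2 - 4 * al * e + 2 * be)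
    (hb6 : W.b₆ = -4 * e ^ 3 + 4 * al * e ^ 2 - 4 * be * e) :
    helper305.Shape (W.baseChange K) (algebraMap ℚ K e) (algebraMap ℚ K al)
      (algebraMap ℚ K be) := by
  refine ⟨h2, ?_, ?_, ?_⟩
  · rw [WeierstrassCurve.baseChange, WeierstrassCurve.map_b₂, hb2]
    simp only [map_sub, map_mul, map_ofNat]
  · rw [WeierstrassCurve.baseChange, WeierstrassCurve.map_b₄, hb4]
    simp only [map_sub, map_add, map_mul, map_pow, map_ofNat]
  · rw [WeierstrassCurve.baseChange, WeierstrassCurve.map_b₆, hb6]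
    simp only [map_sub, map_add, map_mul, map_pow, map_neg, map_ofNat]

/-- Shape of the Frey curve over `K` centred at the 2-torsion point `x = 0`. -/
theorem shape_zero (h2 : (2 : K) ≠ 0) :
    helper305.Shape (P.freyCurve.baseChange K) (algebraMap ℚ K 0)
      (algebraMap ℚ K ((((P.b ^ P.p - P.a ^ P.p : ℤ) : ℚ)) / ((4 : ℕ) : ℚ)))
      (algebraMap ℚ K ((((-(P.a ^ P.p * P.b ^ P.p) : ℤ) : ℚ)) / ((16 : ℕ) : ℚ))) := by
  refine shape_map _ _ _ _ h2 ?_ ?_ ?_
  · rw [freyCurve_b₂]; push_cast; ring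
  · rw [freyCurve_b₄]; push_cast; ring
  · rw [freyCurve_b₆]; push_cast; ring

/-- Shape of the Frey curve over `K` centred at the 2-torsion point `x = a^p/4`. -/
theorem shape_shift (h2 : (2 : K) ≠ 0) :
    helper305.Shape (P.freyCurve.baseChange K)
      (algebraMap ℚ K ((((P.a ^ P.p : ℤ) : ℚ)) / ((4 : ℕ) : ℚ)))
      (algebraMap ℚ K ((((P.a ^ P.p + P.c ^ P.p : ℤ) : ℚ)) / ((4 : ℕ) : ℚ)))
      (algebraMap ℚ K ((((P.a ^ P.p * P.c ^ P.p : ℤ) : ℚ)) / ((16 : ℕ) : ℚ))) := by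
  have hF := hFLT_rat P
  refine shape_map _ _ _ _ h2 ?_ ?_ ?_
  · rw [freyCurve_b₂]; push_cast; linear_combination hF
  · rw [freyCurve_b₄]; push_cast; linear_combination (-(P.a : ℚ) ^ P.p / 8) * hF
  · rw [freyCurve_b₆]; push_cast; ring

variable {Γ₀ : Type*} [LinearOrderedCommGroupWithZero Γ₀] (v : Valuation K Γ₀)

/-- **Board row 60 (S05-I2).** Shape data of the Frey curve at a prime `q` with `v 2 = 1`,
`v q < 1`: rational `e, al, be` with `Shape`, integrality, `al² - 4 be` a unit, `be ≠ 0`, and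
`v be = 1` (good) or `v al = 1 ∧ v be = v w ^ p` with `w ∈ ℤ`, `w ≠ 0` (multiplicative). -/
theorem frey_shape {q : ℕ} (hq : q.Prime) (hv2 : v (2 : K) = 1) (hvq : v (q : K) < 1) :
    ∃ e al be : ℚ,
      helper305.Shape (P.freyCurve.baseChange K) (algebraMap ℚ K e) (algebraMap ℚ K al)
        (algebraMap ℚ K be) ∧
      v (algebraMap ℚ K e) ≤ 1 ∧ v (algebraMap ℚ K al) ≤ 1 ∧ v (algebraMap ℚ K be) ≤ 1 ∧
      be ≠ 0 ∧ algebraMap ℚ K be ≠ 0 ∧
      v (algebraMap ℚ K al ^ 2 - 4 * algebraMap ℚ K be) = 1 ∧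
      (v (algebraMap ℚ K be) = 1 ∨
        (v (algebraMap ℚ K al) = 1 ∧
          ∃ w : ℤ, w ≠ 0 ∧ v (algebraMap ℚ K be) = v (w : K) ^ P.p)) := by
  have h2 : (2 : K) ≠ 0 := fun h => by rw [h, map_zero] at hv2; exact zero_ne_one hv2
  have hv4 : v ((4 : ℕ) : K) = 1 := by
    have : ((4 : ℕ) : K) = 2 * 2 := by norm_num
    rw [this, map_mul, hv2, one_mul]
  have hv16 : v ((16 : ℕ) : K) = 1 := by
    have : ((16 : ℕ) : K) = 2 * 2 * (2 * 2) := by norm_num
    rw [this, map_mul, map_mul, hv2, one_mul, one_mul]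
  have hinj : Function.Injective (algebraMap ℚ K) := (algebraMap ℚ K).injective
  have hp0 : P.p ≠ 0 := P.hp0
  have ha0 := P.ha0
  have hb0 := P.hb0
  have hc0 := P.hc0
  have hab := not_dvd_and_of_gcd P.hgcdab hq
  have hac := not_dvd_and_of_gcd P.hgcdac hq
  have hbc := not_dvd_and_of_gcd P.hgcdbc hq
  have hqi : Prime (q : ℤ) := Nat.prime_iff_prime_int.mp hq
  by_cases hc : (q : ℤ) ∣ P.c
  · -- multiplicative at a prime dividing `c`: centre at `x = a^p / 4`
    have hna : ¬ (q : ℤ) ∣ P.a := fun h => hac ⟨h, hc⟩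
    have hnb : ¬ (q : ℤ) ∣ P.b := fun h => hbc ⟨h, hc⟩
    refine ⟨_, _, _, shape_shift P h2, ?_, ?_, ?_, ?_, ?_, ?_, Or.inr ⟨?_, P.a * P.c, ?_, ?_⟩⟩
    · rw [val_algebraMap_intCast_div v _ _ hv4]; exact val_intCast_le_one v _
    · rw [val_algebraMap_intCast_div v _ _ hv4]; exact val_intCast_le_one v _
    · rw [val_algebraMap_intCast_div v _ _ hv16]; exact val_intCast_le_one v _
    · refine div_ne_zero ?_ (by norm_num)
      exact_mod_cast mul_ne_zero (pow_ne_zero _ ha0) (pow_ne_zero _ hc0)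
    · refine fun h => absurd (hinj (h.trans (map_zero _).symm)) (div_ne_zero ?_ (by norm_num))
      exact_mod_cast mul_ne_zero (pow_ne_zero _ ha0) (pow_ne_zero _ hc0)
    · -- `al² - 4 be = (b^p)² / 16`
      have hF := hFLT_rat P
      have hid : algebraMap ℚ K ((((P.a ^ P.p + P.c ^ P.p : ℤ) : ℚ)) / ((4 : ℕ) : ℚ)) ^ 2 -
          4 * algebraMap ℚ K ((((P.a ^ P.p * P.c ^ P.p : ℤ) : ℚ)) / ((16 : ℕ) : ℚ)) =
          algebraMap ℚ K ((((P.b ^ P.p) ^ 2 : ℤ) : ℚ) / ((16 : ℕ) : ℚ)) := by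
        rw [← map_ofNat (algebraMap ℚ K) 4, ← map_pow, ← map_mul, ← map_sub]
        congr 1
        push_cast
        linear_combination (((P.a : ℚ) ^ P.p - (P.c : ℚ) ^ P.p - (P.b : ℚ) ^ P.p) / 16) * hF
      rw [hid, val_algebraMap_intCast_div v _ _ hv16]
      exact val_intCast_eq_one v hq hvq
        (fun h => hnb ((dvd_pow_iff hq _ hp0).mp ((dvd_pow_iff hq _ two_ne_zero).mp h)))
    · rw [val_algebraMap_intCast_div v _ _ hv4]
      refine val_intCast_eq_one v hq hvq (fun h => hna ?_)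
      have h1 : (q : ℤ) ∣ P.c ^ P.p := dvd_pow hc hp0
      exact (dvd_pow_iff hq _ hp0).mp ((dvd_add_left h1).mp h)
    · exact mul_ne_zero ha0 hc0
    · rw [val_algebraMap_intCast_div v _ _ hv16, ← map_pow, ← mul_pow, Int.cast_pow]
  · -- centre at `x = 0`
    have hcunit : v ((P.c : ℤ) : K) = 1 := val_intCast_eq_one v hq hvq hc
    have hdisj : v (algebraMap ℚ K ((((-(P.a ^ P.p * P.b ^ P.p) : ℤ) : ℚ)) / ((16 : ℕ) : ℚ))) = 1 ∨
        (v (algebraMap ℚ K ((((P.b ^ P.p - P.a ^ P.p : ℤ) : ℚ)) / ((4 : ℕ) : ℚ))) = 1 ∧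
          ∃ w : ℤ, w ≠ 0 ∧
            v (algebraMap ℚ K ((((-(P.a ^ P.p * P.b ^ P.p) : ℤ) : ℚ)) / ((16 : ℕ) : ℚ))) =
              v (w : K) ^ P.p) := by
      have hbe : v (algebraMap ℚ K ((((-(P.a ^ P.p * P.b ^ P.p) : ℤ) : ℚ)) / ((16 : ℕ) : ℚ))) =
          v ((P.a * P.b : ℤ) : K) ^ P.p := by
        rw [val_algebraMap_intCast_div v _ _ hv16, ← map_pow, ← Int.cast_pow, mul_pow,
          Int.cast_neg, Valuation.map_neg]
      by_cases hqab : (q : ℤ) ∣ P.a * P.b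
      · right
        refine ⟨?_, P.a * P.b, mul_ne_zero ha0 hb0, hbe⟩
        rw [val_algebraMap_intCast_div v _ _ hv4]
        refine val_intCast_eq_one v hq hvq (fun h => ?_)
        rcases hqi.dvd_or_dvd hqab with ha | hb
        · have h1 : (q : ℤ) ∣ P.a ^ P.p := dvd_pow ha hp0
          have h2' : (q : ℤ) ∣ P.b ^ P.p := (dvd_sub_left h1).mp h
          exact hab ⟨ha, (dvd_pow_iff hq _ hp0).mp h2'⟩
        · have h1 : (q : ℤ) ∣ P.b ^ P.p := dvd_pow hb hp0
          have h2' : (q : ℤ) ∣ P.a ^ P.p := (dvd_sub_right h1).mp h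
          exact hab ⟨(dvd_pow_iff hq _ hp0).mp h2', hb⟩
      · left
        rw [hbe, val_intCast_eq_one v hq hvq hqab, one_pow]
    refine ⟨_, _, _, shape_zero P h2, ?_, ?_, ?_, ?_, ?_, ?_, hdisj⟩
    · rw [map_zero, map_zero]; exact zero_le_one
    · rw [val_algebraMap_intCast_div v _ _ hv4]; exact val_intCast_le_one v _
    · rw [val_algebraMap_intCast_div v _ _ hv16]; exact val_intCast_le_one v _
    · refine div_ne_zero ?_ (by norm_num)
      exact_mod_cast neg_ne_zero.mpr (mul_ne_zero (pow_ne_zero _ ha0) (pow_ne_zero _ hb0))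
    · refine fun h => absurd (hinj (h.trans (map_zero _).symm)) (div_ne_zero ?_ (by norm_num))
      exact_mod_cast neg_ne_zero.mpr (mul_ne_zero (pow_ne_zero _ ha0) (pow_ne_zero _ hb0))
    · have hF := hFLT_rat P
      have hid : algebraMap ℚ K ((((P.b ^ P.p - P.a ^ P.p : ℤ) : ℚ)) / ((4 : ℕ) : ℚ)) ^ 2 -
          4 * algebraMap ℚ K ((((-(P.a ^ P.p * P.b ^ P.p) : ℤ) : ℚ)) / ((16 : ℕ) : ℚ)) =
          algebraMap ℚ K ((((P.c ^ P.p) ^ 2 : ℤ) : ℚ) / ((16 : ℕ) : ℚ)) := by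
        rw [← map_ofNat (algebraMap ℚ K) 4, ← map_pow, ← map_mul, ← map_sub]
        congr 1
        push_cast
        linear_combination (((P.a : ℚ) ^ P.p + (P.b : ℚ) ^ P.p + (P.c : ℚ) ^ P.p) / 16) * hF
      rw [hid, val_algebraMap_intCast_div v _ _ hv16]
      exact val_intCast_eq_one v hq hvq
        (fun h => hc ((dvd_pow_iff hq _ hp0).mp ((dvd_pow_iff hq _ two_ne_zero).mp h)))

/-- `frey_shape` for a valuation subring `A` of `K` whose maximal ideal contains the odd prime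
`q` (i.e. `A.LiesOverPrime q` with `q ≠ 2`). -/
theorem frey_shape_valuationSubring (A : ValuationSubring K) {q : ℕ} (hq : q.Prime)
    (hq2 : q ≠ 2) (hqA : (q : K) ∈ A.nonunits) :
    ∃ e al be : ℚ,
      helper305.Shape (P.freyCurve.baseChange K) (algebraMap ℚ K e) (algebraMap ℚ K al)
        (algebraMap ℚ K be) ∧
      A.valuation (algebraMap ℚ K e) ≤ 1 ∧ A.valuation (algebraMap ℚ K al) ≤ 1 ∧
      A.valuation (algebraMap ℚ K be) ≤ 1 ∧
      be ≠ 0 ∧ algebraMap ℚ K be ≠ 0 ∧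
      A.valuation (algebraMap ℚ K al ^ 2 - 4 * algebraMap ℚ K be) = 1 ∧
      (A.valuation (algebraMap ℚ K be) = 1 ∨
        (A.valuation (algebraMap ℚ K al) = 1 ∧
          ∃ w : ℤ, w ≠ 0 ∧ A.valuation (algebraMap ℚ K be) = A.valuation (w : K) ^ P.p)) := by
  have hvq : A.valuation (q : K) < 1 := A.mem_nonunits_iff.mp hqA
  have hv2 : A.valuation (2 : K) = 1 := by
    have h : ¬ (q : ℤ) ∣ (2 : ℤ) := by
      intro h
      have h' : q ∣ 2 := by exact_mod_cast h
      exact hq2 ((Nat.prime_dvd_prime_iff_eq hq Nat.prime_two).mp h')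
    have := val_intCast_eq_one A.valuation hq hvq h
    simpa using this
  exact frey_shape P A.valuation hq hv2 hvq

end frey

end Fermat.Agent.S05.helper956
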