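import Mathlib
import Fermat.Agent.S05.helper5_Spec
import Fermat.Agent.S05.helper1745_XOnly

/-!
# S05-GOOD (helper959): `good_of_ker : KerStmt → GoodStmt`

Good reduction case: an inertia element fixes the coordinates of every `p`-torsion point,
given that the kernel of reduction has no `p`-torsion (`KerStmt`).

Contents:
* `kum_add_sub`, `kum_dbl`: the x-only sum/product/duplication identities of
  `helper1745_XOnly`, rewritten in the shape coordinates `ξ = x - e`.
* a few valuation helpers (`vlt_*`, `vle_*`);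
* `good_of_ker`.
-/

set_option autoImplicit false

namespace Fermat.Agent.S05.helper959

open WeierstrassCurve WeierstrassCurve.Affine
open Fermat.Agent.S05.helper305 (Shape eta)
open Fermat.Agent.S05.helper5

section kummer

variable {K : Type*} [Field K] {W : WeierstrassCurve K} {e al be : K}

/-- `b₈` in shape coordinates. -/
theorem shape_b8 (hS : Shape W e al be) :
    W.b₈ = 3 * e ^ 4 - 4 * al * e ^ 3 + 6 * be * e ^ 2 - be ^ 2 := by
  have h2 := hS.two_ne
  have h4 : (4 : K) ≠ 0 := by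
    have : (4 : K) = 2 * 2 := by norm_num
    rw [this]; exact mul_ne_zero h2 h2
  have hrel := W.b_relation
  rw [hS.hb2, hS.hb4, hS.hb6] at hrel
  apply mul_left_cancel₀ h4
  linear_combination hrel

variable [DecidableEq K]

/-- x-only sum and product formulas in shape coordinates. -/
theorem kum_add_sub (hS : Shape W e al be) {x₁ y₁ x₂ y₂ : K}
    (h₁ : W.toAffine.Nonsingular x₁ y₁) (h₂ : W.toAffine.Nonsingular x₂ y₂) (hx : x₁ ≠ x₂) :
    ∃ (Xp Yp Xm Ym : K) (hp : W.toAffine.Nonsingular Xp Yp) (hm : W.toAffine.Nonsingular Xm Ym),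
      Point.some x₁ y₁ h₁ + Point.some x₂ y₂ h₂ = Point.some Xp Yp hp ∧
      Point.some x₁ y₁ h₁ - Point.some x₂ y₂ h₂ = Point.some Xm Ym hm ∧
      (Xp - e) * (Xm - e) * (x₁ - x₂) ^ 2 = ((x₁ - e) * (x₂ - e) - be) ^ 2 ∧
      ((Xp - e) + (Xm - e)) * (x₁ - x₂) ^ 2 =
        2 * ((x₁ - e) + (x₂ - e)) * ((x₁ - e) * (x₂ - e) + be) + 4 * al * (x₁ - e) * (x₂ - e) := by
  obtain ⟨Xp, Yp, Xm, Ym, hp, hm, hadd, hsub, hprod, hsum⟩ :=
    Fermat.Agent.S05.helper1745.exists_add_sub_some h₁ h₂ hx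
  refine ⟨Xp, Yp, Xm, Ym, hp, hm, hadd, hsub, ?_, ?_⟩
  · have hb8 := shape_b8 hS
    have hb2 := hS.hb2
    have hb4 := hS.hb4
    have hb6 := hS.hb6
    rw [hb8, hb4, hb6] at hprod
    rw [hb2, hb4, hb6] at hsum
    linear_combination hprod - e * hsum
  · have hb2 := hS.hb2
    have hb4 := hS.hb4
    have hb6 := hS.hb6
    rw [hb2, hb4, hb6] at hsum
    linear_combination hsum

/-- x-only duplication formula in shape coordinates. -/
theorem kum_dbl (hS : Shape W e al be) {x y : K}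
    (h : W.toAffine.Nonsingular x y) (hy : y ≠ W.toAffine.negY x y) :
    ∃ (X Y : K) (h' : W.toAffine.Nonsingular X Y),
      Point.some x y h + Point.some x y h = Point.some X Y h' ∧
      (X - e) * (4 * ((x - e) * ((x - e) ^ 2 + al * (x - e) + be))) =
        ((x - e) ^ 2 - be) ^ 2 := by
  obtain ⟨X, Y, h', hadd, hdbl, -⟩ :=
    Fermat.Agent.S05.helper1745.exists_add_self_some h hy
  refine ⟨X, Y, h', hadd, ?_⟩
  have hb8 := shape_b8 hS
  have hb2 := hS.hb2
  have hb4 := hS.hb4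
  have hb6 := hS.hb6
  rw [hb8, hb2, hb4, hb6] at hdbl
  linear_combination hdbl

end kummer

section val

variable {K : Type*} [Field K] {Γ₀ : Type*} [LinearOrderedCommGroupWithZero Γ₀]
  (v : Valuation K Γ₀)

theorem vle_mul {a b : K} (ha : v a ≤ 1) (hb : v b ≤ 1) : v (a * b) ≤ 1 := by
  rw [v.map_mul]; exact mul_le_one' ha hb

theorem vle_add {a b : K} (ha : v a ≤ 1) (hb : v b ≤ 1) : v (a + b) ≤ 1 :=
  v.map_add_le ha hb

theorem vle_sub {a b : K} (ha : v a ≤ 1) (hb : v b ≤ 1) : v (a - b) ≤ 1 :=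
  v.map_sub_le ha hb

theorem vlt_mul {a b : K} (ha : v a ≤ 1) (hb : v b < 1) : v (a * b) < 1 := by
  rw [v.map_mul]; exact lt_of_le_of_lt (mul_le_of_le_one_left' ha) hb

theorem vlt_mul' {a b : K} (ha : v a < 1) (hb : v b ≤ 1) : v (a * b) < 1 := by
  rw [mul_comm]; exact vlt_mul v hb ha

theorem vlt_add {a b : K} (ha : v a < 1) (hb : v b < 1) : v (a + b) < 1 :=
  v.map_add_lt ha hb

theorem vlt_sub {a b : K} (ha : v a < 1) (hb : v b < 1) : v (a - b) < 1 :=
  v.map_sub_lt ha hb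

theorem vlt_of_sq {a : K} (ha : v (a ^ 2) < 1) : v a < 1 := by
  by_contra hcon
  have h1 : 1 ≤ v a := not_lt.mp hcon
  have : 1 ≤ v (a ^ 2) := by
    rw [v.map_pow]; exact one_le_pow₀ h1
  exact absurd ha (not_lt.mpr this)

theorem vle_of_sq {a : K} (ha : v (a ^ 2) ≤ 1) : v a ≤ 1 := by
  by_contra hcon
  have h1 : 1 < v a := not_le.mp hcon
  have : 1 < v (a ^ 2) := by
    rw [v.map_pow]; exact one_lt_pow₀ h1 two_ne_zero
  exact absurd ha (not_le.mpr this)

theorem vlt_of_unit_mul {a b : K} (ha : v a = 1) (hab : v (a * b) < 1) : v b < 1 := by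
  rwa [v.map_mul, ha, one_mul] at hab

theorem v_four (h2 : v 2 = 1) : v 4 = 1 := by
  have : (4 : K) = 2 * 2 := by norm_num
  rw [this, v.map_mul, h2, one_mul]

/-- The product numerator and the sum numerator cannot both be nonunits. -/
theorem not_both_small {al be ξ₁ ξ₂ : K} (h2 : v 2 = 1) (hal : v al ≤ 1) (hbe : v be = 1)
    (hdisc : v (al ^ 2 - 4 * be) = 1) (h₁ : v ξ₁ ≤ 1) (h₂ : v ξ₂ ≤ 1)
    (hδ : v (ξ₁ - ξ₂) < 1) (hu : v (ξ₁ * ξ₂ - be) < 1)
    (hs : v (2 * (ξ₁ + ξ₂) * (ξ₁ * ξ₂ + be) + 4 * al * ξ₁ * ξ₂) < 1) : False := by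
  have h4 := v_four v h2
  have hbe' : v be ≤ 1 := hbe.le
  have h2' : v 2 ≤ 1 := h2.le
  have h4' : v 4 ≤ 1 := h4.le
  have key : v (4 * be * (2 * ξ₂ + al)) < 1 := by
    have : 4 * be * (2 * ξ₂ + al) =
        (2 * (ξ₁ + ξ₂) * (ξ₁ * ξ₂ + be) + 4 * al * ξ₁ * ξ₂) -
          ((4 * ξ₂ + 2 * (ξ₁ - ξ₂) + 4 * al) * (ξ₁ * ξ₂ - be) + 4 * be * (ξ₁ - ξ₂)) := by ring
    rw [this]
    refine vlt_sub v hs (vlt_add v (vlt_mul v ?_ hu) (vlt_mul v (vle_mul v h4' hbe') hδ))
    exact vle_add v (vle_add v (vle_mul v h4' h₂) (vle_mul v h2' (vle_sub v h₁ h₂)))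
      (vle_mul v h4' hal)
  have key2 : v (2 * ξ₂ + al) < 1 :=
    vlt_of_unit_mul v (by rw [v.map_mul, h4, hbe, one_mul]) key
  have : al ^ 2 - 4 * be =
      (al - 2 * ξ₂) * (2 * ξ₂ + al) + ((-4 * ξ₂) * (ξ₁ - ξ₂) + 4 * (ξ₁ * ξ₂ - be)) := by ring
  have hlt : v (al ^ 2 - 4 * be) < 1 := by
    rw [this]
    refine vlt_add v (vlt_mul v (vle_sub v hal (vle_mul v h2' h₂)) key2)
      (vlt_add v (vlt_mul v ?_ hδ) (vlt_mul v h4' hu))
    rw [neg_mul, v.map_neg]
    exact vle_mul v h4' h₂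
  rw [hdisc] at hlt
  exact lt_irrefl _ hlt

/-- A point with `η` a nonunit cannot have `ξ² - be` a nonunit. -/
theorem dbl_contra {al be ξ : K} (h2 : v 2 = 1) (hal : v al ≤ 1) (hbe : v be = 1)
    (hdisc : v (al ^ 2 - 4 * be) = 1) (hξ : v ξ ≤ 1)
    (hw : v (ξ * (ξ ^ 2 + al * ξ + be)) < 1) (hu : v (ξ ^ 2 - be) < 1) : False := by
  have h4 := v_four v h2
  have h2' : v 2 ≤ 1 := h2.le
  have h4' : v 4 ≤ 1 := h4.le
  have key : v (be * (al + 2 * ξ)) < 1 := by
    have : be * (al + 2 * ξ) = ξ * (ξ ^ 2 + al * ξ + be) - (ξ + al) * (ξ ^ 2 - be) := by ring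
    rw [this]
    exact vlt_sub v hw (vlt_mul v (vle_add v hξ hal) hu)
  have key2 : v (al + 2 * ξ) < 1 := vlt_of_unit_mul v hbe key
  have : al ^ 2 - 4 * be = (al - 2 * ξ) * (al + 2 * ξ) + 4 * (ξ ^ 2 - be) := by ring
  have hlt : v (al ^ 2 - 4 * be) < 1 := by
    rw [this]
    exact vlt_add v (vlt_mul v (vle_sub v hal (vle_mul v h2' hξ)) key2) (vlt_mul v h4' hu)
  rw [hdisc] at hlt
  exact lt_irrefl _ hlt

end val

/-- **GOOD** from **KER**. -/
theorem good_of_ker (hK : KerStmt) : GoodStmt := by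
  intro K _ _ Γ₀ _ v W e al be hS h2 hal hbe hdisc p hp hp2 hvp σ hσ hσe hσa1 hσa3 x y h h'
    hP hP'
  have two_ne := hS.two_ne
  have h4 := v_four v h2
  -- `p`-torsion points are not in the kernel of reduction
  have hker : ∀ (X Y : K) (hXY : W.toAffine.Nonsingular X Y),
      p • (Point.some X Y hXY : W.toAffine.Point) = 0 → v (X - e) ≤ 1 := by
    intro X Y hXY hpt
    by_contra hlt
    exact hK K Γ₀ v W e al be hS h2 hal hbe.le p hp hp2 hvp X Y hXY (not_le.mp hlt) hpt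
  have hξO : v (x - e) ≤ 1 := hker x y h hP
  have hξ'O : v (σ x - e) ≤ 1 := hker _ _ h' hP'
  have hcurve : eta W x y ^ 2 = (x - e) * ((x - e) ^ 2 + al * (x - e) + be) :=
    (hS.equation_iff x y).1 h.1
  have hwO : v ((x - e) * ((x - e) ^ 2 + al * (x - e) + be)) ≤ 1 := by
    refine vle_mul v hξO (vle_add v (vle_add v ?_ (vle_mul v hal hξO)) hbe.le)
    rw [pow_two]; exact vle_mul v hξO hξO
  have hηO : v (eta W x y) ≤ 1 := vle_of_sq v (by rw [hcurve]; exact hwO)
  have hσξ : σ (x - e) = σ x - e := by rw [map_sub, hσe]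
  have hσ2 : σ 2 = 2 := map_ofNat σ 2
  have hση : σ (eta W x y) = eta W (σ x) (σ y) := by
    simp only [eta, map_add, map_mul, map_div₀, hσa1, hσa3, hσ2]
  have hδ : v (σ x - x) < 1 := by
    have := hσ (x - e) hξO
    rw [hσξ] at this
    have h3 : σ x - e - (x - e) = σ x - x := by ring
    rwa [h3] at this
  have hδη : v (eta W (σ x) (σ y) - eta W x y) < 1 := by
    rw [← hση]; exact hσ _ hηO
  -- Step A: `σ x = x`
  have hx : σ x = x := by
    by_contra hne
    obtain ⟨Xp, Yp, Xm, Ym, hp', hm', hadd, hsub, hprod, hsum⟩ := kum_add_sub hS h' h hne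
    have hXp : v (Xp - e) ≤ 1 := by
      apply hker Xp Yp hp'
      rw [← hadd, smul_add, hP, hP', add_zero]
    have hXm : v (Xm - e) ≤ 1 := by
      apply hker Xm Ym hm'
      rw [← hsub, smul_sub, hP, hP', sub_zero]
    have hδ2 : v ((σ x - x) ^ 2) < 1 := by
      rw [pow_two]; exact vlt_mul v hδ.le hδ
    have hu : v ((σ x - e) * (x - e) - be) < 1 := by
      apply vlt_of_sq v
      rw [← hprod]
      exact vlt_mul v (vle_mul v hXp hXm) hδ2
    have hs : v (2 * ((σ x - e) + (x - e)) * ((σ x - e) * (x - e) + be)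
        + 4 * al * (σ x - e) * (x - e)) < 1 := by
      rw [← hsum]
      exact vlt_mul v (vle_add v hXp hXm) hδ2
    have hδ' : v ((σ x - e) - (x - e)) < 1 := by
      have h3 : σ x - e - (x - e) = σ x - x := by ring
      rwa [h3]
    exact not_both_small v h2 hal hbe hdisc hξ'O hξO hδ' hu hs
  refine ⟨hx, ?_⟩
  -- Step B: `σ y = y`
  by_contra hyne
  have hh : W.toAffine.Equation x (σ y) := by
    have := h'.1
    rwa [hx] at this
  rcases Y_eq_of_X_eq hh h.1 rfl with hy | hy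
  · exact hyne hy
  · have hy' : y ≠ W.toAffine.negY x y := fun hcon => hyne (hy.trans hcon.symm)
    obtain ⟨X, Y, hXY, hadd, hdbl⟩ := kum_dbl hS h hy'
    have hX : v (X - e) ≤ 1 := by
      apply hker X Y hXY
      rw [← hadd, smul_add, hP, add_zero]
    have hη' : eta W (σ x) (σ y) = - eta W x y := by
      rw [hx, hy]; exact Fermat.Agent.S05.helper305.eta_negY W two_ne x y
    have hη : v (eta W x y) < 1 := by
      rw [hη'] at hδη
      have h3 : - eta W x y - eta W x y = (-2) * eta W x y := by ring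
      rw [h3] at hδη
      exact vlt_of_unit_mul v (by rw [v.map_neg, h2]) hδη
    have hw : v ((x - e) * ((x - e) ^ 2 + al * (x - e) + be)) < 1 := by
      rw [← hcurve, pow_two]; exact vlt_mul v hη.le hη
    have hu : v ((x - e) ^ 2 - be) < 1 := by
      apply vlt_of_sq v
      rw [← hdbl]
      exact vlt_mul v hX (vlt_mul v h4.le hw)
    exact dbl_contra v h2 hal hbe hdisc hξO hw hu

end Fermat.Agent.S05.helper959
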